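import Mathlib
import Fermat.Agent.S21.ParabolicConj

/-
P7 [PD3-AL] (helper96): cusp classes under automorphisms induced by integer matrices of
positive determinant (Atkin-Lehner).

* `IsPosPar`, `IsPosPrim Γ` : positive (primitive) parabolic elements of `Γ ≤ SL(2, ℤ)`.
* `IsPosPrim.map` (AL1) : an automorphism `θ` of `Γ` with `W * γ = θ γ * W`, `0 < det W`,
  preserves `IsPosPrim Γ`.
* `isPosPrim_conj_T_pow`, `IsPosPrim.exists_conj`, `conj_T_zpow_eq_conj`, `of_orbits` (AL2) :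
  the positive primitive parabolic elements are exactly the `g * T ^ e * g⁻¹` with `e > 0`
  minimal, and their `Γ`-classes are the `T`-orbits on `Γ \ SL(2, ℤ)`.
* `sum_comp_aut` (AL3) : a class-function sum over representatives is `θ`-invariant.
-/

set_option autoImplicit false

namespace Fermat.Agent.P7.CuspAut

open Matrix ModularGroup
open scoped MatrixGroups

/-- Positive parabolic elements. -/
def IsPosPar (P : SL(2, ℤ)) : Prop :=
  P.1.trace = 2 ∧ P ≠ 1 ∧ 0 ≤ P.1 0 1 ∧ P.1 1 0 ≤ 0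

/-- Positive primitive parabolic elements of `Γ`. -/
def IsPosPrim (Γ : Subgroup SL(2, ℤ)) (P : SL(2, ℤ)) : Prop :=
  IsPosPar P ∧ P ∈ Γ ∧ ∀ Q ∈ Γ, Commute Q P → ∃ k : ℤ, Q = P ^ k ∨ Q = -P ^ k

lemma det_eq (g : SL(2, ℤ)) : g.1 0 0 * g.1 1 1 - g.1 0 1 * g.1 1 0 = 1 := by
  have := g.det_coe
  rw [Matrix.det_fin_two] at this
  exact this

lemma ext_entries {A B : SL(2, ℤ)} (h00 : A.1 0 0 = B.1 0 0) (h01 : A.1 0 1 = B.1 0 1)
    (h10 : A.1 1 0 = B.1 1 0) (h11 : A.1 1 1 = B.1 1 1) : A = B := by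
  apply Subtype.ext
  ext i j
  fin_cases i <;> fin_cases j <;> assumption

lemma coe_eq_of (g : SL(2, ℤ)) :
    (g : Matrix (Fin 2) (Fin 2) ℤ) = !![g.1 0 0, g.1 0 1; g.1 1 0, g.1 1 1] := by
  ext i j; fin_cases i <;> fin_cases j <;> rfl

/-- The entries of `g * T ^ m * g⁻¹`. -/
lemma conj_T_zpow_coe (g : SL(2, ℤ)) (m : ℤ) :
    (g * T ^ m * g⁻¹).1 = !![1 - m * g.1 0 0 * g.1 1 0, m * g.1 0 0 ^ 2;
      -(m * g.1 1 0 ^ 2), 1 + m * g.1 0 0 * g.1 1 0] := by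
  have hd := det_eq g
  rw [Matrix.SpecialLinearGroup.coe_mul, Matrix.SpecialLinearGroup.coe_mul,
    ModularGroup.coe_T_zpow, Matrix.SpecialLinearGroup.coe_inv, Matrix.adjugate_fin_two]
  rw [coe_eq_of g]
  simp only [Matrix.mul_fin_two, Matrix.of_apply, Matrix.cons_val_zero, Matrix.cons_val_one,
    Matrix.cons_val', Matrix.cons_val_fin_one]
  ext i j
  fin_cases i <;> fin_cases j <;> simp <;> first | linear_combination hd | ring

lemma conj_T_zpow_00 (g : SL(2, ℤ)) (m : ℤ) :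
    (g * T ^ m * g⁻¹).1 0 0 = 1 - m * g.1 0 0 * g.1 1 0 := by
  rw [conj_T_zpow_coe]; rfl

lemma conj_T_zpow_01 (g : SL(2, ℤ)) (m : ℤ) :
    (g * T ^ m * g⁻¹).1 0 1 = m * g.1 0 0 ^ 2 := by
  rw [conj_T_zpow_coe]; rfl

lemma conj_T_zpow_10 (g : SL(2, ℤ)) (m : ℤ) :
    (g * T ^ m * g⁻¹).1 1 0 = -(m * g.1 1 0 ^ 2) := by
  rw [conj_T_zpow_coe]; rfl

lemma conj_T_zpow_11 (g : SL(2, ℤ)) (m : ℤ) :
    (g * T ^ m * g⁻¹).1 1 1 = 1 + m * g.1 0 0 * g.1 1 0 := by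
  rw [conj_T_zpow_coe]; rfl

lemma col_ne_zero (g : SL(2, ℤ)) : g.1 0 0 ≠ 0 ∨ g.1 1 0 ≠ 0 := by
  by_contra h
  push Not at h
  have hd := det_eq g
  rw [h.1, h.2] at hd
  simp at hd

/-- `g * T ^ m * g⁻¹` is positive parabolic iff `0 < m`. -/
lemma isPosPar_conj_T_zpow_iff (g : SL(2, ℤ)) (m : ℤ) :
    IsPosPar (g * T ^ m * g⁻¹) ↔ 0 < m := by
  constructor
  · rintro ⟨-, hne, h01, h10⟩
    rw [conj_T_zpow_01] at h01
    rw [conj_T_zpow_10] at h10
    by_contra hm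
    push Not at hm
    rcases hm.lt_or_eq with hm | hm
    · rcases col_ne_zero g with h | h
      · have : 0 < g.1 0 0 ^ 2 := by positivity
        nlinarith
      · have : 0 < g.1 1 0 ^ 2 := by positivity
        nlinarith
    · apply hne
      rw [hm]
      simp
  · intro hm
    refine ⟨?_, ?_, ?_, ?_⟩
    · rw [Matrix.trace_fin_two, conj_T_zpow_00, conj_T_zpow_11]; ring
    · intro h1
      have e01 := conj_T_zpow_01 g m
      have e10 := conj_T_zpow_10 g m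
      rw [h1] at e01 e10
      simp at e01 e10
      rcases col_ne_zero g with h | h
      · rcases e01 with h' | h'
        · omega
        · exact h h'
      · rcases e10 with h' | h'
        · omega
        · exact h h'
    · rw [conj_T_zpow_01]; positivity
    · rw [conj_T_zpow_10]
      have : 0 ≤ m * g.1 1 0 ^ 2 := by positivity
      linarith

/-- The centraliser of `T ^ m`, `m ≠ 0`, is `± ⟨T⟩`. -/
lemma commute_T_zpow {m : ℤ} (hm : m ≠ 0) (Q : SL(2, ℤ)) (h : Q * T ^ m = T ^ m * Q) :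
    ∃ j : ℤ, Q = T ^ j ∨ Q = -T ^ j := by
  have hd := det_eq Q
  have h' := congrArg (fun A : SL(2, ℤ) => A.1) h
  simp only [Matrix.SpecialLinearGroup.coe_mul, ModularGroup.coe_T_zpow] at h'
  rw [coe_eq_of Q] at h'
  simp only [Matrix.mul_fin_two] at h'
  have h00 := congrFun (congrFun h' 0) 0
  have h01 := congrFun (congrFun h' 0) 1
  simp at h00 h01
  -- h00 : m * c = 0 (some form), h01 : a * m = m * d
  have hc : Q.1 1 0 = 0 := by
    rcases h00 with h | h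
    · exact absurd h hm
    · exact h
  have had : Q.1 0 0 = Q.1 1 1 := by
    have : m * (Q.1 0 0 - Q.1 1 1) = 0 := by linarith
    rcases mul_eq_zero.mp this with h | h
    · exact absurd h hm
    · linarith
  rw [hc, had] at hd
  have hsq : Q.1 1 1 * Q.1 1 1 = 1 := by linarith
  rcases Int.eq_one_or_neg_one_of_mul_eq_one' hsq with ⟨h1, -⟩ | ⟨h1, -⟩
  · refine ⟨Q.1 0 1, Or.inl ?_⟩
    apply ext_entries <;> rw [ModularGroup.coe_T_zpow] <;> simp [hc, had, h1]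
  · refine ⟨-Q.1 0 1, Or.inr ?_⟩
    apply ext_entries <;>
      rw [Matrix.SpecialLinearGroup.coe_neg, ModularGroup.coe_T_zpow] <;> simp [hc, had, h1]

/-- The centraliser of `g * T ^ m * g⁻¹`, `m ≠ 0`. -/
lemma commute_conj_T_zpow {m : ℤ} (hm : m ≠ 0) (g Q : SL(2, ℤ))
    (h : Commute Q (g * T ^ m * g⁻¹)) :
    ∃ j : ℤ, Q = g * T ^ j * g⁻¹ ∨ Q = -(g * T ^ j * g⁻¹) := by
  have h1 : (g⁻¹ * Q * g) * T ^ m = T ^ m * (g⁻¹ * Q * g) := by
    have h2 : Q * (g * T ^ m * g⁻¹) = g * T ^ m * g⁻¹ * Q := h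
    calc (g⁻¹ * Q * g) * T ^ m = g⁻¹ * (Q * (g * T ^ m * g⁻¹)) * g := by group
      _ = g⁻¹ * (g * T ^ m * g⁻¹ * Q) * g := by rw [h2]
      _ = T ^ m * (g⁻¹ * Q * g) := by group
  obtain ⟨j, hj | hj⟩ := commute_T_zpow hm _ h1
  · refine ⟨j, Or.inl ?_⟩
    rw [← hj]; group
  · refine ⟨j, Or.inr ?_⟩
    have : Q = g * (g⁻¹ * Q * g) * g⁻¹ := by group
    rw [this, hj, mul_neg, neg_mul]

lemma conj_T_zpow_mul (g : SL(2, ℤ)) (i j : ℤ) :
    g * T ^ (i + j) * g⁻¹ = (g * T ^ i * g⁻¹) * (g * T ^ j * g⁻¹) := by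
  rw [_root_.zpow_add]; group

lemma conj_T_zpow_zpow (g : SL(2, ℤ)) (i j : ℤ) :
    (g * T ^ i * g⁻¹) ^ j = g * T ^ (i * j) * g⁻¹ := by
  rw [conj_zpow, _root_.zpow_mul]

/-- If `e > 0` is minimal with `g T^e g⁻¹ ∈ Γ`, then every `j` with `g T^j g⁻¹ ∈ Γ` is a
multiple of `e`. -/
lemma dvd_of_conj_T_zpow_mem (Γ : Subgroup SL(2, ℤ)) (g : SL(2, ℤ)) {e : ℕ} (he : 0 < e)
    (hmem : g * T ^ e * g⁻¹ ∈ Γ)
    (hmin : ∀ k : ℕ, 0 < k → k < e → g * T ^ k * g⁻¹ ∉ Γ) {j : ℤ}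
    (hj : g * T ^ j * g⁻¹ ∈ Γ) : (e : ℤ) ∣ j := by
  have he' : (0 : ℤ) < e := by exact_mod_cast he
  have hr0 : 0 ≤ j % e := Int.emod_nonneg _ (ne_of_gt he')
  have hr1 : j % e < e := Int.emod_lt_of_pos _ he'
  have hmemr : g * T ^ (j % e) * g⁻¹ ∈ Γ := by
    have hdec : j % (e : ℤ) = j + (e : ℤ) * (-(j / e)) := by
      have := Int.emod_add_mul_ediv j e
      linarith
    rw [hdec, conj_T_zpow_mul, ← conj_T_zpow_zpow]
    refine Γ.mul_mem hj (Γ.zpow_mem ?_ _)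
    rw [zpow_natCast]
    exact hmem
  rcases hr0.lt_or_eq with hpos | hz
  · exfalso
    refine hmin (j % e).toNat ?_ ?_ ?_
    · omega
    · omega
    · rw [← zpow_natCast, Int.toNat_of_nonneg hr0]
      exact hmemr
  · exact Int.dvd_of_emod_eq_zero hz.symm

/-- The orbit side: `g T^e g⁻¹` with `e > 0` minimal is positive primitive. -/
theorem isPosPrim_conj_T_pow (Γ : Subgroup SL(2, ℤ)) (hneg : -1 ∈ Γ) (g : SL(2, ℤ)) {e : ℕ}
    (he : 0 < e) (hmem : g * T ^ e * g⁻¹ ∈ Γ)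
    (hmin : ∀ k : ℕ, 0 < k → k < e → g * T ^ k * g⁻¹ ∉ Γ) :
    IsPosPrim Γ (g * T ^ e * g⁻¹) := by
  have he' : (0 : ℤ) < e := by exact_mod_cast he
  refine ⟨?_, hmem, ?_⟩
  · rw [← zpow_natCast]
    exact (isPosPar_conj_T_zpow_iff g e).mpr he'
  · intro Q hQ hcomm
    rw [← zpow_natCast] at hcomm
    obtain ⟨j, hj | hj⟩ := commute_conj_T_zpow (ne_of_gt he') g Q hcomm
    · have hjmem : g * T ^ j * g⁻¹ ∈ Γ := hj ▸ hQ
      obtain ⟨k, rfl⟩ := dvd_of_conj_T_zpow_mem Γ g he hmem hmin hjmem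
      refine ⟨k, Or.inl ?_⟩
      rw [hj, ← zpow_natCast, conj_T_zpow_zpow]
    · have hjmem : g * T ^ j * g⁻¹ ∈ Γ := by
        have : g * T ^ j * g⁻¹ = -1 * Q := by rw [hj]; simp
        rw [this]
        exact Γ.mul_mem hneg hQ
      obtain ⟨k, rfl⟩ := dvd_of_conj_T_zpow_mem Γ g he hmem hmin hjmem
      refine ⟨k, Or.inr ?_⟩
      rw [hj, ← zpow_natCast, conj_T_zpow_zpow]

/-- The converse: positive primitive elements are `g T^e g⁻¹` with `e > 0` minimal. -/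
theorem IsPosPrim.exists_conj {Γ : Subgroup SL(2, ℤ)} {P : SL(2, ℤ)} (hP : IsPosPrim Γ P) :
    ∃ (g : SL(2, ℤ)) (e : ℕ), 0 < e ∧ P = g * T ^ e * g⁻¹ ∧
      ∀ k : ℕ, 0 < k → k < e → g * T ^ k * g⁻¹ ∉ Γ := by
  obtain ⟨hpar, hmem, hprim⟩ := hP
  have htr : P 0 0 + P 1 1 = 2 := by
    have := hpar.1
    rwa [Matrix.trace_fin_two] at this
  obtain ⟨g, m, hg⟩ := Fermat.Agent.S21.ParabolicConj.conj_of_trace_two P htr
  have hm : 0 < m := by
    rw [hg] at hpar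
    exact (isPosPar_conj_T_zpow_iff g m).mp hpar
  refine ⟨g, m.toNat, by omega, ?_, ?_⟩
  · rw [hg, ← zpow_natCast, Int.toNat_of_nonneg hm.le]
  · intro k hk hkm hkmem
    have hkm' : (k : ℤ) < m := by omega
    have hcomm : Commute (g * T ^ k * g⁻¹) P := by
      rw [hg, ← zpow_natCast]
      show (g * T ^ (k : ℤ) * g⁻¹) * (g * T ^ m * g⁻¹) = (g * T ^ m * g⁻¹) * (g * T ^ (k : ℤ) * g⁻¹)
      rw [← conj_T_zpow_mul, ← conj_T_zpow_mul, add_comm]
    obtain ⟨j, hj | hj⟩ := hprim _ hkmem hcomm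
    · rw [hg, conj_T_zpow_zpow, ← zpow_natCast] at hj
      have h01 := congrArg (fun A : SL(2, ℤ) => A.1 0 1) hj
      have h10 := congrArg (fun A : SL(2, ℤ) => A.1 1 0) hj
      simp only [conj_T_zpow_01, conj_T_zpow_10] at h01 h10
      have hkj : (k : ℤ) = m * j := by
        rcases col_ne_zero g with h | h
        · have h2 : ((k : ℤ) - m * j) * g.1 0 0 ^ 2 = 0 := by linarith
          rcases mul_eq_zero.mp h2 with h3 | h3
          · linarith
          · exact absurd (pow_eq_zero_iff (two_ne_zero) |>.mp h3) h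
        · have h2 : ((k : ℤ) - m * j) * g.1 1 0 ^ 2 = 0 := by linarith
          rcases mul_eq_zero.mp h2 with h3 | h3
          · linarith
          · exact absurd (pow_eq_zero_iff (two_ne_zero) |>.mp h3) h
      have hk' : (0 : ℤ) < k := by exact_mod_cast hk
      have hjpos : 0 < j := by
        by_contra hj0
        push Not at hj0
        nlinarith
      nlinarith
    · rw [hg, conj_T_zpow_zpow, ← zpow_natCast] at hj
      have h00 := congrArg (fun A : SL(2, ℤ) => A.1 0 0) hj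
      have h11 := congrArg (fun A : SL(2, ℤ) => A.1 1 1) hj
      simp only [conj_T_zpow_00, conj_T_zpow_11, Matrix.SpecialLinearGroup.coe_neg,
        Matrix.neg_apply] at h00 h11
      omega

/-- Conjugacy of two `g T^e g⁻¹`: same exponent and same `⟨T⟩`-coset up to sign. -/
theorem conj_T_zpow_eq_conj {g g' γ : SL(2, ℤ)} {e e' : ℤ} (he : 0 < e)
    (h : g * T ^ e * g⁻¹ = γ * (g' * T ^ e' * g'⁻¹) * γ⁻¹) :
    e = e' ∧ ∃ j : ℤ, γ * g' = g * T ^ j ∨ γ * g' = -(g * T ^ j) := by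
  set x : SL(2, ℤ) := g⁻¹ * γ * g' with hx
  have h1 : x * T ^ e' = T ^ e * x := by
    calc x * T ^ e' = g⁻¹ * (γ * (g' * T ^ e' * g'⁻¹) * γ⁻¹) * γ * g' := by rw [hx]; group
      _ = g⁻¹ * (g * T ^ e * g⁻¹) * γ * g' := by rw [h]
      _ = T ^ e * x := by rw [hx]; group
  have hd := det_eq x
  have h' := congrArg (fun A : SL(2, ℤ) => A.1) h1
  simp only [Matrix.SpecialLinearGroup.coe_mul, ModularGroup.coe_T_zpow] at h'
  rw [coe_eq_of x] at h'
  simp only [Matrix.mul_fin_two] at h'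
  have h00 := congrFun (congrFun h' 0) 0
  have h01 := congrFun (congrFun h' 0) 1
  simp at h00 h01
  have hc : x.1 1 0 = 0 := by
    rcases h00 with h | h
    · exact absurd h (ne_of_gt he)
    · exact h
  rw [hc] at hd
  have hsq : x.1 0 0 * x.1 1 1 = 1 := by linarith
  have hee : e = e' := by
    rcases Int.eq_one_or_neg_one_of_mul_eq_one' hsq with ⟨h1, h2⟩ | ⟨h1, h2⟩
    · rw [h1, h2] at h01; linarith
    · rw [h1, h2] at h01; linarith
  refine ⟨hee, ?_⟩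
  rw [← hee] at h1
  obtain ⟨j, hj | hj⟩ := commute_T_zpow (ne_of_gt he) x h1
  · refine ⟨j, Or.inl ?_⟩
    rw [← hj, hx]; group
  · refine ⟨j, Or.inr ?_⟩
    have : γ * g' = g * x := by rw [hx]; group
    rw [this, hj, mul_neg]

/-! ### Automorphisms induced by integer matrices of positive determinant -/

section Aut

variable {Γ : Subgroup SL(2, ℤ)} (W : Matrix (Fin 2) (Fin 2) ℤ)

lemma mul_right_cancel_of_det_ne_zero (hW : W.det ≠ 0) {A B : Matrix (Fin 2) (Fin 2) ℤ}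
    (h : A * W = B * W) : A = B := by
  have h1 : A * W * W.adjugate = B * W * W.adjugate := by rw [h]
  rw [Matrix.mul_assoc, Matrix.mul_assoc, Matrix.mul_adjugate, Matrix.mul_smul, Matrix.mul_smul,
    Matrix.mul_one, Matrix.mul_one] at h1
  ext i j
  have h2 := congrFun (congrFun h1 i) j
  simp only [Matrix.smul_apply, smul_eq_mul] at h2
  exact mul_left_cancel₀ hW h2

variable (θ : ↥Γ ≃* ↥Γ)

/-- The three entry identities for `θ P = W P W⁻¹`. -/
lemma aut_entries (hθ : ∀ γ : ↥Γ, W * (γ.1 : Matrix (Fin 2) (Fin 2) ℤ) = ((θ γ).1 : Matrix (Fin 2) (Fin 2) ℤ) * W)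
    (P : ↥Γ) :
    W.det * (θ P).1.1 0 1 = W 0 0 ^ 2 * P.1.1 0 1 - W 0 1 ^ 2 * P.1.1 1 0
        + W 0 0 * W 0 1 * (P.1.1 1 1 - P.1.1 0 0) ∧
    W.det * (θ P).1.1 1 0 = W 1 1 ^ 2 * P.1.1 1 0 - W 1 0 ^ 2 * P.1.1 0 1
        + W 1 0 * W 1 1 * (P.1.1 0 0 - P.1.1 1 1) ∧
    W.det * ((θ P).1.1 0 0 + (θ P).1.1 1 1) = W.det * (P.1.1 0 0 + P.1.1 1 1) := by
  have h := hθ P
  have hdP := det_eq P.1
  have hdQ := det_eq (θ P).1
  rw [coe_eq_of P.1, coe_eq_of (θ P).1] at h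
  have hW : W = !![W 0 0, W 0 1; W 1 0, W 1 1] := by
    ext i j; fin_cases i <;> fin_cases j <;> rfl
  rw [hW] at h
  simp only [Matrix.mul_fin_two] at h
  have h00 := congrFun (congrFun h 0) 0
  have h01 := congrFun (congrFun h 0) 1
  have h10 := congrFun (congrFun h 1) 0
  have h11 := congrFun (congrFun h 1) 1
  simp at h00 h01 h10 h11
  rw [Matrix.det_fin_two]
  refine ⟨?_, ?_, ?_⟩
  · linear_combination (W 0 1) * h00 - (W 0 0) * h01
  · linear_combination (W 1 0) * h11 - (W 1 1) * h10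
  · linear_combination (W 1 0) * h01 - (W 1 1) * h00 + (W 0 1) * h10 - (W 0 0) * h11

lemma aut_neg (hW : W.det ≠ 0)
    (hθ : ∀ γ : ↥Γ, W * (γ.1 : Matrix (Fin 2) (Fin 2) ℤ) = ((θ γ).1 : Matrix (Fin 2) (Fin 2) ℤ) * W)
    {x y : ↥Γ} (h : x.1 = -y.1) : (θ x).1 = -(θ y).1 := by
  apply Subtype.ext
  apply mul_right_cancel_of_det_ne_zero W hW
  rw [← hθ x, h, Matrix.SpecialLinearGroup.coe_neg, Matrix.SpecialLinearGroup.coe_neg,
    Matrix.neg_mul, Matrix.mul_neg, hθ y]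

/-- **(AL1)** An automorphism induced by an integer matrix of positive determinant preserves
positive primitive parabolic elements. -/
theorem IsPosPrim.map (hW : 0 < W.det)
    (hθ : ∀ γ : ↥Γ, W * (γ.1 : Matrix (Fin 2) (Fin 2) ℤ) = ((θ γ).1 : Matrix (Fin 2) (Fin 2) ℤ) * W)
    {P : ↥Γ} (hP : IsPosPrim Γ P.1) : IsPosPrim Γ (θ P).1 := by
  obtain ⟨⟨htr, hne, hb, hc⟩, -, hprim⟩ := hP
  obtain ⟨e01, e10, etr⟩ := aut_entries W θ hθ P
  have hdP := det_eq P.1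
  rw [Matrix.trace_fin_two] at htr
  set a := P.1.1 0 0
  set b := P.1.1 0 1
  set c := P.1.1 1 0
  set d := P.1.1 1 1
  -- t = d - 1, b * (-c) = t ^ 2
  have ht : b * (-c) = (d - 1) ^ 2 := by
    have ha : a = 2 - d := by linarith
    rw [ha] at hdP
    linear_combination hdP
  have hda : d - a = 2 * (d - 1) := by linarith
  have had : a - d = -(2 * (d - 1)) := by linarith
  have key : ∀ x y : ℤ, 0 ≤ x ^ 2 * b + y ^ 2 * (-c) + 2 * x * y * (d - 1) := by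
    intro x y
    rcases hb.lt_or_eq with hb' | hb'
    · have h1 : b * (x ^ 2 * b + y ^ 2 * (-c) + 2 * x * y * (d - 1))
          = (x * b + y * (d - 1)) ^ 2 := by
        linear_combination y ^ 2 * ht
      have h2 : 0 ≤ b * (x ^ 2 * b + y ^ 2 * (-c) + 2 * x * y * (d - 1)) := by
        rw [h1]; positivity
      exact nonneg_of_mul_nonneg_right h2 hb'
    · have hd1 : d - 1 = 0 := by
        have : (d - 1) ^ 2 = 0 := by rw [← ht, ← hb']; ring
        exact pow_eq_zero_iff (two_ne_zero) |>.mp this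
      rw [← hb', hd1]
      have : 0 ≤ y ^ 2 * (-c) := mul_nonneg (by positivity) (by linarith)
      linarith
  refine ⟨⟨?_, ?_, ?_, ?_⟩, (θ P).2, ?_⟩
  · rw [Matrix.trace_fin_two]
    have := mul_left_cancel₀ (ne_of_gt hW) etr
    linarith
  · intro h1
    apply hne
    have : θ P = 1 := Subtype.ext h1
    have h2 : P = 1 := by
      rw [← map_one θ] at this
      exact θ.injective this
    rw [h2]; rfl
  · have h1 : 0 ≤ W.det * (θ P).1.1 0 1 := by
      rw [e01, hda]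
      have := key (W 0 0) (W 0 1)
      linarith
    exact nonneg_of_mul_nonneg_right h1 hW
  · have h1 : W.det * (θ P).1.1 1 0 ≤ 0 := by
      rw [e10, had]
      have := key (W 1 0) (W 1 1)
      linarith
    by_contra hpos
    push Not at hpos
    have := mul_pos hW hpos
    linarith
  · intro Q hQ hcomm
    set Q' : ↥Γ := θ.symm ⟨Q, hQ⟩ with hQ'
    have hθQ' : θ Q' = ⟨Q, hQ⟩ := by rw [hQ']; exact θ.apply_symm_apply _
    have hcomm' : Commute Q'.1 P.1 := by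
      have h1 : (⟨Q, hQ⟩ : ↥Γ) * θ P = θ P * ⟨Q, hQ⟩ := Subtype.ext hcomm
      rw [← hθQ', ← map_mul, ← map_mul] at h1
      have h2 := θ.injective h1
      exact congrArg Subtype.val h2
    obtain ⟨k, hk | hk⟩ := hprim Q'.1 Q'.2 hcomm'
    · refine ⟨k, Or.inl ?_⟩
      have h1 : Q' = P ^ k := Subtype.ext (by rw [hk]; rfl)
      have h2 : (⟨Q, hQ⟩ : ↥Γ) = θ P ^ k := by rw [← hθQ', h1, map_zpow]
      have h3 := congrArg Subtype.val h2
      simpa using h3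
    · refine ⟨k, Or.inr ?_⟩
      have h1 : Q'.1 = -(P ^ k).1 := by rw [hk]; rfl
      have h2 := aut_neg W θ (ne_of_gt hW) hθ h1
      rw [hθQ', map_zpow] at h2
      simpa using h2

/-- **(AL3)** The consumer statement: a sum over a system of representatives of the conjugacy
classes of positive primitive parabolic elements is invariant under `θ`. -/
theorem sum_comp_aut {ι : Type*} [Fintype ι] (π : ι → ↥Γ)
    (h1 : ∀ i, IsPosPrim Γ (π i).1)
    (h2 : ∀ P : ↥Γ, IsPosPrim Γ P.1 → ∃ i, ∃ γ : ↥Γ, P = γ * π i * γ⁻¹)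
    (h3 : ∀ i j (γ : ↥Γ), π i = γ * π j * γ⁻¹ → i = j)
    (hW : 0 < W.det)
    (hθ : ∀ γ : ↥Γ, W * (γ.1 : Matrix (Fin 2) (Fin 2) ℤ) = ((θ γ).1 : Matrix (Fin 2) (Fin 2) ℤ) * W)
    {k : Type*} [AddCommMonoid k] (u : ↥Γ → k)
    (hu : ∀ γ P : ↥Γ, IsPosPrim Γ P.1 → u (γ * P * γ⁻¹) = u P) :
    ∑ i, u (θ (π i)) = ∑ i, u (π i) := by
  classical
  have hex : ∀ i, ∃ j, ∃ γ : ↥Γ, θ (π i) = γ * π j * γ⁻¹ :=
    fun i => h2 _ (IsPosPrim.map W θ hW hθ (h1 i))
  choose ρ γ hρ using hex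
  have hinj : Function.Injective ρ := by
    intro i i' hii
    have e1 := hρ i
    have e2 := hρ i'
    rw [hii] at e1
    -- θ (π i) = (γ i * (γ i')⁻¹) * θ (π i') * (γ i * (γ i')⁻¹)⁻¹
    have e3 : θ (π i) = (γ i * (γ i')⁻¹) * θ (π i') * (γ i * (γ i')⁻¹)⁻¹ := by
      rw [e1, e2]; group
    have e4 : π i = θ.symm (γ i * (γ i')⁻¹) * π i' * (θ.symm (γ i * (γ i')⁻¹))⁻¹ := by
      apply θ.injective
      rw [e3, map_mul, map_mul, map_inv, θ.apply_symm_apply]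
    exact h3 i i' _ e4
  have hbij : Function.Bijective ρ := hinj.bijective_of_finite
  have hsum : ∑ i, u (θ (π i)) = ∑ i, u (π (ρ i)) := by
    refine Finset.sum_congr rfl fun i _ => ?_
    rw [hρ i, hu _ _ (h1 _)]
  rw [hsum]
  exact Fintype.sum_bijective ρ hbij _ _ (fun _ => rfl)

end Aut

/-! ### Orbit representatives -/

/-- **(AL2, packaged)** For a system of representatives `s i` of the double cosets
`Γ \ SL(2,ℤ) / ⟨T⟩` with widths `e i`, the elements `s i * T ^ e i * (s i)⁻¹` are a system of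
representatives of the `Γ`-conjugacy classes of positive primitive parabolic elements. -/
theorem of_orbits (Γ : Subgroup SL(2, ℤ)) (hneg : -1 ∈ Γ) {ι : Type*} (s : ι → SL(2, ℤ))
    (e : ι → ℕ) (he : ∀ i, 0 < e i) (hmem : ∀ i, s i * T ^ e i * (s i)⁻¹ ∈ Γ)
    (hmin : ∀ i, ∀ k : ℕ, 0 < k → k < e i → s i * T ^ k * (s i)⁻¹ ∉ Γ)
    (hcover : ∀ g : SL(2, ℤ), ∃ i, ∃ γ ∈ Γ, ∃ j : ℤ, g = γ * s i * T ^ j)
    (huniq : ∀ i i', ∀ γ ∈ Γ, ∀ j : ℤ, s i = γ * s i' * T ^ j → i = i') :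
    (∀ i, IsPosPrim Γ (s i * T ^ e i * (s i)⁻¹)) ∧
    (∀ P : ↥Γ, IsPosPrim Γ P.1 → ∃ i, ∃ γ : ↥Γ,
      P = γ * ⟨s i * T ^ e i * (s i)⁻¹, hmem i⟩ * γ⁻¹) ∧
    (∀ i j (γ : ↥Γ), (⟨s i * T ^ e i * (s i)⁻¹, hmem i⟩ : ↥Γ)
      = γ * ⟨s j * T ^ e j * (s j)⁻¹, hmem j⟩ * γ⁻¹ → i = j) := by
  refine ⟨fun i => isPosPrim_conj_T_pow Γ hneg (s i) (he i) (hmem i) (hmin i), ?_, ?_⟩
  · intro P hP
    obtain ⟨g, m, hm, hPg, hming⟩ := hP.exists_conj
    obtain ⟨i, γ, hγ, j, hg⟩ := hcover g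
    -- conjugation by γ * s i * T ^ j of T ^ k equals conjugation by γ of (s i T^k (s i)⁻¹)
    have hconj : ∀ k : ℕ, g * T ^ k * g⁻¹ = γ * (s i * T ^ k * (s i)⁻¹) * γ⁻¹ := by
      intro k
      rw [hg]
      have : T ^ j * T ^ k * (T ^ j)⁻¹ = T ^ k := by
        rw [← zpow_natCast, ← _root_.zpow_add, ← _root_.zpow_neg, ← _root_.zpow_add]
        congr 1; ring
      calc γ * s i * T ^ j * T ^ k * (γ * s i * T ^ j)⁻¹
          = γ * (s i * (T ^ j * T ^ k * (T ^ j)⁻¹) * (s i)⁻¹) * γ⁻¹ := by group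
        _ = γ * (s i * T ^ k * (s i)⁻¹) * γ⁻¹ := by rw [this]
    have hiff : ∀ k : ℕ, g * T ^ k * g⁻¹ ∈ Γ ↔ s i * T ^ k * (s i)⁻¹ ∈ Γ := by
      intro k
      rw [hconj k]
      constructor
      · intro h
        have : s i * T ^ k * (s i)⁻¹ = γ⁻¹ * (γ * (s i * T ^ k * (s i)⁻¹) * γ⁻¹) * γ := by group
        rw [this]
        exact Γ.mul_mem (Γ.mul_mem (Γ.inv_mem hγ) h) hγ
      · intro h
        exact Γ.mul_mem (Γ.mul_mem hγ h) (Γ.inv_mem hγ)
    have hme : m = e i := by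
      rcases lt_trichotomy m (e i) with hlt | heq | hgt
      · exfalso
        exact hmin i m hm hlt ((hiff m).mp (hPg ▸ P.2))
      · exact heq
      · exfalso
        exact hming (e i) (he i) hgt ((hiff (e i)).mpr (hmem i))
    refine ⟨i, ⟨γ, hγ⟩, Subtype.ext ?_⟩
    show P.1 = γ * (s i * T ^ e i * (s i)⁻¹) * γ⁻¹
    rw [hPg, hme, hconj]
  · intro i j γ h
    have h' : s i * T ^ e i * (s i)⁻¹ = γ.1 * (s j * T ^ e j * (s j)⁻¹) * γ.1⁻¹ :=
      congrArg Subtype.val h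
    rw [← zpow_natCast, ← zpow_natCast] at h'
    have hei : (0 : ℤ) < e i := by exact_mod_cast he i
    obtain ⟨-, k, hk | hk⟩ := conj_T_zpow_eq_conj hei h'
    · -- γ * s j = s i * T ^ k, so s i = γ * s j * T ^ (-k)
      refine huniq i j γ.1 γ.2 (-k) ?_
      rw [hk, _root_.zpow_neg]; group
    · refine huniq i j (-1 * γ.1) (Γ.mul_mem hneg γ.2) (-k) ?_
      have : -1 * γ.1 * s j = s i * T ^ k := by
        rw [mul_assoc, hk]; simp
      rw [this, _root_.zpow_neg]; group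

end Fermat.Agent.P7.CuspAut
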