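import Mathlib
import Fermat.Agent.Lib.HeckeHom

/-!
# Two-group coset families and their operators on `Hom(-, A)`

Abstract group theory, generalising `Fermat.Agent.Lib.HeckeHom` from one group to two.

Let `e : Γ →* G` and `e' : Γ' →* G` be homomorphisms (`e'` injective) and `ρ : κ → G` a finite
family such that right multiplication by `e Γ` permutes the pairwise distinct cosets
`e' Γ' · ρ k`.  Then for `γ : Γ`, `k : κ` there are unique `nxt γ k : κ`, `cof γ k : Γ'` with

  `ρ k * e γ = e' (cof γ k) * ρ (nxt γ k)`,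

and `(Θ φ)(γ) = ∑ k, φ (cof γ k)` defines an additive map `Hom(Γ', A) → Hom(Γ, A)`
(`pairHom`).  Restriction (`single`), transfer (`isPairFamily_transfer`) and the Hecke
operators of `Lib/HeckeHom` (`ofCoset`) are all instances.

Main results:
* `pairHom_eq_of_equiv`, `pairHom_eq_of_exists` : independence of the representatives;
* `mul`, `pairHom_mul` : the product family `σ i * ρ k` computes the composite operator;
* `pairHom_single` : a one-element family is composition with a homomorphism;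
* `isPairFamily_transfer`, `transfer_comp` : the transfer along an injective `c : Γ' →* Γ` of
  finite index, and `transfer ∘ restriction = index`;
* `sum_smul_sub` : periods of `x ↦ ∑ k, F (ρ k • x)`;
* `pairHom_eq_zero_of_pow` : the operator preserves vanishing on "parabolic" sets
  (torsion-free coefficients).
-/

set_option autoImplicit false

namespace Fermat.Agent.P7.PairFam

open Fermat.Agent.Lib.HeckeHom

section Basic

variable {Γ Γ' G : Type*} [Group Γ] [Group Γ'] [Group G] {κ : Type*}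

/-- Right multiplication by `e Γ` permutes the pairwise distinct cosets `e' Γ' · ρ k`. -/
structure IsPairFamily (e : Γ →* G) (e' : Γ' →* G) (ρ : κ → G) : Prop where
  inj : Function.Injective e'
  perm : ∀ (γ : Γ) (k : κ), ∃ (k' : κ) (γ' : Γ'), ρ k * e γ = e' γ' * ρ k'
  distinct : ∀ (k k' : κ) (γ' : Γ'), ρ k = e' γ' * ρ k' → k = k'

namespace IsPairFamily

variable {e : Γ →* G} {e' : Γ' →* G} {ρ : κ → G} (h : IsPairFamily e e' ρ)

/-- The index of the coset of `ρ k * e γ`. -/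
noncomputable def nxt (γ : Γ) (k : κ) : κ := (h.perm γ k).choose

/-- The cofactor: `ρ k * e γ = e' (cof γ k) * ρ (nxt γ k)`. -/
noncomputable def cof (γ : Γ) (k : κ) : Γ' := (h.perm γ k).choose_spec.choose

theorem spec (γ : Γ) (k : κ) : ρ k * e γ = e' (h.cof γ k) * ρ (h.nxt γ k) :=
  (h.perm γ k).choose_spec.choose_spec

theorem unique {γ : Γ} {γ' : Γ'} {k j : κ} (hkj : ρ k * e γ = e' γ' * ρ j) :
    h.nxt γ k = j ∧ h.cof γ k = γ' := by
  have h1 := h.spec γ k
  rw [hkj] at h1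
  have h2 : ρ j = e' (γ'⁻¹ * h.cof γ k) * ρ (h.nxt γ k) := by
    rw [map_mul, map_inv, mul_assoc, ← h1, inv_mul_cancel_left]
  have hj : j = h.nxt γ k := h.distinct _ _ _ h2
  rw [← hj] at h1
  exact ⟨hj.symm, (h.inj (mul_right_cancel h1)).symm⟩

theorem nxt_eq {γ : Γ} {γ' : Γ'} {k j : κ} (hkj : ρ k * e γ = e' γ' * ρ j) : h.nxt γ k = j :=
  (h.unique hkj).1

theorem cof_eq {γ : Γ} {γ' : Γ'} {k j : κ} (hkj : ρ k * e γ = e' γ' * ρ j) : h.cof γ k = γ' :=
  (h.unique hkj).2

@[simp] theorem nxt_one (k : κ) : h.nxt 1 k = k := h.nxt_eq (γ' := 1) (by simp)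

@[simp] theorem cof_one (k : κ) : h.cof 1 k = 1 := h.cof_eq (j := k) (by simp)

theorem spec_mul (γ₁ γ₂ : Γ) (k : κ) :
    ρ k * e (γ₁ * γ₂) =
      e' (h.cof γ₁ k * h.cof γ₂ (h.nxt γ₁ k)) * ρ (h.nxt γ₂ (h.nxt γ₁ k)) := by
  rw [map_mul, ← mul_assoc, h.spec γ₁ k, mul_assoc, h.spec γ₂ (h.nxt γ₁ k), ← mul_assoc, map_mul]

theorem nxt_mul (γ₁ γ₂ : Γ) (k : κ) : h.nxt (γ₁ * γ₂) k = h.nxt γ₂ (h.nxt γ₁ k) :=
  h.nxt_eq (h.spec_mul γ₁ γ₂ k)

theorem cof_mul (γ₁ γ₂ : Γ) (k : κ) :
    h.cof (γ₁ * γ₂) k = h.cof γ₁ k * h.cof γ₂ (h.nxt γ₁ k) :=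
  h.cof_eq (h.spec_mul γ₁ γ₂ k)

/-- `nxt γ` as a permutation of the index set. -/
noncomputable def nxtPerm (γ : Γ) : Equiv.Perm κ where
  toFun := h.nxt γ
  invFun := h.nxt γ⁻¹
  left_inv k := by rw [← h.nxt_mul, mul_inv_cancel, h.nxt_one]
  right_inv k := by rw [← h.nxt_mul, inv_mul_cancel, h.nxt_one]

@[simp] theorem nxtPerm_apply (γ : Γ) (k : κ) : h.nxtPerm γ k = h.nxt γ k := rfl

theorem nxt_pow (γ : Γ) (n : ℕ) (k : κ) : h.nxt (γ ^ n) k = (h.nxt γ)^[n] k := by
  induction n generalizing k with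
  | zero => simp
  | succ n ih => rw [pow_succ', h.nxt_mul, ih, Function.iterate_succ_apply]

section Hom

variable [Fintype κ] {A : Type*} [AddCommGroup A]

/-- The operator of the family: `(Θ φ)(γ) = ∑ k, φ (cof γ k)`, from `Hom(Γ', A)` to
`Hom(Γ, A)`. -/
noncomputable def pairHom (φ : Additive Γ' →+ A) : Additive Γ →+ A where
  toFun γ := ∑ k, φ (Additive.ofMul (h.cof (Additive.toMul γ) k))
  map_zero' := by simp
  map_add' γ₁ γ₂ := by
    simp only [toMul_add, h.cof_mul, ofMul_mul, map_add, Finset.sum_add_distrib]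
    congr 1
    exact Equiv.sum_comp (h.nxtPerm (Additive.toMul γ₁))
      (fun k => φ (Additive.ofMul (h.cof (Additive.toMul γ₂) k)))

theorem pairHom_apply (φ : Additive Γ' →+ A) (γ : Γ) :
    h.pairHom φ (Additive.ofMul γ) = ∑ k, φ (Additive.ofMul (h.cof γ k)) := rfl

theorem pairHom_add (φ ψ : Additive Γ' →+ A) :
    h.pairHom (φ + ψ) = h.pairHom φ + h.pairHom ψ := by
  refine AddMonoidHom.ext fun γ => ?_
  show ∑ k, (φ + ψ) _ = (∑ k, φ _) + ∑ k, ψ _
  simp only [AddMonoidHom.add_apply, Finset.sum_add_distrib]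

/-- The operator as an additive map. -/
noncomputable def pairAdd : (Additive Γ' →+ A) →+ (Additive Γ →+ A) where
  toFun := h.pairHom
  map_zero' := by
    refine AddMonoidHom.ext fun γ => ?_
    show ∑ k, (0 : Additive Γ' →+ A) _ = 0
    simp
  map_add' := h.pairHom_add

@[simp] theorem pairAdd_apply (φ : Additive Γ' →+ A) : h.pairAdd φ = h.pairHom φ := rfl

/-- Naturality in the coefficient group. -/
theorem pairHom_comp {B : Type*} [AddCommGroup B] (ψ : A →+ B) (φ : Additive Γ' →+ A) :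
    h.pairHom (ψ.comp φ) = ψ.comp (h.pairHom φ) := by
  refine AddMonoidHom.ext fun γ => ?_
  show ∑ k, ψ (φ _) = ψ (∑ k, φ _)
  rw [map_sum]

/-- The operator as a linear map. -/
noncomputable def pairLin (R : Type*) [Semiring R] [Module R A] :
    (Additive Γ' →+ A) →ₗ[R] (Additive Γ →+ A) where
  toFun := h.pairHom
  map_add' := h.pairHom_add
  map_smul' c φ := by
    refine AddMonoidHom.ext fun γ => ?_
    show ∑ k, (c • φ) _ = c • ∑ k, φ _
    simp only [AddMonoidHom.smul_apply, Finset.smul_sum]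

@[simp] theorem pairLin_apply (R : Type*) [Semiring R] [Module R A] (φ : Additive Γ' →+ A) :
    h.pairLin R φ = h.pairHom φ := rfl

end Hom

section Action

variable [Fintype κ] {X : Type*} [MulAction G X] {B : Type*} [AddCommGroup B]

/-- Periods of `x ↦ ∑ k, F (ρ k • x)`: if `F (e' γ' • x) - F x = φ γ'` for all `γ' : Γ'`, then
`∑ k, F (ρ k • e γ • x) - ∑ k, F (ρ k • x) = (Θ φ) γ` for all `γ : Γ`. -/
theorem sum_smul_sub (F : X → B) (φ : Additive Γ' →+ B)
    (hF : ∀ (γ' : Γ') (x : X), F (e' γ' • x) - F x = φ (Additive.ofMul γ')) (γ : Γ) (x : X) :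
    (∑ k, F (ρ k • e γ • x)) - ∑ k, F (ρ k • x) = h.pairHom φ (Additive.ofMul γ) := by
  have h1 : ∀ k, F (ρ k • e γ • x) =
      φ (Additive.ofMul (h.cof γ k)) + F (ρ (h.nxt γ k) • x) := by
    intro k
    rw [← mul_smul, h.spec γ k, mul_smul, ← hF (h.cof γ k) (ρ (h.nxt γ k) • x)]
    abel
  simp only [h1, Finset.sum_add_distrib]
  rw [h.pairHom_apply]
  have h2 : ∑ k, F (ρ (h.nxt γ k) • x) = ∑ k, F (ρ k • x) :=
    Equiv.sum_comp (h.nxtPerm γ) (fun k => F (ρ k • x))
  rw [h2]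
  abel

end Action

end IsPairFamily

end Basic

/-! ### One-group families -/

section Coset

variable {Γ G : Type*} [Group Γ] [Group G] {ι : Type*} {e : Γ →* G} {δ : ι → G}

/-- A coset family of `Lib/HeckeHom` is a pair family with both groups equal. -/
theorem ofCoset (h : IsCosetFamily e δ) : IsPairFamily e e δ :=
  ⟨h.inj_e, h.perm, h.distinct⟩

/-- A pair family with both groups equal is a coset family. -/
theorem toCoset (h : IsPairFamily e e δ) : IsCosetFamily e δ :=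
  ⟨h.inj, h.perm, h.distinct⟩

theorem cof_ofCoset (h : IsCosetFamily e δ) (γ : Γ) (i : ι) :
    (ofCoset h).cof γ i = h.cof γ i :=
  (ofCoset h).cof_eq (h.spec γ i)

theorem nxt_ofCoset (h : IsCosetFamily e δ) (γ : Γ) (i : ι) :
    (ofCoset h).nxt γ i = h.nxt γ i :=
  (ofCoset h).nxt_eq (h.spec γ i)

theorem pairHom_ofCoset [Fintype ι] {A : Type*} [AddCommGroup A] (h : IsCosetFamily e δ)
    (φ : Additive Γ →+ A) : (ofCoset h).pairHom φ = h.heckeHom φ := by
  refine AddMonoidHom.ext fun γa => ?_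
  obtain ⟨γ, rfl⟩ : ∃ γ : Γ, Additive.ofMul γ = γa := ⟨Additive.toMul γa, rfl⟩
  rw [IsPairFamily.pairHom_apply, IsCosetFamily.heckeHom_apply]
  exact Finset.sum_congr rfl fun i _ => by rw [cof_ofCoset]

end Coset

/-! ### Independence of the representatives -/

section Matching

variable {Γ Γ' G : Type*} [Group Γ] [Group Γ'] [Group G] {e : Γ →* G} {e' : Γ' →* G}
  {κ κ₂ : Type*} [Fintype κ] [Fintype κ₂] {P : κ → G} {Q : κ₂ → G}
  {A : Type*} [AddCommGroup A]

/-- Two pair families whose cosets match up along a bijection define the same operator. -/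
theorem pairHom_eq_of_equiv (hP : IsPairFamily e e' P) (hQ : IsPairFamily e e' Q) (π : κ ≃ κ₂)
    (u : κ → Γ') (hπ : ∀ x, P x = e' (u x) * Q (π x)) (φ : Additive Γ' →+ A) :
    hP.pairHom φ = hQ.pairHom φ := by
  refine AddMonoidHom.ext fun γa => ?_
  obtain ⟨γ, rfl⟩ : ∃ γ : Γ, Additive.ofMul γ = γa := ⟨Additive.toMul γa, rfl⟩
  rw [IsPairFamily.pairHom_apply, IsPairFamily.pairHom_apply]
  have key : ∀ x, Q (π x) * e γ =
      e' ((u x)⁻¹ * hP.cof γ x * u (hP.nxt γ x)) * Q (π (hP.nxt γ x)) := by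
    intro x
    have h1 := hP.spec γ x
    rw [hπ x, hπ (hP.nxt γ x)] at h1
    calc Q (π x) * e γ = (e' (u x))⁻¹ * (e' (u x) * Q (π x) * e γ) := by
          rw [mul_assoc, inv_mul_cancel_left]
      _ = _ := by rw [h1]; simp only [map_mul, map_inv, mul_assoc]
  have hc : ∀ x, hQ.cof γ (π x) = (u x)⁻¹ * hP.cof γ x * u (hP.nxt γ x) :=
    fun x => hQ.cof_eq (key x)
  have h2 : ∑ y, φ (Additive.ofMul (hQ.cof γ y)) =
      ∑ x, φ (Additive.ofMul (hQ.cof γ (π x))) :=
    (Equiv.sum_comp π (fun y => φ (Additive.ofMul (hQ.cof γ y)))).symm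
  rw [h2]
  simp only [hc, ofMul_mul, ofMul_inv, map_add, map_neg, Finset.sum_add_distrib,
    Finset.sum_neg_distrib]
  have h3 : ∑ x, φ (Additive.ofMul (u (hP.nxt γ x))) = ∑ x, φ (Additive.ofMul (u x)) :=
    Equiv.sum_comp (hP.nxtPerm γ) (fun x => φ (Additive.ofMul (u x)))
  rw [h3]
  abel

/-- Two pair families with equally many members, each coset of the first being a coset of the
second, define the same operator. -/
theorem pairHom_eq_of_exists (hP : IsPairFamily e e' P) (hQ : IsPairFamily e e' Q)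
    (hcard : Fintype.card κ = Fintype.card κ₂)
    (hm : ∀ x, ∃ (y : κ₂) (u : Γ'), P x = e' u * Q y) (φ : Additive Γ' →+ A) :
    hP.pairHom φ = hQ.pairHom φ := by
  choose π u hπ using hm
  have hinj : Function.Injective π := by
    intro x x' hxx'
    refine hP.distinct x x' (u x * (u x')⁻¹) ?_
    rw [hπ x, hπ x', hxx', map_mul, map_inv, mul_assoc, inv_mul_cancel_left]
  have hbij : Function.Bijective π :=
    (Fintype.bijective_iff_injective_and_card π).mpr ⟨hinj, hcard⟩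
  exact pairHom_eq_of_equiv hP hQ (Equiv.ofBijective π hbij) u hπ φ

end Matching

/-! ### Products -/

section Product

variable {Γ₁ Γ₂ Γ₃ G : Type*} [Group Γ₁] [Group Γ₂] [Group Γ₃] [Group G]
  {e₁ : Γ₁ →* G} {e₂ : Γ₂ →* G} {e₃ : Γ₃ →* G} {κ ι : Type*} {ρ : κ → G} {σ : ι → G}

/-- The products `σ i * ρ k` of a pair family `ρ` from `Γ₁` to `Γ₂` and a pair family `σ` from
`Γ₂` to `Γ₃` form a pair family from `Γ₁` to `Γ₃` as soon as they lie in pairwise distinct
cosets. -/
theorem IsPairFamily.mul (hρ : IsPairFamily e₁ e₂ ρ) (hσ : IsPairFamily e₂ e₃ σ)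
    (hdist : ∀ i k i' k' g, σ i * ρ k = e₃ g * (σ i' * ρ k') → i = i' ∧ k = k') :
    IsPairFamily e₁ e₃ (fun x : ι × κ => σ x.1 * ρ x.2) where
  inj := hσ.inj
  perm := by
    rintro γ ⟨i, k⟩
    refine ⟨(hσ.nxt (hρ.cof γ k) i, hρ.nxt γ k), hσ.cof (hρ.cof γ k) i, ?_⟩
    show σ i * ρ k * e₁ γ =
      e₃ (hσ.cof (hρ.cof γ k) i) * (σ (hσ.nxt (hρ.cof γ k) i) * ρ (hρ.nxt γ k))
    rw [mul_assoc, hρ.spec γ k, ← mul_assoc, hσ.spec (hρ.cof γ k) i, mul_assoc]
  distinct := by
    rintro ⟨i, k⟩ ⟨i', k'⟩ g hg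
    obtain ⟨h1, h2⟩ := hdist i k i' k' g hg
    rw [h1, h2]

variable [Fintype κ] [Fintype ι] {A : Type*} [AddCommGroup A]

/-- The operator of the product family `σ i * ρ k` is the composite `Θ_ρ ∘ Θ_σ`. -/
theorem pairHom_mul (hρ : IsPairFamily e₁ e₂ ρ) (hσ : IsPairFamily e₂ e₃ σ)
    (hP : IsPairFamily e₁ e₃ (fun x : ι × κ => σ x.1 * ρ x.2)) (φ : Additive Γ₃ →+ A) :
    hP.pairHom φ = hρ.pairHom (hσ.pairHom φ) := by
  refine AddMonoidHom.ext fun γa => ?_
  obtain ⟨γ, rfl⟩ : ∃ γ : Γ₁, Additive.ofMul γ = γa := ⟨Additive.toMul γa, rfl⟩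
  rw [IsPairFamily.pairHom_apply, IsPairFamily.pairHom_apply]
  have hc : ∀ x : ι × κ, hP.cof γ x = hσ.cof (hρ.cof γ x.2) x.1 := by
    rintro ⟨i, k⟩
    refine hP.cof_eq (j := (hσ.nxt (hρ.cof γ k) i, hρ.nxt γ k)) ?_
    show σ i * ρ k * e₁ γ =
      e₃ (hσ.cof (hρ.cof γ k) i) * (σ (hσ.nxt (hρ.cof γ k) i) * ρ (hρ.nxt γ k))
    rw [mul_assoc, hρ.spec γ k, ← mul_assoc, hσ.spec (hρ.cof γ k) i, mul_assoc]
  simp only [hc, IsPairFamily.pairHom_apply]
  rw [Fintype.sum_prod_type_right]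

/-- **Composition, existence form.**  If the products `σ i * ρ k` lie in pairwise distinct
cosets, each of which is a coset of a third family `Q` with equally many members, then the
operator of `Q` is the composite `Θ_ρ ∘ Θ_σ`. -/
theorem pairHom_comp_of_exists {μ : Type*} [Fintype μ] {Q : μ → G}
    (hρ : IsPairFamily e₁ e₂ ρ) (hσ : IsPairFamily e₂ e₃ σ) (hQ : IsPairFamily e₁ e₃ Q)
    (hdist : ∀ i k i' k' g, σ i * ρ k = e₃ g * (σ i' * ρ k') → i = i' ∧ k = k')
    (hcard : Fintype.card (ι × κ) = Fintype.card μ)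
    (hm : ∀ i k, ∃ (y : μ) (u : Γ₃), σ i * ρ k = e₃ u * Q y) (φ : Additive Γ₃ →+ A) :
    hρ.pairHom (hσ.pairHom φ) = hQ.pairHom φ := by
  have hP := hρ.mul hσ hdist
  rw [← pairHom_mul hρ hσ hP φ]
  exact pairHom_eq_of_exists hP hQ hcard (fun x => hm x.1 x.2) φ

/-- **Composition, reverse existence form.**  If the products `σ i * ρ k` lie in pairwise
distinct cosets and every coset of a third family `Q` with equally many members is one of
them, then the operator of `Q` is the composite `Θ_ρ ∘ Θ_σ`. -/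
theorem pairHom_comp_of_exists' {μ : Type*} [Fintype μ] {Q : μ → G}
    (hρ : IsPairFamily e₁ e₂ ρ) (hσ : IsPairFamily e₂ e₃ σ) (hQ : IsPairFamily e₁ e₃ Q)
    (hdist : ∀ i k i' k' g, σ i * ρ k = e₃ g * (σ i' * ρ k') → i = i' ∧ k = k')
    (hcard : Fintype.card μ = Fintype.card (ι × κ))
    (hm : ∀ y, ∃ (i : ι) (k : κ) (u : Γ₃), Q y = e₃ u * (σ i * ρ k)) (φ : Additive Γ₃ →+ A) :
    hρ.pairHom (hσ.pairHom φ) = hQ.pairHom φ := by
  have hP := hρ.mul hσ hdist
  rw [← pairHom_mul hρ hσ hP φ]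
  refine (pairHom_eq_of_exists hQ hP hcard (fun y => ?_) φ).symm
  obtain ⟨i, k, u, hu⟩ := hm y
  exact ⟨(i, k), u, hu⟩

end Product

/-! ### One-element families: composition with a homomorphism -/

section Single

variable {Γ Γ' G : Type*} [Group Γ] [Group Γ'] [Group G] {e : Γ →* G} {e' : Γ' →* G}

/-- A one-element family `d` with `d * e γ = e' (c γ) * d`. -/
theorem isPairFamily_single (he' : Function.Injective e') (c : Γ →* Γ') (d : G)
    (hcd : ∀ γ, d * e γ = e' (c γ) * d) : IsPairFamily e e' (fun _ : Unit => d) where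
  inj := he'
  perm γ _ := ⟨(), c γ, hcd γ⟩
  distinct _ _ _ _ := rfl

/-- The operator of a one-element family is composition with the homomorphism. -/
theorem pairHom_single {A : Type*} [AddCommGroup A] (c : Γ →* Γ') (d : G)
    (hcd : ∀ γ, d * e γ = e' (c γ) * d) (h : IsPairFamily e e' (fun _ : Unit => d))
    (φ : Additive Γ' →+ A) : h.pairHom φ = φ.comp (MonoidHom.toAdditive c) := by
  refine AddMonoidHom.ext fun γa => ?_
  obtain ⟨γ, rfl⟩ : ∃ γ : Γ, Additive.ofMul γ = γa := ⟨Additive.toMul γa, rfl⟩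
  rw [IsPairFamily.pairHom_apply, Fintype.sum_unique]
  rw [h.cof_eq (j := ()) (hcd γ)]
  rfl

end Single

/-! ### Transfer -/

section Transfer

variable {Γ Γ' G : Type*} [Group Γ] [Group Γ'] [Group G]

/-- Right coset representatives of `c.range` in `Γ`, indexed by the left cosets. -/
noncomputable def rep (c : Γ' →* Γ) (k : Γ ⧸ c.range) : Γ := (Quotient.out k)⁻¹

theorem exists_rep (c : Γ' →* Γ) (γ : Γ) : ∃ (k : Γ ⧸ c.range) (g : Γ'), γ = c g * rep c k := by
  have h1 : γ * Quotient.out (QuotientGroup.mk γ⁻¹ : Γ ⧸ c.range) ∈ c.range := by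
    have h2 : (QuotientGroup.mk (Quotient.out (QuotientGroup.mk γ⁻¹ : Γ ⧸ c.range)) :
        Γ ⧸ c.range) = QuotientGroup.mk γ⁻¹ := QuotientGroup.out_eq' _
    have h3 := QuotientGroup.eq.mp h2.symm
    simpa using h3
  obtain ⟨g, hg⟩ := h1
  refine ⟨QuotientGroup.mk γ⁻¹, g, ?_⟩
  rw [hg, rep, mul_inv_cancel_right]

theorem rep_unique (c : Γ' →* Γ) {k k' : Γ ⧸ c.range} {g : Γ'}
    (h : rep c k = c g * rep c k') : k = k' := by
  rw [← QuotientGroup.out_eq' k, ← QuotientGroup.out_eq' k']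
  refine QuotientGroup.eq.mpr ⟨g, ?_⟩
  have h1 : c g = rep c k * (rep c k')⁻¹ := by rw [h, mul_inv_cancel_right]
  rw [h1, rep, rep, inv_inv]

/-- The transfer family `d * e (rep k)`. -/
noncomputable def transferFam (e : Γ →* G) (c : Γ' →* Γ) (d : G) (k : Γ ⧸ c.range) : G :=
  d * e (rep c k)

/-- The transfer family along `c : Γ' →* Γ`, twisted by `d : G` with `e' g * d = d * e (c g)`,
is a pair family from `Γ` to `Γ'`. -/
theorem isPairFamily_transfer {e : Γ →* G} {e' : Γ' →* G} (he : Function.Injective e)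
    (he' : Function.Injective e') (c : Γ' →* Γ) (d : G)
    (hcd : ∀ g, e' g * d = d * e (c g)) : IsPairFamily e e' (transferFam e c d) where
  inj := he'
  perm γ k := by
    obtain ⟨k', g, hg⟩ := exists_rep c (rep c k * γ)
    refine ⟨k', g, ?_⟩
    rw [transferFam, transferFam, mul_assoc, ← map_mul, hg, map_mul, ← mul_assoc, ← hcd g,
      mul_assoc]
  distinct k k' g hg := by
    rw [transferFam, transferFam, ← mul_assoc, hcd g, mul_assoc, ← map_mul] at hg
    exact rep_unique c (he (mul_left_cancel hg))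

variable {e : Γ →* G} {e' : Γ' →* G}

/-- The cofactor of the transfer family is characterised inside `Γ`. -/
theorem rep_mul_eq (he : Function.Injective e) (c : Γ' →* Γ) (d : G)
    (h : IsPairFamily e e' (transferFam e c d)) (hcd : ∀ g, e' g * d = d * e (c g))
    (γ : Γ) (k : Γ ⧸ c.range) : rep c k * γ = c (h.cof γ k) * rep c (h.nxt γ k) := by
  have h1 := h.spec γ k
  rw [transferFam, transferFam, ← mul_assoc, hcd, mul_assoc, mul_assoc, ← map_mul, ← map_mul]
    at h1
  exact he (mul_left_cancel h1)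

/-- **Transfer ∘ restriction = index.** -/
theorem transfer_comp {A : Type*} [AddCommGroup A]
    (he : Function.Injective e) (c : Γ' →* Γ) [Fintype (Γ ⧸ c.range)] (d : G)
    (h : IsPairFamily e e' (transferFam e c d)) (hcd : ∀ g, e' g * d = d * e (c g))
    (φ : Additive Γ →+ A) :
    h.pairHom (φ.comp (MonoidHom.toAdditive c)) = Fintype.card (Γ ⧸ c.range) • φ := by
  refine AddMonoidHom.ext fun γa => ?_
  obtain ⟨γ, rfl⟩ : ∃ γ : Γ, Additive.ofMul γ = γa := ⟨Additive.toMul γa, rfl⟩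
  rw [IsPairFamily.pairHom_apply]
  have h1 : ∀ k, (φ.comp (MonoidHom.toAdditive c)) (Additive.ofMul (h.cof γ k)) =
      φ (Additive.ofMul (rep c k)) + φ (Additive.ofMul γ) -
        φ (Additive.ofMul (rep c (h.nxt γ k))) := by
    intro k
    have h2 := congrArg (fun x => φ (Additive.ofMul x)) (rep_mul_eq he c d h hcd γ k)
    simp only [ofMul_mul, map_add] at h2
    show φ (Additive.ofMul (c (h.cof γ k))) = _
    rw [h2]
    abel
  simp only [h1, Finset.sum_sub_distrib, Finset.sum_add_distrib]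
  have h3 : ∑ k, φ (Additive.ofMul (rep c (h.nxt γ k))) = ∑ k, φ (Additive.ofMul (rep c k)) :=
    Equiv.sum_comp (h.nxtPerm γ) (fun k => φ (Additive.ofMul (rep c k)))
  rw [h3, add_sub_cancel_left, Finset.sum_const, Finset.card_univ]
  rfl

end Transfer

/-! ### Preservation of "parabolic" vanishing -/

section Parabolic

variable {Γ Γ' G : Type*} [Group Γ] [Group Γ'] [Group G] {κ : Type*} [Fintype κ]
  {e : Γ →* G} {e' : Γ' →* G} {ρ : κ → G}

/-- If `φ` vanishes on all `γ'` with `ρ k * e (γ ^ n) = e' γ' * ρ k` (`n ≥ 1`), then `Θ φ`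
vanishes at `γ`, provided the coefficient group is torsion-free. -/
theorem pairHom_eq_zero_of_pow {A : Type*} [AddCommGroup A] [IsAddTorsionFree A]
    (h : IsPairFamily e e' ρ) (φ : Additive Γ' →+ A) (γ : Γ)
    (hφ : ∀ (n : ℕ) (k : κ) (γ' : Γ'), 0 < n → ρ k * e (γ ^ n) = e' γ' * ρ k →
      φ (Additive.ofMul γ') = 0) :
    h.pairHom φ (Additive.ofMul γ) = 0 := by
  classical
  obtain ⟨n, hn, hper⟩ : ∃ n : ℕ, 0 < n ∧ ∀ k, h.nxt (γ ^ n) k = k := by
    refine ⟨orderOf (h.nxtPerm γ), orderOf_pos _, fun k => ?_⟩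
    have h1 : (h.nxtPerm γ) ^ orderOf (h.nxtPerm γ) = 1 := pow_orderOf_eq_one _
    have h2 : h.nxt (γ ^ orderOf (h.nxtPerm γ)) k =
        ((h.nxtPerm γ) ^ orderOf (h.nxtPerm γ)) k := by
      rw [h.nxt_pow, Equiv.Perm.coe_pow]
      rfl
    rw [h2, h1]
    rfl
  have h1 : h.pairHom φ (Additive.ofMul (γ ^ n)) = 0 := by
    rw [IsPairFamily.pairHom_apply]
    refine Finset.sum_eq_zero fun k _ => ?_
    refine hφ n k _ hn ?_
    have h2 := h.spec (γ ^ n) k
    rw [hper k] at h2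
    exact h2
  rw [ofMul_pow, map_nsmul] at h1
  exact (smul_eq_zero_iff_right hn.ne').mp h1

end Parabolic

end Fermat.Agent.P7.PairFam
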