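import Mathlib
import Fermat.Agent.Lib.HeckeHomReps
import Fermat.Agent.Lib.HeckeHomInt
import Fermat.Agent.Lib.Gamma0Count
import Fermat.Agent.P5.Per.Basic
import Fermat.Agent.P7.PairFam

/-!
# The two-level calculus between `Γ₀(N)` and `Γ₀(N q)`: definitions

`q` is a prime not dividing `N`.  Everything lives on `Hom(Γ₀(·), A) = Additive ↥(Gamma0 ·) →+ A`
for an arbitrary abelian group `A`, in the vocabulary of `Lib/HeckeHom` (`eG N : Γ₀(N) →* GL₂(ℝ)`).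

* `incl N q : Γ₀(N q) →* Γ₀(N)` the inclusion, `conjB N q : Γ₀(N q) →* Γ₀(N)` the second
  embedding `(a b; c d) ↦ (a, q b; c / q, d)` (conjugation by `diag(q, 1)`);
* `g0 N q hqN ∈ Γ₀(N)` with bottom row `(N, q)`, `cW N q hqN : Γ₀(N q) →* Γ₀(N q)` the
  Atkin–Lehner conjugation `γ ↦ g0 · conjB γ · g0⁻¹`, `gam0` with `cW (cW γ) = gam0 γ gam0⁻¹`;
* `resA`, `resB` (`= wq ∘ resA`, and `resB φ γ = φ (conjB γ)`), `corA` (transfer), `corB`
  (`= corA ∘ wq`), `wq` (composition with `cW`), `uq` (the operator `U_q` at level `N q`);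
* `wq_wq : wq (wq y) = y`.
-/

set_option autoImplicit false

namespace Fermat.Agent.P7.Degen

open scoped MatrixGroups
open CongruenceSubgroup Matrix.SpecialLinearGroup
open Fermat.Agent.Lib.HeckeHom Fermat.Agent.Lib.HeckePeriod Fermat.Agent.Lib.HeckeHomGL
open Fermat.Agent.Lib.Gamma0Count
open Fermat.Agent.P7.PairFam
open P2MW.S_ModularForm_heckeT_slash_eq_self_of_mem_Gamma0.ModularForm.HeckeSlashInvariance

/-! ### Entries -/

theorem sl_mul_10 (g s : SL(2, ℤ)) : (g * s) 1 0 = g 1 0 * s 0 0 + g 1 1 * s 1 0 := by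
  simp [Matrix.SpecialLinearGroup.coe_mul, Matrix.mul_apply, Fin.sum_univ_two]

theorem sl_mul_11 (g s : SL(2, ℤ)) : (g * s) 1 1 = g 1 0 * s 0 1 + g 1 1 * s 1 1 := by
  simp [Matrix.SpecialLinearGroup.coe_mul, Matrix.mul_apply, Fin.sum_univ_two]

theorem sl_mul_00 (g s : SL(2, ℤ)) : (g * s) 0 0 = g 0 0 * s 0 0 + g 0 1 * s 1 0 := by
  simp [Matrix.SpecialLinearGroup.coe_mul, Matrix.mul_apply, Fin.sum_univ_two]

theorem sl_mul_01 (g s : SL(2, ℤ)) : (g * s) 0 1 = g 0 0 * s 0 1 + g 0 1 * s 1 1 := by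
  simp [Matrix.SpecialLinearGroup.coe_mul, Matrix.mul_apply, Fin.sum_univ_two]

theorem sl_inv_00 (g : SL(2, ℤ)) : g⁻¹ 0 0 = g 1 1 := by
  simp [Matrix.SpecialLinearGroup.coe_inv, Matrix.adjugate_fin_two]

theorem sl_inv_01 (g : SL(2, ℤ)) : g⁻¹ 0 1 = - g 0 1 := by
  simp [Matrix.SpecialLinearGroup.coe_inv, Matrix.adjugate_fin_two]

theorem sl_inv_10 (g : SL(2, ℤ)) : g⁻¹ 1 0 = - g 1 0 := by
  simp [Matrix.SpecialLinearGroup.coe_inv, Matrix.adjugate_fin_two]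

theorem sl_inv_11 (g : SL(2, ℤ)) : g⁻¹ 1 1 = g 0 0 := by
  simp [Matrix.SpecialLinearGroup.coe_inv, Matrix.adjugate_fin_two]

/-- The lower left entry of a conjugate. -/
theorem sl_conj_10 (g s : SL(2, ℤ)) :
    (g * s * g⁻¹) 1 0 =
      (g 1 0 * s 0 0 + g 1 1 * s 1 0) * g 1 1 - (g 1 0 * s 0 1 + g 1 1 * s 1 1) * g 1 0 := by
  rw [sl_mul_10, sl_mul_10, sl_mul_11, sl_inv_00, sl_inv_10]
  ring

/-! ### Levels -/

theorem Gamma0_mul_le' (N q : ℕ) : Gamma0 (N * q) ≤ Gamma0 N := by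
  rw [mul_comm]; exact Gamma0_mul_le q N

theorem dvd_of_mem_mul {N q : ℕ} {γ : SL(2, ℤ)} (h : γ ∈ Gamma0 (N * q)) :
    (N : ℤ) * q ∣ γ 1 0 := by
  have := dvd_of_mem_Gamma0 h
  exact_mod_cast this

theorem mem_mul_of_dvd {N q : ℕ} {γ : SL(2, ℤ)} (h : (N : ℤ) * q ∣ γ 1 0) :
    γ ∈ Gamma0 (N * q) :=
  mem_Gamma0_of_dvd (by exact_mod_cast h)

theorem mem_mul_of_dvd_of_dvd {N q : ℕ} (hc : Nat.Coprime q N) {γ : SL(2, ℤ)}
    (hN : (N : ℤ) ∣ γ 1 0) (hq : (q : ℤ) ∣ γ 1 0) : γ ∈ Gamma0 (N * q) := by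
  refine mem_mul_of_dvd ?_
  have h1 : IsCoprime (N : ℤ) (q : ℤ) := (Nat.isCoprime_iff_coprime.mpr hc).symm
  exact h1.mul_dvd hN hq

/-- The inclusion `Γ₀(N q) → Γ₀(N)`. -/
def incl (N q : ℕ) : ↥(Gamma0 (N * q)) →* ↥(Gamma0 N) :=
  Subgroup.inclusion (Gamma0_mul_le' N q)

theorem eG_incl (N q : ℕ) (γ : Gamma0 (N * q)) : eG N (incl N q γ) = eG (N * q) γ := rfl

theorem coe_incl (N q : ℕ) (γ : Gamma0 (N * q)) :
    ((incl N q γ : Gamma0 N) : SL(2, ℤ)) = (γ : SL(2, ℤ)) := rfl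

theorem mem_range_incl {N q : ℕ} (x : Gamma0 N) :
    x ∈ (incl N q).range ↔ (x : SL(2, ℤ)) ∈ Gamma0 (N * q) := by
  constructor
  · rintro ⟨γ, rfl⟩
    exact γ.2
  · intro h
    exact ⟨⟨x, h⟩, Subtype.ext rfl⟩

/-! ### The second embedding -/

/-- `(a b; c d) ↦ (a, q b; c / q, d)`. -/
def conjBSL (q : ℕ) (γ : SL(2, ℤ)) (h : (q : ℤ) ∣ γ 1 0) : SL(2, ℤ) :=
  ⟨!![γ 0 0, q * γ 0 1; γ 1 0 / q, γ 1 1], by
    rw [Matrix.det_fin_two_of]
    have h1 : (q : ℤ) * γ 0 1 * (γ 1 0 / q) = γ 0 1 * γ 1 0 := by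
      rw [mul_comm (q : ℤ), mul_assoc, Int.mul_ediv_cancel' h]
    rw [h1]
    exact det_eq γ⟩

theorem conjBSL_00 (q : ℕ) (γ : SL(2, ℤ)) (h : (q : ℤ) ∣ γ 1 0) :
    conjBSL q γ h 0 0 = γ 0 0 := rfl

theorem conjBSL_01 (q : ℕ) (γ : SL(2, ℤ)) (h : (q : ℤ) ∣ γ 1 0) :
    conjBSL q γ h 0 1 = q * γ 0 1 := rfl

theorem conjBSL_10 (q : ℕ) (γ : SL(2, ℤ)) (h : (q : ℤ) ∣ γ 1 0) :
    conjBSL q γ h 1 0 = γ 1 0 / q := rfl

theorem conjBSL_11 (q : ℕ) (γ : SL(2, ℤ)) (h : (q : ℤ) ∣ γ 1 0) :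
    conjBSL q γ h 1 1 = γ 1 1 := rfl

theorem mul_conjBSL_10 (q : ℕ) (γ : SL(2, ℤ)) (h : (q : ℤ) ∣ γ 1 0) :
    (q : ℤ) * conjBSL q γ h 1 0 = γ 1 0 := by
  rw [conjBSL_10, Int.mul_ediv_cancel' h]

/-- `conjBSL γ · diag(q, 1) = diag(q, 1) · γ`. -/
theorem mapGL_conjBSL {q : ℕ} (hq : q ≠ 0) (γ : SL(2, ℤ)) (h : (q : ℤ) ∣ γ 1 0) :
    (mapGL ℝ (conjBSL q γ h) : GL (Fin 2) ℝ) * ModularForm.heckeDiagMatrix q =
      ModularForm.heckeDiagMatrix q * mapGL ℝ γ := by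
  have h10 : ((q : ℤ) : ℝ) * ((conjBSL q γ h 1 0 : ℤ) : ℝ) = ((γ 1 0 : ℤ) : ℝ) := by
    exact_mod_cast mul_conjBSL_10 q γ h
  push_cast at h10
  apply Units.ext
  rw [Units.val_mul, Units.val_mul, coe_mapGL, coe_mapGL, ModularForm.val_heckeDiagMatrix hq,
    conjBSL_00, conjBSL_01, conjBSL_11]
  ext i j
  fin_cases i <;> fin_cases j <;> simp [Matrix.mul_apply, Fin.sum_univ_two]
  all_goals first | ring1 | linear_combination h10 | linear_combination (-1 : ℝ) * h10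

/-- `γ · diag(1, q) = diag(1, q) · conjBSL γ`. -/
theorem mapGL_conjBSL' {q : ℕ} (hq : q ≠ 0) (γ : SL(2, ℤ)) (h : (q : ℤ) ∣ γ 1 0) :
    (mapGL ℝ γ : GL (Fin 2) ℝ) * ModularForm.heckeMatrix q 0 =
      ModularForm.heckeMatrix q 0 * mapGL ℝ (conjBSL q γ h) := by
  have h10 : ((q : ℤ) : ℝ) * ((conjBSL q γ h 1 0 : ℤ) : ℝ) = ((γ 1 0 : ℤ) : ℝ) := by
    exact_mod_cast mul_conjBSL_10 q γ h
  push_cast at h10
  apply Units.ext
  rw [Units.val_mul, Units.val_mul, coe_mapGL, coe_mapGL, ModularForm.val_heckeMatrix hq,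
    conjBSL_00, conjBSL_01, conjBSL_11]
  ext i j
  fin_cases i <;> fin_cases j <;> simp [Matrix.mul_apply, Fin.sum_univ_two]
  all_goals first | ring1 | linear_combination h10 | linear_combination (-1 : ℝ) * h10

theorem conjBSL_one (q : ℕ) (hq : q ≠ 0) (h : (q : ℤ) ∣ (1 : SL(2, ℤ)) 1 0) :
    conjBSL q 1 h = 1 := by
  apply mapGL_injective (R := ℤ) (S := ℝ)
  have h1 := mapGL_conjBSL hq (1 : SL(2, ℤ)) h
  rw [map_one, mul_one] at h1
  rw [map_one]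
  exact mul_right_cancel (h1.trans (one_mul _).symm)

theorem conjBSL_mul (q : ℕ) (hq : q ≠ 0) (γ₁ γ₂ : SL(2, ℤ)) (h₁ : (q : ℤ) ∣ γ₁ 1 0)
    (h₂ : (q : ℤ) ∣ γ₂ 1 0) (h₁₂ : (q : ℤ) ∣ (γ₁ * γ₂) 1 0) :
    conjBSL q (γ₁ * γ₂) h₁₂ = conjBSL q γ₁ h₁ * conjBSL q γ₂ h₂ := by
  apply mapGL_injective (R := ℤ) (S := ℝ)
  have h12 := mapGL_conjBSL hq (γ₁ * γ₂) h₁₂
  have h1 := mapGL_conjBSL hq γ₁ h₁
  have h2 := mapGL_conjBSL hq γ₂ h₂
  rw [map_mul, ← mul_assoc, ← h1, mul_assoc, ← h2, ← mul_assoc] at h12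
  rw [map_mul]
  exact mul_right_cancel h12

theorem dvd_of_mem_mul_right {N q : ℕ} {γ : SL(2, ℤ)} (h : γ ∈ Gamma0 (N * q)) :
    (q : ℤ) ∣ γ 1 0 :=
  (Dvd.intro_left (N : ℤ) rfl).trans (dvd_of_mem_mul h)

theorem conjBSL_mem {N q : ℕ} (hq : q ≠ 0) {γ : SL(2, ℤ)} (h : γ ∈ Gamma0 (N * q)) :
    conjBSL q γ (dvd_of_mem_mul_right h) ∈ Gamma0 N := by
  refine mem_Gamma0_of_dvd ?_
  obtain ⟨k, hk⟩ := dvd_of_mem_mul h
  rw [conjBSL_10, hk, mul_comm (N : ℤ) q, mul_assoc,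
    Int.mul_ediv_cancel_left _ (by exact_mod_cast hq)]
  exact Dvd.intro _ rfl

/-- The second embedding `Γ₀(N q) → Γ₀(N)`, `(a b; c d) ↦ (a, q b; c / q, d)`. -/
def conjB (N q : ℕ) [NeZero q] : ↥(Gamma0 (N * q)) →* ↥(Gamma0 N) where
  toFun γ := ⟨conjBSL q γ (dvd_of_mem_mul_right γ.2), conjBSL_mem (NeZero.ne q) γ.2⟩
  map_one' := Subtype.ext (conjBSL_one q (NeZero.ne q)
    (dvd_of_mem_mul_right (1 : Gamma0 (N * q)).2))
  map_mul' γ₁ γ₂ := Subtype.ext (conjBSL_mul q (NeZero.ne q) (γ₁ : SL(2, ℤ)) (γ₂ : SL(2, ℤ))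
    (dvd_of_mem_mul_right γ₁.2) (dvd_of_mem_mul_right γ₂.2) (dvd_of_mem_mul_right (γ₁ * γ₂).2))

theorem coe_conjB (N q : ℕ) [NeZero q] (γ : Gamma0 (N * q)) :
    ((conjB N q γ : Gamma0 N) : SL(2, ℤ)) = conjBSL q γ (dvd_of_mem_mul_right γ.2) := rfl

/-- `e (conjB γ) · diag(q, 1) = diag(q, 1) · e' γ`. -/
theorem eG_conjB (N q : ℕ) [NeZero q] (γ : Gamma0 (N * q)) :
    eG N (conjB N q γ) * ModularForm.heckeDiagMatrix q =
      ModularForm.heckeDiagMatrix q * eG (N * q) γ :=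
  mapGL_conjBSL (NeZero.ne q) (γ : SL(2, ℤ)) (dvd_of_mem_mul_right γ.2)

/-- `e' γ · diag(1, q) = diag(1, q) · e (conjB γ)`. -/
theorem eG_conjB' (N q : ℕ) [NeZero q] (γ : Gamma0 (N * q)) :
    eG (N * q) γ * ModularForm.heckeMatrix q 0 =
      ModularForm.heckeMatrix q 0 * eG N (conjB N q γ) :=
  mapGL_conjBSL' (NeZero.ne q) (γ : SL(2, ℤ)) (dvd_of_mem_mul_right γ.2)

/-- The image of `conjB`: the elements of `Γ₀(N)` with upper right entry divisible by `q`. -/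
theorem mem_range_conjB {N q : ℕ} [NeZero q] (x : Gamma0 N) :
    x ∈ (conjB N q).range ↔ (q : ℤ) ∣ (x : SL(2, ℤ)) 0 1 := by
  constructor
  · rintro ⟨γ, rfl⟩
    rw [coe_conjB, conjBSL_01]
    exact Dvd.intro _ rfl
  · rintro ⟨b, hb⟩
    have hN : (N : ℤ) ∣ (x : SL(2, ℤ)) 1 0 := dvd_of_mem_Gamma0 x.2
    let γ : SL(2, ℤ) := ⟨!![(x : SL(2, ℤ)) 0 0, b; q * (x : SL(2, ℤ)) 1 0, (x : SL(2, ℤ)) 1 1], by
      rw [Matrix.det_fin_two_of]
      have := det_eq (x : SL(2, ℤ))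
      rw [hb] at this
      linear_combination this⟩
    have hγ : γ ∈ Gamma0 (N * q) := by
      refine mem_mul_of_dvd ?_
      show (N : ℤ) * q ∣ q * (x : SL(2, ℤ)) 1 0
      rw [mul_comm (N : ℤ)]
      exact mul_dvd_mul_left _ hN
    refine ⟨⟨γ, hγ⟩, ?_⟩
    apply Subtype.ext
    rw [coe_conjB]
    ext i j
    fin_cases i <;> fin_cases j
    · rfl
    · show (q : ℤ) * b = (x : SL(2, ℤ)) 0 1
      rw [hb]
    · show (q : ℤ) * (x : SL(2, ℤ)) 1 0 / q = (x : SL(2, ℤ)) 1 0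
      exact Int.mul_ediv_cancel_left _ (by exact_mod_cast NeZero.ne q)
    · rfl

/-! ### The Atkin–Lehner element -/

theorem exists_g0 (N q : ℕ) (h : Nat.Coprime q N) :
    ∃ g : SL(2, ℤ), g 1 0 = N ∧ g 1 1 = q := by
  obtain ⟨a, b, hab⟩ := Nat.isCoprime_iff_coprime.mpr h
  exact ⟨⟨!![a, -b; N, q], by rw [Matrix.det_fin_two_of]; linarith⟩, rfl, rfl⟩

section AL

variable (N q : ℕ) [Fact q.Prime] (hqN : ¬ q ∣ N)

include hqN in
theorem coprime_of_not_dvd : Nat.Coprime q N :=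
  (Nat.Prime.coprime_iff_not_dvd Fact.out).mpr hqN

/-- An element of `Γ₀(N)` with bottom row `(N, q)`. -/
noncomputable def g0 : SL(2, ℤ) := (exists_g0 N q (coprime_of_not_dvd N q hqN)).choose

theorem g0_10 : g0 N q hqN 1 0 = N := (exists_g0 N q (coprime_of_not_dvd N q hqN)).choose_spec.1

theorem g0_11 : g0 N q hqN 1 1 = q := (exists_g0 N q (coprime_of_not_dvd N q hqN)).choose_spec.2

theorem g0_det : g0 N q hqN 0 0 * q - g0 N q hqN 0 1 * N = 1 := by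
  have := det_eq (g0 N q hqN)
  rwa [g0_10, g0_11] at this

theorem g0_mem : g0 N q hqN ∈ Gamma0 N :=
  mem_Gamma0_of_dvd (by rw [g0_10])

/-- `g0` as an element of `Γ₀(N)`. -/
noncomputable def g0N : ↥(Gamma0 N) := ⟨g0 N q hqN, g0_mem N q hqN⟩

/-- `γ ↦ g0 · conjB γ · g0⁻¹`, as a map to `Γ₀(N)`. -/
noncomputable def cWN : ↥(Gamma0 (N * q)) →* ↥(Gamma0 N) :=
  (MulAut.conj (g0N N q hqN)).toMonoidHom.comp (conjB N q)

theorem cWN_apply (γ : Gamma0 (N * q)) :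
    cWN N q hqN γ = g0N N q hqN * conjB N q γ * (g0N N q hqN)⁻¹ := rfl

theorem cWN_mem (γ : Gamma0 (N * q)) :
    ((Gamma0 N).subtype.comp (cWN N q hqN)) γ ∈ Gamma0 (N * q) := by
  refine mem_mul_of_dvd ?_
  show (N : ℤ) * q ∣ (g0 N q hqN * conjBSL q γ (dvd_of_mem_mul_right γ.2) * (g0 N q hqN)⁻¹) 1 0
  rw [sl_conj_10, g0_10, g0_11, conjBSL_00, conjBSL_01, conjBSL_11]
  obtain ⟨k, hk⟩ := dvd_of_mem_mul γ.2
  have h1 := mul_conjBSL_10 q γ (dvd_of_mem_mul_right γ.2)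
  refine ⟨(γ : SL(2, ℤ)) 0 0 + q * k - N * (γ : SL(2, ℤ)) 0 1 - (γ : SL(2, ℤ)) 1 1, ?_⟩
  rw [hk] at h1
  linear_combination (q : ℤ) * h1

/-- The Atkin–Lehner conjugation of `Γ₀(N q)`: `γ ↦ g0 · conjB γ · g0⁻¹`. -/
noncomputable def cW : ↥(Gamma0 (N * q)) →* ↥(Gamma0 (N * q)) :=
  MonoidHom.codRestrict ((Gamma0 N).subtype.comp (cWN N q hqN)) (Gamma0 (N * q))
    (cWN_mem N q hqN)

theorem incl_cW (γ : Gamma0 (N * q)) : incl N q (cW N q hqN γ) = cWN N q hqN γ :=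
  Subtype.ext rfl

/-- The Atkin–Lehner matrix `W = e(g0) · diag(q, 1) = (q x, y; N q, q)`. -/
noncomputable def wMat : GL (Fin 2) ℝ := eG N (g0N N q hqN) * ModularForm.heckeDiagMatrix q

/-- `W · e' γ = e' (cW γ) · W`. -/
theorem wMat_mul (γ : Gamma0 (N * q)) :
    wMat N q hqN * eG (N * q) γ = eG (N * q) (cW N q hqN γ) * wMat N q hqN := by
  rw [wMat, mul_assoc, ← eG_conjB, ← eG_incl, incl_cW, cWN_apply, map_mul, map_mul, map_inv]
  simp only [mul_assoc, inv_mul_cancel_left]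

/-- The element `gam0 ∈ Γ₀(N q)` with `W² = q · gam0`. -/
noncomputable def gam0SL : SL(2, ℤ) :=
  ⟨!![q * g0 N q hqN 0 0 ^ 2 + N * g0 N q hqN 0 1, g0 N q hqN 0 1 * (g0 N q hqN 0 0 + 1);
      N * q * (g0 N q hqN 0 0 + 1), N * g0 N q hqN 0 1 + q], by
    rw [Matrix.det_fin_two_of]
    have h := g0_det N q hqN
    linear_combination (g0 N q hqN 0 0 * q - g0 N q hqN 0 1 * N + 1) * h⟩

theorem gam0SL_mem : gam0SL N q hqN ∈ Gamma0 (N * q) :=
  mem_mul_of_dvd (Dvd.intro _ rfl)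

/-- `gam0` as an element of `Γ₀(N q)`. -/
noncomputable def gam0 : ↥(Gamma0 (N * q)) := ⟨gam0SL N q hqN, gam0SL_mem N q hqN⟩

/-- `W · W = q · e'(gam0)` on the level of matrices. -/
theorem wMat_sq :
    ((wMat N q hqN * wMat N q hqN : GL (Fin 2) ℝ) : Matrix (Fin 2) (Fin 2) ℝ) =
      (q : ℝ) • ((eG (N * q) (gam0 N q hqN) : GL (Fin 2) ℝ) : Matrix (Fin 2) (Fin 2) ℝ) := by
  have hq : q ≠ 0 := (Fact.out : q.Prime).ne_zero
  rw [wMat, Units.val_mul, Units.val_mul, eG_apply, eG_apply, coe_mapGL, coe_mapGL,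
    ModularForm.val_heckeDiagMatrix hq]
  show _ = (q : ℝ) • !![(((gam0SL N q hqN) 0 0 : ℤ) : ℝ), (((gam0SL N q hqN) 0 1 : ℤ) : ℝ);
    (((gam0SL N q hqN) 1 0 : ℤ) : ℝ), (((gam0SL N q hqN) 1 1 : ℤ) : ℝ)]
  have e00 : (gam0SL N q hqN) 0 0 = q * g0 N q hqN 0 0 ^ 2 + N * g0 N q hqN 0 1 := rfl
  have e01 : (gam0SL N q hqN) 0 1 = g0 N q hqN 0 1 * (g0 N q hqN 0 0 + 1) := rfl
  have e10 : (gam0SL N q hqN) 1 0 = N * q * (g0 N q hqN 0 0 + 1) := rfl
  have e11 : (gam0SL N q hqN) 1 1 = N * g0 N q hqN 0 1 + q := rfl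
  have f10 : ((g0N N q hqN : Gamma0 N) : SL(2, ℤ)) 1 0 = N := g0_10 N q hqN
  have f11 : ((g0N N q hqN : Gamma0 N) : SL(2, ℤ)) 1 1 = q := g0_11 N q hqN
  have f00 : ((g0N N q hqN : Gamma0 N) : SL(2, ℤ)) 0 0 = g0 N q hqN 0 0 := rfl
  have f01 : ((g0N N q hqN : Gamma0 N) : SL(2, ℤ)) 0 1 = g0 N q hqN 0 1 := rfl
  rw [e00, e01, e10, e11, f10, f11, f00, f01]
  ext i j
  fin_cases i <;> fin_cases j <;>
    simp [Matrix.mul_apply, Fin.sum_univ_two, Matrix.smul_apply] <;> ring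

/-- `cW ∘ cW` is conjugation by `gam0`. -/
theorem cW_cW (γ : Gamma0 (N * q)) :
    cW N q hqN (cW N q hqN γ) = gam0 N q hqN * γ * (gam0 N q hqN)⁻¹ := by
  have hq : (q : ℝ) ≠ 0 := by exact_mod_cast (Fact.out : q.Prime).ne_zero
  have h1 : wMat N q hqN * wMat N q hqN * eG (N * q) γ =
      eG (N * q) (cW N q hqN (cW N q hqN γ)) * (wMat N q hqN * wMat N q hqN) := by
    rw [mul_assoc, wMat_mul, ← mul_assoc, wMat_mul, mul_assoc]
  have h2 := congrArg (fun g : GL (Fin 2) ℝ => (g : Matrix (Fin 2) (Fin 2) ℝ)) h1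
  beta_reduce at h2
  rw [Units.val_mul, Units.val_mul (eG (N * q) (cW N q hqN (cW N q hqN γ))), wMat_sq,
    Matrix.smul_mul, Matrix.mul_smul] at h2
  have h3 := smul_right_injective (Matrix (Fin 2) (Fin 2) ℝ) hq h2
  have h4 : eG (N * q) (gam0 N q hqN * γ) =
      eG (N * q) (cW N q hqN (cW N q hqN γ) * gam0 N q hqN) := by
    apply Units.ext
    rw [map_mul, map_mul, Units.val_mul, Units.val_mul]
    exact h3
  have h5 := eG_injective (N * q) h4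
  rw [h5, mul_inv_cancel_right]

end AL

/-! ### Families and operators -/

section Ops

variable (N q : ℕ) [NeZero N] [Fact q.Prime] (hqN : ¬ q ∣ N)

/-- The restriction family: one element `1`. -/
theorem famResA : IsPairFamily (eG (N * q)) (eG N) (fun _ : Unit => (1 : GL (Fin 2) ℝ)) :=
  isPairFamily_single (eG_injective N) (incl N q) 1 (fun γ => by rw [one_mul, mul_one, eG_incl])

/-- The second restriction family: one element `diag(q, 1)`. -/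
theorem famResB : IsPairFamily (eG (N * q)) (eG N)
    (fun _ : Unit => ModularForm.heckeDiagMatrix q) :=
  isPairFamily_single (eG_injective N) (conjB N q) _ (fun γ => (eG_conjB N q γ).symm)

/-- The transfer family of `Γ₀(N q) ⊆ Γ₀(N)`. -/
theorem famCorA : IsPairFamily (eG N) (eG (N * q)) (transferFam (eG N) (incl N q) 1) :=
  isPairFamily_transfer (eG_injective N) (eG_injective (N * q)) (incl N q) 1
    (fun g => by rw [one_mul, mul_one, eG_incl])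

theorem range_incl_eq : (incl N q).range = (Gamma0 (N * q)).subgroupOf (Gamma0 N) :=
  Subgroup.inclusion_range _

noncomputable instance fintypeQuot : Fintype (↥(Gamma0 N) ⧸ (incl N q).range) := by
  haveI : NeZero (N * q) := ⟨Nat.mul_ne_zero (NeZero.ne N) (Fact.out : q.Prime).ne_zero⟩
  haveI : (incl N q).range.FiniteIndex := by
    rw [range_incl_eq]; infer_instance
  exact Subgroup.fintypeQuotientOfFiniteIndex

include hqN in
theorem card_quot : Fintype.card (↥(Gamma0 N) ⧸ (incl N q).range) = q + 1 := by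
  rw [← Nat.card_eq_fintype_card, ← Subgroup.index_eq_card, range_incl_eq]
  have h := relIndex_of_not_dvd (M := N) (p := q) (NeZero.ne N) hqN
  rw [mul_comm q N] at h
  exact h

variable (A : Type*) [AddCommGroup A]

/-- Restriction along `Γ₀(N q) ⊆ Γ₀(N)`. -/
def resA : (Additive ↥(Gamma0 N) →+ A) →+ (Additive ↥(Gamma0 (N * q)) →+ A) where
  toFun φ := φ.comp (MonoidHom.toAdditive (incl N q))
  map_zero' := rfl
  map_add' _ _ := rfl

/-- The Atkin–Lehner operator `w_q`: composition with `cW`. -/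
noncomputable def wq :
    (Additive ↥(Gamma0 (N * q)) →+ A) →+ (Additive ↥(Gamma0 (N * q)) →+ A) where
  toFun y := y.comp (MonoidHom.toAdditive (cW N q hqN))
  map_zero' := rfl
  map_add' _ _ := rfl

/-- The second restriction: `w_q ∘ resA`; it is composition with `conjB` (`resB_apply`). -/
noncomputable def resB : (Additive ↥(Gamma0 N) →+ A) →+ (Additive ↥(Gamma0 (N * q)) →+ A) :=
  (wq N q hqN A).comp (resA N q A)

/-- The transfer along `Γ₀(N q) ⊆ Γ₀(N)`. -/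
noncomputable def corA : (Additive ↥(Gamma0 (N * q)) →+ A) →+ (Additive ↥(Gamma0 N) →+ A) :=
  (famCorA N q).pairAdd

/-- The second transfer: `corA ∘ w_q`. -/
noncomputable def corB : (Additive ↥(Gamma0 (N * q)) →+ A) →+ (Additive ↥(Gamma0 N) →+ A) :=
  (corA N q A).comp (wq N q hqN A)

/-- The coset family of `U_q` at level `N q`. -/
theorem famUq : IsCosetFamily (eG (N * q)) (fun x : ZMod q => ModularForm.heckeMatrix q x.val) :=
  isCosetFamily_heckeMatrix (N * q) q (dvd_mul_left q N)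

/-- The operator `U_q` at level `N q`. -/
noncomputable def uq :
    (Additive ↥(Gamma0 (N * q)) →+ A) →+ (Additive ↥(Gamma0 (N * q)) →+ A) :=
  ((famUq N q).heckeLin ℤ).toAddMonoidHom

variable {A}

@[simp] theorem resA_apply (φ : Additive ↥(Gamma0 N) →+ A) (γ : Gamma0 (N * q)) :
    resA N q A φ (Additive.ofMul γ) = φ (Additive.ofMul (incl N q γ)) := rfl

theorem resA_eq (φ : Additive ↥(Gamma0 N) →+ A) :
    resA N q A φ = φ.comp (MonoidHom.toAdditive (incl N q)) := rfl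

@[simp] theorem wq_apply (y : Additive ↥(Gamma0 (N * q)) →+ A) (γ : Gamma0 (N * q)) :
    wq N q hqN A y (Additive.ofMul γ) = y (Additive.ofMul (cW N q hqN γ)) := rfl

theorem resB_eq (φ : Additive ↥(Gamma0 N) →+ A) :
    resB N q hqN A φ = wq N q hqN A (resA N q A φ) := rfl

/-- `resB φ = φ ∘ conjB`: the second restriction is composition with
`(a b; c d) ↦ (a, q b; c / q, d)`. -/
theorem resB_apply (φ : Additive ↥(Gamma0 N) →+ A) (γ : Gamma0 (N * q)) :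
    resB N q hqN A φ (Additive.ofMul γ) = φ (Additive.ofMul (conjB N q γ)) := by
  rw [resB_eq, wq_apply, resA_apply, incl_cW, cWN_apply, ofMul_mul, ofMul_mul, ofMul_inv,
    map_add, map_add, map_neg]
  abel

theorem resB_eq_comp (φ : Additive ↥(Gamma0 N) →+ A) :
    resB N q hqN A φ = φ.comp (MonoidHom.toAdditive (conjB N q)) :=
  AddMonoidHom.ext fun γ => resB_apply N q hqN φ (Additive.toMul γ)

theorem corA_eq (y : Additive ↥(Gamma0 (N * q)) →+ A) :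
    corA N q A y = (famCorA N q).pairHom y := rfl

theorem corB_eq (y : Additive ↥(Gamma0 (N * q)) →+ A) :
    corB N q hqN A y = corA N q A (wq N q hqN A y) := rfl

theorem uq_eq (y : Additive ↥(Gamma0 (N * q)) →+ A) :
    uq N q A y = (famUq N q).heckeHom y := rfl

/-- `w_q` is an involution. -/
theorem wq_wq (y : Additive ↥(Gamma0 (N * q)) →+ A) :
    wq N q hqN A (wq N q hqN A y) = y := by
  refine AddMonoidHom.ext fun γa => ?_
  obtain ⟨γ, rfl⟩ : ∃ γ : Gamma0 (N * q), Additive.ofMul γ = γa := ⟨Additive.toMul γa, rfl⟩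
  rw [wq_apply, wq_apply, cW_cW, ofMul_mul, ofMul_mul, ofMul_inv, map_add, map_add, map_neg]
  abel

end Ops

end Fermat.Agent.P7.Degen
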