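import Mathlib
import Fermat.Agent.P7.CuspAut
import Fermat.Agent.P7.DegenDefs

/-
P7 [PD3-AL], bridge (helper96): `CuspAut.sum_comp_aut` for the Atkin-Lehner conjugation
`Degen.cW N q hqN` of `Γ₀(N q)` (helper44's `DegenDefs`).

* `wInt N q hqN` : the integer matrix `g0 * diag(q, 1)`, `det = q`, with
  `wInt * γ = cW γ * wInt` (`wInt_mul`).
* `cWEquiv N q hqN` : `cW` as a `MulEquiv`.
* `isPosPrim_cW`, `sum_comp_cW`, `trace_cW`, `isOfFinOrder_cW_iff`.
-/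

set_option autoImplicit false

namespace Fermat.Agent.P7.CuspAutW

open Matrix
open scoped MatrixGroups
open CongruenceSubgroup
open Fermat.Agent.P7.Degen Fermat.Agent.P7.CuspAut

variable (N q : ℕ) [Fact q.Prime] (hqN : ¬ q ∣ N)

/-- The integer Atkin–Lehner matrix `g0 * diag(q, 1)`. -/
noncomputable def wInt : Matrix (Fin 2) (Fin 2) ℤ :=
  ((g0 N q hqN).1 : Matrix (Fin 2) (Fin 2) ℤ) * !![(q : ℤ), 0; 0, 1]

lemma wInt_det : (wInt N q hqN).det = q := by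
  rw [wInt, Matrix.det_mul, (g0 N q hqN).2, det_fin_two_of]
  ring

lemma wInt_det_pos : 0 < (wInt N q hqN).det := by
  rw [wInt_det]
  exact_mod_cast (Fact.out : q.Prime).pos

lemma coe_cW (γ : ↥(Gamma0 (N * q))) :
    ((cW N q hqN γ : ↥(Gamma0 (N * q))) : SL(2, ℤ))
      = g0 N q hqN * conjBSL q γ.1 (dvd_of_mem_mul_right γ.2) * (g0 N q hqN)⁻¹ := rfl

/-- The intertwining relation `W * γ = cW γ * W` in `M₂(ℤ)`. -/
theorem wInt_mul (γ : ↥(Gamma0 (N * q))) :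
    wInt N q hqN * (γ.1.1 : Matrix (Fin 2) (Fin 2) ℤ)
      = ((cW N q hqN γ).1.1 : Matrix (Fin 2) (Fin 2) ℤ) * wInt N q hqN := by
  have h10 := mul_conjBSL_10 q γ.1 (dvd_of_mem_mul_right γ.2)
  have hD : (!![(q : ℤ), 0; 0, 1] : Matrix (Fin 2) (Fin 2) ℤ) * (γ.1.1 : Matrix (Fin 2) (Fin 2) ℤ)
      = ((conjBSL q γ.1 (dvd_of_mem_mul_right γ.2)).1 : Matrix (Fin 2) (Fin 2) ℤ)
        * !![(q : ℤ), 0; 0, 1] := by
    ext i j
    fin_cases i <;> fin_cases j
    · simp [Matrix.mul_apply, Fin.sum_univ_two, conjBSL]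
      ring
    · simp [Matrix.mul_apply, Fin.sum_univ_two, conjBSL]
    · simp [Matrix.mul_apply, Fin.sum_univ_two]
      linear_combination -h10
    · simp [Matrix.mul_apply, Fin.sum_univ_two, conjBSL]
  have hc : ((cW N q hqN γ).1.1 : Matrix (Fin 2) (Fin 2) ℤ) * ((g0 N q hqN).1 : Matrix (Fin 2) (Fin 2) ℤ)
      = ((g0 N q hqN).1 : Matrix (Fin 2) (Fin 2) ℤ)
        * ((conjBSL q γ.1 (dvd_of_mem_mul_right γ.2)).1 : Matrix (Fin 2) (Fin 2) ℤ) := by
    have h1 : (cW N q hqN γ).1 * g0 N q hqN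
        = g0 N q hqN * conjBSL q γ.1 (dvd_of_mem_mul_right γ.2) := by
      rw [coe_cW]; group
    exact congrArg Subtype.val h1
  rw [wInt, Matrix.mul_assoc, hD, ← Matrix.mul_assoc, ← hc, Matrix.mul_assoc]

lemma cW_bijective : Function.Bijective (cW N q hqN) := by
  constructor
  · intro a b hab
    have h1 := congrArg (cW N q hqN) hab
    rw [cW_cW, cW_cW] at h1
    simpa using h1
  · intro δ
    refine ⟨cW N q hqN ((gam0 N q hqN)⁻¹ * δ * gam0 N q hqN), ?_⟩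
    rw [cW_cW]
    group

/-- `cW` as a multiplicative equivalence. -/
noncomputable def cWEquiv : ↥(Gamma0 (N * q)) ≃* ↥(Gamma0 (N * q)) :=
  MulEquiv.ofBijective (cW N q hqN) (cW_bijective N q hqN)

lemma cWEquiv_apply (γ : ↥(Gamma0 (N * q))) : cWEquiv N q hqN γ = cW N q hqN γ := rfl

/-- `cW` preserves positive primitive parabolic elements. -/
theorem isPosPrim_cW {P : ↥(Gamma0 (N * q))} (hP : IsPosPrim (Gamma0 (N * q)) P.1) :
    IsPosPrim (Gamma0 (N * q)) (cW N q hqN P).1 :=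
  IsPosPrim.map (wInt N q hqN) (cWEquiv N q hqN) (wInt_det_pos N q hqN) (wInt_mul N q hqN) hP

/-- **(PD3) consumer**: a class-function sum over representatives of the classes of positive
primitive parabolic elements of `Γ₀(N q)` is invariant under `cW`. -/
theorem sum_comp_cW {ι : Type*} [Fintype ι] (π : ι → ↥(Gamma0 (N * q)))
    (h1 : ∀ i, IsPosPrim (Gamma0 (N * q)) (π i).1)
    (h2 : ∀ P : ↥(Gamma0 (N * q)), IsPosPrim (Gamma0 (N * q)) P.1 →
      ∃ i, ∃ γ : ↥(Gamma0 (N * q)), P = γ * π i * γ⁻¹)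
    (h3 : ∀ i j (γ : ↥(Gamma0 (N * q))), π i = γ * π j * γ⁻¹ → i = j)
    {k : Type*} [AddCommMonoid k] (u : ↥(Gamma0 (N * q)) → k)
    (hu : ∀ γ P : ↥(Gamma0 (N * q)), IsPosPrim (Gamma0 (N * q)) P.1 → u (γ * P * γ⁻¹) = u P) :
    ∑ i, u (cW N q hqN (π i)) = ∑ i, u (π i) :=
  sum_comp_aut (wInt N q hqN) (cWEquiv N q hqN) π h1 h2 h3 (wInt_det_pos N q hqN)
    (wInt_mul N q hqN) u hu

/-- `cW` preserves the trace. -/
theorem trace_cW (γ : ↥(Gamma0 (N * q))) :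
    ((cW N q hqN γ).1.1 : Matrix (Fin 2) (Fin 2) ℤ).trace
      = (γ.1.1 : Matrix (Fin 2) (Fin 2) ℤ).trace := by
  obtain ⟨-, -, etr⟩ := aut_entries (wInt N q hqN) (cWEquiv N q hqN) (wInt_mul N q hqN) γ
  rw [Matrix.trace_fin_two, Matrix.trace_fin_two]
  exact mul_left_cancel₀ (ne_of_gt (wInt_det_pos N q hqN)) etr

/-- `cW` preserves finite order. -/
theorem isOfFinOrder_cW_iff (γ : ↥(Gamma0 (N * q))) :
    IsOfFinOrder (cW N q hqN γ) ↔ IsOfFinOrder γ :=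
  (cW_bijective N q hqN).1.isOfFinOrder_iff

/-- `wq` is composition with `cW` (definitional). -/
theorem wq_apply [NeZero N] {A : Type*} [AddCommGroup A]
    (y : Additive ↥(Gamma0 (N * q)) →+ A) (γ : ↥(Gamma0 (N * q))) :
    wq N q hqN A y (Additive.ofMul γ) = y (Additive.ofMul (cW N q hqN γ)) := rfl

end Fermat.Agent.P7.CuspAutW
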