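import Mathlib
import Fermat.Agent.P7.CuspAutW

/-!
# P7 [AL-INST] (helper82; leaf named by helper30, board row #2823)

The Atkin–Lehner conjugation `Degen.cW N q hqN` of `Γ₀(N q)` as a group automorphism `θ` induced by
an integer matrix `W` of positive determinant: `W * γ = θ γ * W` in `M₂(ℤ)`.  This packages
helper96's `CuspAutW.{cWEquiv, wInt, wInt_det_pos, wInt_mul}` in the `(θ, W, hW, hθ)` shape of
`CuspAut.sum_comp_aut`.
-/

set_option autoImplicit false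

namespace Fermat.Agent.P7.AlInst

open Matrix
open scoped MatrixGroups
open CongruenceSubgroup

/-- **[AL-INST]** -/
theorem exists_aut (N q : ℕ) [NeZero N] [Fact q.Prime] (hqN : ¬ q ∣ N) :
    ∃ (θ : ↥(Gamma0 (N * q)) ≃* ↥(Gamma0 (N * q))) (W : Matrix (Fin 2) (Fin 2) ℤ),
      (∀ γ, θ γ = Degen.cW N q hqN γ) ∧ 0 < W.det ∧
      ∀ γ : ↥(Gamma0 (N * q)),
        W * (γ.1 : Matrix (Fin 2) (Fin 2) ℤ) = ((θ γ).1 : Matrix (Fin 2) (Fin 2) ℤ) * W :=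
  ⟨CuspAutW.cWEquiv N q hqN, CuspAutW.wInt N q hqN, fun _ => rfl,
    CuspAutW.wInt_det_pos N q hqN, CuspAutW.wInt_mul N q hqN⟩

/-- The same with the determinant made explicit (`det W = q`). -/
theorem exists_aut_det (N q : ℕ) [NeZero N] [Fact q.Prime] (hqN : ¬ q ∣ N) :
    ∃ (θ : ↥(Gamma0 (N * q)) ≃* ↥(Gamma0 (N * q))) (W : Matrix (Fin 2) (Fin 2) ℤ),
      (∀ γ, θ γ = Degen.cW N q hqN γ) ∧ W.det = q ∧
      ∀ γ : ↥(Gamma0 (N * q)),
        W * (γ.1 : Matrix (Fin 2) (Fin 2) ℤ) = ((θ γ).1 : Matrix (Fin 2) (Fin 2) ℤ) * W :=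
  ⟨CuspAutW.cWEquiv N q hqN, CuspAutW.wInt N q hqN, fun _ => rfl,
    CuspAutW.wInt_det N q hqN, CuspAutW.wInt_mul N q hqN⟩

end Fermat.Agent.P7.AlInst
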