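/-
P7 [AMALG-GEN] (helper69): generation half of the amalgam
`Γ0(N)[1/q] = Γ0(N) *_{Γ0(Nq)} δ⁻¹Γ0(N)δ`, `δ = diag(q,1)`, in a model-free form.

Every `g ∈ SL(2,ℚ)` such that some `q^k • g` is an integer matrix with lower-left entry divisible by `N`
lies in every subgroup `S` containing the (casts of the) elements of `Γ0(N)` and the elements
`(a, b/q; q c, d)` with `(a, b; c, d) ∈ Γ0(N)`.

Mathlib only.
-/
import Mathlib

set_option autoImplicit false

open Matrix CongruenceSubgroup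
open scoped MatrixGroups

namespace Fermat.Agent.P7.AmalgGen

/-- Arithmetic core: a shear `c` (divisible by `N`) killing the first column modulo `q²`. -/
theorem exists_shear {q N : ℕ} (hq : q.Prime) (hqN : q.Coprime N)
    {w00 w01 w10 w11 : ℤ} (hdet : (q : ℤ) ^ 2 ∣ w00 * w11 - w01 * w10)
    (hcol : ¬ (q : ℤ) ∣ w01 ∨ ¬ (q : ℤ) ∣ w11) (hN : (N : ℤ) ∣ w10) :
    ∃ c e0 e1 : ℤ, (N : ℤ) ∣ c ∧ w00 + c * w01 = (q : ℤ) ^ 2 * e0 ∧
      w10 + c * w11 = (q : ℤ) ^ 2 * e1 ∧ (N : ℤ) ∣ e1 := by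
  have hqp : Prime (q : ℤ) := Nat.prime_iff_prime_int.mp hq
  have hqNc : IsCoprime (q : ℤ) (N : ℤ) := Nat.isCoprime_iff_coprime.mpr hqN
  have hNq2 : IsCoprime (N : ℤ) ((q : ℤ) ^ 2) := (hqNc.pow_left).symm
  -- it suffices to find `c` with the two divisibilities
  suffices h : ∃ c : ℤ, (N : ℤ) ∣ c ∧ (q : ℤ) ^ 2 ∣ w00 + c * w01 ∧ (q : ℤ) ^ 2 ∣ w10 + c * w11 by
    obtain ⟨c, hc, ⟨e0, he0⟩, ⟨e1, he1⟩⟩ := h
    refine ⟨c, e0, e1, hc, he0, he1, ?_⟩
    have h1 : (N : ℤ) ∣ (q : ℤ) ^ 2 * e1 := by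
      rw [← he1]
      exact dvd_add hN (Dvd.dvd.mul_right hc _)
    exact hNq2.dvd_of_dvd_mul_left h1
  have hcop : ∀ x : ℤ, ¬ (q : ℤ) ∣ x → IsCoprime (N * x) ((q : ℤ) ^ 2) := by
    intro x hx
    have h1 : IsCoprime (q : ℤ) x := (hqp.coprime_iff_not_dvd).mpr hx
    exact IsCoprime.mul_left hNq2 (h1.pow_left).symm
  have hcop' : ∀ x : ℤ, ¬ (q : ℤ) ∣ x → IsCoprime ((q : ℤ) ^ 2) x := by
    intro x hx
    have h1 : IsCoprime (q : ℤ) x := (hqp.coprime_iff_not_dvd).mpr hx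
    exact h1.pow_left
  rcases hcol with h01 | h11
  · obtain ⟨r, s, hrs⟩ := hcop w01 h01
    refine ⟨N * (-w00 * r), Dvd.intro _ rfl, ?_, ?_⟩
    · refine ⟨w00 * s, ?_⟩
      linear_combination (-w00) * hrs
    · have h2 : (q : ℤ) ^ 2 ∣ (w10 + N * (-w00 * r) * w11) * w01 := by
        obtain ⟨t, ht⟩ := hdet
        refine ⟨-t + w00 * w11 * s, ?_⟩
        linear_combination (-1 : ℤ) * ht - w00 * w11 * hrs
      exact (hcop' w01 h01).dvd_of_dvd_mul_right h2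
  · obtain ⟨r, s, hrs⟩ := hcop w11 h11
    refine ⟨N * (-w10 * r), Dvd.intro _ rfl, ?_, ?_⟩
    · have h2 : (q : ℤ) ^ 2 ∣ (w00 + N * (-w10 * r) * w01) * w11 := by
        obtain ⟨t, ht⟩ := hdet
        refine ⟨t + w10 * w01 * s, ?_⟩
        linear_combination ht - w10 * w01 * hrs
      exact (hcop' w11 h11).dvd_of_dvd_mul_right h2
    · refine ⟨w10 * s, ?_⟩
      linear_combination (-w10) * hrs

/-- The element of `SL(2,ℚ)` with prescribed entries. -/
def mkQ (a b c d : ℚ) (h : a * d - b * c = 1) : SL(2, ℚ) :=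
  ⟨!![a, b; c, d], by rw [Matrix.det_fin_two_of]; exact h⟩

/-- The element of `SL(2,ℤ)` with prescribed entries. -/
def mkZ (a b c d : ℤ) (h : a * d - b * c = 1) : SL(2, ℤ) :=
  ⟨!![a, b; c, d], by rw [Matrix.det_fin_two_of]; exact h⟩

@[simp] theorem mkQ_00 (a b c d : ℚ) (h : a * d - b * c = 1) : (mkQ a b c d h).1 0 0 = a := rfl
@[simp] theorem mkQ_01 (a b c d : ℚ) (h : a * d - b * c = 1) : (mkQ a b c d h).1 0 1 = b := rfl
@[simp] theorem mkQ_10 (a b c d : ℚ) (h : a * d - b * c = 1) : (mkQ a b c d h).1 1 0 = c := rfl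
@[simp] theorem mkQ_11 (a b c d : ℚ) (h : a * d - b * c = 1) : (mkQ a b c d h).1 1 1 = d := rfl
@[simp] theorem mkZ_00 (a b c d : ℤ) (h : a * d - b * c = 1) : (mkZ a b c d h).1 0 0 = a := rfl
@[simp] theorem mkZ_01 (a b c d : ℤ) (h : a * d - b * c = 1) : (mkZ a b c d h).1 0 1 = b := rfl
@[simp] theorem mkZ_10 (a b c d : ℤ) (h : a * d - b * c = 1) : (mkZ a b c d h).1 1 0 = c := rfl
@[simp] theorem mkZ_11 (a b c d : ℤ) (h : a * d - b * c = 1) : (mkZ a b c d h).1 1 1 = d := rfl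

theorem mkZ_mem_Gamma0 {N : ℕ} (a b c d : ℤ) (h : a * d - b * c = 1) (hc : (N : ℤ) ∣ c) :
    mkZ a b c d h ∈ Gamma0 N := by
  rw [Gamma0_mem]
  exact (ZMod.intCast_zmod_eq_zero_iff_dvd _ _).mpr hc

/-- Entries of a product in `SL(2,ℚ)`. -/
theorem mul_entry (g h : SL(2, ℚ)) (i j : Fin 2) :
    (g * h).1 i j = g.1 i 0 * h.1 0 j + g.1 i 1 * h.1 1 j := by
  simp [Matrix.mul_apply, Fin.sum_univ_two]

theorem det_entries (g : SL(2, ℚ)) : g.1 0 0 * g.1 1 1 - g.1 0 1 * g.1 1 0 = 1 := by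
  have h := g.2
  rw [Matrix.det_fin_two] at h
  exact h

/-- Generation, entry form, by induction on the denominator exponent. -/
theorem mem_aux {q N : ℕ} (hq : q.Prime) (hqN : q.Coprime N) (S : Subgroup SL(2, ℚ))
    (hA : ∀ γ : SL(2, ℤ), γ ∈ Gamma0 N → ∀ g : SL(2, ℚ),
      (∀ i j, g.1 i j = (γ.1 i j : ℚ)) → g ∈ S)
    (hB : ∀ γ : SL(2, ℤ), γ ∈ Gamma0 N → ∀ g : SL(2, ℚ), g.1 0 0 = γ.1 0 0 →
      q * g.1 0 1 = γ.1 0 1 → g.1 1 0 = q * γ.1 1 0 → g.1 1 1 = γ.1 1 1 → g ∈ S) :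
    ∀ (k : ℕ) (g : SL(2, ℚ)) (w00 w01 w10 w11 : ℤ),
      (q : ℚ) ^ k * g.1 0 0 = w00 → (q : ℚ) ^ k * g.1 0 1 = w01 →
      (q : ℚ) ^ k * g.1 1 0 = w10 → (q : ℚ) ^ k * g.1 1 1 = w11 → (N : ℤ) ∣ w10 → g ∈ S := by
  have hqp : Prime (q : ℤ) := Nat.prime_iff_prime_int.mp hq
  have hq0 : (q : ℚ) ≠ 0 := by exact_mod_cast hq.ne_zero
  have hqNc : IsCoprime (q : ℤ) (N : ℤ) := Nat.isCoprime_iff_coprime.mpr hqN
  obtain ⟨r, s, hrs⟩ := hqNc
  have hrsQ : (r : ℚ) * q + s * N = 1 := by exact_mod_cast hrs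
  have hqs : ¬ (q : ℤ) ∣ s := by
    intro h
    have h1 : (q : ℤ) ∣ 1 := by
      rw [← hrs]
      exact dvd_add (Dvd.intro_left _ rfl) (Dvd.dvd.mul_right h _)
    exact hqp.not_dvd_one h1
  intro k
  induction k with
  | zero =>
    intro g w00 w01 w10 w11 h00 h01 h10 h11 hN
    simp only [pow_zero, one_mul] at h00 h01 h10 h11
    have hdet : w00 * w11 - w01 * w10 = 1 := by
      have h := det_entries g
      rw [h00, h01, h10, h11] at h
      exact_mod_cast h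
    refine hA (mkZ w00 w01 w10 w11 hdet) (mkZ_mem_Gamma0 _ _ _ _ hdet hN) g ?_
    intro i j
    fin_cases i <;> fin_cases j <;> simp [h00, h01, h10, h11]
  | succ k ih =>
    -- the main reduction step: second column not divisible by `q`
    have key : ∀ (g : SL(2, ℚ)) (w00 w01 w10 w11 : ℤ),
        (q : ℚ) ^ (k + 1) * g.1 0 0 = w00 → (q : ℚ) ^ (k + 1) * g.1 0 1 = w01 →
        (q : ℚ) ^ (k + 1) * g.1 1 0 = w10 → (q : ℚ) ^ (k + 1) * g.1 1 1 = w11 →
        (N : ℤ) ∣ w10 → (¬ (q : ℤ) ∣ w01 ∨ ¬ (q : ℤ) ∣ w11) → g ∈ S := by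
      intro g w00 w01 w10 w11 h00 h01 h10 h11 hN hcol
      have hdet : (q : ℤ) ^ 2 ∣ w00 * w11 - w01 * w10 := by
        refine ⟨(q : ℤ) ^ (2 * k), ?_⟩
        have h := det_entries g
        have h2 : ((w00 * w11 - w01 * w10 : ℤ) : ℚ) = (((q : ℤ) ^ 2 * (q : ℤ) ^ (2 * k) : ℤ) : ℚ) := by
          push_cast
          rw [← h00, ← h01, ← h10, ← h11]
          have : ((q : ℚ) ^ (k + 1) * g.1 0 0) * ((q : ℚ) ^ (k + 1) * g.1 1 1) -
              ((q : ℚ) ^ (k + 1) * g.1 0 1) * ((q : ℚ) ^ (k + 1) * g.1 1 0) =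
              (q : ℚ) ^ 2 * (q : ℚ) ^ (2 * k) * (g.1 0 0 * g.1 1 1 - g.1 0 1 * g.1 1 0) := by
            ring
          rw [this, h, mul_one]
        exact_mod_cast h2
      obtain ⟨c, e0, e1, ⟨c', rfl⟩, he0, he1, hNe1⟩ := exists_shear hq hqN hdet hcol hN
      have he0Q : (w00 : ℚ) + (N * c' : ℤ) * w01 = (q : ℚ) ^ 2 * e0 := by exact_mod_cast he0
      have he1Q : (w10 : ℚ) + (N * c' : ℤ) * w11 = (q : ℚ) ^ 2 * e1 := by exact_mod_cast he1
      -- the two factors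
      let lc : SL(2, ℚ) := mkQ 1 0 ((N * c' : ℤ) : ℚ) 1 (by ring)
      have hlc : lc ∈ S := by
        refine hA (mkZ 1 0 (N * c') 1 (by ring)) (mkZ_mem_Gamma0 _ _ _ _ _ (Dvd.intro _ rfl)) lc ?_
        intro i j
        fin_cases i <;> fin_cases j <;> simp [lc]
      let y0 : SL(2, ℚ) := mkQ r (-s / q) (q * N) q (by field_simp; linarith)
      have hy0 : y0 ∈ S := by
        refine hB (mkZ r (-s) N q (by linarith)) (mkZ_mem_Gamma0 _ _ _ _ _ dvd_rfl) y0 ?_ ?_ ?_ ?_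
        · simp [y0]
        · simp [y0]; field_simp
        · simp [y0]
        · simp [y0]
      have hg' : g * lc * y0 ∈ S := by
        refine ih (g * lc * y0) (q * e0 * r + w01 * N) (-e0 * s + w01) (q * e1 * r + w11 * N)
          (-e1 * s + w11) ?_ ?_ ?_ ?_ ?_
        · rw [mul_entry, mul_entry, mul_entry]
          simp only [lc, y0, mkQ_00, mkQ_01, mkQ_10, mkQ_11]
          push_cast
          have e1' : (q : ℚ) * ((q : ℚ) ^ k * (((g.1 0 0 * 1 + g.1 0 1 * (↑N * ↑c')) * ↑r +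
              (g.1 0 0 * 0 + g.1 0 1 * 1) * (↑q * ↑N)))) =
              (((q : ℚ) ^ (k + 1) * g.1 0 0) + (↑N * ↑c') * ((q : ℚ) ^ (k + 1) * g.1 0 1)) * r +
                ((q : ℚ) ^ (k + 1) * g.1 0 1) * (q * N) := by ring
          rw [h00, h01] at e1'
          push_cast at he0Q
          rw [he0Q] at e1'
          have := mul_left_cancel₀ hq0 (e1'.trans (by ring :
            (q : ℚ) ^ 2 * e0 * r + w01 * (q * N) = q * (q * e0 * r + w01 * N)))
          exact this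
        · rw [mul_entry, mul_entry, mul_entry]
          simp only [lc, y0, mkQ_00, mkQ_01, mkQ_10, mkQ_11]
          push_cast
          have e1' : (q : ℚ) * ((q : ℚ) ^ k * (((g.1 0 0 * 1 + g.1 0 1 * (↑N * ↑c')) * (-↑s / ↑q) +
              (g.1 0 0 * 0 + g.1 0 1 * 1) * ↑q))) =
              (((q : ℚ) ^ (k + 1) * g.1 0 0) + (↑N * ↑c') * ((q : ℚ) ^ (k + 1) * g.1 0 1)) * (-s / q) +
                ((q : ℚ) ^ (k + 1) * g.1 0 1) * q := by ring
          rw [h00, h01] at e1'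
          push_cast at he0Q
          rw [he0Q] at e1'
          have := mul_left_cancel₀ hq0 (e1'.trans (by field_simp :
            (q : ℚ) ^ 2 * e0 * (-s / q) + w01 * q = q * (-e0 * s + w01)))
          exact this
        · rw [mul_entry, mul_entry, mul_entry]
          simp only [lc, y0, mkQ_00, mkQ_01, mkQ_10, mkQ_11]
          push_cast
          have e1' : (q : ℚ) * ((q : ℚ) ^ k * (((g.1 1 0 * 1 + g.1 1 1 * (↑N * ↑c')) * ↑r +
              (g.1 1 0 * 0 + g.1 1 1 * 1) * (↑q * ↑N)))) =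
              (((q : ℚ) ^ (k + 1) * g.1 1 0) + (↑N * ↑c') * ((q : ℚ) ^ (k + 1) * g.1 1 1)) * r +
                ((q : ℚ) ^ (k + 1) * g.1 1 1) * (q * N) := by ring
          rw [h10, h11] at e1'
          push_cast at he1Q
          rw [he1Q] at e1'
          have := mul_left_cancel₀ hq0 (e1'.trans (by ring :
            (q : ℚ) ^ 2 * e1 * r + w11 * (q * N) = q * (q * e1 * r + w11 * N)))
          exact this
        · rw [mul_entry, mul_entry, mul_entry]
          simp only [lc, y0, mkQ_00, mkQ_01, mkQ_10, mkQ_11]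
          push_cast
          have e1' : (q : ℚ) * ((q : ℚ) ^ k * (((g.1 1 0 * 1 + g.1 1 1 * (↑N * ↑c')) * (-↑s / ↑q) +
              (g.1 1 0 * 0 + g.1 1 1 * 1) * ↑q))) =
              (((q : ℚ) ^ (k + 1) * g.1 1 0) + (↑N * ↑c') * ((q : ℚ) ^ (k + 1) * g.1 1 1)) * (-s / q) +
                ((q : ℚ) ^ (k + 1) * g.1 1 1) * q := by ring
          rw [h10, h11] at e1'
          push_cast at he1Q
          rw [he1Q] at e1'
          have := mul_left_cancel₀ hq0 (e1'.trans (by field_simp :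
            (q : ℚ) ^ 2 * e1 * (-s / q) + w11 * q = q * (-e1 * s + w11)))
          exact this
        · exact dvd_add (Dvd.dvd.mul_right (Dvd.dvd.mul_left hNe1 _) _) (Dvd.intro_left _ rfl)
      have : g = g * lc * y0 * y0⁻¹ * lc⁻¹ := by group
      rw [this]
      exact S.mul_mem (S.mul_mem hg' (S.inv_mem hy0)) (S.inv_mem hlc)
    intro g w00 w01 w10 w11 h00 h01 h10 h11 hN
    by_cases hall : (q : ℤ) ∣ w00 ∧ (q : ℤ) ∣ w01 ∧ (q : ℤ) ∣ w10 ∧ (q : ℤ) ∣ w11
    · obtain ⟨⟨v00, rfl⟩, ⟨v01, rfl⟩, ⟨v10, rfl⟩, ⟨v11, rfl⟩⟩ := hall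
      have hcancel : ∀ (x : ℚ) (v : ℤ), (q : ℚ) ^ (k + 1) * x = ((q * v : ℤ) : ℚ) →
          (q : ℚ) ^ k * x = v := by
        intro x v h
        push_cast at h
        rw [pow_succ, mul_comm ((q : ℚ) ^ k) q, mul_assoc] at h
        exact mul_left_cancel₀ hq0 h
      refine ih g v00 v01 v10 v11 (hcancel _ _ h00) (hcancel _ _ h01) (hcancel _ _ h10)
        (hcancel _ _ h11) ?_
      exact (IsCoprime.dvd_of_dvd_mul_left (Nat.isCoprime_iff_coprime.mpr hqN.symm) hN)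
    · by_cases hcol : ¬ (q : ℤ) ∣ w01 ∨ ¬ (q : ℤ) ∣ w11
      · exact key g w00 w01 w10 w11 h00 h01 h10 h11 hN hcol
      · rw [not_or, not_not, not_not] at hcol
        obtain ⟨hq01, hq11⟩ := hcol
        have hcol1 : ¬ (q : ℤ) ∣ w00 ∨ ¬ (q : ℤ) ∣ w10 := by
          by_contra hcon
          rw [not_or, not_not, not_not] at hcon
          exact hall ⟨hcon.1, hq01, hcon.2, hq11⟩
        let x0 : SL(2, ℚ) := mkQ q (-s) N r (by linarith)
        have hx0 : x0 ∈ S := by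
          refine hA (mkZ q (-s) N r (by linarith)) (mkZ_mem_Gamma0 _ _ _ _ _ dvd_rfl) x0 ?_
          intro i j
          fin_cases i <;> fin_cases j <;> simp [x0]
        have hg1 : g * x0 ∈ S := by
          refine key (g * x0) (q * w00 + N * w01) (-s * w00 + r * w01) (q * w10 + N * w11)
            (-s * w10 + r * w11) ?_ ?_ ?_ ?_ ?_ ?_
          · rw [mul_entry]
            simp only [x0, mkQ_00, mkQ_10]
            push_cast
            rw [← h00, ← h01]; ring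
          · rw [mul_entry]
            simp only [x0, mkQ_01, mkQ_11]
            push_cast
            rw [← h00, ← h01]; ring
          · rw [mul_entry]
            simp only [x0, mkQ_00, mkQ_10]
            push_cast
            rw [← h10, ← h11]; ring
          · rw [mul_entry]
            simp only [x0, mkQ_01, mkQ_11]
            push_cast
            rw [← h10, ← h11]; ring
          · exact dvd_add (Dvd.dvd.mul_left hN _) (Dvd.intro _ rfl)
          · have aux : ∀ w w' : ℤ, (q : ℤ) ∣ w' → ¬ (q : ℤ) ∣ w → ¬ (q : ℤ) ∣ -s * w + r * w' := by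
              intro w w' hw' hw hcon
              have h1 : (q : ℤ) ∣ -s * w := by
                have := dvd_sub hcon (Dvd.dvd.mul_left hw' r)
                simpa using this
              rcases hqp.dvd_or_dvd h1 with h2 | h2
              · exact hqs ((dvd_neg).mp h2)
              · exact hw h2
            rcases hcol1 with h | h
            · exact Or.inl (aux _ _ hq01 h)
            · exact Or.inr (aux _ _ hq11 h)
        have : g = g * x0 * x0⁻¹ := by group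
        rw [this]
        exact S.mul_mem hg1 (S.inv_mem hx0)

/-- **Generation half of the amalgam** `Γ0(N)[1/q] = Γ0(N) *_{Γ0(Nq)} δ⁻¹Γ0(N)δ`. -/
theorem mem_of_scaled {q N : ℕ} (hq : q.Prime) (hqN : q.Coprime N) (S : Subgroup SL(2, ℚ))
    (hA : ∀ γ : SL(2, ℤ), γ ∈ Gamma0 N → ∀ g : SL(2, ℚ),
      (∀ i j, g.1 i j = (γ.1 i j : ℚ)) → g ∈ S)
    (hB : ∀ γ : SL(2, ℤ), γ ∈ Gamma0 N → ∀ g : SL(2, ℚ), g.1 0 0 = γ.1 0 0 →
      q * g.1 0 1 = γ.1 0 1 → g.1 1 0 = q * γ.1 1 0 → g.1 1 1 = γ.1 1 1 → g ∈ S)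
    (g : SL(2, ℚ)) (k : ℕ) (W : Matrix (Fin 2) (Fin 2) ℤ)
    (hW : (q : ℚ) ^ k • g.1 = W.map (Int.cast : ℤ → ℚ)) (hN : (N : ℤ) ∣ W 1 0) : g ∈ S := by
  have h : ∀ i j, (q : ℚ) ^ k * g.1 i j = W i j := by
    intro i j
    have := congrFun (congrFun hW i) j
    simpa using this
  exact mem_aux hq hqN S hA hB k g (W 0 0) (W 0 1) (W 1 0) (W 1 1) (h 0 0) (h 0 1) (h 1 0) (h 1 1) hN

end Fermat.Agent.P7.AmalgGen
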