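import Mathlib

/-!
# Ping-pong for amalgams: gluing homomorphisms on `A ⊔ B`

Let `A B : Subgroup G` and let `G` act on a set with two disjoint subsets `XA`, `XB` such that
every element of `A ∖ B` maps `XB` into `XA`, every element of `B ∖ A` maps `XA` into `XB`,
every element of `A` keeps at least one point of `XA` inside `XA`, and every element of `B` keeps at
least one point of `XB` inside `XB`.  Then `A ⊔ B` is the amalgamated product of `A` and `B` over
`A ⊓ B`; in the form used downstream: two homomorphisms `A →* M`, `B →* M` which agree on `A ⊓ B`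
glue to a homomorphism `A ⊔ B →* M` (`exists_glue`).

The proof uses Mathlib's normal form for `Monoid.PushoutI`.
-/

set_option autoImplicit false

namespace Fermat.Agent.P7.PingPong

open Monoid

universe u v w

section Core

variable {G : Type u} [Group G] (S : Bool → Subgroup G)

/-- `S true ⊓ S false ≤ S i`. -/
theorem inf_le_sub (i : Bool) : S true ⊓ S false ≤ S i := by
  cases i
  · exact inf_le_right
  · exact inf_le_left

/-- The diagram `S true ← S true ⊓ S false → S false`. -/
def incl (i : Bool) : ↥(S true ⊓ S false) →* ↥(S i) :=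
  Subgroup.inclusion (inf_le_sub S i)

theorem incl_injective (i : Bool) : Function.Injective (incl S i) :=
  Subgroup.inclusion_injective _

theorem mem_range_incl (i : Bool) (g : ↥(S i)) :
    g ∈ (incl S i).range ↔ (g : G) ∈ S (!i) := by
  constructor
  · rintro ⟨c, rfl⟩
    have hc := c.2
    cases i
    · exact hc.1
    · exact hc.2
  · intro hg
    have hmem : (g : G) ∈ S true ⊓ S false := by
      cases i
      · exact ⟨hg, g.2⟩
      · exact ⟨g.2, hg⟩
    exact ⟨⟨g, hmem⟩, Subtype.ext rfl⟩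

theorem subtype_comp_incl (i : Bool) :
    (S i).subtype.comp (incl S i) = (S true ⊓ S false).subtype :=
  MonoidHom.ext fun _ => rfl

/-- The canonical map from the amalgam to the ambient group. -/
noncomputable def toG : PushoutI (incl S) →* G :=
  PushoutI.lift (fun i => (S i).subtype) (S true ⊓ S false).subtype (subtype_comp_incl S)

@[simp] theorem toG_of (i : Bool) (g : ↥(S i)) :
    toG S (PushoutI.of i g) = (g : G) := by
  unfold toG
  rw [PushoutI.lift_of]
  rfl

@[simp] theorem toG_base (c : ↥(S true ⊓ S false)) :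
    toG S (PushoutI.base (incl S) c) = (c : G) := by
  unfold toG
  rw [PushoutI.lift_base]
  rfl

/-- The product in `G` of a list of letters. -/
def lprod (l : List (Σ i, ↥(S i))) : G := (l.map fun p => (p.2 : G)).prod

@[simp] theorem lprod_nil : lprod S [] = 1 := rfl

@[simp] theorem lprod_cons (p : Σ i, ↥(S i)) (l : List (Σ i, ↥(S i))) :
    lprod S (p :: l) = (p.2 : G) * lprod S l := by
  simp [lprod]

theorem toG_ofCoprodI_prod (w : CoprodI.Word fun i => ↥(S i)) :
    toG S (PushoutI.ofCoprodI w.prod) = lprod S w.toList := by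
  unfold CoprodI.Word.prod lprod
  rw [map_list_prod, map_list_prod, List.map_map, List.map_map]
  refine congrArg List.prod (List.map_congr_left ?_)
  rintro ⟨i, g⟩ _
  simp only [Function.comp_apply, PushoutI.ofCoprodI_of, toG_of]

end Core

section PingPong

variable {G : Type u} [Group G] (S : Bool → Subgroup G) {X : Type v} [MulAction G X]
  (Y : Bool → Set X)

/-- Key ping-pong step: a nonempty alternating word whose letters are not in the other subgroup
maps `Y (!last)` into `Y first`. -/
theorem lprod_smul_mem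
    (hmove : ∀ i, ∀ g ∈ S i, g ∉ S (!i) → ∀ x ∈ Y (!i), g • x ∈ Y i) :
    ∀ (l : List (Σ i, ↥(S i))) (p : Σ i, ↥(S i)),
      (p :: l).IsChain (fun a b => a.1 ≠ b.1) →
      (∀ r ∈ p :: l, (r.2 : G) ∉ S (!r.1)) →
      ∀ x ∈ Y (!((p :: l).getLast (List.cons_ne_nil _ _)).1), lprod S (p :: l) • x ∈ Y p.1 := by
  intro l
  induction l with
  | nil =>
    intro p _ hred x hx
    simp only [List.getLast_singleton] at hx
    simp only [lprod_cons, lprod_nil, mul_one]
    exact hmove p.1 p.2 p.2.2 (hred p (by simp)) x hx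
  | cons p' l ih =>
    intro p hch hred x hx
    rw [List.getLast_cons_cons] at hx
    have hch' : (p' :: l).IsChain (fun a b => a.1 ≠ b.1) := hch.tail
    have hne : p.1 ≠ p'.1 := by
      have := List.isChain_cons_cons.1 hch
      exact this.1
    have hp' : p'.1 = !p.1 := by
      cases h1 : p.1 <;> cases h2 : p'.1 <;> simp_all
    have h1 := ih p' hch' (fun r hr => hred r (List.mem_cons_of_mem _ hr)) x hx
    rw [lprod_cons, mul_smul]
    rw [hp'] at h1
    exact hmove p.1 p.2 p.2.2 (hred p (by simp)) _ h1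

/-- A nonempty alternating reduced word does not lie in `S true ⊓ S false`. -/
theorem lprod_not_mem_inf
    (hdisj : ∀ x, x ∈ Y true → x ∉ Y false)
    (hmove : ∀ i, ∀ g ∈ S i, g ∉ S (!i) → ∀ x ∈ Y (!i), g • x ∈ Y i)
    (hstay : ∀ i, ∀ g ∈ S i, ∃ x ∈ Y i, g • x ∈ Y i)
    (l : List (Σ i, ↥(S i))) (hl : l ≠ [])
    (hch : l.IsChain (fun a b => a.1 ≠ b.1))
    (hred : ∀ r ∈ l, (r.2 : G) ∉ S (!r.1)) :
    lprod S l ∉ S true ⊓ S false := by
  have hdisj' : ∀ i x, x ∈ Y i → x ∉ Y (!i) := by
    intro i x hx hx'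
    cases i
    · exact hdisj x hx' hx
    · exact hdisj x hx hx'
  intro hmem
  have hmem' : ∀ i, lprod S l ∈ S i := fun i => inf_le_sub S i hmem
  obtain ⟨p, l', rfl⟩ := List.exists_cons_of_ne_nil hl
  set j := ((p :: l').getLast (List.cons_ne_nil _ _)).1 with hj
  have hL := lprod_smul_mem S Y hmove l' p hch hred
  by_cases hjp : j = p.1
  · -- odd length: first = last
    obtain ⟨x, hx, hx'⟩ := hstay (!j) _ (hmem' (!j))
    have h2 := hL x hx
    rw [← hjp] at h2
    exact hdisj' j _ h2 hx'
  · -- even length: pass to the tail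
    have hj' : j = !p.1 := by
      cases h1 : p.1 <;> cases h2 : j <;> simp_all
    cases l' with
    | nil =>
      exact hjp (by simp [hj])
    | cons p' l'' =>
      have hch' : (p' :: l'').IsChain (fun a b => a.1 ≠ b.1) := hch.tail
      have hne : p.1 ≠ p'.1 := (List.isChain_cons_cons.1 hch).1
      have hp' : p'.1 = !p.1 := by
        cases h1 : p.1 <;> cases h2 : p'.1 <;> simp_all
      have hlast : ((p' :: l'').getLast (List.cons_ne_nil _ _)).1 = j := by
        rw [hj, List.getLast_cons_cons]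
      have hL' := lprod_smul_mem S Y hmove l'' p' hch'
        (fun r hr => hred r (List.mem_cons_of_mem _ hr))
      rw [hlast, hj', Bool.not_not, hp'] at hL'
      -- the tail product lies in `S p.1`
      have htail : lprod S (p' :: l'') ∈ S p.1 := by
        have h3 : lprod S (p' :: l'') = (p.2 : G)⁻¹ * lprod S (p :: p' :: l'') := by
          rw [lprod_cons S p, inv_mul_cancel_left]
        rw [h3]
        exact (S p.1).mul_mem ((S p.1).inv_mem p.2.2) (hmem' p.1)
      obtain ⟨x, hx, hx'⟩ := hstay p.1 _ htail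
      exact hdisj' p.1 _ hx' (hL' x hx)

/-- The canonical map from the amalgam to `G` is injective. -/
theorem toG_injective
    (hdisj : ∀ x, x ∈ Y true → x ∉ Y false)
    (hmove : ∀ i, ∀ g ∈ S i, g ∉ S (!i) → ∀ x ∈ Y (!i), g • x ∈ Y i)
    (hstay : ∀ i, ∀ g ∈ S i, ∃ x ∈ Y i, g • x ∈ Y i) :
    Function.Injective (toG S) := by
  classical
  rw [injective_iff_map_eq_one]
  intro x hx
  obtain ⟨d⟩ := PushoutI.NormalWord.transversal_nonempty (incl S) (incl_injective S)
  set nw : PushoutI.NormalWord d := PushoutI.NormalWord.equiv x with hnw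
  have hxprod : x = nw.prod := (PushoutI.NormalWord.equiv.symm_apply_apply x).symm
  have hred : ∀ r ∈ nw.toList, (r.2 : G) ∉ S (!r.1) := by
    rintro ⟨i, g⟩ hr hg
    have hset : g ∈ d.set i := nw.normalized i g hr
    have hrange : g ∈ (incl S i).range := (mem_range_incl S i g).2 hg
    have hne : g ≠ 1 := nw.ne_one _ hr
    apply hne
    have hinj := (d.compl i).injective
    have := @hinj (⟨g, hrange⟩, ⟨1, d.one_mem i⟩) (⟨1, one_mem _⟩, ⟨g, hset⟩) (by simp)
    simpa using congrArg (fun z => (z.1 : ↥(S i))) this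
  have hval : toG S x = (nw.head : G) * lprod S nw.toList := by
    rw [hxprod, PushoutI.NormalWord.prod, map_mul, toG_base, toG_ofCoprodI_prod]
  have hempty : nw.toList = [] := by
    by_contra hne
    have h1 := lprod_not_mem_inf S Y hdisj hmove hstay nw.toList hne nw.chain_ne hred
    apply h1
    have h2 : lprod S nw.toList = (nw.head : G)⁻¹ := by
      rw [hx] at hval
      exact eq_inv_of_mul_eq_one_right hval.symm
    rw [h2]
    exact (S true ⊓ S false).inv_mem nw.head.2
  have hhead : nw.head = 1 := by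
    rw [hx, hempty] at hval
    simp only [lprod_nil, mul_one] at hval
    exact Subtype.ext hval.symm
  rw [hxprod, PushoutI.NormalWord.prod, hhead, map_one, one_mul]
  have : nw.toWord = CoprodI.Word.empty := by
    ext1
    exact hempty
  rw [this, CoprodI.Word.prod_empty, map_one]

theorem range_toG : (toG S).range = S true ⊔ S false := by
  apply le_antisymm
  · rintro _ ⟨x, rfl⟩
    induction x using PushoutI.induction_on with
    | of i g =>
      rw [toG_of]
      cases i
      · exact Subgroup.mem_sup_right g.2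
      · exact Subgroup.mem_sup_left g.2
    | base c =>
      rw [toG_base]
      exact Subgroup.mem_sup_left c.2.1
    | mul x y hx hy =>
      rw [map_mul]
      exact mul_mem hx hy
  · apply sup_le
    · intro g hg
      exact ⟨PushoutI.of true ⟨g, hg⟩, by simp⟩
    · intro g hg
      exact ⟨PushoutI.of false ⟨g, hg⟩, by simp⟩

/-- Gluing, `Bool`-indexed form. -/
theorem exists_glue_bool
    (hdisj : ∀ x, x ∈ Y true → x ∉ Y false)
    (hmove : ∀ i, ∀ g ∈ S i, g ∉ S (!i) → ∀ x ∈ Y (!i), g • x ∈ Y i)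
    (hstay : ∀ i, ∀ g ∈ S i, ∃ x ∈ Y i, g • x ∈ Y i)
    {M : Type w} [Group M] (ψ : ∀ i, ↥(S i) →* M)
    (hψ : ∀ g (h1 : g ∈ S true) (h2 : g ∈ S false), ψ true ⟨g, h1⟩ = ψ false ⟨g, h2⟩) :
    ∃ Ψ : ↥(S true ⊔ S false) →* M,
      (∀ a (ha : a ∈ S true), Ψ ⟨a, Subgroup.mem_sup_left ha⟩ = ψ true ⟨a, ha⟩) ∧
      (∀ b (hb : b ∈ S false), Ψ ⟨b, Subgroup.mem_sup_right hb⟩ = ψ false ⟨b, hb⟩) := by
  have hinj := toG_injective S Y hdisj hmove hstay
  have hcomp : ∀ i, (ψ i).comp (incl S i) = (ψ true).comp (incl S true) := by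
    intro i
    cases i
    · ext c
      exact (hψ c c.2.1 c.2.2).symm
    · rfl
  let ψP : PushoutI (incl S) →* M := PushoutI.lift ψ ((ψ true).comp (incl S true)) hcomp
  let e1 : PushoutI (incl S) ≃* (toG S).range := MonoidHom.ofInjective hinj
  let e2 : ↥(S true ⊔ S false) ≃* (toG S).range := MulEquiv.subgroupCongr (range_toG S).symm
  refine ⟨ψP.comp (e1.symm.toMonoidHom.comp e2.toMonoidHom), ?_, ?_⟩
  · intro a ha
    have h1 : e1.symm (e2 ⟨a, Subgroup.mem_sup_left ha⟩) = PushoutI.of true ⟨a, ha⟩ := by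
      rw [MulEquiv.symm_apply_eq]
      apply Subtype.ext
      show a = ((MonoidHom.ofInjective hinj (PushoutI.of true ⟨a, ha⟩) : (toG S).range) : G)
      rw [MonoidHom.ofInjective_apply, toG_of]
    show ψP (e1.symm (e2 ⟨a, Subgroup.mem_sup_left ha⟩)) = _
    rw [h1]
    simp [ψP]
  · intro b hb
    have h1 : e1.symm (e2 ⟨b, Subgroup.mem_sup_right hb⟩) = PushoutI.of false ⟨b, hb⟩ := by
      rw [MulEquiv.symm_apply_eq]
      apply Subtype.ext
      show b = ((MonoidHom.ofInjective hinj (PushoutI.of false ⟨b, hb⟩) : (toG S).range) : G)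
      rw [MonoidHom.ofInjective_apply, toG_of]
    show ψP (e1.symm (e2 ⟨b, Subgroup.mem_sup_right hb⟩)) = _
    rw [h1]
    simp [ψP]

end PingPong

section Main

variable {G : Type u} [Group G] {X : Type v} [MulAction G X]

/-- **Ping-pong gluing.**  If `A ∖ B` maps `XB` into `XA`, `B ∖ A` maps `XA` into `XB`, the two
sets are disjoint, every element of `A` keeps some point of `XA` in `XA` and every element of `B`
keeps some point of `XB` in `XB`, then homomorphisms on `A` and `B` agreeing on `A ⊓ B` glue to a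
homomorphism on `A ⊔ B`. -/
theorem exists_glue (A B : Subgroup G) (XA XB : Set X)
    (hd : Disjoint XA XB)
    (hA : ∀ a ∈ A, a ∉ B → ∀ x ∈ XB, a • x ∈ XA)
    (hB : ∀ b ∈ B, b ∉ A → ∀ x ∈ XA, b • x ∈ XB)
    (hA' : ∀ a ∈ A, ∃ x ∈ XA, a • x ∈ XA)
    (hB' : ∀ b ∈ B, ∃ x ∈ XB, b • x ∈ XB)
    {M : Type w} [Group M] (ψA : A →* M) (ψB : B →* M)
    (hAB : ∀ g (h1 : g ∈ A) (h2 : g ∈ B), ψA ⟨g, h1⟩ = ψB ⟨g, h2⟩) :
    ∃ Ψ : ↥(A ⊔ B) →* M,
      (∀ a (ha : a ∈ A), Ψ ⟨a, Subgroup.mem_sup_left ha⟩ = ψA ⟨a, ha⟩) ∧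
      (∀ b (hb : b ∈ B), Ψ ⟨b, Subgroup.mem_sup_right hb⟩ = ψB ⟨b, hb⟩) := by
  let S : Bool → Subgroup G := fun i => cond i A B
  let Y : Bool → Set X := fun i => cond i XA XB
  have hdisj : ∀ x, x ∈ Y true → x ∉ Y false := fun x hx hx' =>
    Set.disjoint_left.1 hd hx hx'
  have hmove : ∀ i, ∀ g ∈ S i, g ∉ S (!i) → ∀ x ∈ Y (!i), g • x ∈ Y i := by
    intro i
    cases i
    · exact hB
    · exact hA
  have hstay : ∀ i, ∀ g ∈ S i, ∃ x ∈ Y i, g • x ∈ Y i := by
    intro i
    cases i
    · exact hB'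
    · exact hA'
  let ψ : ∀ i, ↥(S i) →* M := fun i =>
    match i with
    | true => ψA
    | false => ψB
  exact exists_glue_bool S Y hdisj hmove hstay ψ hAB

end Main

end Fermat.Agent.P7.PingPong
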