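import Mathlib
import Fermat.Agent.P7.PingPong

/-!
# The amalgam `Γ₀(N) *_{Γ₀(Nq)} Γ₀(N)^δ` inside `SL(2, ℚ)`: gluing homomorphisms

`A N` is the image of `Γ₀(N)` in `SL(2, ℚ)`, `B q N = δ⁻¹ (A N) δ` with `δ = diag(q, 1)`, i.e. the
matrices `(a, b/q; qc, d)` with `(a, b; c, d) ∈ Γ₀(N)`.  For a prime `q` not dividing `N` we check
the ping-pong hypotheses of `PingPong.exists_glue` for the action on `ℚ²` and the two sets
`XA = {y ≠ 0, |x|_q ≤ |y|_q}`, `XB = {|y|_q < |x|_q}`; hence two homomorphisms on `A N` and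
`B q N` which agree on the intersection glue to a homomorphism on `A N ⊔ B q N` (`glue`).
No Bruhat–Tits tree is needed.
-/

set_option autoImplicit false

namespace Fermat.Agent.P7.AmalgSL2

open Matrix MatrixGroups CongruenceSubgroup

/-! ### Integral and rational matrices -/

/-- Entrywise cast `SL(2, ℤ) →* SL(2, ℚ)`. -/
def ofInt : SL(2, ℤ) →* SL(2, ℚ) := Matrix.SpecialLinearGroup.map (Int.castRingHom ℚ)

@[simp] theorem ofInt_apply (γ : SL(2, ℤ)) (i j : Fin 2) :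
    (ofInt γ).1 i j = (γ.1 i j : ℚ) := rfl

/-- An element of `SL(2, ℤ)` from its entries. -/
def mkZ (a b c d : ℤ) (h : a * d - b * c = 1) : SL(2, ℤ) :=
  ⟨!![a, b; c, d], by rw [Matrix.det_fin_two_of]; exact h⟩

@[simp] theorem mkZ_00 (a b c d : ℤ) (h : a * d - b * c = 1) : (mkZ a b c d h).1 0 0 = a := rfl
@[simp] theorem mkZ_01 (a b c d : ℤ) (h : a * d - b * c = 1) : (mkZ a b c d h).1 0 1 = b := rfl
@[simp] theorem mkZ_10 (a b c d : ℤ) (h : a * d - b * c = 1) : (mkZ a b c d h).1 1 0 = c := rfl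
@[simp] theorem mkZ_11 (a b c d : ℤ) (h : a * d - b * c = 1) : (mkZ a b c d h).1 1 1 = d := rfl

theorem det_eq (γ : SL(2, ℤ)) : γ.1 0 0 * γ.1 1 1 - γ.1 0 1 * γ.1 1 0 = 1 := by
  have h := γ.2
  rw [Matrix.det_fin_two] at h
  exact h

theorem detQ_eq (g : SL(2, ℚ)) : g.1 0 0 * g.1 1 1 - g.1 0 1 * g.1 1 0 = 1 := by
  have h := g.2
  rw [Matrix.det_fin_two] at h
  exact h

theorem Gamma0_iff_dvd {N : ℕ} {γ : SL(2, ℤ)} : γ ∈ Gamma0 N ↔ (N : ℤ) ∣ γ.1 1 0 := by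
  rw [Gamma0_mem]
  exact ZMod.intCast_zmod_eq_zero_iff_dvd _ _

theorem ext_entries {g h : SL(2, ℚ)} (h00 : g.1 0 0 = h.1 0 0) (h01 : g.1 0 1 = h.1 0 1)
    (h10 : g.1 1 0 = h.1 1 0) (h11 : g.1 1 1 = h.1 1 1) : g = h := by
  apply Subtype.ext
  ext i j
  fin_cases i <;> fin_cases j
  · exact h00
  · exact h01
  · exact h10
  · exact h11

/-! ### Conjugation by `diag(q, 1)` -/

section Conj

variable (q : ℕ) [hq : Fact q.Prime]

theorem q_ne_zero : (q : ℚ) ≠ 0 := by exact_mod_cast hq.out.ne_zero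

/-- `g ↦ δ g δ⁻¹` with `δ = diag(q, 1)`: `(a, b; c, d) ↦ (a, q b; c / q, d)`. -/
def conjD : SL(2, ℚ) →* SL(2, ℚ) where
  toFun g := ⟨!![g.1 0 0, (q : ℚ) * g.1 0 1; g.1 1 0 / (q : ℚ), g.1 1 1], by
    have hq0 : (q : ℚ) ≠ 0 := q_ne_zero q
    have hdet := detQ_eq g
    rw [Matrix.det_fin_two_of]
    field_simp
    linarith⟩
  map_one' := by
    apply Subtype.ext
    ext i j
    fin_cases i <;> fin_cases j <;> simp
  map_mul' g h := by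
    have hq0 : (q : ℚ) ≠ 0 := q_ne_zero q
    apply Subtype.ext
    show (!![(g * h).1 0 0, (q : ℚ) * (g * h).1 0 1; (g * h).1 1 0 / (q : ℚ), (g * h).1 1 1] :
        Matrix (Fin 2) (Fin 2) ℚ)
      = !![g.1 0 0, (q : ℚ) * g.1 0 1; g.1 1 0 / (q : ℚ), g.1 1 1] *
        !![h.1 0 0, (q : ℚ) * h.1 0 1; h.1 1 0 / (q : ℚ), h.1 1 1]
    rw [Matrix.SpecialLinearGroup.coe_mul]
    ext i j
    fin_cases i <;> fin_cases j <;>
      simp [Matrix.mul_apply, Fin.sum_univ_two] <;> field_simp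

@[simp] theorem conjD_00 (g : SL(2, ℚ)) : (conjD q g).1 0 0 = g.1 0 0 := rfl
@[simp] theorem conjD_01 (g : SL(2, ℚ)) : (conjD q g).1 0 1 = (q : ℚ) * g.1 0 1 := rfl
@[simp] theorem conjD_10 (g : SL(2, ℚ)) : (conjD q g).1 1 0 = g.1 1 0 / (q : ℚ) := rfl
@[simp] theorem conjD_11 (g : SL(2, ℚ)) : (conjD q g).1 1 1 = g.1 1 1 := rfl

end Conj

/-! ### The two subgroups -/

/-- The image of `Γ₀(N)` in `SL(2, ℚ)`. -/
def A (N : ℕ) : Subgroup SL(2, ℚ) := (Gamma0 N).map ofInt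

/-- `δ⁻¹ (A N) δ`, `δ = diag(q, 1)`: the matrices `(a, b/q; qc, d)` with `(a, b; c, d) ∈ Γ₀(N)`. -/
def B (q : ℕ) [Fact q.Prime] (N : ℕ) : Subgroup SL(2, ℚ) := (A N).comap (conjD q)

theorem mem_A {N : ℕ} {g : SL(2, ℚ)} : g ∈ A N ↔ ∃ γ ∈ Gamma0 N, ofInt γ = g := Subgroup.mem_map

theorem ofInt_mem_A {N : ℕ} {γ : SL(2, ℤ)} (hγ : γ ∈ Gamma0 N) : ofInt γ ∈ A N :=
  mem_A.2 ⟨γ, hγ, rfl⟩

theorem mem_B {q : ℕ} [Fact q.Prime] {N : ℕ} {g : SL(2, ℚ)} :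
    g ∈ B q N ↔ ∃ γ ∈ Gamma0 N, ofInt γ = conjD q g := Subgroup.mem_map

/-- Membership in `A N` from the entries. -/
theorem mem_A_of {N : ℕ} {γ : SL(2, ℤ)} (hγ : γ ∈ Gamma0 N) {g : SL(2, ℚ)}
    (h : ∀ i j, g.1 i j = (γ.1 i j : ℚ)) : g ∈ A N := by
  refine mem_A.2 ⟨γ, hγ, ?_⟩
  exact ext_entries (h 0 0).symm (h 0 1).symm (h 1 0).symm (h 1 1).symm

/-- Membership in `B q N` from the entries: `g = (a, b/q; qc, d)` with `(a, b; c, d) ∈ Γ₀(N)`. -/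
theorem mem_B_of {q : ℕ} [Fact q.Prime] {N : ℕ} {γ : SL(2, ℤ)} (hγ : γ ∈ Gamma0 N)
    {g : SL(2, ℚ)} (h00 : g.1 0 0 = γ.1 0 0) (h01 : (q : ℚ) * g.1 0 1 = γ.1 0 1)
    (h10 : g.1 1 0 = (q : ℚ) * γ.1 1 0) (h11 : g.1 1 1 = γ.1 1 1) : g ∈ B q N := by
  have hq0 : (q : ℚ) ≠ 0 := q_ne_zero q
  refine mem_B.2 ⟨γ, hγ, ?_⟩
  apply ext_entries
  · simp [h00]
  · simp [h01]
  · simp only [ofInt_apply, conjD_10, h10]
    field_simp
  · simp [h11]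

/-- Elements of `A N` with lower-left entry divisible by `q` lie in `B q N`. -/
theorem ofInt_mem_B_of_dvd {q : ℕ} [hq : Fact q.Prime] {N : ℕ} (hqN : q.Coprime N)
    {γ : SL(2, ℤ)} (hγ : γ ∈ Gamma0 N) (hdvd : (q : ℤ) ∣ γ.1 1 0) : ofInt γ ∈ B q N := by
  have hq0 : (q : ℚ) ≠ 0 := q_ne_zero q
  obtain ⟨k, hk⟩ := hdvd
  have hdet := det_eq γ
  have hNk : (N : ℤ) ∣ k := by
    have h1 : (N : ℤ) ∣ k * q := by
      rw [mul_comm, ← hk]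
      exact Gamma0_iff_dvd.1 hγ
    have hcop : IsCoprime (N : ℤ) (q : ℤ) := by
      rw [Int.isCoprime_iff_gcd_eq_one]
      simpa [Int.gcd_natCast_natCast] using hqN.symm
    exact hcop.dvd_of_dvd_mul_right h1
  let γ' : SL(2, ℤ) := mkZ (γ.1 0 0) (q * γ.1 0 1) k (γ.1 1 1) (by rw [hk] at hdet; linarith)
  have hγ' : γ' ∈ Gamma0 N := Gamma0_iff_dvd.2 (by simpa [γ'] using hNk)
  refine mem_B.2 ⟨γ', hγ', ?_⟩
  apply ext_entries
  · simp [γ']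
  · simp [γ']
  · simp only [ofInt_apply, conjD_10, γ', mkZ_10, hk]
    push_cast
    field_simp
  · simp [γ']

/-- Elements of `B q N` whose (integral) upper-right entry `q·b` is divisible by `q` lie in `A N`. -/
theorem mem_A_of_dvd {q : ℕ} [hq : Fact q.Prime] {N : ℕ}
    {γ : SL(2, ℤ)} (hγ : γ ∈ Gamma0 N) {g : SL(2, ℚ)} (h : ofInt γ = conjD q g)
    (hdvd : (q : ℤ) ∣ γ.1 0 1) : g ∈ A N := by
  have hq0 : (q : ℚ) ≠ 0 := q_ne_zero q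
  obtain ⟨k, hk⟩ := hdvd
  have hdet := det_eq γ
  have h00 : (γ.1 0 0 : ℚ) = g.1 0 0 := by
    have := congrArg (fun m : SL(2, ℚ) => m.1 0 0) h
    simpa using this
  have h01 : (γ.1 0 1 : ℚ) = (q : ℚ) * g.1 0 1 := by
    have := congrArg (fun m : SL(2, ℚ) => m.1 0 1) h
    simpa using this
  have h10 : (γ.1 1 0 : ℚ) = g.1 1 0 / (q : ℚ) := by
    have := congrArg (fun m : SL(2, ℚ) => m.1 1 0) h
    simpa using this
  have h11 : (γ.1 1 1 : ℚ) = g.1 1 1 := by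
    have := congrArg (fun m : SL(2, ℚ) => m.1 1 1) h
    simpa using this
  let γ' : SL(2, ℤ) := mkZ (γ.1 0 0) k (q * γ.1 1 0) (γ.1 1 1) (by rw [hk] at hdet; linarith)
  have hγ' : γ' ∈ Gamma0 N :=
    Gamma0_iff_dvd.2 (by
      simp only [γ', mkZ_10]
      exact Dvd.dvd.mul_left (Gamma0_iff_dvd.1 hγ) _)
  refine mem_A_of hγ' ?_
  intro i j
  fin_cases i <;> fin_cases j
  · simp [γ', h00]
  · simp only [γ', Fin.zero_eta, Fin.mk_one, mkZ_01]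
    have : (q : ℚ) * g.1 0 1 = (q : ℚ) * (k : ℚ) := by
      rw [← h01, hk]; push_cast; ring
    exact mul_left_cancel₀ hq0 this
  · simp only [γ', Fin.zero_eta, Fin.mk_one, mkZ_10]
    push_cast
    rw [h10]
    field_simp
  · simp [γ', h11]

/-! ### The action on `ℚ²` and the two ping-pong sets -/

/-- A private copy of `ℚ²` carrying the standard action of `SL(2, ℚ)`. -/
@[ext] structure V2 where
  /-- first coordinate -/
  x : ℚ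
  /-- second coordinate -/
  y : ℚ

instance : SMul SL(2, ℚ) V2 :=
  ⟨fun g v => ⟨g.1 0 0 * v.x + g.1 0 1 * v.y, g.1 1 0 * v.x + g.1 1 1 * v.y⟩⟩

theorem smul_x (g : SL(2, ℚ)) (v : V2) : (g • v).x = g.1 0 0 * v.x + g.1 0 1 * v.y := rfl

theorem smul_y (g : SL(2, ℚ)) (v : V2) : (g • v).y = g.1 1 0 * v.x + g.1 1 1 * v.y := rfl

instance : MulAction SL(2, ℚ) V2 where
  one_smul v := by
    ext
    · simp [smul_x]
    · simp [smul_y]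
  mul_smul g h v := by
    ext
    · simp only [smul_x, smul_y, Matrix.SpecialLinearGroup.coe_mul, Matrix.mul_apply,
        Fin.sum_univ_two]
      ring
    · simp only [smul_x, smul_y, Matrix.SpecialLinearGroup.coe_mul, Matrix.mul_apply,
        Fin.sum_univ_two]
      ring

/-- `XA = {(x, y) : y ≠ 0, |x|_q ≤ |y|_q}`. -/
def XA (q : ℕ) : Set V2 := {v | v.y ≠ 0 ∧ padicNorm q v.x ≤ padicNorm q v.y}

/-- `XB = {(x, y) : |y|_q < |x|_q}`. -/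
def XB (q : ℕ) : Set V2 := {v | padicNorm q v.y < padicNorm q v.x}

theorem disjoint_XA_XB (q : ℕ) : Disjoint (XA q) (XB q) := by
  rw [Set.disjoint_left]
  rintro v ⟨_, h1⟩ h2
  exact absurd h2 (not_lt.2 h1)

section Norm

variable (q : ℕ) [hq : Fact q.Prime]

theorem norm_int_mul_le (n : ℤ) (x : ℚ) : padicNorm q (n * x) ≤ padicNorm q x := by
  rw [padicNorm.mul]
  exact mul_le_of_le_one_left (padicNorm.nonneg _) (padicNorm.of_int _)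

theorem norm_unit_mul {n : ℤ} (hn : ¬ (q : ℤ) ∣ n) (x : ℚ) :
    padicNorm q (n * x) = padicNorm q x := by
  rw [padicNorm.mul, (padicNorm.int_eq_one_iff n).2 hn, one_mul]

theorem norm_q : padicNorm q (q : ℚ) = (q : ℚ)⁻¹ := padicNorm.padicNorm_p_of_prime

theorem one_lt_q : (1 : ℚ) < q := by exact_mod_cast hq.out.one_lt

theorem norm_pos {x : ℚ} (hx : x ≠ 0) : 0 < padicNorm q x :=
  lt_of_le_of_ne (padicNorm.nonneg _) (Ne.symm (padicNorm.nonzero hx))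

omit hq in
theorem ne_zero_of_norm_pos {x : ℚ} (hx : 0 < padicNorm q x) : x ≠ 0 := by
  rintro rfl
  rw [padicNorm.zero] at hx
  exact lt_irrefl _ hx

end Norm

/-! ### The four ping-pong hypotheses -/

section Checks

variable {q : ℕ} [hq : Fact q.Prime] {N : ℕ}

theorem hA (hqN : q.Coprime N) : ∀ a ∈ A N, a ∉ B q N → ∀ v ∈ XB q, a • v ∈ XA q := by
  rintro a ha hab v hv
  obtain ⟨γ, hγ, rfl⟩ := mem_A.1 ha
  have hc : ¬ (q : ℤ) ∣ γ.1 1 0 := fun hdvd => hab (ofInt_mem_B_of_dvd hqN hγ hdvd)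
  have hv' : padicNorm q v.y < padicNorm q v.x := hv
  -- second coordinate has norm `|x|`
  have h1 : padicNorm q ((γ.1 1 0 : ℚ) * v.x) = padicNorm q v.x := norm_unit_mul q hc _
  have h2 : padicNorm q ((γ.1 1 1 : ℚ) * v.y) < padicNorm q v.x :=
    lt_of_le_of_lt (norm_int_mul_le q _ _) hv'
  have h3 : padicNorm q ((γ.1 1 0 : ℚ) * v.x + (γ.1 1 1 : ℚ) * v.y) = padicNorm q v.x := by
    rw [padicNorm.add_eq_max_of_ne (by rw [h1]; exact (ne_of_lt h2).symm), h1]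
    exact max_eq_left (le_of_lt h2)
  have h4 : padicNorm q ((γ.1 0 0 : ℚ) * v.x + (γ.1 0 1 : ℚ) * v.y) ≤ padicNorm q v.x := by
    refine le_trans padicNorm.nonarchimedean (max_le (norm_int_mul_le q _ _) ?_)
    exact le_trans (norm_int_mul_le q _ _) (le_of_lt hv')
  have hxpos : 0 < padicNorm q v.x := lt_of_le_of_lt (padicNorm.nonneg _) hv'
  refine ⟨?_, ?_⟩
  · show (ofInt γ • v).y ≠ 0
    rw [smul_y]
    simp only [ofInt_apply]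
    apply ne_zero_of_norm_pos q
    rw [h3]
    exact hxpos
  · show padicNorm q (ofInt γ • v).x ≤ padicNorm q (ofInt γ • v).y
    rw [smul_x, smul_y]
    simp only [ofInt_apply]
    rw [h3]
    exact h4

theorem hB : ∀ b ∈ B q N, b ∉ A N → ∀ v ∈ XA q, b • v ∈ XB q := by
  rintro b hb hba v ⟨hy, hv⟩
  have hq0 : (q : ℚ) ≠ 0 := q_ne_zero q
  obtain ⟨γ, hγ, h⟩ := mem_B.1 hb
  have hc : ¬ (q : ℤ) ∣ γ.1 0 1 := fun hdvd => hba (mem_A_of_dvd hγ h hdvd)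
  have h00 : b.1 0 0 = (γ.1 0 0 : ℚ) := by
    have := congrArg (fun m : SL(2, ℚ) => m.1 0 0) h
    simpa using this.symm
  have h01 : b.1 0 1 = (γ.1 0 1 : ℚ) / (q : ℚ) := by
    have := congrArg (fun m : SL(2, ℚ) => m.1 0 1) h
    simp only [ofInt_apply, conjD_01] at this
    rw [this]
    field_simp
  have h10 : b.1 1 0 = (q : ℚ) * (γ.1 1 0 : ℚ) := by
    have := congrArg (fun m : SL(2, ℚ) => m.1 1 0) h
    simp only [ofInt_apply, conjD_10] at this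
    rw [this]
    field_simp
  have h11 : b.1 1 1 = (γ.1 1 1 : ℚ) := by
    have := congrArg (fun m : SL(2, ℚ) => m.1 1 1) h
    simpa using this.symm
  have hypos : 0 < padicNorm q v.y := norm_pos q hy
  have hq1 : (1 : ℚ) < q := one_lt_q q
  -- first coordinate has norm `q * |y|`
  have h1 : padicNorm q ((γ.1 0 1 : ℚ) / (q : ℚ) * v.y) = (q : ℚ) * padicNorm q v.y := by
    rw [padicNorm.mul, padicNorm.div, (padicNorm.int_eq_one_iff _).2 hc, norm_q q]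
    simp
  have h2 : padicNorm q ((γ.1 0 0 : ℚ) * v.x) < (q : ℚ) * padicNorm q v.y := by
    calc padicNorm q ((γ.1 0 0 : ℚ) * v.x) ≤ padicNorm q v.x := norm_int_mul_le q _ _
      _ ≤ padicNorm q v.y := hv
      _ < (q : ℚ) * padicNorm q v.y := by nlinarith
  have h3 : padicNorm q ((γ.1 0 0 : ℚ) * v.x + (γ.1 0 1 : ℚ) / (q : ℚ) * v.y)
      = (q : ℚ) * padicNorm q v.y := by
    rw [padicNorm.add_eq_max_of_ne (by rw [h1]; exact ne_of_lt h2), h1]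
    exact max_eq_right (le_of_lt h2)
  have h4 : padicNorm q ((q : ℚ) * (γ.1 1 0 : ℚ) * v.x + (γ.1 1 1 : ℚ) * v.y)
      ≤ padicNorm q v.y := by
    refine le_trans padicNorm.nonarchimedean (max_le ?_ (norm_int_mul_le q _ _))
    have : (q : ℚ) * (γ.1 1 0 : ℚ) * v.x = (((q : ℤ) * γ.1 1 0 : ℤ) : ℚ) * v.x := by
      push_cast; ring
    rw [this]
    exact le_trans (norm_int_mul_le q _ _) hv
  show padicNorm q (b • v).y < padicNorm q (b • v).x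
  rw [smul_x, smul_y, h00, h01, h10, h11, h3]
  exact lt_of_le_of_lt h4 (by nlinarith)

theorem hA' : ∀ a ∈ A N, ∃ v ∈ XA q, a • v ∈ XA q := by
  rintro a ha
  obtain ⟨γ, hγ, rfl⟩ := mem_A.1 ha
  have hdet := det_eq γ
  by_cases hd : (q : ℤ) ∣ γ.1 1 1
  · -- then `q ∤ c`, use `v = (1, 1)`
    have hc : ¬ (q : ℤ) ∣ γ.1 1 0 := by
      intro hc
      have h1 : (q : ℤ) ∣ γ.1 0 0 * γ.1 1 1 - γ.1 0 1 * γ.1 1 0 :=
        dvd_sub (Dvd.dvd.mul_left hd _) (Dvd.dvd.mul_left hc _)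
      rw [hdet] at h1
      exact hq.out.not_dvd_one (by exact_mod_cast Int.natCast_dvd_natCast.1 (by simpa using h1))
    have hcd : ¬ (q : ℤ) ∣ γ.1 1 0 + γ.1 1 1 := fun h => hc ((dvd_add_left hd).1 h)
    refine ⟨⟨1, 1⟩, ⟨one_ne_zero, le_refl _⟩, ?_⟩
    have h1 : padicNorm q (((γ.1 1 0 + γ.1 1 1 : ℤ) : ℚ)) = 1 := (padicNorm.int_eq_one_iff _).2 hcd
    have h2 : padicNorm q (((γ.1 0 0 + γ.1 0 1 : ℤ) : ℚ)) ≤ 1 := padicNorm.of_int _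
    have hx : (ofInt γ • (⟨1, 1⟩ : V2)).x = ((γ.1 0 0 + γ.1 0 1 : ℤ) : ℚ) := by
      rw [smul_x]; simp
    have hy : (ofInt γ • (⟨1, 1⟩ : V2)).y = ((γ.1 1 0 + γ.1 1 1 : ℤ) : ℚ) := by
      rw [smul_y]; simp
    refine ⟨?_, ?_⟩
    · show (ofInt γ • (⟨1, 1⟩ : V2)).y ≠ 0
      rw [hy]
      apply ne_zero_of_norm_pos q
      rw [h1]
      exact one_pos
    · show padicNorm q (ofInt γ • (⟨1, 1⟩ : V2)).x ≤ padicNorm q (ofInt γ • (⟨1, 1⟩ : V2)).y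
      rw [hx, hy, h1]
      exact h2
  · -- `q ∤ d`, use `v = (0, 1)`
    refine ⟨⟨0, 1⟩, ⟨one_ne_zero, ?_⟩, ?_⟩
    · show padicNorm q 0 ≤ padicNorm q 1
      rw [padicNorm.zero, padicNorm.one]
      exact zero_le_one
    have h1 : padicNorm q ((γ.1 1 1 : ℤ) : ℚ) = 1 := (padicNorm.int_eq_one_iff _).2 hd
    have h2 : padicNorm q ((γ.1 0 1 : ℤ) : ℚ) ≤ 1 := padicNorm.of_int _
    have hx : (ofInt γ • (⟨0, 1⟩ : V2)).x = ((γ.1 0 1 : ℤ) : ℚ) := by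
      rw [smul_x]; simp
    have hy : (ofInt γ • (⟨0, 1⟩ : V2)).y = ((γ.1 1 1 : ℤ) : ℚ) := by
      rw [smul_y]; simp
    refine ⟨?_, ?_⟩
    · show (ofInt γ • (⟨0, 1⟩ : V2)).y ≠ 0
      rw [hy]
      apply ne_zero_of_norm_pos q
      rw [h1]
      exact one_pos
    · show padicNorm q (ofInt γ • (⟨0, 1⟩ : V2)).x ≤ padicNorm q (ofInt γ • (⟨0, 1⟩ : V2)).y
      rw [hx, hy, h1]
      exact h2

theorem hB' : ∀ b ∈ B q N, ∃ v ∈ XB q, b • v ∈ XB q := by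
  rintro b hb
  have hq0 : (q : ℚ) ≠ 0 := q_ne_zero q
  have hq1 : (1 : ℚ) < q := one_lt_q q
  have hqinv : (q : ℚ)⁻¹ < 1 := inv_lt_one_of_one_lt₀ hq1
  obtain ⟨γ, hγ, h⟩ := mem_B.1 hb
  have hdet := det_eq γ
  have h00 : b.1 0 0 = (γ.1 0 0 : ℚ) := by
    have := congrArg (fun m : SL(2, ℚ) => m.1 0 0) h
    simpa using this.symm
  have h01 : b.1 0 1 = (γ.1 0 1 : ℚ) / (q : ℚ) := by
    have := congrArg (fun m : SL(2, ℚ) => m.1 0 1) h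
    simp only [ofInt_apply, conjD_01] at this
    rw [this]
    field_simp
  have h10 : b.1 1 0 = (q : ℚ) * (γ.1 1 0 : ℚ) := by
    have := congrArg (fun m : SL(2, ℚ) => m.1 1 0) h
    simp only [ofInt_apply, conjD_10] at this
    rw [this]
    field_simp
  have h11 : b.1 1 1 = (γ.1 1 1 : ℚ) := by
    have := congrArg (fun m : SL(2, ℚ) => m.1 1 1) h
    simpa using this.symm
  have hqmul : ∀ n : ℤ, padicNorm q ((q : ℚ) * (n : ℚ)) ≤ (q : ℚ)⁻¹ := by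
    intro n
    rw [padicNorm.mul, norm_q q]
    exact mul_le_of_le_one_right (le_of_lt (inv_pos.2 (lt_trans zero_lt_one hq1)))
      (padicNorm.of_int _)
  by_cases ha : (q : ℤ) ∣ γ.1 0 0
  · -- then `q ∤ b`, use `v = (1, q)`
    have hb' : ¬ (q : ℤ) ∣ γ.1 0 1 := by
      intro hb'
      have h1 : (q : ℤ) ∣ γ.1 0 0 * γ.1 1 1 - γ.1 0 1 * γ.1 1 0 :=
        dvd_sub (Dvd.dvd.mul_right ha _) (Dvd.dvd.mul_right hb' _)
      rw [hdet] at h1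
      exact hq.out.not_dvd_one (by exact_mod_cast Int.natCast_dvd_natCast.1 (by simpa using h1))
    have hab : ¬ (q : ℤ) ∣ γ.1 0 0 + γ.1 0 1 := fun h => hb' ((dvd_add_right ha).1 h)
    have hvB : (⟨1, q⟩ : V2) ∈ XB q := by
      show padicNorm q (q : ℚ) < padicNorm q 1
      rw [norm_q q, padicNorm.one]
      exact hqinv
    refine ⟨⟨1, q⟩, hvB, ?_⟩
    have hx : (b • (⟨1, q⟩ : V2)).x = ((γ.1 0 0 + γ.1 0 1 : ℤ) : ℚ) := by
      rw [smul_x, h00, h01]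
      push_cast
      field_simp
    have hy : (b • (⟨1, q⟩ : V2)).y = (q : ℚ) * ((γ.1 1 0 + γ.1 1 1 : ℤ) : ℚ) := by
      rw [smul_y, h10, h11]
      push_cast
      ring
    show padicNorm q (b • (⟨1, q⟩ : V2)).y < padicNorm q (b • (⟨1, q⟩ : V2)).x
    rw [hx, hy, (padicNorm.int_eq_one_iff _).2 hab]
    exact lt_of_le_of_lt (hqmul _) hqinv
  · -- `q ∤ a`, use `v = (1, 0)`
    have hvB : (⟨1, 0⟩ : V2) ∈ XB q := by
      show padicNorm q 0 < padicNorm q 1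
      rw [padicNorm.zero, padicNorm.one]
      exact one_pos
    refine ⟨⟨1, 0⟩, hvB, ?_⟩
    have hx : (b • (⟨1, 0⟩ : V2)).x = ((γ.1 0 0 : ℤ) : ℚ) := by
      rw [smul_x, h00]; simp
    have hy : (b • (⟨1, 0⟩ : V2)).y = (q : ℚ) * ((γ.1 1 0 : ℤ) : ℚ) := by
      rw [smul_y, h10]; simp
    show padicNorm q (b • (⟨1, 0⟩ : V2)).y < padicNorm q (b • (⟨1, 0⟩ : V2)).x
    rw [hx, hy, (padicNorm.int_eq_one_iff _).2 ha]
    exact lt_of_le_of_lt (hqmul _) hqinv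

end Checks

/-! ### Gluing -/

/-- **Amalgam gluing for `Γ₀(N)` and `δ⁻¹ Γ₀(N) δ` in `SL(2, ℚ)`** (`q` prime, `q ∤ N`): two
homomorphisms on `A N` and `B q N` which agree on `A N ⊓ B q N` glue to a homomorphism on
`A N ⊔ B q N`. -/
theorem glue {q : ℕ} [Fact q.Prime] {N : ℕ} (hqN : q.Coprime N)
    {M : Type*} [Group M] (ψA : ↥(A N) →* M) (ψB : ↥(B q N) →* M)
    (hAB : ∀ g (h1 : g ∈ A N) (h2 : g ∈ B q N), ψA ⟨g, h1⟩ = ψB ⟨g, h2⟩) :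
    ∃ Ψ : ↥(A N ⊔ B q N) →* M,
      (∀ a (ha : a ∈ A N), Ψ ⟨a, Subgroup.mem_sup_left ha⟩ = ψA ⟨a, ha⟩) ∧
      (∀ b (hb : b ∈ B q N), Ψ ⟨b, Subgroup.mem_sup_right hb⟩ = ψB ⟨b, hb⟩) :=
  PingPong.exists_glue (A N) (B q N) (XA q) (XB q) (disjoint_XA_XB q) (hA hqN) hB hA' hB'
    ψA ψB hAB

/-! ### Consumer form: two homomorphisms on `Γ₀(N)` -/

theorem ofInt_injective : Function.Injective ofInt := by
  intro γ γ' h
  apply Subtype.ext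
  ext i j
  have := congrArg (fun m : SL(2, ℚ) => m.1 i j) h
  simpa using this

/-- `Γ₀(N) ≃* A N`. -/
noncomputable def equivA (N : ℕ) : ↥(Gamma0 N) ≃* ↥(A N) :=
  (Gamma0 N).equivMapOfInjective ofInt ofInt_injective

theorem equivA_apply (N : ℕ) (γ : ↥(Gamma0 N)) : ((equivA N γ : ↥(A N)) : SL(2, ℚ)) = ofInt γ :=
  rfl

theorem equivA_symm_eq {N : ℕ} {γ : SL(2, ℤ)} (hγ : γ ∈ Gamma0 N) {g : SL(2, ℚ)} (hg : g ∈ A N)
    (h : ofInt γ = g) : (equivA N).symm ⟨g, hg⟩ = ⟨γ, hγ⟩ := by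
  rw [MulEquiv.symm_apply_eq]
  exact Subtype.ext h.symm

/-- **Gluing, consumer form.**  Let `ψ₁ ψ₂ : Γ₀(N) →* M` be such that `ψ₁ γ = ψ₂ (δ γ δ⁻¹)`
whenever `γ` and `δ γ δ⁻¹ = (a, q b; c / q, d)` both lie in `Γ₀(N)` (`δ = diag(q, 1)`).  Then there
is a homomorphism `Ψ` on `A N ⊔ B q N ≤ SL(2, ℚ)` with `Ψ γ = ψ₁ γ` for `γ ∈ Γ₀(N)` and
`Ψ (δ⁻¹ γ δ) = ψ₂ γ` for `γ ∈ Γ₀(N)`. -/
theorem glueGamma0 {q : ℕ} [Fact q.Prime] {N : ℕ} (hqN : q.Coprime N)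
    {M : Type*} [Group M] (ψ₁ ψ₂ : ↥(Gamma0 N) →* M)
    (hcompat : ∀ (γ γ' : SL(2, ℤ)) (hγ : γ ∈ Gamma0 N) (hγ' : γ' ∈ Gamma0 N),
      γ'.1 0 0 = γ.1 0 0 → γ'.1 0 1 = q * γ.1 0 1 → γ.1 1 0 = q * γ'.1 1 0 →
      γ'.1 1 1 = γ.1 1 1 → ψ₁ ⟨γ, hγ⟩ = ψ₂ ⟨γ', hγ'⟩) :
    ∃ Ψ : ↥(A N ⊔ B q N) →* M,
      (∀ (γ : SL(2, ℤ)) (hγ : γ ∈ Gamma0 N),
        Ψ ⟨ofInt γ, Subgroup.mem_sup_left (ofInt_mem_A hγ)⟩ = ψ₁ ⟨γ, hγ⟩) ∧
      (∀ (γ : SL(2, ℤ)) (hγ : γ ∈ Gamma0 N) (g : SL(2, ℚ)) (h00 : g.1 0 0 = γ.1 0 0)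
        (h01 : (q : ℚ) * g.1 0 1 = γ.1 0 1) (h10 : g.1 1 0 = (q : ℚ) * γ.1 1 0)
        (h11 : g.1 1 1 = γ.1 1 1),
        Ψ ⟨g, Subgroup.mem_sup_right (mem_B_of hγ h00 h01 h10 h11)⟩ = ψ₂ ⟨γ, hγ⟩) := by
  have hq0 : (q : ℚ) ≠ 0 := q_ne_zero q
  let ψA : ↥(A N) →* M := ψ₁.comp (equivA N).symm.toMonoidHom
  let ψA₂ : ↥(A N) →* M := ψ₂.comp (equivA N).symm.toMonoidHom
  let ψB : ↥(B q N) →* M := ψA₂.comp ((conjD q).subgroupComap (A N))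
  have hAB : ∀ g (h1 : g ∈ A N) (h2 : g ∈ B q N), ψA ⟨g, h1⟩ = ψB ⟨g, h2⟩ := by
    intro g h1 h2
    obtain ⟨γ, hγ, rfl⟩ := mem_A.1 h1
    obtain ⟨γ', hγ', h'⟩ := mem_B.1 h2
    have e1 : (equivA N).symm ⟨ofInt γ, h1⟩ = ⟨γ, hγ⟩ := equivA_symm_eq hγ h1 rfl
    have e2 : (equivA N).symm ⟨conjD q (ofInt γ), h2⟩ = ⟨γ', hγ'⟩ := equivA_symm_eq hγ' h2 h'
    show ψ₁ ((equivA N).symm ⟨ofInt γ, h1⟩) = ψ₂ ((equivA N).symm ⟨conjD q (ofInt γ), h2⟩)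
    rw [e1, e2]
    have k00 := congrArg (fun m : SL(2, ℚ) => m.1 0 0) h'
    have k01 := congrArg (fun m : SL(2, ℚ) => m.1 0 1) h'
    have k10 := congrArg (fun m : SL(2, ℚ) => m.1 1 0) h'
    have k11 := congrArg (fun m : SL(2, ℚ) => m.1 1 1) h'
    simp only [ofInt_apply, conjD_00, conjD_01, conjD_10, conjD_11] at k00 k01 k10 k11
    refine hcompat γ γ' hγ hγ' ?_ ?_ ?_ ?_
    · exact_mod_cast k00
    · exact_mod_cast k01
    · have : (γ.1 1 0 : ℚ) = (q : ℚ) * (γ'.1 1 0 : ℚ) := by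
        rw [k10]; field_simp
      exact_mod_cast this
    · exact_mod_cast k11
  obtain ⟨Ψ, hΨA, hΨB⟩ := glue hqN ψA ψB hAB
  refine ⟨Ψ, ?_, ?_⟩
  · intro γ hγ
    rw [hΨA (ofInt γ) (ofInt_mem_A hγ)]
    show ψ₁ ((equivA N).symm ⟨ofInt γ, ofInt_mem_A hγ⟩) = _
    rw [equivA_symm_eq hγ (ofInt_mem_A hγ) rfl]
  · intro γ hγ g h00 h01 h10 h11
    have hgB : g ∈ B q N := mem_B_of hγ h00 h01 h10 h11
    have hconj : ofInt γ = conjD q g := by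
      apply ext_entries
      · simp [h00]
      · simp [h01]
      · simp only [ofInt_apply, conjD_10, h10]
        field_simp
      · simp [h11]
    rw [hΨB g hgB]
    show ψ₂ ((equivA N).symm ⟨conjD q g, hgB⟩) = _
    rw [equivA_symm_eq hγ hgB hconj]

end Fermat.Agent.P7.AmalgSL2
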