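import Mathlib

/-!
# P7: the concrete model of `Γ₀(N)[1/q]` (helper82)

* `isA q x` : the rational `x` lies in `ℤ[1/q]`; `Aq q : Subring ℚ` is `ℤ[1/q]`.
* `GN q N : Subgroup SL(2, ℚ)` : matrices with entries in `ℤ[1/q]` and lower-left entry in
  `N·ℤ[1/q]`.
* elementary matrices `uu x`, `ll t`, the diagonal matrix `hq q`, the integral points `ofInt`.
* the bridge to statements about `SL(2, A)` with `A = ↥(Aq q)`: `toQ`, `GA`, `mem_GA`,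
  `exists_toQ_eq`, and the three ring facts `isUnit_q`, `exists_int_eq`, `intCast_injective`.
-/

set_option autoImplicit false

namespace Fermat.Agent.P7.CspGroup

open Matrix
open scoped MatrixGroups

section generic

variable {A : Type*} [CommRing A]

/-- An element of `SL₂(A)` from its four entries. -/
def mk2 (a b c d : A) (h : a * d - b * c = 1) : SL(2, A) :=
  ⟨!![a, b; c, d], by rw [Matrix.det_fin_two_of]; exact h⟩

@[simp] theorem mk2_00 (a b c d : A) (h : a * d - b * c = 1) : (mk2 a b c d h).1 0 0 = a := rfl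
@[simp] theorem mk2_01 (a b c d : A) (h : a * d - b * c = 1) : (mk2 a b c d h).1 0 1 = b := rfl
@[simp] theorem mk2_10 (a b c d : A) (h : a * d - b * c = 1) : (mk2 a b c d h).1 1 0 = c := rfl
@[simp] theorem mk2_11 (a b c d : A) (h : a * d - b * c = 1) : (mk2 a b c d h).1 1 1 = d := rfl

theorem sl2_ext {g g' : SL(2, A)} (h00 : g.1 0 0 = g'.1 0 0) (h01 : g.1 0 1 = g'.1 0 1)
    (h10 : g.1 1 0 = g'.1 1 0) (h11 : g.1 1 1 = g'.1 1 1) : g = g' := by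
  apply Subtype.ext
  ext i j
  fin_cases i <;> fin_cases j <;> assumption

theorem det_eq (g : SL(2, A)) : g.1 0 0 * g.1 1 1 - g.1 0 1 * g.1 1 0 = 1 := by
  have h := g.2
  rw [Matrix.det_fin_two] at h
  exact h

theorem mul_00 (g h : SL(2, A)) : (g * h).1 0 0 = g.1 0 0 * h.1 0 0 + g.1 0 1 * h.1 1 0 := by
  simp [Matrix.mul_apply, Fin.sum_univ_two]
theorem mul_01 (g h : SL(2, A)) : (g * h).1 0 1 = g.1 0 0 * h.1 0 1 + g.1 0 1 * h.1 1 1 := by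
  simp [Matrix.mul_apply, Fin.sum_univ_two]
theorem mul_10 (g h : SL(2, A)) : (g * h).1 1 0 = g.1 1 0 * h.1 0 0 + g.1 1 1 * h.1 1 0 := by
  simp [Matrix.mul_apply, Fin.sum_univ_two]
theorem mul_11 (g h : SL(2, A)) : (g * h).1 1 1 = g.1 1 0 * h.1 0 1 + g.1 1 1 * h.1 1 1 := by
  simp [Matrix.mul_apply, Fin.sum_univ_two]

theorem inv_00 (g : SL(2, A)) : (g⁻¹).1 0 0 = g.1 1 1 := by
  simp [Matrix.SpecialLinearGroup.coe_inv, Matrix.adjugate_fin_two]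
theorem inv_01 (g : SL(2, A)) : (g⁻¹).1 0 1 = - g.1 0 1 := by
  simp [Matrix.SpecialLinearGroup.coe_inv, Matrix.adjugate_fin_two]
theorem inv_10 (g : SL(2, A)) : (g⁻¹).1 1 0 = - g.1 1 0 := by
  simp [Matrix.SpecialLinearGroup.coe_inv, Matrix.adjugate_fin_two]
theorem inv_11 (g : SL(2, A)) : (g⁻¹).1 1 1 = g.1 0 0 := by
  simp [Matrix.SpecialLinearGroup.coe_inv, Matrix.adjugate_fin_two]

theorem forall_entries {P : A → Prop} (g : SL(2, A)) :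
    (∀ i j, P (g.1 i j)) ↔ P (g.1 0 0) ∧ P (g.1 0 1) ∧ P (g.1 1 0) ∧ P (g.1 1 1) := by
  constructor
  · intro h; exact ⟨h 0 0, h 0 1, h 1 0, h 1 1⟩
  · rintro ⟨h00, h01, h10, h11⟩ i j
    fin_cases i <;> fin_cases j <;> assumption

/-- upper elementary matrix `(1, x; 0, 1)` -/
def uu (x : A) : SL(2, A) := mk2 1 x 0 1 (by ring)
/-- lower elementary matrix `(1, 0; t, 1)` -/
def ll (t : A) : SL(2, A) := mk2 1 0 t 1 (by ring)

@[simp] theorem uu_00 (x : A) : (uu x).1 0 0 = 1 := rfl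
@[simp] theorem uu_01 (x : A) : (uu x).1 0 1 = x := rfl
@[simp] theorem uu_10 (x : A) : (uu x).1 1 0 = 0 := rfl
@[simp] theorem uu_11 (x : A) : (uu x).1 1 1 = 1 := rfl
@[simp] theorem ll_00 (t : A) : (ll t).1 0 0 = 1 := rfl
@[simp] theorem ll_01 (t : A) : (ll t).1 0 1 = 0 := rfl
@[simp] theorem ll_10 (t : A) : (ll t).1 1 0 = t := rfl
@[simp] theorem ll_11 (t : A) : (ll t).1 1 1 = 1 := rfl

/-- an upper unipotent element is `uu` of its upper-right entry -/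
theorem eq_uu {g : SL(2, A)} (h00 : g.1 0 0 = 1) (h10 : g.1 1 0 = 0) : g = uu (g.1 0 1) := by
  have hd := det_eq g
  rw [h00, h10] at hd
  refine sl2_ext h00 rfl h10 ?_
  simp only [uu_11]
  linear_combination hd

/-- a lower unipotent element is `ll` of its lower-left entry -/
theorem eq_ll {g : SL(2, A)} (h00 : g.1 0 0 = 1) (h01 : g.1 0 1 = 0) : g = ll (g.1 1 0) := by
  have hd := det_eq g
  rw [h00, h01] at hd
  refine sl2_ext h00 h01 rfl ?_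
  simp only [ll_11]
  linear_combination hd

end generic

/-! ### `ℤ[1/q]` inside `ℚ` -/

/-- `x ∈ ℤ[1/q]`. -/
def isA (q : ℕ) (x : ℚ) : Prop := ∃ (k : ℕ) (n : ℤ), x = n / (q : ℚ) ^ k

theorem isA_iff {q : ℕ} (hq : q ≠ 0) {x : ℚ} :
    isA q x ↔ ∃ (k : ℕ) (n : ℤ), x * (q : ℚ) ^ k = n := by
  have hq' : ∀ k : ℕ, (q : ℚ) ^ k ≠ 0 := fun k => pow_ne_zero k (Nat.cast_ne_zero.mpr hq)
  constructor
  · rintro ⟨k, n, rfl⟩; exact ⟨k, n, div_mul_cancel₀ _ (hq' k)⟩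
  · rintro ⟨k, n, h⟩; exact ⟨k, n, by rw [← h, mul_div_cancel_right₀ _ (hq' k)]⟩

theorem isA_zero_iff {x : ℚ} : isA 0 x ↔ ∃ n : ℤ, x = n := by
  constructor
  · rintro ⟨k, n, rfl⟩
    rcases Nat.eq_zero_or_pos k with rfl | hk
    · exact ⟨n, by simp⟩
    · exact ⟨0, by simp [zero_pow hk.ne']⟩
  · rintro ⟨n, rfl⟩; exact ⟨0, n, by simp⟩

theorem isA_intCast (q : ℕ) (n : ℤ) : isA q (n : ℚ) := ⟨0, n, by simp⟩
theorem isA_natCast (q : ℕ) (n : ℕ) : isA q (n : ℚ) := ⟨0, n, by simp⟩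
theorem isA_zero (q : ℕ) : isA q 0 := ⟨0, 0, by simp⟩
theorem isA_one (q : ℕ) : isA q 1 := ⟨0, 1, by simp⟩

theorem isA_neg {q : ℕ} {x : ℚ} (hx : isA q x) : isA q (-x) := by
  obtain ⟨k, n, rfl⟩ := hx
  exact ⟨k, -n, by push_cast; ring⟩

theorem isA_mul {q : ℕ} {x y : ℚ} (hx : isA q x) (hy : isA q y) : isA q (x * y) := by
  obtain ⟨k, n, rfl⟩ := hx
  obtain ⟨j, m, rfl⟩ := hy
  exact ⟨k + j, n * m, by push_cast; rw [div_mul_div_comm, pow_add]⟩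

theorem isA_add {q : ℕ} {x y : ℚ} (hx : isA q x) (hy : isA q y) : isA q (x + y) := by
  rcases Nat.eq_zero_or_pos q with rfl | hq
  · rw [isA_zero_iff] at hx hy ⊢
    obtain ⟨n, rfl⟩ := hx
    obtain ⟨m, rfl⟩ := hy
    exact ⟨n + m, by push_cast; ring⟩
  · rw [isA_iff hq.ne'] at hx hy ⊢
    obtain ⟨k, n, hn⟩ := hx
    obtain ⟨j, m, hm⟩ := hy
    refine ⟨k + j, n * (q : ℤ) ^ j + m * (q : ℤ) ^ k, ?_⟩
    push_cast
    rw [← hn, ← hm, pow_add]; ring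

theorem isA_sub {q : ℕ} {x y : ℚ} (hx : isA q x) (hy : isA q y) : isA q (x - y) := by
  rw [sub_eq_add_neg]; exact isA_add hx (isA_neg hy)

theorem isA_q_inv (q : ℕ) : isA q ((q : ℚ)⁻¹) := ⟨1, 1, by simp⟩

theorem isA_pow {q : ℕ} {x : ℚ} (hx : isA q x) (n : ℕ) : isA q (x ^ n) := by
  induction n with
  | zero => simpa using isA_one q
  | succ n ih => rw [pow_succ]; exact isA_mul ih hx

/-- `ℤ[1/q]` as a subring of `ℚ`. -/
def Aq (q : ℕ) : Subring ℚ where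
  carrier := {x | isA q x}
  mul_mem' := fun hx hy => isA_mul hx hy
  one_mem' := isA_one q
  add_mem' := fun hx hy => isA_add hx hy
  zero_mem' := isA_zero q
  neg_mem' := fun hx => isA_neg hx

theorem mem_Aq {q : ℕ} {x : ℚ} : x ∈ Aq q ↔ isA q x := Iff.rfl

/-- `x ∈ N·ℤ[1/q]`, in the two spellings. -/
theorem isNA_iff {q N : ℕ} {x : ℚ} :
    (∃ (k : ℕ) (n : ℤ), x = N * n / (q : ℚ) ^ k) ↔ ∃ y : ℚ, isA q y ∧ x = N * y := by
  constructor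
  · rintro ⟨k, n, rfl⟩
    exact ⟨n / (q : ℚ) ^ k, ⟨k, n, rfl⟩, by rw [mul_div_assoc]⟩
  · rintro ⟨y, ⟨k, n, rfl⟩, rfl⟩
    exact ⟨k, n, by rw [mul_div_assoc]⟩

/-! ### The group `G_N = Γ₀(N)[1/q]` -/

/-- `Γ₀(N)[1/q]`: matrices in `SL₂(ℚ)` with entries in `ℤ[1/q]` and lower-left entry in
`N·ℤ[1/q]`. -/
def GN (q N : ℕ) : Subgroup SL(2, ℚ) where
  carrier := {g | (∀ i j, ∃ (k : ℕ) (n : ℤ), g.1 i j = n / (q : ℚ) ^ k) ∧
    ∃ (k : ℕ) (n : ℤ), g.1 1 0 = N * n / (q : ℚ) ^ k}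
  one_mem' := by
    refine ⟨?_, 0, 0, by simp⟩
    intro i j
    fin_cases i <;> fin_cases j
    · exact isA_one q
    · exact isA_zero q
    · exact isA_zero q
    · exact isA_one q
  mul_mem' := by
    rintro g h ⟨hg, hg'⟩ ⟨hh, hh'⟩
    have hg2 : ∀ i j, isA q (g.1 i j) := hg
    have hh2 : ∀ i j, isA q (h.1 i j) := hh
    rw [isNA_iff] at hg' hh'
    obtain ⟨y, hy, hy'⟩ := hg'
    obtain ⟨z, hz, hz'⟩ := hh'
    refine ⟨?_, ?_⟩
    · show ∀ i j, isA q ((g * h).1 i j)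
      rw [forall_entries (P := isA q), mul_00, mul_01, mul_10, mul_11]
      exact ⟨isA_add (isA_mul (hg2 0 0) (hh2 0 0)) (isA_mul (hg2 0 1) (hh2 1 0)),
        isA_add (isA_mul (hg2 0 0) (hh2 0 1)) (isA_mul (hg2 0 1) (hh2 1 1)),
        isA_add (isA_mul (hg2 1 0) (hh2 0 0)) (isA_mul (hg2 1 1) (hh2 1 0)),
        isA_add (isA_mul (hg2 1 0) (hh2 0 1)) (isA_mul (hg2 1 1) (hh2 1 1))⟩
    · rw [isNA_iff]
      refine ⟨y * h.1 0 0 + g.1 1 1 * z, isA_add (isA_mul hy (hh2 0 0)) (isA_mul (hg2 1 1) hz), ?_⟩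
      rw [mul_10, hy', hz']; ring
  inv_mem' := by
    rintro g ⟨hg, hg'⟩
    have hg2 : ∀ i j, isA q (g.1 i j) := hg
    rw [isNA_iff] at hg'
    obtain ⟨y, hy, hy'⟩ := hg'
    refine ⟨?_, ?_⟩
    · show ∀ i j, isA q ((g⁻¹).1 i j)
      rw [forall_entries (P := isA q), inv_00, inv_01, inv_10, inv_11]
      exact ⟨hg2 1 1, isA_neg (hg2 0 1), isA_neg (hg2 1 0), hg2 0 0⟩
    · rw [isNA_iff]
      exact ⟨-y, isA_neg hy, by rw [inv_10, hy']; ring⟩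

theorem mem_GN {q N : ℕ} {g : SL(2, ℚ)} :
    g ∈ GN q N ↔ (∀ i j, ∃ (k : ℕ) (n : ℤ), g.1 i j = n / (q : ℚ) ^ k) ∧
      ∃ (k : ℕ) (n : ℤ), g.1 1 0 = N * n / (q : ℚ) ^ k := Iff.rfl

theorem mem_GN_iff {q N : ℕ} {g : SL(2, ℚ)} :
    g ∈ GN q N ↔ (∀ i j, isA q (g.1 i j)) ∧ ∃ y : ℚ, isA q y ∧ g.1 1 0 = N * y := by
  rw [mem_GN, isNA_iff]; rfl

theorem isA_entry {q N : ℕ} {g : SL(2, ℚ)} (hg : g ∈ GN q N) (i j : Fin 2) : isA q (g.1 i j) :=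
  hg.1 i j

theorem uu_mem {q : ℕ} (N : ℕ) {x : ℚ} (hx : isA q x) : uu x ∈ GN q N := by
  rw [mem_GN_iff]
  refine ⟨?_, 0, isA_zero q, by simp⟩
  rw [forall_entries (P := isA q)]
  exact ⟨isA_one q, hx, isA_zero q, isA_one q⟩

theorem ll_mem {q : ℕ} (N : ℕ) {y : ℚ} (hy : isA q y) : ll ((N : ℚ) * y) ∈ GN q N := by
  rw [mem_GN_iff]
  refine ⟨?_, y, hy, by simp⟩
  rw [forall_entries (P := isA q)]
  exact ⟨isA_one q, isA_zero q, isA_mul (isA_natCast q N) hy, isA_one q⟩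

/-- the diagonal matrix `diag(q, q⁻¹)` (for `q ≠ 0`). -/
def hq (q : ℕ) (h : q ≠ 0) : SL(2, ℚ) :=
  mk2 (q : ℚ) 0 0 ((q : ℚ)⁻¹) (by
    have : (q : ℚ) ≠ 0 := Nat.cast_ne_zero.mpr h
    field_simp; ring)

@[simp] theorem hq_00 (q : ℕ) (h : q ≠ 0) : (hq q h).1 0 0 = q := rfl
@[simp] theorem hq_01 (q : ℕ) (h : q ≠ 0) : (hq q h).1 0 1 = 0 := rfl
@[simp] theorem hq_10 (q : ℕ) (h : q ≠ 0) : (hq q h).1 1 0 = 0 := rfl
@[simp] theorem hq_11 (q : ℕ) (h : q ≠ 0) : (hq q h).1 1 1 = (q : ℚ)⁻¹ := rfl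

theorem hq_mem (q N : ℕ) (h : q ≠ 0) : hq q h ∈ GN q N := by
  rw [mem_GN_iff]
  refine ⟨?_, 0, isA_zero q, by simp⟩
  rw [forall_entries (P := isA q)]
  exact ⟨isA_natCast q q, isA_zero q, isA_zero q, isA_q_inv q⟩

/-- the integral points. -/
def ofInt : SL(2, ℤ) →* SL(2, ℚ) := Matrix.SpecialLinearGroup.map (Int.castRingHom ℚ)

@[simp] theorem ofInt_apply (γ : SL(2, ℤ)) (i j : Fin 2) : (ofInt γ).1 i j = (γ.1 i j : ℚ) := rfl

theorem ofInt_injective : Function.Injective ofInt := by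
  intro g h hgh
  apply Subtype.ext
  ext i j
  have := congrArg (fun x : SL(2, ℚ) => x.1 i j) hgh
  simpa using this

theorem ofInt_mem (q : ℕ) {N : ℕ} {γ : SL(2, ℤ)} (hγ : γ ∈ CongruenceSubgroup.Gamma0 N) :
    ofInt γ ∈ GN q N := by
  rw [CongruenceSubgroup.Gamma0_mem, ZMod.intCast_zmod_eq_zero_iff_dvd] at hγ
  obtain ⟨m, hm⟩ := hγ
  rw [mem_GN_iff]
  refine ⟨fun i j => isA_intCast q _, m, isA_intCast q m, ?_⟩
  rw [ofInt_apply]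
  have : ((γ.1 1 0 : ℤ) : ℚ) = ((N : ℤ) * m : ℤ) := by exact_mod_cast congrArg (Int.cast : ℤ → ℚ) hm
  rw [this]; push_cast; ring

/-- Scaled integral form of the membership. -/
theorem mem_GN_iff_scaled {q N : ℕ} (hq : q ≠ 0) {g : SL(2, ℚ)} :
    g ∈ GN q N ↔ ∃ (k : ℕ) (W : Matrix (Fin 2) (Fin 2) ℤ),
      (q : ℚ) ^ k • g.1 = W.map Int.cast ∧ (N : ℤ) ∣ W 1 0 := by
  have hq' : ∀ k : ℕ, (q : ℚ) ^ k ≠ 0 := fun k => pow_ne_zero k (Nat.cast_ne_zero.mpr hq)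
  constructor
  · rintro ⟨hg, k, n, h10⟩
    obtain ⟨k00, n00, h00⟩ := hg 0 0
    obtain ⟨k01, n01, h01⟩ := hg 0 1
    obtain ⟨k11, n11, h11⟩ := hg 1 1
    refine ⟨k00 + k01 + k + k11,
      !![n00 * (q : ℤ) ^ (k01 + k + k11), n01 * (q : ℤ) ^ (k00 + k + k11);
         (N : ℤ) * (n * (q : ℤ) ^ (k00 + k01 + k11)), n11 * (q : ℤ) ^ (k00 + k01 + k)], ?_, ?_⟩
    · ext i j
      fin_cases i <;> fin_cases j
      · show (q : ℚ) ^ (k00 + k01 + k + k11) * g.1 0 0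
          = ((n00 * (q : ℤ) ^ (k01 + k + k11) : ℤ) : ℚ)
        rw [h00]; push_cast
        have := hq' k00
        field_simp
        ring
      · show (q : ℚ) ^ (k00 + k01 + k + k11) * g.1 0 1
          = ((n01 * (q : ℤ) ^ (k00 + k + k11) : ℤ) : ℚ)
        rw [h01]; push_cast
        have := hq' k01
        field_simp
        ring
      · show (q : ℚ) ^ (k00 + k01 + k + k11) * g.1 1 0
          = (((N : ℤ) * (n * (q : ℤ) ^ (k00 + k01 + k11)) : ℤ) : ℚ)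
        rw [h10]; push_cast
        have := hq' k
        field_simp
        ring
      · show (q : ℚ) ^ (k00 + k01 + k + k11) * g.1 1 1
          = ((n11 * (q : ℤ) ^ (k00 + k01 + k) : ℤ) : ℚ)
        rw [h11]; push_cast
        have := hq' k11
        field_simp
        ring
    · exact ⟨_, rfl⟩
  · rintro ⟨k, W, hW, m, hm⟩
    have hent : ∀ i j, g.1 i j = (W i j : ℚ) / (q : ℚ) ^ k := by
      intro i j
      have : (q : ℚ) ^ k * g.1 i j = (W i j : ℚ) := congrFun (congrFun hW i) j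
      rw [← this, mul_div_cancel_left₀ _ (hq' k)]
    refine ⟨fun i j => ⟨k, W i j, hent i j⟩, k, m, ?_⟩
    rw [hent 1 0, hm]; push_cast; ring

/-! ### Bridge to `SL(2, A)` with `A = ℤ[1/q]` -/

/-- `SL₂(ℤ[1/q]) → SL₂(ℚ)`. -/
def toQ (q : ℕ) : SL(2, ↥(Aq q)) →* SL(2, ℚ) := Matrix.SpecialLinearGroup.map (Aq q).subtype

@[simp] theorem toQ_apply (q : ℕ) (g : SL(2, ↥(Aq q))) (i j : Fin 2) :
    (toQ q g).1 i j = ((g.1 i j : ↥(Aq q)) : ℚ) := rfl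

theorem toQ_injective (q : ℕ) : Function.Injective (toQ q) := by
  intro g h hgh
  apply Subtype.ext
  ext i j
  have := congrArg (fun x : SL(2, ℚ) => x.1 i j) hgh
  simpa using this

theorem exists_toQ_eq {q : ℕ} {g : SL(2, ℚ)} (hg : ∀ i j, isA q (g.1 i j)) :
    ∃ g' : SL(2, ↥(Aq q)), toQ q g' = g := by
  refine ⟨mk2 ⟨g.1 0 0, hg 0 0⟩ ⟨g.1 0 1, hg 0 1⟩ ⟨g.1 1 0, hg 1 0⟩ ⟨g.1 1 1, hg 1 1⟩ ?_, ?_⟩
  · apply Subtype.ext
    simpa using det_eq g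
  · exact sl2_ext rfl rfl rfl rfl

/-- `Γ₀(N)[1/q]` as a subgroup of `SL₂(ℤ[1/q])`. -/
def GA (q N : ℕ) : Subgroup SL(2, ↥(Aq q)) := (GN q N).comap (toQ q)

theorem mem_GA {q N : ℕ} {g : SL(2, ↥(Aq q))} :
    g ∈ GA q N ↔ ((N : ℕ) : ↥(Aq q)) ∣ g.1 1 0 := by
  rw [GA, Subgroup.mem_comap, mem_GN_iff]
  constructor
  · rintro ⟨-, y, hy, h⟩
    refine ⟨⟨y, hy⟩, ?_⟩
    apply Subtype.ext
    rw [toQ_apply] at h
    rw [h]; simp
  · rintro ⟨y, hy⟩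
    refine ⟨fun i j => (g.1 i j).2, y.1, y.2, ?_⟩
    rw [toQ_apply, hy]; simp

theorem toQ_mem {q N : ℕ} (g : ↥(GA q N)) : toQ q g.1 ∈ GN q N := g.2

theorem exists_GA_eq {q N : ℕ} (g : ↥(GN q N)) : ∃ g' : ↥(GA q N), toQ q g'.1 = g.1 := by
  obtain ⟨g', hg'⟩ := exists_toQ_eq (q := q) (g := g.1) (fun i j => g.2.1 i j)
  exact ⟨⟨g', by rw [GA, Subgroup.mem_comap, hg']; exact g.2⟩, hg'⟩

theorem isUnit_q {q : ℕ} (hq : q ≠ 0) : IsUnit ((q : ℕ) : ↥(Aq q)) := by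
  refine IsUnit.of_mul_eq_one (⟨(q : ℚ)⁻¹, isA_q_inv q⟩ : ↥(Aq q)) ?_
  apply Subtype.ext
  have : (q : ℚ) ≠ 0 := Nat.cast_ne_zero.mpr hq
  simp [this]

theorem exists_int_eq {q : ℕ} (hq : q ≠ 0) (x : ↥(Aq q)) :
    ∃ (n : ℤ) (k : ℕ), x * ((q : ℕ) : ↥(Aq q)) ^ k = n := by
  obtain ⟨k, n, h⟩ := (isA_iff hq).1 x.2
  refine ⟨n, k, ?_⟩
  apply Subtype.ext
  simpa using h

theorem intCast_injective (q : ℕ) : Function.Injective ((↑) : ℤ → ↥(Aq q)) := by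
  intro a b h
  have := congrArg (Subtype.val : ↥(Aq q) → ℚ) h
  simpa using this

end Fermat.Agent.P7.CspGroup
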