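import Mathlib
import Fermat.Agent.P7.AmalgSL2
import Fermat.Agent.P7.AmalgGen
import Fermat.Agent.P7.CspGroup

/-!
# `Γ₀(N)[1/q] = Γ₀(N) *_{Γ₀(Nq)} δ⁻¹Γ₀(N)δ`: the gluing statement on the model `CspGroup.GN`

* `sup_eq_GN` : `AmalgSL2.A N ⊔ AmalgSL2.B q N = CspGroup.GN q N` (generation, via `AmalgGen`).
* `glueGN` : two homomorphisms `ψ₁ ψ₂ : Γ₀(N) →* M` with `ψ₁ γ = ψ₂ (δ γ δ⁻¹)` whenever `γ` and
  `δ γ δ⁻¹` both lie in `Γ₀(N)` (`δ = diag(q, 1)`) glue to a homomorphism `Ψ` on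
  `CspGroup.GN q N` with `Ψ γ = ψ₁ γ` and `Ψ (δ⁻¹ γ δ) = ψ₂ γ` for `γ ∈ Γ₀(N)`.
-/

set_option autoImplicit false

namespace Fermat.Agent.P7.AmalgFinal

open Matrix MatrixGroups CongruenceSubgroup

theorem A_le_GN (q N : ℕ) : AmalgSL2.A N ≤ CspGroup.GN q N := by
  intro g hg
  obtain ⟨γ, hγ, rfl⟩ := AmalgSL2.mem_A.1 hg
  exact CspGroup.ofInt_mem q hγ

theorem B_le_GN (q N : ℕ) [hq : Fact q.Prime] : AmalgSL2.B q N ≤ CspGroup.GN q N := by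
  intro g hg
  have hq0 : (q : ℚ) ≠ 0 := AmalgSL2.q_ne_zero q
  obtain ⟨γ, hγ, h⟩ := AmalgSL2.mem_B.1 hg
  have h00 : g.1 0 0 = (γ.1 0 0 : ℚ) := by
    have := congrArg (fun m : SL(2, ℚ) => m.1 0 0) h
    simpa using this.symm
  have h01 : g.1 0 1 = (γ.1 0 1 : ℚ) * (q : ℚ)⁻¹ := by
    have := congrArg (fun m : SL(2, ℚ) => m.1 0 1) h
    simp only [AmalgSL2.ofInt_apply, AmalgSL2.conjD_01] at this
    rw [this]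
    field_simp
  have h10 : g.1 1 0 = (q : ℚ) * (γ.1 1 0 : ℚ) := by
    have := congrArg (fun m : SL(2, ℚ) => m.1 1 0) h
    simp only [AmalgSL2.ofInt_apply, AmalgSL2.conjD_10] at this
    rw [this]
    field_simp
  have h11 : g.1 1 1 = (γ.1 1 1 : ℚ) := by
    have := congrArg (fun m : SL(2, ℚ) => m.1 1 1) h
    simpa using this.symm
  obtain ⟨m, hm⟩ := AmalgSL2.Gamma0_iff_dvd.1 hγ
  rw [CspGroup.mem_GN_iff]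
  refine ⟨?_, (q : ℚ) * (m : ℚ),
    CspGroup.isA_mul (CspGroup.isA_natCast q q) (CspGroup.isA_intCast q m), ?_⟩
  · rw [CspGroup.forall_entries (P := CspGroup.isA q), h00, h01, h10, h11]
    exact ⟨CspGroup.isA_intCast q _,
      CspGroup.isA_mul (CspGroup.isA_intCast q _) (CspGroup.isA_q_inv q),
      CspGroup.isA_mul (CspGroup.isA_natCast q q) (CspGroup.isA_intCast q _),
      CspGroup.isA_intCast q _⟩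
  · rw [h10, hm]
    push_cast
    ring

/-- **Generation**: `Γ₀(N)[1/q]` is generated by `Γ₀(N)` and `δ⁻¹Γ₀(N)δ`. -/
theorem sup_eq_GN {q N : ℕ} [hq : Fact q.Prime] (hqN : q.Coprime N) :
    AmalgSL2.A N ⊔ AmalgSL2.B q N = CspGroup.GN q N := by
  apply le_antisymm
  · exact sup_le (A_le_GN q N) (B_le_GN q N)
  · intro g hg
    obtain ⟨k, W, hW, hN⟩ := (CspGroup.mem_GN_iff_scaled hq.out.ne_zero).1 hg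
    refine AmalgGen.mem_of_scaled hq.out hqN (AmalgSL2.A N ⊔ AmalgSL2.B q N) ?_ ?_ g k W hW hN
    · intro γ hγ g' h
      exact Subgroup.mem_sup_left (AmalgSL2.mem_A_of hγ h)
    · intro γ hγ g' h00 h01 h10 h11
      exact Subgroup.mem_sup_right (AmalgSL2.mem_B_of hγ h00 h01 h10 h11)

/-- Membership in `GN` of `δ⁻¹ γ δ = (a, b/q; qc, d)` for `γ = (a, b; c, d) ∈ Γ₀(N)`. -/
theorem conj_mem_GN {q N : ℕ} [Fact q.Prime] {γ : SL(2, ℤ)} (hγ : γ ∈ Gamma0 N)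
    {g : SL(2, ℚ)} (h00 : g.1 0 0 = γ.1 0 0) (h01 : (q : ℚ) * g.1 0 1 = γ.1 0 1)
    (h10 : g.1 1 0 = (q : ℚ) * γ.1 1 0) (h11 : g.1 1 1 = γ.1 1 1) : g ∈ CspGroup.GN q N :=
  B_le_GN q N (AmalgSL2.mem_B_of hγ h00 h01 h10 h11)

/-- **Amalgam gluing on `Γ₀(N)[1/q]`.**  Let `q` be a prime not dividing `N` and let
`ψ₁ ψ₂ : Γ₀(N) →* M` satisfy `ψ₁ γ = ψ₂ γ'` whenever `γ, γ' ∈ Γ₀(N)` and
`γ' = δ γ δ⁻¹ = (a, q b; c / q, d)` (`δ = diag(q, 1)`).  Then there is a homomorphism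
`Ψ : Γ₀(N)[1/q] →* M` with `Ψ γ = ψ₁ γ` for `γ ∈ Γ₀(N)` and `Ψ g = ψ₂ γ` for
`g = δ⁻¹ γ δ = (a, b / q; q c, d)`, `γ ∈ Γ₀(N)`. -/
theorem glueGN {q N : ℕ} [Fact q.Prime] (hqN : q.Coprime N)
    {M : Type*} [Group M] (ψ₁ ψ₂ : ↥(Gamma0 N) →* M)
    (hcompat : ∀ (γ γ' : SL(2, ℤ)) (hγ : γ ∈ Gamma0 N) (hγ' : γ' ∈ Gamma0 N),
      γ'.1 0 0 = γ.1 0 0 → γ'.1 0 1 = q * γ.1 0 1 → γ.1 1 0 = q * γ'.1 1 0 →
      γ'.1 1 1 = γ.1 1 1 → ψ₁ ⟨γ, hγ⟩ = ψ₂ ⟨γ', hγ'⟩) :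
    ∃ Ψ : ↥(CspGroup.GN q N) →* M,
      (∀ (γ : SL(2, ℤ)) (hγ : γ ∈ Gamma0 N),
        Ψ ⟨CspGroup.ofInt γ, CspGroup.ofInt_mem q hγ⟩ = ψ₁ ⟨γ, hγ⟩) ∧
      (∀ (γ : SL(2, ℤ)) (hγ : γ ∈ Gamma0 N) (g : SL(2, ℚ)) (h00 : g.1 0 0 = γ.1 0 0)
        (h01 : (q : ℚ) * g.1 0 1 = γ.1 0 1) (h10 : g.1 1 0 = (q : ℚ) * γ.1 1 0)
        (h11 : g.1 1 1 = γ.1 1 1),
        Ψ ⟨g, conj_mem_GN hγ h00 h01 h10 h11⟩ = ψ₂ ⟨γ, hγ⟩) := by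
  obtain ⟨Ψ₀, h1, h2⟩ := AmalgSL2.glueGamma0 hqN ψ₁ ψ₂ hcompat
  have hsup := sup_eq_GN (q := q) (N := N) hqN
  refine ⟨Ψ₀.comp (MulEquiv.subgroupCongr hsup.symm).toMonoidHom, ?_, ?_⟩
  · intro γ hγ
    exact h1 γ hγ
  · intro γ hγ g h00 h01 h10 h11
    exact h2 γ hγ g h00 h01 h10 h11

end Fermat.Agent.P7.AmalgFinal
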