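import Mathlib

/-!
# P7 / [CSP-ab], leaf [ADM] (Step 4 of helper4's proof, board row #2526)

Pure elementary number theory (Dirichlet's theorem + Fermat's little theorem), `Mathlib` only.

For an odd prime `l`, a natural number `q` prime to `l`, a level `N > 0` and an exponent
`e > 0` with `q ^ (2 * e) ≡ 1 [MOD N]`, every nonzero class `k` modulo `l` is *admissible*:
there are arbitrarily large primes `r ≡ k [MOD l]` and an exponent `i > 0` with
`q ^ (2 * i) ≡ 1 [MOD N * r]` and `q ^ (2 * i) ≡ q ^ (2 * e) [MOD l]`.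

(The unit `U = q ^ (2 * i)` of `ℤ[1/q]` is `≡ 1` modulo `N * r` while its class modulo `l` is the
fixed class `q ^ (2 * e)`.)
-/

set_option autoImplicit false

namespace Fermat.Agent.P7.CspAdm

/-- An odd prime `l` is coprime to `2 * (l - 1)`. -/
theorem coprime_two_mul_pred {l : ℕ} (hl : l.Prime) (hl2 : l ≠ 2) :
    Nat.Coprime l (2 * (l - 1)) := by
  have h3 : 3 ≤ l := by
    have := hl.two_le
    omega
  refine Nat.Coprime.mul_right ?_ ?_
  · exact (Nat.Prime.coprime_iff_not_dvd hl).mpr fun h => hl2 ((Nat.prime_dvd_prime_iff_eq hl Nat.prime_two).mp h)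
  · exact (Nat.Prime.coprime_iff_not_dvd hl).mpr fun h => by
      have := Nat.le_of_dvd (by omega) h
      omega

/-- Fermat's little theorem in the form used below. -/
theorem pow_pred_modEq_one {r q : ℕ} (hr : r.Prime) (hq : ¬ r ∣ q) : q ^ (r - 1) ≡ 1 [MOD r] := by
  have hc : Nat.Coprime q r := ((Nat.Prime.coprime_iff_not_dvd hr).mpr hq).symm
  simpa [Nat.totient_prime hr] using Nat.ModEq.pow_totient hc

/-- **[ADM]** (Step 4 of the [CSP-ab] proof): every nonzero class `k` modulo the odd prime `l`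
is admissible with the fixed class `q ^ (2 * e)` modulo `l`. -/
theorem exists_admissible {l q N e : ℕ} (hl : l.Prime) (hl2 : l ≠ 2) (hql : ¬ l ∣ q)
    (hN : 0 < N) (he : 0 < e) (hNe : q ^ (2 * e) ≡ 1 [MOD N]) (k : ℕ) (hk : ¬ l ∣ k) (B : ℕ) :
    ∃ r i : ℕ, r.Prime ∧ B < r ∧ r ≡ k [MOD l] ∧ 0 < i ∧
      q ^ (2 * i) ≡ 1 [MOD N * r] ∧ q ^ (2 * i) ≡ q ^ (2 * e) [MOD l] := by
  have h3 : 3 ≤ l := by
    have := hl.two_le
    omega
  have hq0 : 0 < q := Nat.pos_of_ne_zero fun h => hql (h ▸ dvd_zero l)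
  set M := 2 * (l - 1) with hM
  have hMpos : 0 < M := by omega
  have hcop : Nat.Coprime l M := coprime_two_mul_pred hl hl2
  -- the Chinese remainder class
  obtain ⟨a, ha1, ha2⟩ := Nat.chineseRemainder hcop k (M - 1)
  have hal : Nat.Coprime a l := by
    refine ((Nat.Prime.coprime_iff_not_dvd hl).mpr fun h => hk ?_).symm
    exact (Nat.modEq_zero_iff_dvd.mp (ha1.symm.trans (Nat.modEq_zero_iff_dvd.mpr h)))
  have haM : Nat.Coprime a M := by
    have h1 : Nat.Coprime (M - 1) M := by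
      have : Nat.Coprime (M - 1) (M - 1 + 1) := by simp
      rwa [Nat.sub_add_cancel hMpos] at this
    have := ha2.gcd_eq
    unfold Nat.Coprime at h1 ⊢
    rw [this]; exact h1
  have haLM : Nat.Coprime a (l * M) := Nat.Coprime.mul_right hal haM
  -- Dirichlet
  obtain ⟨r, hrB, hr, hra⟩ := Nat.forall_exists_prime_gt_and_modEq (max B (N * q)) (q := l * M)
    (a := a) (Nat.mul_pos hl.pos hMpos).ne' haLM
  have hrB' : B < r := lt_of_le_of_lt (le_max_left _ _) hrB
  have hrNq : N * q < r := lt_of_le_of_lt (le_max_right _ _) hrB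
  have hrk : r ≡ k [MOD l] := (hra.of_mul_right M).trans ha1
  have hrM : r ≡ M - 1 [MOD M] := (hra.of_mul_left l).trans ha2
  have hrN : ¬ r ∣ N := fun h => by
    have h1 := Nat.le_of_dvd hN h
    have h2 : N ≤ N * q := Nat.le_mul_of_pos_right N hq0
    omega
  have hrq : ¬ r ∣ q := fun h => by
    have h1 := Nat.le_of_dvd hq0 h
    have h2 : q ≤ N * q := Nat.le_mul_of_pos_left q hN
    omega
  have hNr : Nat.Coprime N r := ((Nat.Prime.coprime_iff_not_dvd hr).mpr hrN).symm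
  -- `r + 1` is divisible by `M = 2 * (l - 1)`
  have hdvd : M ∣ r + 1 := by
    have h1 : r + 1 ≡ M - 1 + 1 [MOD M] := hrM.add_right 1
    rw [Nat.sub_add_cancel hMpos] at h1
    exact (Nat.modEq_zero_iff_dvd.mp (h1.trans (by simp [Nat.ModEq])))
  obtain ⟨t, ht⟩ := hdvd
  have ht0 : 0 < t := by
    rcases Nat.eq_zero_or_pos t with h | h
    · rw [h] at ht; omega
    · exact h
  -- `s = (r - 1) / 2 = (l - 1) * t - 1`
  set s := (l - 1) * t - 1 with hs
  have hlt : 2 ≤ (l - 1) * t := by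
    have : 2 * 1 ≤ (l - 1) * t := Nat.mul_le_mul (by omega) ht0
    omega
  have hs2 : 2 * s = r - 1 := by
    have : r + 1 = 2 * ((l - 1) * t) := by rw [ht, hM]; ring
    omega
  have hs0 : 0 < s := by omega
  have hscop : Nat.Coprime s (l - 1) := by
    have h1 : Nat.Coprime s (s + 1) := by simp
    have h2 : s + 1 = (l - 1) * t := by omega
    rw [h2] at h1
    exact Nat.Coprime.coprime_mul_right_right h1
  -- inverse of `s` modulo `l - 1`
  obtain ⟨j, -, hj⟩ := Nat.exists_mul_mod_eq_one_of_coprime hscop (by omega : 1 < l - 1)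
  have hj0 : 0 < j := by
    rcases Nat.eq_zero_or_pos j with h | h
    · rw [h] at hj; simp at hj
    · exact h
  -- `s * j = 1 + (l - 1) * w`
  obtain ⟨w, hw⟩ : ∃ w, s * j = 1 + (l - 1) * w := by
    refine ⟨s * j / (l - 1), ?_⟩
    have := Nat.mod_add_div (s * j) (l - 1)
    omega
  refine ⟨r, e * (s * j), hr, hrB', hrk, Nat.mul_pos he (Nat.mul_pos hs0 hj0), ?_, ?_⟩
  · -- modulo `N * r`
    have h1 : q ^ (2 * (e * (s * j))) ≡ 1 [MOD N] := by
      have : q ^ (2 * (e * (s * j))) = (q ^ (2 * e)) ^ (s * j) := by rw [← pow_mul]; ring_nf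
      rw [this]
      simpa using hNe.pow (s * j)
    have h2 : q ^ (2 * (e * (s * j))) ≡ 1 [MOD r] := by
      have : q ^ (2 * (e * (s * j))) = (q ^ (r - 1)) ^ (e * j) := by
        rw [← pow_mul, ← hs2]; ring_nf
      rw [this]
      simpa using (pow_pred_modEq_one hr hrq).pow (e * j)
    exact (Nat.modEq_and_modEq_iff_modEq_mul hNr).mp ⟨h1, h2⟩
  · -- modulo `l`
    have : q ^ (2 * (e * (s * j))) = q ^ (2 * e) * (q ^ (l - 1)) ^ (2 * e * w) := by
      rw [hw, ← pow_mul, ← pow_add]; ring_nf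
    rw [this]
    have h1 : (q ^ (l - 1)) ^ (2 * e * w) ≡ 1 [MOD l] := by
      simpa using (pow_pred_modEq_one hl hql).pow (2 * e * w)
    simpa using Nat.ModEq.mul_left (q ^ (2 * e)) h1

/-- **[ADM]** in the shape of helper4's claim row #2580 (`ZMod l`-valued class, divisibility in
`ℤ`), with the extra freedom `B < r`. -/
theorem exists_adm_gt {q N l e : ℕ} (hl : l.Prime) (hl2 : l ≠ 2) (hq : 0 < q) (hlq : ¬ l ∣ q)
    (hN : 0 < N) (he : N ∣ q ^ (2 * e) - 1) (k : ZMod l) (hk : k ≠ 0) (B : ℕ) :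
    ∃ r i : ℕ, r.Prime ∧ B < r ∧ (r : ZMod l) = k ∧
      ((N * r : ℕ) : ℤ) ∣ (q : ℤ) ^ (2 * i) - 1 ∧
      (q : ZMod l) ^ (2 * i) = (q : ZMod l) ^ (2 * e) := by
  have : NeZero l := ⟨hl.pos.ne'⟩
  have hkv : ¬ l ∣ k.val := fun h => hk (by
    have := (ZMod.natCast_eq_zero_iff k.val l).mpr h
    rwa [ZMod.natCast_zmod_val] at this)
  rcases Nat.eq_zero_or_pos e with he0 | he0
  · -- `e = 0`: take `i = 0` and any prime in the class
    have hcop : Nat.Coprime k.val l := ((Nat.Prime.coprime_iff_not_dvd hl).mpr hkv).symm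
    obtain ⟨r, hrB, hr, hrk⟩ := Nat.forall_exists_prime_gt_and_modEq B hl.pos.ne' hcop
    refine ⟨r, 0, hr, hrB, ?_, by simp, by simp [he0]⟩
    have := (ZMod.natCast_eq_natCast_iff r k.val l).mpr hrk
    rwa [ZMod.natCast_zmod_val] at this
  · have hpos : 1 ≤ q ^ (2 * e) := Nat.one_le_pow _ _ hq
    have hNe : q ^ (2 * e) ≡ 1 [MOD N] := ((Nat.modEq_iff_dvd' hpos).mpr he).symm
    obtain ⟨r, i, hr, hrB, hrk, -, h1, h2⟩ :=
      exists_admissible hl hl2 hlq hN he0 hNe k.val hkv B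
    refine ⟨r, i, hr, hrB, ?_, ?_, ?_⟩
    · have := (ZMod.natCast_eq_natCast_iff r k.val l).mpr hrk
      rwa [ZMod.natCast_zmod_val] at this
    · have h3 := (Nat.modEq_iff_dvd.mp h1.symm)
      simpa using h3
    · have := (ZMod.natCast_eq_natCast_iff _ _ l).mpr h2
      simpa using this

/-- **[ADM]**, verbatim the statement of helper4's claim row #2580. -/
theorem exists_adm {q N l e : ℕ} (hl : l.Prime) (hl2 : l ≠ 2) (hq : 0 < q) (hlq : ¬ l ∣ q)
    (hN : 0 < N) (he : N ∣ q ^ (2 * e) - 1) (k : ZMod l) (hk : k ≠ 0) :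
    ∃ r i : ℕ, r.Prime ∧ (r : ZMod l) = k ∧
      ((N * r : ℕ) : ℤ) ∣ (q : ℤ) ^ (2 * i) - 1 ∧
      (q : ZMod l) ^ (2 * i) = (q : ZMod l) ^ (2 * e) := by
  obtain ⟨r, i, hr, -, h1, h2, h3⟩ := exists_adm_gt hl hl2 hq hlq hN he k hk 0
  exact ⟨r, i, hr, h1, h2, h3⟩

end Fermat.Agent.P7.CspAdm
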