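import Mathlib

/-!
# P7 / S41, gate item [CSP-ab], leaf [FIN]

A finite lemma on `𝔽_ℓ^×`: a function `f : 𝔽_ℓ^× → 𝔽_p` (`p ∤ ℓ - 1`) which is invariant under
multiplication by some `U ≠ 1` and satisfies the "triple product" relation
`f (m λ x) - f (λ x) = f (m x) - f x`, `λ = (m - 1) / (m - U)`, for all `m ∉ {0, 1, U}`,
is constant.
-/

namespace Fermat.Agent.P7.CspFin

variable {l p : ℕ} [Fact l.Prime] [Fact p.Prime]

/-- Re-indexing a twisted character sum. -/
theorem sum_shift {K : Type*} [Field K] (χ : DirichletCharacter K l) (g : ZMod l → K)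
    (c : ZMod l) (hc : c ≠ 0) :
    ∑ x : ZMod l, g (c * x) * χ x⁻¹ = χ c * ∑ x : ZMod l, g x * χ x⁻¹ := by
  rw [Finset.mul_sum]
  refine Fintype.sum_bijective (fun x => c * x) (mulLeft_bijective₀ c hc) _ _ (fun x => ?_)
  have h1 : χ c * χ c⁻¹ = 1 := by rw [← map_mul, mul_inv_cancel₀ hc, map_one]
  rw [mul_inv, map_mul]
  calc g (c * x) * χ x⁻¹ = (χ c * χ c⁻¹) * (g (c * x) * χ x⁻¹) := by rw [h1, one_mul]
    _ = _ := by ring

/-- The finite lemma over a coefficient field with enough roots of unity. -/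
theorem const_of_rel_aux {K : Type*} [Field K] [NeZero l]
    [HasEnoughRootsOfUnity K (Monoid.exponent (ZMod l)ˣ)]
    (ι : ZMod p →+* K) (htot : ((l.totient : ℕ) : K) ≠ 0)
    (U : ZMod l) (hU0 : U ≠ 0) (hU1 : U ≠ 1)
    (f : ZMod l → ZMod p)
    (hU : ∀ x : ZMod l, x ≠ 0 → f (U * x) = f x)
    (hrel : ∀ m x : ZMod l, m ≠ 0 → m ≠ 1 → m ≠ U → x ≠ 0 →
        f (m * ((m - 1) / (m - U)) * x) - f ((m - 1) / (m - U) * x) = f (m * x) - f x) :
    ∀ x : ZMod l, x ≠ 0 → ι (f x) = ι (f 1) := by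
  classical
  -- Fourier coefficients
  let F : DirichletCharacter K l → K := fun χ => ∑ x : ZMod l, ι (f x) * χ x⁻¹
  have hF : ∀ χ : DirichletCharacter K l, F χ = ∑ x : ZMod l, ι (f x) * χ x⁻¹ := fun _ => rfl
  have hχ0' : ∀ χ : DirichletCharacter K l, χ (0 : ZMod l) = 0 := by
    intro χ; exact χ.map_nonunit (by simp)
  have hχ0 : ∀ χ : DirichletCharacter K l, χ (0 : ZMod l)⁻¹ = 0 := by
    intro χ; rw [inv_zero]; exact hχ0' χ
  -- (A) `U`-invariance
  have hA : ∀ χ : DirichletCharacter K l, F χ ≠ 0 → χ U = 1 := by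
    intro χ hFχ
    have h1 := sum_shift χ (fun x => ι (f x)) U hU0
    have h2 : ∑ x : ZMod l, ι (f (U * x)) * χ x⁻¹ = F χ := by
      rw [hF]
      refine Finset.sum_congr rfl (fun x _ => ?_)
      by_cases hx : x = 0
      · subst hx; rw [hχ0, mul_zero, mul_zero]
      · rw [hU x hx]
    rw [h2, ← hF] at h1
    have h3 : (χ U - 1) * F χ = 0 := by
      rw [sub_mul, one_mul, ← h1, sub_self]
    rcases mul_eq_zero.mp h3 with h | h
    · exact sub_eq_zero.mp h
    · exact absurd h hFχ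
  -- (B) the relation
  have hB : ∀ χ : DirichletCharacter K l, F χ ≠ 0 → ∀ m : ZMod l, m ≠ 0 → m ≠ 1 → m ≠ U →
      χ m = 1 ∨ χ ((m - 1) / (m - U)) = 1 := by
    intro χ hFχ m hm0 hm1 hmU
    have hlam0 : (m - 1) / (m - U) ≠ 0 :=
      div_ne_zero (sub_ne_zero.mpr hm1) (sub_ne_zero.mpr hmU)
    have h1 := sum_shift χ (fun x => ι (f x)) (m * ((m - 1) / (m - U))) (mul_ne_zero hm0 hlam0)
    have h2 := sum_shift χ (fun x => ι (f x)) ((m - 1) / (m - U)) hlam0
    have h3 := sum_shift χ (fun x => ι (f x)) m hm0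
    have h4 : ∑ x : ZMod l, ι (f (m * ((m - 1) / (m - U)) * x)) * χ x⁻¹
          - ∑ x : ZMod l, ι (f ((m - 1) / (m - U) * x)) * χ x⁻¹
        = ∑ x : ZMod l, ι (f (m * x)) * χ x⁻¹ - F χ := by
      rw [hF, ← Finset.sum_sub_distrib, ← Finset.sum_sub_distrib]
      refine Finset.sum_congr rfl (fun x _ => ?_)
      by_cases hx : x = 0
      · subst hx; rw [hχ0]; simp
      · rw [← sub_mul, ← sub_mul, ← map_sub, ← map_sub, hrel m x hm0 hm1 hmU hx]
    rw [h1, h2, h3, ← hF, map_mul] at h4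
    have h5 : (χ m - 1) * ((χ ((m - 1) / (m - U)) - 1) * F χ) = 0 := by
      have : (χ m - 1) * ((χ ((m - 1) / (m - U)) - 1) * F χ)
          = (χ m * χ ((m - 1) / (m - U)) * F χ - χ ((m - 1) / (m - U)) * F χ)
            - (χ m * F χ - F χ) := by ring
      rw [this, h4, sub_self]
    rcases mul_eq_zero.mp h5 with h | h
    · exact Or.inl (sub_eq_zero.mp h)
    · rcases mul_eq_zero.mp h with h | h
      · exact Or.inr (sub_eq_zero.mp h)
      · exact absurd h hFχ
  -- (C) only the trivial character has a non-zero coefficient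
  have hC : ∀ χ : DirichletCharacter K l, χ ≠ 1 → F χ = 0 := by
    intro χ hχ
    by_contra hFχ
    have hχU := hA χ hFχ
    obtain ⟨s, hs⟩ := MulChar.ne_one_iff.mp hχ
    have hs0 : (s : ZMod l) ≠ 0 := s.ne_zero
    let Kset : Finset (ZMod l) := Finset.univ.filter (fun m => χ m = 1)
    let Sset : Finset (ZMod l) := Finset.univ.filter (fun m => m ≠ 0 ∧ χ m ≠ 1)
    have hKmem : ∀ m : ZMod l, m ∈ Kset ↔ χ m = 1 := by
      intro m; simp [Kset]
    have hSmem : ∀ m : ZMod l, m ∈ Sset ↔ (m ≠ 0 ∧ χ m ≠ 1) := by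
      intro m; simp [Sset]
    have hK0 : ∀ m : ZMod l, χ m = 1 → m ≠ 0 := by
      intro m hm h0
      rw [h0, hχ0'] at hm
      exact zero_ne_one hm
    have h1 : Kset.card ≤ Sset.card := by
      refine Finset.card_le_card_of_injOn (fun x => (s : ZMod l) * x) ?_ ?_
      · intro x hx
        have hx' : χ x = 1 := (hKmem x).mp hx
        exact (hSmem _).mpr
          ⟨mul_ne_zero hs0 (hK0 x hx'), by rw [map_mul, hx', mul_one]; exact hs⟩
      · intro x _ y _ hxy
        exact mul_left_cancel₀ hs0 hxy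
    have h2 : Sset.card ≤ (Kset.erase 1).card := by
      refine Finset.card_le_card_of_injOn (fun m => (m - 1) / (m - U)) ?_ ?_
      · intro m hm
        have hm' : m ≠ 0 ∧ χ m ≠ 1 := (hSmem m).mp hm
        have hm1 : m ≠ 1 := fun h => hm'.2 (by rw [h, map_one])
        have hmU : m ≠ U := fun h => hm'.2 (by rw [h, hχU])
        have h := (hB χ hFχ m hm'.1 hm1 hmU).resolve_left hm'.2
        have hne : (m - 1) / (m - U) ≠ 1 := by
          intro h1
          rw [div_eq_one_iff_eq (sub_ne_zero.mpr hmU)] at h1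
          exact hU1 (by linear_combination h1)
        exact Finset.mem_coe.mpr (Finset.mem_erase.mpr ⟨hne, (hKmem _).mpr h⟩)
      · intro m hm m' hm' hmm
        have hm2 : m ≠ 0 ∧ χ m ≠ 1 := (hSmem m).mp (Finset.mem_coe.mp hm)
        have hm2' : m' ≠ 0 ∧ χ m' ≠ 1 := (hSmem m').mp (Finset.mem_coe.mp hm')
        have hmU : m - U ≠ 0 := sub_ne_zero.mpr (fun h => hm2.2 (by rw [h, hχU]))
        have hmU' : m' - U ≠ 0 := sub_ne_zero.mpr (fun h => hm2'.2 (by rw [h, hχU]))
        have h : (m - 1) / (m - U) = (m' - 1) / (m' - U) := hmm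
        rw [div_eq_div_iff hmU hmU'] at h
        have h3 : (1 - U) * (m - m') = 0 := by linear_combination h
        rcases mul_eq_zero.mp h3 with h4 | h4
        · exact absurd (sub_eq_zero.mp h4).symm hU1
        · exact sub_eq_zero.mp h4
    have h3 : (1 : ZMod l) ∈ Kset := (hKmem 1).mpr (map_one χ)
    have h4 := Finset.card_erase_lt_of_mem h3
    omega
  -- (D) Fourier inversion
  have hD : ∀ x₀ : ZMod l, x₀ ≠ 0 → (l.totient : K) * ι (f x₀) = F 1 := by
    intro x₀ hx₀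
    have hx₀u : IsUnit x₀ := isUnit_iff_ne_zero.mpr hx₀
    have h1 : ∑ χ : DirichletCharacter K l, F χ * χ x₀ = F 1 := by
      rw [Finset.sum_eq_single (1 : DirichletCharacter K l)]
      · rw [MulChar.one_apply hx₀u, mul_one]
      · intro χ _ hχ
        rw [hC χ hχ, zero_mul]
      · intro h; exact absurd (Finset.mem_univ _) h
    have h2 : ∑ χ : DirichletCharacter K l, F χ * χ x₀
        = ∑ x : ZMod l, ι (f x) * ∑ χ : DirichletCharacter K l, χ x⁻¹ * χ x₀ := by
      have h2a : ∀ χ : DirichletCharacter K l,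
          F χ * χ x₀ = ∑ x : ZMod l, ι (f x) * (χ x⁻¹ * χ x₀) := by
        intro χ
        rw [hF, Finset.sum_mul]
        exact Finset.sum_congr rfl (fun x _ => by ring)
      rw [Finset.sum_congr rfl (fun χ _ => h2a χ), Finset.sum_comm]
      exact Finset.sum_congr rfl (fun x _ => by rw [Finset.mul_sum])
    have h3 : ∑ x : ZMod l, ι (f x) * ∑ χ : DirichletCharacter K l, χ x⁻¹ * χ x₀
        = ι (f x₀) * (l.totient : K) := by
      rw [Finset.sum_eq_single x₀]
      · rw [DirichletCharacter.sum_char_inv_mul_char_eq K hx₀u x₀, if_pos rfl]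
      · intro x _ hx
        by_cases hx0 : x = 0
        · subst hx0
          have : ∑ χ : DirichletCharacter K l, χ (0 : ZMod l)⁻¹ * χ x₀ = 0 :=
            Finset.sum_eq_zero (fun χ _ => by rw [hχ0, zero_mul])
          rw [this, mul_zero]
        · rw [DirichletCharacter.sum_char_inv_mul_char_eq K (isUnit_iff_ne_zero.mpr hx0) x₀,
            if_neg hx, mul_zero]
      · intro h; exact absurd (Finset.mem_univ _) h
    rw [mul_comm, ← h3, ← h2, h1]
  intro x hx
  have h1 := hD x hx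
  have h2 := hD 1 one_ne_zero
  exact mul_left_cancel₀ htot (h1.trans h2.symm)

/-- **[FIN]** the finite lemma: `f : 𝔽_ℓ^× → 𝔽_p`, `p ∤ ℓ - 1`, `f (U x) = f x` for some `U ≠ 1`,
and `D_m f (λ_m x) = D_m f x` with `λ_m = (m - 1) / (m - U)` for all `m ∉ {0, 1, U}`
imply that `f` is constant. -/
theorem const_of_rel (hpl : ¬ p ∣ l - 1)
    (U : ZMod l) (hU0 : U ≠ 0) (hU1 : U ≠ 1)
    (f : ZMod l → ZMod p)
    (hU : ∀ x : ZMod l, x ≠ 0 → f (U * x) = f x)
    (hrel : ∀ m x : ZMod l, m ≠ 0 → m ≠ 1 → m ≠ U → x ≠ 0 →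
        f (m * ((m - 1) / (m - U)) * x) - f ((m - 1) / (m - U) * x) = f (m * x) - f x) :
    ∀ x : ZMod l, x ≠ 0 → f x = f 1 := by
  have hl : l.Prime := Fact.out
  have : NeZero l := ⟨hl.ne_zero⟩
  have hι : Function.Injective (algebraMap (ZMod p) (AlgebraicClosure (ZMod p))) :=
    (algebraMap (ZMod p) (AlgebraicClosure (ZMod p))).injective
  have hexp : Monoid.exponent (ZMod l)ˣ ∣ l - 1 := by
    have h := Group.exponent_dvd_card (G := (ZMod l)ˣ)
    rwa [ZMod.card_units] at h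
  have : NeZero ((Monoid.exponent (ZMod l)ˣ : ℕ) : ZMod p) := by
    refine ⟨fun h => hpl ?_⟩
    rw [ZMod.natCast_eq_zero_iff] at h
    exact h.trans hexp
  have htot : ((l.totient : ℕ) : AlgebraicClosure (ZMod p)) ≠ 0 := by
    rw [Nat.totient_prime hl]
    have h0 : ((l - 1 : ℕ) : ZMod p) ≠ 0 := by
      rw [Ne, ZMod.natCast_eq_zero_iff]; exact hpl
    have h1 : ((l - 1 : ℕ) : AlgebraicClosure (ZMod p))
        = algebraMap (ZMod p) (AlgebraicClosure (ZMod p)) ((l - 1 : ℕ) : ZMod p) := by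
      rw [map_natCast]
    rw [h1]
    exact fun h => h0 (hι (by rw [h, map_zero]))
  intro x hx
  exact hι (const_of_rel_aux (algebraMap (ZMod p) (AlgebraicClosure (ZMod p))) htot U hU0 hU1 f
    hU hrel x hx)

end Fermat.Agent.P7.CspFin
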