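/-
P7 leaf [CSP-GEN] + [CSP-PHI]  (helper17).

Step 6 of the elementary proof of the "abelianised congruence subgroup property" for
`G_N = {g ∈ SL₂(ℤ[1/q]) : N ∣ c}` (board row #2526): a function `ψ` on `G_N`, additive and
killing the unipotent elements, vanishes on every element whose upper-left entry is `≡ 1 mod N`
as soon as it vanishes on the elements with upper-left entry `± l0` for all large primes `l0`
with `p ∤ l0 - 1`.  Also the reduction map `ℤ[1/q] → ZMod l0`.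

Mathlib only.  The ring `A = ℤ[1/q]` enters through three elementary hypotheses.
-/
import Mathlib

set_option autoImplicit false

namespace Fermat.Agent.P7.CspGen

open Matrix

section Mat

variable {A : Type*} [CommRing A]

/-- The upper unipotent matrix `(1 x; 0 1)`. -/
def uMat (x : A) : Matrix.SpecialLinearGroup (Fin 2) A :=
  ⟨!![1, x; 0, 1], by simp [Matrix.det_fin_two]⟩

/-- The lower unipotent matrix `(1 0; t 1)`. -/
def lMat (t : A) : Matrix.SpecialLinearGroup (Fin 2) A :=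
  ⟨!![1, 0; t, 1], by simp [Matrix.det_fin_two]⟩

/-- The diagonal matrix `diag(v, v⁻¹)`. -/
def hMat (v : Aˣ) : Matrix.SpecialLinearGroup (Fin 2) A :=
  ⟨!![(v : A), 0; 0, ((v⁻¹ : Aˣ) : A)], by simp [Matrix.det_fin_two]⟩

@[simp] lemma uMat_00 (x : A) : uMat x 0 0 = 1 := rfl
@[simp] lemma uMat_01 (x : A) : uMat x 0 1 = x := rfl
@[simp] lemma uMat_10 (x : A) : uMat x 1 0 = 0 := rfl
@[simp] lemma uMat_11 (x : A) : uMat x 1 1 = 1 := rfl
@[simp] lemma lMat_00 (x : A) : lMat x 0 0 = 1 := rfl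
@[simp] lemma lMat_01 (x : A) : lMat x 0 1 = 0 := rfl
@[simp] lemma lMat_10 (x : A) : lMat x 1 0 = x := rfl
@[simp] lemma lMat_11 (x : A) : lMat x 1 1 = 1 := rfl
@[simp] lemma hMat_00 (v : Aˣ) : hMat v 0 0 = (v : A) := rfl
@[simp] lemma hMat_01 (v : Aˣ) : hMat v 0 1 = 0 := rfl
@[simp] lemma hMat_10 (v : Aˣ) : hMat v 1 0 = 0 := rfl
@[simp] lemma hMat_11 (v : Aˣ) : hMat v 1 1 = ((v⁻¹ : Aˣ) : A) := rfl

lemma mul_apply_two (g h : Matrix.SpecialLinearGroup (Fin 2) A) (i j : Fin 2) :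
    (g * h) i j = g i 0 * h 0 j + g i 1 * h 1 j := by
  rw [Matrix.SpecialLinearGroup.coe_mul, Matrix.mul_apply, Fin.sum_univ_two]

/-- The four-term identity `h(v) = l(v⁻¹ - 1) u(1) l(v - 1) u(-v⁻¹)`. -/
lemma hMat_eq (v : Aˣ) :
    hMat v = lMat (((v⁻¹ : Aˣ) : A) - 1) * uMat 1 * lMat ((v : A) - 1) *
      uMat (-((v⁻¹ : Aˣ) : A)) := by
  have h1 : (v : A) * ((v⁻¹ : Aˣ) : A) = 1 := by simp
  have h2 : ((v⁻¹ : Aˣ) : A) * (v : A) = 1 := by simp
  ext i j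
  fin_cases i <;> fin_cases j <;>
    simp only [Fin.zero_eta, Fin.mk_one, mul_apply_two, hMat_00, hMat_01, hMat_10, hMat_11,
      uMat_00, uMat_01, uMat_10, uMat_11, lMat_00, lMat_01, lMat_10, lMat_11]
  · ring
  · linear_combination h1
  · linear_combination (-1 : A) * h2
  · linear_combination ((v⁻¹ : Aˣ) : A) * h2

end Mat

section Psi

variable {A : Type*} [CommRing A]

lemma uMat_mem (N : A) (G : Subgroup (Matrix.SpecialLinearGroup (Fin 2) A))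
    (hG : ∀ g, g ∈ G ↔ N ∣ g 1 0) (x : A) : uMat x ∈ G :=
  (hG _).2 (by rw [uMat_10]; exact dvd_zero _)

lemma lMat_mem (N : A) (G : Subgroup (Matrix.SpecialLinearGroup (Fin 2) A))
    (hG : ∀ g, g ∈ G ↔ N ∣ g 1 0) {t : A} (ht : N ∣ t) : lMat t ∈ G :=
  (hG _).2 (by rw [lMat_10]; exact ht)

lemma hMat_mem (N : A) (G : Subgroup (Matrix.SpecialLinearGroup (Fin 2) A))
    (hG : ∀ g, g ∈ G ↔ N ∣ g 1 0) (v : Aˣ) : hMat v ∈ G :=
  (hG _).2 (by rw [hMat_10]; exact dvd_zero _)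

/-- `ψ` kills `h(v)` for a unit `v ≡ 1 mod N` (Step 1 of #2526). -/
lemma psi_hMat (N : A) (G : Subgroup (Matrix.SpecialLinearGroup (Fin 2) A))
    (hG : ∀ g, g ∈ G ↔ N ∣ g 1 0) {H : Type*} [AddCommGroup H] (ψ : G → H)
    (hmul : ∀ g h : G, ψ (g * h) = ψ g + ψ h)
    (hu : ∀ g : G, g.1 0 0 = 1 → g.1 1 0 = 0 → ψ g = 0)
    (hl : ∀ g : G, g.1 0 0 = 1 → g.1 0 1 = 0 → ψ g = 0)
    (v : Aˣ) (hv : N ∣ (v : A) - 1) : ψ ⟨hMat v, hMat_mem N G hG v⟩ = 0 := by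
  have hv' : N ∣ ((v⁻¹ : Aˣ) : A) - 1 := by
    have e : ((v⁻¹ : Aˣ) : A) - 1 = -(((v : A) - 1) * ((v⁻¹ : Aˣ) : A)) := by
      have h1 : (v : A) * ((v⁻¹ : Aˣ) : A) = 1 := by simp
      linear_combination h1
    rw [e]
    exact (dvd_neg).2 (Dvd.dvd.mul_right hv _)
  have e : (⟨hMat v, hMat_mem N G hG v⟩ : G) =
      ⟨lMat (((v⁻¹ : Aˣ) : A) - 1), lMat_mem N G hG hv'⟩ * ⟨uMat 1, uMat_mem N G hG 1⟩ *
        ⟨lMat ((v : A) - 1), lMat_mem N G hG hv⟩ *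
        ⟨uMat (-((v⁻¹ : Aˣ) : A)), uMat_mem N G hG _⟩ := Subtype.ext (hMat_eq v)
  have e1 : ψ ⟨lMat (((v⁻¹ : Aˣ) : A) - 1), lMat_mem N G hG hv'⟩ = 0 := hl _ rfl rfl
  have e2 : ψ ⟨uMat 1, uMat_mem N G hG 1⟩ = 0 := hu _ rfl rfl
  have e3 : ψ ⟨lMat ((v : A) - 1), lMat_mem N G hG hv⟩ = 0 := hl _ rfl rfl
  have e4 : ψ ⟨uMat (-((v⁻¹ : Aˣ) : A)), uMat_mem N G hG _⟩ = 0 := hu _ rfl rfl
  rw [e, hmul, hmul, hmul, e1, e2, e3, e4]
  simp

end Psi

section Arith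

variable {A : Type*} [CommRing A]

/-- Divisibility between integers in `A = ℤ[1/q]` descends to `ℤ` up to a power of `q`. -/
lemma int_dvd_of_dvd (q : ℕ)
    (hsurj : ∀ x : A, ∃ (n : ℤ) (k : ℕ), x * (q : A) ^ k = n)
    (hinj : Function.Injective ((↑) : ℤ → A))
    (a n : ℤ) (h : (a : A) ∣ (n : A)) : ∃ k : ℕ, a ∣ n * (q : ℤ) ^ k := by
  obtain ⟨x, hx⟩ := h
  obtain ⟨m, k, hm⟩ := hsurj x
  refine ⟨k, m, ?_⟩
  apply hinj
  push_cast
  rw [hx, mul_assoc, hm]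

/-- `N·A ∩ ℤ = N·ℤ` for `N` prime to `q`. -/
lemma natCast_dvd_of_dvd (q : ℕ)
    (hsurj : ∀ x : A, ∃ (n : ℤ) (k : ℕ), x * (q : A) ^ k = n)
    (hinj : Function.Injective ((↑) : ℤ → A))
    (N : ℕ) (hNq : N.Coprime q) (n : ℤ) (h : (N : A) ∣ (n : A)) : (N : ℤ) ∣ n := by
  obtain ⟨k, hk⟩ := int_dvd_of_dvd q hsurj hinj (N : ℤ) n (by exact_mod_cast h)
  have hc : IsCoprime (N : ℤ) ((q : ℤ) ^ k) :=
    IsCoprime.pow_right (Nat.isCoprime_iff_coprime.2 hNq)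
  exact hc.dvd_of_dvd_mul_right hk

/-- `A` is the localisation of `ℤ` away from `q`. -/
lemma isLocalization_away (q : ℕ) (hq : IsUnit (q : A))
    (hsurj : ∀ x : A, ∃ (n : ℤ) (k : ℕ), x * (q : A) ^ k = n)
    (hinj : Function.Injective ((↑) : ℤ → A)) :
    IsLocalization.Away (q : ℤ) A := by
  refine (isLocalization_iff _ _).2 ⟨?_, ?_, ?_⟩
  · rintro ⟨y, k, rfl⟩
    simpa using hq.pow k
  · intro z
    obtain ⟨n, k, h⟩ := hsurj z
    exact ⟨(n, ⟨(q : ℤ) ^ k, k, rfl⟩), by simpa using h⟩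
  · intro x y hxy
    have hxy' : x = y := hinj (by simpa using hxy)
    exact ⟨1, by rw [hxy']⟩

/-- Conversely, the three elementary hypotheses hold in any localisation of `ℤ` away from `q`
(`q ≠ 0`). -/
lemma hyps_of_isLocalization_away (q : ℕ) (hq0 : q ≠ 0) [IsLocalization.Away (q : ℤ) A] :
    IsUnit (q : A) ∧ (∀ x : A, ∃ (n : ℤ) (k : ℕ), x * (q : A) ^ k = n) ∧
      Function.Injective ((↑) : ℤ → A) := by
  refine ⟨?_, ?_, ?_⟩
  · have := IsLocalization.Away.algebraMap_isUnit (S := A) (q : ℤ)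
    simpa using this
  · intro x
    obtain ⟨⟨n, ⟨_, k, rfl⟩⟩, h⟩ := IsLocalization.surj (Submonoid.powers (q : ℤ)) x
    exact ⟨n, k, by simpa using h⟩
  · have h := IsLocalization.injective A (M := Submonoid.powers (q : ℤ))
      (powers_le_nonZeroDivisors_of_noZeroDivisors (by exact_mod_cast hq0))
    intro x y hxy
    exact h (by simpa using hxy)

end Arith

section Dirichlet

/-- Dirichlet + sign trick: for `n1` prime to `M ≠ 0` and an odd prime `p` there is `a = ± l0`,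
`l0` a prime `> B` with `p ∤ l0 - 1`, and `a ≡ n1 mod M`. -/
lemma exists_prime_sign (p : ℕ) (hp : p.Prime) (hp2 : p ≠ 2) (B : ℕ) (n1 M : ℤ) (hM : M ≠ 0)
    (hcop : IsCoprime n1 M) :
    ∃ a : ℤ, a.natAbs.Prime ∧ B < a.natAbs ∧ ¬ (p : ℤ) ∣ (a.natAbs : ℤ) - 1 ∧ M ∣ a - n1 := by
  have hpZ : Prime (p : ℤ) := Nat.prime_iff_prime_int.1 hp
  have hMn : M.natAbs ≠ 0 := by simpa using hM
  have hp2' : ¬ (p : ℤ) ∣ 2 := by
    intro h
    have h2 : p ∣ 2 := by exact_mod_cast h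
    exact hp2 ((Nat.prime_dvd_prime_iff_eq hp Nat.prime_two).1 h2)
  by_cases hpM : (p : ℤ) ∣ M
  · by_cases h1 : (p : ℤ) ∣ n1 - 1
    · -- `a = -l0`
      have hc : IsCoprime (-n1) ((M.natAbs : ℕ) : ℤ) := by
        rw [Int.natCast_natAbs]
        exact (hcop.neg_left).abs_right
      obtain ⟨l0, hl0B, hl0p, hl0⟩ := Nat.forall_exists_prime_gt_and_zmodEq B hMn hc
      have hd : M ∣ (l0 : ℤ) + n1 := by
        have := (Int.modEq_iff_dvd.1 hl0.symm)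
        rw [Int.natAbs_dvd] at this
        have e : (l0 : ℤ) + n1 = (l0 : ℤ) - -n1 := by ring
        rw [e]; exact this
      refine ⟨-(l0 : ℤ), by simpa using hl0p, by simpa using hl0B, ?_, ?_⟩
      · rw [Int.natAbs_neg, Int.natAbs_natCast]
        intro hd1
        apply hp2'
        have h3 : (p : ℤ) ∣ (l0 : ℤ) + n1 := hpM.trans hd
        have e : (2 : ℤ) = ((l0 : ℤ) + n1) - ((l0 : ℤ) - 1) - (n1 - 1) := by ring
        rw [e]
        exact dvd_sub (dvd_sub h3 hd1) h1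
      · have e : -(l0 : ℤ) - n1 = -((l0 : ℤ) + n1) := by ring
        rw [e]; exact (dvd_neg).2 hd
    · -- `a = l0 ≡ n1`
      have hc : IsCoprime n1 ((M.natAbs : ℕ) : ℤ) := by
        rw [Int.natCast_natAbs]
        exact hcop.abs_right
      obtain ⟨l0, hl0B, hl0p, hl0⟩ := Nat.forall_exists_prime_gt_and_zmodEq B hMn hc
      have hd : M ∣ (l0 : ℤ) - n1 := by
        have := (Int.modEq_iff_dvd.1 hl0.symm)
        rw [Int.natAbs_dvd] at this
        exact this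
      refine ⟨(l0 : ℤ), by simpa using hl0p, by simpa using hl0B, ?_, hd⟩
      rw [Int.natAbs_natCast]
      intro hd1
      apply h1
      have e : n1 - 1 = ((l0 : ℤ) - 1) - ((l0 : ℤ) - n1) := by ring
      rw [e]
      exact dvd_sub hd1 (hpM.trans hd)
  · -- `p ∤ M`: impose `l0 ≡ 2 mod p`
    have hMp : IsCoprime M (p : ℤ) := (hpZ.coprime_iff_not_dvd.2 hpM).symm
    obtain ⟨u, w, huw⟩ := hMp
    -- `c = n1 + M * (u * (2 - n1)) ≡ 2 mod p`
    set c : ℤ := n1 + M * (u * (2 - n1)) with hc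
    have hc2 : (p : ℤ) ∣ c - 2 := ⟨-(w * (2 - n1)), by rw [hc]; linear_combination (2 - n1) * huw⟩
    have hcM : IsCoprime c M := by
      obtain ⟨x, y, hxy⟩ := hcop
      exact ⟨x, y - x * (u * (2 - n1)), by rw [hc]; linear_combination hxy⟩
    have hcp : IsCoprime c (p : ℤ) := by
      apply IsCoprime.symm
      rw [hpZ.coprime_iff_not_dvd]
      intro h
      apply hp2'
      have e : (2 : ℤ) = c - (c - 2) := by ring
      rw [e]; exact dvd_sub h hc2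
    have hMpn : (M * (p : ℤ)).natAbs ≠ 0 := by
      simpa using And.intro hM hp.ne_zero
    have hcc : IsCoprime c (((M * (p : ℤ)).natAbs : ℕ) : ℤ) := by
      rw [Int.natCast_natAbs]
      exact (hcM.mul_right hcp).abs_right
    obtain ⟨l0, hl0B, hl0p, hl0⟩ := Nat.forall_exists_prime_gt_and_zmodEq B hMpn hcc
    have hd : M * (p : ℤ) ∣ (l0 : ℤ) - c := by
      have := (Int.modEq_iff_dvd.1 hl0.symm)
      rw [Int.natAbs_dvd] at this
      exact this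
    refine ⟨(l0 : ℤ), by simpa using hl0p, by simpa using hl0B, ?_, ?_⟩
    · rw [Int.natAbs_natCast]
      intro hd1
      -- `p ∣ l0 - 1`, `p ∣ l0 - c`, `p ∣ c - 2` ⇒ `p ∣ 1`
      have h3 : (p : ℤ) ∣ (l0 : ℤ) - c := (dvd_mul_left _ _).trans hd
      have h4 : (p : ℤ) ∣ 1 := by
        have e : (1 : ℤ) = ((l0 : ℤ) - 1) - (((l0 : ℤ) - c) + (c - 2)) := by ring
        rw [e]
        exact dvd_sub hd1 (dvd_add h3 hc2)
      exact hpZ.not_dvd_one h4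
    · have h3 : M ∣ (l0 : ℤ) - c := (dvd_mul_right _ _).trans hd
      have e : (l0 : ℤ) - n1 = ((l0 : ℤ) - c) + M * (u * (2 - n1)) := by rw [hc]; ring
      rw [e]
      exact dvd_add h3 (dvd_mul_right _ _)

end Dirichlet

section Main

variable {A : Type*} [CommRing A]

/-- **[CSP-GEN]** (Step 6 of #2526).  Let `A = ℤ[1/q]`, `G = {g ∈ SL₂(A) : N ∣ c}`, and let
`ψ : G → H` be additive and kill the upper and lower unipotent elements of `G`.  If `ψ` vanishes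
on all elements of `G` with upper-left entry `a = ± l0`, `l0` a prime `> B` with `p ∤ l0 - 1`
and `a ≡ 1 mod N`, then `ψ` vanishes on every element with upper-left entry `≡ 1 mod N`. -/
theorem psi_eq_zero_of_good (q : ℕ) (hq : IsUnit (q : A))
    (hsurj : ∀ x : A, ∃ (n : ℤ) (k : ℕ), x * (q : A) ^ k = n)
    (hinj : Function.Injective ((↑) : ℤ → A))
    (hqp : q.Prime) (N : ℕ) (hN : N ≠ 0) (hNq : N.Coprime q)
    (G : Subgroup (Matrix.SpecialLinearGroup (Fin 2) A)) (hG : ∀ g, g ∈ G ↔ (N : A) ∣ g 1 0)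
    {H : Type*} [AddCommGroup H] (ψ : G → H) (hmul : ∀ g h : G, ψ (g * h) = ψ g + ψ h)
    (hu : ∀ g : G, g.1 0 0 = 1 → g.1 1 0 = 0 → ψ g = 0)
    (hl : ∀ g : G, g.1 0 0 = 1 → g.1 0 1 = 0 → ψ g = 0)
    (p : ℕ) (hp : p.Prime) (hp2 : p ≠ 2) (B : ℕ)
    (hgood : ∀ a : ℤ, a.natAbs.Prime → B < a.natAbs → ¬ (p : ℤ) ∣ (a.natAbs : ℤ) - 1 →
      a ≡ 1 [ZMOD (N : ℤ)] → ∀ g : G, g.1 0 0 = (a : A) → ψ g = 0) :
    ∀ g : G, (N : A) ∣ g.1 0 0 - 1 → ψ g = 0 := by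
  intro g hg
  have hA1 : (1 : A) ≠ 0 := by
    intro h
    have h' : ((1 : ℤ) : A) = ((0 : ℤ) : A) := by simpa using h
    exact one_ne_zero (hinj h')
  -- Step 1: make the upper-left entry an integer
  obtain ⟨n0, k, hn0⟩ := hsurj (g.1 0 0)
  obtain ⟨K, hK⟩ : ∃ K, K = N.totient * k := ⟨_, rfl⟩
  have hkK : k ≤ K := by
    rw [hK]
    exact Nat.le_mul_of_pos_left k (Nat.totient_pos.2 (Nat.pos_of_ne_zero hN))
  obtain ⟨v, hv⟩ : ∃ v : Aˣ, (v : A) = (q : A) ^ K := ⟨hq.unit ^ K, by simp⟩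
  have hvN : (N : ℤ) ∣ (q : ℤ) ^ K - 1 := by
    have h1 : q ^ N.totient ≡ 1 [MOD N] := Nat.ModEq.pow_totient hNq.symm
    have h2 : q ^ K ≡ 1 [MOD N] := by
      rw [hK, pow_mul]
      simpa using h1.pow k
    have h3 := (Nat.modEq_iff_dvd.1 h2.symm)
    simpa using h3
  have hvNA : (N : A) ∣ (v : A) - 1 := by
    rw [hv]
    obtain ⟨t, ht⟩ := hvN
    refine ⟨(t : A), ?_⟩
    have h3 := congrArg (Int.cast : ℤ → A) ht
    push_cast at h3
    exact h3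
  have hh0 : ψ ⟨hMat v, hMat_mem (N : A) G hG v⟩ = 0 :=
    psi_hMat (N : A) G hG ψ hmul hu hl v hvNA
  obtain ⟨g1, hg1⟩ : ∃ g1 : G, g1 = g * ⟨hMat v, hMat_mem (N : A) G hG v⟩ := ⟨_, rfl⟩
  have hψ1 : ψ g1 = ψ g := by rw [hg1, hmul, hh0, add_zero]
  obtain ⟨n1, hn1⟩ : ∃ n1 : ℤ, n1 = n0 * (q : ℤ) ^ (K - k) := ⟨_, rfl⟩
  have hg1_00' : g1.1 0 0 = g.1 0 0 * (v : A) := by
    rw [hg1]
    show (g.1 * hMat v) 0 0 = _
    rw [mul_apply_two, hMat_00, hMat_10, mul_zero, add_zero]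
  have hg1_00 : g1.1 0 0 = (n1 : A) := by
    rw [hg1_00', hv, hn1]
    push_cast
    rw [← hn0, mul_assoc, ← pow_add, Nat.add_sub_of_le hkK]
  have hn1N : (N : ℤ) ∣ n1 - 1 := by
    apply natCast_dvd_of_dvd q hsurj hinj N hNq
    push_cast
    rw [← hg1_00, hg1_00']
    have e : g.1 0 0 * (v : A) - 1 = (g.1 0 0 - 1) * (v : A) + ((v : A) - 1) := by ring
    rw [e]
    exact dvd_add (Dvd.dvd.mul_right hg _) hvNA
  -- Step 2: make the upper-right entry nonzero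
  obtain ⟨x, hx⟩ : ∃ x : A, g1.1 0 0 * x + g1.1 0 1 ≠ 0 := by
    by_cases hb : g1.1 0 1 = 0
    · refine ⟨1, ?_⟩
      rw [hb, add_zero, mul_one]
      intro h0
      have hdet := Matrix.SpecialLinearGroup.det_coe g1.1
      rw [Matrix.det_fin_two] at hdet
      apply hA1
      rw [← hdet]
      have h0' : (g1.1 : Matrix (Fin 2) (Fin 2) A) 0 0 = 0 := h0
      have hb' : (g1.1 : Matrix (Fin 2) (Fin 2) A) 0 1 = 0 := hb
      rw [h0', hb']
      ring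
    · exact ⟨0, by simpa using hb⟩
  obtain ⟨g2, hg2⟩ : ∃ g2 : G, g2 = g1 * ⟨uMat x, uMat_mem (N : A) G hG x⟩ := ⟨_, rfl⟩
  have hψ2 : ψ g2 = ψ g1 := by
    rw [hg2, hmul, hu ⟨uMat x, uMat_mem (N : A) G hG x⟩ rfl rfl, add_zero]
  have hg2_00 : g2.1 0 0 = (n1 : A) := by
    rw [hg2]
    show (g1.1 * uMat x) 0 0 = _
    rw [mul_apply_two, uMat_00, uMat_10, mul_one, mul_zero, add_zero, hg1_00]
  have hg2_01 : g2.1 0 1 ≠ 0 := by
    rw [hg2]
    show (g1.1 * uMat x) 0 1 ≠ 0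
    rw [mul_apply_two, uMat_01, uMat_11, mul_one]
    exact hx
  -- Step 3: write the upper-right entry as `q^(s-j) * b1`, `q ∤ b1`
  obtain ⟨m, j, hm⟩ := hsurj (g2.1 0 1)
  have hm0 : m ≠ 0 := by
    rintro rfl
    apply hg2_01
    exact ((hq.pow j).mul_left_eq_zero).1 (by simpa using hm)
  have hfin : FiniteMultiplicity (q : ℤ) m :=
    Int.finiteMultiplicity_iff.2 ⟨by simpa using hqp.ne_one, hm0⟩
  obtain ⟨b1, hb1, hqb1⟩ := hfin.exists_eq_pow_mul_and_not_dvd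
  obtain ⟨s, hs⟩ : ∃ s : ℕ, s = multiplicity (q : ℤ) m := ⟨_, rfl⟩
  rw [← hs] at hb1
  have hb10 : b1 ≠ 0 := by
    rintro rfl
    exact hqb1 (dvd_zero _)
  have hm' : g2.1 0 1 * (q : A) ^ j = (q : A) ^ s * (b1 : A) := by
    rw [hm, hb1]
    push_cast
    rfl
  -- Step 4: coprimality in `ℤ`
  have hcopN : IsCoprime n1 (N : ℤ) := by
    obtain ⟨t, ht⟩ := hn1N
    exact ⟨1, -t, by linear_combination ht⟩
  have hcopb : IsCoprime n1 b1 := by
    rw [Int.isCoprime_iff_gcd_eq_one]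
    by_contra hne
    obtain ⟨r, hr, hrd⟩ := Nat.exists_prime_and_dvd hne
    have hr1 : (r : ℤ) ∣ n1 := (Int.natCast_dvd_natCast.2 hrd).trans (Int.gcd_dvd_left _ _)
    have hr2 : (r : ℤ) ∣ b1 := (Int.natCast_dvd_natCast.2 hrd).trans (Int.gcd_dvd_right _ _)
    have hrq : r ≠ q := by
      rintro rfl
      exact hqb1 hr2
    obtain ⟨n1', hn1'⟩ := hr1
    obtain ⟨b1', hb1'⟩ := hr2
    have hdet := Matrix.SpecialLinearGroup.det_coe g2.1
    rw [Matrix.det_fin_two] at hdet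
    have hdet' : g2.1 0 0 * g2.1 1 1 - g2.1 0 1 * g2.1 1 0 = 1 := hdet
    have hdvd : ((r : ℤ) : A) ∣ (((q : ℤ) ^ j : ℤ) : A) := by
      refine ⟨(n1' : A) * g2.1 1 1 * (q : A) ^ j - (q : A) ^ s * (b1' : A) * g2.1 1 0, ?_⟩
      have e1 : (n1 : A) = ((r : ℤ) : A) * (n1' : A) := by rw [hn1']; push_cast; ring
      have e2 : (b1 : A) = ((r : ℤ) : A) * (b1' : A) := by rw [hb1']; push_cast; ring
      rw [hg2_00, e1] at hdet'
      rw [e2] at hm'
      push_cast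
      push_cast at hdet' hm'
      linear_combination (-(q : A) ^ j) * hdet' - g2.1 1 0 * hm'
    obtain ⟨i, hi⟩ := int_dvd_of_dvd q hsurj hinj (r : ℤ) ((q : ℤ) ^ j) hdvd
    have h3 : (r : ℤ) ∣ (q : ℤ) ^ (j + i) := by rw [pow_add]; exact hi
    have h4 : r ∣ q ^ (j + i) := by exact_mod_cast h3
    exact hrq ((Nat.prime_dvd_prime_iff_eq hr hqp).1 (hr.dvd_of_dvd_pow h4))
  have hcop : IsCoprime n1 ((N : ℤ) * b1) := hcopN.mul_right hcopb
  -- Step 5: Dirichlet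
  obtain ⟨a, haP, haB, hap, haM⟩ := exists_prime_sign p hp hp2 B n1 ((N : ℤ) * b1)
    (mul_ne_zero (by exact_mod_cast hN) hb10) hcop
  obtain ⟨y', hy'⟩ := haM
  -- Step 6: move the upper-left entry to `a`
  obtain ⟨w, hw⟩ : ∃ w : Aˣ, (w : A) = (q : A) ^ s := ⟨hq.unit ^ s, by simp⟩
  have hww : (w : A) * ((w⁻¹ : Aˣ) : A) = 1 := by simp
  obtain ⟨y, hy⟩ : ∃ y : A, y = (q : A) ^ j * ((w⁻¹ : Aˣ) : A) * (y' : A) := ⟨_, rfl⟩
  have hmem : lMat ((N : A) * y) ∈ G := lMat_mem (N : A) G hG (dvd_mul_right _ _)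
  obtain ⟨g3, hg3⟩ : ∃ g3 : G, g3 = g2 * ⟨lMat ((N : A) * y), hmem⟩ := ⟨_, rfl⟩
  have hψ3 : ψ g3 = ψ g2 := by
    rw [hg3, hmul, hl ⟨lMat ((N : A) * y), hmem⟩ rfl rfl, add_zero]
  have ha' : (a : A) = (n1 : A) + (N : A) * (b1 : A) * (y' : A) := by
    have h3 := congrArg (Int.cast : ℤ → A) hy'
    push_cast at h3
    linear_combination h3
  have hg3_00 : g3.1 0 0 = (a : A) := by
    rw [hg3]
    show (g2.1 * lMat ((N : A) * y)) 0 0 = _
    rw [mul_apply_two, lMat_00, lMat_10, mul_one, hg2_00, ha', hy]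
    rw [← hw] at hm'
    linear_combination (N : A) * ((w⁻¹ : Aˣ) : A) * (y' : A) * hm' +
      (N : A) * (b1 : A) * (y' : A) * hww
  have haN : a ≡ 1 [ZMOD (N : ℤ)] := by
    rw [Int.modEq_iff_dvd]
    obtain ⟨t, ht⟩ := hn1N
    exact ⟨-t - b1 * y', by linear_combination (-1 : ℤ) * hy' - ht⟩
  rw [← hψ1, ← hψ2, ← hψ3]
  exact hgood a haP haB hap haN g3 hg3_00

/-- **[CSP-PHI]** For `A = ℤ[1/q]` and `a = ± l0`, `l0` a prime not dividing `q`: reduction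
modulo `a` is a surjective ring homomorphism `A → ZMod l0` with kernel `a·A`. -/
theorem exists_phi (q : ℕ) (hq : IsUnit (q : A))
    (hsurj : ∀ x : A, ∃ (n : ℤ) (k : ℕ), x * (q : A) ^ k = n)
    (hinj : Function.Injective ((↑) : ℤ → A))
    (a : ℤ) (l0 : ℕ) [Fact l0.Prime] (ha : a.natAbs = l0) (hl0q : ¬ l0 ∣ q) :
    ∃ φ : A →+* ZMod l0, Function.Surjective φ ∧ ∀ x, φ x = 0 ↔ (a : A) ∣ x := by
  have : IsLocalization.Away (q : ℤ) A := isLocalization_away q hq hsurj hinj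
  have hq0 : (q : ZMod l0) ≠ 0 := fun h => hl0q ((ZMod.natCast_eq_zero_iff q l0).1 h)
  have hunit : IsUnit ((Int.castRingHom (ZMod l0)) (q : ℤ)) := by
    simp only [eq_intCast, Int.cast_natCast]
    exact isUnit_iff_ne_zero.2 hq0
  obtain ⟨φ, hφ⟩ : ∃ φ : A →+* ZMod l0, φ = IsLocalization.Away.lift (q : ℤ) hunit := ⟨_, rfl⟩
  have ha0 : (a : ZMod l0) = 0 := by
    rw [ZMod.intCast_zmod_eq_zero_iff_dvd, ← ha, Int.natAbs_dvd]
  refine ⟨φ, ?_, ?_⟩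
  · intro z
    obtain ⟨n, rfl⟩ := ZMod.intCast_surjective z
    exact ⟨(n : A), map_intCast φ n⟩
  · intro x
    constructor
    · intro hx
      obtain ⟨n, k, hn⟩ := hsurj x
      have h1 : φ x * (q : ZMod l0) ^ k = (n : ZMod l0) := by
        have h2 := congrArg φ hn
        rw [map_mul, map_pow, map_natCast, map_intCast] at h2
        exact h2
      rw [hx, zero_mul] at h1
      have h3 : (l0 : ℤ) ∣ n := (ZMod.intCast_zmod_eq_zero_iff_dvd n l0).1 h1.symm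
      rw [← ha, Int.natAbs_dvd] at h3
      obtain ⟨m, rfl⟩ := h3
      obtain ⟨w, hw⟩ : ∃ w : Aˣ, (w : A) = (q : A) ^ k := ⟨hq.unit ^ k, by simp⟩
      have hww : (w : A) * ((w⁻¹ : Aˣ) : A) = 1 := by simp
      refine ⟨(m : A) * ((w⁻¹ : Aˣ) : A), ?_⟩
      rw [← hw] at hn
      push_cast at hn
      linear_combination ((w⁻¹ : Aˣ) : A) * hn - x * hww
    · rintro ⟨y, rfl⟩
      rw [map_mul, map_intCast, ha0, zero_mul]

end Main

end Fermat.Agent.P7.CspGen
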