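import Mathlib

namespace Fermat.Agent.P7.CspTri

open Matrix

set_option linter.unusedSimpArgs false

variable {A : Type*} [CommRing A]

/-- upper unipotent -/
def uMat (x : A) : Matrix.SpecialLinearGroup (Fin 2) A :=
  ⟨!![1, x; 0, 1], by simp [Matrix.det_fin_two_of]⟩

/-- lower unipotent -/
def lMat (t : A) : Matrix.SpecialLinearGroup (Fin 2) A :=
  ⟨!![1, 0; t, 1], by simp [Matrix.det_fin_two_of]⟩

/-- diagonal -/
def hMat (v : Aˣ) : Matrix.SpecialLinearGroup (Fin 2) A :=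
  ⟨!![(v : A), 0; 0, ((v⁻¹ : Aˣ) : A)], by simp [Matrix.det_fin_two_of]⟩

theorem det_eq (g : Matrix.SpecialLinearGroup (Fin 2) A) :
    g 0 0 * g 1 1 - g 0 1 * g 1 0 = 1 := by
  have := g.det_coe; rwa [Matrix.det_fin_two] at this

theorem mul_00 (g h : Matrix.SpecialLinearGroup (Fin 2) A) :
    (g * h) 0 0 = g 0 0 * h 0 0 + g 0 1 * h 1 0 := by
  simp [Matrix.mul_apply, Fin.sum_univ_two]

theorem mul_01 (g h : Matrix.SpecialLinearGroup (Fin 2) A) :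
    (g * h) 0 1 = g 0 0 * h 0 1 + g 0 1 * h 1 1 := by
  simp [Matrix.mul_apply, Fin.sum_univ_two]

theorem mul_10 (g h : Matrix.SpecialLinearGroup (Fin 2) A) :
    (g * h) 1 0 = g 1 0 * h 0 0 + g 1 1 * h 1 0 := by
  simp [Matrix.mul_apply, Fin.sum_univ_two]

theorem mul_11 (g h : Matrix.SpecialLinearGroup (Fin 2) A) :
    (g * h) 1 1 = g 1 0 * h 0 1 + g 1 1 * h 1 1 := by
  simp [Matrix.mul_apply, Fin.sum_univ_two]

theorem inv_00 (g : Matrix.SpecialLinearGroup (Fin 2) A) : (g⁻¹) 0 0 = g 1 1 := by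
  simp [Matrix.adjugate_fin_two]

theorem inv_01 (g : Matrix.SpecialLinearGroup (Fin 2) A) : (g⁻¹) 0 1 = - g 0 1 := by
  simp [Matrix.adjugate_fin_two]

theorem inv_10 (g : Matrix.SpecialLinearGroup (Fin 2) A) : (g⁻¹) 1 0 = - g 1 0 := by
  simp [Matrix.adjugate_fin_two]

theorem inv_11 (g : Matrix.SpecialLinearGroup (Fin 2) A) : (g⁻¹) 1 1 = g 0 0 := by
  simp [Matrix.adjugate_fin_two]

@[simp] theorem uMat_00 (x : A) : uMat x 0 0 = 1 := rfl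
@[simp] theorem uMat_01 (x : A) : uMat x 0 1 = x := rfl
@[simp] theorem uMat_10 (x : A) : uMat x 1 0 = 0 := rfl
@[simp] theorem uMat_11 (x : A) : uMat x 1 1 = 1 := rfl
@[simp] theorem lMat_00 (x : A) : lMat x 0 0 = 1 := rfl
@[simp] theorem lMat_01 (x : A) : lMat x 0 1 = 0 := rfl
@[simp] theorem lMat_10 (x : A) : lMat x 1 0 = x := rfl
@[simp] theorem lMat_11 (x : A) : lMat x 1 1 = 1 := rfl
@[simp] theorem hMat_00 (v : Aˣ) : hMat v 0 0 = (v : A) := rfl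
@[simp] theorem hMat_01 (v : Aˣ) : hMat v 0 1 = 0 := rfl
@[simp] theorem hMat_10 (v : Aˣ) : hMat v 1 0 = 0 := rfl
@[simp] theorem hMat_11 (v : Aˣ) : hMat v 1 1 = ((v⁻¹ : Aˣ) : A) := rfl

theorem sl_ext {g h : Matrix.SpecialLinearGroup (Fin 2) A} (h00 : g 0 0 = h 0 0)
    (h01 : g 0 1 = h 0 1) (h10 : g 1 0 = h 1 0) (h11 : g 1 1 = h 1 1) : g = h := by
  apply Subtype.ext
  ext i j
  fin_cases i <;> fin_cases j <;> assumption

theorem hMat_eq (v : Aˣ) :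
    hMat v = lMat (((v⁻¹ : Aˣ) : A) - 1) * uMat 1 * lMat ((v : A) - 1) * uMat (-((v⁻¹ : Aˣ) : A)) := by
  have h1 : (v : A) * ((v⁻¹ : Aˣ) : A) = 1 := by simp
  apply sl_ext
  · simp only [mul_00, mul_01, mul_10, mul_11, uMat_00, uMat_01, uMat_10, uMat_11, lMat_00, lMat_01,
      lMat_10, lMat_11, hMat_00]
    ring
  · simp only [mul_00, mul_01, mul_10, mul_11, uMat_00, uMat_01, uMat_10, uMat_11, lMat_00, lMat_01,
      lMat_10, lMat_11, hMat_01]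
    linear_combination (1 : A) * h1
  · simp only [mul_00, mul_01, mul_10, mul_11, uMat_00, uMat_01, uMat_10, uMat_11, lMat_00, lMat_01,
      lMat_10, lMat_11, hMat_10]
    linear_combination (-1 : A) * h1
  · simp only [mul_00, mul_01, mul_10, mul_11, uMat_00, uMat_01, uMat_10, uMat_11, lMat_00, lMat_01,
      lMat_10, lMat_11, hMat_11]
    linear_combination (((v⁻¹ : Aˣ) : A)) * h1


theorem conj_00 (w : Aˣ) (g : Matrix.SpecialLinearGroup (Fin 2) A) :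
    (hMat w * g * (hMat w)⁻¹) 0 0 = g 0 0 := by
  have h1 : (w : A) * ((w⁻¹ : Aˣ) : A) = 1 := by simp
  simp only [mul_00, mul_01, inv_00, inv_10, hMat_00, hMat_01, hMat_10, hMat_11]
  linear_combination (g 0 0) * h1

theorem conj_01 (w : Aˣ) (g : Matrix.SpecialLinearGroup (Fin 2) A) :
    (hMat w * g * (hMat w)⁻¹) 0 1 = (w : A) ^ 2 * g 0 1 := by
  simp only [mul_00, mul_01, inv_01, inv_11, hMat_00, hMat_01, hMat_10, hMat_11]
  ring

theorem conj_10 (w : Aˣ) (g : Matrix.SpecialLinearGroup (Fin 2) A) :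
    (hMat w * g * (hMat w)⁻¹) 1 0 = ((w⁻¹ : Aˣ) : A) ^ 2 * g 1 0 := by
  simp only [mul_10, mul_11, inv_00, inv_10, hMat_00, hMat_01, hMat_10, hMat_11]
  ring

variable {H : Type*} [AddCommGroup H]

/-- The hypotheses on the symbol, in entry form: additive on the subgroup `N ∣ c`, trivial on
upper unipotent matrices and on lower unipotent matrices of the subgroup. -/
structure Sym (N : A) (Ψ : Matrix.SpecialLinearGroup (Fin 2) A → H) : Prop where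
  mul : ∀ g h : Matrix.SpecialLinearGroup (Fin 2) A, N ∣ g 1 0 → N ∣ h 1 0 →
    Ψ (g * h) = Ψ g + Ψ h
  upper : ∀ g : Matrix.SpecialLinearGroup (Fin 2) A, g 0 0 = 1 → g 1 0 = 0 → Ψ g = 0
  lower : ∀ g : Matrix.SpecialLinearGroup (Fin 2) A, N ∣ g 1 0 → g 0 0 = 1 → g 0 1 = 0 → Ψ g = 0

theorem dvd_mul10 {N : A} {g h : Matrix.SpecialLinearGroup (Fin 2) A} (hg : N ∣ g 1 0)
    (hh : N ∣ h 1 0) : N ∣ (g * h) 1 0 := by
  rw [mul_10]; exact dvd_add (Dvd.dvd.mul_right hg _) (Dvd.dvd.mul_left hh _)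

theorem dvd_inv10 {N : A} {g : Matrix.SpecialLinearGroup (Fin 2) A} (hg : N ∣ g 1 0) :
    N ∣ (g⁻¹) 1 0 := by
  rw [inv_10]; exact (dvd_neg).2 hg

theorem dvd_u10 (N x : A) : N ∣ uMat x 1 0 := by simp

theorem dvd_l10 {N t : A} (ht : N ∣ t) : N ∣ lMat t 1 0 := by simpa using ht

theorem dvd_h10 (N : A) (v : Aˣ) : N ∣ hMat v 1 0 := by simp

namespace Sym

variable {N : A} {Ψ : Matrix.SpecialLinearGroup (Fin 2) A → H} (S : Sym N Ψ)

include S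

theorem map_u (x : A) : Ψ (uMat x) = 0 := S.upper _ rfl rfl

theorem map_l {t : A} (ht : N ∣ t) : Ψ (lMat t) = 0 := S.lower _ (dvd_l10 ht) rfl rfl

theorem map_one : Ψ 1 = 0 := S.upper _ (by simp) (by simp)

theorem map_inv {g : Matrix.SpecialLinearGroup (Fin 2) A} (hg : N ∣ g 1 0) : Ψ g⁻¹ = - Ψ g := by
  have := S.mul g g⁻¹ hg (dvd_inv10 hg)
  rw [mul_inv_cancel, S.map_one] at this
  exact eq_neg_of_add_eq_zero_right this.symm

theorem rowext {g g' : Matrix.SpecialLinearGroup (Fin 2) A} (hg : N ∣ g 1 0) (hg' : N ∣ g' 1 0)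
    (h0 : g' 0 0 = g 0 0) (h1 : g' 0 1 = g 0 1) : Ψ g' = Ψ g := by
  have ht : Ψ (g' * g⁻¹) = 0 := by
    apply S.lower _ (dvd_mul10 hg' (dvd_inv10 hg))
    · rw [mul_00, inv_00, inv_10, h0, h1]; linear_combination det_eq g
    · rw [mul_01, inv_01, inv_11, h0, h1]; ring
  have := S.mul (g' * g⁻¹) g (dvd_mul10 hg' (dvd_inv10 hg)) hg
  rw [inv_mul_cancel_right, ht, zero_add] at this
  exact this

theorem ext_mod {g g' : Matrix.SpecialLinearGroup (Fin 2) A} (hg : N ∣ g 1 0) (hg' : N ∣ g' 1 0)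
    (h0 : g' 0 0 = g 0 0) (h1 : g 0 0 ∣ g' 0 1 - g 0 1) : Ψ g' = Ψ g := by
  obtain ⟨x, hx⟩ := h1
  have h2 : Ψ g' = Ψ (g * uMat x) := by
    apply S.rowext (dvd_mul10 hg (dvd_u10 N x)) hg'
    · rw [mul_00]; simp [h0]
    · rw [mul_01]; simp only [uMat_01, uMat_11]; linear_combination hx
  rw [h2, S.mul g (uMat x) hg (dvd_u10 N x), S.map_u, add_zero]

theorem map_h {v : Aˣ} (hv : N ∣ (v : A) - 1) : Ψ (hMat v) = 0 := by
  have hv' : N ∣ ((v⁻¹ : Aˣ) : A) - 1 := by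
    have : ((v⁻¹ : Aˣ) : A) - 1 = -((v⁻¹ : Aˣ) : A) * ((v : A) - 1) := by
      have h1 : (v : A) * ((v⁻¹ : Aˣ) : A) = 1 := by simp
      linear_combination (1 : A) * h1
    rw [this]; exact Dvd.dvd.mul_left hv _
  rw [hMat_eq, S.mul _ _ (dvd_mul10 (dvd_mul10 (dvd_l10 hv') (dvd_u10 N 1)) (dvd_l10 hv))
      (dvd_u10 N _),
    S.mul _ _ (dvd_mul10 (dvd_l10 hv') (dvd_u10 N 1)) (dvd_l10 hv),
    S.mul _ _ (dvd_l10 hv') (dvd_u10 N 1), S.map_u, S.map_u, S.map_l hv, S.map_l hv']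
  simp

theorem map_conj (w : Aˣ) {g : Matrix.SpecialLinearGroup (Fin 2) A} (hg : N ∣ g 1 0) :
    Ψ (hMat w * g * (hMat w)⁻¹) = Ψ g := by
  rw [S.mul _ _ (dvd_mul10 (dvd_h10 N w) hg) (dvd_inv10 (dvd_h10 N w)),
    S.mul _ _ (dvd_h10 N w) hg, S.map_inv (dvd_h10 N w)]
  abel

/-- The triple product relation: three elements with the same upper-left corner `a` whose
product `g1 * g2⁻¹ * g3` has upper-left corner `a * w ^ 2`. -/
theorem triple {g1 g2 g3 g4 : Matrix.SpecialLinearGroup (Fin 2) A}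
    (h1 : N ∣ g1 1 0) (h2 : N ∣ g2 1 0) (h3 : N ∣ g3 1 0) (h4 : N ∣ g4 1 0)
    {a : A} (a1 : g1 0 0 = a) (a2 : g2 0 0 = a) (a3 : g3 0 0 = a) (a4 : g4 0 0 = a)
    (w : Aˣ) (hw : N ∣ (w : A) ^ 2 - 1)
    (hm : (g1 0 1 - g2 0 1) * (g3 1 0 - g2 1 0) = (w : A) ^ 2 - 1)
    (hB : a ∣ g4 0 1 * g2 0 1 - g1 0 1 * g3 0 1) :
    Ψ g4 = Ψ g1 - Ψ g2 + Ψ g3 := by
  have hww : (w : A) * ((w⁻¹ : Aˣ) : A) = 1 := by simp
  have e2 := det_eq g2
  rw [a2] at e2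
  set Q := g1 * g2⁻¹ * g3 with hQ
  have hQd : N ∣ Q 1 0 := dvd_mul10 (dvd_mul10 h1 (dvd_inv10 h2)) h3
  have hΨQ : Ψ Q = Ψ g1 - Ψ g2 + Ψ g3 := by
    rw [hQ, S.mul _ _ (dvd_mul10 h1 (dvd_inv10 h2)) h3, S.mul _ _ h1 (dvd_inv10 h2),
      S.map_inv h2]
    abel
  have hQ00 : Q 0 0 = a * (w : A) ^ 2 := by
    rw [hQ, mul_00, mul_00, mul_01, inv_00, inv_01, inv_10, inv_11, a1, a2, a3]
    linear_combination a * hm + a * e2
  have hQ01 : Q 0 1 = (a * g2 1 1 - g1 0 1 * g2 1 0) * g3 0 1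
      + a * (g1 0 1 - g2 0 1) * g3 1 1 := by
    rw [hQ, mul_01, mul_00, mul_01, inv_00, inv_01, inv_10, inv_11, a1, a2]; ring
  -- normalise the corner by the diagonal element of `w⁻¹ * w⁻¹` and conjugate back
  set W : Aˣ := w⁻¹ * w⁻¹ with hW
  have hWv : (W : A) = ((w⁻¹ : Aˣ) : A) * ((w⁻¹ : Aˣ) : A) := by simp [hW]
  have hWi : ((W⁻¹ : Aˣ) : A) = (w : A) * (w : A) := by simp [hW]
  have hWd : N ∣ (W : A) - 1 := by
    have : (W : A) - 1 = -((w⁻¹ : Aˣ) : A) * ((w⁻¹ : Aˣ) : A) * ((w : A) ^ 2 - 1) := by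
      rw [hWv]; linear_combination ((1 : A) + (w : A) * ((w⁻¹ : Aˣ) : A)) * hww
    rw [this]; exact Dvd.dvd.mul_left hw _
  set X := Q * hMat W with hX
  have hXd : N ∣ X 1 0 := dvd_mul10 hQd (dvd_h10 N W)
  have hΨX : Ψ X = Ψ Q := by
    rw [hX, S.mul _ _ hQd (dvd_h10 N W), S.map_h hWd, add_zero]
  have hX00 : X 0 0 = a := by
    rw [hX, mul_00, hQ00, hMat_00, hMat_10, hWv]
    linear_combination (a * (1 + (w : A) * ((w⁻¹ : Aˣ) : A))) * hww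
  have hX01 : X 0 1 = Q 0 1 * ((w : A) * (w : A)) := by
    rw [hX, mul_01, hMat_01, hMat_11, hWi]; ring
  set P := hMat w⁻¹ * X * (hMat w⁻¹)⁻¹ with hP
  have hPd : N ∣ P 1 0 :=
    dvd_mul10 (dvd_mul10 (dvd_h10 N _) hXd) (dvd_inv10 (dvd_h10 N _))
  have hΨP : Ψ P = Ψ X := S.map_conj w⁻¹ hXd
  have hP00 : P 0 0 = a := by rw [hP, conj_00, hX00]
  have hP01 : P 0 1 = Q 0 1 := by
    rw [hP, conj_01, hX01]
    linear_combination (Q 0 1 * (1 + (w : A) * ((w⁻¹ : Aˣ) : A))) * hww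
  have key : Ψ g4 = Ψ P := by
    apply S.ext_mod hPd h4 (a4.trans hP00.symm)
    rw [hP00, hP01, hQ01]
    obtain ⟨y, hy⟩ := hB
    refine ⟨g2 1 1 * (g4 0 1 - ((a * g2 1 1 - g1 0 1 * g2 1 0) * g3 0 1
      + a * (g1 0 1 - g2 0 1) * g3 1 1)) + g2 1 0 * g2 0 1 * g2 1 1 * g3 0 1
      + g2 1 0 * g2 0 1 * (g1 0 1 - g2 0 1) * g3 1 1 - g1 0 1 * g2 1 0 * g3 0 1 * g2 1 1
      - g2 1 0 * y, ?_⟩
    linear_combination (g1 0 1 * g3 0 1 * g2 1 0 - (g4 0 1 - ((a * g2 1 1 - g1 0 1 * g2 1 0) * g3 0 1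
      + a * (g1 0 1 - g2 0 1) * g3 1 1))) * e2 - g2 1 0 * hy
  rw [key, hΨP, hΨX, hΨQ]

end Sym


section field

variable {F : Type*} [Field F] {N : A} {Ψ : Matrix.SpecialLinearGroup (Fin 2) A → H}
  {a : A} (haN : N ∣ a - 1) (φ : A →+* F) (hφ : Function.Surjective φ)
  (hker : ∀ x, φ x = 0 ↔ a ∣ x)

include haN hker in
theorem phi_N_ne : φ N ≠ 0 := by
  obtain ⟨t, ht⟩ := haN
  intro h
  have h1 : φ a = 0 := (hker a).2 dvd_rfl
  have h2 : φ (a - 1) = φ (N * t) := by rw [ht]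
  rw [map_sub, map_one, map_mul, h, h1] at h2
  simp at h2

include haN hφ hker in
theorem exists_row (b : A) (hb : φ b ≠ 0) :
    ∃ g : Matrix.SpecialLinearGroup (Fin 2) A, N ∣ g 1 0 ∧ g 0 0 = a ∧ g 0 1 = b := by
  have hN := phi_N_ne haN φ hker
  obtain ⟨y, hy⟩ := hφ ((φ (N * b))⁻¹)
  have h0 : φ (N * b * y - 1) = 0 := by
    rw [map_sub, map_mul, hy, map_one, mul_inv_cancel₀, sub_self]
    rw [map_mul]; exact mul_ne_zero hN hb
  obtain ⟨d', hd'⟩ := (hker _).1 h0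
  refine ⟨⟨!![a, b; -(N * y), -d'], ?_⟩, ?_, rfl, rfl⟩
  · rw [Matrix.det_fin_two_of]; linear_combination hd'
  · exact ⟨-y, by simp⟩

include hφ hker in
theorem exists_col (c : A) (hcN : N ∣ c) (hc : φ c ≠ 0) :
    ∃ g : Matrix.SpecialLinearGroup (Fin 2) A, N ∣ g 1 0 ∧ g 0 0 = a ∧ g 1 0 = c := by
  obtain ⟨y, hy⟩ := hφ ((φ c)⁻¹)
  have h0 : φ (c * y - 1) = 0 := by
    rw [map_sub, map_mul, hy, map_one, mul_inv_cancel₀ hc, sub_self]
  obtain ⟨d', hd'⟩ := (hker _).1 h0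
  refine ⟨⟨!![a, -y; c, -d'], ?_⟩, hcN, rfl, rfl⟩
  rw [Matrix.det_fin_two_of]; linear_combination hd'

include hker in
theorem phi_mul_eq (g : Matrix.SpecialLinearGroup (Fin 2) A) (ha : g 0 0 = a) :
    φ (g 0 1) * φ (g 1 0) = -1 := by
  have h := congrArg φ (det_eq g)
  rw [map_sub, map_mul, map_mul, map_one, ha, (hker a).2 dvd_rfl, zero_mul, zero_sub] at h
  rw [← h, neg_neg]

include hker in
theorem phi_01_ne (g : Matrix.SpecialLinearGroup (Fin 2) A) (ha : g 0 0 = a) :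
    φ (g 0 1) ≠ 0 := by
  intro h
  have := phi_mul_eq φ hker g ha
  rw [h, zero_mul] at this
  simp at this

include hker in
theorem phi_10_eq (g : Matrix.SpecialLinearGroup (Fin 2) A) (ha : g 0 0 = a) :
    φ (g 1 0) = -(φ (g 0 1))⁻¹ := by
  have h := phi_mul_eq φ hker g ha
  have h0 := phi_01_ne φ hker g ha
  field_simp
  linear_combination h

open Classical in
/-- The symbol `β ↦ Ψ g`, `g` in the subgroup with first row `(a, b)`, `φ b = β`. -/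
noncomputable def symF (N a : A) (φ : A →+* F) (Ψ : Matrix.SpecialLinearGroup (Fin 2) A → H) :
    F → H := fun β =>
  if h : ∃ g : Matrix.SpecialLinearGroup (Fin 2) A, N ∣ g 1 0 ∧ g 0 0 = a ∧ φ (g 0 1) = β then
    Ψ h.choose else 0

variable (S : Sym N Ψ)

include S hker in
theorem symF_spec (g : Matrix.SpecialLinearGroup (Fin 2) A) (hg : N ∣ g 1 0) (ha : g 0 0 = a) :
    Ψ g = symF N a φ Ψ (φ (g 0 1)) := by
  have h : ∃ g' : Matrix.SpecialLinearGroup (Fin 2) A, N ∣ g' 1 0 ∧ g' 0 0 = a ∧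
      φ (g' 0 1) = φ (g 0 1) := ⟨g, hg, ha, rfl⟩
  rw [symF, dif_pos h]
  obtain ⟨h1, h2, h3⟩ := h.choose_spec
  apply S.ext_mod h1 hg (ha.trans h2.symm)
  rw [h2]
  apply (hker _).1
  rw [map_sub, h3, sub_self]

include S haN hφ hker in
theorem symF_one : symF N a φ Ψ 1 = 0 := by
  obtain ⟨g, hg, ha, hb⟩ := exists_row haN φ hφ hker 1 (by rw [map_one]; exact one_ne_zero)
  have h1 := symF_spec φ hker S g hg ha
  rw [hb, map_one] at h1
  rw [← h1]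
  have hN1 : N ∣ 1 - a := by
    have : 1 - a = -(a - 1) := by ring
    rw [this]; exact (dvd_neg).2 haN
  have h2 : Ψ (g * lMat (1 - a)) = Ψ (uMat 1) := by
    apply S.rowext (dvd_u10 N 1) (dvd_mul10 hg (dvd_l10 hN1))
    · rw [mul_00, ha, hb]; simp
    · rw [mul_01, ha, hb]; simp
  rw [S.mul _ _ hg (dvd_l10 hN1), S.map_l hN1, S.map_u, add_zero] at h2
  exact h2

include S haN hφ hker in
theorem symF_sq (w : Aˣ) (x : F) (hx : x ≠ 0) :
    symF N a φ Ψ (φ ((w : A) ^ 2) * x) = symF N a φ Ψ x := by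
  obtain ⟨b, rfl⟩ := hφ x
  obtain ⟨g, hg, ha, hb⟩ := exists_row haN φ hφ hker b hx
  have h1 := symF_spec φ hker S g hg ha
  have hPd : N ∣ (hMat w * g * (hMat w)⁻¹) 1 0 :=
    dvd_mul10 (dvd_mul10 (dvd_h10 N _) hg) (dvd_inv10 (dvd_h10 N _))
  have h2 := symF_spec φ hker S (hMat w * g * (hMat w)⁻¹) hPd (by rw [conj_00, ha])
  rw [conj_01, S.map_conj w hg, map_mul, hb] at h2
  rw [hb] at h1
  rw [← h2, h1]

include S haN hφ hker in
/-- The key relation (T). -/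
theorem symF_triple (kt : A) (w : Aˣ) (hdvd : N * kt ∣ (w : A) ^ 2 - 1) (hk : φ kt ≠ 0)
    (β : F) (hβ : β ≠ 0) (hβk : β + φ kt ≠ 0)
    (hω : 1 - (φ ((w : A) ^ 2) - 1) / φ kt * β ≠ 0) :
    symF N a φ Ψ ((β + φ kt) / (1 - (φ ((w : A) ^ 2) - 1) / φ kt * β)) =
      symF N a φ Ψ (β + φ kt) - symF N a φ Ψ β
        + symF N a φ Ψ (β / (1 - (φ ((w : A) ^ 2) - 1) / φ kt * β)) := by
  obtain ⟨e, he⟩ := hdvd
  have hwN : N ∣ (w : A) ^ 2 - 1 := ⟨kt * e, by rw [he]; ring⟩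
  -- g2
  obtain ⟨b2, rfl⟩ := hφ β
  obtain ⟨g2, hg2, a2, hb2⟩ := exists_row haN φ hφ hker b2 hβ
  -- g1
  have hb1 : φ (b2 + kt) ≠ 0 := by rw [map_add]; exact hβk
  obtain ⟨g1, hg1, a1, hb1'⟩ := exists_row haN φ hφ hker (b2 + kt) hb1
  -- g3
  have hc2 : φ (g2 1 0) = -(φ b2)⁻¹ := by rw [phi_10_eq φ hker g2 a2, hb2]
  have hNe : φ (N * e) = (φ ((w : A) ^ 2) - 1) / φ kt := by
    rw [eq_div_iff hk, ← map_one φ, ← map_sub, ← map_mul, he]
    congr 1; ring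
  have hc3 : φ (g2 1 0 + N * e) ≠ 0 := by
    rw [map_add, hc2, hNe]
    intro h
    apply hω
    have h' : (φ ((w : A) ^ 2) - 1) / φ kt = (φ b2)⁻¹ := by linear_combination h
    rw [h', inv_mul_cancel₀ hβ, sub_self]
  obtain ⟨g3, hg3, a3, hc3'⟩ := exists_col φ hφ hker (g2 1 0 + N * e)
    (dvd_add hg2 (Dvd.intro _ rfl)) hc3
  have hb3 : φ (g3 0 1) = φ b2 / (1 - (φ ((w : A) ^ 2) - 1) / φ kt * φ b2) := by
    have h := phi_mul_eq φ hker g3 a3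
    rw [hc3', map_add, hc2, hNe] at h
    rw [eq_div_iff hω]
    have hbi : φ b2 * (φ b2)⁻¹ = 1 := mul_inv_cancel₀ hβ
    linear_combination (-(φ b2)) * h - (φ (g3 0 1)) * hbi
  -- g4
  have hb4 : φ b2 * φ (g3 0 1) ≠ 0 := mul_ne_zero hβ (phi_01_ne φ hker g3 a3)
  obtain ⟨b4, hb4'⟩ := hφ ((φ b2 + φ kt) / (1 - (φ ((w : A) ^ 2) - 1) / φ kt * φ b2))
  have hb4ne : φ b4 ≠ 0 := by rw [hb4']; exact div_ne_zero hβk hω
  obtain ⟨g4, hg4, a4, hb4''⟩ := exists_row haN φ hφ hker b4 hb4ne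
  have key := S.triple hg1 hg2 hg3 hg4 a1 a2 a3 a4 w hwN
    (by rw [hb1', hb2, hc3']; linear_combination (-1 : A) * he)
    (by
      apply (hker _).1
      rw [map_sub, map_mul, map_mul, hb4'', hb2, hb1', hb4', hb3, map_add]
      ring)
  rw [symF_spec φ hker S g4 hg4 a4, symF_spec φ hker S g1 hg1 a1, symF_spec φ hker S g2 hg2 a2,
    symF_spec φ hker S g3 hg3 a3, hb4'', hb4', hb1', hb2, hb3, map_add] at key
  exact key

end field

section main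

variable {F : Type*} [Field F]

/-- **[ROW]+[TRI]**: the row symbol at a corner `a ≡ 1 mod N` with residue field `F = A / a`,
together with its three relations. Valid over any commutative ring `A`. -/
theorem exists_symbol (N : A) (G : Subgroup (Matrix.SpecialLinearGroup (Fin 2) A))
    (hG : ∀ g : Matrix.SpecialLinearGroup (Fin 2) A, g ∈ G ↔ N ∣ g 1 0) (ψ : G → H)
    (hmul : ∀ g h : G, ψ (g * h) = ψ g + ψ h)
    (hu : ∀ g : G, g.1 0 0 = 1 → g.1 1 0 = 0 → ψ g = 0)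
    (hl : ∀ g : G, g.1 0 0 = 1 → g.1 0 1 = 0 → ψ g = 0)
    (a : A) (haN : N ∣ a - 1) (φ : A →+* F) (hφ : Function.Surjective φ)
    (hker : ∀ x, φ x = 0 ↔ a ∣ x) :
    ∃ f : F → H,
      (∀ g : G, g.1 0 0 = a → ψ g = f (φ (g.1 0 1))) ∧ f 1 = 0 ∧
      (∀ (w : Aˣ) (x : F), x ≠ 0 → f (φ ((w : A) ^ 2) * x) = f x) ∧
      (∀ (kt : A) (w : Aˣ), N * kt ∣ (w : A) ^ 2 - 1 → φ kt ≠ 0 → ∀ β : F, β ≠ 0 →
        β + φ kt ≠ 0 → 1 - (φ ((w : A) ^ 2) - 1) / φ kt * β ≠ 0 →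
        f ((β + φ kt) / (1 - (φ ((w : A) ^ 2) - 1) / φ kt * β)) =
          f (β + φ kt) - f β + f (β / (1 - (φ ((w : A) ^ 2) - 1) / φ kt * β))) := by
  classical
  set Ψ : Matrix.SpecialLinearGroup (Fin 2) A → H :=
    fun g => if h : g ∈ G then ψ ⟨g, h⟩ else 0 with hΨ
  have hΨG : ∀ (g : Matrix.SpecialLinearGroup (Fin 2) A) (h : g ∈ G), Ψ g = ψ ⟨g, h⟩ := by
    intro g h; rw [hΨ]; exact dif_pos h
  have S : Sym N Ψ := by
    refine ⟨?_, ?_, ?_⟩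
    · intro g h hg hh
      have hg' : g ∈ G := (hG g).2 hg
      have hh' : h ∈ G := (hG h).2 hh
      rw [hΨG _ (G.mul_mem hg' hh'), hΨG _ hg', hΨG _ hh', ← hmul]
      rfl
    · intro g h0 h1
      have hg' : g ∈ G := (hG g).2 (by rw [h1]; exact dvd_zero N)
      rw [hΨG _ hg']
      exact hu ⟨g, hg'⟩ h0 h1
    · intro g hg h0 h1
      have hg' : g ∈ G := (hG g).2 hg
      rw [hΨG _ hg']
      exact hl ⟨g, hg'⟩ h0 h1
  refine ⟨symF N a φ Ψ, ?_, symF_one haN φ hφ hker S, symF_sq haN φ hφ hker S,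
    symF_triple haN φ hφ hker S⟩
  intro g ha
  rw [← symF_spec φ hker S g.1 ((hG g.1).1 g.2) ha, hΨG _ g.2]

/-- From (T) and admissibility of every class `k` with one fixed class `U`, the relation (✱). -/
theorem star_of_adm (N : A) (φ : A →+* F) (f : F → H)
    (hT : ∀ (kt : A) (w : Aˣ), N * kt ∣ (w : A) ^ 2 - 1 → φ kt ≠ 0 → ∀ β : F, β ≠ 0 →
        β + φ kt ≠ 0 → 1 - (φ ((w : A) ^ 2) - 1) / φ kt * β ≠ 0 →
        f ((β + φ kt) / (1 - (φ ((w : A) ^ 2) - 1) / φ kt * β)) =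
          f (β + φ kt) - f β + f (β / (1 - (φ ((w : A) ^ 2) - 1) / φ kt * β)))
    (U : F)
    (hadm : ∀ k : F, k ≠ 0 → ∃ (kt : A) (w : Aˣ), φ kt = k ∧ N * kt ∣ (w : A) ^ 2 - 1 ∧
      φ ((w : A) ^ 2) = U)
    (m x : F) (hm0 : m ≠ 0) (hm1 : m ≠ 1) (hmU : m ≠ U) (hx : x ≠ 0) :
    f (m * ((m - 1) / (m - U)) * x) - f ((m - 1) / (m - U) * x) = f (m * x) - f x := by
  have hm1' : m - 1 ≠ 0 := sub_ne_zero.2 hm1
  have hmU' : m - U ≠ 0 := sub_ne_zero.2 hmU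
  have hk : (m - 1) * x ≠ 0 := mul_ne_zero hm1' hx
  obtain ⟨kt, w, hkt, hdvd, hw⟩ := hadm _ hk
  have e1 : 1 - (U - 1) / ((m - 1) * x) * x = (m - U) / (m - 1) := by
    field_simp
    ring
  have e2 : x + (m - 1) * x = m * x := by ring
  have h := hT kt w hdvd (by rw [hkt]; exact hk) x hx
    (by rw [hkt, e2]; exact mul_ne_zero hm0 hx)
    (by rw [hkt, hw, e1]; exact div_ne_zero hmU' hm1')
  rw [hkt, hw, e1, e2] at h
  have e3 : m * x / ((m - U) / (m - 1)) = m * ((m - 1) / (m - U)) * x := by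
    field_simp
  have e4 : x / ((m - U) / (m - 1)) = (m - 1) / (m - U) * x := by
    field_simp
  rw [e3, e4] at h
  rw [h]
  abel

/-- **Vanishing at a good corner**, with [ADM] and [FIN] as hypotheses: if every class is
admissible with the fixed class `U = φ (w₀ ^ 2)` and the finite lemma holds for `F`, `H`, `U`,
then `ψ` vanishes on every element of `G` with upper-left entry `a`. -/
theorem psi_eq_zero_of_fin (N : A) (G : Subgroup (Matrix.SpecialLinearGroup (Fin 2) A))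
    (hG : ∀ g : Matrix.SpecialLinearGroup (Fin 2) A, g ∈ G ↔ N ∣ g 1 0) (ψ : G → H)
    (hmul : ∀ g h : G, ψ (g * h) = ψ g + ψ h)
    (hu : ∀ g : G, g.1 0 0 = 1 → g.1 1 0 = 0 → ψ g = 0)
    (hl : ∀ g : G, g.1 0 0 = 1 → g.1 0 1 = 0 → ψ g = 0)
    (a : A) (haN : N ∣ a - 1) (φ : A →+* F) (hφ : Function.Surjective φ)
    (hker : ∀ x, φ x = 0 ↔ a ∣ x) (w₀ : Aˣ)
    (hadm : ∀ k : F, k ≠ 0 → ∃ (kt : A) (w : Aˣ), φ kt = k ∧ N * kt ∣ (w : A) ^ 2 - 1 ∧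
      φ ((w : A) ^ 2) = φ ((w₀ : A) ^ 2))
    (hfin : ∀ f : F → H, (∀ x : F, x ≠ 0 → f (φ ((w₀ : A) ^ 2) * x) = f x) →
      (∀ m x : F, m ≠ 0 → m ≠ 1 → m ≠ φ ((w₀ : A) ^ 2) → x ≠ 0 →
        f (m * ((m - 1) / (m - φ ((w₀ : A) ^ 2))) * x) - f ((m - 1) / (m - φ ((w₀ : A) ^ 2)) * x)
          = f (m * x) - f x) → ∀ x : F, x ≠ 0 → f x = f 1)
    (g : G) (hg : g.1 0 0 = a) : ψ g = 0 := by
  obtain ⟨f, hsym, hone, hsq, hT⟩ := exists_symbol N G hG ψ hmul hu hl a haN φ hφ hker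
  have hconst := hfin f (fun x hx => hsq w₀ x hx)
    (fun m x hm0 hm1 hmU hx => star_of_adm N φ f hT _ hadm m x hm0 hm1 hmU hx)
  have hb : φ (g.1 0 1) ≠ 0 := phi_01_ne φ hker g.1 hg
  rw [hsym g hg, hconst _ hb, hone]

end main

end Fermat.Agent.P7.CspTri
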