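import Mathlib
import Fermat.Agent.P7.CspTri
import Fermat.Agent.P7.CspFin
import Fermat.Agent.P7.CspAdm
import Fermat.Agent.P7.CspGen
import Fermat.Agent.P7.CspGroup

/-!
# P7 [CSP-ab]: the top assembly (helper82)

* `psi_eq_zero_of_corner` : vanishing at a prime corner (any ring `A` with `q` a unit);
* `csp_ab_ring` : [CSP-ab] over any ring `A ≅ ℤ[1/q]` (three hypotheses of `CspGen`);
* `csp_ab` : [CSP-ab] on the concrete model `CspGroup.GN q N ≤ SL(2, ℚ)`;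
* `csp_ab_hom`, `csp_ab_int` : the same for a monoid hom into `Multiplicative (ZMod p)`, and on the
  integral points `γ ∈ Γ₀(N)` with `γ₀₀ ≡ 1 mod N`.

Paper proof: helper4 (board row #2526).

Assembly of `CspTri.psi_eq_zero_of_fin` (row symbol + triple product, helper46),
`CspAdm.exists_adm` (admissible lifts, helper59/helper4) and `CspFin.const_of_rel`
(the finite lemma, helper4): for a commutative ring `A` in which `q` is a unit, an additive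
function `ψ` on `G = {g ∈ SL₂(A) : N ∣ g₁₀}` killing the upper and lower unipotents vanishes on
every `g ∈ G` whose upper-left entry `a ≡ 1 mod N` has residue field `A / a ≅ 𝔽_l` with `l` an odd
prime, `l ∤ q`, `l ∤ q^(2e) - 1`, `p ∤ l - 1`, where `N ∣ q^(2e) - 1`.
-/

set_option autoImplicit false

namespace Fermat.Agent.P7.CspAsm

open Matrix

variable {A : Type*} [CommRing A]

/-- **Vanishing at a prime corner.** -/
theorem psi_eq_zero_of_corner {q N p l e : ℕ} (hqA : IsUnit ((q : ℕ) : A)) (hq0 : 0 < q)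
    (hN : 0 < N) [Fact p.Prime] [Fact l.Prime] (hl2 : l ≠ 2) (hlq : ¬ l ∣ q)
    (he : N ∣ q ^ (2 * e) - 1) (hle : ¬ l ∣ q ^ (2 * e) - 1) (hpl : ¬ p ∣ l - 1)
    (G : Subgroup (Matrix.SpecialLinearGroup (Fin 2) A))
    (hG : ∀ g : Matrix.SpecialLinearGroup (Fin 2) A, g ∈ G ↔ ((N : ℕ) : A) ∣ g 1 0)
    (ψ : G → ZMod p) (hmul : ∀ g h : G, ψ (g * h) = ψ g + ψ h)
    (hu : ∀ g : G, g.1 0 0 = 1 → g.1 1 0 = 0 → ψ g = 0)
    (hl : ∀ g : G, g.1 0 0 = 1 → g.1 0 1 = 0 → ψ g = 0)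
    (a : A) (haN : ((N : ℕ) : A) ∣ a - 1) (φ : A →+* ZMod l) (hφ : Function.Surjective φ)
    (hker : ∀ x, φ x = 0 ↔ a ∣ x) (g : G) (hg : g.1 0 0 = a) : ψ g = 0 := by
  obtain ⟨Q, hQ⟩ := hqA
  have hφq : φ (Q : A) = (q : ZMod l) := by rw [hQ, map_natCast]
  have hpow : ∀ j : ℕ, φ (((Q ^ j : Aˣ) : A) ^ 2) = (q : ZMod l) ^ (2 * j) := by
    intro j
    rw [Units.val_pow_eq_pow_val, ← pow_mul, map_pow, hφq, mul_comm]
  have hq_ne : (q : ZMod l) ≠ 0 := by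
    rw [Ne, ZMod.natCast_eq_zero_iff]; exact hlq
  have hU0 : (q : ZMod l) ^ (2 * e) ≠ 0 := pow_ne_zero _ hq_ne
  have hU1 : (q : ZMod l) ^ (2 * e) ≠ 1 := by
    intro h
    apply hle
    have h1 : 1 ≤ q ^ (2 * e) := Nat.one_le_pow _ _ hq0
    rw [← ZMod.natCast_eq_zero_iff, Nat.cast_sub h1]
    push_cast
    rw [h, sub_self]
  refine CspTri.psi_eq_zero_of_fin ((N : ℕ) : A) G hG ψ hmul hu hl a haN φ hφ hker (Q ^ e) ?_ ?_ g hg
  · intro k hk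
    obtain ⟨r, i, -, hrk, hdvd, hqi⟩ :=
      CspAdm.exists_adm (Fact.out : l.Prime) hl2 hq0 hlq hN he k hk
    refine ⟨(r : A), Q ^ i, by rw [map_natCast, hrk], ?_, ?_⟩
    · have h := map_dvd (Int.castRingHom A) hdvd
      rw [Units.val_pow_eq_pow_val, ← pow_mul, hQ, mul_comm i 2]
      simpa using h
    · rw [hpow, hpow, hqi]
  · intro f h1 h2
    rw [hpow] at h1 h2
    exact CspFin.const_of_rel hpl _ hU0 hU1 f h1 h2

/-- **[CSP-ab] over a ring `A ≅ ℤ[1/q]`**: an additive function on `G = {g ∈ SL₂(A) : N ∣ g₁₀}`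
with values in `𝔽_p` (`p` odd) which kills the upper and lower unipotent elements of `G` vanishes on
every `g ∈ G` with `g₀₀ ≡ 1 mod N`. -/
theorem csp_ab_ring {q N p : ℕ} (hqA : IsUnit ((q : ℕ) : A))
    (hsurj : ∀ x : A, ∃ (n : ℤ) (k : ℕ), x * ((q : ℕ) : A) ^ k = n)
    (hinj : Function.Injective ((↑) : ℤ → A))
    (hq : q.Prime) (hN : 0 < N) (hNq : N.Coprime q) [Fact p.Prime] (hp2 : p ≠ 2)
    (G : Subgroup (Matrix.SpecialLinearGroup (Fin 2) A))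
    (hG : ∀ g : Matrix.SpecialLinearGroup (Fin 2) A, g ∈ G ↔ ((N : ℕ) : A) ∣ g 1 0)
    (ψ : G → ZMod p) (hmul : ∀ g h : G, ψ (g * h) = ψ g + ψ h)
    (hu : ∀ g : G, g.1 0 0 = 1 → g.1 1 0 = 0 → ψ g = 0)
    (hl : ∀ g : G, g.1 0 0 = 1 → g.1 0 1 = 0 → ψ g = 0) :
    ∀ g : G, ((N : ℕ) : A) ∣ g.1 0 0 - 1 → ψ g = 0 := by
  have he0 : 0 < N.totient := Nat.totient_pos.2 hN
  have hq2 : 2 ≤ q := hq.two_le
  -- `N ∣ q ^ (2 * φ N) - 1`
  have hone : 1 ≤ q ^ (2 * N.totient) := Nat.one_le_pow _ _ hq.pos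
  have he : N ∣ q ^ (2 * N.totient) - 1 := by
    have h1 : q ^ N.totient ≡ 1 [MOD N] := Nat.ModEq.pow_totient hNq.symm
    have h2 : q ^ (2 * N.totient) ≡ 1 [MOD N] := by
      rw [mul_comm, pow_mul]
      simpa using h1.pow 2
    exact (Nat.modEq_iff_dvd' hone).1 h2.symm
  have hbig : 2 ≤ q ^ (2 * N.totient) := by
    calc 2 ≤ q := hq2
      _ = q ^ 1 := (pow_one q).symm
      _ ≤ q ^ (2 * N.totient) := Nat.pow_le_pow_right hq.pos (by omega)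
  have hqle : q ≤ q ^ (2 * N.totient) := by
    calc q = q ^ 1 := (pow_one q).symm
      _ ≤ q ^ (2 * N.totient) := Nat.pow_le_pow_right hq.pos (by omega)
  refine CspGen.psi_eq_zero_of_good q hqA hsurj hinj hq N hN.ne' hNq G hG ψ hmul hu hl p
    Fact.out hp2 (q ^ (2 * N.totient)) ?_
  intro a hprime hB hpa ha1 g hg
  have : Fact a.natAbs.Prime := ⟨hprime⟩
  obtain ⟨φ, hφ, hker⟩ := CspGen.exists_phi q hqA hsurj hinj a a.natAbs rfl
    (Nat.not_dvd_of_pos_of_lt hq.pos (lt_of_le_of_lt hqle hB))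
  have hpl : ¬ p ∣ a.natAbs - 1 := by
    intro h
    apply hpa
    have h' : ((p : ℕ) : ℤ) ∣ ((a.natAbs - 1 : ℕ) : ℤ) := Int.natCast_dvd_natCast.2 h
    rwa [Nat.cast_sub hprime.one_le, Nat.cast_one] at h'
  have haN : ((N : ℕ) : A) ∣ (a : A) - 1 := by
    have h1 : (N : ℤ) ∣ a - 1 := (Int.modEq_iff_dvd.1 ha1.symm)
    have h2 := map_dvd (Int.castRingHom A) h1
    simpa using h2
  exact psi_eq_zero_of_corner hqA hq.pos hN (by omega)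
    (Nat.not_dvd_of_pos_of_lt hq.pos (lt_of_le_of_lt hqle hB)) he
    (Nat.not_dvd_of_pos_of_lt (by omega) (by omega)) hpl G hG ψ hmul hu hl (a : A) haN φ hφ hker
    g hg

open CspGroup in
/-- **[CSP-ab] on the concrete model** `GN q N = Γ₀(N)[1/q] ≤ SL₂(ℚ)`. -/
theorem csp_ab {q N p : ℕ} (hq : q.Prime) (hN : 0 < N) (hNq : N.Coprime q) [Fact p.Prime]
    (hp2 : p ≠ 2) (ψ : ↥(GN q N) → ZMod p) (hmul : ∀ g h : ↥(GN q N), ψ (g * h) = ψ g + ψ h)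
    (hu : ∀ g : ↥(GN q N), g.1.1 0 0 = 1 → g.1.1 1 0 = 0 → ψ g = 0)
    (hl : ∀ g : ↥(GN q N), g.1.1 0 0 = 1 → g.1.1 0 1 = 0 → ψ g = 0)
    (g : ↥(GN q N)) (hg : ∃ (k : ℕ) (n : ℤ), g.1.1 0 0 - 1 = N * n / (q : ℚ) ^ k) :
    ψ g = 0 := by
  have hq0 : q ≠ 0 := hq.ne_zero
  let ψ' : ↥(GA q N) → ZMod p := fun g' => ψ ⟨toQ q g'.1, g'.2⟩
  have key := csp_ab_ring (A := ↥(Aq q)) (isUnit_q hq0) (exists_int_eq hq0) (intCast_injective q)
    hq hN hNq hp2 (GA q N) (fun g => mem_GA) ψ'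
    (fun g h => by
      show ψ ⟨toQ q (g.1 * h.1), _⟩ = _
      rw [← hmul]
      congr 1)
    (fun g h0 h1 => hu _ (by
        show (toQ q g.1).1 0 0 = 1
        rw [toQ_apply, h0]; rfl) (by
        show (toQ q g.1).1 1 0 = 0
        rw [toQ_apply, h1]; rfl))
    (fun g h0 h1 => hl _ (by
        show (toQ q g.1).1 0 0 = 1
        rw [toQ_apply, h0]; rfl) (by
        show (toQ q g.1).1 0 1 = 0
        rw [toQ_apply, h1]; rfl))
  obtain ⟨g', hg'⟩ := exists_GA_eq g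
  have hgg : g = ⟨toQ q g'.1, g'.2⟩ := Subtype.ext hg'.symm
  rw [hgg]
  refine key g' ?_
  obtain ⟨k, n, hkn⟩ := hg
  refine ⟨⟨(n : ℚ) / (q : ℚ) ^ k, ⟨k, n, rfl⟩⟩, ?_⟩
  apply Subtype.ext
  have h00 : ((g'.1.1 0 0 : ↥(Aq q)) : ℚ) = g.1.1 0 0 := by
    rw [← hg']; rfl
  push_cast
  rw [h00, hkn, mul_div_assoc]

open CspGroup in
/-- [CSP-ab] for a monoid hom into `Multiplicative (ZMod p)`. -/
theorem csp_ab_hom {q N p : ℕ} (hq : q.Prime) (hN : 0 < N) (hNq : N.Coprime q) [Fact p.Prime]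
    (hp2 : p ≠ 2) (Ψ : ↥(GN q N) →* Multiplicative (ZMod p))
    (hu : ∀ g : ↥(GN q N), g.1.1 0 0 = 1 → g.1.1 1 0 = 0 → Ψ g = 1)
    (hl : ∀ g : ↥(GN q N), g.1.1 0 0 = 1 → g.1.1 0 1 = 0 → Ψ g = 1)
    (g : ↥(GN q N)) (hg : ∃ (k : ℕ) (n : ℤ), g.1.1 0 0 - 1 = N * n / (q : ℚ) ^ k) :
    Ψ g = 1 := by
  have key := csp_ab hq hN hNq hp2 (fun g => Multiplicative.toAdd (Ψ g))
    (fun g h => by simp [map_mul])
    (fun g h0 h1 => by simp [hu g h0 h1])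
    (fun g h0 h1 => by simp [hl g h0 h1]) g hg
  exact Multiplicative.toAdd.injective key

open CspGroup in
/-- [CSP-ab] on the integral points: `Ψ` vanishes on (the image of) every `γ ∈ Γ₀(N)` whose
upper-left entry is `≡ 1 mod N`. -/
theorem csp_ab_int {q N p : ℕ} (hq : q.Prime) (hN : 0 < N) (hNq : N.Coprime q) [Fact p.Prime]
    (hp2 : p ≠ 2) (Ψ : ↥(GN q N) →* Multiplicative (ZMod p))
    (hu : ∀ g : ↥(GN q N), g.1.1 0 0 = 1 → g.1.1 1 0 = 0 → Ψ g = 1)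
    (hl : ∀ g : ↥(GN q N), g.1.1 0 0 = 1 → g.1.1 0 1 = 0 → Ψ g = 1)
    (γ : Matrix.SpecialLinearGroup (Fin 2) ℤ) (hγ : γ ∈ CongruenceSubgroup.Gamma0 N)
    (h1 : (N : ℤ) ∣ γ.1 0 0 - 1) : Ψ ⟨ofInt γ, ofInt_mem q hγ⟩ = 1 := by
  refine csp_ab_hom hq hN hNq hp2 Ψ hu hl _ ?_
  obtain ⟨m, hm⟩ := h1
  refine ⟨0, m, ?_⟩
  show ((γ.1 0 0 : ℤ) : ℚ) - 1 = _
  have : ((γ.1 0 0 : ℤ) : ℚ) - 1 = (((γ.1 0 0 - 1 : ℤ)) : ℚ) := by push_cast; ring
  rw [this, hm]; push_cast; ring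

end Fermat.Agent.P7.CspAsm
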