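import Mathlib

namespace Fermat.Agent.P7.CspCore

open Matrix

set_option linter.unusedSimpArgs false

variable {A : Type*} [CommRing A]

/-- explicit `2 × 2` matrix of determinant one -/
def mkSL (a b c d : A) (h : a * d - b * c = 1) : SpecialLinearGroup (Fin 2) A :=
  ⟨!![a, b; c, d], by rw [Matrix.det_fin_two_of]; exact h⟩

@[simp] lemma mkSL_00 (a b c d : A) (h : a * d - b * c = 1) : (mkSL a b c d h) 0 0 = a := rfl
@[simp] lemma mkSL_01 (a b c d : A) (h : a * d - b * c = 1) : (mkSL a b c d h) 0 1 = b := rfl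
@[simp] lemma mkSL_10 (a b c d : A) (h : a * d - b * c = 1) : (mkSL a b c d h) 1 0 = c := rfl
@[simp] lemma mkSL_11 (a b c d : A) (h : a * d - b * c = 1) : (mkSL a b c d h) 1 1 = d := rfl

lemma ext4 {g h : SpecialLinearGroup (Fin 2) A} (h00 : g 0 0 = h 0 0) (h01 : g 0 1 = h 0 1)
    (h10 : g 1 0 = h 1 0) (h11 : g 1 1 = h 1 1) : g = h := by
  apply Matrix.SpecialLinearGroup.ext
  intro i j
  fin_cases i <;> fin_cases j <;> assumption

lemma det_eq (g : SpecialLinearGroup (Fin 2) A) : g 0 0 * g 1 1 - g 0 1 * g 1 0 = 1 := by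
  have := g.det_coe
  rwa [Matrix.det_fin_two] at this

lemma mul_00 (g h : SpecialLinearGroup (Fin 2) A) :
    (g * h) 0 0 = g 0 0 * h 0 0 + g 0 1 * h 1 0 := by
  simp [Matrix.SpecialLinearGroup.coe_mul, Matrix.mul_apply, Fin.sum_univ_two]
lemma mul_01 (g h : SpecialLinearGroup (Fin 2) A) :
    (g * h) 0 1 = g 0 0 * h 0 1 + g 0 1 * h 1 1 := by
  simp [Matrix.SpecialLinearGroup.coe_mul, Matrix.mul_apply, Fin.sum_univ_two]
lemma mul_10 (g h : SpecialLinearGroup (Fin 2) A) :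
    (g * h) 1 0 = g 1 0 * h 0 0 + g 1 1 * h 1 0 := by
  simp [Matrix.SpecialLinearGroup.coe_mul, Matrix.mul_apply, Fin.sum_univ_two]
lemma mul_11 (g h : SpecialLinearGroup (Fin 2) A) :
    (g * h) 1 1 = g 1 0 * h 0 1 + g 1 1 * h 1 1 := by
  simp [Matrix.SpecialLinearGroup.coe_mul, Matrix.mul_apply, Fin.sum_univ_two]

lemma inv_00 (g : SpecialLinearGroup (Fin 2) A) : (g⁻¹) 0 0 = g 1 1 := by
  simp [Matrix.SpecialLinearGroup.coe_inv, Matrix.adjugate_fin_two]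
lemma inv_01 (g : SpecialLinearGroup (Fin 2) A) : (g⁻¹) 0 1 = - g 0 1 := by
  simp [Matrix.SpecialLinearGroup.coe_inv, Matrix.adjugate_fin_two]
lemma inv_10 (g : SpecialLinearGroup (Fin 2) A) : (g⁻¹) 1 0 = - g 1 0 := by
  simp [Matrix.SpecialLinearGroup.coe_inv, Matrix.adjugate_fin_two]
lemma inv_11 (g : SpecialLinearGroup (Fin 2) A) : (g⁻¹) 1 1 = g 0 0 := by
  simp [Matrix.SpecialLinearGroup.coe_inv, Matrix.adjugate_fin_two]

/-- upper unipotent -/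
def uu (x : A) : SpecialLinearGroup (Fin 2) A := mkSL 1 x 0 1 (by ring)
/-- lower unipotent -/
def ll (t : A) : SpecialLinearGroup (Fin 2) A := mkSL 1 0 t 1 (by ring)
/-- diagonal -/
def hh (v : Aˣ) : SpecialLinearGroup (Fin 2) A := mkSL (v : A) 0 0 ((v⁻¹ : Aˣ) : A) (by simp)


@[simp] lemma uu_00 (x : A) : (uu x) 0 0 = 1 := rfl
@[simp] lemma uu_01 (x : A) : (uu x) 0 1 = x := rfl
@[simp] lemma uu_10 (x : A) : (uu x) 1 0 = 0 := rfl
@[simp] lemma uu_11 (x : A) : (uu x) 1 1 = 1 := rfl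
@[simp] lemma ll_00 (x : A) : (ll x) 0 0 = 1 := rfl
@[simp] lemma ll_01 (x : A) : (ll x) 0 1 = 0 := rfl
@[simp] lemma ll_10 (x : A) : (ll x) 1 0 = x := rfl
@[simp] lemma ll_11 (x : A) : (ll x) 1 1 = 1 := rfl
@[simp] lemma hh_00 (v : Aˣ) : (hh v) 0 0 = (v : A) := rfl
@[simp] lemma hh_01 (v : Aˣ) : (hh v) 0 1 = 0 := rfl
@[simp] lemma hh_10 (v : Aˣ) : (hh v) 1 0 = 0 := rfl
@[simp] lemma hh_11 (v : Aˣ) : (hh v) 1 1 = ((v⁻¹ : Aˣ) : A) := rfl

/-- A "homomorphism on `G_N = {g ∈ SL₂(A) : N ∣ g₁₀}`" killing the elementary matrices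
`u(x)` and `l(N y)`, presented as a function on all of `SL₂(A)` (values outside `G_N` are
irrelevant). -/
structure SymbHom (N : A) {M : Type*} [AddCommGroup M]
    (ψ : SpecialLinearGroup (Fin 2) A → M) : Prop where
  map_mul : ∀ g h : SpecialLinearGroup (Fin 2) A, N ∣ g 1 0 → N ∣ h 1 0 →
    ψ (g * h) = ψ g + ψ h
  map_u : ∀ x : A, ψ (uu x) = 0
  map_l : ∀ y : A, ψ (ll (N * y)) = 0

section basic

variable {N : A} {M : Type*} [AddCommGroup M] {ψ : SpecialLinearGroup (Fin 2) A → M}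

lemma mem_mul {g h : SpecialLinearGroup (Fin 2) A} (hg : N ∣ g 1 0) (hh' : N ∣ h 1 0) :
    N ∣ (g * h) 1 0 := by
  rw [mul_10]
  exact dvd_add (Dvd.dvd.mul_right hg _) (Dvd.dvd.mul_left hh' _)

lemma mem_inv {g : SpecialLinearGroup (Fin 2) A} (hg : N ∣ g 1 0) : N ∣ (g⁻¹) 1 0 := by
  rw [inv_10]; exact (dvd_neg).mpr hg

lemma mem_uu (x : A) : N ∣ (uu x) 1 0 := by simp
lemma mem_hh (v : Aˣ) : N ∣ (hh v) 1 0 := by simp
lemma mem_ll (y : A) : N ∣ (ll (N * y)) 1 0 := by simp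

lemma SymbHom.map_one (hψ : SymbHom N ψ) : ψ 1 = 0 := by
  have h := hψ.map_mul 1 1 (by simp) (by simp)
  rw [mul_one] at h
  exact (add_eq_left (a := ψ 1)).mp h.symm

lemma SymbHom.map_inv (hψ : SymbHom N ψ) {g : SpecialLinearGroup (Fin 2) A}
    (hg : N ∣ g 1 0) : ψ g⁻¹ = - ψ g := by
  have h := hψ.map_mul g g⁻¹ hg (mem_inv hg)
  rw [mul_inv_cancel, hψ.map_one] at h
  exact eq_neg_of_add_eq_zero_right h.symm

/-- `ψ` depends only on the first row. -/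
lemma SymbHom.row_eq (hψ : SymbHom N ψ) {g g' : SpecialLinearGroup (Fin 2) A}
    (hg : N ∣ g 1 0) (hg' : N ∣ g' 1 0) (h0 : g' 0 0 = g 0 0) (h1 : g' 0 1 = g 0 1) :
    ψ g' = ψ g := by
  obtain ⟨y, hy⟩ := hg
  obtain ⟨y', hy'⟩ := hg'
  have hdet := det_eq g
  have hdet' := det_eq g'
  have key : g' = ll (N * (y' * g 1 1 - g' 1 1 * y)) * g := by
    apply ext4
    · rw [mul_00]; simp [h0]
    · rw [mul_01]; simp [h1]
    · rw [mul_10]; simp only [ll_10, ll_11]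
      rw [hy', hy] at *
      rw [h0, h1] at hdet'
      linear_combination (-(N * y')) * hdet + (N * y) * hdet'
    · rw [mul_11]; simp only [ll_10, ll_11]
      rw [h0, h1] at hdet'
      rw [hy] at hdet
      rw [hy'] at hdet'
      linear_combination (g 1 1) * hdet' - (g' 1 1) * hdet
  rw [key, hψ.map_mul _ _ (mem_ll _) ⟨y, hy⟩, hψ.map_l, zero_add]


/-- `κ(v) = ψ(h(v)) = 0` for units `v ≡ 1 mod N`. -/
lemma SymbHom.map_hh_eq_zero (hψ : SymbHom N ψ) (v : Aˣ) (hv : N ∣ (v : A) - 1) :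
    ψ (hh v) = 0 := by
  obtain ⟨t, ht⟩ := hv
  have hwv : ((v⁻¹ : Aˣ) : A) * (v : A) = 1 := by simp
  have hinv : ((v⁻¹ : Aˣ) : A) - 1 = N * (-((v⁻¹ : Aˣ) : A) * t) := by
    linear_combination (-((v⁻¹ : Aˣ) : A)) * ht + hwv
  have h1 : ψ (ll ((v : A) - 1)) = 0 := by rw [ht]; exact hψ.map_l t
  have h2 : ψ (ll (((v⁻¹ : Aˣ) : A) - 1)) = 0 := by rw [hinv]; exact hψ.map_l _
  have m1 : N ∣ (ll ((v : A) - 1)) 1 0 := by simp [ht]
  have m2 : N ∣ (ll (((v⁻¹ : Aˣ) : A) - 1)) 1 0 := by simp [hinv]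
  have key : hh v = ll (((v⁻¹ : Aˣ) : A) - 1) * uu 1 * ll ((v : A) - 1)
      * uu (-((v⁻¹ : Aˣ) : A)) := by
    apply ext4
    · simp only [mul_00, mul_01, mul_10, mul_11, hh_00, ll_00, ll_01, ll_10, ll_11, uu_00,
        uu_01, uu_10, uu_11]; ring
    · simp only [mul_00, mul_01, mul_10, mul_11, hh_01, ll_00, ll_01, ll_10, ll_11, uu_00,
        uu_01, uu_10, uu_11]; linear_combination hwv
    · simp only [mul_00, mul_01, mul_10, mul_11, hh_10, ll_00, ll_01, ll_10, ll_11, uu_00,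
        uu_01, uu_10, uu_11]; linear_combination (-1 : A) * hwv
    · simp only [mul_00, mul_01, mul_10, mul_11, hh_11, ll_00, ll_01, ll_10, ll_11, uu_00,
        uu_01, uu_10, uu_11]; linear_combination (((v⁻¹ : Aˣ) : A)) * hwv
  rw [key, hψ.map_mul _ _ (mem_mul (mem_mul m2 (mem_uu 1)) m1) (mem_uu _),
    hψ.map_mul _ _ (mem_mul m2 (mem_uu 1)) m1, hψ.map_mul _ _ m2 (mem_uu 1), h1, h2,
    hψ.map_u, hψ.map_u]
  simp

end basic


/-- A "prime corner": `a ∈ A` with `A / aA` a field `F` (via `π`) and `a ≡ 1 mod N`. -/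
structure Corner {F : Type*} [Field F] (N a : A) (π : A →+* F) : Prop where
  surj : Function.Surjective π
  ker : ∀ x : A, π x = 0 → a ∣ x
  map_a : π a = 0
  cong : N ∣ a - 1

section symbol

variable {N : A} {M : Type*} [AddCommGroup M] {ψ : SpecialLinearGroup (Fin 2) A → M}
variable {F : Type*} [Field F] {a : A} {π : A →+* F}

lemma Corner.map_N_ne (hC : Corner N a π) : π N ≠ 0 := by
  obtain ⟨t, ht⟩ := hC.cong
  intro h
  have := congrArg π ht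
  simp [hC.map_a, h] at this

lemma Corner.exists_row (hC : Corner N a π) (β : A) (hβ : π β ≠ 0) :
    ∃ g : SpecialLinearGroup (Fin 2) A, N ∣ g 1 0 ∧ g 0 0 = a ∧ g 0 1 = β := by
  obtain ⟨y, hy⟩ := hC.surj ((π (N * β))⁻¹)
  have hne : π (N * β) ≠ 0 := by
    rw [map_mul]; exact mul_ne_zero hC.map_N_ne hβ
  have h0 : π (1 - N * β * y) = 0 := by
    rw [map_sub, map_one, map_mul, hy, mul_inv_cancel₀ hne, sub_self]
  obtain ⟨d, hd⟩ := hC.ker _ h0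
  exact ⟨mkSL a β (-(N * y)) d (by linear_combination (-1 : A) * hd), by simp, rfl, rfl⟩

lemma Corner.exists_col (hC : Corner N a π) (c : A) (hc : N ∣ c) (hπc : π c ≠ 0) :
    ∃ g : SpecialLinearGroup (Fin 2) A, N ∣ g 1 0 ∧ g 0 0 = a ∧ g 1 0 = c := by
  obtain ⟨b, hb⟩ := hC.surj (-(π c)⁻¹)
  have h0 : π (1 + b * c) = 0 := by
    rw [map_add, map_one, map_mul, hb, neg_mul, inv_mul_cancel₀ hπc, add_neg_cancel]
  obtain ⟨d, hd⟩ := hC.ker _ h0
  exact ⟨mkSL a b c d (by linear_combination (-1 : A) * hd), hc, rfl, rfl⟩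

lemma Corner.pi_mul (hC : Corner N a π) (g : SpecialLinearGroup (Fin 2) A)
    (h0 : g 0 0 = a) : π (g 0 1) * π (g 1 0) = -1 := by
  have h := congrArg π (det_eq g)
  rw [map_sub, map_mul, map_mul, map_one, h0, hC.map_a, zero_mul, zero_sub] at h
  linear_combination (-1 : F) * h

lemma Corner.pi_row_ne (hC : Corner N a π) (g : SpecialLinearGroup (Fin 2) A)
    (h0 : g 0 0 = a) : π (g 0 1) ≠ 0 := by
  intro h
  have := hC.pi_mul g h0
  rw [h, zero_mul] at this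
  exact absurd this (by simp)

open Classical in
/-- The row symbol `f(x) = ψ(g)` for `g ∈ G_N` with first row `(a, β)`, `π β = x`. -/
noncomputable def symb (ψ : SpecialLinearGroup (Fin 2) A → M) (N a : A) (π : A →+* F)
    (x : F) : M :=
  if h : ∃ g : SpecialLinearGroup (Fin 2) A, N ∣ g 1 0 ∧ g 0 0 = a ∧ π (g 0 1) = x then
    ψ h.choose else 0

lemma symb_eq (hψ : SymbHom N ψ) (hC : Corner N a π) {g : SpecialLinearGroup (Fin 2) A}
    (hg : N ∣ g 1 0) (h0 : g 0 0 = a) : ψ g = symb ψ N a π (π (g 0 1)) := by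
  have hex : ∃ g' : SpecialLinearGroup (Fin 2) A, N ∣ g' 1 0 ∧ g' 0 0 = a ∧
      π (g' 0 1) = π (g 0 1) := ⟨g, hg, h0, rfl⟩
  rw [symb, dif_pos hex]
  obtain ⟨m', h0', h1'⟩ := hex.choose_spec
  set g' := hex.choose
  have hk : π (g 0 1 - g' 0 1) = 0 := by rw [map_sub, h1', sub_self]
  obtain ⟨x, hx⟩ := hC.ker _ hk
  have hrow : ψ g = ψ (g' * uu x) := by
    apply hψ.row_eq (mem_mul m' (mem_uu x)) hg
    · rw [mul_00]; simp [h0, h0']
    · rw [mul_01]; simp only [uu_01, uu_11, h0']; linear_combination hx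
  rw [hrow, hψ.map_mul _ _ m' (mem_uu x), hψ.map_u, add_zero]

lemma symb_one (hψ : SymbHom N ψ) (hC : Corner N a π) : symb ψ N a π 1 = 0 := by
  obtain ⟨t, ht⟩ := hC.cong
  have m1 : N ∣ (ll (a - 1)) 1 0 := by simp [ht]
  have h := symb_eq hψ hC (g := uu 1 * ll (a - 1)) (mem_mul (mem_uu 1) m1)
    (by rw [mul_00]; simp)
  rw [mul_01] at h
  simp only [uu_00, ll_01, mul_zero, uu_01, ll_11, mul_one, zero_add, map_one] at h
  rw [← h, hψ.map_mul _ _ (mem_uu 1) m1, hψ.map_u, ht, hψ.map_l, add_zero]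

/-- invariance under squares of units -/
lemma symb_sq_mul (hψ : SymbHom N ψ) (hC : Corner N a π) (v : Aˣ) (x : F)
    (hx : x ≠ 0) : symb ψ N a π (π ((v : A) ^ 2) * x) = symb ψ N a π x := by
  obtain ⟨β, rfl⟩ := hC.surj x
  obtain ⟨g, mg, g0, g1⟩ := hC.exists_row β hx
  have hwv : ((v⁻¹ : Aˣ) : A) * (v : A) = 1 := by simp
  have mg' : N ∣ (hh v * g * (hh v)⁻¹) 1 0 := mem_mul (mem_mul (mem_hh v) mg) (mem_inv (mem_hh v))
  have e0 : (hh v * g * (hh v)⁻¹) 0 0 = a := by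
    rw [mul_00, mul_00, mul_01, inv_00, inv_10]
    simp only [hh_00, hh_01, hh_10, hh_11, g0]
    linear_combination a * hwv
  have e1 : (hh v * g * (hh v)⁻¹) 0 1 = (v : A) ^ 2 * β := by
    rw [mul_01, mul_00, mul_01, inv_01, inv_11]
    simp only [hh_00, hh_01, hh_10, hh_11, g1]
    ring
  have h1 := symb_eq hψ hC mg' e0
  have h2 := symb_eq hψ hC mg g0
  rw [e1, map_mul] at h1
  rw [g1] at h2
  rw [← h1, ← h2, hψ.map_mul _ _ (mem_mul (mem_hh v) mg) (mem_inv (mem_hh v)),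
    hψ.map_mul _ _ (mem_hh v) mg, hψ.map_inv (mem_hh v)]
  abel


lemma hh_sq_mem (v : Aˣ) : N ∣ (hh (v ^ 2)) 1 0 := mem_hh _

/-- **The triple-product relation (T).** -/
theorem symb_triple (hψ : SymbHom N ψ) (hC : Corner N a π) (kt e : A) (v : Aˣ)
    (hU : kt * (N * e) = (v : A) ^ 2 - 1) (x : F) (hx : x ≠ 0)
    (hxk : x + π kt ≠ 0) (hden : 1 - π (N * e) * x ≠ 0) :
    symb ψ N a π ((x + π kt) / (1 - π (N * e) * x)) =
      symb ψ N a π (x + π kt) - symb ψ N a π x + symb ψ N a π (x / (1 - π (N * e) * x)) := by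
  obtain ⟨β, rfl⟩ := hC.surj x
  obtain ⟨g₂, m₂, a₂, b₂⟩ := hC.exists_row β hx
  obtain ⟨g₁, m₁, a₁, b₁⟩ := hC.exists_row (β + kt) (by rwa [map_add])
  have hp₂ := hC.pi_mul g₂ a₂
  rw [b₂] at hp₂
  have hc₂ : π (g₂ 1 0) = -(π β)⁻¹ := by
    field_simp
    linear_combination hp₂
  have hπc₃ : π (g₂ 1 0 + N * e) = -(1 - π (N * e) * π β) / π β := by
    rw [map_add, hc₂]
    field_simp
    ring
  obtain ⟨g₃, m₃, a₃, c₃⟩ := hC.exists_col (g₂ 1 0 + N * e) (dvd_add m₂ (dvd_mul_right N e))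
    (by rw [hπc₃]; exact div_ne_zero (neg_ne_zero.mpr hden) hx)
  have hp₃ := hC.pi_mul g₃ a₃
  rw [c₃, hπc₃] at hp₃
  have hb₃ : π (g₃ 0 1) = π β / (1 - π (N * e) * π β) := by
    rw [eq_div_iff hden]
    field_simp at hp₃
    linear_combination (-1 : F) * hp₃
  -- the product
  have mP : N ∣ (g₁ * g₂⁻¹ * g₃) 1 0 := mem_mul (mem_mul m₁ (mem_inv m₂)) m₃
  have hdet₂ := det_eq g₂
  rw [a₂, b₂] at hdet₂
  have hP00 : (g₁ * g₂⁻¹ * g₃) 0 0 = a * (v : A) ^ 2 := by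
    rw [mul_00, mul_00, mul_01, inv_00, inv_01, inv_10, inv_11, a₁, b₁, a₂, b₂, a₃, c₃]
    linear_combination a * hdet₂ + a * hU
  have hP01 : π ((g₁ * g₂⁻¹ * g₃) 0 1) = (π β + π kt) / (1 - π (N * e) * π β) := by
    rw [mul_01, mul_00, mul_01, inv_00, inv_01, inv_10, inv_11, a₁, b₁, a₂, b₂]
    simp only [map_add, map_mul, map_neg, hC.map_a, hb₃, hc₂]
    field_simp
    ring
  have hψP : ψ (g₁ * g₂⁻¹ * g₃) = symb ψ N a π (π β + π kt) - symb ψ N a π (π β)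
      + symb ψ N a π (π β / (1 - π (N * e) * π β)) := by
    rw [hψ.map_mul _ _ (mem_mul m₁ (mem_inv m₂)) m₃, hψ.map_mul _ _ m₁ (mem_inv m₂),
      hψ.map_inv m₂, symb_eq hψ hC m₁ a₁, symb_eq hψ hC m₂ a₂, symb_eq hψ hC m₃ a₃, b₁, b₂,
      hb₃, map_add]
    abel
  -- move the unit `v²` away
  obtain ⟨u2, hu2⟩ : ∃ u2 : Aˣ, (u2 : A) = (v : A) ^ 2 := ⟨v ^ 2, Units.val_pow_eq_pow_val v 2⟩
  have hw2 : ((u2⁻¹ : Aˣ) : A) * (v : A) ^ 2 = 1 := by rw [← hu2]; simp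
  have hv2 : N ∣ (u2 : A) - 1 := by
    rw [hu2, ← hU]
    exact ⟨kt * e, by ring⟩
  have hκ : ψ (hh u2) = 0 := hψ.map_hh_eq_zero u2 hv2
  have mQ : N ∣ (g₁ * g₂⁻¹ * g₃ * (hh u2)⁻¹) 1 0 := mem_mul mP (mem_inv (mem_hh _))
  have hQ00 : (g₁ * g₂⁻¹ * g₃ * (hh u2)⁻¹) 0 0 = a := by
    rw [mul_00, inv_00, inv_10, hP00]
    simp only [hh_11, hh_10, neg_zero, mul_zero, add_zero]
    linear_combination a * hw2
  have hQ01 : (g₁ * g₂⁻¹ * g₃ * (hh u2)⁻¹) 0 1 = (v : A) ^ 2 * (g₁ * g₂⁻¹ * g₃) 0 1 := by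
    rw [mul_01, inv_01, inv_11]
    simp only [hh_01, hh_00, neg_zero, mul_zero, zero_add, hu2]
    ring
  have hQ := symb_eq hψ hC mQ hQ00
  rw [hQ01, map_mul, symb_sq_mul hψ hC v _ (by
      rw [hP01]; exact div_ne_zero hxk hden), hP01,
    hψ.map_mul _ _ mP (mem_inv (mem_hh _)), hψ.map_inv (mem_hh _), hκ, neg_zero, add_zero,
    hψP] at hQ
  rw [← hQ]

end symbol


section final

variable {F : Type*} [Field F] {H : Type*} [AddCommGroup H]

open Classical in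
/-- **[ROW]+[TRI]** (Steps 1–3 of the `[CSP-ab]` proof, generic commutative ring `A`). -/
theorem exists_symbol (N : A) (G : Subgroup (SpecialLinearGroup (Fin 2) A))
    (hG : ∀ g, g ∈ G ↔ N ∣ g 1 0) (ψ : G → H) (hmul : ∀ g h : G, ψ (g * h) = ψ g + ψ h)
    (hu : ∀ g : G, g.1 0 0 = 1 → g.1 1 0 = 0 → ψ g = 0)
    (hl : ∀ g : G, g.1 0 0 = 1 → g.1 0 1 = 0 → ψ g = 0)
    (a : A) (haN : N ∣ a - 1) (φ : A →+* F) (hφ : Function.Surjective φ)
    (hker : ∀ x, φ x = 0 ↔ a ∣ x) :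
    ∃ f : F → H,
      (∀ g : G, g.1 0 0 = a → ψ g = f (φ (g.1 0 1))) ∧
      f 1 = 0 ∧
      (∀ (w : Aˣ) (x : F), x ≠ 0 → f (φ ((w : A) ^ 2) * x) = f x) ∧
      (∀ (kt : A) (w : Aˣ), N * kt ∣ (w : A) ^ 2 - 1 → φ kt ≠ 0 → ∀ β : F, β ≠ 0 →
        β + φ kt ≠ 0 → 1 - (φ ((w : A) ^ 2) - 1) / φ kt * β ≠ 0 →
        f ((β + φ kt) / (1 - (φ ((w : A) ^ 2) - 1) / φ kt * β)) =
          f (β + φ kt) - f β + f (β / (1 - (φ ((w : A) ^ 2) - 1) / φ kt * β))) := by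
  set ψ' : SpecialLinearGroup (Fin 2) A → H := fun g => if h : g ∈ G then ψ ⟨g, h⟩ else 0
    with hψ'
  have hval : ∀ g : G, ψ' g.1 = ψ g := by
    intro g
    simp only [hψ', dif_pos g.2]
  have hS : SymbHom N ψ' := by
    refine ⟨?_, ?_, ?_⟩
    · intro g h hg hh'
      have h1 : g ∈ G := (hG g).mpr hg
      have h2 : h ∈ G := (hG h).mpr hh'
      have := hmul ⟨g, h1⟩ ⟨h, h2⟩
      rw [← hval, ← hval ⟨g, h1⟩, ← hval ⟨h, h2⟩] at this
      exact this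
    · intro x
      have h1 : uu x ∈ G := (hG _).mpr (mem_uu x)
      have h2 := hval ⟨uu x, h1⟩
      rw [show ((⟨uu x, h1⟩ : G) : SpecialLinearGroup (Fin 2) A) = uu x from rfl] at h2
      rw [h2]
      exact hu ⟨uu x, h1⟩ rfl rfl
    · intro y
      have h1 : ll (N * y) ∈ G := (hG _).mpr (mem_ll y)
      have h2 := hval ⟨ll (N * y), h1⟩
      rw [show ((⟨ll (N * y), h1⟩ : G) : SpecialLinearGroup (Fin 2) A) = ll (N * y) from rfl]
        at h2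
      rw [h2]
      exact hl ⟨ll (N * y), h1⟩ rfl rfl
  have hC : Corner N a φ := ⟨hφ, fun x hx => (hker x).mp hx, (hker a).mpr dvd_rfl, haN⟩
  refine ⟨symb ψ' N a φ, ?_, symb_one hS hC, fun w x hx => symb_sq_mul hS hC w x hx, ?_⟩
  · intro g hg
    rw [← hval g]
    exact symb_eq hS hC ((hG g.1).mp g.2) hg
  · intro kt w hdvd hkt β hβ hβk hden
    obtain ⟨e, he⟩ := hdvd
    have hU : kt * (N * e) = (w : A) ^ 2 - 1 := by rw [he]; ring
    have hπe : φ (N * e) = (φ ((w : A) ^ 2) - 1) / φ kt := by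
      rw [eq_div_iff hkt, ← map_mul, ← map_one φ, ← map_sub]
      congr 1
      rw [← hU]; ring
    have := symb_triple hS hC kt e w hU β hβ hβk (by rwa [hπe])
    rwa [hπe] at this

/-- **(✱)** from (T) and admissibility of every class `k` with one fixed class `U`. -/
theorem star_of_adm (N : A) (φ : A →+* F) (f : F → H) (U : F)
    (hT : ∀ (kt : A) (w : Aˣ), N * kt ∣ (w : A) ^ 2 - 1 → φ kt ≠ 0 → ∀ β : F, β ≠ 0 →
        β + φ kt ≠ 0 → 1 - (φ ((w : A) ^ 2) - 1) / φ kt * β ≠ 0 →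
        f ((β + φ kt) / (1 - (φ ((w : A) ^ 2) - 1) / φ kt * β)) =
          f (β + φ kt) - f β + f (β / (1 - (φ ((w : A) ^ 2) - 1) / φ kt * β)))
    (hadm : ∀ k : F, k ≠ 0 → ∃ (kt : A) (w : Aˣ), φ kt = k ∧ N * kt ∣ (w : A) ^ 2 - 1 ∧
        φ ((w : A) ^ 2) = U) :
    ∀ m x : F, m ≠ 0 → m ≠ 1 → m ≠ U → x ≠ 0 →
      f (m * ((m - 1) / (m - U)) * x) - f ((m - 1) / (m - U) * x) = f (m * x) - f x := by
  intro m x hm0 hm1 hmU hx
  have hm1' : m - 1 ≠ 0 := sub_ne_zero.mpr hm1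
  have hmU' : m - U ≠ 0 := sub_ne_zero.mpr hmU
  have hk : (m - 1) * x ≠ 0 := mul_ne_zero hm1' hx
  obtain ⟨kt, w, hkt, hdvd, hw⟩ := hadm _ hk
  have hden : 1 - (U - 1) / ((m - 1) * x) * x = (m - U) / (m - 1) := by
    field_simp
    ring
  have h := hT kt w hdvd (by rw [hkt]; exact hk) x hx
    (by rw [hkt]; intro h0; apply mul_ne_zero hm0 hx; linear_combination h0)
    (by rw [hw, hkt, hden]; exact div_ne_zero hmU' hm1')
  rw [hw, hkt, hden] at h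
  have e1 : (x + (m - 1) * x) / ((m - U) / (m - 1)) = m * ((m - 1) / (m - U)) * x := by
    field_simp
    ring
  have e2 : x / ((m - U) / (m - 1)) = (m - 1) / (m - U) * x := by
    field_simp
  have e3 : x + (m - 1) * x = m * x := by ring
  rw [e1, e2, e3] at h
  rw [h]
  abel

/-- The corner theorem, with `[ADM]` and `[FIN]` as hypotheses: `ψ` vanishes on every element
of `G` with upper-left entry `a`. -/
theorem psi_eq_zero_of_const (N : A) (G : Subgroup (SpecialLinearGroup (Fin 2) A))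
    (hG : ∀ g, g ∈ G ↔ N ∣ g 1 0) (ψ : G → H) (hmul : ∀ g h : G, ψ (g * h) = ψ g + ψ h)
    (hu : ∀ g : G, g.1 0 0 = 1 → g.1 1 0 = 0 → ψ g = 0)
    (hl : ∀ g : G, g.1 0 0 = 1 → g.1 0 1 = 0 → ψ g = 0)
    (a : A) (haN : N ∣ a - 1) (φ : A →+* F) (hφ : Function.Surjective φ)
    (hker : ∀ x, φ x = 0 ↔ a ∣ x) (U : F)
    (hUsq : ∃ w : Aˣ, φ ((w : A) ^ 2) = U)
    (hadm : ∀ k : F, k ≠ 0 → ∃ (kt : A) (w : Aˣ), φ kt = k ∧ N * kt ∣ (w : A) ^ 2 - 1 ∧
        φ ((w : A) ^ 2) = U)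
    (hfin : ∀ f : F → H, (∀ x : F, x ≠ 0 → f (U * x) = f x) →
      (∀ m x : F, m ≠ 0 → m ≠ 1 → m ≠ U → x ≠ 0 →
        f (m * ((m - 1) / (m - U)) * x) - f ((m - 1) / (m - U) * x) = f (m * x) - f x) →
      ∀ x : F, x ≠ 0 → f x = f 1) :
    ∀ g : G, g.1 0 0 = a → ψ g = 0 := by
  obtain ⟨f, hsym, hone, hsq, hT⟩ := exists_symbol N G hG ψ hmul hu hl a haN φ hφ hker
  obtain ⟨w, hw⟩ := hUsq
  have hconst := hfin f (fun x hx => by rw [← hw]; exact hsq w x hx)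
    (star_of_adm N φ f U hT hadm)
  intro g hg
  have hC : Corner N a φ := ⟨hφ, fun x hx => (hker x).mp hx, (hker a).mpr dvd_rfl, haN⟩
  rw [hsym g hg, hconst _ (hC.pi_row_ne g.1 hg), hone]

end final

end Fermat.Agent.P7.CspCore
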