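import Mathlib

/-!
# P7 / S41, gate item [CSP-ab], leaf [GEN-ARITH]

The Dirichlet + sign-trick half of Step 6 of the [CSP-ab] proof, in pure `ℤ` language:
given coprime integers `a₀`, `M` (`M ≠ 0`), an odd prime `p` and a bound `B`, there are
`y : ℤ` and a prime `l > B` with `p ∤ l - 1` and `a₀ + y * M = ± l`.
-/

namespace Fermat.Agent.P7.CspGenArith

/-- Dirichlet's theorem in the form: a prime `l > B` in a given coprime class modulo `m ≠ 0`. -/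
theorem exists_prime_of_class (c m : ℤ) (hm : m ≠ 0) (hc : IsCoprime c m) (B : ℕ) :
    ∃ l : ℕ, l.Prime ∧ B < l ∧ m ∣ (l : ℤ) - c := by
  have hm' : m.natAbs ≠ 0 := Int.natAbs_ne_zero.mpr hm
  have hdvd : ((m.natAbs : ℕ) : ℤ) ∣ m := Int.natAbs_dvd.mpr dvd_rfl
  have hc' : IsCoprime c ((m.natAbs : ℕ) : ℤ) := hc.of_isCoprime_of_dvd_right hdvd
  obtain ⟨l, hBl, hl, hmod⟩ := Nat.forall_exists_prime_gt_and_zmodEq B hm' hc'
  refine ⟨l, hl, hBl, ?_⟩
  have h1 : ((m.natAbs : ℕ) : ℤ) ∣ (l : ℤ) - c := hmod.symm.dvd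
  exact Int.natAbs_dvd.mp h1

/-- **[GEN-ARITH]** For coprime integers `a₀`, `M` with `M ≠ 0`, an odd prime `p` and any bound
`B` there are `y : ℤ` and a prime `l > B` with `p ∤ l - 1` such that `a₀ + y * M = l` or
`a₀ + y * M = -l`. -/
theorem exists_prime_rep {p : ℕ} (hp : p.Prime) (hp2 : p ≠ 2) (a₀ M : ℤ) (hM : M ≠ 0)
    (hcop : IsCoprime a₀ M) (B : ℕ) :
    ∃ (y : ℤ) (l : ℕ), l.Prime ∧ B < l ∧ ¬ p ∣ l - 1 ∧
      (a₀ + y * M = l ∨ a₀ + y * M = -(l : ℤ)) := by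
  have hpZ : Prime (p : ℤ) := Nat.prime_iff_prime_int.mp hp
  have hp0 : (p : ℤ) ≠ 0 := by exact_mod_cast hp.ne_zero
  have h2 : ¬ (p : ℤ) ∣ 2 := by
    intro h
    have h' : p ∣ 2 := by exact_mod_cast h
    exact hp2 ((Nat.prime_dvd_prime_iff_eq hp Nat.prime_two).mp h')
  have h1 : ¬ (p : ℤ) ∣ 1 := fun h => hpZ.not_isUnit (isUnit_of_dvd_one h)
  -- the residue class `c` modulo `M * p` and the sign `ε`
  have key : ∃ c ε : ℤ, (ε = 1 ∨ ε = -1) ∧ IsCoprime c (M * p) ∧ M ∣ c - ε * a₀ ∧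
      ¬ (p : ℤ) ∣ c - 1 := by
    by_cases hpM : (p : ℤ) ∣ M
    · have hap : IsCoprime a₀ (p : ℤ) := hcop.of_isCoprime_of_dvd_right hpM
      by_cases ha1 : (p : ℤ) ∣ a₀ - 1
      · refine ⟨-a₀, -1, Or.inr rfl, (hcop.mul_right hap).neg_left, ⟨0, by ring⟩, ?_⟩
        intro h
        have h3 := dvd_add h ha1
        have h4 : (-a₀ - 1) + (a₀ - 1) = -2 := by ring
        rw [h4] at h3
        exact h2 (dvd_neg.mp h3)
      · exact ⟨a₀, 1, Or.inl rfl, hcop.mul_right hap, ⟨0, by ring⟩, ha1⟩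
    · have hMp : IsCoprime M (p : ℤ) := by
        rw [isCoprime_comm]; exact hpZ.coprime_iff_not_dvd.mpr hpM
      obtain ⟨s, t, hst⟩ := hMp
      have hc2 : a₀ + (2 - a₀) * s * M = 2 + (-(2 - a₀) * t) * p := by
        linear_combination (2 - a₀) * hst
      refine ⟨a₀ + (2 - a₀) * s * M, 1, Or.inl rfl, IsCoprime.mul_right ?_ ?_,
        ⟨(2 - a₀) * s, by ring⟩, ?_⟩
      · exact IsCoprime.add_mul_right_left_iff.mpr hcop
      · rw [hc2]
        refine IsCoprime.add_mul_right_left_iff.mpr ?_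
        rw [isCoprime_comm]; exact hpZ.coprime_iff_not_dvd.mpr h2
      · intro h
        have hc1 : a₀ + (2 - a₀) * s * M - 1 = 1 + (-(2 - a₀) * t) * p := by
          linear_combination (2 - a₀) * hst
        rw [hc1] at h
        exact h1 ((dvd_add_left (dvd_mul_left _ _)).mp h)
  obtain ⟨c, ε, hε, hcc, hMc, hpc⟩ := key
  obtain ⟨l, hl, hBl, hdvd⟩ := exists_prime_of_class c (M * p) (mul_ne_zero hM hp0) hcc B
  have hMl : M ∣ (l : ℤ) - ε * a₀ := by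
    have h3 : M ∣ (l : ℤ) - c := (dvd_mul_right M p).trans hdvd
    have h4 := dvd_add h3 hMc
    have h5 : ((l : ℤ) - c) + (c - ε * a₀) = (l : ℤ) - ε * a₀ := by ring
    rwa [h5] at h4
  have hpl : ¬ p ∣ l - 1 := by
    intro h
    have h' : (p : ℤ) ∣ (l : ℤ) - 1 := by
      have h3 : (p : ℤ) ∣ ((l - 1 : ℕ) : ℤ) := by exact_mod_cast h
      rwa [Nat.cast_sub hl.one_le, Nat.cast_one] at h3
    have h'' : (p : ℤ) ∣ (l : ℤ) - c := (dvd_mul_left (p : ℤ) M).trans hdvd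
    have h3 := dvd_sub h' h''
    have h4 : ((l : ℤ) - 1) - ((l : ℤ) - c) = c - 1 := by ring
    rw [h4] at h3
    exact hpc h3
  obtain ⟨y, hy⟩ := hMl
  rcases hε with rfl | rfl
  · exact ⟨y, l, hl, hBl, hpl, Or.inl (by linear_combination -hy)⟩
  · exact ⟨-y, l, hl, hBl, hpl, Or.inr (by linear_combination hy)⟩

end Fermat.Agent.P7.CspGenArith
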