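/-
P7 [SHAP] (helper69): the cochain-level Shapiro dictionary in degree 1, left-coset convention,
built on the landed `S21.PermDim.psec / pkap` (`X = G ⧸ Γ`, `pkap (g*h) x = pkap g (h • x) * pkap h x`).

For an additive map `φ : Γ → A` the cocycle is `zc φ g x := φ (pkap Γ g x)`.
* `zc_mul`, `zc_pow`, `zc_base` (`zc φ γ x0 = φ γ`);
* Mackey / orbit sums: `φ` kills the `Γ`-elements conjugate to powers of `t`
  iff all closed-orbit sums of `zc φ t` vanish iff `zc φ t = n ∘ t - n` (`X` finite);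
* the transfer `trf φ g = ∑ x, φ (pkap Γ g x)` is additive and vanishes at `t` when `φ` kills `t`;
* a cocycle that is a coboundary on generators gives `φ = 0`.
-/
import Mathlib
import Fermat.Agent.S21.PermDim

set_option autoImplicit false

namespace Fermat.Agent.P7.Shap

open Fermat.Agent.S21.PermDim

/-! ### Primitives along the cycles of a permutation -/

section Perm

variable {X : Type*} [Finite X] {A : Type*} [AddCommGroup A]

/-- A function whose sums over all closed orbit segments of a permutation vanish is a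
"coboundary" `n ∘ g - n`. -/
theorem exists_primitive (g : Equiv.Perm X) (c : X → A)
    (h : ∀ (x : X) (e : ℕ), (g ^ e) x = x → ∑ i ∈ Finset.range e, c ((g ^ i) x) = 0) :
    ∃ n : X → A, ∀ x, c x = n (g x) - n x := by
  classical
  -- orbit representative
  let r : X → X := fun x => (Quotient.out (s := Equiv.Perm.SameCycle.setoid g) ⟦x⟧)
  have hr : ∀ x, g.SameCycle (r x) x := fun x =>
    Quotient.exact (s := Equiv.Perm.SameCycle.setoid g) (Quotient.out_eq _)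
  have hrg : ∀ x, r (g x) = r x := by
    intro x
    have : (⟦g x⟧ : Quotient (Equiv.Perm.SameCycle.setoid g)) = ⟦x⟧ :=
      Quotient.sound (s := Equiv.Perm.SameCycle.setoid g)
        ((Equiv.Perm.sameCycle_apply_left).mpr (Equiv.Perm.SameCycle.refl g x))
    simp only [r, this]
  have hj : ∀ x, ∃ j : ℕ, (g ^ j) (r x) = x := fun x => (hr x).exists_nat_pow_eq
  choose j hj using hj
  -- segment sums from a base point only depend on the end point
  have key : ∀ (y : X) (a b : ℕ), (g ^ a) y = (g ^ b) y →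
      ∑ i ∈ Finset.range a, c ((g ^ i) y) = ∑ i ∈ Finset.range b, c ((g ^ i) y) := by
    have aux : ∀ (y : X) (a b : ℕ), a ≤ b → (g ^ a) y = (g ^ b) y →
        ∑ i ∈ Finset.range a, c ((g ^ i) y) = ∑ i ∈ Finset.range b, c ((g ^ i) y) := by
      intro y a b hab hy
      obtain ⟨d, rfl⟩ := Nat.exists_eq_add_of_le hab
      rw [Finset.sum_range_add]
      have h0 := h ((g ^ a) y) d (by
        rw [← Equiv.Perm.mul_apply, ← pow_add, add_comm]; exact hy.symm)
      have h1 : ∑ i ∈ Finset.range d, c ((g ^ (a + i)) y)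
          = ∑ i ∈ Finset.range d, c ((g ^ i) ((g ^ a) y)) := by
        refine Finset.sum_congr rfl fun i _ => ?_
        rw [← Equiv.Perm.mul_apply, ← pow_add, add_comm]
      rw [h1, h0, add_zero]
    intro y a b hy
    rcases le_total a b with hab | hab
    · exact aux y a b hab hy
    · exact (aux y b a hab hy.symm).symm
  refine ⟨fun x => ∑ i ∈ Finset.range (j x), c ((g ^ i) (r x)), fun x => ?_⟩
  have e1 : (g ^ (j (g x))) (r x) = (g ^ (j x + 1)) (r x) := by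
    have := hj (g x)
    rw [hrg] at this
    rw [this, pow_succ', Equiv.Perm.mul_apply, hj x]
  have e2 := key (r x) _ _ e1
  simp only [hrg]
  rw [e2, Finset.sum_range_succ, hj x]
  abel

end Perm

/-! ### The Shapiro cocycle -/

section Shapiro

variable {G : Type*} [Group G] (Γ : Subgroup G) {A : Type*} [AddCommGroup A]

/-- The base point of `G ⧸ Γ`. -/
abbrev x0 : G ⧸ Γ := ((1 : G) : G ⧸ Γ)

theorem pkap_one (x : G ⧸ Γ) : pkap Γ 1 x = 1 := by
  have h := pkap_mul Γ 1 1 x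
  rw [mul_one, one_smul] at h
  exact (mul_eq_left.mp h.symm)

theorem pkap_inv (g : G) (x : G ⧸ Γ) : pkap Γ g⁻¹ x = (pkap Γ g (g⁻¹ • x))⁻¹ := by
  have h := pkap_mul Γ g g⁻¹ x
  rw [mul_inv_cancel, pkap_one] at h
  exact eq_inv_of_mul_eq_one_right h.symm

theorem pkap_pow_succ (t : G) (j : ℕ) (x : G ⧸ Γ) :
    pkap Γ (t ^ (j + 1)) x = pkap Γ t (t ^ j • x) * pkap Γ (t ^ j) x := by
  rw [pow_succ', pkap_mul]

theorem coe_pkap_of_fixed {g : G} {x : G ⧸ Γ} (h : g • x = x) :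
    (pkap Γ g x : G) = (psec Γ x)⁻¹ * g * psec Γ x := by
  simp only [pkap, h]

theorem smul_x0 (γ : Γ) : (γ : G) • x0 Γ = x0 Γ := by
  rw [smul_coe_eq, eq_comm, QuotientGroup.eq]
  simp

theorem psec_x0_mem : psec Γ (x0 Γ) ∈ Γ := by
  have h := QuotientGroup.eq.mp (psec_spec Γ (x0 Γ)).symm
  simpa using h

theorem pkap_x0 (γ : Γ) :
    pkap Γ (γ : G) (x0 Γ) = (⟨psec Γ (x0 Γ), psec_x0_mem Γ⟩ : Γ)⁻¹ * γ
      * ⟨psec Γ (x0 Γ), psec_x0_mem Γ⟩ := by
  apply Subtype.ext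
  simp only [pkap, smul_x0 Γ γ, Subgroup.coe_mul, Subgroup.coe_inv]

/-- `u⁻¹ t u ∈ Γ` iff `t` fixes the coset `uΓ`. -/
theorem smul_coe_eq_self_iff (t u : G) : t • ((u : G) : G ⧸ Γ) = ((u : G) : G ⧸ Γ) ↔
    u⁻¹ * t * u ∈ Γ := by
  rw [smul_coe_eq, eq_comm, QuotientGroup.eq, mul_assoc]

/-- A `Γ`-element of the form `u⁻¹ t u` is `Γ`-conjugate to `pkap t (uΓ)`. -/
theorem exists_conj_pkap (t u : G) (h : u⁻¹ * t * u ∈ Γ) :
    ∃ a : Γ, pkap Γ t ((u : G) : G ⧸ Γ) = a⁻¹ * ⟨u⁻¹ * t * u, h⟩ * a := by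
  have hfix := (smul_coe_eq_self_iff Γ t u).mpr h
  have ha : u⁻¹ * psec Γ ((u : G) : G ⧸ Γ) ∈ Γ :=
    QuotientGroup.eq.mp (psec_spec Γ ((u : G) : G ⧸ Γ)).symm
  refine ⟨⟨_, ha⟩, Subtype.ext ?_⟩
  rw [coe_pkap_of_fixed Γ hfix]
  simp only [Subgroup.coe_mul, Subgroup.coe_inv]
  group

variable {Γ}

/-- Additivity of a function on `Γ`. -/
def IsAdd (φ : Γ → A) : Prop := ∀ a b : Γ, φ (a * b) = φ a + φ b

theorem IsAdd.map_one {φ : Γ → A} (hφ : IsAdd φ) : φ 1 = 0 := by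
  have h := hφ 1 1
  rw [mul_one] at h
  exact (add_eq_left.mp h.symm)

theorem IsAdd.map_inv {φ : Γ → A} (hφ : IsAdd φ) (a : Γ) : φ a⁻¹ = -φ a := by
  have h := hφ a a⁻¹
  rw [mul_inv_cancel, hφ.map_one] at h
  exact eq_neg_of_add_eq_zero_right h.symm

theorem IsAdd.map_conj {φ : Γ → A} (hφ : IsAdd φ) (a b : Γ) : φ (a⁻¹ * b * a) = φ b := by
  rw [hφ, hφ, hφ.map_inv]; abel

variable (Γ)

/-- The Shapiro cocycle of `φ`. -/
noncomputable def zc (φ : Γ → A) (g : G) (x : G ⧸ Γ) : A := φ (pkap Γ g x)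

variable {Γ}

theorem zc_mul {φ : Γ → A} (hφ : IsAdd φ) (g h : G) (x : G ⧸ Γ) :
    zc Γ φ (g * h) x = zc Γ φ g (h • x) + zc Γ φ h x := by
  simp only [zc, pkap_mul, hφ _ _]

theorem zc_one {φ : Γ → A} (hφ : IsAdd φ) (x : G ⧸ Γ) : zc Γ φ 1 x = 0 := by
  simp only [zc, pkap_one, hφ.map_one]

theorem zc_inv {φ : Γ → A} (hφ : IsAdd φ) (g : G) (x : G ⧸ Γ) :
    zc Γ φ g⁻¹ x = - zc Γ φ g (g⁻¹ • x) := by
  simp only [zc, pkap_inv, hφ.map_inv]

theorem zc_pow {φ : Γ → A} (hφ : IsAdd φ) (t : G) (n : ℕ) (x : G ⧸ Γ) :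
    zc Γ φ (t ^ n) x = ∑ i ∈ Finset.range n, zc Γ φ t (t ^ i • x) := by
  induction n with
  | zero => simp [zc_one hφ]
  | succ n ih => rw [pow_succ', zc_mul hφ, Finset.sum_range_succ, ih]; abel

/-- Base point evaluation recovers `φ`. -/
theorem zc_base {φ : Γ → A} (hφ : IsAdd φ) (γ : Γ) : zc Γ φ (γ : G) (x0 Γ) = φ γ := by
  simp only [zc, pkap_x0, hφ.map_conj]

/-- `φ` kills every element of `Γ` that is `G`-conjugate to a power of `t`. -/
def Kills (φ : Γ → A) (t : G) : Prop :=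
  ∀ (u : G) (e : ℕ) (h : u⁻¹ * t ^ e * u ∈ Γ), φ ⟨u⁻¹ * t ^ e * u, h⟩ = 0

/-- Closed-orbit values of the cocycle are values of `φ` on conjugates of powers. -/
theorem zc_pow_of_fixed {φ : Γ → A} (hφ : IsAdd φ) (t u : G) (e : ℕ)
    (h : u⁻¹ * t ^ e * u ∈ Γ) :
    zc Γ φ (t ^ e) ((u : G) : G ⧸ Γ) = φ ⟨u⁻¹ * t ^ e * u, h⟩ := by
  obtain ⟨a, ha⟩ := exists_conj_pkap Γ (t ^ e) u h
  simp only [zc, ha, hφ.map_conj]

theorem Kills.zc_pow_eq_zero {φ : Γ → A} (hφ : IsAdd φ) {t : G} (hk : Kills φ t)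
    (x : G ⧸ Γ) (e : ℕ) (hx : t ^ e • x = x) : zc Γ φ (t ^ e) x = 0 := by
  induction x using QuotientGroup.induction_on with
  | H u =>
    have h := (smul_coe_eq_self_iff Γ (t ^ e) u).mp hx
    rw [zc_pow_of_fixed hφ t u e h, hk u e h]

theorem Kills.sum_eq_zero {φ : Γ → A} (hφ : IsAdd φ) {t : G} (hk : Kills φ t)
    (x : G ⧸ Γ) (e : ℕ) (hx : t ^ e • x = x) :
    ∑ i ∈ Finset.range e, zc Γ φ t (t ^ i • x) = 0 := by
  rw [← zc_pow hφ, hk.zc_pow_eq_zero hφ x e hx]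

theorem kills_of_sums {φ : Γ → A} (hφ : IsAdd φ) {t : G}
    (h : ∀ (x : G ⧸ Γ) (e : ℕ), t ^ e • x = x → ∑ i ∈ Finset.range e, zc Γ φ t (t ^ i • x) = 0) :
    Kills φ t := by
  intro u e hu
  rw [← zc_pow_of_fixed hφ t u e hu, zc_pow hφ]
  exact h _ e ((smul_coe_eq_self_iff Γ (t ^ e) u).mpr hu)

theorem kills_of_primitive {φ : Γ → A} (hφ : IsAdd φ) {t : G} (n : G ⧸ Γ → A)
    (hn : ∀ x, zc Γ φ t x = n (t • x) - n x) : Kills φ t := by
  refine kills_of_sums hφ fun x e hx => ?_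
  have : ∀ m : ℕ, ∑ i ∈ Finset.range m, zc Γ φ t (t ^ i • x) = n (t ^ m • x) - n x := by
    intro m
    induction m with
    | zero => simp
    | succ m ih => rw [Finset.sum_range_succ, ih, hn, pow_succ', mul_smul]; abel
  rw [this, hx, sub_self]

/-- **Mackey (0)**: if `φ` kills the conjugates of powers of `t` then `zc φ t` is a coboundary
along `t`. -/
theorem Kills.exists_primitive [Finite (G ⧸ Γ)] {φ : Γ → A} (hφ : IsAdd φ) {t : G}
    (hk : Kills φ t) : ∃ n : G ⧸ Γ → A, ∀ x, zc Γ φ t x = n (t • x) - n x := by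
  have hpow : ∀ (i : ℕ) (x : G ⧸ Γ), ((MulAction.toPerm t : Equiv.Perm (G ⧸ Γ)) ^ i) x = t ^ i • x := by
    intro i
    induction i with
    | zero => intro x; simp
    | succ i ih => intro x; rw [pow_succ', Equiv.Perm.mul_apply, ih, pow_succ', mul_smul]; rfl
  obtain ⟨n, hn⟩ := Shap.exists_primitive (MulAction.toPerm t : Equiv.Perm (G ⧸ Γ))
    (fun x => zc Γ φ t x) (by
      intro x e hx
      rw [hpow] at hx
      simp only [hpow]
      exact hk.sum_eq_zero hφ x e hx)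
  exact ⟨n, fun x => hn x⟩

theorem kills_iff_exists_primitive [Finite (G ⧸ Γ)] {φ : Γ → A} (hφ : IsAdd φ) (t : G) :
    Kills φ t ↔ ∃ n : G ⧸ Γ → A, ∀ x, zc Γ φ t x = n (t • x) - n x :=
  ⟨fun hk => hk.exists_primitive hφ, fun ⟨n, hn⟩ => kills_of_primitive hφ n hn⟩

/-- Elements of finite order: `t ^ m = 1` and `A` has no `m`-torsion … not needed; instead: an
element with `t ^ m = 1` is killed as soon as `φ` kills finite-order elements of `Γ`. -/
theorem kills_of_finOrder {φ : Γ → A} {t : G} {m : ℕ} (hm : 0 < m) (ht : t ^ m = 1)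
    (hfin : ∀ γ : Γ, IsOfFinOrder γ → φ γ = 0) : Kills φ t := by
  intro u e hu
  apply hfin
  rw [isOfFinOrder_iff_pow_eq_one]
  refine ⟨m, hm, Subtype.ext ?_⟩
  simp only [Subgroup.coe_pow, Subgroup.coe_one]
  have h1 : u⁻¹ * t ^ e * u = u⁻¹ * t ^ e * (u⁻¹)⁻¹ := by rw [inv_inv]
  rw [h1, conj_pow, ← pow_mul, mul_comm e m, pow_mul, ht, one_pow]
  group

/-- Injectivity of the dictionary: a cocycle that is a coboundary of one `n` on a generating
set is zero. -/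
theorem eq_zero_of_primitive {φ : Γ → A} (hφ : IsAdd φ) (s : Set G)
    (hs : Subgroup.closure s = ⊤) (n : G ⧸ Γ → A)
    (hn : ∀ t ∈ s, ∀ x, zc Γ φ t x = n (t • x) - n x) (γ : Γ) : φ γ = 0 := by
  have hall : ∀ g : G, ∀ x, zc Γ φ g x = n (g • x) - n x := by
    intro g
    have hg : g ∈ Subgroup.closure s := by rw [hs]; trivial
    induction hg using Subgroup.closure_induction with
    | mem y hy => exact hn y hy
    | one => intro x; rw [zc_one hφ, one_smul, sub_self]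
    | mul y z _ _ hy hz => intro x; rw [zc_mul hφ, hy, hz, mul_smul]; abel
    | inv y _ hy => intro x; rw [zc_inv hφ, hy, smul_inv_smul]; abel
  rw [← zc_base hφ γ, hall, smul_x0, sub_self]

/-! ### The transfer -/

variable (Γ)

/-- The transfer of `φ` to `G` (sum of the Shapiro cocycle over the coset space). -/
noncomputable def trf [Fintype (G ⧸ Γ)] (φ : Γ → A) (g : G) : A := ∑ x, zc Γ φ g x

variable {Γ}

theorem trf_mul [Fintype (G ⧸ Γ)] {φ : Γ → A} (hφ : IsAdd φ) (g h : G) :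
    trf Γ φ (g * h) = trf Γ φ g + trf Γ φ h := by
  simp only [trf, zc_mul hφ, Finset.sum_add_distrib]
  congr 1
  exact Equiv.sum_comp (MulAction.toPerm h) (fun x => zc Γ φ g x)

theorem trf_one [Fintype (G ⧸ Γ)] {φ : Γ → A} (hφ : IsAdd φ) : trf Γ φ 1 = 0 := by
  simp [trf, zc_one hφ]

theorem trf_inv [Fintype (G ⧸ Γ)] {φ : Γ → A} (hφ : IsAdd φ) (g : G) :
    trf Γ φ g⁻¹ = - trf Γ φ g := by
  have h := trf_mul hφ g g⁻¹
  rw [mul_inv_cancel, trf_one hφ] at h
  exact eq_neg_of_add_eq_zero_right h.symm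

theorem Kills.trf_eq_zero [Fintype (G ⧸ Γ)] {φ : Γ → A} (hφ : IsAdd φ) {t : G}
    (hk : Kills φ t) : trf Γ φ t = 0 := by
  obtain ⟨n, hn⟩ := hk.exists_primitive hφ
  simp only [trf, hn, Finset.sum_sub_distrib]
  rw [sub_eq_zero]
  exact Equiv.sum_comp (MulAction.toPerm t) n

/-- **Residue theorem for homs** (no structure theory): if `η` kills the conjugates of powers
of `s` and of `r`, then the total of `zc η (s⁻¹ * r)` over the coset space vanishes. -/
theorem sum_zc_eq_zero_of_kills [Fintype (G ⧸ Γ)] {η : Γ → A} (hη : IsAdd η) {s r : G}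
    (hs : Kills η s) (hr : Kills η r) : ∑ x, zc Γ η (s⁻¹ * r) x = 0 := by
  have h := trf_mul hη s⁻¹ r
  rw [trf_inv hη, hs.trf_eq_zero hη, hr.trf_eq_zero hη] at h
  simpa [trf] using h

end Shapiro

end Fermat.Agent.P7.Shap
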