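import Mathlib
import Fermat.Agent.S21.PermDim
import Fermat.Agent.P7.Shap
import Fermat.Agent.P7.CuspAut

/-
P7 [PD3-AL], orbit form (helper96): the orbit products `pkap Γ (t ^ e) ρ` of a parabolic
generator `t = ± c * T * c⁻¹` of `SL(2, ℤ)` acting on `SL(2, ℤ) ⧸ Γ` are, up to sign, a system of
representatives of the `Γ`-classes of positive primitive parabolic elements
(`orbit_reps`), hence sums of class functions over them are invariant under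
automorphisms induced by integer matrices of positive determinant (`sum_orbit_comp_aut`).
-/

set_option autoImplicit false

namespace Fermat.Agent.P7.CuspOrb

open Matrix ModularGroup
open scoped MatrixGroups
open Fermat.Agent.S21.PermDim Fermat.Agent.P7.CuspAut

variable (Γ : Subgroup SL(2, ℤ))

lemma neg_one_smul' (hneg : -1 ∈ Γ) (x : SL(2, ℤ) ⧸ Γ) : (-1 : SL(2, ℤ)) • x = x := by
  induction x using QuotientGroup.induction_on with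
  | H a =>
    rw [smul_coe_eq, eq_comm, QuotientGroup.eq]
    have : a⁻¹ * (-1 * a) = -1 := by
      rw [neg_one_mul, mul_neg, inv_mul_cancel]
    rw [this]
    exact hneg

lemma neg_smul' (hneg : -1 ∈ Γ) (g : SL(2, ℤ)) (x : SL(2, ℤ) ⧸ Γ) : (-g) • x = g • x := by
  have h1 : -g = g * (-1) := by rw [mul_neg, mul_one]
  rw [h1, mul_smul, neg_one_smul' Γ hneg]

lemma smul_eq_of_eq_or_neg (hneg : -1 ∈ Γ) {t A : SL(2, ℤ)} (h : t = A ∨ t = -A)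
    (x : SL(2, ℤ) ⧸ Γ) : t • x = A • x := by
  rcases h with rfl | rfl
  · rfl
  · exact neg_smul' Γ hneg A x

lemma zpow_smul_eq_of_eq_or_neg (hneg : -1 ∈ Γ) {t A : SL(2, ℤ)} (h : t = A ∨ t = -A)
    (j : ℤ) (x : SL(2, ℤ) ⧸ Γ) : t ^ j • x = A ^ j • x := by
  have hp : MulAction.toPermHom SL(2, ℤ) (SL(2, ℤ) ⧸ Γ) t
      = MulAction.toPermHom SL(2, ℤ) (SL(2, ℤ) ⧸ Γ) A := by
    ext y
    exact smul_eq_of_eq_or_neg Γ hneg h y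
  have h1 : MulAction.toPermHom SL(2, ℤ) (SL(2, ℤ) ⧸ Γ) (t ^ j)
      = MulAction.toPermHom SL(2, ℤ) (SL(2, ℤ) ⧸ Γ) (A ^ j) := by
    rw [map_zpow, map_zpow, hp]
  exact congrArg (fun p : Equiv.Perm (SL(2, ℤ) ⧸ Γ) => p x) h1

lemma pow_smul_eq_of_eq_or_neg (hneg : -1 ∈ Γ) {t A : SL(2, ℤ)} (h : t = A ∨ t = -A)
    (n : ℕ) (x : SL(2, ℤ) ⧸ Γ) : t ^ n • x = A ^ n • x := by
  have := zpow_smul_eq_of_eq_or_neg Γ hneg h (n : ℤ) x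
  simpa using this

lemma pow_eq_or_neg {t A : SL(2, ℤ)} (h : t = A ∨ t = -A) (n : ℕ) :
    t ^ n = A ^ n ∨ t ^ n = -A ^ n := by
  rcases h with rfl | rfl
  · exact Or.inl rfl
  · rw [neg_pow]
    rcases neg_one_pow_eq_or SL(2, ℤ) n with h1 | h1
    · left; rw [h1, one_mul]
    · right; rw [h1, neg_one_mul]

/-- `(psec x)⁻¹ * A * psec x ∈ Γ` iff `A` fixes `x`. -/
lemma conj_psec_mem_iff (A : SL(2, ℤ)) (x : SL(2, ℤ) ⧸ Γ) :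
    (psec Γ x)⁻¹ * A * psec Γ x ∈ Γ ↔ A • x = x := by
  have h := Fermat.Agent.P7.Shap.smul_coe_eq_self_iff Γ A (psec Γ x)
  rw [psec_spec] at h
  exact h.symm

section Main

variable (hneg : -1 ∈ Γ) (c t : SL(2, ℤ)) (ht : t = c * T * c⁻¹ ∨ t = -(c * T * c⁻¹))
  {ι : Type*} (ρ : ι → SL(2, ℤ) ⧸ Γ) (e : ι → ℕ)

/-- The conjugating elements `g i = (psec (ρ i))⁻¹ * c`. -/
noncomputable def gOf (i : ι) : SL(2, ℤ) := (psec Γ (ρ i))⁻¹ * c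

lemma gOf_conj (i : ι) (n : ℕ) :
    gOf Γ c ρ i * T ^ n * (gOf Γ c ρ i)⁻¹
      = (psec Γ (ρ i))⁻¹ * (c * T * c⁻¹) ^ n * psec Γ (ρ i) := by
  rw [gOf, conj_pow]; group

lemma gOf_conj_zpow (i : ι) (n : ℤ) :
    gOf Γ c ρ i * T ^ n * (gOf Γ c ρ i)⁻¹
      = (psec Γ (ρ i))⁻¹ * (c * T * c⁻¹) ^ n * psec Γ (ρ i) := by
  rw [gOf, conj_zpow]; group

include hneg ht in
lemma gOf_conj_mem_iff (i : ι) (n : ℕ) :
    gOf Γ c ρ i * T ^ n * (gOf Γ c ρ i)⁻¹ ∈ Γ ↔ t ^ n • ρ i = ρ i := by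
  rw [gOf_conj, conj_psec_mem_iff, pow_smul_eq_of_eq_or_neg Γ hneg ht]

include ht in
/-- The orbit product is `± g T^e g⁻¹`. -/
lemma coe_pkap_orbit (i : ι) (hfix : t ^ e i • ρ i = ρ i) :
    (pkap Γ (t ^ e i) (ρ i) : SL(2, ℤ)) = gOf Γ c ρ i * T ^ e i * (gOf Γ c ρ i)⁻¹ ∨
    (pkap Γ (t ^ e i) (ρ i) : SL(2, ℤ)) = -(gOf Γ c ρ i * T ^ e i * (gOf Γ c ρ i)⁻¹) := by
  rw [Fermat.Agent.P7.Shap.coe_pkap_of_fixed Γ hfix, gOf_conj]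
  rcases pow_eq_or_neg ht (e i) with h | h
  · left; rw [h]
  · right; rw [h, mul_neg, neg_mul]

include hneg ht in
/-- **Orbit representatives.** If `ρ i` represent the `t`-orbits on `SL(2, ℤ) ⧸ Γ` and `e i` are
the orbit lengths, then `g i * T ^ e i * (g i)⁻¹` (`= ± pkap Γ (t ^ e i) (ρ i)`) represent the
`Γ`-classes of positive primitive parabolic elements. -/
theorem orbit_reps (he : ∀ i, 0 < e i) (hfix : ∀ i, t ^ e i • ρ i = ρ i)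
    (hmin : ∀ i, ∀ k : ℕ, 0 < k → k < e i → t ^ k • ρ i ≠ ρ i)
    (hcover : ∀ x : SL(2, ℤ) ⧸ Γ, ∃ i, ∃ j : ℤ, x = t ^ j • ρ i)
    (huniq : ∀ i i', ∀ j : ℤ, ρ i = t ^ j • ρ i' → i = i') :
    ∃ hmem : ∀ i, gOf Γ c ρ i * T ^ e i * (gOf Γ c ρ i)⁻¹ ∈ Γ,
    (∀ i, IsPosPrim Γ (gOf Γ c ρ i * T ^ e i * (gOf Γ c ρ i)⁻¹)) ∧
    (∀ P : ↥Γ, IsPosPrim Γ P.1 → ∃ i, ∃ γ : ↥Γ,
      P = γ * ⟨gOf Γ c ρ i * T ^ e i * (gOf Γ c ρ i)⁻¹, hmem i⟩ * γ⁻¹) ∧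
    (∀ i j (γ : ↥Γ), (⟨gOf Γ c ρ i * T ^ e i * (gOf Γ c ρ i)⁻¹, hmem i⟩ : ↥Γ)
      = γ * ⟨gOf Γ c ρ j * T ^ e j * (gOf Γ c ρ j)⁻¹, hmem j⟩ * γ⁻¹ → i = j) := by
  have hmem : ∀ i, gOf Γ c ρ i * T ^ e i * (gOf Γ c ρ i)⁻¹ ∈ Γ := fun i =>
    (gOf_conj_mem_iff Γ hneg c t ht ρ i (e i)).mpr (hfix i)
  refine ⟨hmem, ?_⟩
  refine of_orbits Γ hneg (gOf Γ c ρ) e he hmem ?_ ?_ ?_
  · intro i k hk hke hmemk
    exact hmin i k hk hke ((gOf_conj_mem_iff Γ hneg c t ht ρ i k).mp hmemk)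
  · intro g
    obtain ⟨i, j, hj⟩ := hcover (((c * g⁻¹ : SL(2, ℤ)) : SL(2, ℤ) ⧸ Γ))
    rw [zpow_smul_eq_of_eq_or_neg Γ hneg ht] at hj
    conv_rhs at hj => rw [← psec_spec Γ (ρ i), smul_coe_eq]
    have h1 := QuotientGroup.eq.mp hj
    -- h1 : (c * g⁻¹)⁻¹ * ((c T c⁻¹)^j * psec (ρ i)) ∈ Γ
    refine ⟨i, _, h1, -j, ?_⟩
    rw [gOf, conj_zpow]
    simp only [_root_.zpow_neg]
    group
  · intro i i' γ hγ j hs
    apply huniq i i' (-j)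
    rw [zpow_smul_eq_of_eq_or_neg Γ hneg ht]
    -- psec (ρ i) = (c T c⁻¹)^(-j) * psec (ρ i') * γ⁻¹
    have h2 : psec Γ (ρ i) = (c * T * c⁻¹) ^ (-j) * psec Γ (ρ i') * γ⁻¹ := by
      have h3 : (psec Γ (ρ i))⁻¹ = γ * (psec Γ (ρ i'))⁻¹ * c * T ^ j * c⁻¹ := by
        have : (psec Γ (ρ i))⁻¹ = gOf Γ c ρ i * c⁻¹ := by rw [gOf]; group
        rw [this, hs, gOf]; group
      have h4 : psec Γ (ρ i) = ((psec Γ (ρ i))⁻¹)⁻¹ := (inv_inv _).symm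
      rw [h4, h3, conj_zpow]
      simp only [_root_.zpow_neg]
      group
    conv_lhs => rw [← psec_spec Γ (ρ i), h2]
    conv_rhs => rw [← psec_spec Γ (ρ i'), smul_coe_eq]
    rw [QuotientGroup.eq]
    have h5 : ((c * T * c⁻¹) ^ (-j) * psec Γ (ρ i') * γ⁻¹)⁻¹ * ((c * T * c⁻¹) ^ (-j) * psec Γ (ρ i'))
        = γ := by group
    rw [h5]
    exact hγ

include hneg ht in
/-- **(PD3), orbit form.** Sums of a class function `u` (conjugation invariant at positive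
primitive parabolic elements, even under `γ ↦ -γ`) over the orbit products
`pkap Γ (t ^ e i) (ρ i)` are invariant under automorphisms `θ` of `Γ` induced by integer
matrices of positive determinant. -/
theorem sum_orbit_comp_aut [Fintype ι] (he : ∀ i, 0 < e i) (hfix : ∀ i, t ^ e i • ρ i = ρ i)
    (hmin : ∀ i, ∀ k : ℕ, 0 < k → k < e i → t ^ k • ρ i ≠ ρ i)
    (hcover : ∀ x : SL(2, ℤ) ⧸ Γ, ∃ i, ∃ j : ℤ, x = t ^ j • ρ i)
    (huniq : ∀ i i', ∀ j : ℤ, ρ i = t ^ j • ρ i' → i = i')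
    (W : Matrix (Fin 2) (Fin 2) ℤ) (θ : ↥Γ ≃* ↥Γ) (hW : 0 < W.det)
    (hθ : ∀ γ : ↥Γ, W * (γ.1.1 : Matrix (Fin 2) (Fin 2) ℤ)
      = ((θ γ).1.1 : Matrix (Fin 2) (Fin 2) ℤ) * W)
    {k : Type*} [AddCommMonoid k] (u : ↥Γ → k)
    (hu : ∀ γ P : ↥Γ, IsPosPrim Γ P.1 → u (γ * P * γ⁻¹) = u P)
    (hun : ∀ a b : ↥Γ, a.1 = -b.1 → u a = u b) :
    ∑ i, u (θ (pkap Γ (t ^ e i) (ρ i))) = ∑ i, u (pkap Γ (t ^ e i) (ρ i)) := by
  obtain ⟨hmem, h1, h2, h3⟩ := orbit_reps Γ hneg c t ht ρ e he hfix hmin hcover huniq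
  have key := sum_comp_aut W θ
    (fun i => (⟨gOf Γ c ρ i * T ^ e i * (gOf Γ c ρ i)⁻¹, hmem i⟩ : ↥Γ)) h1 h2 h3 hW hθ u hu
  have hL : ∀ i, u (θ (pkap Γ (t ^ e i) (ρ i)))
      = u (θ ⟨gOf Γ c ρ i * T ^ e i * (gOf Γ c ρ i)⁻¹, hmem i⟩) := by
    intro i
    rcases coe_pkap_orbit Γ c t ht ρ e i (hfix i) with h | h
    · have : pkap Γ (t ^ e i) (ρ i) = ⟨gOf Γ c ρ i * T ^ e i * (gOf Γ c ρ i)⁻¹, hmem i⟩ :=
        Subtype.ext h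
      rw [this]
    · exact hun _ _ (aut_neg W θ (ne_of_gt hW) hθ h)
  have hR : ∀ i, u (pkap Γ (t ^ e i) (ρ i))
      = u ⟨gOf Γ c ρ i * T ^ e i * (gOf Γ c ρ i)⁻¹, hmem i⟩ := by
    intro i
    rcases coe_pkap_orbit Γ c t ht ρ e i (hfix i) with h | h
    · have : pkap Γ (t ^ e i) (ρ i) = ⟨gOf Γ c ρ i * T ^ e i * (gOf Γ c ρ i)⁻¹, hmem i⟩ :=
        Subtype.ext h
      rw [this]
    · exact hun _ _ h
  simp only [hL, hR]
  exact key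

end Main

lemma S_mul_S' : (S * S : SL(2, ℤ)) = -1 := by
  apply Subtype.ext
  simp only [Matrix.SpecialLinearGroup.coe_mul, ModularGroup.coe_S,
    Matrix.SpecialLinearGroup.coe_neg, Matrix.SpecialLinearGroup.coe_one]
  ext i j
  fin_cases i <;> fin_cases j <;> simp [Matrix.mul_apply, Fin.sum_univ_two]

/-- `R * S = -(S * T * S⁻¹)` for `R = S * T`: the parabolic generator of the left-coset
convention. -/
lemma RS_eq : (S * T) * S = -(S * T * S⁻¹) := by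
  have hS : S⁻¹ = -S := by
    have h1 : S * -S = 1 := by
      rw [mul_neg, S_mul_S', neg_neg]
    exact inv_eq_of_mul_eq_one_right h1
  rw [hS, mul_neg, neg_neg]

/-- The hypothesis `ht` of `orbit_reps` for `t = R * S`, `c = S`. -/
lemma RS_eq_or : (S * T) * S = S * T * S⁻¹ ∨ (S * T) * S = -(S * T * S⁻¹) := Or.inr RS_eq

/-- The hypothesis `ht` of `orbit_reps` for `t = T`, `c = 1`. -/
lemma T_eq_or : (T : SL(2, ℤ)) = 1 * T * 1⁻¹ ∨ (T : SL(2, ℤ)) = -(1 * T * 1⁻¹) := by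
  left; group

end Fermat.Agent.P7.CuspOrb
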