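import Mathlib
import Fermat.Agent.P7.DegenDefs

/-!
# The two-level calculus: `α_* α^* = [[q + 1, T_q], [T_q, q + 1]]`

With the maps of `P7/DegenDefs` (`q` prime, `q ∤ N`, any coefficient group `A`):

* `corA_resA : corA (resA φ) = (q + 1) • φ`, `corB_resB : corB (resB φ) = (q + 1) • φ`;
* `corA_resB : corA (resB φ) = T_q φ`, `corB_resA : corB (resA φ) = T_q φ`, where
  `T_q = P5.Per.tcoh N hq hqN A` is the Hecke operator of `Lib/HeckeHom` at level `N`.
-/

set_option autoImplicit false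

namespace Fermat.Agent.P7.Degen

open scoped MatrixGroups
open CongruenceSubgroup Matrix.SpecialLinearGroup
open Fermat.Agent.Lib.HeckeHom Fermat.Agent.Lib.HeckePeriod Fermat.Agent.Lib.HeckeHomGL
open Fermat.Agent.Lib.Gamma0Count
open Fermat.Agent.P7.PairFam
open P2MW.S_ModularForm_heckeT_slash_eq_self_of_mem_Gamma0.ModularForm.HeckeSlashInvariance

/-- If `diag(q, 1) · x = g · diag(q, 1)` with `x ∈ Γ₀(N)`, `g` integral, then `x ∈ Γ₀(N q)`. -/
theorem mem_of_diag_mul {N q : ℕ} (hq : q ≠ 0) (hc : Nat.Coprime q N) (x g : SL(2, ℤ))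
    (hx : (N : ℤ) ∣ x 1 0)
    (h : ModularForm.heckeDiagMatrix q * (mapGL ℝ x : GL (Fin 2) ℝ) =
      mapGL ℝ g * ModularForm.heckeDiagMatrix q) : x ∈ Gamma0 (N * q) := by
  refine mem_mul_of_dvd_of_dvd hc hx ?_
  have hM := congrArg (fun g : GL (Fin 2) ℝ => (g : Matrix (Fin 2) (Fin 2) ℝ)) h
  beta_reduce at hM
  rw [Units.val_mul, Units.val_mul, coe_mapGL, coe_mapGL, ModularForm.val_heckeDiagMatrix hq]
    at hM
  have e10 := congrFun (congrFun hM 1) 0
  simp [Matrix.mul_apply, Fin.sum_univ_two] at e10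
  refine ⟨g 1 0, ?_⟩
  have : ((x 1 0 : ℤ) : ℝ) = (((q : ℤ) * g 1 0 : ℤ) : ℝ) := by
    push_cast; linarith
  exact_mod_cast this

section Mackey

variable (N q : ℕ) [NeZero N] [Fact q.Prime] (hqN : ¬ q ∣ N) {A : Type*} [AddCommGroup A]

include hqN in
/-- **Transfer ∘ restriction = `q + 1`.** -/
theorem corA_resA (φ : Additive ↥(Gamma0 N) →+ A) :
    corA N q A (resA N q A φ) = (q + 1) • φ := by
  rw [corA_eq, resA_eq, transfer_comp (eG_injective N) (incl N q) 1 (famCorA N q)
    (fun g => by rw [one_mul, mul_one, eG_incl]) φ, card_quot N q hqN]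

/-- **Transfer ∘ second restriction = `T_q`.** -/
theorem corA_resB (φ : Additive ↥(Gamma0 N) →+ A) :
    corA N q A (resB N q hqN A φ) =
      Fermat.Agent.P5.Per.tcoh N (Fact.out : q.Prime) hqN A φ := by
  have hq : q ≠ 0 := (Fact.out : q.Prime).ne_zero
  have hT := isCosetFamily_heckeRep N q hqN
  rw [corA_eq, resB_eq_comp, ← pairHom_single (conjB N q) (ModularForm.heckeDiagMatrix q)
    (fun γ => (eG_conjB N q γ).symm) (famResB N q) φ,
    Fermat.Agent.P5.Per.tcoh_eq_heckeHom, ← pairHom_ofCoset hT φ]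
  refine pairHom_comp_of_exists (famCorA N q) (famResB N q) (ofCoset hT) ?_ ?_ ?_ φ
  · intro i k i' k' g hg
    refine ⟨rfl, ?_⟩
    simp only [transferFam, one_mul] at hg
    have h1 : ModularForm.heckeDiagMatrix q *
        eG N (rep (incl N q) k * (rep (incl N q) k')⁻¹) =
        eG N g * ModularForm.heckeDiagMatrix q := by
      rw [map_mul, map_inv, ← mul_assoc, hg, mul_assoc, mul_assoc, mul_inv_cancel, mul_one]
    have h2 : ((rep (incl N q) k * (rep (incl N q) k')⁻¹ : Gamma0 N) : SL(2, ℤ)) ∈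
        Gamma0 (N * q) :=
      mem_of_diag_mul hq (coprime_of_not_dvd N q hqN) _ (g : SL(2, ℤ))
        (dvd_of_mem_Gamma0 (SetLike.coe_mem _)) h1
    obtain ⟨u, hu⟩ := (mem_range_incl _).mpr h2
    refine rep_unique (incl N q) (g := u) ?_
    rw [hu, inv_mul_cancel_right]
  · rw [Fintype.card_prod, Fintype.card_unit, one_mul, card_quot N q hqN, card_onePoint_zmod]
  · intro i k
    refine ⟨hT.nxt (rep (incl N q) k) OnePoint.infty, hT.cof (rep (incl N q) k) OnePoint.infty, ?_⟩
    simp only [transferFam, one_mul]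
    exact hT.spec (rep (incl N q) k) OnePoint.infty

/-- **Second transfer ∘ second restriction = `q + 1`.** -/
theorem corB_resB (φ : Additive ↥(Gamma0 N) →+ A) :
    corB N q hqN A (resB N q hqN A φ) = (q + 1) • φ := by
  rw [corB_eq, resB_eq, wq_wq, corA_resA N q hqN]

/-- **Second transfer ∘ restriction = `T_q`.** -/
theorem corB_resA (φ : Additive ↥(Gamma0 N) →+ A) :
    corB N q hqN A (resA N q A φ) =
      Fermat.Agent.P5.Per.tcoh N (Fact.out : q.Prime) hqN A φ := by
  rw [corB_eq, ← resB_eq, corA_resB]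

end Mackey

end Fermat.Agent.P7.Degen
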