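import Mathlib
import Fermat.Agent.P7.DegenMackey

/-!
# The two-level calculus: `U_q² = 1` on the `q`-new part

With the maps of `P7/DegenDefs` (`q` prime, `q ∤ N`, any coefficient group `A`):

* `resA_corA : resA (corA y) = y + uq (wq y)`;
* `resB_corB : resB (corB y) = y + wq (uq y)`;
* `uq_eq_neg_wq : corB y = 0 → uq y = - wq y`;
* `uq_uq_of_new : corA y = 0 → corB y = 0 → uq (uq y) = y`;
* `corA_wq`, `corB_wq` : `wq` swaps the two transfers, so `ker corA ⊓ ker corB` is stable
  under `wq` and `uq` (`corA_uq_of_new`, `corB_uq_of_new`).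
-/

set_option autoImplicit false

namespace Fermat.Agent.P7.Degen

open scoped MatrixGroups
open CongruenceSubgroup Matrix.SpecialLinearGroup
open Fermat.Agent.Lib.HeckeHom Fermat.Agent.Lib.HeckePeriod Fermat.Agent.Lib.HeckeHomGL
open Fermat.Agent.Lib.Gamma0Count
open Fermat.Agent.P7.PairFam
open P2MW.S_ModularForm_heckeT_slash_eq_self_of_mem_Gamma0.ModularForm.HeckeSlashInvariance

/-! ### Two generic constructions of coset families -/

section Generic

variable {Γ G : Type*} [Group Γ] [Group G] {ι : Type*} {e : Γ →* G} {δ : ι → G}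

/-- Adjoining the trivial coset to a coset family none of whose members lies in `e Γ`. -/
theorem isCosetFamily_option (h : IsCosetFamily e δ) (hne : ∀ i g, δ i ≠ e g) :
    IsCosetFamily e (fun x : Option ι => x.elim 1 δ) where
  inj_e := h.inj_e
  perm := by
    rintro γ (_ | i)
    · exact ⟨none, γ, by simp⟩
    · exact ⟨some (h.nxt γ i), h.cof γ i, h.spec γ i⟩
  distinct := by
    rintro (_ | i) (_ | j) g hg
    · rfl
    · exfalso
      refine hne j g⁻¹ ?_
      have h1 : (1 : G) = e g * δ j := hg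
      rw [map_inv]
      exact eq_inv_of_mul_eq_one_right h1.symm
    · exfalso
      refine hne i g ?_
      have h1 : δ i = e g * 1 := hg
      rw [h1, mul_one]
    · have h1 : δ i = e g * δ j := hg
      rw [h.distinct i j g h1]

/-- The operator of the family with the trivial coset adjoined is `1 + Θ`. -/
theorem heckeHom_option [Fintype ι] {A : Type*} [AddCommGroup A] (h : IsCosetFamily e δ)
    (ho : IsCosetFamily e (fun x : Option ι => x.elim 1 δ)) (φ : Additive Γ →+ A) :
    ho.heckeHom φ = φ + h.heckeHom φ := by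
  refine AddMonoidHom.ext fun γa => ?_
  obtain ⟨γ, rfl⟩ : ∃ γ : Γ, Additive.ofMul γ = γa := ⟨Additive.toMul γa, rfl⟩
  rw [AddMonoidHom.add_apply, IsCosetFamily.heckeHom_apply, IsCosetFamily.heckeHom_apply,
    Fintype.sum_option]
  have h0 : ho.cof γ none = γ := ho.cof_eq (j := none) (by simp)
  have h1 : ∀ i, ho.cof γ (some i) = h.cof γ i :=
    fun i => ho.cof_eq (j := some (h.nxt γ i)) (h.spec γ i)
  rw [h0]
  simp only [h1]

/-- A family whose cofactors are the images under `c` of the cofactors of a coset family. -/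
theorem isCosetFamily_twist (h : IsCosetFamily e δ) (c : Γ →* Γ) {R : ι → G}
    (hR : ∀ γ i, R i * e γ = e (c (h.cof γ i)) * R (h.nxt γ i))
    (hdist : ∀ i j g, R i = e g * R j → i = j) : IsCosetFamily e R where
  inj_e := h.inj_e
  perm γ i := ⟨h.nxt γ i, c (h.cof γ i), hR γ i⟩
  distinct := hdist

/-- The operator of the twisted family is `Θ ∘ (composition with c)`. -/
theorem heckeHom_twist [Fintype ι] {A : Type*} [AddCommGroup A] (h : IsCosetFamily e δ)
    (c : Γ →* Γ) {R : ι → G} (hR : ∀ γ i, R i * e γ = e (c (h.cof γ i)) * R (h.nxt γ i))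
    (hT : IsCosetFamily e R) (φ : Additive Γ →+ A) :
    hT.heckeHom φ = h.heckeHom (φ.comp (MonoidHom.toAdditive c)) := by
  refine AddMonoidHom.ext fun γa => ?_
  obtain ⟨γ, rfl⟩ : ∃ γ : Γ, Additive.ofMul γ = γa := ⟨Additive.toMul γa, rfl⟩
  rw [IsCosetFamily.heckeHom_apply, IsCosetFamily.heckeHom_apply]
  refine Finset.sum_congr rfl fun i _ => ?_
  rw [hT.cof_eq (hR γ i)]
  rfl

end Generic

/-! ### The family `g0 · T^j` -/

/-- `(1 j; 0 q) = diag(1, q) · (1 j; 0 1)`. -/
theorem heckeMatrix_eq_mul (N : ℕ) {q : ℕ} (hq : q ≠ 0) (j : ℕ) :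
    ModularForm.heckeMatrix q j = ModularForm.heckeMatrix q 0 * eG N (unipG N (j : ℤ)) := by
  apply Units.ext
  rw [Units.val_mul, coe_eG_unipG, ModularForm.val_heckeMatrix hq, ModularForm.val_heckeMatrix hq]
  ext a b
  fin_cases a <;> fin_cases b <;> simp [Matrix.mul_apply, Fin.sum_univ_two]

section Uq

variable (N q : ℕ) [NeZero N] [Fact q.Prime] (hqN : ¬ q ∣ N)

/-- The representatives `g0 · T^j` of the nontrivial cosets of `Γ₀(N q)` in `Γ₀(N)`. -/
noncomputable def rU (j : ZMod q) : ↥(Gamma0 N) := g0N N q hqN * unipG N (j.val : ℤ)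

/-- `cW` is surjective. -/
theorem cW_surjective (γ : Gamma0 (N * q)) : ∃ c : Gamma0 (N * q), cW N q hqN c = γ :=
  ⟨cW N q hqN ((gam0 N q hqN)⁻¹ * γ * gam0 N q hqN), by
    rw [cW_cW]; simp only [mul_assoc, mul_inv_cancel_left, mul_inv_cancel, mul_one]⟩

/-- The key relation: `rU j · γ = cW (cof) · rU (nxt)` for the cofactors of `U_q`. -/
theorem rU_mul (γ : Gamma0 (N * q)) (j : ZMod q) :
    rU N q hqN j * incl N q γ =
      incl N q (cW N q hqN ((famUq N q).cof γ j)) * rU N q hqN ((famUq N q).nxt γ j) := by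
  have hq : q ≠ 0 := (Fact.out : q.Prime).ne_zero
  have h1 := (famUq N q).spec γ j
  rw [heckeMatrix_eq_mul N hq, heckeMatrix_eq_mul N hq ((famUq N q).nxt γ j).val, mul_assoc,
    ← mul_assoc (eG (N * q) _), eG_conjB', mul_assoc, ← eG_incl, ← map_mul, ← map_mul] at h1
  have h2 := eG_injective N (mul_left_cancel h1)
  rw [incl_cW, cWN_apply, rU, rU, mul_assoc, h2]
  simp only [mul_assoc, inv_mul_cancel_left]

theorem rU_not_mem (j : ZMod q) : ((rU N q hqN j : Gamma0 N) : SL(2, ℤ)) ∉ Gamma0 (N * q) := by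
  intro h
  have h1 := dvd_of_mem_mul h
  have h2 : ((rU N q hqN j : Gamma0 N) : SL(2, ℤ)) 1 0 = N := by
    show (g0 N q hqN * unipSL (j.val : ℤ)) 1 0 = N
    rw [sl_mul_10, g0_10, g0_11]
    simp [unipSL]
  rw [h2] at h1
  have hN : (N : ℤ) ≠ 0 := by exact_mod_cast NeZero.ne N
  have h3 : (q : ℤ) ∣ 1 := by
    obtain ⟨k, hk⟩ := h1
    refine ⟨k, ?_⟩
    have : (N : ℤ) * 1 = N * (q * k) := by rw [mul_one, ← mul_assoc]; exact hk
    exact mul_left_cancel₀ hN this
  have h4 : q ∣ 1 := by exact_mod_cast h3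
  exact (Fact.out : q.Prime).one_lt.ne' (Nat.dvd_one.mp h4)

/-- The family `e (g0 · T^j)`, `j ∈ ℤ/q`, is a coset family for `Γ₀(N q)`. -/
theorem famRU : IsCosetFamily (eG (N * q)) (fun j : ZMod q => eG N (rU N q hqN j)) := by
  refine isCosetFamily_twist (famUq N q) (cW N q hqN) (fun γ j => ?_) (fun i j g hg => ?_)
  · rw [← eG_incl, ← eG_incl N q (cW N q hqN _), ← map_mul, ← map_mul, rU_mul]
  · -- transport back to the family of `U_q`
    have hq : q ≠ 0 := (Fact.out : q.Prime).ne_zero
    obtain ⟨c, hc⟩ := cW_surjective N q hqN g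
    have h1 : rU N q hqN i = incl N q g * rU N q hqN j := by
      apply eG_injective N
      rw [map_mul, eG_incl]
      exact hg
    have h2 : unipG N (i.val : ℤ) = conjB N q c * unipG N (j.val : ℤ) := by
      have h3 : incl N q g = g0N N q hqN * conjB N q c * (g0N N q hqN)⁻¹ := by
        rw [← hc, incl_cW, cWN_apply]
      rw [rU, rU, h3] at h1
      have h4 := mul_left_cancel (a := g0N N q hqN) (by
        rw [h1]; simp only [mul_assoc, inv_mul_cancel_left] :
        g0N N q hqN * unipG N (i.val : ℤ) =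
          g0N N q hqN * (conjB N q c * unipG N (j.val : ℤ)))
      exact h4
    refine (famUq N q).distinct i j c ?_
    rw [heckeMatrix_eq_mul N hq, heckeMatrix_eq_mul N hq j.val, h2, map_mul, ← mul_assoc,
      ← eG_conjB', mul_assoc]

theorem famRU_ne (j : ZMod q) (g : Gamma0 (N * q)) : eG N (rU N q hqN j) ≠ eG (N * q) g := by
  intro h
  rw [← eG_incl] at h
  have h1 := eG_injective N h
  refine rU_not_mem N q hqN j ?_
  rw [h1]
  exact g.2

/-- The family `1, e (g0 · T^j)`: representatives of all cosets of `Γ₀(N q)` in `Γ₀(N)`. -/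
theorem famRUo : IsCosetFamily (eG (N * q))
    (fun x : Option (ZMod q) => x.elim 1 (fun j : ZMod q => eG N (rU N q hqN j))) :=
  isCosetFamily_option (famRU N q hqN) (famRU_ne N q hqN)

variable {A : Type*} [AddCommGroup A]

/-- **`res ∘ transfer = 1 + U_q ∘ w_q`.** -/
theorem resA_corA (y : Additive ↥(Gamma0 (N * q)) →+ A) :
    resA N q A (corA N q A y) = y + uq N q A (wq N q hqN A y) := by
  have h1 : resA N q A (corA N q A y) = (famRUo N q hqN).heckeHom y := by
    rw [resA_eq, corA_eq, ← pairHom_single (incl N q) (1 : GL (Fin 2) ℝ)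
      (fun γ => by rw [one_mul, mul_one, eG_incl]) (famResA N q) ((famCorA N q).pairHom y),
      ← pairHom_ofCoset (famRUo N q hqN) y]
    refine pairHom_comp_of_exists' (famResA N q) (famCorA N q) (ofCoset (famRUo N q hqN))
      ?_ ?_ ?_ y
    · intro i k i' k' g hg
      refine ⟨?_, rfl⟩
      simp only [transferFam, one_mul, mul_one] at hg
      rw [← eG_incl, ← map_mul] at hg
      exact rep_unique (incl N q) (eG_injective N hg)
    · rw [Fintype.card_prod, Fintype.card_unit, mul_one, card_quot N q hqN,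
        Fintype.card_option, ZMod.card]
    · rintro (_ | j)
      · obtain ⟨k, u, hu⟩ := exists_rep (incl N q) (1 : Gamma0 N)
        refine ⟨k, (), u, ?_⟩
        simp only [transferFam, one_mul, mul_one, Option.elim_none]
        rw [← eG_incl, ← map_mul, ← hu, map_one]
      · obtain ⟨k, u, hu⟩ := exists_rep (incl N q) (rU N q hqN j)
        refine ⟨k, (), u, ?_⟩
        simp only [transferFam, one_mul, mul_one, Option.elim_some]
        rw [← eG_incl, ← map_mul, ← hu]
  rw [h1, heckeHom_option (famRU N q hqN) (famRUo N q hqN) y,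
    heckeHom_twist (famUq N q) (cW N q hqN) (fun γ j => by
      rw [← eG_incl, ← eG_incl N q (cW N q hqN _), ← map_mul, ← map_mul, rU_mul])
      (famRU N q hqN) y]
  rfl

/-- **`res_B ∘ transfer_B = 1 + w_q ∘ U_q`.** -/
theorem resB_corB (y : Additive ↥(Gamma0 (N * q)) →+ A) :
    resB N q hqN A (corB N q hqN A y) = y + wq N q hqN A (uq N q A y) := by
  rw [resB_eq, corB_eq, resA_corA N q hqN, map_add, wq_wq]

/-- `w_q` swaps the two transfers. -/
theorem corA_wq (y : Additive ↥(Gamma0 (N * q)) →+ A) :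
    corA N q A (wq N q hqN A y) = corB N q hqN A y := rfl

theorem corB_wq (y : Additive ↥(Gamma0 (N * q)) →+ A) :
    corB N q hqN A (wq N q hqN A y) = corA N q A y := by
  rw [corB_eq, wq_wq]

/-- On the kernel of the second transfer, `U_q = - w_q`. -/
theorem uq_eq_neg_wq (y : Additive ↥(Gamma0 (N * q)) →+ A) (hB : corB N q hqN A y = 0) :
    uq N q A y = - wq N q hqN A y := by
  have h1 := resB_corB N q hqN y
  rw [hB, map_zero] at h1
  have h2 : wq N q hqN A (uq N q A y) = - y := by
    rw [eq_neg_iff_add_eq_zero, add_comm]; exact h1.symm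
  have h3 := congrArg (wq N q hqN A) h2
  rwa [wq_wq, map_neg] at h3

/-- On the kernel of the first transfer, `U_q ∘ w_q = -1`. -/
theorem uq_wq_eq_neg (y : Additive ↥(Gamma0 (N * q)) →+ A) (hA : corA N q A y = 0) :
    uq N q A (wq N q hqN A y) = - y := by
  have h1 := resA_corA N q hqN y
  rw [hA, map_zero] at h1
  rw [eq_neg_iff_add_eq_zero, add_comm]
  exact h1.symm

/-- **`U_q² = 1` on the `q`-new part** `ker corA ⊓ ker corB`. -/
theorem uq_uq_of_new (y : Additive ↥(Gamma0 (N * q)) →+ A) (hA : corA N q A y = 0)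
    (hB : corB N q hqN A y = 0) : uq N q A (uq N q A y) = y := by
  rw [uq_eq_neg_wq N q hqN y hB, map_neg, uq_wq_eq_neg N q hqN y hA, neg_neg]

/-- The `q`-new part is stable under `U_q`. -/
theorem corA_uq_of_new (y : Additive ↥(Gamma0 (N * q)) →+ A)
    (hB : corB N q hqN A y = 0) : corA N q A (uq N q A y) = 0 := by
  rw [uq_eq_neg_wq N q hqN y hB, map_neg, corA_wq, hB, neg_zero]

theorem corB_uq_of_new (y : Additive ↥(Gamma0 (N * q)) →+ A) (hA : corA N q A y = 0)
    (hB : corB N q hqN A y = 0) : corB N q hqN A (uq N q A y) = 0 := by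
  rw [uq_eq_neg_wq N q hqN y hB, map_neg, corB_wq, hA, neg_zero]

end Uq

end Fermat.Agent.P7.Degen
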