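import Mathlib
import Fermat.Agent.P7.DegenDefs
import Fermat.Agent.P7.DegenMackey
import Fermat.Agent.P7.DegenUq
import Fermat.Agent.P5.Per.Action

/-!
# The two-level calculus on the parabolic lattices (helper95, P7 leaf (PAR))

`q` is a prime not dividing `N`.  The six maps of `P7/DegenDefs`

  `resA`, `resB : Hom(Γ₀(N), A) → Hom(Γ₀(N q), A)`,
  `corA`, `corB : Hom(Γ₀(N q), A) → Hom(Γ₀(N), A)`,
  `wq`, `uq : Hom(Γ₀(N q), A) → Hom(Γ₀(N q), A)`

preserve the parabolic homomorphisms (`IsParabolicHom`: vanishing on the elements of trace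
`± 2`): `resA`, `resB`, `wq` for every coefficient group, the transfer type maps `corA`, `corB`,
`uq` for torsion-free coefficients.  Hence they restrict to `ℤ`-linear maps between the
parabolic lattices `Per.Lat N = parabolicHoms ℤ Γ₀(N) ℤ` and `Per.Lat (N q)`:

  `resAL`, `resBL : Lat N →ₗ[ℤ] Lat (N q)`, `corAL`, `corBL : Lat (N q) →ₗ[ℤ] Lat N`,
  `wqL`, `uqL : Lat (N q) →ₗ[ℤ] Lat (N q)`,

with `coe_*L` (the underlying homomorphism is the map of `DegenDefs`, by `rfl`), naturality in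
the coefficient group (`*_comp`), compatibility with `Per.castHom` (`castHom_*`), and the lattice
forms of the identities of `DegenDefs`/`DegenMackey`/`DegenUq` (`wqL_wqL`, `resBL_eq`,
`corBL_eq`, `corAL_resAL`, `corAL_resBL`, `corBL_resBL`, `corBL_resAL`, `resAL_corAL`,
`resBL_corBL`).

The two degeneracy maps are packaged as

  `alphaUp = (resA, resB) : Lat N × Lat N →ₗ[ℤ] Lat (N q)`,
  `alphaDown = (corA, corB) : Lat (N q) →ₗ[ℤ] Lat N × Lat N`,

with `alphaDown_alphaUp : α_* α^* = [[q + 1, T_q], [T_q, q + 1]]`, and the `q`-new sublattice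
`newLat N q hqN = ker α_*` (as a submodule of `Hom(Γ₀(N q), ℤ)`, contained in `Lat (N q)`) is
stable under `w_q` and `U_q`, with `U_q² = 1` and `U_q = - w_q` on it.

The generic statement is `pairHom_isParabolicHom`: the operator of any pair family between two
groups `Γ₀(M)`, `Γ₀(M')` inside `GL₂(ℝ)` preserves parabolic homomorphisms with torsion-free
values (a power of `γ` fixes every coset, the cofactors are then conjugate in `GL₂(ℝ)` to that
power, and powers of a matrix of trace `± 2` and determinant `1` have trace `± 2`).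
-/

set_option autoImplicit false

namespace Fermat.Agent.P7.DegenLat

open scoped MatrixGroups
open CongruenceSubgroup Matrix.SpecialLinearGroup
open ModularCurve.Period
open Fermat.Agent.Lib.HeckeHom Fermat.Agent.Lib.HeckeHomGL
open Fermat.Agent.P7.PairFam Fermat.Agent.P7.Degen
open Fermat.Agent.P5.Per (Lat castHom tcoh tcohL)

/-! ### Traces -/

/-- Cayley–Hamilton for `2 × 2` matrices of determinant one, on traces of powers. -/
theorem trace_pow_succ_succ (m : Matrix (Fin 2) (Fin 2) ℤ) (hm : m.det = 1) (k : ℕ) :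
    (m ^ (k + 2)).trace = m.trace * (m ^ (k + 1)).trace - (m ^ k).trace := by
  have hch : m * m = m.trace • m - 1 := by
    rw [Matrix.det_fin_two] at hm
    ext i j
    fin_cases i <;> fin_cases j
    · show (m * m) 0 0 = (m.trace • m - 1) 0 0
      rw [Matrix.mul_apply, Fin.sum_univ_two, Matrix.sub_apply, Matrix.smul_apply,
        Matrix.trace_fin_two, Matrix.one_apply_eq, smul_eq_mul]
      linear_combination -hm
    · show (m * m) 0 1 = (m.trace • m - 1) 0 1
      rw [Matrix.mul_apply, Fin.sum_univ_two, Matrix.sub_apply, Matrix.smul_apply,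
        Matrix.trace_fin_two, Matrix.one_apply_ne (by decide), smul_eq_mul]
      ring
    · show (m * m) 1 0 = (m.trace • m - 1) 1 0
      rw [Matrix.mul_apply, Fin.sum_univ_two, Matrix.sub_apply, Matrix.smul_apply,
        Matrix.trace_fin_two, Matrix.one_apply_ne (by decide), smul_eq_mul]
      ring
    · show (m * m) 1 1 = (m.trace • m - 1) 1 1
      rw [Matrix.mul_apply, Fin.sum_univ_two, Matrix.sub_apply, Matrix.smul_apply,
        Matrix.trace_fin_two, Matrix.one_apply_eq, smul_eq_mul]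
      linear_combination -hm
  have h : m ^ (k + 2) = m.trace • m ^ (k + 1) - m ^ k := by
    rw [pow_succ, pow_succ, Matrix.mul_assoc, hch, Matrix.mul_sub, Matrix.mul_one,
      Matrix.mul_smul, ← pow_succ]
  rw [h, Matrix.trace_sub, Matrix.trace_smul, smul_eq_mul]

/-- Powers of a matrix of trace `± 2` and determinant `1` have trace `± 2`. -/
theorem trace_pow_sq_eq_four (m : Matrix (Fin 2) (Fin 2) ℤ) (hm : m.det = 1)
    (h : m.trace ^ 2 = 4) (k : ℕ) : (m ^ k).trace ^ 2 = 4 := by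
  have key : ∀ k : ℕ,
      (m ^ k).trace ^ 2 = 4 ∧ 2 * (m ^ (k + 1)).trace = m.trace * (m ^ k).trace := by
    intro k
    induction k with
    | zero =>
      have h1 : (1 : Matrix (Fin 2) (Fin 2) ℤ).trace = 2 := by
        rw [Matrix.trace_fin_two, Matrix.one_apply_eq, Matrix.one_apply_eq]; norm_num
      refine ⟨?_, ?_⟩
      · rw [pow_zero, h1]; norm_num
      · rw [pow_zero, h1, zero_add, pow_one]; ring
    | succ k ih =>
      obtain ⟨ih1, ih2⟩ := ih
      have hrec := trace_pow_succ_succ m hm k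
      refine ⟨?_, ?_⟩
      · have h4 : (2 * (m ^ (k + 1)).trace) ^ 2 = 16 := by
          rw [ih2, mul_pow, h, ih1]; norm_num
        have h5 : 4 * (m ^ (k + 1)).trace ^ 2 = 16 := by rw [← h4]; ring
        linarith
      · have h3 : m.trace * (2 * (m ^ (k + 1)).trace) = 4 * (m ^ k).trace := by
          rw [ih2, ← mul_assoc, ← pow_two, h]
        rw [hrec]
        linarith
  exact (key k).1

/-- The trace of `e γ`, `e = eG M`. -/
theorem trace_eG (M : ℕ) (γ : Gamma0 M) :
    ((eG M γ : GL (Fin 2) ℝ) : Matrix (Fin 2) (Fin 2) ℝ).trace =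
      (((γ : SL(2, ℤ)) : Matrix (Fin 2) (Fin 2) ℤ).trace : ℝ) := by
  rw [eG_apply, Matrix.trace_fin_two, Matrix.trace_fin_two]
  simp

/-- Elements of two groups `Γ₀(M)`, `Γ₀(M')` which are conjugate in `GL₂(ℝ)` have the same
trace. -/
theorem trace_eq_of_rel {M M' : ℕ} (ρ : GL (Fin 2) ℝ) (γ : Gamma0 M) (γ' : Gamma0 M')
    (h : ρ * eG M γ = eG M' γ' * ρ) :
    ((γ' : SL(2, ℤ)) : Matrix (Fin 2) (Fin 2) ℤ).trace =
      ((γ : SL(2, ℤ)) : Matrix (Fin 2) (Fin 2) ℤ).trace := by
  have h1 : (eG M' γ' : GL (Fin 2) ℝ) = ρ * eG M γ * ρ⁻¹ := by rw [h, mul_inv_cancel_right]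
  have h2 : ((eG M' γ' : GL (Fin 2) ℝ) : Matrix (Fin 2) (Fin 2) ℝ).trace =
      ((eG M γ : GL (Fin 2) ℝ) : Matrix (Fin 2) (Fin 2) ℝ).trace := by
    rw [h1, Units.val_mul, Matrix.trace_mul_comm, ← Units.val_mul, inv_mul_cancel_left]
  rw [trace_eG, trace_eG] at h2
  exact_mod_cast h2

/-- Powers of a parabolic element of `Γ₀(M)` are parabolic. -/
theorem trace_pow_gamma0 {M : ℕ} (γ : Gamma0 M)
    (hγ : ((γ : SL(2, ℤ)) : Matrix (Fin 2) (Fin 2) ℤ).trace ^ 2 = 4) (n : ℕ) :
    (((γ ^ n : Gamma0 M) : SL(2, ℤ)) : Matrix (Fin 2) (Fin 2) ℤ).trace ^ 2 = 4 := by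
  rw [Subgroup.coe_pow, Matrix.SpecialLinearGroup.coe_pow]
  exact trace_pow_sq_eq_four _ (γ : SL(2, ℤ)).det_coe hγ n

/-! ### Pair families preserve parabolic homomorphisms -/

section Generic

variable {M M' : ℕ} {κ : Type*} [Fintype κ] {ρ : κ → GL (Fin 2) ℝ}
  {A : Type*} [AddCommGroup A] [IsAddTorsionFree A]

/-- The operator of a pair family from `Γ₀(M)` to `Γ₀(M')` sends parabolic homomorphisms on
`Γ₀(M')` to parabolic homomorphisms on `Γ₀(M)` (torsion-free coefficients). -/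
theorem pairHom_isParabolicHom (h : IsPairFamily (eG M) (eG M') ρ)
    {φ : Additive ↥(Gamma0 M') →+ A} (hφ : IsParabolicHom (Gamma0 M') φ) :
    IsParabolicHom (Gamma0 M) (h.pairHom φ) := by
  intro γ hγ
  refine pairHom_eq_zero_of_pow h φ γ (fun n k γ' _ hk => hφ γ' ?_)
  rw [trace_eq_of_rel (ρ k) (γ ^ n) γ' hk]
  exact trace_pow_gamma0 γ hγ n

/-- The Hecke operator of a coset family for `Γ₀(M)` preserves parabolic homomorphisms
(torsion-free coefficients). -/
theorem heckeHom_isParabolicHom {ι : Type*} [Fintype ι] {δ : ι → GL (Fin 2) ℝ}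
    (h : IsCosetFamily (eG M) δ) {φ : Additive ↥(Gamma0 M) →+ A}
    (hφ : IsParabolicHom (Gamma0 M) φ) : IsParabolicHom (Gamma0 M) (h.heckeHom φ) := by
  rw [← pairHom_ofCoset h φ]
  exact pairHom_isParabolicHom (ofCoset h) hφ

end Generic

/-! ### The six maps preserve parabolic homomorphisms -/

section Ops

variable (N q : ℕ) [NeZero N] [Fact q.Prime] (hqN : ¬ q ∣ N)

omit [NeZero N] in
/-- The Atkin–Lehner conjugation preserves traces. -/
theorem trace_cW (γ : Gamma0 (N * q)) :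
    ((cW N q hqN γ : SL(2, ℤ)) : Matrix (Fin 2) (Fin 2) ℤ).trace =
      ((γ : SL(2, ℤ)) : Matrix (Fin 2) (Fin 2) ℤ).trace :=
  trace_eq_of_rel (wMat N q hqN) γ (cW N q hqN γ) (wMat_mul N q hqN γ)

omit [NeZero N] in
/-- The second embedding `conjB` preserves traces. -/
theorem trace_conjB (γ : Gamma0 (N * q)) :
    ((conjB N q γ : SL(2, ℤ)) : Matrix (Fin 2) (Fin 2) ℤ).trace =
      ((γ : SL(2, ℤ)) : Matrix (Fin 2) (Fin 2) ℤ).trace :=
  trace_eq_of_rel (ModularForm.heckeDiagMatrix q) γ (conjB N q γ) (eG_conjB N q γ).symm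

section AnyCoeff

variable {A : Type*} [AddCommGroup A]

theorem resA_isParabolicHom {φ : Additive ↥(Gamma0 N) →+ A}
    (hφ : IsParabolicHom (Gamma0 N) φ) : IsParabolicHom (Gamma0 (N * q)) (resA N q A φ) := by
  intro γ hγ
  rw [resA_apply]
  exact hφ (incl N q γ) hγ

theorem wq_isParabolicHom {y : Additive ↥(Gamma0 (N * q)) →+ A}
    (hy : IsParabolicHom (Gamma0 (N * q)) y) :
    IsParabolicHom (Gamma0 (N * q)) (wq N q hqN A y) := by
  intro γ hγ
  rw [wq_apply]
  exact hy (cW N q hqN γ) (by rw [trace_cW]; exact hγ)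

/-- `wq` preserves and reflects parabolicity. -/
theorem wq_isParabolicHom_iff {y : Additive ↥(Gamma0 (N * q)) →+ A} :
    IsParabolicHom (Gamma0 (N * q)) (wq N q hqN A y) ↔ IsParabolicHom (Gamma0 (N * q)) y := by
  refine ⟨fun h => ?_, wq_isParabolicHom N q hqN⟩
  have h2 := wq_isParabolicHom N q hqN h
  rwa [wq_wq] at h2

theorem resB_isParabolicHom {φ : Additive ↥(Gamma0 N) →+ A}
    (hφ : IsParabolicHom (Gamma0 N) φ) :
    IsParabolicHom (Gamma0 (N * q)) (resB N q hqN A φ) := by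
  rw [resB_eq]
  exact wq_isParabolicHom N q hqN (resA_isParabolicHom N q hφ)

end AnyCoeff

section TorsionFree

variable {A : Type*} [AddCommGroup A] [IsAddTorsionFree A]

theorem corA_isParabolicHom {y : Additive ↥(Gamma0 (N * q)) →+ A}
    (hy : IsParabolicHom (Gamma0 (N * q)) y) : IsParabolicHom (Gamma0 N) (corA N q A y) := by
  rw [corA_eq]
  exact pairHom_isParabolicHom (famCorA N q) hy

theorem corB_isParabolicHom {y : Additive ↥(Gamma0 (N * q)) →+ A}
    (hy : IsParabolicHom (Gamma0 (N * q)) y) :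
    IsParabolicHom (Gamma0 N) (corB N q hqN A y) := by
  rw [corB_eq]
  exact corA_isParabolicHom N q (wq_isParabolicHom N q hqN hy)

theorem uq_isParabolicHom {y : Additive ↥(Gamma0 (N * q)) →+ A}
    (hy : IsParabolicHom (Gamma0 (N * q)) y) :
    IsParabolicHom (Gamma0 (N * q)) (uq N q A y) := by
  rw [uq_eq]
  exact heckeHom_isParabolicHom (famUq N q) hy

end TorsionFree

/-! ### Naturality in the coefficient group -/

section Natural

variable {A B : Type*} [AddCommGroup A] [AddCommGroup B] (ψ : A →+ B)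

omit [NeZero N] [Fact q.Prime] in
theorem resA_comp (φ : Additive ↥(Gamma0 N) →+ A) :
    resA N q B (ψ.comp φ) = ψ.comp (resA N q A φ) := rfl

omit [NeZero N] in
theorem wq_comp (y : Additive ↥(Gamma0 (N * q)) →+ A) :
    wq N q hqN B (ψ.comp y) = ψ.comp (wq N q hqN A y) := rfl

omit [NeZero N] in
theorem resB_comp (φ : Additive ↥(Gamma0 N) →+ A) :
    resB N q hqN B (ψ.comp φ) = ψ.comp (resB N q hqN A φ) := rfl

theorem corA_comp (y : Additive ↥(Gamma0 (N * q)) →+ A) :
    corA N q B (ψ.comp y) = ψ.comp (corA N q A y) := by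
  rw [corA_eq, corA_eq]
  exact (famCorA N q).pairHom_comp ψ y

theorem corB_comp (y : Additive ↥(Gamma0 (N * q)) →+ A) :
    corB N q hqN B (ψ.comp y) = ψ.comp (corB N q hqN A y) := by
  rw [corB_eq, corB_eq, wq_comp, corA_comp]

theorem uq_comp (y : Additive ↥(Gamma0 (N * q)) →+ A) :
    uq N q B (ψ.comp y) = ψ.comp (uq N q A y) := by
  rw [uq_eq, uq_eq]
  exact (famUq N q).heckeHom_comp ψ y

end Natural

/-! ### Compatibility with `Per.castHom` -/

section Cast

variable (E : Type*) [Ring E]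

omit [NeZero N] [Fact q.Prime] in
theorem castHom_resA (φ : Additive ↥(Gamma0 N) →+ ℤ) :
    castHom (N * q) E (resA N q ℤ φ) = resA N q E (castHom N E φ) := rfl

omit [NeZero N] in
theorem castHom_wq (y : Additive ↥(Gamma0 (N * q)) →+ ℤ) :
    castHom (N * q) E (wq N q hqN ℤ y) = wq N q hqN E (castHom (N * q) E y) := rfl

omit [NeZero N] in
theorem castHom_resB (φ : Additive ↥(Gamma0 N) →+ ℤ) :
    castHom (N * q) E (resB N q hqN ℤ φ) = resB N q hqN E (castHom N E φ) := rfl

theorem castHom_corA (y : Additive ↥(Gamma0 (N * q)) →+ ℤ) :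
    castHom N E (corA N q ℤ y) = corA N q E (castHom (N * q) E y) :=
  (corA_comp N q (Int.castAddHom E) y).symm

theorem castHom_corB (y : Additive ↥(Gamma0 (N * q)) →+ ℤ) :
    castHom N E (corB N q hqN ℤ y) = corB N q hqN E (castHom (N * q) E y) :=
  (corB_comp N q hqN (Int.castAddHom E) y).symm

theorem castHom_uq (y : Additive ↥(Gamma0 (N * q)) →+ ℤ) :
    castHom (N * q) E (uq N q ℤ y) = uq N q E (castHom (N * q) E y) :=
  (uq_comp N q (Int.castAddHom E) y).symm

end Cast

/-! ### The maps on the parabolic lattices -/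

/-- `resA` on the parabolic lattices. -/
noncomputable def resAL : Lat N →ₗ[ℤ] Lat (N * q) :=
  LinearMap.restrict (resA N q ℤ).toIntLinearMap (fun _ hφ => resA_isParabolicHom N q hφ)

/-- `resB` on the parabolic lattices. -/
noncomputable def resBL : Lat N →ₗ[ℤ] Lat (N * q) :=
  LinearMap.restrict (resB N q hqN ℤ).toIntLinearMap
    (fun _ hφ => resB_isParabolicHom N q hqN hφ)

/-- `corA` on the parabolic lattices. -/
noncomputable def corAL : Lat (N * q) →ₗ[ℤ] Lat N :=
  LinearMap.restrict (corA N q ℤ).toIntLinearMap (fun _ hy => corA_isParabolicHom N q hy)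

/-- `corB` on the parabolic lattices. -/
noncomputable def corBL : Lat (N * q) →ₗ[ℤ] Lat N :=
  LinearMap.restrict (corB N q hqN ℤ).toIntLinearMap
    (fun _ hy => corB_isParabolicHom N q hqN hy)

/-- `w_q` on the parabolic lattice of level `N q`. -/
noncomputable def wqL : Lat (N * q) →ₗ[ℤ] Lat (N * q) :=
  LinearMap.restrict (wq N q hqN ℤ).toIntLinearMap (fun _ hy => wq_isParabolicHom N q hqN hy)

/-- `U_q` on the parabolic lattice of level `N q`. -/
noncomputable def uqL : Lat (N * q) →ₗ[ℤ] Lat (N * q) :=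
  LinearMap.restrict (uq N q ℤ).toIntLinearMap (fun _ hy => uq_isParabolicHom N q hy)

@[simp] theorem coe_resAL (φ : Lat N) :
    ((resAL N q φ : Lat (N * q)) : Additive ↥(Gamma0 (N * q)) →+ ℤ) = resA N q ℤ φ := rfl

@[simp] theorem coe_resBL (φ : Lat N) :
    ((resBL N q hqN φ : Lat (N * q)) : Additive ↥(Gamma0 (N * q)) →+ ℤ) =
      resB N q hqN ℤ φ := rfl

@[simp] theorem coe_corAL (y : Lat (N * q)) :
    ((corAL N q y : Lat N) : Additive ↥(Gamma0 N) →+ ℤ) = corA N q ℤ y := rfl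

@[simp] theorem coe_corBL (y : Lat (N * q)) :
    ((corBL N q hqN y : Lat N) : Additive ↥(Gamma0 N) →+ ℤ) = corB N q hqN ℤ y := rfl

@[simp] theorem coe_wqL (y : Lat (N * q)) :
    ((wqL N q hqN y : Lat (N * q)) : Additive ↥(Gamma0 (N * q)) →+ ℤ) = wq N q hqN ℤ y := rfl

@[simp] theorem coe_uqL (y : Lat (N * q)) :
    ((uqL N q y : Lat (N * q)) : Additive ↥(Gamma0 (N * q)) →+ ℤ) = uq N q ℤ y := rfl

/-! ### `castHom` of the lattice maps -/

section CastL

variable (E : Type*) [Ring E]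

theorem castHom_resAL (φ : Lat N) :
    castHom (N * q) E (resAL N q φ : Lat (N * q)) = resA N q E (castHom N E φ) := rfl

theorem castHom_resBL (φ : Lat N) :
    castHom (N * q) E (resBL N q hqN φ : Lat (N * q)) = resB N q hqN E (castHom N E φ) := rfl

theorem castHom_corAL (y : Lat (N * q)) :
    castHom N E (corAL N q y : Lat N) = corA N q E (castHom (N * q) E y) :=
  castHom_corA N q E y

theorem castHom_corBL (y : Lat (N * q)) :
    castHom N E (corBL N q hqN y : Lat N) = corB N q hqN E (castHom (N * q) E y) :=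
  castHom_corB N q hqN E y

theorem castHom_wqL (y : Lat (N * q)) :
    castHom (N * q) E (wqL N q hqN y : Lat (N * q)) = wq N q hqN E (castHom (N * q) E y) := rfl

theorem castHom_uqL (y : Lat (N * q)) :
    castHom (N * q) E (uqL N q y : Lat (N * q)) = uq N q E (castHom (N * q) E y) :=
  castHom_uq N q E y

end CastL

/-! ### The identities on the lattices -/

/-- `w_q` is an involution of the parabolic lattice. -/
theorem wqL_wqL (y : Lat (N * q)) : wqL N q hqN (wqL N q hqN y) = y :=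
  Subtype.ext (wq_wq N q hqN (y : Additive ↥(Gamma0 (N * q)) →+ ℤ))

theorem wqL_comp_wqL : (wqL N q hqN).comp (wqL N q hqN) = LinearMap.id :=
  LinearMap.ext (wqL_wqL N q hqN)

/-- `w_q` as a linear automorphism of the parabolic lattice. -/
noncomputable def wqEquiv : Lat (N * q) ≃ₗ[ℤ] Lat (N * q) :=
  LinearEquiv.ofLinearMap (wqL N q hqN) (wqL N q hqN) (wqL_comp_wqL N q hqN)
    (wqL_comp_wqL N q hqN)

@[simp] theorem wqEquiv_apply (y : Lat (N * q)) : wqEquiv N q hqN y = wqL N q hqN y := rfl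

theorem resBL_eq (φ : Lat N) : resBL N q hqN φ = wqL N q hqN (resAL N q φ) := rfl

theorem resBL_eq_comp : resBL N q hqN = (wqL N q hqN).comp (resAL N q) := rfl

theorem corBL_eq (y : Lat (N * q)) : corBL N q hqN y = corAL N q (wqL N q hqN y) := rfl

theorem corBL_eq_comp : corBL N q hqN = (corAL N q).comp (wqL N q hqN) := rfl

include hqN in
/-- Transfer ∘ restriction = `q + 1` on the lattice. -/
theorem corAL_resAL (φ : Lat N) : corAL N q (resAL N q φ) = (q + 1) • φ :=
  Subtype.ext (corA_resA N q hqN (φ : Additive ↥(Gamma0 N) →+ ℤ))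

/-- Transfer ∘ second restriction = `T_q` on the lattice. -/
theorem corAL_resBL (φ : Lat N) :
    corAL N q (resBL N q hqN φ) = tcohL N (Fact.out : q.Prime) hqN φ :=
  Subtype.ext (corA_resB N q hqN (φ : Additive ↥(Gamma0 N) →+ ℤ))

/-- Second transfer ∘ second restriction = `q + 1` on the lattice. -/
theorem corBL_resBL (φ : Lat N) : corBL N q hqN (resBL N q hqN φ) = (q + 1) • φ :=
  Subtype.ext (corB_resB N q hqN (φ : Additive ↥(Gamma0 N) →+ ℤ))

/-- Second transfer ∘ restriction = `T_q` on the lattice. -/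
theorem corBL_resAL (φ : Lat N) :
    corBL N q hqN (resAL N q φ) = tcohL N (Fact.out : q.Prime) hqN φ :=
  Subtype.ext (corB_resA N q hqN (φ : Additive ↥(Gamma0 N) →+ ℤ))

/-- `res ∘ transfer = 1 + U_q ∘ w_q` on the lattice. -/
theorem resAL_corAL (y : Lat (N * q)) :
    resAL N q (corAL N q y) = y + uqL N q (wqL N q hqN y) :=
  Subtype.ext (resA_corA N q hqN (y : Additive ↥(Gamma0 (N * q)) →+ ℤ))

/-- `res_B ∘ transfer_B = 1 + w_q ∘ U_q` on the lattice. -/
theorem resBL_corBL (y : Lat (N * q)) :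
    resBL N q hqN (corBL N q hqN y) = y + wqL N q hqN (uqL N q y) :=
  Subtype.ext (resB_corB N q hqN (y : Additive ↥(Gamma0 (N * q)) →+ ℤ))

theorem corAL_wqL (y : Lat (N * q)) : corAL N q (wqL N q hqN y) = corBL N q hqN y := rfl

theorem corBL_wqL (y : Lat (N * q)) : corBL N q hqN (wqL N q hqN y) = corAL N q y :=
  Subtype.ext (corB_wq N q hqN (y : Additive ↥(Gamma0 (N * q)) →+ ℤ))

/-! ### The two degeneracy maps and the `q`-new sublattice -/

/-- `α^* = (resA, resB) : Lat N × Lat N → Lat (N q)`. -/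
noncomputable def alphaUp : Lat N × Lat N →ₗ[ℤ] Lat (N * q) :=
  (resAL N q).coprod (resBL N q hqN)

/-- `α_* = (corA, corB) : Lat (N q) → Lat N × Lat N`. -/
noncomputable def alphaDown : Lat (N * q) →ₗ[ℤ] Lat N × Lat N :=
  (corAL N q).prod (corBL N q hqN)

theorem alphaUp_apply (x : Lat N × Lat N) :
    alphaUp N q hqN x = resAL N q x.1 + resBL N q hqN x.2 := rfl

theorem coe_alphaUp (x : Lat N × Lat N) :
    ((alphaUp N q hqN x : Lat (N * q)) : Additive ↥(Gamma0 (N * q)) →+ ℤ) =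
      resA N q ℤ x.1 + resB N q hqN ℤ x.2 := rfl

theorem alphaDown_apply (y : Lat (N * q)) :
    alphaDown N q hqN y = (corAL N q y, corBL N q hqN y) := rfl

theorem alphaDown_eq_zero_iff (y : Lat (N * q)) :
    alphaDown N q hqN y = 0 ↔
      corA N q ℤ (y : Additive ↥(Gamma0 (N * q)) →+ ℤ) = 0 ∧
        corB N q hqN ℤ (y : Additive ↥(Gamma0 (N * q)) →+ ℤ) = 0 := by
  rw [alphaDown_apply, Prod.mk_eq_zero, ← Subtype.coe_inj, ← Subtype.coe_inj]
  rfl

/-- `α_* ∘ α^* = [[q + 1, T_q], [T_q, q + 1]]`. -/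
theorem alphaDown_alphaUp (x : Lat N × Lat N) :
    alphaDown N q hqN (alphaUp N q hqN x) =
      (((q : ℤ) + 1) • x.1 + tcohL N (Fact.out : q.Prime) hqN x.2,
        tcohL N (Fact.out : q.Prime) hqN x.1 + ((q : ℤ) + 1) • x.2) := by
  have hc : ∀ φ : Lat N, (q + 1) • φ = ((q : ℤ) + 1) • φ := by
    intro φ
    rw [← natCast_zsmul, Nat.cast_add, Nat.cast_one]
  rw [alphaDown_apply, alphaUp_apply, map_add, map_add, corAL_resAL N q hqN, corAL_resBL,
    corBL_resAL, corBL_resBL, hc, hc]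

/-- The `q`-new sublattice: the kernel of `α_* = (corA, corB)` on the parabolic lattice of level
`N q`, as a submodule of `Hom(Γ₀(N q), ℤ)`. -/
noncomputable def newLat : Submodule ℤ (Additive ↥(Gamma0 (N * q)) →+ ℤ) :=
  (LinearMap.ker (alphaDown N q hqN)).map (Lat (N * q)).subtype

theorem mem_newLat_iff {y : Additive ↥(Gamma0 (N * q)) →+ ℤ} :
    y ∈ newLat N q hqN ↔
      IsParabolicHom (Gamma0 (N * q)) y ∧ corA N q ℤ y = 0 ∧ corB N q hqN ℤ y = 0 := by
  constructor
  · rintro ⟨z, hz, rfl⟩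
    exact ⟨z.2, (alphaDown_eq_zero_iff N q hqN z).mp (LinearMap.mem_ker.mp hz)⟩
  · rintro ⟨h1, h2⟩
    exact ⟨⟨y, h1⟩, LinearMap.mem_ker.mpr ((alphaDown_eq_zero_iff N q hqN ⟨y, h1⟩).mpr h2), rfl⟩

theorem coe_mem_newLat_iff (y : Lat (N * q)) :
    (y : Additive ↥(Gamma0 (N * q)) →+ ℤ) ∈ newLat N q hqN ↔ alphaDown N q hqN y = 0 := by
  rw [mem_newLat_iff, alphaDown_eq_zero_iff]
  exact ⟨fun h => h.2, fun h => ⟨y.2, h⟩⟩

theorem newLat_le : newLat N q hqN ≤ Lat (N * q) := fun _ hy =>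
  ((mem_newLat_iff N q hqN).mp hy).1

/-- The `q`-new sublattice is stable under `w_q`. -/
theorem wq_mem_newLat {y : Additive ↥(Gamma0 (N * q)) →+ ℤ} (hy : y ∈ newLat N q hqN) :
    wq N q hqN ℤ y ∈ newLat N q hqN := by
  obtain ⟨h1, h2, h3⟩ := (mem_newLat_iff N q hqN).mp hy
  refine (mem_newLat_iff N q hqN).mpr ⟨wq_isParabolicHom N q hqN h1, ?_, ?_⟩
  · rw [corA_wq, h3]
  · rw [corB_wq, h2]

/-- `U_q = - w_q` on the `q`-new sublattice. -/
theorem uq_eq_neg_wq_of_mem_newLat {y : Additive ↥(Gamma0 (N * q)) →+ ℤ}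
    (hy : y ∈ newLat N q hqN) : uq N q ℤ y = - wq N q hqN ℤ y :=
  uq_eq_neg_wq N q hqN y ((mem_newLat_iff N q hqN).mp hy).2.2

/-- The `q`-new sublattice is stable under `U_q`. -/
theorem uq_mem_newLat {y : Additive ↥(Gamma0 (N * q)) →+ ℤ} (hy : y ∈ newLat N q hqN) :
    uq N q ℤ y ∈ newLat N q hqN := by
  rw [uq_eq_neg_wq_of_mem_newLat N q hqN hy]
  exact (newLat N q hqN).neg_mem (wq_mem_newLat N q hqN hy)

/-- `U_q² = 1` on the `q`-new sublattice. -/
theorem uq_uq_of_mem_newLat {y : Additive ↥(Gamma0 (N * q)) →+ ℤ} (hy : y ∈ newLat N q hqN) :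
    uq N q ℤ (uq N q ℤ y) = y := by
  obtain ⟨-, h2, h3⟩ := (mem_newLat_iff N q hqN).mp hy
  exact uq_uq_of_new N q hqN y h2 h3

/-- `U_q² = 1` on the kernel of `α_*`, lattice form. -/
theorem uqL_uqL_of_alphaDown (y : Lat (N * q)) (hy : alphaDown N q hqN y = 0) :
    uqL N q (uqL N q y) = y :=
  Subtype.ext (uq_uq_of_mem_newLat N q hqN ((coe_mem_newLat_iff N q hqN y).mpr hy))

/-- The kernel of `α_*` is stable under `U_q`, lattice form. -/
theorem alphaDown_uqL (y : Lat (N * q)) (hy : alphaDown N q hqN y = 0) :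
    alphaDown N q hqN (uqL N q y) = 0 :=
  (coe_mem_newLat_iff N q hqN (uqL N q y)).mp
    (uq_mem_newLat N q hqN ((coe_mem_newLat_iff N q hqN y).mpr hy))

/-- The kernel of `α_*` is stable under `w_q`, lattice form. -/
theorem alphaDown_wqL (y : Lat (N * q)) (hy : alphaDown N q hqN y = 0) :
    alphaDown N q hqN (wqL N q hqN y) = 0 :=
  (coe_mem_newLat_iff N q hqN (wqL N q hqN y)).mp
    (wq_mem_newLat N q hqN ((coe_mem_newLat_iff N q hqN y).mpr hy))

end Ops

end Fermat.Agent.P7.DegenLat
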