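import Mathlib
import Fermat.Agent.S35.CohFam

/-!
# P7 leaf (HK), restriction half: the two restriction maps commute with `T_ℓ` (helper59)

Vocabulary of `Lib/HeckeHom` (`IsCosetFamily`, `heckeHom`) and `P5/Per` (`tcoh`).

## Abstract part

`heckeHom_comp_hom`: let `h₁ : IsCosetFamily e₁ T₁` (group `Γ₁`), `h₂ : IsCosetFamily e₂ T₂`
(group `Γ₂`), `J : Γ₂ →* Γ₁` a homomorphism which is "conjugation by `d`" inside the ambient
group (`e₂ γ * d = d * e₁ (J γ)`), and suppose that `d` carries the cosets of the second family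
to the cosets of the first one (`T₂ i * d = d * (e₁ (u i) * T₁ (τ i))`, `τ` bijective).  Then
precomposition with `J` intertwines the two operators:

  `Θ₂ (φ ∘ J) = (Θ₁ φ) ∘ J`.

(Two-group version of `Lib.HeckeHom.IsCosetFamily.heckeHom_comp_conj`.)

## Concrete part (`Γ₀(M q) → Γ₀(M)`, `ℓ ∤ M q` prime)

* `tcoh_comp_incl`  : restriction along the inclusion `S35.CohFam.incl M q` commutes with `T_ℓ`;
* `tcoh_comp_flat`  : restriction along ANY homomorphism `J : Γ₀(M q) →* Γ₀(M)` with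
  `γ · diag(1,q) = diag(1,q) · J γ` (i.e. `J γ = (a, q b; c / q, d)`) commutes with `T_ℓ`;
* `eG_mul_dq_of_entries` : the matrix identity from the four entry identities;
* `tcoh_comp_flat_of_entries` : the same with the hypothesis on `J` in entry form.
-/

set_option autoImplicit false

namespace Fermat.Agent.P7.ResHecke

open Fermat.Agent.Lib.HeckeHom

section Abstract

variable {Γ₁ Γ₂ G : Type*} [Group Γ₁] [Group Γ₂] [Group G] {ι₁ ι₂ : Type*} [Fintype ι₁]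
  [Fintype ι₂] {A : Type*} [AddCommGroup A] {e₁ : Γ₁ →* G} {e₂ : Γ₂ →* G} {T₁ : ι₁ → G}
  {T₂ : ι₂ → G}

/-- Precomposition with a homomorphism `J : Γ₂ →* Γ₁` induced by conjugation with `d` in the
ambient group intertwines the operators of two coset families which `d` matches up. -/
theorem heckeHom_comp_hom (h₁ : IsCosetFamily e₁ T₁) (h₂ : IsCosetFamily e₂ T₂) (J : Γ₂ →* Γ₁)
    (d : G) (hJ : ∀ γ, e₂ γ * d = d * e₁ (J γ)) (τ : ι₂ → ι₁) (hτ : Function.Bijective τ)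
    (u : ι₂ → Γ₁) (hT : ∀ i, T₂ i * d = d * (e₁ (u i) * T₁ (τ i))) (φ : Additive Γ₁ →+ A) :
    h₂.heckeHom (φ.comp (MonoidHom.toAdditive J)) =
      (h₁.heckeHom φ).comp (MonoidHom.toAdditive J) := by
  refine AddMonoidHom.ext fun γa => ?_
  obtain ⟨γ, rfl⟩ : ∃ γ : Γ₂, Additive.ofMul γ = γa := ⟨Additive.toMul γa, rfl⟩
  show ∑ i, φ (Additive.ofMul (J (h₂.cof γ i))) = ∑ j, φ (Additive.ofMul (h₁.cof (J γ) j))
  have key : ∀ i, T₁ (τ i) * e₁ (J γ) =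
      e₁ ((u i)⁻¹ * J (h₂.cof γ i) * u (h₂.nxt γ i)) * T₁ (τ (h₂.nxt γ i)) := by
    intro i
    have h1 := h₂.spec γ i
    have h2 : d * (e₁ (u i) * T₁ (τ i) * e₁ (J γ)) =
        d * (e₁ (J (h₂.cof γ i)) * (e₁ (u (h₂.nxt γ i)) * T₁ (τ (h₂.nxt γ i)))) := by
      calc d * (e₁ (u i) * T₁ (τ i) * e₁ (J γ))
          = d * (e₁ (u i) * T₁ (τ i)) * e₁ (J γ) := by simp only [mul_assoc]
        _ = T₂ i * (d * e₁ (J γ)) := by rw [← hT i, mul_assoc]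
        _ = T₂ i * e₂ γ * d := by rw [← hJ γ, mul_assoc]
        _ = e₂ (h₂.cof γ i) * (T₂ (h₂.nxt γ i) * d) := by rw [h1, mul_assoc]
        _ = e₂ (h₂.cof γ i) * d * (e₁ (u (h₂.nxt γ i)) * T₁ (τ (h₂.nxt γ i))) := by
            rw [hT (h₂.nxt γ i), ← mul_assoc]
        _ = _ := by rw [hJ (h₂.cof γ i), mul_assoc]
    have h3 := mul_left_cancel h2
    rw [map_mul, map_mul, map_inv]
    calc T₁ (τ i) * e₁ (J γ) = (e₁ (u i))⁻¹ * (e₁ (u i) * T₁ (τ i) * e₁ (J γ)) := by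
          simp only [mul_assoc, inv_mul_cancel_left]
      _ = _ := by rw [h3]; simp only [mul_assoc]
  have hc : ∀ i, h₁.cof (J γ) (τ i) = (u i)⁻¹ * J (h₂.cof γ i) * u (h₂.nxt γ i) :=
    fun i => h₁.cof_eq (key i)
  let τe : ι₂ ≃ ι₁ := Equiv.ofBijective τ hτ
  have h2 : ∑ j, φ (Additive.ofMul (h₁.cof (J γ) j)) =
      ∑ i, φ (Additive.ofMul (h₁.cof (J γ) (τ i))) :=
    (Equiv.sum_comp τe (fun j => φ (Additive.ofMul (h₁.cof (J γ) j)))).symm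
  rw [h2]
  simp only [hc, ofMul_mul, ofMul_inv, map_add, map_neg, Finset.sum_add_distrib,
    Finset.sum_neg_distrib]
  have h3 : ∑ i, φ (Additive.ofMul (u (h₂.nxt γ i))) = ∑ i, φ (Additive.ofMul (u i)) :=
    Equiv.sum_comp (h₂.nxtPerm γ) (fun i => φ (Additive.ofMul (u i)))
  rw [h3]
  abel

end Abstract

end Fermat.Agent.P7.ResHecke

namespace Fermat.Agent.P7.ResHecke

open scoped MatrixGroups
open CongruenceSubgroup Matrix.SpecialLinearGroup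
open Fermat.Agent.Lib.HeckeHom Fermat.Agent.Lib.HeckePeriod Fermat.Agent.Lib.HeckeHomGL
  Fermat.Agent.Lib.HeckeHomComm Fermat.Agent.S35.CohFam
open P2MW.S_ModularForm_heckeT_slash_eq_self_of_mem_Gamma0.ModularForm.HeckeSlashInvariance

variable {M q : ℕ} {A : Type*} [AddCommGroup A]

/-- **(HK), `resA`.**  Restriction along the inclusion `Γ₀(M q) ≤ Γ₀(M)` intertwines the Hecke
operators `T_ℓ` (`ℓ ∤ M q`) of the two levels. -/
theorem tcoh_comp_incl {ℓ : ℕ} (hℓ : ℓ.Prime) (hℓM : ¬ ℓ ∣ M) (hℓMq : ¬ ℓ ∣ M * q)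
    (ψ : Additive (Gamma0 M) →+ A) :
    Fermat.Agent.P5.Per.tcoh (M * q) hℓ hℓMq A (ψ.comp (MonoidHom.toAdditive (incl M q))) =
      (Fermat.Agent.P5.Per.tcoh M hℓ hℓM A ψ).comp (MonoidHom.toAdditive (incl M q)) := by
  have : Fact ℓ.Prime := ⟨hℓ⟩
  exact heckeHom_comp_hom (isCosetFamily_heckeRep M ℓ hℓM)
    (isCosetFamily_heckeRep (M * q) ℓ hℓMq) (incl M q) 1
    (fun γ => by rw [mul_one, one_mul, eG_incl]) id Function.bijective_id (fun _ => 1)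
    (fun i => by simp) ψ

/-- **(HK), `resB`.**  Restriction along any homomorphism `J : Γ₀(M q) →* Γ₀(M)` induced by
conjugation with `diag(1, q)` (`γ · diag(1,q) = diag(1,q) · J γ`, i.e.
`J (a, b; c, d) = (a, q b; c / q, d)`) intertwines the Hecke operators `T_ℓ` (`ℓ ∤ M q`) of the
two levels. -/
theorem tcoh_comp_flat [NeZero q] (hq : q.Prime) {ℓ : ℕ} (hℓ : ℓ.Prime) (hℓM : ¬ ℓ ∣ M)
    (hℓMq : ¬ ℓ ∣ M * q) (J : Gamma0 (M * q) →* Gamma0 M)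
    (hJ : ∀ γ, eG (M * q) γ * dq q = dq q * eG M (J γ)) (ψ : Additive (Gamma0 M) →+ A) :
    Fermat.Agent.P5.Per.tcoh (M * q) hℓ hℓMq A (ψ.comp (MonoidHom.toAdditive J)) =
      (Fermat.Agent.P5.Per.tcoh M hℓ hℓM A ψ).comp (MonoidHom.toAdditive J) := by
  have : Fact ℓ.Prime := ⟨hℓ⟩
  have hℓq : ℓ ≠ q := fun hh => hℓMq (hh ▸ Dvd.intro_left M rfl)
  have hex : ∀ x : OnePoint (ZMod ℓ), ∃ (y : OnePoint (ZMod ℓ)) (m' : ℤ),
      aT ℓ y = aT ℓ x ∧ bT ℓ y - bT ℓ x * q = dT ℓ x * m' := by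
    intro x
    obtain ⟨y, hay, m', hm'⟩ := exists_bT ℓ x (bT ℓ x * q)
    exact ⟨y, m', hay, hm'⟩
  choose τ m hay hm using hex
  have hinj : Function.Injective τ := by
    intro x x' hxx'
    have ha : aT ℓ x = aT ℓ x' := by rw [← hay x, ← hay x', hxx']
    have hd : dT ℓ x = dT ℓ x' := dT_eq_of_aT_eq ℓ ha
    refine eq_of_aT_eq_of_dvd ℓ ha ?_
    have h1 : dT ℓ x ∣ (bT ℓ x - bT ℓ x') * q := by
      refine ⟨m x' - m x, ?_⟩
      have e1 := hm x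
      have e2 := hm x'
      rw [← hxx', ← hd] at e2
      linear_combination e2 - e1
    exact (isCoprime_dT hℓq hq x).dvd_of_dvd_mul_right h1
  have hbij : Function.Bijective τ := Finite.injective_iff_bijective.mp hinj
  refine heckeHom_comp_hom (isCosetFamily_heckeRep M ℓ hℓM)
    (isCosetFamily_heckeRep (M * q) ℓ hℓMq) J (dq q) hJ τ hbij (fun x => unipG M (-(m x)))
    (fun x => ?_) ψ
  have hdy : dT ℓ (τ x) = dT ℓ x := dT_eq_of_aT_eq ℓ (hay x)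
  have hy : IsUT (heckeRep ℓ (τ x)) (aT ℓ x) (bT ℓ (τ x)) (dT ℓ x) := by
    have h0 := isUT_heckeRep ℓ (τ x)
    rwa [hay x, hdy] at h0
  exact ut_mul_dq M q (isUT_heckeRep ℓ x) hy (by linear_combination (-1 : ℤ) * hm x)

/-- The matrix identity `γ · diag(1,q) = diag(1,q) · γ'` from the four entry identities
`γ' = (a, q b; c / q, d)`. -/
theorem eG_mul_dq_of_entries [NeZero q] (γ : Gamma0 (M * q)) (γ' : Gamma0 M)
    (h00 : (γ' : SL(2, ℤ)) 0 0 = (γ : SL(2, ℤ)) 0 0)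
    (h01 : (γ' : SL(2, ℤ)) 0 1 = q * (γ : SL(2, ℤ)) 0 1)
    (h10 : (γ : SL(2, ℤ)) 1 0 = q * (γ' : SL(2, ℤ)) 1 0)
    (h11 : (γ' : SL(2, ℤ)) 1 1 = (γ : SL(2, ℤ)) 1 1) :
    eG (M * q) γ * dq q = dq q * eG M γ' := by
  have e00 : (((γ' : SL(2, ℤ)) 0 0 : ℤ) : ℝ) = (((γ : SL(2, ℤ)) 0 0 : ℤ) : ℝ) := by
    exact_mod_cast h00
  have e01 : (((γ' : SL(2, ℤ)) 0 1 : ℤ) : ℝ) = (q : ℝ) * (((γ : SL(2, ℤ)) 0 1 : ℤ) : ℝ) := by
    exact_mod_cast h01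
  have e10 : (((γ : SL(2, ℤ)) 1 0 : ℤ) : ℝ) = (q : ℝ) * (((γ' : SL(2, ℤ)) 1 0 : ℤ) : ℝ) := by
    exact_mod_cast h10
  have e11 : (((γ' : SL(2, ℤ)) 1 1 : ℤ) : ℝ) = (((γ : SL(2, ℤ)) 1 1 : ℤ) : ℝ) := by
    exact_mod_cast h11
  apply Units.ext
  rw [Units.val_mul, Units.val_mul, (isUT_dq q).val, eG_apply, eG_apply, coe_mapGL, coe_mapGL]
  ext i j
  fin_cases i <;> fin_cases j <;>
    simp [Matrix.mul_apply, Fin.sum_univ_two, e00, e01, e10, e11] <;> ring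

/-- **(HK), `resB`, entry form.** -/
theorem tcoh_comp_flat_of_entries [NeZero q] (hq : q.Prime) {ℓ : ℕ} (hℓ : ℓ.Prime)
    (hℓM : ¬ ℓ ∣ M) (hℓMq : ¬ ℓ ∣ M * q) (J : Gamma0 (M * q) →* Gamma0 M)
    (h00 : ∀ γ : Gamma0 (M * q), (J γ : SL(2, ℤ)) 0 0 = (γ : SL(2, ℤ)) 0 0)
    (h01 : ∀ γ : Gamma0 (M * q), (J γ : SL(2, ℤ)) 0 1 = q * (γ : SL(2, ℤ)) 0 1)
    (h10 : ∀ γ : Gamma0 (M * q), (γ : SL(2, ℤ)) 1 0 = q * (J γ : SL(2, ℤ)) 1 0)
    (h11 : ∀ γ : Gamma0 (M * q), (J γ : SL(2, ℤ)) 1 1 = (γ : SL(2, ℤ)) 1 1)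
    (ψ : Additive (Gamma0 M) →+ A) :
    Fermat.Agent.P5.Per.tcoh (M * q) hℓ hℓMq A (ψ.comp (MonoidHom.toAdditive J)) =
      (Fermat.Agent.P5.Per.tcoh M hℓ hℓM A ψ).comp (MonoidHom.toAdditive J) :=
  tcoh_comp_flat hq hℓ hℓM hℓMq J
    (fun γ => eG_mul_dq_of_entries γ (J γ) (h00 γ) (h01 γ) (h10 γ) (h11 γ)) ψ

end Fermat.Agent.P7.ResHecke
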