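import Mathlib
import Fermat.Agent.S35.CohFam
import Fermat.Agent.P7.DegenDefs
import Fermat.Agent.P7.DegenUq
import Fermat.Agent.P7.ResHecke

/-!
# P7 leaf (HK): the four degeneracy maps commute with `T_ℓ`, `ℓ ∤ N q` (helper59)

Vocabulary of `P7/DegenDefs` (`resA`, `resB`, `corA`, `corB` on `Hom(Γ₀(·), A)`, any abelian
group `A`) and `P5/Per` (`tcoh`).  `q` is a prime not dividing `N`, `ℓ` a prime not dividing `N q`.

* `tcoh_resA` : `T_ℓ (resA φ) = resA (T_ℓ φ)`;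
* `tcoh_resB` : `T_ℓ (resB φ) = resB (T_ℓ φ)`;
* `tcoh_corA` : `corA (T_ℓ y) = T_ℓ (corA y)`;
* `tcoh_corB` : `corB (T_ℓ y) = T_ℓ (corB y)`;
* `tcoh_new`  : `ker corA ⊓ ker corB` is stable under `T_ℓ`.

The restriction half is `P7/ResHecke` (`resB φ = φ ∘ conjB`).  The transfer half is
`S35.CohFam.tcoh_corA` / `tcoh_corB`: `corA` is the transfer of the family `e (rep k)` and
`corB = corA ∘ w_q` is the transfer of the family `diag(1, q) · e (g1 · rep k)`, where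
`g1 = (q x₀, y₀; N, 1) ∈ Γ₀(N)` and `W = diag(1, q) · e (g1)` (`wMat_eq`), with cofactors
`cW (cof_A γ k)` (`relB`).
-/

set_option autoImplicit false

namespace Fermat.Agent.P7.DegenHecke

open scoped MatrixGroups
open CongruenceSubgroup Matrix.SpecialLinearGroup
open Fermat.Agent.Lib.HeckeHom Fermat.Agent.Lib.HeckePeriod Fermat.Agent.Lib.HeckeHomGL
open Fermat.Agent.Lib.Gamma0Count
open Fermat.Agent.P7.PairFam Fermat.Agent.P7.Degen
open P2MW.S_ModularForm_heckeT_slash_eq_self_of_mem_Gamma0.ModularForm.HeckeSlashInvariance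

variable (N q : ℕ) [NeZero N] [Fact q.Prime] (hqN : ¬ q ∣ N)

/-! ### The restriction half -/

section Res

variable {A : Type*} [AddCommGroup A]

omit [NeZero N] [Fact (Nat.Prime q)] in
/-- **(HK1)** `T_ℓ ∘ resA = resA ∘ T_ℓ`. -/
theorem tcoh_resA {ℓ : ℕ} (hℓ : ℓ.Prime) (hℓN : ¬ ℓ ∣ N) (hℓNq : ¬ ℓ ∣ N * q)
    (φ : Additive ↥(Gamma0 N) →+ A) :
    Fermat.Agent.P5.Per.tcoh (N * q) hℓ hℓNq A (resA N q A φ) =
      resA N q A (Fermat.Agent.P5.Per.tcoh N hℓ hℓN A φ) :=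
  Fermat.Agent.P7.ResHecke.tcoh_comp_incl hℓ hℓN hℓNq φ

/-- **(HK2)** `T_ℓ ∘ resB = resB ∘ T_ℓ`. -/
theorem tcoh_resB {ℓ : ℕ} (hℓ : ℓ.Prime) (hℓN : ¬ ℓ ∣ N) (hℓNq : ¬ ℓ ∣ N * q)
    (φ : Additive ↥(Gamma0 N) →+ A) :
    Fermat.Agent.P5.Per.tcoh (N * q) hℓ hℓNq A (resB N q hqN A φ) =
      resB N q hqN A (Fermat.Agent.P5.Per.tcoh N hℓ hℓN A φ) := by
  rw [resB_eq_comp, resB_eq_comp]
  exact Fermat.Agent.P7.ResHecke.tcoh_comp_flat (Fact.out : q.Prime) hℓ hℓN hℓNq (conjB N q)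
    (fun γ => eG_conjB' N q γ) φ

end Res

/-! ### The transfer `corA` -/

section CorA

/-- The transfer family of `corA` in the vocabulary of `S35.CohFam`. -/
theorem fam₂A : Fermat.Agent.S35.CohFam.IsFam₂ (eG (N * q)) (eG N)
    (fun k : ↥(Gamma0 N) ⧸ (incl N q).range => eG N (rep (incl N q) k)) where
  inj_e := eG_injective (N * q)
  perm γ k := by
    have h := (famCorA N q).spec γ k
    simp only [transferFam, one_mul] at h
    exact ⟨_, _, h⟩
  distinct k k' g hg := by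
    refine (famCorA N q).distinct k k' g ?_
    simp only [transferFam, one_mul]
    exact hg

variable {A : Type*} [AddCommGroup A]

theorem corHom_fam₂A (y : Additive ↥(Gamma0 (N * q)) →+ A) :
    (fam₂A N q).corHom y = corA N q A y := by
  refine AddMonoidHom.ext fun γa => ?_
  obtain ⟨γ, rfl⟩ : ∃ γ : Gamma0 N, Additive.ofMul γ = γa := ⟨Additive.toMul γa, rfl⟩
  rw [corA_eq, IsPairFamily.pairHom_apply]
  refine (fam₂A N q).corHom_apply_of y γ ((famCorA N q).cof γ) ((famCorA N q).nxt γ)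
    (fun k => ?_)
  have h := (famCorA N q).spec γ k
  simp only [transferFam, one_mul] at h
  exact h

include hqN in
/-- **(HK3)** `corA ∘ T_ℓ = T_ℓ ∘ corA`. -/
theorem tcoh_corA {ℓ : ℕ} (hℓ : ℓ.Prime) (hℓN : ¬ ℓ ∣ N) (hℓNq : ¬ ℓ ∣ N * q)
    (y : Additive ↥(Gamma0 (N * q)) →+ A) :
    corA N q A (Fermat.Agent.P5.Per.tcoh (N * q) hℓ hℓNq A y) =
      Fermat.Agent.P5.Per.tcoh N hℓ hℓN A (corA N q A y) := by
  rw [← corHom_fam₂A, ← corHom_fam₂A]
  exact Fermat.Agent.S35.CohFam.tcoh_corA (Fact.out : q.Prime) hqN hℓ hℓN hℓNq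
    (rep (incl N q)) (fam₂A N q) y

end CorA

/-! ### The transfer `corB = corA ∘ w_q` -/

section CorB

/-- `g1 = (q x₀, y₀; N, 1)`, where `g0 = (x₀, y₀; N, q)`. -/
noncomputable def g1SL : SL(2, ℤ) :=
  ⟨!![q * g0 N q hqN 0 0, g0 N q hqN 0 1; N, 1], by
    rw [Matrix.det_fin_two_of]
    have h := g0_det N q hqN
    linear_combination h⟩

omit [NeZero N] in
theorem g1SL_mem : g1SL N q hqN ∈ Gamma0 N :=
  mem_Gamma0_of_dvd (show (N : ℤ) ∣ (N : ℤ) from dvd_rfl)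

/-- `g1` as an element of `Γ₀(N)`. -/
noncomputable def g1 : ↥(Gamma0 N) := ⟨g1SL N q hqN, g1SL_mem N q hqN⟩

omit [NeZero N] in
/-- `W = diag(1, q) · e (g1)`. -/
theorem wMat_eq : wMat N q hqN = Fermat.Agent.S35.CohFam.dq q * eG N (g1 N q hqN) := by
  have hq : q ≠ 0 := (Fact.out : q.Prime).ne_zero
  have hdq : ((Fermat.Agent.S35.CohFam.dq q : GL (Fin 2) ℝ) : Matrix (Fin 2) (Fin 2) ℝ) =
      !![1, ((0 : ℕ) : ℝ); 0, (q : ℝ)] := ModularForm.val_heckeMatrix hq 0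
  apply Units.ext
  rw [wMat, Units.val_mul, Units.val_mul, eG_apply, eG_apply, coe_mapGL, coe_mapGL,
    ModularForm.val_heckeDiagMatrix hq, hdq]
  have f00 : ((g0N N q hqN : Gamma0 N) : SL(2, ℤ)) 0 0 = g0 N q hqN 0 0 := rfl
  have f01 : ((g0N N q hqN : Gamma0 N) : SL(2, ℤ)) 0 1 = g0 N q hqN 0 1 := rfl
  have f10 : ((g0N N q hqN : Gamma0 N) : SL(2, ℤ)) 1 0 = N := g0_10 N q hqN
  have f11 : ((g0N N q hqN : Gamma0 N) : SL(2, ℤ)) 1 1 = q := g0_11 N q hqN
  have e00 : ((g1 N q hqN : Gamma0 N) : SL(2, ℤ)) 0 0 = q * g0 N q hqN 0 0 := rfl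
  have e01 : ((g1 N q hqN : Gamma0 N) : SL(2, ℤ)) 0 1 = g0 N q hqN 0 1 := rfl
  have e10 : ((g1 N q hqN : Gamma0 N) : SL(2, ℤ)) 1 0 = N := rfl
  have e11 : ((g1 N q hqN : Gamma0 N) : SL(2, ℤ)) 1 1 = 1 := rfl
  rw [f00, f01, f10, f11, e00, e01, e10, e11]
  ext i j
  fin_cases i <;> fin_cases j <;> simp [Matrix.mul_apply, Fin.sum_univ_two] <;> ring

/-- The key relation of the `corB`-family `diag(1, q) · e (g1 · rep k) = W · e (rep k)`: its
cofactors are `cW (cof_A γ k)`. -/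
theorem relB (γ : Gamma0 N) (k : ↥(Gamma0 N) ⧸ (incl N q).range) :
    Fermat.Agent.S35.CohFam.dq q * eG N (g1 N q hqN * rep (incl N q) k) * eG N γ =
      eG (N * q) (cW N q hqN ((famCorA N q).cof γ k)) *
        (Fermat.Agent.S35.CohFam.dq q *
          eG N (g1 N q hqN * rep (incl N q) ((famCorA N q).nxt γ k))) := by
  have h := (famCorA N q).spec γ k
  simp only [transferFam, one_mul] at h
  calc Fermat.Agent.S35.CohFam.dq q * eG N (g1 N q hqN * rep (incl N q) k) * eG N γ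
      = wMat N q hqN * (eG N (rep (incl N q) k) * eG N γ) := by
        rw [wMat_eq, map_mul]; simp only [mul_assoc]
    _ = wMat N q hqN * eG (N * q) ((famCorA N q).cof γ k) *
          eG N (rep (incl N q) ((famCorA N q).nxt γ k)) := by rw [h, mul_assoc]
    _ = eG (N * q) (cW N q hqN ((famCorA N q).cof γ k)) *
          (wMat N q hqN * eG N (rep (incl N q) ((famCorA N q).nxt γ k))) := by
        rw [wMat_mul, mul_assoc]
    _ = _ := by rw [wMat_eq, map_mul]; simp only [mul_assoc]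

/-- The transfer family of `corB` in the vocabulary of `S35.CohFam`. -/
theorem fam₂B : Fermat.Agent.S35.CohFam.IsFam₂ (eG (N * q)) (eG N)
    (fun k : ↥(Gamma0 N) ⧸ (incl N q).range =>
      Fermat.Agent.S35.CohFam.dq q * eG N (g1 N q hqN * rep (incl N q) k)) where
  inj_e := eG_injective (N * q)
  perm γ k := ⟨_, _, relB N q hqN γ k⟩
  distinct k k' g hg := by
    obtain ⟨c, rfl⟩ := cW_surjective N q hqN g
    have h1 : wMat N q hqN * eG N (rep (incl N q) k) =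
        wMat N q hqN * (eG (N * q) c * eG N (rep (incl N q) k')) := by
      calc wMat N q hqN * eG N (rep (incl N q) k)
          = Fermat.Agent.S35.CohFam.dq q * eG N (g1 N q hqN * rep (incl N q) k) := by
            rw [wMat_eq, map_mul, mul_assoc]
        _ = eG (N * q) (cW N q hqN c) *
              (Fermat.Agent.S35.CohFam.dq q * eG N (g1 N q hqN * rep (incl N q) k')) := hg
        _ = eG (N * q) (cW N q hqN c) * wMat N q hqN * eG N (rep (incl N q) k') := by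
            rw [wMat_eq, map_mul]; simp only [mul_assoc]
        _ = _ := by rw [← wMat_mul, mul_assoc]
    have h2 := mul_left_cancel h1
    refine (famCorA N q).distinct k k' c ?_
    simp only [transferFam, one_mul]
    exact h2

variable {A : Type*} [AddCommGroup A]

theorem corHom_fam₂B (y : Additive ↥(Gamma0 (N * q)) →+ A) :
    (fam₂B N q hqN).corHom y = corB N q hqN A y := by
  refine AddMonoidHom.ext fun γa => ?_
  obtain ⟨γ, rfl⟩ : ∃ γ : Gamma0 N, Additive.ofMul γ = γa := ⟨Additive.toMul γa, rfl⟩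
  rw [corB_eq, corA_eq, IsPairFamily.pairHom_apply]
  simp only [wq_apply]
  exact (fam₂B N q hqN).corHom_apply_of y γ (fun k => cW N q hqN ((famCorA N q).cof γ k))
    ((famCorA N q).nxt γ) (relB N q hqN γ)

/-- **(HK4)** `corB ∘ T_ℓ = T_ℓ ∘ corB`. -/
theorem tcoh_corB {ℓ : ℕ} (hℓ : ℓ.Prime) (hℓN : ¬ ℓ ∣ N) (hℓNq : ¬ ℓ ∣ N * q)
    (y : Additive ↥(Gamma0 (N * q)) →+ A) :
    corB N q hqN A (Fermat.Agent.P5.Per.tcoh (N * q) hℓ hℓNq A y) =
      Fermat.Agent.P5.Per.tcoh N hℓ hℓN A (corB N q hqN A y) := by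
  rw [← corHom_fam₂B, ← corHom_fam₂B]
  exact Fermat.Agent.S35.CohFam.tcoh_corB (Fact.out : q.Prime) hℓ hℓN hℓNq
    (fun k => g1 N q hqN * rep (incl N q) k) (fam₂B N q hqN) y

/-- The `q`-new part `ker corA ⊓ ker corB` is stable under `T_ℓ`. -/
theorem tcoh_new {ℓ : ℕ} (hℓ : ℓ.Prime) (hℓN : ¬ ℓ ∣ N) (hℓNq : ¬ ℓ ∣ N * q)
    (y : Additive ↥(Gamma0 (N * q)) →+ A) (hA : corA N q A y = 0)
    (hB : corB N q hqN A y = 0) :
    corA N q A (Fermat.Agent.P5.Per.tcoh (N * q) hℓ hℓNq A y) = 0 ∧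
      corB N q hqN A (Fermat.Agent.P5.Per.tcoh (N * q) hℓ hℓNq A y) = 0 := by
  rw [tcoh_corA N q hqN hℓ hℓN hℓNq, tcoh_corB N q hqN hℓ hℓN hℓNq, hA, hB, map_zero]
  exact ⟨rfl, rfl⟩

end CorB

end Fermat.Agent.P7.DegenHecke
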