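import Mathlib
import Fermat.Agent.P7.CspAsm
import Fermat.Agent.P7.AmalgFinal

/-!
# P7 [IHARA]: from a glued character on `Γ₀(N)[1/q]` to Ihara's lemma (helper82)

* `hu_of`, `hl_of` : a hom `Ψ` from `GN q N` to a commutative group which is trivial on
  `u(1)`, `u(1/q)` (resp. `l(N)`, `l(Nq)`) is trivial on all upper (resp. lower) unipotent elements
  of `GN q N` (conjugation by `diag(q, q⁻¹)`).
* `ihara_of_glue` : if `φ₁, φ₂ : Γ₀(N) → 𝔽_p` kill the unipotent elements of `Γ₀(N)` and glue to a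
  hom `Ψ` on `GN q N` (`Ψ = φ₁` on `Γ₀(N)`, `Ψ = φ₂ ∘ conj_δ` on `δ⁻¹Γ₀(N)δ`), then `φ₁` and `φ₂`
  are trivial on every `γ ∈ Γ₀(N)` with `γ₀₀ ≡ 1 mod N`.
-/

set_option autoImplicit false
set_option linter.unusedSimpArgs false
set_option linter.unusedVariables false

namespace Fermat.Agent.P7.IharaAsm

open Matrix CspGroup
open scoped MatrixGroups

section elem

variable {A : Type*} [CommRing A]

theorem uu_mul (x y : A) : uu x * uu y = uu (x + y) :=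
  sl2_ext (by simp [mul_00]) (by simp [mul_01, add_comm]) (by simp [mul_10]) (by simp [mul_11])

theorem uu_zero : uu (0 : A) = 1 :=
  sl2_ext (by simp) (by simp) (by simp) (by simp)

theorem ll_mul (x y : A) : ll x * ll y = ll (x + y) :=
  sl2_ext (by simp [mul_00]) (by simp [mul_01]) (by simp [mul_10]) (by simp [mul_11])

theorem ll_zero : ll (0 : A) = 1 :=
  sl2_ext (by simp) (by simp) (by simp) (by simp)

/-- `x ↦ u(x)` as a hom. -/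
def uuHom (A : Type*) [CommRing A] : Multiplicative A →* SL(2, A) where
  toFun x := uu (Multiplicative.toAdd x)
  map_one' := uu_zero
  map_mul' x y := (uu_mul _ _).symm

/-- `x ↦ l(x)` as a hom. -/
def llHom (A : Type*) [CommRing A] : Multiplicative A →* SL(2, A) where
  toFun x := ll (Multiplicative.toAdd x)
  map_one' := ll_zero
  map_mul' x y := (ll_mul _ _).symm

theorem uu_zsmul (n : ℤ) (y : A) : uu ((n : A) * y) = uu y ^ n := by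
  have h := map_zpow (uuHom A) (Multiplicative.ofAdd y) n
  have h2 : Multiplicative.toAdd (Multiplicative.ofAdd y ^ n) = (n : A) * y := by
    rw [toAdd_zpow, toAdd_ofAdd, zsmul_eq_mul]
  have h3 : (uuHom A) (Multiplicative.ofAdd y ^ n) = uu ((n : A) * y) := by
    show uu (Multiplicative.toAdd (Multiplicative.ofAdd y ^ n)) = _
    rw [h2]
  rw [← h3, h]
  rfl

theorem ll_zsmul (n : ℤ) (y : A) : ll ((n : A) * y) = ll y ^ n := by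
  have h := map_zpow (llHom A) (Multiplicative.ofAdd y) n
  have h2 : Multiplicative.toAdd (Multiplicative.ofAdd y ^ n) = (n : A) * y := by
    rw [toAdd_zpow, toAdd_ofAdd, zsmul_eq_mul]
  have h3 : (llHom A) (Multiplicative.ofAdd y ^ n) = ll ((n : A) * y) := by
    show ll (Multiplicative.toAdd (Multiplicative.ofAdd y ^ n)) = _
    rw [h2]
  rw [← h3, h]
  rfl

end elem

section conj

variable {q : ℕ}

theorem hq_conj_uu (h : q ≠ 0) (x : ℚ) :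
    hq q h * uu x * (hq q h)⁻¹ = uu ((q : ℚ) ^ 2 * x) := by
  have hq' : (q : ℚ) ≠ 0 := Nat.cast_ne_zero.mpr h
  refine sl2_ext ?_ ?_ ?_ ?_
  · simp only [mul_00, mul_10, inv_00, inv_10, hq_00, hq_01, hq_10, hq_11, uu_00, uu_01, uu_10,
      uu_11]
    field_simp
    ring
  · simp only [mul_00, mul_01, mul_10, mul_11, inv_01, inv_11, hq_00, hq_01, hq_10, hq_11, uu_00,
      uu_01, uu_10, uu_11]
    ring
  · simp only [mul_10, mul_11, mul_00, inv_00, inv_10, hq_00, hq_01, hq_10, hq_11, uu_00, uu_01,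
      uu_10, uu_11]
    ring
  · simp only [mul_10, mul_11, mul_00, mul_01, inv_01, inv_11, hq_00, hq_01, hq_10, hq_11, uu_00,
      uu_01, uu_10, uu_11]
    field_simp
    ring

theorem hq_conj_ll (h : q ≠ 0) (t : ℚ) :
    (hq q h)⁻¹ * ll t * hq q h = ll ((q : ℚ) ^ 2 * t) := by
  have hq' : (q : ℚ) ≠ 0 := Nat.cast_ne_zero.mpr h
  refine sl2_ext ?_ ?_ ?_ ?_
  · simp only [mul_00, mul_01, mul_10, inv_00, inv_01, hq_00, hq_01, hq_10, hq_11, ll_00, ll_01,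
      ll_10, ll_11]
    field_simp
    ring
  · simp only [mul_00, mul_01, mul_11, inv_00, inv_01, hq_00, hq_01, hq_10, hq_11, ll_00, ll_01,
      ll_10, ll_11]
    ring
  · simp only [mul_10, mul_11, mul_00, inv_10, inv_11, hq_00, hq_01, hq_10, hq_11, ll_00, ll_01,
      ll_10, ll_11]
    ring
  · simp only [mul_10, mul_11, mul_01, inv_10, inv_11, hq_00, hq_01, hq_10, hq_11, ll_00, ll_01,
      ll_10, ll_11]
    field_simp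
    ring

end conj

section unip

variable {q N : ℕ} {M : Type*} [CommGroup M]

/-- `Ψ (u(x))` as a total function of `x` (junk value `1` outside `ℤ[1/q]`). -/
noncomputable def Vu (Ψ : ↥(GN q N) →* M) (x : ℚ) : M := by
  classical exact if hx : isA q x then Ψ ⟨uu x, uu_mem N hx⟩ else 1

theorem Vu_eq (Ψ : ↥(GN q N) →* M) {x : ℚ} (hx : isA q x) :
    Vu Ψ x = Ψ ⟨uu x, uu_mem N hx⟩ := by
  classical exact dif_pos hx

theorem Vu_zsmul (Ψ : ↥(GN q N) →* M) (n : ℤ) {y : ℚ} (hy : isA q y) :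
    Vu Ψ ((n : ℚ) * y) = Vu Ψ y ^ n := by
  rw [Vu_eq Ψ hy, Vu_eq Ψ (isA_mul (isA_intCast q n) hy), ← map_zpow]
  congr 1
  exact Subtype.ext (by rw [Subgroup.coe_zpow]; exact uu_zsmul n y)

theorem Vu_conj (hq0 : q ≠ 0) (Ψ : ↥(GN q N) →* M) {x : ℚ} (hx : isA q x) :
    Vu Ψ ((q : ℚ) ^ 2 * x) = Vu Ψ x := by
  have hx' : isA q ((q : ℚ) ^ 2 * x) := isA_mul (isA_pow (isA_natCast q q) 2) hx
  rw [Vu_eq Ψ hx, Vu_eq Ψ hx']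
  have h : (⟨uu ((q : ℚ) ^ 2 * x), uu_mem N hx'⟩ : ↥(GN q N)) =
      ⟨hq q hq0, hq_mem q N hq0⟩ * ⟨uu x, uu_mem N hx⟩ * ⟨hq q hq0, hq_mem q N hq0⟩⁻¹ :=
    Subtype.ext (hq_conj_uu hq0 x).symm
  rw [h, map_mul, map_mul, map_inv, mul_comm (Ψ ⟨hq q hq0, hq_mem q N hq0⟩), mul_assoc,
    mul_inv_cancel, mul_one]

theorem Vu_inv_pow (hq0 : q ≠ 0) (Ψ : ↥(GN q N) →* M) (h1 : Vu Ψ 1 = 1)
    (h2 : Vu Ψ ((q : ℚ)⁻¹) = 1) : ∀ k : ℕ, Vu Ψ (((q : ℚ) ^ k)⁻¹) = 1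
  | 0 => by simpa using h1
  | 1 => by simpa using h2
  | (k + 2) => by
    have ih := Vu_inv_pow hq0 Ψ h1 h2 k
    have hx : isA q (((q : ℚ) ^ (k + 2))⁻¹) := ⟨k + 2, 1, by simp⟩
    have h := Vu_conj hq0 Ψ hx
    have hq' : (q : ℚ) ≠ 0 := Nat.cast_ne_zero.mpr hq0
    have e : (q : ℚ) ^ 2 * ((q : ℚ) ^ (k + 2))⁻¹ = ((q : ℚ) ^ k)⁻¹ := by
      rw [pow_add]; field_simp
    rw [e] at h
    rw [← h, ih]

/-- A hom on `GN q N` (commutative target) which is trivial on `u(1)` and `u(1/q)` is trivial on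
all upper unipotent elements. -/
theorem hu_of (hq0 : q ≠ 0) (Ψ : ↥(GN q N) →* M)
    (h1 : ∀ g : ↥(GN q N), g.1 = uu 1 → Ψ g = 1)
    (h2 : ∀ g : ↥(GN q N), g.1 = uu ((q : ℚ)⁻¹) → Ψ g = 1) :
    ∀ g : ↥(GN q N), g.1.1 0 0 = 1 → g.1.1 1 0 = 0 → Ψ g = 1 := by
  intro g h00 h10
  have hx : isA q (g.1.1 0 1) := isA_entry g.2 0 1
  have hg : g = ⟨uu (g.1.1 0 1), uu_mem N hx⟩ := Subtype.ext (eq_uu h00 h10)
  rw [hg, ← Vu_eq Ψ hx]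
  obtain ⟨k, n, hkn⟩ := hx
  have hk : isA q (((q : ℚ) ^ k)⁻¹) := ⟨k, 1, by simp⟩
  rw [hkn, div_eq_mul_inv, Vu_zsmul Ψ n hk,
    Vu_inv_pow hq0 Ψ (by rw [Vu_eq Ψ (isA_one q)]; exact h1 _ rfl)
      (by rw [Vu_eq Ψ (isA_q_inv q)]; exact h2 _ rfl) k, _root_.one_zpow]

/-- `Ψ (l(N y))` as a total function of `y` (junk value `1` outside `ℤ[1/q]`). -/
noncomputable def Vl (Ψ : ↥(GN q N) →* M) (y : ℚ) : M := by
  classical exact if hy : isA q y then Ψ ⟨ll ((N : ℚ) * y), ll_mem N hy⟩ else 1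

theorem Vl_eq (Ψ : ↥(GN q N) →* M) {y : ℚ} (hy : isA q y) :
    Vl Ψ y = Ψ ⟨ll ((N : ℚ) * y), ll_mem N hy⟩ := by
  classical exact dif_pos hy

theorem Vl_zsmul (Ψ : ↥(GN q N) →* M) (n : ℤ) {y : ℚ} (hy : isA q y) :
    Vl Ψ ((n : ℚ) * y) = Vl Ψ y ^ n := by
  rw [Vl_eq Ψ hy, Vl_eq Ψ (isA_mul (isA_intCast q n) hy), ← map_zpow]
  congr 1
  refine Subtype.ext ?_
  rw [Subgroup.coe_zpow]
  show ll ((N : ℚ) * ((n : ℚ) * y)) = ll ((N : ℚ) * y) ^ n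
  rw [← ll_zsmul, mul_left_comm]

theorem Vl_conj (hq0 : q ≠ 0) (Ψ : ↥(GN q N) →* M) {y : ℚ} (hy : isA q y) :
    Vl Ψ ((q : ℚ) ^ 2 * y) = Vl Ψ y := by
  have hy' : isA q ((q : ℚ) ^ 2 * y) := isA_mul (isA_pow (isA_natCast q q) 2) hy
  rw [Vl_eq Ψ hy, Vl_eq Ψ hy']
  have h : (⟨ll ((N : ℚ) * ((q : ℚ) ^ 2 * y)), ll_mem N hy'⟩ : ↥(GN q N)) =
      ⟨hq q hq0, hq_mem q N hq0⟩⁻¹ * ⟨ll ((N : ℚ) * y), ll_mem N hy⟩ *
        ⟨hq q hq0, hq_mem q N hq0⟩ := by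
    refine Subtype.ext ?_
    show ll ((N : ℚ) * ((q : ℚ) ^ 2 * y)) = (hq q hq0)⁻¹ * ll ((N : ℚ) * y) * hq q hq0
    rw [hq_conj_ll, mul_left_comm]
  rw [h, map_mul, map_mul, map_inv, mul_comm (Ψ ⟨hq q hq0, hq_mem q N hq0⟩)⁻¹, mul_assoc,
    inv_mul_cancel, mul_one]

theorem Vl_inv_pow (hq0 : q ≠ 0) (Ψ : ↥(GN q N) →* M) (h1 : Vl Ψ 1 = 1)
    (h2 : Vl Ψ ((q : ℚ)⁻¹) = 1) : ∀ k : ℕ, Vl Ψ (((q : ℚ) ^ k)⁻¹) = 1
  | 0 => by simpa using h1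
  | 1 => by simpa using h2
  | (k + 2) => by
    have ih := Vl_inv_pow hq0 Ψ h1 h2 k
    have hx : isA q (((q : ℚ) ^ (k + 2))⁻¹) := ⟨k + 2, 1, by simp⟩
    have h := Vl_conj (N := N) hq0 Ψ hx
    have hq' : (q : ℚ) ≠ 0 := Nat.cast_ne_zero.mpr hq0
    have e : (q : ℚ) ^ 2 * ((q : ℚ) ^ (k + 2))⁻¹ = ((q : ℚ) ^ k)⁻¹ := by
      rw [pow_add]; field_simp
    rw [e] at h
    rw [← h, ih]

/-- A hom on `GN q N` (commutative target) which is trivial on `l(N)` and `l(N q)` is trivial on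
all lower unipotent elements. -/
theorem hl_of (hq0 : q ≠ 0) (Ψ : ↥(GN q N) →* M)
    (h1 : ∀ g : ↥(GN q N), g.1 = ll (N : ℚ) → Ψ g = 1)
    (h2 : ∀ g : ↥(GN q N), g.1 = ll ((N : ℚ) * q) → Ψ g = 1) :
    ∀ g : ↥(GN q N), g.1.1 0 0 = 1 → g.1.1 0 1 = 0 → Ψ g = 1 := by
  intro g h00 h01
  have hq' : (q : ℚ) ≠ 0 := Nat.cast_ne_zero.mpr hq0
  obtain ⟨y, hy, hy'⟩ := (mem_GN_iff.1 g.2).2
  have hg0 : g.1 = ll ((N : ℚ) * y) := by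
    have h := eq_ll h00 h01
    rw [hy'] at h
    exact h
  have hg : g = ⟨ll ((N : ℚ) * y), ll_mem N hy⟩ := Subtype.ext hg0
  rw [hg, ← Vl_eq Ψ hy]
  obtain ⟨k, n, hkn⟩ := hy
  have hk : isA q (((q : ℚ) ^ k)⁻¹) := ⟨k, 1, by simp⟩
  have hV1 : Vl Ψ 1 = 1 := by
    rw [Vl_eq Ψ (isA_one q)]
    exact h1 _ (by simp)
  have hVq : Vl Ψ (q : ℚ) = 1 := by
    rw [Vl_eq Ψ (isA_natCast q q)]
    exact h2 _ rfl
  have hVqi : Vl Ψ ((q : ℚ)⁻¹) = 1 := by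
    have h := Vl_conj (N := N) hq0 Ψ (isA_q_inv q)
    have e : (q : ℚ) ^ 2 * (q : ℚ)⁻¹ = q := by field_simp
    rw [e] at h
    rw [← h, hVq]
  rw [hkn, div_eq_mul_inv, Vl_zsmul Ψ n hk, Vl_inv_pow hq0 Ψ hV1 hVqi k, _root_.one_zpow]

end unip

section ihara

open CongruenceSubgroup

/-- **Ihara's lemma, group form.** Let `q` be a prime not dividing `N`, `p` an odd prime, and let
`ψ₁ ψ₂ : Γ₀(N) → 𝔽_p` be homomorphisms killing the upper and lower unipotent elements of `Γ₀(N)`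
with `ψ₁ γ = ψ₂ (δ γ δ⁻¹)` whenever `γ` and `δ γ δ⁻¹ = (a, q b; c / q, d)` both lie in `Γ₀(N)`
(`δ = diag(q, 1)`; i.e. `(ψ₁, -ψ₂)` is in the kernel of the sum of the two degeneracy maps to level
`N q`).  Then `ψ₁` and `ψ₂` are trivial on every `γ ∈ Γ₀(N)` with `γ₀₀ ≡ 1 mod N`. -/
theorem ihara {q N p : ℕ} [Fact q.Prime] (hN : 0 < N) (hqN : q.Coprime N) [Fact p.Prime]
    (hp2 : p ≠ 2) (ψ₁ ψ₂ : ↥(Gamma0 N) →* Multiplicative (ZMod p))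
    (hu₁ : ∀ γ : ↥(Gamma0 N), γ.1.1 0 0 = 1 → γ.1.1 1 0 = 0 → ψ₁ γ = 1)
    (hl₁ : ∀ γ : ↥(Gamma0 N), γ.1.1 0 0 = 1 → γ.1.1 0 1 = 0 → ψ₁ γ = 1)
    (hu₂ : ∀ γ : ↥(Gamma0 N), γ.1.1 0 0 = 1 → γ.1.1 1 0 = 0 → ψ₂ γ = 1)
    (hl₂ : ∀ γ : ↥(Gamma0 N), γ.1.1 0 0 = 1 → γ.1.1 0 1 = 0 → ψ₂ γ = 1)
    (hcompat : ∀ (γ γ' : SL(2, ℤ)) (hγ : γ ∈ Gamma0 N) (hγ' : γ' ∈ Gamma0 N),
      γ'.1 0 0 = γ.1 0 0 → γ'.1 0 1 = q * γ.1 0 1 → γ.1 1 0 = q * γ'.1 1 0 →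
      γ'.1 1 1 = γ.1 1 1 → ψ₁ ⟨γ, hγ⟩ = ψ₂ ⟨γ', hγ'⟩) :
    ∀ (γ : SL(2, ℤ)) (hγ : γ ∈ Gamma0 N), (N : ℤ) ∣ γ.1 0 0 - 1 →
      ψ₁ ⟨γ, hγ⟩ = 1 ∧ ψ₂ ⟨γ, hγ⟩ = 1 := by
  obtain ⟨Ψ, hΨ1, hΨ2⟩ := AmalgFinal.glueGN hqN ψ₁ ψ₂ hcompat
  have hq : q.Prime := Fact.out
  have hq0 : q ≠ 0 := hq.ne_zero
  have hq' : (q : ℚ) ≠ 0 := Nat.cast_ne_zero.mpr hq0
  have hTm : (uu (1 : ℤ)) ∈ Gamma0 N := by rw [Gamma0_mem]; simp
  have hLm : (ll (N : ℤ)) ∈ Gamma0 N := by rw [Gamma0_mem]; simp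
  have hu : ∀ g : ↥(GN q N), g.1.1 0 0 = 1 → g.1.1 1 0 = 0 → Ψ g = 1 := by
    refine hu_of hq0 Ψ ?_ ?_
    · intro g hg
      have h : g = ⟨ofInt (uu (1 : ℤ)), ofInt_mem q hTm⟩ :=
        Subtype.ext (by rw [hg]; exact sl2_ext (by simp) (by simp) (by simp) (by simp))
      rw [h, hΨ1 _ hTm]
      exact hu₁ _ (by simp) (by simp)
    · intro g hg
      have h := hΨ2 (uu (1 : ℤ)) hTm g.1 (by rw [hg]; simp) (by rw [hg]; simp [hq'])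
        (by rw [hg]; simp) (by rw [hg]; simp)
      have h' : Ψ g = ψ₂ ⟨uu (1 : ℤ), hTm⟩ := h
      rw [h']
      exact hu₂ _ (by simp) (by simp)
  have hl : ∀ g : ↥(GN q N), g.1.1 0 0 = 1 → g.1.1 0 1 = 0 → Ψ g = 1 := by
    refine hl_of hq0 Ψ ?_ ?_
    · intro g hg
      have h : g = ⟨ofInt (ll (N : ℤ)), ofInt_mem q hLm⟩ :=
        Subtype.ext (by rw [hg]; exact sl2_ext (by simp) (by simp) (by simp) (by simp))
      rw [h, hΨ1 _ hLm]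
      exact hl₁ _ (by simp) (by simp)
    · intro g hg
      have h := hΨ2 (ll (N : ℤ)) hLm g.1 (by rw [hg]; simp) (by rw [hg]; simp)
        (by rw [hg]; simp [mul_comm]) (by rw [hg]; simp)
      have h' : Ψ g = ψ₂ ⟨ll (N : ℤ), hLm⟩ := h
      rw [h']
      exact hl₂ _ (by simp) (by simp)
  intro γ hγ h1
  constructor
  · rw [← hΨ1 γ hγ]
    exact CspAsm.csp_ab_int hq hN hqN.symm hp2 Ψ hu hl γ hγ h1
  · have hdet : ((γ.1 0 0 : ℤ) : ℚ) * (γ.1 1 1 : ℤ) - (γ.1 0 1 : ℤ) / (q : ℚ) * ((q : ℚ) * (γ.1 1 0 : ℤ))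
        = 1 := by
      have h := det_eq γ
      have h' : ((γ.1 0 0 : ℤ) : ℚ) * (γ.1 1 1 : ℤ) - (γ.1 0 1 : ℤ) * (γ.1 1 0 : ℤ) = 1 := by
        exact_mod_cast congrArg (Int.cast : ℤ → ℚ) h
      rw [← h']; field_simp
    have h := hΨ2 γ hγ (mk2 (γ.1 0 0 : ℚ) ((γ.1 0 1 : ℚ) / q) (q * (γ.1 1 0 : ℚ)) (γ.1 1 1 : ℚ) hdet)
      rfl (by simp only [mk2_01]; field_simp) rfl rfl
    rw [← h]
    refine CspAsm.csp_ab_hom hq hN hqN.symm hp2 Ψ hu hl _ ?_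
    obtain ⟨m, hm⟩ := h1
    refine ⟨0, m, ?_⟩
    show ((γ.1 0 0 : ℤ) : ℚ) - 1 = _
    have e : ((γ.1 0 0 : ℤ) : ℚ) - 1 = (((γ.1 0 0 - 1 : ℤ)) : ℚ) := by push_cast; ring
    rw [e, hm]; push_cast; ring

/-- **Ihara's lemma, additive form** (for `Additive (Gamma0 N) →+ ZMod p`, the hom flavour of
`Lib.HeckeHom`): under the hypotheses of `ihara`, both classes are "Eisenstein": they vanish on
every `γ ∈ Γ₀(N)` whose upper-left entry is `1` in `ZMod N`. -/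
theorem ihara_add {q N p : ℕ} [Fact q.Prime] (hN : 0 < N) (hqN : q.Coprime N) [Fact p.Prime]
    (hp2 : p ≠ 2) (ψ₁ ψ₂ : Additive ↥(Gamma0 N) →+ ZMod p)
    (hu₁ : ∀ γ : ↥(Gamma0 N), γ.1.1 0 0 = 1 → γ.1.1 1 0 = 0 → ψ₁ (Additive.ofMul γ) = 0)
    (hl₁ : ∀ γ : ↥(Gamma0 N), γ.1.1 0 0 = 1 → γ.1.1 0 1 = 0 → ψ₁ (Additive.ofMul γ) = 0)
    (hu₂ : ∀ γ : ↥(Gamma0 N), γ.1.1 0 0 = 1 → γ.1.1 1 0 = 0 → ψ₂ (Additive.ofMul γ) = 0)
    (hl₂ : ∀ γ : ↥(Gamma0 N), γ.1.1 0 0 = 1 → γ.1.1 0 1 = 0 → ψ₂ (Additive.ofMul γ) = 0)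
    (hcompat : ∀ γ γ' : ↥(Gamma0 N),
      γ'.1.1 0 0 = γ.1.1 0 0 → γ'.1.1 0 1 = q * γ.1.1 0 1 → γ.1.1 1 0 = q * γ'.1.1 1 0 →
      γ'.1.1 1 1 = γ.1.1 1 1 → ψ₁ (Additive.ofMul γ) = ψ₂ (Additive.ofMul γ')) :
    (∀ γ : ↥(Gamma0 N), ((((γ : SL(2, ℤ)) 0 0 : ℤ)) : ZMod N) = 1 → ψ₁ (Additive.ofMul γ) = 0) ∧
    (∀ γ : ↥(Gamma0 N), ((((γ : SL(2, ℤ)) 0 0 : ℤ)) : ZMod N) = 1 → ψ₂ (Additive.ofMul γ) = 0) := by
  have key := ihara hN hqN hp2 (AddMonoidHom.toMultiplicativeRight ψ₁)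
    (AddMonoidHom.toMultiplicativeRight ψ₂)
    (fun γ h0 h1 => congrArg Multiplicative.ofAdd (hu₁ γ h0 h1))
    (fun γ h0 h1 => congrArg Multiplicative.ofAdd (hl₁ γ h0 h1))
    (fun γ h0 h1 => congrArg Multiplicative.ofAdd (hu₂ γ h0 h1))
    (fun γ h0 h1 => congrArg Multiplicative.ofAdd (hl₂ γ h0 h1))
    (fun γ γ' hγ hγ' h00 h01 h10 h11 =>
      congrArg Multiplicative.ofAdd (hcompat ⟨γ, hγ⟩ ⟨γ', hγ'⟩ h00 h01 h10 h11))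
  have hdvd : ∀ γ : ↥(Gamma0 N), ((((γ : SL(2, ℤ)) 0 0 : ℤ)) : ZMod N) = 1 →
      (N : ℤ) ∣ γ.1.1 0 0 - 1 := by
    intro γ h
    rw [← ZMod.intCast_zmod_eq_zero_iff_dvd]
    push_cast
    rw [sub_eq_zero]
    exact h
  constructor
  · intro γ h
    exact Multiplicative.ofAdd.injective (key γ.1 γ.2 (hdvd γ h)).1
  · intro γ h
    exact Multiplicative.ofAdd.injective (key γ.1 γ.2 (hdvd γ h)).2

end ihara

end Fermat.Agent.P7.IharaAsm
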