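import Mathlib
import Fermat.Agent.Lib.HeckeHomInt
import Fermat.Agent.P5.Per.Action

/-!
# P7 [NON-EIS], cohomology half: Eisenstein classes have `T_ℓ`-eigenvalue `ℓ + 1`

Let `ψ : Γ₀(N) → A` be a homomorphism into an abelian group which vanishes on every matrix whose
upper left entry is `≡ 1 mod N` (an "Eisenstein" class: it factors through `γ ↦ γ₀₀ mod N`).
Then for every prime `ℓ ∤ N` the cohomological Hecke operator `T_ℓ` of `Lib/HeckeHom` (the operator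
`Fermat.Agent.P5.Per.tcoh`) multiplies `ψ` by `ℓ + 1`:

* `tcoh_eq_smul_of_isEis : IsEis N ψ → tcoh N hℓ hℓN A ψ = (ℓ + 1) • ψ`;
* `dvd_sub_of_isEis_of_eigen` : if moreover `A` is an `𝔽_p`-vector space, `ψ ≠ 0` and
  `T_ℓ ψ = t • ψ` with `t : ℤ`, then `p ∣ t - (ℓ + 1)`;
* `exists_eq_smul_of_isEis_cast` : for an integral class `ψ : Γ₀(N) → ℤ` whose reduction mod `p`
  is Eisenstein, `T_ℓ ψ - (ℓ + 1) • ψ ∈ p • Hom(Γ₀(N), ℤ)`;
* `exists_eq_smul_of_isEis_cast_lat` : the same inside the parabolic lattice `Lat N`.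

Proof: the transfer relation `δ_x γ = cof(γ, x) δ_{nxt(γ, x)}` with upper triangular integral
`δ_x` gives `a(δ_x) a(γ) ≡ a(cof) a(δ_nxt) mod N`, hence
`ψ (cof γ x) = ψ γ + c x - c (nxt γ x)` with `c x := ψ g_ℓ` if `a(δ_x) = ℓ` and `0` otherwise
(`g_ℓ ∈ Γ₀(N)` any element with upper left entry `≡ ℓ`), and the correction telescopes because
`nxt γ` is a permutation.
-/

set_option autoImplicit false

namespace Fermat.Agent.P7.NonEisCoh

open scoped MatrixGroups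
open CongruenceSubgroup Matrix.SpecialLinearGroup
open Fermat.Agent.Lib.HeckeHom Fermat.Agent.Lib.HeckeHomGL Fermat.Agent.P5.Per
open P2MW.S_ModularForm_heckeT_slash_eq_self_of_mem_Gamma0.ModularForm.HeckeSlashInvariance

/-- `ψ` vanishes on the matrices of `Γ₀(N)` with upper left entry `≡ 1 mod N`. -/
def IsEis (N : ℕ) {A : Type*} [AddCommGroup A] (ψ : Additive (Gamma0 N) →+ A) : Prop :=
  ∀ γ : Gamma0 N, ((((γ : SL(2, ℤ)) 0 0 : ℤ)) : ZMod N) = 1 → ψ (Additive.ofMul γ) = 0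

/-- The upper left entry mod `N`. -/
def ul (N : ℕ) (γ : Gamma0 N) : ZMod N := ((((γ : SL(2, ℤ)) 0 0 : ℤ)) : ZMod N)

theorem ll_eq_zero (N : ℕ) (γ : Gamma0 N) : ((((γ : SL(2, ℤ)) 1 0 : ℤ)) : ZMod N) = 0 :=
  Gamma0_mem.mp γ.2

theorem ul_mul (N : ℕ) (γ₁ γ₂ : Gamma0 N) : ul N (γ₁ * γ₂) = ul N γ₁ * ul N γ₂ := by
  unfold ul
  have h : ((γ₁ * γ₂ : Gamma0 N) : SL(2, ℤ)) 0 0 =
      (γ₁ : SL(2, ℤ)) 0 0 * (γ₂ : SL(2, ℤ)) 0 0 + (γ₁ : SL(2, ℤ)) 0 1 * (γ₂ : SL(2, ℤ)) 1 0 := by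
    rw [Subgroup.coe_mul, Matrix.SpecialLinearGroup.coe_mul, Matrix.mul_apply, Fin.sum_univ_two]
  rw [h]
  push_cast
  rw [ll_eq_zero N γ₂, mul_zero, add_zero]

theorem ul_mul_ul_inv (N : ℕ) (γ : Gamma0 N) : ul N γ * ul N γ⁻¹ = 1 := by
  rw [← ul_mul, mul_inv_cancel]
  simp [ul]

theorem isUnit_ul (N : ℕ) (γ : Gamma0 N) : IsUnit (ul N γ) :=
  IsUnit.of_mul_eq_one _ (ul_mul_ul_inv N γ)

variable {N : ℕ} {A : Type*} [AddCommGroup A] {ψ : Additive (Gamma0 N) →+ A}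

/-- An Eisenstein class only depends on the upper left entry mod `N`. -/
theorem IsEis.eq_of_ul_eq (hψ : IsEis N ψ) {γ₁ γ₂ : Gamma0 N} (h : ul N γ₁ = ul N γ₂) :
    ψ (Additive.ofMul γ₁) = ψ (Additive.ofMul γ₂) := by
  have h1 : ul N (γ₁⁻¹ * γ₂) = 1 := by
    rw [ul_mul, ← h, mul_comm]
    exact ul_mul_ul_inv N γ₁
  have h2 : ψ (Additive.ofMul (γ₁⁻¹ * γ₂)) = 0 := hψ _ h1
  have h3 : γ₂ = γ₁ * (γ₁⁻¹ * γ₂) := by group
  rw [h3, ofMul_mul, map_add, h2, add_zero]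

/-- An element of `Γ₀(N)` with prescribed upper left entry prime to `N`. -/
theorem exists_ul_eq (N : ℕ) (m : ℤ) (hm : IsCoprime m (N : ℤ)) :
    ∃ g : Gamma0 N, ul N g = (m : ZMod N) := by
  obtain ⟨x, y, hxy⟩ := hm
  have hdet : (!![m, -y; (N : ℤ), x] : Matrix (Fin 2) (Fin 2) ℤ).det = 1 := by
    rw [Matrix.det_fin_two_of]; linarith
  let g0 : SL(2, ℤ) := ⟨!![m, -y; (N : ℤ), x], hdet⟩
  have hmem : g0 ∈ Gamma0 N := by
    rw [Gamma0_mem]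
    show (((!![m, -y; (N : ℤ), x] : Matrix (Fin 2) (Fin 2) ℤ) 1 0 : ℤ) : ZMod N) = 0
    simp
  refine ⟨⟨g0, hmem⟩, ?_⟩
  show (((!![m, -y; (N : ℤ), x] : Matrix (Fin 2) (Fin 2) ℤ) 0 0 : ℤ) : ZMod N) = (m : ZMod N)
  simp

variable (N) in
/-- The upper left entry of the representatives of `T_ℓ` mod `N`. -/
theorem repT_zero_zero_cases (ℓ : ℕ) (x : OnePoint (ZMod ℓ)) :
    (x = OnePoint.infty ∧ repT ℓ x 0 0 = ℓ) ∨ ((∃ j : ZMod ℓ, x = (j : OnePoint (ZMod ℓ))) ∧ repT ℓ x 0 0 = 1) := by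
  induction x using OnePoint.rec with
  | infty =>
    left
    exact ⟨rfl, by show (!![(ℓ : ℤ), 0; 0, 1] : Matrix (Fin 2) (Fin 2) ℤ) 0 0 = ℓ; simp⟩
  | coe j =>
    right
    refine ⟨⟨j, rfl⟩, ?_⟩
    show (!![1, (j.val : ℤ); 0, (ℓ : ℤ)] : Matrix (Fin 2) (Fin 2) ℤ) 0 0 = 1
    simp

/-- The congruence between upper left entries in the transfer relation of `T_ℓ`. -/
theorem ul_rel (ℓ : ℕ) [Fact ℓ.Prime] (hℓN : ¬ ℓ ∣ N) (γ : Gamma0 N) (x : OnePoint (ZMod ℓ)) :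
    ((repT ℓ x 0 0 : ℤ) : ZMod N) * ul N γ =
      ul N ((isCosetFamily_heckeRep N ℓ hℓN).cof γ x) *
        ((repT ℓ ((isCosetFamily_heckeRep N ℓ hℓN).nxt γ x) 0 0 : ℤ) : ZMod N) := by
  have h := spec_int_T N ℓ hℓN γ x
  have h00 := congrFun (congrFun h 0) 0
  rw [Matrix.mul_apply, Matrix.mul_apply, Fin.sum_univ_two, Fin.sum_univ_two,
    repT_one_zero, mul_zero, add_zero] at h00
  have h00' := congrArg (Int.cast : ℤ → ZMod N) h00
  push_cast at h00'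
  rw [ll_eq_zero N γ, mul_zero, add_zero] at h00'
  exact h00'

theorem tcoh_eq_smul_of_isEis [NeZero N] {ℓ : ℕ} (hℓ : ℓ.Prime) (hℓN : ¬ ℓ ∣ N)
    (hψ : IsEis N ψ) : tcoh N hℓ hℓN A ψ = (ℓ + 1) • ψ := by
  have : Fact ℓ.Prime := ⟨hℓ⟩
  have hcop : IsCoprime (ℓ : ℤ) (N : ℤ) := by
    rw [Int.isCoprime_iff_gcd_eq_one, Int.gcd_natCast_natCast]
    exact (Nat.Prime.coprime_iff_not_dvd hℓ).mpr hℓN
  obtain ⟨g, hg⟩ := exists_ul_eq N (ℓ : ℤ) hcop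
  set h := isCosetFamily_heckeRep N ℓ hℓN with hh
  -- the correction term
  let c : OnePoint (ZMod ℓ) → A := fun x => x.elim (ψ (Additive.ofMul g)) (fun _ => 0)
  have c_inf : c OnePoint.infty = ψ (Additive.ofMul g) := rfl
  have c_coe : ∀ j : ZMod ℓ, c (j : OnePoint (ZMod ℓ)) = 0 := fun _ => rfl
  have key : ∀ (γ : Gamma0 N) (x : OnePoint (ZMod ℓ)),
      ψ (Additive.ofMul (h.cof γ x)) = ψ (Additive.ofMul γ) + c x - c (h.nxt γ x) := by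
    intro γ x
    have hrel := ul_rel ℓ hℓN γ x
    rw [← hh] at hrel
    rcases repT_zero_zero_cases ℓ x with ⟨hx, hx0⟩ | ⟨⟨j, hx⟩, hx0⟩ <;>
      rcases repT_zero_zero_cases ℓ (h.nxt γ x) with ⟨hy, hy0⟩ | ⟨⟨j', hy⟩, hy0⟩
    · -- both at infinity
      rw [hx0, hy0] at hrel
      have hu : IsUnit ((ℓ : ℤ) : ZMod N) := by rw [← hg]; exact isUnit_ul N g
      have h1 : ul N (h.cof γ x) = ul N γ := by
        rw [mul_comm] at hrel
        exact (hu.mul_left_inj.mp hrel).symm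
      have cx : c x = ψ (Additive.ofMul g) := by rw [hx]; exact c_inf
      have cy : c (h.nxt γ x) = ψ (Additive.ofMul g) := by rw [hy]; exact c_inf
      rw [cx, cy, hψ.eq_of_ul_eq h1]; abel
    · -- x = ∞, nxt ≠ ∞
      rw [hx0, hy0] at hrel
      have h1 : ul N (h.cof γ x) = ul N (γ * g) := by
        rw [ul_mul, hg, mul_comm (ul N γ)]
        simpa using hrel.symm
      have cx : c x = ψ (Additive.ofMul g) := by rw [hx]; exact c_inf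
      have cy : c (h.nxt γ x) = 0 := by rw [hy]; exact c_coe j'
      rw [cx, cy, hψ.eq_of_ul_eq h1, ofMul_mul, map_add]; abel
    · -- x ≠ ∞, nxt = ∞
      rw [hx0, hy0] at hrel
      have h1 : ul N (h.cof γ x * g) = ul N γ := by
        rw [ul_mul, hg]
        simpa using hrel.symm
      have h2 := hψ.eq_of_ul_eq h1
      rw [ofMul_mul, map_add] at h2
      have cx : c x = 0 := by rw [hx]; exact c_coe j
      have cy : c (h.nxt γ x) = ψ (Additive.ofMul g) := by rw [hy]; exact c_inf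
      rw [cx, cy, ← h2]; abel
    · -- both finite
      rw [hx0, hy0] at hrel
      have h1 : ul N (h.cof γ x) = ul N γ := by simpa using hrel.symm
      have cx : c x = 0 := by rw [hx]; exact c_coe j
      have cy : c (h.nxt γ x) = 0 := by rw [hy]; exact c_coe j'
      rw [cx, cy, hψ.eq_of_ul_eq h1]; abel
  refine AddMonoidHom.ext fun γa => ?_
  obtain ⟨γ, rfl⟩ : ∃ γ : Gamma0 N, Additive.ofMul γ = γa := ⟨Additive.toMul γa, rfl⟩
  rw [tcoh_eq_heckeHom N hℓ hℓN ψ, ← hh, h.heckeHom_apply]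
  simp only [key, Finset.sum_sub_distrib, Finset.sum_add_distrib]
  have hperm : ∑ x, c (h.nxt γ x) = ∑ x, c x := Equiv.sum_comp (h.nxtPerm γ) c
  rw [hperm, add_sub_cancel_right, Finset.sum_const, Finset.card_univ, card_onePoint_zmod,
    AddMonoidHom.smul_apply]

/-- In an `𝔽_p`-vector space of homomorphisms, a nonzero Eisenstein class which is an eigenvector
of `T_ℓ` with an integral eigenvalue `t` forces `t ≡ ℓ + 1 mod p`. -/
theorem dvd_sub_of_isEis_of_eigen [NeZero N] {p : ℕ} [Fact p.Prime] [Module (ZMod p) A]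
    {ℓ : ℕ} (hℓ : ℓ.Prime) (hℓN : ¬ ℓ ∣ N) (hψ : IsEis N ψ) (hne : ψ ≠ 0) (t : ℤ)
    (ht : tcoh N hℓ hℓN A ψ = t • ψ) : (p : ℤ) ∣ t - (ℓ + 1) := by
  rw [tcoh_eq_smul_of_isEis hℓ hℓN hψ] at ht
  obtain ⟨γ, hγ⟩ : ∃ γ, ψ γ ≠ 0 := by
    by_contra hcon
    exact hne (AddMonoidHom.ext fun γ => by_contra fun hγ => hcon ⟨γ, hγ⟩)
  have h1 : (t - (ℓ + 1 : ℤ)) • ψ γ = 0 := by
    have := congrArg (fun φ : Additive (Gamma0 N) →+ A => φ γ) ht
    simp only [AddMonoidHom.smul_apply] at this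
    rw [sub_smul, ← this]
    have : ((ℓ + 1 : ℕ) : ℤ) • ψ γ = (ℓ + 1) • ψ γ := natCast_zsmul _ _
    rw [← this]; push_cast; abel
  have h2 : ((t - (ℓ + 1 : ℤ) : ℤ) : ZMod p) • ψ γ = 0 := by
    rw [Int.cast_smul_eq_zsmul]; exact h1
  rcases smul_eq_zero.mp h2 with h3 | h3
  · exact (ZMod.intCast_zmod_eq_zero_iff_dvd _ _).mp h3
  · exact absurd h3 hγ

/-- An integral class whose reduction mod `p` is Eisenstein satisfies
`T_ℓ ψ ≡ (ℓ + 1) ψ mod p`. -/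
theorem exists_eq_smul_of_isEis_cast [NeZero N] {p : ℕ} (hp : p ≠ 0) {ℓ : ℕ} (hℓ : ℓ.Prime)
    (hℓN : ¬ ℓ ∣ N) (ψ : Additive (Gamma0 N) →+ ℤ) (h : IsEis N (castHom N (ZMod p) ψ)) :
    ∃ w : Additive (Gamma0 N) →+ ℤ, tcoh N hℓ hℓN ℤ ψ - (ℓ + 1) • ψ = (p : ℤ) • w := by
  have h1 := tcoh_eq_smul_of_isEis hℓ hℓN h
  have h2 : castHom N (ZMod p) (tcoh N hℓ hℓN ℤ ψ) =
      tcoh N hℓ hℓN (ZMod p) (castHom N (ZMod p) ψ) :=
    (tcoh_comp N hℓ hℓN (Int.castAddHom (ZMod p)) ψ).symm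
  set φ : Additive (Gamma0 N) →+ ℤ := tcoh N hℓ hℓN ℤ ψ - (ℓ + 1) • ψ with hφ
  have hdvd : ∀ γ, (p : ℤ) ∣ φ γ := by
    intro γ
    rw [← ZMod.intCast_zmod_eq_zero_iff_dvd]
    have e1 : ((φ γ : ℤ) : ZMod p) =
        castHom N (ZMod p) (tcoh N hℓ hℓN ℤ ψ) γ - (ℓ + 1) • castHom N (ZMod p) ψ γ := by
      simp only [hφ, AddMonoidHom.sub_apply, AddMonoidHom.smul_apply, castHom_apply]
      push_cast
      rw [nsmul_eq_mul, nsmul_eq_mul]
      push_cast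
      ring
    rw [e1, h2, h1, AddMonoidHom.smul_apply, sub_self]
  have hp' : (p : ℤ) ≠ 0 := by exact_mod_cast hp
  refine ⟨{ toFun := fun γ => φ γ / (p : ℤ)
            map_zero' := by simp
            map_add' := fun a b => by
              rw [map_add, Int.add_ediv_of_dvd_left (hdvd a)] }, ?_⟩
  refine AddMonoidHom.ext fun γ => ?_
  show φ γ = (p : ℤ) • (φ γ / (p : ℤ))
  rw [smul_eq_mul, Int.mul_ediv_cancel' (hdvd γ)]

/-- The same statement inside the parabolic lattice `Lat N`. -/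
theorem exists_eq_smul_of_isEis_cast_lat [NeZero N] {p : ℕ} (hp : p ≠ 0) {ℓ : ℕ} (hℓ : ℓ.Prime)
    (hℓN : ¬ ℓ ∣ N) (ψ : Lat N)
    (h : IsEis N (castHom N (ZMod p) (ψ : Additive (Gamma0 N) →+ ℤ))) :
    ∃ w : Lat N, tcohL N hℓ hℓN ψ - (ℓ + 1) • ψ = (p : ℤ) • w := by
  obtain ⟨w, hw⟩ := exists_eq_smul_of_isEis_cast hp hℓ hℓN (ψ : Additive (Gamma0 N) →+ ℤ) h
  have hp' : (p : ℤ) ≠ 0 := by exact_mod_cast hp
  have hmem : (p : ℤ) • w ∈ Lat N := by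
    rw [← hw]
    exact (Lat N).sub_mem (tcohL N hℓ hℓN ψ).2 ((Lat N).smul_of_tower_mem (ℓ + 1) ψ.2)
  have hwmem : w ∈ Lat N := by
    intro γ hγ
    have := hmem γ hγ
    rw [AddMonoidHom.smul_apply, smul_eq_mul] at this
    exact (mul_eq_zero.mp this).resolve_left hp'
  refine ⟨⟨w, hwmem⟩, ?_⟩
  apply Subtype.ext
  exact hw

end Fermat.Agent.P7.NonEisCoh
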