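import Mathlib
import Fermat.Agent.P7.IharaAsm
import Fermat.Agent.P7.NonEisCoh

/-!
# P7 [IHARA] on the parabolic lattice (helper82)

`Lat N = parabolicHoms ℤ Γ₀(N) ℤ`.  For `γ, γ' ∈ Γ₀(N)` write `Rel q γ γ'` for
`γ' = δ γ δ⁻¹ = (a, q b; c / q, d)` (`δ = diag(q, 1)`; so `γ ∈ Γ₀(N q)`).

* `isEis_of_parabolic` : two parabolic classes `ψ₁ ψ₂ : Γ₀(N) → 𝔽_p` with
  `ψ₁ γ + ψ₂ (δ γ δ⁻¹) = 0` on `Γ₀(N q)` (the kernel of `res + res ∘ conj_δ`) are Eisenstein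
  (`NonEisCoh.IsEis`).
* `isEis_cast_of_lat` : the same for the reductions mod `p` of two elements of `Lat N` with
  `v₁ γ + v₂ (δ γ δ⁻¹) ∈ p ℤ` on `Γ₀(N q)`.
* `exists_smul_of_ker` : hence `T_ℓ v_i - (ℓ + 1) v_i ∈ p • Lat N` for every prime `ℓ ∤ N`
  (the hypothesis `hIh` of `RibetLA.exists_new`).
-/

set_option autoImplicit false

namespace Fermat.Agent.P7.IharaLat

open scoped MatrixGroups
open CongruenceSubgroup ModularCurve.Period Fermat.Agent.P5.Per Fermat.Agent.P7.NonEisCoh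

/-- `γ' = δ γ δ⁻¹`, `δ = diag(q, 1)`: `(a, b; c, d) ↦ (a, q b; c / q, d)`. -/
def Rel (q : ℕ) {N : ℕ} (γ γ' : ↥(Gamma0 N)) : Prop :=
  γ'.1.1 0 0 = γ.1.1 0 0 ∧ γ'.1.1 0 1 = q * γ.1.1 0 1 ∧ γ.1.1 1 0 = q * γ'.1.1 1 0 ∧
    γ'.1.1 1 1 = γ.1.1 1 1

section parabolic

variable {N : ℕ} {A : Type*} [AddCommGroup A] {φ : Additive ↥(Gamma0 N) →+ A}

/-- Parabolic classes kill the upper unipotent elements. -/
theorem upper_of_parabolic (hφ : IsParabolicHom (Gamma0 N) φ) (γ : ↥(Gamma0 N))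
    (h00 : γ.1.1 0 0 = 1) (h10 : γ.1.1 1 0 = 0) : φ (Additive.ofMul γ) = 0 := by
  refine hφ γ ?_
  have hd := CspGroup.det_eq γ.1
  rw [h00, h10] at hd
  have h11 : γ.1.1 1 1 = 1 := by linear_combination hd
  rw [Matrix.trace_fin_two, h00, h11]
  norm_num

/-- Parabolic classes kill the lower unipotent elements. -/
theorem lower_of_parabolic (hφ : IsParabolicHom (Gamma0 N) φ) (γ : ↥(Gamma0 N))
    (h00 : γ.1.1 0 0 = 1) (h01 : γ.1.1 0 1 = 0) : φ (Additive.ofMul γ) = 0 := by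
  refine hφ γ ?_
  have hd := CspGroup.det_eq γ.1
  rw [h00, h01] at hd
  have h11 : γ.1.1 1 1 = 1 := by linear_combination hd
  rw [Matrix.trace_fin_two, h00, h11]
  norm_num

end parabolic

/-- **Ihara's lemma for parabolic classes mod `p`.** -/
theorem isEis_of_parabolic {q N p : ℕ} [Fact q.Prime] (hN : 0 < N) (hqN : q.Coprime N)
    [Fact p.Prime] (hp2 : p ≠ 2) (ψ₁ ψ₂ : Additive ↥(Gamma0 N) →+ ZMod p)
    (h₁ : IsParabolicHom (Gamma0 N) ψ₁) (h₂ : IsParabolicHom (Gamma0 N) ψ₂)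
    (hker : ∀ γ γ' : ↥(Gamma0 N), Rel q γ γ' →
      ψ₁ (Additive.ofMul γ) + ψ₂ (Additive.ofMul γ') = 0) :
    IsEis N ψ₁ ∧ IsEis N ψ₂ := by
  have key := IharaAsm.ihara_add hN hqN hp2 ψ₁ (-ψ₂)
    (upper_of_parabolic h₁) (lower_of_parabolic h₁)
    (fun γ h0 h1 => by
      rw [AddMonoidHom.neg_apply, upper_of_parabolic h₂ γ h0 h1, neg_zero])
    (fun γ h0 h1 => by
      rw [AddMonoidHom.neg_apply, lower_of_parabolic h₂ γ h0 h1, neg_zero])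
    (fun γ γ' h00 h01 h10 h11 => by
      rw [AddMonoidHom.neg_apply]
      exact eq_neg_of_add_eq_zero_left (hker γ γ' ⟨h00, h01, h10, h11⟩))
  refine ⟨key.1, ?_⟩
  intro γ hγ
  have := key.2 γ hγ
  rwa [AddMonoidHom.neg_apply, neg_eq_zero] at this

/-- **Ihara's lemma on the lattice**: if `v₁ γ + v₂ (δ γ δ⁻¹) ∈ p ℤ` for all `γ ∈ Γ₀(N q)`, then
the reductions mod `p` of `v₁` and `v₂` are Eisenstein. -/
theorem isEis_cast_of_lat {q N p : ℕ} [Fact q.Prime] (hN : 0 < N) (hqN : q.Coprime N)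
    [Fact p.Prime] (hp2 : p ≠ 2) (v₁ v₂ : Lat N)
    (hker : ∀ γ γ' : ↥(Gamma0 N), Rel q γ γ' →
      (p : ℤ) ∣ v₁.1 (Additive.ofMul γ) + v₂.1 (Additive.ofMul γ')) :
    IsEis N (castHom N (ZMod p) v₁.1) ∧ IsEis N (castHom N (ZMod p) v₂.1) := by
  refine isEis_of_parabolic hN hqN hp2 _ _ (castHom_isParabolicHom N (ZMod p) v₁.2)
    (castHom_isParabolicHom N (ZMod p) v₂.2) ?_
  intro γ γ' hrel
  rw [castHom_apply, castHom_apply, ← Int.cast_add, ZMod.intCast_zmod_eq_zero_iff_dvd]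
  exact hker γ γ' hrel

/-- **The kernel of `α^* mod p` is killed by `T_ℓ - (ℓ + 1)`**, for every prime `ℓ ∤ N`. -/
theorem exists_smul_of_ker {q N p : ℕ} [NeZero N] [Fact q.Prime] (hqN : q.Coprime N)
    [Fact p.Prime] (hp2 : p ≠ 2) {ℓ : ℕ} (hℓ : ℓ.Prime) (hℓN : ¬ ℓ ∣ N) (v₁ v₂ : Lat N)
    (hker : ∀ γ γ' : ↥(Gamma0 N), Rel q γ γ' →
      (p : ℤ) ∣ v₁.1 (Additive.ofMul γ) + v₂.1 (Additive.ofMul γ')) :
    (∃ w : Lat N, tcohL N hℓ hℓN v₁ - (ℓ + 1) • v₁ = (p : ℤ) • w) ∧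
      (∃ w : Lat N, tcohL N hℓ hℓN v₂ - (ℓ + 1) • v₂ = (p : ℤ) • w) := by
  have hp0 : p ≠ 0 := (Fact.out : p.Prime).ne_zero
  obtain ⟨e1, e2⟩ := isEis_cast_of_lat (Nat.pos_of_ne_zero (NeZero.ne N)) hqN hp2 v₁ v₂ hker
  exact ⟨exists_eq_smul_of_isEis_cast_lat hp0 hℓ hℓN v₁ e1,
    exists_eq_smul_of_isEis_cast_lat hp0 hℓ hℓN v₂ e2⟩

end Fermat.Agent.P7.IharaLat
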