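import Mathlib
import Fermat.Agent.P7.IharaLat
import Fermat.Agent.P7.DegenDefs

/-!
# P7 [IHARA] for the degeneracy maps of `P7/DegenDefs` (helper82)

`α^* (v₁, v₂) = resA v₁ + resB v₂ : Γ₀(N q) → ℤ` for `v₁ v₂ ∈ Lat N`
(`resA` = restriction, `resB` = composition with `conjB : (a b; c d) ↦ (a, q b; c / q, d)`).

* `rel_incl_conjB` : `IharaLat.Rel q (incl γ) (conjB γ)`, and every `Rel`-pair is of this form
  (`exists_of_rel`);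
* `exists_smul_of_alpha` : if `α^* (v₁, v₂) ∈ p • Hom(Γ₀(N q), ℤ)` then
  `T_ℓ v_i - (ℓ + 1) v_i ∈ p • Lat N` for every prime `ℓ ∤ N` — the hypothesis `hIh` of
  `RibetLA.exists_new` / `exists_new_prod`;
* `isEis_of_alpha_mod` : the same conclusion as Eisenstein-ness for classes mod `p`.
-/

set_option autoImplicit false

namespace Fermat.Agent.P7.IharaDegen

open scoped MatrixGroups
open CongruenceSubgroup ModularCurve.Period Fermat.Agent.P5.Per Fermat.Agent.P7.NonEisCoh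
open Fermat.Agent.P7.IharaLat Fermat.Agent.P7.Degen

/-- `conjB γ = δ γ δ⁻¹` is `Rel`-related to `incl γ`. -/
theorem rel_incl_conjB (N q : ℕ) [NeZero q] (γ : ↥(Gamma0 (N * q))) :
    Rel q (incl N q γ) (conjB N q γ) := by
  refine ⟨rfl, rfl, ?_, rfl⟩
  show (γ : SL(2, ℤ)) 1 0 = (q : ℤ) * conjBSL q γ (dvd_of_mem_mul_right γ.2) 1 0
  rw [mul_conjBSL_10]

/-- Every `Rel`-pair comes from an element of `Γ₀(N q)`. -/
theorem exists_of_rel {N q : ℕ} [NeZero q] (hc : Nat.Coprime q N) {γ γ' : ↥(Gamma0 N)}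
    (h : Rel q γ γ') : ∃ γ₀ : ↥(Gamma0 (N * q)), incl N q γ₀ = γ ∧ conjB N q γ₀ = γ' := by
  obtain ⟨h00, h01, h10, h11⟩ := h
  have hq0 : (q : ℤ) ≠ 0 := Nat.cast_ne_zero.mpr (NeZero.ne q)
  have hN : (N : ℤ) ∣ (γ : SL(2, ℤ)) 1 0 := by
    have := γ.2
    rwa [Gamma0_mem, ZMod.intCast_zmod_eq_zero_iff_dvd] at this
  have hq : (q : ℤ) ∣ (γ : SL(2, ℤ)) 1 0 := ⟨_, h10⟩
  have hmem : (γ : SL(2, ℤ)) ∈ Gamma0 (N * q) := mem_mul_of_dvd_of_dvd hc hN hq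
  refine ⟨⟨γ, hmem⟩, Subtype.ext rfl, ?_⟩
  apply Subtype.ext
  apply Subtype.ext
  ext i j
  fin_cases i <;> fin_cases j
  · exact h00.symm
  · exact h01.symm
  · show (γ : SL(2, ℤ)) 1 0 / (q : ℤ) = (γ' : SL(2, ℤ)) 1 0
    have e : (γ : SL(2, ℤ)) 1 0 = (q : ℤ) * (γ' : SL(2, ℤ)) 1 0 := h10
    rw [e, Int.mul_ediv_cancel_left _ hq0]
  · exact h11.symm

section main

variable {N q p : ℕ} [NeZero N] [Fact q.Prime] (hqN : ¬ q ∣ N) [Fact p.Prime]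

omit [Fact p.Prime] in
include hqN in
/-- The entrywise kernel condition of `IharaLat` from `α^* (v₁, v₂) ∈ p • Hom(Γ₀(N q), ℤ)`. -/
theorem hker_of_alpha (v₁ v₂ : Additive ↥(Gamma0 N) →+ ℤ)
    (y : Additive ↥(Gamma0 (N * q)) →+ ℤ)
    (h : resA N q ℤ v₁ + resB N q hqN ℤ v₂ = (p : ℤ) • y) :
    ∀ γ γ' : ↥(Gamma0 N), Rel q γ γ' →
      (p : ℤ) ∣ v₁ (Additive.ofMul γ) + v₂ (Additive.ofMul γ') := by
  intro γ γ' hrel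
  have hc : Nat.Coprime q N := coprime_of_not_dvd N q hqN
  obtain ⟨γ₀, rfl, rfl⟩ := exists_of_rel hc hrel
  have h1 := congrArg (fun f : Additive ↥(Gamma0 (N * q)) →+ ℤ => f (Additive.ofMul γ₀)) h
  simp only [AddMonoidHom.add_apply, resA_apply, resB_apply, AddMonoidHom.smul_apply,
    smul_eq_mul] at h1
  exact ⟨_, h1⟩

/-- **`hIh`**: if `α^* (v₁, v₂) = resA v₁ + resB v₂` is divisible by `p`, then
`T_ℓ v_i ≡ (ℓ + 1) v_i mod p • Lat N` for every prime `ℓ ∤ N` (ℕ-scalar form). -/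
theorem exists_smul_of_alpha (hp2 : p ≠ 2) {ℓ : ℕ} (hℓ : ℓ.Prime) (hℓN : ¬ ℓ ∣ N)
    (v₁ v₂ : Lat N) (y : Additive ↥(Gamma0 (N * q)) →+ ℤ)
    (h : resA N q ℤ v₁.1 + resB N q hqN ℤ v₂.1 = (p : ℤ) • y) :
    (∃ w : Lat N, tcohL N hℓ hℓN v₁ - (ℓ + 1) • v₁ = (p : ℤ) • w) ∧
      (∃ w : Lat N, tcohL N hℓ hℓN v₂ - (ℓ + 1) • v₂ = (p : ℤ) • w) :=
  exists_smul_of_ker (coprime_of_not_dvd N q hqN) hp2 hℓ hℓN v₁ v₂
    (hker_of_alpha hqN v₁.1 v₂.1 y h)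

/-- **`hIh`**, ℤ-scalar form (the shape of `RibetDual.exists_new_of_contract'`, `e₁ = ℓ + 1`). -/
theorem exists_zsmul_of_alpha (hp2 : p ≠ 2) {ℓ : ℕ} (hℓ : ℓ.Prime) (hℓN : ¬ ℓ ∣ N)
    (v₁ v₂ : Lat N) (y : Additive ↥(Gamma0 (N * q)) →+ ℤ)
    (h : resA N q ℤ v₁.1 + resB N q hqN ℤ v₂.1 = (p : ℤ) • y) :
    (∃ w : Lat N, tcohL N hℓ hℓN v₁ - ((ℓ : ℤ) + 1) • v₁ = (p : ℤ) • w) ∧
      (∃ w : Lat N, tcohL N hℓ hℓN v₂ - ((ℓ : ℤ) + 1) • v₂ = (p : ℤ) • w) := by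
  have e : ∀ v : Lat N, ((ℓ : ℤ) + 1) • v = (ℓ + 1) • v := by
    intro v
    have : ((ℓ : ℤ) + 1) = ((ℓ + 1 : ℕ) : ℤ) := by push_cast; rfl
    rw [this, natCast_zsmul]
  rw [e, e]
  exact exists_smul_of_alpha hqN hp2 hℓ hℓN v₁ v₂ y h

/-- **`hIh`**, ℤ-scalar and pair form (the shape of `RibetLA.exists_new_prod`). -/
theorem exists_pair_smul_of_alpha (hp2 : p ≠ 2) {ℓ : ℕ} (hℓ : ℓ.Prime) (hℓN : ¬ ℓ ∣ N)
    (x : Lat N × Lat N) (y : Additive ↥(Gamma0 (N * q)) →+ ℤ)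
    (h : resA N q ℤ x.1.1 + resB N q hqN ℤ x.2.1 = (p : ℤ) • y) :
    ∃ w : Lat N × Lat N,
      (tcohL N hℓ hℓN x.1 - ((ℓ : ℤ) + 1) • x.1, tcohL N hℓ hℓN x.2 - ((ℓ : ℤ) + 1) • x.2) =
        (p : ℤ) • w := by
  obtain ⟨⟨w₁, h₁⟩, ⟨w₂, h₂⟩⟩ := exists_smul_of_alpha hqN hp2 hℓ hℓN x.1 x.2 y h
  refine ⟨(w₁, w₂), ?_⟩
  have e : ∀ v : Lat N, ((ℓ : ℤ) + 1) • v = (ℓ + 1) • v := by
    intro v
    have : ((ℓ : ℤ) + 1) = ((ℓ + 1 : ℕ) : ℤ) := by push_cast; rfl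
    rw [this, natCast_zsmul]
  rw [e, e, h₁, h₂]
  rfl

/-- The mod `p` form: two parabolic classes `ψ₁ ψ₂ : Γ₀(N) → 𝔽_p` with
`resA ψ₁ + resB ψ₂ = 0` are Eisenstein. -/
theorem isEis_of_alpha_mod (hp2 : p ≠ 2) (ψ₁ ψ₂ : Additive ↥(Gamma0 N) →+ ZMod p)
    (h₁ : IsParabolicHom (Gamma0 N) ψ₁) (h₂ : IsParabolicHom (Gamma0 N) ψ₂)
    (h : resA N q (ZMod p) ψ₁ + resB N q hqN (ZMod p) ψ₂ = 0) :
    IsEis N ψ₁ ∧ IsEis N ψ₂ := by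
  have hc : Nat.Coprime q N := coprime_of_not_dvd N q hqN
  refine isEis_of_parabolic (Nat.pos_of_ne_zero (NeZero.ne N)) hc hp2 ψ₁ ψ₂ h₁ h₂ ?_
  intro γ γ' hrel
  obtain ⟨γ₀, rfl, rfl⟩ := exists_of_rel hc hrel
  have h1 := congrArg (fun f : Additive ↥(Gamma0 (N * q)) →+ ZMod p => f (Additive.ofMul γ₀)) h
  simpa only [AddMonoidHom.add_apply, resA_apply, resB_apply, AddMonoidHom.zero_apply] using h1

end main

end Fermat.Agent.P7.IharaDegen
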