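import Mathlib
import Fermat.Agent.P7.DegenLat
import Fermat.Agent.P7.DegenHecke
import Fermat.Agent.P7.IharaDegen

/-!
# Hecke equivariance of the degeneracy maps on the parabolic lattices (helper95)

Lattice forms (`L = Per.Lat N`, `L' = Per.Lat (N q)`, maps of `P7/DegenLat`) of the statements
of `P7/DegenHecke`, `P7/DegenMackey` and `P7/IharaDegen`, in the shapes of the hypotheses of
`RibetDual.exists_new_of_contract'`:

* `resAL_tcohL`, `resBL_tcohL`, `corAL_tcohL`, `corBL_tcohL` (`hresA`, `hresB`, `hcorA`, `hcorB`),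
  `alphaUp_tcohL`, `alphaDown_tcohL`;
* `exists_corAL_resAL`, `exists_corAL_resBL`, `exists_corBL_resAL`, `exists_corBL_resBL`
  (`hAA`, `hAB`, `hBA`, `hBB` with `c = q + 1`, `tq = T_q`);
* `tcohL_eq_corAL_wqL_resAL` (`hT`: `T_q = corA ∘ w_q ∘ resA`);
* `exists_zsmul_of_alphaL` (`hIh`);
* `tcoh_mem_newLat`, `alphaDown_tcohL_eq_zero`: the `q`-new sublattice is stable under `T_ℓ`.
-/

set_option autoImplicit false

namespace Fermat.Agent.P7.DegenLatHecke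

open scoped MatrixGroups
open CongruenceSubgroup
open ModularCurve.Period
open Fermat.Agent.P7.Degen Fermat.Agent.P7.DegenLat
open Fermat.Agent.P5.Per (Lat tcoh tcohL)

variable (N q : ℕ) [NeZero N] [Fact q.Prime] (hqN : ¬ q ∣ N)

/-! ### Hecke equivariance -/

section Hecke

variable {ℓ : ℕ} (hℓ : ℓ.Prime) (hℓN : ¬ ℓ ∣ N) (hℓNq : ¬ ℓ ∣ N * q)

/-- `hresA`: `resA ∘ T_ℓ = T_ℓ ∘ resA` on the lattices. -/
theorem resAL_tcohL (x : Lat N) :
    resAL N q (tcohL N hℓ hℓN x) = tcohL (N * q) hℓ hℓNq (resAL N q x) :=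
  Subtype.ext (Fermat.Agent.P7.DegenHecke.tcoh_resA N q hℓ hℓN hℓNq
    (x : Additive ↥(Gamma0 N) →+ ℤ)).symm

/-- `hresB`: `resB ∘ T_ℓ = T_ℓ ∘ resB` on the lattices. -/
theorem resBL_tcohL (x : Lat N) :
    resBL N q hqN (tcohL N hℓ hℓN x) = tcohL (N * q) hℓ hℓNq (resBL N q hqN x) :=
  Subtype.ext (Fermat.Agent.P7.DegenHecke.tcoh_resB N q hqN hℓ hℓN hℓNq
    (x : Additive ↥(Gamma0 N) →+ ℤ)).symm

include hqN hℓN in
/-- `hcorA`: `corA ∘ T_ℓ = T_ℓ ∘ corA` on the lattices. -/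
theorem corAL_tcohL (y : Lat (N * q)) :
    corAL N q (tcohL (N * q) hℓ hℓNq y) = tcohL N hℓ hℓN (corAL N q y) :=
  Subtype.ext (Fermat.Agent.P7.DegenHecke.tcoh_corA N q hqN hℓ hℓN hℓNq
    (y : Additive ↥(Gamma0 (N * q)) →+ ℤ))

/-- `hcorB`: `corB ∘ T_ℓ = T_ℓ ∘ corB` on the lattices. -/
theorem corBL_tcohL (y : Lat (N * q)) :
    corBL N q hqN (tcohL (N * q) hℓ hℓNq y) = tcohL N hℓ hℓN (corBL N q hqN y) :=
  Subtype.ext (Fermat.Agent.P7.DegenHecke.tcoh_corB N q hqN hℓ hℓN hℓNq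
    (y : Additive ↥(Gamma0 (N * q)) →+ ℤ))

/-- `α^*` is Hecke equivariant (`hA` of `RibetLA.exists_new_prod`). -/
theorem alphaUp_tcohL (x : Lat N × Lat N) :
    alphaUp N q hqN (tcohL N hℓ hℓN x.1, tcohL N hℓ hℓN x.2) =
      tcohL (N * q) hℓ hℓNq (alphaUp N q hqN x) := by
  rw [alphaUp_apply, alphaUp_apply, map_add, resAL_tcohL N q hℓ hℓN hℓNq,
    resBL_tcohL N q hqN hℓ hℓN hℓNq]

/-- `α_*` is Hecke equivariant (`hB` of `RibetLA.exists_new_prod`). -/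
theorem alphaDown_tcohL (y : Lat (N * q)) :
    alphaDown N q hqN (tcohL (N * q) hℓ hℓNq y) =
      (tcohL N hℓ hℓN (alphaDown N q hqN y).1, tcohL N hℓ hℓN (alphaDown N q hqN y).2) := by
  rw [alphaDown_apply, alphaDown_apply, corAL_tcohL N q hqN hℓ hℓN hℓNq,
    corBL_tcohL N q hqN hℓ hℓN hℓNq]

include hℓN in
/-- The kernel of `α_*` is stable under `T_ℓ`. -/
theorem alphaDown_tcohL_eq_zero (y : Lat (N * q)) (hy : alphaDown N q hqN y = 0) :
    alphaDown N q hqN (tcohL (N * q) hℓ hℓNq y) = 0 := by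
  rw [alphaDown_tcohL N q hqN hℓ hℓN hℓNq, hy]
  simp

include hℓN in
/-- The `q`-new sublattice is stable under `T_ℓ` (`hT` of
`Endgame2.exists_eigenform_of_new_class_weak`). -/
theorem tcoh_mem_newLat {y : Additive ↥(Gamma0 (N * q)) →+ ℤ} (hy : y ∈ newLat N q hqN) :
    tcoh (N * q) hℓ hℓNq ℤ y ∈ newLat N q hqN := by
  have h1 : IsParabolicHom (Gamma0 (N * q)) y := newLat_le N q hqN hy
  have h2 := (coe_mem_newLat_iff N q hqN ⟨y, h1⟩).mp hy
  exact (coe_mem_newLat_iff N q hqN (tcohL (N * q) hℓ hℓNq ⟨y, h1⟩)).mpr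
    (alphaDown_tcohL_eq_zero N q hqN hℓ hℓN hℓNq ⟨y, h1⟩ h2)

end Hecke

/-! ### The Mackey identities in existence form -/

section Mackey

variable (p : ℕ)

omit [NeZero N] [Fact q.Prime] in
theorem zsmul_eq (φ : Lat N) : (q + 1) • φ = ((q : ℤ) + 1) • φ := by
  rw [← natCast_zsmul, Nat.cast_add, Nat.cast_one]

include hqN in
/-- `hAA`, with `c = q + 1`. -/
theorem exists_corAL_resAL (x : Lat N) :
    ∃ w : Lat N, corAL N q (resAL N q x) = ((q : ℤ) + 1) • x + (p : ℤ) • w :=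
  ⟨0, by rw [corAL_resAL N q hqN, zsmul_eq, smul_zero, add_zero]⟩

/-- `hAB`, with `tq = T_q`. -/
theorem exists_corAL_resBL (x : Lat N) :
    ∃ w : Lat N, corAL N q (resBL N q hqN x) =
      tcohL N (Fact.out : q.Prime) hqN x + (p : ℤ) • w :=
  ⟨0, by rw [corAL_resBL, smul_zero, add_zero]⟩

/-- `hBA`, with `tq = T_q`. -/
theorem exists_corBL_resAL (x : Lat N) :
    ∃ w : Lat N, corBL N q hqN (resAL N q x) =
      tcohL N (Fact.out : q.Prime) hqN x + (p : ℤ) • w :=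
  ⟨0, by rw [corBL_resAL, smul_zero, add_zero]⟩

/-- `hBB`, with `c = q + 1`. -/
theorem exists_corBL_resBL (x : Lat N) :
    ∃ w : Lat N, corBL N q hqN (resBL N q hqN x) = ((q : ℤ) + 1) • x + (p : ℤ) • w :=
  ⟨0, by rw [corBL_resBL, zsmul_eq, smul_zero, add_zero]⟩

end Mackey

/-- `hT`: `T_q = corA ∘ w_q ∘ resA` on the lattice of level `N` (through level `N q`). -/
theorem tcohL_eq_corAL_wqL_resAL (x : Lat N) :
    tcohL N (Fact.out : q.Prime) hqN x = corAL N q (wqL N q hqN (resAL N q x)) := by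
  rw [← resBL_eq, corAL_resBL]

/-- The same for an explicit primality proof. -/
theorem tcohL_eq_corAL_wqL_resAL' (hq : q.Prime) (x : Lat N) :
    tcohL N hq hqN x = corAL N q (wqL N q hqN (resAL N q x)) :=
  tcohL_eq_corAL_wqL_resAL N q hqN x

/-! ### Ihara's lemma on the lattice -/

/-- `hIh`: if `α^* (x₁, x₂)` is divisible by `p` in `Lat (N q)`, then
`T_ℓ x_i ≡ (ℓ + 1) x_i mod p • Lat N` for every prime `ℓ ∤ N`. -/
theorem exists_zsmul_of_alphaL {p : ℕ} [Fact p.Prime] (hp2 : p ≠ 2) {ℓ : ℕ} (hℓ : ℓ.Prime)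
    (hℓN : ¬ ℓ ∣ N) (x₁ x₂ : Lat N)
    (h : ∃ y : Lat (N * q), resAL N q x₁ + resBL N q hqN x₂ = (p : ℤ) • y) :
    (∃ w : Lat N, tcohL N hℓ hℓN x₁ - ((ℓ : ℤ) + 1) • x₁ = (p : ℤ) • w) ∧
      (∃ w : Lat N, tcohL N hℓ hℓN x₂ - ((ℓ : ℤ) + 1) • x₂ = (p : ℤ) • w) := by
  obtain ⟨y, hy⟩ := h
  exact Fermat.Agent.P7.IharaDegen.exists_zsmul_of_alpha hqN hp2 hℓ hℓN x₁ x₂
    (y : Additive ↥(Gamma0 (N * q)) →+ ℤ) (congrArg Subtype.val hy)

end Fermat.Agent.P7.DegenLatHecke
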