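import Mathlib

/-!
# P7 [PD-WIRE], abstract form (helper80): dual Ihara on lattices from a pairing

* `mem_range_add_of_orth`: double-orthogonal lemma for an `𝔽_p`-valued biadditive pairing on a
  finitely generated abelian group `M` whose left radical is `p M`.
* `dualIhara_of_pairing`: if `A : M → M'` and `B : M' → M` are adjoint for pairings with radicals
  `p M` and `p M'`, and the adjoint `s'` of `s` kills the kernel of `A` modulo `p`, then
  `s M ⊆ B M' + p M`.
-/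

set_option autoImplicit false

namespace Fermat.Agent.P7.LRWire

/-- Core of `mem_range_add_of_orth`, for a given model `π : M → V` of `M / pM`. -/
theorem mem_range_add_of_orth_aux {M M' V : Type*} [AddCommGroup M] [AddCommGroup M']
    [AddCommGroup V] (p : ℕ) [Fact p.Prime] [Module (ZMod p) V] [Module.Finite (ZMod p) V]
    (π : M →+ V) (hπs : Function.Surjective π) (hπ0 : ∀ m, π m = 0 ↔ ∃ w, m = (p : ℤ) • w)
    (β : M → M → ZMod p) (hβl : ∀ x x' z, β (x + x') z = β x z + β x' z)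
    (hβr : ∀ x z z', β x (z + z') = β x z + β x z')
    (hnd : ∀ x, (∀ z, β x z = 0) → ∃ x', x = (p : ℤ) • x')
    (B : M' →+ M) (z₀ : M)
    (h : ∀ x, (∀ y, β x (B y) = 0) → β x z₀ = 0) :
    ∃ y w, z₀ = B y + (p : ℤ) • w := by
  classical
  -- the pairing as additive maps
  let βl : M →+ M →+ ZMod p :=
    AddMonoidHom.mk' (fun x => AddMonoidHom.mk' (fun z => β x z) (hβr x))
      (fun x x' => AddMonoidHom.ext fun z => hβl x x' z)
  have hβl_apply : ∀ x z, βl x z = β x z := fun _ _ => rfl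
  have hpl : ∀ m z, β ((p : ℤ) • m) z = 0 := by
    intro m z
    have := congrArg (fun f : M →+ ZMod p => f z) (map_zsmul βl (p : ℤ) m)
    simp only [hβl_apply, AddMonoidHom.smul_apply] at this
    rw [this, zsmul_eq_mul, Int.cast_natCast, ZMod.natCast_self, zero_mul]
  have hpr : ∀ x m, β x ((p : ℤ) • m) = 0 := by
    intro x m
    have := map_zsmul (βl x) (p : ℤ) m
    simp only [hβl_apply] at this
    rw [this, zsmul_eq_mul, Int.cast_natCast, ZMod.natCast_self, zero_mul]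
  -- a section
  let σ : V → M := Function.surjInv hπs
  have hσ : ∀ v, π (σ v) = v := Function.surjInv_eq hπs
  have hσπ : ∀ m, ∃ w, σ (π m) = m + (p : ℤ) • w := by
    intro m
    have h1 : π (σ (π m) - m) = 0 := by rw [map_sub, hσ, sub_self]
    obtain ⟨w, hw⟩ := (hπ0 _).1 h1
    exact ⟨w, by rw [← hw]; abel⟩
  have hβσ : ∀ x z, β (σ (π x)) (σ (π z)) = β x z := by
    intro x z
    obtain ⟨w, hw⟩ := hσπ x
    obtain ⟨w', hw'⟩ := hσπ z
    rw [hw, hw', hβl, hβr, hβr, hpl, hpl, hpr]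
    simp
  have hσadd : ∀ u u', ∃ w, σ (u + u') = σ u + σ u' + (p : ℤ) • w := by
    intro u u'
    have h1 : π (σ (u + u') - (σ u + σ u')) = 0 := by
      rw [map_sub, map_add, hσ, hσ, hσ, sub_self]
    obtain ⟨w, hw⟩ := (hπ0 _).1 h1
    exact ⟨w, by rw [← hw]; abel⟩
  -- the induced pairing `V → Dual V`
  let Ψ₀ : V → Module.Dual (ZMod p) V := fun u =>
    AddMonoidHom.toZModLinearMap p (AddMonoidHom.mk' (fun v => β (σ u) (σ v)) (by
      intro v v'
      obtain ⟨w, hw⟩ := hσadd v v'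
      rw [hw, hβr, hβr, hpr, add_zero]))
  have hΨ₀ : ∀ u v, Ψ₀ u v = β (σ u) (σ v) := fun _ _ => rfl
  let Ψ : V →ₗ[ZMod p] Module.Dual (ZMod p) V :=
    AddMonoidHom.toZModLinearMap p (AddMonoidHom.mk' Ψ₀ (by
      intro u u'
      refine LinearMap.ext fun v => ?_
      obtain ⟨w, hw⟩ := hσadd u u'
      rw [LinearMap.add_apply, hΨ₀, hΨ₀, hΨ₀, hw, hβl, hβl, hpl, add_zero]))
  have hΨ : ∀ x z, Ψ (π x) (π z) = β x z := fun x z => hβσ x z
  have hΨinj : Function.Injective Ψ := by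
    rw [injective_iff_map_eq_zero]
    intro u hu
    obtain ⟨x, rfl⟩ := hπs u
    rw [hπ0]
    refine hnd x fun z => ?_
    rw [← hΨ, hu]
    rfl
  have hΨsurj : Function.Surjective Ψ :=
    (LinearMap.injective_iff_surjective_of_finrank_eq_finrank
      (Subspace.dual_finrank_eq (K := ZMod p) (V := V)).symm).1 hΨinj
  -- the image of `B`
  let R : Submodule (ZMod p) V :=
    AddSubgroup.toZModSubmodule p (AddSubgroup.map π B.range)
  have hR : ∀ v, v ∈ R ↔ ∃ y, π (B y) = v := by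
    intro v
    constructor
    · rintro ⟨m, ⟨y, rfl⟩, rfl⟩
      exact ⟨y, rfl⟩
    · rintro ⟨y, rfl⟩
      exact ⟨B y, ⟨y, rfl⟩, rfl⟩
  by_cases hz : π z₀ ∈ R
  · obtain ⟨y, hy⟩ := (hR _).1 hz
    have h1 : π (z₀ - B y) = 0 := by rw [map_sub, hy, sub_self]
    obtain ⟨w, hw⟩ := (hπ0 _).1 h1
    exact ⟨y, w, by rw [← hw]; abel⟩
  · exfalso
    obtain ⟨φ, hφ1, hφ2⟩ := Submodule.exists_dual_map_eq_bot_of_notMem hz inferInstance
    obtain ⟨u, rfl⟩ := hΨsurj φ
    obtain ⟨x, rfl⟩ := hπs u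
    apply hφ1
    rw [hΨ]
    refine h x fun y => ?_
    rw [← hΨ]
    have h2 : Ψ (π x) (π (B y)) ∈ R.map (Ψ (π x)) :=
      Submodule.mem_map_of_mem ((hR _).2 ⟨y, rfl⟩)
    rw [hφ2] at h2
    exact h2

/-- **Duality lemma on a lattice.**  `M` a finitely generated abelian group with a biadditive
`𝔽_p`-valued pairing whose left radical is `p M`; `B : M' → M` additive.  If `z₀ ∈ M` is
orthogonal to every `x` which is orthogonal to the image of `B`, then `z₀ ∈ B M' + p M`. -/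
theorem mem_range_add_of_orth {M M' : Type*} [AddCommGroup M] [AddCommGroup M']
    [Module.Finite ℤ M] (p : ℕ) [Fact p.Prime]
    (β : M → M → ZMod p) (hβl : ∀ x x' z, β (x + x') z = β x z + β x' z)
    (hβr : ∀ x z z', β x (z + z') = β x z + β x z')
    (hnd : ∀ x, (∀ z, β x z = 0) → ∃ x', x = (p : ℤ) • x')
    (B : M' →+ M) (z₀ : M)
    (h : ∀ x, (∀ y, β x (B y) = 0) → β x z₀ = 0) :
    ∃ y w, z₀ = B y + (p : ℤ) • w := by
  classical
  let P : Submodule ℤ M := LinearMap.range ((p : ℤ) • (LinearMap.id : M →ₗ[ℤ] M))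
  have hP : ∀ m : M, m ∈ P ↔ ∃ w, m = (p : ℤ) • w := by
    intro m
    constructor
    · rintro ⟨w, rfl⟩; exact ⟨w, rfl⟩
    · rintro ⟨w, rfl⟩; exact ⟨w, rfl⟩
  have hπs : Function.Surjective P.mkQ.toAddMonoidHom := P.mkQ_surjective
  have hπ0 : ∀ m, P.mkQ.toAddMonoidHom m = 0 ↔ ∃ w, m = (p : ℤ) • w := by
    intro m
    rw [← hP]
    exact Submodule.Quotient.mk_eq_zero P
  let inst1 : Module (ZMod p) (M ⧸ P) := AddCommGroup.zmodModule (n := p) (by
    intro v
    obtain ⟨m, rfl⟩ := hπs v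
    rw [← map_nsmul, hπ0]
    exact ⟨m, (natCast_zsmul m p).symm⟩)
  have inst2 : @Module.Finite (ZMod p) (M ⧸ P) _ _ inst1 :=
    @Module.Finite.of_restrictScalars_finite ℤ (ZMod p) (M ⧸ P) _ _ _ _ inst1 _ _ inferInstance
  exact @mem_range_add_of_orth_aux M M' (M ⧸ P) _ _ _ p _ inst1 inst2 P.mkQ.toAddMonoidHom hπs hπ0
    β hβl hβr hnd B z₀ h

/-- **[PD-WIRE], abstract form.**  Dual Ihara on lattices from a pairing: if `A` and `B` are
adjoint for pairings with radicals `p M`, `p M'`, `s'` is the adjoint of `s`, and `s'` kills the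
kernel of `A` modulo `p`, then `s M ⊆ B M' + p M`. -/
theorem dualIhara_of_pairing {M M' : Type*} [AddCommGroup M] [AddCommGroup M']
    [Module.Finite ℤ M] (p : ℕ) [Fact p.Prime]
    (β : M → M → ZMod p) (hβl : ∀ x x' z, β (x + x') z = β x z + β x' z)
    (hβr : ∀ x z z', β x (z + z') = β x z + β x z')
    (hnd : ∀ x, (∀ z, β x z = 0) → ∃ x', x = (p : ℤ) • x')
    (β' : M' → M' → ZMod p) (hnd' : ∀ y, (∀ y', β' y y' = 0) → ∃ y₀, y = (p : ℤ) • y₀)
    (A : M → M') (B : M' →+ M) (hadj : ∀ x y, β' (A x) y = β x (B y))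
    (s s' : M → M) (hs : ∀ x z, β (s' x) z = β x (s z))
    (hker : ∀ x, (∃ y, A x = (p : ℤ) • y) → ∃ w, s' x = (p : ℤ) • w) (z : M) :
    ∃ y w, s z = B y + (p : ℤ) • w := by
  refine mem_range_add_of_orth p β hβl hβr hnd B (s z) fun x hx => ?_
  obtain ⟨w, hw⟩ := hker x (hnd' (A x) fun y => by rw [hadj, hx])
  rw [← hs, hw]
  -- `β (p • w) z = 0`
  let βl : M →+ ZMod p := AddMonoidHom.mk' (fun x => β x z) (fun x x' => hβl x x' z)
  have := map_zsmul βl (p : ℤ) w
  show βl ((p : ℤ) • w) = 0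
  rw [this, zsmul_eq_mul, Int.cast_natCast, ZMod.natCast_self, zero_mul]

end Fermat.Agent.P7.LRWire
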