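import Mathlib
import Fermat.Prelude.Def_FLTPrelim_ModularRep
import Fermat.Prelude.Def_FreyPackage_LevelRaising

/-!
# Program P7 (S41, Ribet level raising): top-level contracts and the spine (helper80)

Everything is a typed `Prop`; the spine theorem `s41_of_plan` at the end is proved.

## Top layer (this file)

* `S41Stmt`        : the frozen statement S41, verbatim.
* `NonEisStmt`     [NON-EIS]: if `E[p]` is irreducible then for every `M > 0` there is a good prime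
  `ℓ ∤ M`, `ℓ ≠ p`, with `a_ℓ(W) ≢ ℓ + 1 (mod p)`.
  (Paper proof: `a_ℓ ≡ ℓ + 1` iff `Frob_ℓ` has the eigenvalue `1` on `E[p]` (S52 library: trace and
  determinant of Frobenius); weak Chebotarev (on main) gives every element of the image a nonzero
  fixed vector; the elements of determinant one are then unipotent, so they form a normal
  `p`-subgroup `H`; if `H ≠ 1` its fixed line is stable, if `H = 1` the image is cyclic of order
  prime to `p` and fixes the `1`-eigenline of a generator.)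
* `LevelRaiseStmt` [LR]: level raising for an eigensystem which is congruent to a rational
  sequence `c` on a set `G` of primes and is not Eisenstein at ONE prime of `G`
  (`c ℓ ≢ ℓ + 1 mod p`).  This is what the cohomological argument proves (the kernel of the
  degeneracy map consists of congruence classes `χ ∘ (a mod N)`, on which EVERY `T_ℓ`, `ℓ ∤ N`,
  acts by `ℓ + 1`).

## Second layer (inside `LevelRaiseStmt`; typed in `P7/Plan2.lean`)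

`V(Γ)` := homomorphisms `Γ → 𝔽_p` killing parabolic and elliptic elements; `L_M := Per.Lat M`.
`α^* = (res, W_q ∘ res) : L_N² → L_{Nq}`, `α_* = (tr, tr ∘ W_q)`.

* [CSP-ab]  (helper4's proof, board #2526): a homomorphism `Ψ : Γ₀(N)[1/q] → 𝔽_p` killing
  `u(ℤ[1/q])` and `l(N ℤ[1/q])` vanishes on the matrices with upper left entry `≡ 1 mod N`.
* [AMALGAM] a pair in the kernel of `α^*` glues to such a `Ψ`.
* [IHARA]   `ker (α^* mod p)` consists of congruence classes, hence is killed by `T_ℓ - (ℓ + 1)`.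
* [PD]      perfect alternating pairings on `V(Γ₀(M))` with `res ⊣ tr` and `W_r` an isometry;
            hence `α_* = (α^*)^†` and `T_ℓ^† = T_ℓ`, and `coker (α_* mod p) ≅ (ker (α^* mod p))^∨`.
* [DEG]     `α_* α^* = [[q+1, T_q], [T_q, q+1]]`, Hecke equivariance, `U_q² = 1` on `ker α_*`.
* [LA]      the linear algebra of Ribet's argument + Deligne–Serre lifting on `ker α_*`.
* [PERIOD]  period equivariance for `U_q`; an eigenclass in `L_{Nq} ⊗ ℂ` gives an eigenform.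
-/

set_option autoImplicit false

open CuspForm CongruenceSubgroup WeierstrassCurve

namespace Fermat.Agent.P7.Plan

/-- The frozen statement S41, verbatim. -/
def S41Stmt : Prop :=
  ∀ (E : WeierstrassCurve ℚ) [E.IsElliptic] {W : WeierstrassCurve ℤ} (_hW : W.IsIntegralModelOf E)
    {p N q' : ℕ} (_hp : p.Prime) (_hp2 : p ≠ 2) (_hN : 0 < N) (_hq' : q'.Prime)
    (_hq'N : ¬ q' ∣ N) (_hq'p : q' ≠ p)
    (_hirr : WeierstrassCurve.Affine.Point.GaloisRepIsIrreducible (K := AlgebraicClosure ℚ) ℚ E p)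
    (f : CuspForm (CongruenceSubgroup.Gamma0 N) 2) (𝔪 : Ideal (integralClosure ℤ ℂ))
    (_hf : f.IsNormalizedEigenform) (_hmax : 𝔪.IsMaximal) (_hpm : (p : integralClosure ℤ ℂ) ∈ 𝔪)
    (_hcong : ∀ ℓ : ℕ, ℓ.Prime → W.IsGoodPrimeFor ℓ → ¬ ℓ ∣ N → ℓ ≠ p →
      ∃ a : integralClosure ℤ ℂ, (a : ℂ) = ModularFormClass.qCoeff f ℓ ∧
        a - ((W.apOfModel ℓ : ℤ) : integralClosure ℤ ℂ) ∈ 𝔪)
    (_hLR : ∃ a : integralClosure ℤ ℂ, (a : ℂ) = ModularFormClass.qCoeff f q' ∧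
      a ^ 2 - ((q' : integralClosure ℤ ℂ) + 1) ^ 2 ∈ 𝔪),
    ∃ (g : CuspForm (CongruenceSubgroup.Gamma0 (N * q')) 2) (𝔪' : Ideal (integralClosure ℤ ℂ)),
      g.IsNormalizedEigenform ∧ 𝔪'.IsMaximal ∧ (p : integralClosure ℤ ℂ) ∈ 𝔪' ∧
      (∀ ℓ : ℕ, ℓ.Prime → W.IsGoodPrimeFor ℓ → ¬ ℓ ∣ N * q' → ℓ ≠ p →
        ∃ a : integralClosure ℤ ℂ, (a : ℂ) = ModularFormClass.qCoeff g ℓ ∧
          a - ((W.apOfModel ℓ : ℤ) : integralClosure ℤ ℂ) ∈ 𝔪') ∧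
      g.IsNewAt q'

/-- **[NON-EIS]** an irreducible `E[p]` is not Eisenstein: away from any fixed level there is a
good prime `ℓ ≠ p` with `a_ℓ(W) ≢ ℓ + 1 (mod p)`. -/
def NonEisStmt : Prop :=
  ∀ (E : WeierstrassCurve ℚ) [E.IsElliptic] {W : WeierstrassCurve ℤ} (_hW : W.IsIntegralModelOf E)
    {p : ℕ} (_hp : p.Prime) (M : ℕ) (_hM : 0 < M)
    (_hirr : WeierstrassCurve.Affine.Point.GaloisRepIsIrreducible (K := AlgebraicClosure ℚ) ℚ E p),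
    ∃ ℓ : ℕ, ℓ.Prime ∧ W.IsGoodPrimeFor ℓ ∧ ¬ ℓ ∣ M ∧ ℓ ≠ p ∧
      ¬ (p : ℤ) ∣ W.apOfModel ℓ - ((ℓ : ℤ) + 1)

/-- **[LR]** level raising for a mod `𝔪` eigensystem which is congruent to the rational sequence
`c` on the set `G` of primes and is not Eisenstein at one prime of `G`. -/
def LevelRaiseStmt : Prop :=
  ∀ {p N q : ℕ} (_hp : p.Prime) (_hp2 : p ≠ 2) (_hN : 0 < N) (_hq : q.Prime)
    (_hqN : ¬ q ∣ N) (_hqp : q ≠ p)
    (f : CuspForm (CongruenceSubgroup.Gamma0 N) 2) (𝔪 : Ideal (integralClosure ℤ ℂ))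
    (_hf : f.IsNormalizedEigenform) (_hmax : 𝔪.IsMaximal) (_hpm : (p : integralClosure ℤ ℂ) ∈ 𝔪)
    (G : Set ℕ) (c : ℕ → ℤ)
    (_hcong : ∀ ℓ : ℕ, ℓ.Prime → ℓ ∈ G → ¬ ℓ ∣ N → ℓ ≠ p →
      ∃ a : integralClosure ℤ ℂ, (a : ℂ) = ModularFormClass.qCoeff f ℓ ∧
        a - ((c ℓ : ℤ) : integralClosure ℤ ℂ) ∈ 𝔪)
    (_hLR : ∃ a : integralClosure ℤ ℂ, (a : ℂ) = ModularFormClass.qCoeff f q ∧
      a ^ 2 - ((q : integralClosure ℤ ℂ) + 1) ^ 2 ∈ 𝔪)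
    (_hne : ∃ ℓ : ℕ, ℓ.Prime ∧ ℓ ∈ G ∧ ¬ ℓ ∣ N * q ∧ ℓ ≠ p ∧ ¬ (p : ℤ) ∣ c ℓ - ((ℓ : ℤ) + 1)),
    ∃ (g : CuspForm (CongruenceSubgroup.Gamma0 (N * q)) 2) (𝔪' : Ideal (integralClosure ℤ ℂ)),
      g.IsNormalizedEigenform ∧ 𝔪'.IsMaximal ∧ (p : integralClosure ℤ ℂ) ∈ 𝔪' ∧
      (∀ ℓ : ℕ, ℓ.Prime → ℓ ∈ G → ¬ ℓ ∣ N * q → ℓ ≠ p →
        ∃ a : integralClosure ℤ ℂ, (a : ℂ) = ModularFormClass.qCoeff g ℓ ∧
          a - ((c ℓ : ℤ) : integralClosure ℤ ℂ) ∈ 𝔪') ∧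
      g.IsNewAt q

/-- **The spine**: S41 from [NON-EIS] and [LR]. -/
theorem s41_of_plan (hNE : NonEisStmt) (hLR : LevelRaiseStmt) : S41Stmt := by
  intro E _ W hW p N q' hp hp2 hN hq' hq'N hq'p hirr f 𝔪 hf hmax hpm hcong hLRc
  obtain ⟨ℓ₀, hℓ₀, hgood, hℓ₀M, hℓ₀p, hne⟩ :=
    hNE E hW hp (N * q') (Nat.mul_pos hN hq'.pos) hirr
  exact hLR hp hp2 hN hq' hq'N hq'p f 𝔪 hf hmax hpm {ℓ | W.IsGoodPrimeFor ℓ}
    (fun ℓ => W.apOfModel ℓ) (fun ℓ hℓ hG hℓN hℓp => hcong ℓ hℓ hG hℓN hℓp) hLRc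
    ⟨ℓ₀, hℓ₀, hgood, hℓ₀M, hℓ₀p, hne⟩

end Fermat.Agent.P7.Plan
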