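import Mathlib

/-!
# The lattice argument of level raising (Ribet), in elementary form

`M`, `L'` are abelian groups (`M` finitely generated, without `p`-torsion), with families of
endomorphisms `T i`, `T' i` and equivariant maps `A : M → L'`, `B : L' → M` (the two degeneracy
maps).  Given a mod `p` eigenvector `x` of the `T i` with eigenvalues `a i` that is killed by
`B ∘ A` modulo `p`, and one operator `s = T i₁ - e₁` with `a i₁ - e₁` prime to `p` that
kills `ker (A mod p)` and maps `M` into `im B + p M`, there is an eigenvector modulo `p` in the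
lattice `ker B`, with the same eigenvalues.
-/

set_option autoImplicit false

namespace Fermat.Agent.P7.RibetLA

/-- Krull intersection for finitely generated abelian groups: a `p`-torsion element divisible by
every power of `p` vanishes. -/
theorem eq_zero_of_forall_pow_dvd {C : Type*} [AddCommGroup C] [Module.Finite ℤ C] (p : ℤ)
    (c : C) (hpc : p • c = 0) (h : ∀ n : ℕ, ∃ d : C, c = (p ^ n) • d) : c = 0 := by
  have hmem : c ∈ (⨅ i : ℕ, (Ideal.span {p}) ^ i • ⊤ : Submodule ℤ C) := by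
    rw [Submodule.mem_iInf]
    intro n
    obtain ⟨d, hd⟩ := h n
    rw [hd, Ideal.span_singleton_pow]
    exact Submodule.smul_mem_smul (Ideal.mem_span_singleton_self _) Submodule.mem_top
  obtain ⟨⟨r, hr⟩, hrc⟩ := (Ideal.mem_iInf_smul_pow_eq_bot_iff (Ideal.span {p}) c).mp hmem
  obtain ⟨r', rfl⟩ := Ideal.mem_span_singleton.mp hr
  rw [← hrc]
  change (p * r') • c = 0
  rw [mul_comm, mul_smul, hpc, smul_zero]

section main

variable {M L' : Type*} [AddCommGroup M] [AddCommGroup L'] [Module.Finite ℤ M]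

/-- The torsion step: an element `z` with `p z ∈ range B` which is an eigenvector modulo
`range B` for an operator `s` (eigenvalue `u` prime to `p`) with `s M ⊆ range B + p M` lies in
`range B`. -/
theorem mem_range_of_eigen (p : ℤ) (B : L' →ₗ[ℤ] M) (s : M →ₗ[ℤ] M)
    (hsB : ∀ y, ∃ y', s (B y) = B y') (hs : ∀ z, ∃ y w, s z = B y + p • w)
    (u : ℤ) (hu : IsCoprime u p) (z : M) (hpz : ∃ y, p • z = B y)
    (hsz : ∃ y, s z = u • z + B y) : ∃ y, z = B y := by
  -- powers of `s` preserve `range B`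
  have hsBn : ∀ n : ℕ, ∀ y, ∃ y', (s ^ n) (B y) = B y' := by
    intro n
    induction n with
    | zero => intro y; exact ⟨y, by simp⟩
    | succ n ih =>
      intro y
      obtain ⟨y₁, hy₁⟩ := hsB y
      obtain ⟨y₂, hy₂⟩ := ih y₁
      exact ⟨y₂, by rw [pow_succ, Module.End.mul_apply, hy₁, hy₂]⟩
  -- `s ^ n` maps into `range B + p ^ n M`
  have hs1 : ∀ n : ℕ, ∀ z', ∃ y m, (s ^ n) z' = B y + (p ^ n) • m := by
    intro n
    induction n with
    | zero => intro z'; exact ⟨0, z', by simp⟩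
    | succ n ih =>
      intro z'
      obtain ⟨y₁, w₁, h₁⟩ := hs z'
      obtain ⟨y₂, hy₂⟩ := hsBn n y₁
      obtain ⟨y₃, m₃, h₃⟩ := ih w₁
      refine ⟨y₂ + p • y₃, m₃, ?_⟩
      rw [pow_succ, Module.End.mul_apply, h₁, map_add, hy₂, map_smul, h₃, map_add, map_smul,
        smul_add, smul_smul, pow_succ]
      rw [mul_comm (p ^ n) p]
      abel
  -- `z` is an eigenvector of `s ^ n` modulo `range B`
  have hs2 : ∀ n : ℕ, ∃ y, (s ^ n) z = (u ^ n) • z + B y := by
    intro n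
    induction n with
    | zero => exact ⟨0, by simp⟩
    | succ n ih =>
      obtain ⟨y₁, h₁⟩ := hsz
      obtain ⟨y₂, h₂⟩ := ih
      obtain ⟨y₃, h₃⟩ := hsBn n y₁
      refine ⟨u • y₂ + y₃, ?_⟩
      rw [pow_succ, Module.End.mul_apply, h₁, map_add, map_smul, h₂, h₃, map_add, map_smul,
        smul_add, smul_smul, pow_succ]
      rw [mul_comm (u ^ n) u]
      abel
  obtain ⟨y₀, hy₀⟩ := hpz
  -- `z ∈ range B + p ^ n M` for all `n`
  have hz : ∀ n : ℕ, ∃ y m, z = B y + (p ^ n) • m := by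
    intro n
    obtain ⟨α, β, hαβ⟩ := (IsCoprime.pow_left (m := n) hu : IsCoprime (u ^ n) p)
    obtain ⟨y₁, m₁, h₁⟩ := hs1 n z
    obtain ⟨y₂, h₂⟩ := hs2 n
    refine ⟨α • (y₁ - y₂) + β • y₀, α • m₁, ?_⟩
    have e1 : (u ^ n) • z = B (y₁ - y₂) + (p ^ n) • m₁ := by
      have h3 : (u ^ n) • z + B y₂ = B y₁ + (p ^ n) • m₁ := h₂.symm.trans h₁
      rw [map_sub, eq_sub_of_add_eq h3]
      abel
    calc z = (α * u ^ n + β * p) • z := by rw [hαβ, one_smul]
      _ = α • ((u ^ n) • z) + β • (p • z) := by rw [add_smul, mul_smul, mul_smul]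
      _ = α • (B (y₁ - y₂) + (p ^ n) • m₁) + β • B y₀ := by rw [e1, hy₀]
      _ = B (α • (y₁ - y₂) + β • y₀) + (p ^ n) • (α • m₁) := by
        rw [map_add, map_smul, map_smul, smul_add, smul_comm α (p ^ n) m₁]
        abel
  -- pass to the quotient
  let R : Submodule ℤ M := LinearMap.range B
  have hc : (Submodule.Quotient.mk z : M ⧸ R) = 0 := by
    apply eq_zero_of_forall_pow_dvd p
    · rw [← Submodule.Quotient.mk_smul, hy₀, Submodule.Quotient.mk_eq_zero]
      exact LinearMap.mem_range_self B y₀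
    · intro n
      obtain ⟨y, m, h⟩ := hz n
      refine ⟨Submodule.Quotient.mk m, ?_⟩
      rw [← Submodule.Quotient.mk_smul, Submodule.Quotient.eq, h, add_sub_cancel_right]
      exact LinearMap.mem_range_self B y
  rw [Submodule.Quotient.mk_eq_zero] at hc
  obtain ⟨y, hy⟩ := hc
  exact ⟨y, hy.symm⟩

/-- **Level raising, lattice form.**  See the module docstring. -/
theorem exists_new (p : ℕ) (hp : p.Prime) (htf : ∀ m : M, (p : ℤ) • m = 0 → m = 0)
    {ι : Type*} (T : ι → M →ₗ[ℤ] M) (T' : ι → L' →ₗ[ℤ] L')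
    (A : M →ₗ[ℤ] L') (B : L' →ₗ[ℤ] M)
    (hA : ∀ i x, A (T i x) = T' i (A x)) (hB : ∀ i y, B (T' i y) = T i (B y))
    (a : ι → ℤ) (x : M) (hx0 : ¬ ∃ x', x = (p : ℤ) • x')
    (hx : ∀ i, ∃ w, T i x - a i • x = (p : ℤ) • w)
    (hBA : ∃ z, B (A x) = (p : ℤ) • z)
    (i₁ : ι) (e₁ : ℤ) (hu : ¬ (p : ℤ) ∣ a i₁ - e₁)
    (hIh : ∀ x, (∃ y, A x = (p : ℤ) • y) → ∃ w, T i₁ x - e₁ • x = (p : ℤ) • w)
    (hDI : ∀ z, ∃ y w, T i₁ z - e₁ • z = B y + (p : ℤ) • w) :
    ∃ y : L', B y = 0 ∧ (¬ ∃ y₀, B y₀ = 0 ∧ y = (p : ℤ) • y₀) ∧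
      ∀ i, ∃ w, B w = 0 ∧ T' i y - a i • y = (p : ℤ) • w := by
  classical
  have hpP : Prime (p : ℤ) := Nat.prime_iff_prime_int.mp hp
  have hcop : IsCoprime (a i₁ - e₁) (p : ℤ) :=
    ((Prime.coprime_iff_not_dvd hpP).mpr hu).symm
  have hcancel : ∀ m₁ m₂ : M, (p : ℤ) • m₁ = (p : ℤ) • m₂ → m₁ = m₂ := by
    intro m₁ m₂ h
    have := htf (m₁ - m₂) (by rw [smul_sub, h, sub_self])
    exact sub_eq_zero.mp this
  obtain ⟨z, hz⟩ := hBA
  choose w hw using hx
  -- `z` is an eigenvector modulo `range B`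
  have hzeig : ∀ i, T i z - a i • z = B (A (w i)) := by
    intro i
    apply hcancel
    calc (p : ℤ) • (T i z - a i • z) = T i ((p : ℤ) • z) - a i • ((p : ℤ) • z) := by
          rw [smul_sub, map_smul, smul_comm]
      _ = B (A (T i x - a i • x)) := by
          rw [← hz, ← hB, ← hA, map_sub, map_sub, map_smul, map_smul]
      _ = (p : ℤ) • B (A (w i)) := by rw [hw i, map_smul, map_smul]
  -- the operator `s`
  let s : M →ₗ[ℤ] M := T i₁ - e₁ • LinearMap.id
  have hs_apply : ∀ m, s m = T i₁ m - e₁ • m := fun m => rfl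
  obtain ⟨y₀, hy₀⟩ : ∃ y, z = B y := by
    refine mem_range_of_eigen (p : ℤ) B s ?_ ?_ (a i₁ - e₁) hcop z ⟨A x, hz.symm⟩ ?_
    · intro y
      exact ⟨T' i₁ y - e₁ • y, by rw [hs_apply, map_sub, map_smul, hB]⟩
    · intro z'
      obtain ⟨y, w', h⟩ := hDI z'
      exact ⟨y, w', by rw [hs_apply, h]⟩
    · refine ⟨A (w i₁), ?_⟩
      rw [hs_apply, ← hzeig i₁, sub_smul]
      abel
  -- the new vector
  refine ⟨A x - (p : ℤ) • y₀, ?_, ?_, ?_⟩
  · rw [map_sub, map_smul, hz, hy₀, sub_self]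
  · rintro ⟨y', -, hy'⟩
    apply hx0
    obtain ⟨w', hw'⟩ := hIh x ⟨y' + y₀, by rw [smul_add, ← hy']; abel⟩
    obtain ⟨α, β, hαβ⟩ := hcop
    refine ⟨α • (w' - w i₁) + β • x, ?_⟩
    have e1 : (a i₁ - e₁) • x = (p : ℤ) • (w' - w i₁) := by
      rw [smul_sub, ← hw', ← hw i₁, sub_smul]
      abel
    calc x = (α * (a i₁ - e₁) + β * (p : ℤ)) • x := by rw [hαβ, one_smul]
      _ = α • ((a i₁ - e₁) • x) + β • ((p : ℤ) • x) := by rw [add_smul, mul_smul, mul_smul]
      _ = (p : ℤ) • (α • (w' - w i₁) + β • x) := by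
        rw [e1, smul_add, smul_comm α (p : ℤ), smul_comm β (p : ℤ)]
  · intro i
    have key : T' i (A x - (p : ℤ) • y₀) - a i • (A x - (p : ℤ) • y₀)
        = (p : ℤ) • (A (w i) - (T' i y₀ - a i • y₀)) := by
      have h1 : T' i (A x) - a i • A x = (p : ℤ) • A (w i) := by
        rw [← hA, ← map_smul, ← map_sub, hw i, map_smul]
      rw [map_sub, map_smul, smul_sub, smul_sub, smul_sub, ← h1, smul_comm (a i) (p : ℤ) y₀]
      abel
    refine ⟨_, ?_, key⟩
    apply hcancel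
    rw [← map_smul, ← key, smul_zero, map_sub, map_smul, hB, map_sub, map_smul, hz, hy₀,
      sub_self, map_zero, smul_zero, sub_self]

end main

section prod

variable {L L' : Type*} [AddCommGroup L] [AddCommGroup L'] [Module.Finite ℤ L]

/-- **Level raising, lattice form, for `M = L × L`**: the eigenvector is `x = (v, -ε v)` where
`v` is a mod `p` eigenvector of the `t i` and of `tq` (eigenvalue `ε c`, `ε = ± 1`), and
`B ∘ A = [[c, tq], [tq, c]]` modulo `p` (for level raising at `q`: `c = q + 1`, `tq = T_q`). -/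
theorem exists_new_prod (p : ℕ) (hp : p.Prime) (htf : ∀ m : L, (p : ℤ) • m = 0 → m = 0)
    {ι : Type*} (t : ι → L →ₗ[ℤ] L) (T' : ι → L' →ₗ[ℤ] L')
    (A : L × L →ₗ[ℤ] L') (B : L' →ₗ[ℤ] L × L)
    (hA : ∀ i x, A (t i x.1, t i x.2) = T' i (A x))
    (hB : ∀ i y, B (T' i y) = (t i (B y).1, t i (B y).2))
    (tq : L →ₗ[ℤ] L) (c : ℤ)
    (hBAq : ∀ x : L × L, ∃ w : L × L,
      B (A x) = (c • x.1 + tq x.2, tq x.1 + c • x.2) + (p : ℤ) • w)
    (a : ι → ℤ) (v : L) (hv0 : ¬ ∃ v', v = (p : ℤ) • v')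
    (hv : ∀ i, ∃ w, t i v - a i • v = (p : ℤ) • w)
    (ε : ℤ) (hε : ε * ε = 1) (hvq : ∃ w, tq v - (ε * c) • v = (p : ℤ) • w)
    (i₁ : ι) (e₁ : ℤ) (hu : ¬ (p : ℤ) ∣ a i₁ - e₁)
    (hIh : ∀ x : L × L, (∃ y, A x = (p : ℤ) • y) →
      ∃ w : L × L, (t i₁ x.1 - e₁ • x.1, t i₁ x.2 - e₁ • x.2) = (p : ℤ) • w)
    (hDI : ∀ z : L × L, ∃ (y : L') (w : L × L),
      (t i₁ z.1 - e₁ • z.1, t i₁ z.2 - e₁ • z.2) = B y + (p : ℤ) • w) :
    ∃ y : L', B y = 0 ∧ (¬ ∃ y₀, B y₀ = 0 ∧ y = (p : ℤ) • y₀) ∧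
      ∀ i, ∃ w, B w = 0 ∧ T' i y - a i • y = (p : ℤ) • w := by
  classical
  refine exists_new (M := L × L) p hp ?_ (fun i => (t i).prodMap (t i)) T' A B
    (fun i x => hA i x) (fun i y => hB i y) a (v, -(ε • v)) ?_ ?_ ?_ i₁ e₁ hu ?_ ?_
  · rintro ⟨m₁, m₂⟩ h
    rw [Prod.smul_mk, Prod.mk_eq_zero] at h
    rw [Prod.mk_eq_zero]
    exact ⟨htf _ h.1, htf _ h.2⟩
  · rintro ⟨⟨x₁, x₂⟩, h⟩
    rw [Prod.smul_mk, Prod.mk.injEq] at h
    exact hv0 ⟨x₁, h.1⟩
  · intro i
    obtain ⟨w, hw⟩ := hv i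
    refine ⟨(w, -(ε • w)), ?_⟩
    rw [Prod.smul_mk, LinearMap.prodMap_apply, Prod.smul_mk, Prod.mk_sub_mk, Prod.mk.injEq]
    refine ⟨hw, ?_⟩
    rw [map_neg, map_smul, smul_neg, smul_neg, smul_comm (a i) ε v, smul_comm (p : ℤ) ε w, ← hw,
      smul_sub]
    abel
  · obtain ⟨w₀, hw₀⟩ := hBAq (v, -(ε • v))
    obtain ⟨wq, hwq⟩ := hvq
    refine ⟨(-(ε • wq), wq) + w₀, ?_⟩
    rw [hw₀, smul_add, add_left_inj, Prod.smul_mk, Prod.mk.injEq]
    have h1 : tq v = (ε * c) • v + (p : ℤ) • wq := by rw [← hwq]; abel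
    constructor
    · change c • v + tq (-(ε • v)) = (p : ℤ) • (-(ε • wq))
      rw [map_neg, map_smul, h1, smul_add, smul_smul, ← mul_assoc, hε, one_mul,
        smul_comm ε (p : ℤ) wq, smul_neg]
      abel
    · change tq v + c • (-(ε • v)) = (p : ℤ) • wq
      rw [h1, smul_neg, smul_smul, mul_comm c ε]
      abel
  · intro x hx
    exact hIh x hx
  · intro z
    exact hDI z

end prod

section duality

variable {k V V' : Type*} [Field k] [AddCommGroup V] [Module k V] [FiniteDimensional k V]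
  [AddCommGroup V'] [Module k V']

/-- **Dual Ihara from Ihara and a perfect pairing.**  `β` is a left-nondegenerate bilinear form on
the finite-dimensional space `V`, `β'` a left-nondegenerate pairing on `V'`, `Bbar` is adjoint to
`Abar`, and `s'` is adjoint to `s`.  If `s'` kills `ker Abar`, then `range s ≤ range Bbar`. -/
theorem range_le_range_of_adjoint (Abar : V →ₗ[k] V') (Bbar : V' →ₗ[k] V)
    (β : V →ₗ[k] V →ₗ[k] k) (β' : V' → V' → k)
    (hβ : ∀ x, (∀ z, β x z = 0) → x = 0) (hβ' : ∀ y, (∀ y', β' y y' = 0) → y = 0)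
    (hadj : ∀ x y, β' (Abar x) y = β x (Bbar y))
    (s s' : V →ₗ[k] V) (hs : ∀ x z, β (s' x) z = β x (s z))
    (hker : ∀ x, Abar x = 0 → s' x = 0) :
    LinearMap.range s ≤ LinearMap.range Bbar := by
  rintro _ ⟨z, rfl⟩
  by_contra hz
  obtain ⟨f, hf, hf'⟩ := Submodule.exists_dual_map_eq_bot_of_notMem hz inferInstance
  have hinj : Function.Injective β := by
    intro x₁ x₂ h
    have h0 : x₁ - x₂ = 0 := hβ _ (fun z => by rw [map_sub, h, sub_self, LinearMap.zero_apply])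
    exact sub_eq_zero.mp h0
  have hsurj : Function.Surjective β :=
    (LinearMap.injective_iff_surjective_of_finrank_eq_finrank
      (Subspace.dual_finrank_eq (K := k) (V := V)).symm).mp hinj
  obtain ⟨x, rfl⟩ := hsurj f
  have hAx : Abar x = 0 := by
    apply hβ'
    intro y
    rw [hadj]
    have hmem : β x (Bbar y) ∈ (LinearMap.range Bbar).map (β x) :=
      Submodule.mem_map_of_mem (LinearMap.mem_range_self Bbar y)
    rw [hf'] at hmem
    exact (Submodule.mem_bot k).mp hmem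
  exact hf (by rw [← hs, hker x hAx, map_zero, LinearMap.zero_apply])

end duality

section glue

variable {M L' V V' : Type*} [AddCommGroup M] [AddCommGroup L'] [AddCommGroup V]
  [AddCommGroup V']

/-- Glue: the hypothesis `hDI` of `exists_new` from the corresponding statement on the
reductions `π : M → V`, `π' : L' → V'` modulo `p`. -/
theorem dualIhara_of_range (p : ℤ) (π : M →+ V) (π' : L' →+ V')
    (hπ : ∀ m, π m = 0 → ∃ m', m = p • m') (hπ' : Function.Surjective π')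
    (B : L' →ₗ[ℤ] M) (Bbar : V' → V) (hBbar : ∀ y, Bbar (π' y) = π (B y))
    (s : M → M) (sbar : V → V) (hsbar : ∀ m, sbar (π m) = π (s m))
    (h : ∀ v, ∃ v', sbar v = Bbar v') (z : M) : ∃ y w, s z = B y + p • w := by
  obtain ⟨v', hv'⟩ := h (π z)
  obtain ⟨y, rfl⟩ := hπ' v'
  rw [hsbar, hBbar] at hv'
  obtain ⟨w, hw⟩ := hπ (s z - B y) (by rw [map_sub, hv', sub_self])
  exact ⟨y, w, by rw [← hw]; abel⟩

/-- Glue: the hypothesis `hIh` of `exists_new` from the corresponding statement on the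
reductions modulo `p`. -/
theorem ihara_of_ker (p : ℤ) (π : M →+ V) (π' : L' →+ V')
    (hπ : ∀ m, π m = 0 → ∃ m', m = p • m') (hπ'p : ∀ y, π' (p • y) = 0)
    (A : M →ₗ[ℤ] L') (Abar : V → V') (hAbar : ∀ m, Abar (π m) = π' (A m))
    (s : M → M) (sbar : V → V) (hsbar : ∀ m, sbar (π m) = π (s m))
    (h : ∀ v, Abar v = 0 → sbar v = 0) (x : M) (hx : ∃ y, A x = p • y) :
    ∃ w, s x = p • w := by
  obtain ⟨y, hy⟩ := hx
  apply hπ
  rw [← hsbar]
  apply h
  rw [hAbar, hy, hπ'p]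

end glue

end Fermat.Agent.P7.RibetLA
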