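import Mathlib
import Fermat.Agent.P7.LRWire
import Fermat.Agent.P7.RibetLA
import Fermat.Agent.P7.IharaAsm
import Fermat.Agent.P7.NonEisCoh
import Fermat.Agent.P7.Plan

/-!
# P7 [LR], the core (helper80): level raising from the typed second-layer contracts

Everything here is abstract in the *degeneracy data* `DegData N q` (the maps `res`, `res ∘ conj_δ`,
the two transfers, the Atkin–Lehner involution `w_q` and `U_q` on the parabolic lattices, with the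
identities they satisfy) and the *pairing data* `PairData p M` (the `𝔽_p`-valued Poincaré duality
pairing on `Lat M`).  The theorem `levelRaise_core` proves the conclusion of
`Plan.LevelRaiseStmt` from

* `SeedStmt`     [SEED]: the eigensystem of `(f, 𝔪)` occurs in `Lat N / p`;
* `DegData`      [COH-HECKE]: the two-level calculus;
* `PairData`, `IsAdj` [PD]: the pairing, `res ⊣ tr`, `w_q` an isometry;
* `EndgameStmt`  [ENDGAME]: a new mod `p` eigenclass on `ker α_*` gives a normalized eigenform;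

using [IHARA] (`IharaAsm.ihara_add`), `NonEisCoh`, `RibetLA.exists_new_prod` and
`LRWire.dualIhara_of_pairing`, which are proved.
-/

set_option autoImplicit false

open CongruenceSubgroup
open scoped MatrixGroups

namespace Fermat.Agent.P7.LRCore

open Fermat.Agent.P5.Per

/-- **[COH-HECKE]** Degeneracy data between the levels `N` and `N * q` on the parabolic
lattices: `resA` (restriction), `resB` (restriction after conjugation by `diag(q, 1)`), the two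
transfers `corA`, `corB`, the Atkin–Lehner involution `wq` and the operator `uq` at level
`N * q`, with the identities of the two-level calculus. -/
structure DegData (N q : ℕ) [NeZero N] [NeZero (N * q)] (hq : q.Prime) (hqN : ¬ q ∣ N) where
  resA : Lat N →ₗ[ℤ] Lat (N * q)
  resB : Lat N →ₗ[ℤ] Lat (N * q)
  corA : Lat (N * q) →ₗ[ℤ] Lat N
  corB : Lat (N * q) →ₗ[ℤ] Lat N
  wq : Lat (N * q) →ₗ[ℤ] Lat (N * q)
  uq : Lat (N * q) →ₗ[ℤ] Lat (N * q)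
  resA_apply : ∀ (x : Lat N) (γ : Gamma0 (N * q)) (γ' : Gamma0 N),
    (γ' : SL(2, ℤ)) = (γ : SL(2, ℤ)) →
    (resA x : Additive (Gamma0 (N * q)) →+ ℤ) (Additive.ofMul γ) =
      (x : Additive (Gamma0 N) →+ ℤ) (Additive.ofMul γ')
  resB_apply : ∀ (x : Lat N) (γ : Gamma0 (N * q)) (γ' : Gamma0 N),
    (γ' : SL(2, ℤ)) 0 0 = (γ : SL(2, ℤ)) 0 0 → (γ' : SL(2, ℤ)) 0 1 = q * (γ : SL(2, ℤ)) 0 1 →
    (γ : SL(2, ℤ)) 1 0 = q * (γ' : SL(2, ℤ)) 1 0 → (γ' : SL(2, ℤ)) 1 1 = (γ : SL(2, ℤ)) 1 1 →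
    (resB x : Additive (Gamma0 (N * q)) →+ ℤ) (Additive.ofMul γ) =
      (x : Additive (Gamma0 N) →+ ℤ) (Additive.ofMul γ')
  corA_resA : ∀ x, corA (resA x) = ((q : ℤ) + 1) • x
  corB_resB : ∀ x, corB (resB x) = ((q : ℤ) + 1) • x
  corA_resB : ∀ x, corA (resB x) = tcohL N hq hqN x
  corB_resA : ∀ x, corB (resA x) = tcohL N hq hqN x
  resA_tcoh : ∀ {ℓ : ℕ} (hℓ : ℓ.Prime) (hℓN : ¬ ℓ ∣ N) (hℓNq : ¬ ℓ ∣ N * q) (x : Lat N),
    resA (tcohL N hℓ hℓN x) = tcohL (N * q) hℓ hℓNq (resA x)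
  resB_tcoh : ∀ {ℓ : ℕ} (hℓ : ℓ.Prime) (hℓN : ¬ ℓ ∣ N) (hℓNq : ¬ ℓ ∣ N * q) (x : Lat N),
    resB (tcohL N hℓ hℓN x) = tcohL (N * q) hℓ hℓNq (resB x)
  corA_tcoh : ∀ {ℓ : ℕ} (hℓ : ℓ.Prime) (hℓN : ¬ ℓ ∣ N) (hℓNq : ¬ ℓ ∣ N * q) (y : Lat (N * q)),
    corA (tcohL (N * q) hℓ hℓNq y) = tcohL N hℓ hℓN (corA y)
  corB_tcoh : ∀ {ℓ : ℕ} (hℓ : ℓ.Prime) (hℓN : ¬ ℓ ∣ N) (hℓNq : ¬ ℓ ∣ N * q) (y : Lat (N * q)),
    corB (tcohL (N * q) hℓ hℓNq y) = tcohL N hℓ hℓN (corB y)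
  wq_wq : ∀ y, wq (wq y) = y
  resB_eq : ∀ x, resB x = wq (resA x)
  corB_eq : ∀ y, corB y = corA (wq y)
  resA_corA : ∀ y, resA (corA y) = y + uq (wq y)

namespace DegData

variable {N q : ℕ} [NeZero N] [NeZero (N * q)] {hq : q.Prime} {hqN : ¬ q ∣ N}
  (D : DegData N q hq hqN)

/-- The new lattice `K = ker α_*`. -/
def newLat : Submodule ℤ (Lat (N * q)) := LinearMap.ker D.corA ⊓ LinearMap.ker D.corB

theorem mem_newLat {y : Lat (N * q)} : y ∈ D.newLat ↔ D.corA y = 0 ∧ D.corB y = 0 := by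
  simp [newLat]

theorem wq_mem_newLat {y : Lat (N * q)} (hy : y ∈ D.newLat) : D.wq y ∈ D.newLat := by
  rw [mem_newLat] at hy ⊢
  refine ⟨?_, ?_⟩
  · rw [← D.corB_eq]; exact hy.2
  · rw [D.corB_eq, D.wq_wq]; exact hy.1

theorem uq_wq_of_mem {y : Lat (N * q)} (hy : y ∈ D.newLat) : D.uq (D.wq y) = -y := by
  have h := D.resA_corA y
  rw [(D.mem_newLat.1 hy).1, map_zero] at h
  exact (neg_eq_of_add_eq_zero_right h.symm).symm

theorem uq_of_mem {y : Lat (N * q)} (hy : y ∈ D.newLat) : D.uq y = -D.wq y := by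
  have h := D.uq_wq_of_mem (D.wq_mem_newLat hy)
  rwa [D.wq_wq] at h

theorem uq_mem_newLat {y : Lat (N * q)} (hy : y ∈ D.newLat) : D.uq y ∈ D.newLat := by
  rw [D.uq_of_mem hy]
  exact D.newLat.neg_mem (D.wq_mem_newLat hy)

theorem uq_uq_of_mem {y : Lat (N * q)} (hy : y ∈ D.newLat) : D.uq (D.uq y) = y := by
  rw [D.uq_of_mem hy, map_neg, D.uq_wq_of_mem hy, neg_neg]

theorem tcoh_mem_newLat {ℓ : ℕ} (hℓ : ℓ.Prime) (hℓNq : ¬ ℓ ∣ N * q) {y : Lat (N * q)}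
    (hy : y ∈ D.newLat) : tcohL (N * q) hℓ hℓNq y ∈ D.newLat := by
  have hℓN : ¬ ℓ ∣ N := fun h => hℓNq (Dvd.dvd.mul_right h q)
  rw [mem_newLat] at hy ⊢
  rw [D.corA_tcoh hℓ hℓN hℓNq, D.corB_tcoh hℓ hℓN hℓNq, hy.1, hy.2, map_zero]
  exact ⟨rfl, rfl⟩

end DegData

/-- **[PD]** Pairing data at level `M`: a biadditive, skew-symmetric `𝔽_p`-valued pairing on the
parabolic lattice `Lat M` whose radical is `p · Lat M`. -/
structure PairData (p M : ℕ) where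
  β : Lat M → Lat M → ZMod p
  add_left : ∀ x x' z, β (x + x') z = β x z + β x' z
  add_right : ∀ x z z', β x (z + z') = β x z + β x z'
  nondeg : ∀ x, (∀ z, β x z = 0) → ∃ x', x = (p : ℤ) • x'
  skew : ∀ x z, β z x = -β x z

/-- **[PD]** compatibility of the pairings at levels `N`, `N * q` with the degeneracy data:
restriction is adjoint to the transfer, and `w_q` is an isometry. -/
structure IsAdj {p N q : ℕ} [NeZero N] [NeZero (N * q)] {hq : q.Prime} {hqN : ¬ q ∣ N}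
    (P : PairData p N) (P' : PairData p (N * q)) (D : DegData N q hq hqN) : Prop where
  adj : ∀ x y, P'.β (D.resA x) y = P.β x (D.corA y)
  isom : ∀ y y', P'.β (D.wq y) (D.wq y') = P'.β y y'

namespace IsAdj

variable {p N q : ℕ} [NeZero N] [NeZero (N * q)] {hq : q.Prime} {hqN : ¬ q ∣ N}
  {P : PairData p N} {P' : PairData p (N * q)} {D : DegData N q hq hqN}

/-- The second degeneracy map is adjoint to the second transfer. -/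
theorem adjB (h : IsAdj P P' D) (x : Lat N) (y : Lat (N * q)) :
    P'.β (D.resB x) y = P.β x (D.corB y) := by
  rw [D.resB_eq, D.corB_eq, ← h.adj, ← h.isom (D.resA x), D.wq_wq]

/-- `T_q` is self-adjoint. -/
theorem tcoh_selfAdj (h : IsAdj P P' D) (x z : Lat N) :
    P.β (tcohL N hq hqN x) z = P.β x (tcohL N hq hqN z) := by
  rw [← D.corA_resB x, ← D.corA_resB z, P.skew, ← h.adj, ← h.adj, D.resB_eq, D.resB_eq,
    ← h.isom (D.resA z), D.wq_wq, P'.skew, neg_neg]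

end IsAdj

namespace PairData

variable {p M : ℕ} (P : PairData p M)

/-- The pairing as a biadditive map. -/
def hom : Lat M →+ Lat M →+ ZMod p :=
  AddMonoidHom.mk' (fun x => AddMonoidHom.mk' (P.β x) (P.add_right x))
    (fun x x' => AddMonoidHom.ext (P.add_left x x'))

theorem hom_apply (x z : Lat M) : P.hom x z = P.β x z := rfl

theorem sub_left (x x' z : Lat M) : P.β (x - x') z = P.β x z - P.β x' z := by
  rw [← hom_apply, map_sub, AddMonoidHom.sub_apply, hom_apply, hom_apply]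

theorem sub_right (x z z' : Lat M) : P.β x (z - z') = P.β x z - P.β x z' := by
  rw [← hom_apply, map_sub, hom_apply, hom_apply]

theorem zero_right (x : Lat M) : P.β x 0 = 0 := by
  rw [← hom_apply, map_zero]

theorem zero_left (z : Lat M) : P.β 0 z = 0 := by
  rw [← hom_apply, map_zero, AddMonoidHom.zero_apply]

theorem zsmul_left (n : ℤ) (x z : Lat M) : P.β (n • x) z = (n : ZMod p) * P.β x z := by
  rw [← hom_apply, map_zsmul, AddMonoidHom.smul_apply, zsmul_eq_mul, hom_apply]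

theorem zsmul_right (n : ℤ) (x z : Lat M) : P.β x (n • z) = (n : ZMod p) * P.β x z := by
  rw [← hom_apply, map_zsmul, zsmul_eq_mul, hom_apply]

end PairData

/-- **[SEED]** The eigensystem of `(f, 𝔪)` occurs in `Lat N / p`: for every set `I` of primes
not dividing `N` on which the eigenvalues of `f` are congruent modulo `𝔪` to integers `a ℓ`,
there is `v ∈ Lat N`, `v ∉ p · Lat N`, with `T_ℓ v ≡ a ℓ • v` modulo `p · Lat N` for `ℓ ∈ I`. -/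
def SeedStmt (N p : ℕ) [NeZero N] (f : CuspForm (Gamma0 N) 2)
    (𝔪 : Ideal (integralClosure ℤ ℂ)) : Prop :=
  ∀ (I : Set ℕ) (a : ℕ → ℤ), (∀ ℓ ∈ I, ℓ.Prime ∧ ¬ ℓ ∣ N) →
    (∀ ℓ ∈ I, ∃ α : integralClosure ℤ ℂ, (α : ℂ) = ModularFormClass.qCoeff f ℓ ∧
      α - ((a ℓ : ℤ) : integralClosure ℤ ℂ) ∈ 𝔪) →
    ∃ v : Lat N, (¬ ∃ v', v = (p : ℤ) • v') ∧
      ∀ (ℓ : ℕ) (hℓ : ℓ.Prime) (hℓN : ¬ ℓ ∣ N), ℓ ∈ I →
        ∃ w : Lat N, tcohL N hℓ hℓN v - a ℓ • v = (p : ℤ) • w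

/-- **[ENDGAME]** A class `y` in a Hecke- and `U_q`-stable sublattice `K` of `Lat (N * q)` on
which `U_q² = 1`, with `y ∉ p K` and `T_ℓ y ≡ a ℓ • y` modulo `p K` for `ℓ ∈ I`, gives a
normalized eigenform `g` of level `N * q` with `a_ℓ(g) ≡ a ℓ` (`ℓ ∈ I`) and `a_q(g)² = 1`. -/
def EndgameStmt (N q p : ℕ) [NeZero (N * q)] (uq : Lat (N * q) →ₗ[ℤ] Lat (N * q)) : Prop :=
  ∀ (K : Submodule ℤ (Lat (N * q))) (I : Set ℕ) (a : ℕ → ℤ),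
    (∀ ℓ ∈ I, ℓ.Prime ∧ ¬ ℓ ∣ N * q) →
    (∀ (ℓ : ℕ) (hℓ : ℓ.Prime) (hℓNq : ¬ ℓ ∣ N * q), ℓ ∈ I →
      ∀ x ∈ K, tcohL (N * q) hℓ hℓNq x ∈ K) →
    (∀ x ∈ K, uq x ∈ K) → (∀ x ∈ K, uq (uq x) = x) →
    ∀ y ∈ K, (¬ ∃ y₀ ∈ K, y = (p : ℤ) • y₀) →
    (∀ (ℓ : ℕ) (hℓ : ℓ.Prime) (hℓNq : ¬ ℓ ∣ N * q), ℓ ∈ I →
      ∃ w ∈ K, tcohL (N * q) hℓ hℓNq y - a ℓ • y = (p : ℤ) • w) →
    ∃ (g : CuspForm (Gamma0 (N * q)) 2) (𝔪' : Ideal (integralClosure ℤ ℂ)),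
      g.IsNormalizedEigenform ∧ 𝔪'.IsMaximal ∧ (p : integralClosure ℤ ℂ) ∈ 𝔪' ∧
      (∀ ℓ ∈ I, ∃ α : integralClosure ℤ ℂ, (α : ℂ) = ModularFormClass.qCoeff g ℓ ∧
        α - ((a ℓ : ℤ) : integralClosure ℤ ℂ) ∈ 𝔪') ∧
      ModularFormClass.qCoeff g q ^ 2 = 1

/-- Elements of the parabolic lattice, reduced modulo `p`, kill the upper unipotent elements. -/
theorem castHom_upper {N : ℕ} (p : ℕ) (x : Lat N) (γ : Gamma0 N)
    (h00 : (γ : SL(2, ℤ)) 0 0 = 1) (h10 : (γ : SL(2, ℤ)) 1 0 = 0) :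
    castHom N (ZMod p) x (Additive.ofMul γ) = 0 := by
  refine (isParabolicHom_iff_parSet _).1 (castHom_isParabolicHom N (ZMod p) x.2) γ ?_
  show ((γ : SL(2, ℤ)) : Matrix (Fin 2) (Fin 2) ℤ).trace ^ 2 = 4
  have hdet := (γ : SL(2, ℤ)).2
  rw [Matrix.det_fin_two] at hdet
  rw [Matrix.trace_fin_two]
  have h00' : ((γ : SL(2, ℤ)) : Matrix (Fin 2) (Fin 2) ℤ) 0 0 = 1 := h00
  have h10' : ((γ : SL(2, ℤ)) : Matrix (Fin 2) (Fin 2) ℤ) 1 0 = 0 := h10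
  rw [h00', h10'] at hdet
  rw [h00']
  have h11 : ((γ : SL(2, ℤ)) : Matrix (Fin 2) (Fin 2) ℤ) 1 1 = 1 := by linarith
  rw [h11]; norm_num

/-- Elements of the parabolic lattice, reduced modulo `p`, kill the lower unipotent elements. -/
theorem castHom_lower {N : ℕ} (p : ℕ) (x : Lat N) (γ : Gamma0 N)
    (h00 : (γ : SL(2, ℤ)) 0 0 = 1) (h01 : (γ : SL(2, ℤ)) 0 1 = 0) :
    castHom N (ZMod p) x (Additive.ofMul γ) = 0 := by
  refine (isParabolicHom_iff_parSet _).1 (castHom_isParabolicHom N (ZMod p) x.2) γ ?_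
  show ((γ : SL(2, ℤ)) : Matrix (Fin 2) (Fin 2) ℤ).trace ^ 2 = 4
  have hdet := (γ : SL(2, ℤ)).2
  rw [Matrix.det_fin_two] at hdet
  rw [Matrix.trace_fin_two]
  have h00' : ((γ : SL(2, ℤ)) : Matrix (Fin 2) (Fin 2) ℤ) 0 0 = 1 := h00
  have h01' : ((γ : SL(2, ℤ)) : Matrix (Fin 2) (Fin 2) ℤ) 0 1 = 0 := h01
  rw [h00', h01'] at hdet
  rw [h00']
  have h11 : ((γ : SL(2, ℤ)) : Matrix (Fin 2) (Fin 2) ℤ) 1 1 = 1 := by linarith
  rw [h11]; norm_num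

/-- **[IHARA] on the lattices**: a pair in the kernel of `α^*` modulo `p` is Eisenstein modulo
`p`: both components are killed by `T_ℓ - (ℓ + 1)` modulo `p`, for every prime `ℓ ∤ N`. -/
theorem ihara_lat {N q p : ℕ} [NeZero N] [NeZero (N * q)] {hq : q.Prime} {hqN : ¬ q ∣ N}
    (D : DegData N q hq hqN) (hp : p.Prime) (hp2 : p ≠ 2) {ℓ : ℕ} (hℓ : ℓ.Prime)
    (hℓN : ¬ ℓ ∣ N) (x₁ x₂ : Lat N) (h : ∃ y, D.resA x₁ + D.resB x₂ = (p : ℤ) • y) :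
    (∃ w, tcohL N hℓ hℓN x₁ - ((ℓ : ℤ) + 1) • x₁ = (p : ℤ) • w) ∧
      (∃ w, tcohL N hℓ hℓN x₂ - ((ℓ : ℤ) + 1) • x₂ = (p : ℤ) • w) := by
  haveI : Fact q.Prime := ⟨hq⟩
  haveI : Fact p.Prime := ⟨hp⟩
  have hN : 0 < N := Nat.pos_of_ne_zero (NeZero.ne N)
  have hcop : q.Coprime N := (Nat.Prime.coprime_iff_not_dvd hq).2 hqN
  obtain ⟨y, hy⟩ := h
  have key := IharaAsm.ihara_add hN hcop hp2 (castHom N (ZMod p) x₁)
    (castHom N (ZMod p) ((-x₂ : Lat N) : Additive (Gamma0 N) →+ ℤ))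
    (fun γ h00 h10 => castHom_upper p x₁ γ h00 h10)
    (fun γ h00 h01 => castHom_lower p x₁ γ h00 h01)
    (fun γ h00 h10 => castHom_upper p (-x₂) γ h00 h10)
    (fun γ h00 h01 => castHom_lower p (-x₂) γ h00 h01)
    (by
      intro γ γ' h00 h01 h10 h11
      have hγ' : (N : ℤ) ∣ (γ' : SL(2, ℤ)) 1 0 := by
        have := γ'.2
        rw [Gamma0_mem] at this
        exact (ZMod.intCast_zmod_eq_zero_iff_dvd _ _).1 this
      have hmem : (γ : SL(2, ℤ)) ∈ Gamma0 (N * q) := by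
        rw [Gamma0_mem, ZMod.intCast_zmod_eq_zero_iff_dvd, h10]
        obtain ⟨k, hk⟩ := hγ'
        exact ⟨k, by rw [hk]; push_cast; ring⟩
      have e1 := D.resA_apply x₁ ⟨γ, hmem⟩ γ rfl
      have e2 := D.resB_apply x₂ ⟨γ, hmem⟩ γ' h00 h01 h10 h11
      have e3 := congrArg (fun z : Lat (N * q) =>
        (z : Additive (Gamma0 (N * q)) →+ ℤ) (Additive.ofMul ⟨γ, hmem⟩)) hy
      simp only [Submodule.coe_add, AddMonoidHom.add_apply, Submodule.coe_smul,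
        AddMonoidHom.smul_apply, smul_eq_mul] at e3
      rw [e1, e2] at e3
      show (((x₁ : Additive (Gamma0 N) →+ ℤ) (Additive.ofMul γ) : ℤ) : ZMod p) =
        ((((-x₂ : Lat N) : Additive (Gamma0 N) →+ ℤ) (Additive.ofMul γ') : ℤ) : ZMod p)
      have e4 : ((x₁ : Additive (Gamma0 N) →+ ℤ) (Additive.ofMul γ) : ℤ) =
          ((-x₂ : Lat N) : Additive (Gamma0 N) →+ ℤ) (Additive.ofMul γ') +
            (p : ℤ) * (y : Additive (Gamma0 (N * q)) →+ ℤ) (Additive.ofMul ⟨γ, hmem⟩) := by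
        rw [← e3]
        simp
      rw [e4]
      push_cast
      rw [ZMod.natCast_self, zero_mul, add_zero])
  refine ⟨?_, ?_⟩
  · obtain ⟨w, hw⟩ := NonEisCoh.exists_eq_smul_of_isEis_cast_lat hp.ne_zero hℓ hℓN x₁ key.1
    refine ⟨w, ?_⟩
    rw [← hw]
    congr 1
  · obtain ⟨w, hw⟩ := NonEisCoh.exists_eq_smul_of_isEis_cast_lat hp.ne_zero hℓ hℓN (-x₂) key.2
    refine ⟨-w, ?_⟩
    have h1 : ((ℓ + 1 : ℕ) • (-x₂) : Lat N) = -(((ℓ : ℤ) + 1) • x₂) := by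
      rw [← natCast_zsmul]
      push_cast
      rw [smul_neg]
    rw [h1, map_neg] at hw
    rw [smul_neg, ← hw]
    abel

/-- **[PD-WIRE]** Dual Ihara on the lattices: `(T_ℓ - (ℓ + 1)) (Lat N)² ⊆ α_* Lat (N q) + p`. -/
theorem dualIhara_lat {N q p : ℕ} [NeZero N] [NeZero (N * q)] {hq : q.Prime} {hqN : ¬ q ∣ N}
    (D : DegData N q hq hqN) (hp : p.Prime) (hp2 : p ≠ 2) {ℓ : ℕ} (hℓ : ℓ.Prime)
    (hℓN : ¬ ℓ ∣ N) (P : PairData p N) (P' : PairData p (N * q)) (hadj : IsAdj P P' D)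
    (hself : ∀ x z, P.β (tcohL N hℓ hℓN x) z = P.β x (tcohL N hℓ hℓN z))
    (z : Lat N × Lat N) :
    ∃ (y : Lat (N * q)) (w : Lat N × Lat N),
      (tcohL N hℓ hℓN z.1 - ((ℓ : ℤ) + 1) • z.1, tcohL N hℓ hℓN z.2 - ((ℓ : ℤ) + 1) • z.2) =
        (D.corA y, D.corB y) + (p : ℤ) • w := by
  haveI : Fact p.Prime := ⟨hp⟩
  haveI := lat_finite N
  have key := LRWire.dualIhara_of_pairing (M := Lat N × Lat N) (M' := Lat (N * q)) p
    (fun x z => P.β x.1 z.1 + P.β x.2 z.2)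
    (by intro x x' z; simp only [Prod.fst_add, Prod.snd_add, P.add_left]; ring)
    (by intro x z z'; simp only [Prod.fst_add, Prod.snd_add, P.add_right]; ring)
    (by
      intro x hx
      obtain ⟨x₁', h₁⟩ := P.nondeg x.1 (fun z => by
        have := hx (z, 0)
        simpa [P.zero_right] using this)
      obtain ⟨x₂', h₂⟩ := P.nondeg x.2 (fun z => by
        have := hx (0, z)
        simpa [P.zero_right] using this)
      exact ⟨(x₁', x₂'), Prod.ext h₁ h₂⟩)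
    P'.β P'.nondeg
    (fun x => D.resA x.1 + D.resB x.2) (D.corA.prod D.corB).toAddMonoidHom
    (by
      intro x y
      rw [P'.add_left, hadj.adj, hadj.adjB]
      rfl)
    (fun z => (tcohL N hℓ hℓN z.1 - ((ℓ : ℤ) + 1) • z.1,
      tcohL N hℓ hℓN z.2 - ((ℓ : ℤ) + 1) • z.2))
    (fun z => (tcohL N hℓ hℓN z.1 - ((ℓ : ℤ) + 1) • z.1,
      tcohL N hℓ hℓN z.2 - ((ℓ : ℤ) + 1) • z.2))
    (by
      intro x z
      simp only [P.sub_left, P.sub_right, P.zsmul_left, P.zsmul_right, hself])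
    (by
      intro x hx
      obtain ⟨⟨w₁, h₁⟩, ⟨w₂, h₂⟩⟩ := ihara_lat D hp hp2 hℓ hℓN x.1 x.2 hx
      exact ⟨(w₁, w₂), Prod.ext h₁ h₂⟩)
    z
  obtain ⟨y, w, hw⟩ := key
  exact ⟨y, w, hw⟩

/-- **[LR], the core.**  Level raising from the second-layer contracts: the seed [SEED], the
degeneracy data [COH-HECKE] at `(N, q)` and at `(N, ℓ₁)`, the pairings [PD] at the levels `N`,
`N q`, `N ℓ₁`, and the endgame [ENDGAME]. -/
theorem levelRaise_core {p N q : ℕ} [NeZero N] [NeZero (N * q)] (hp : p.Prime) (hp2 : p ≠ 2)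
    (hq : q.Prime) (hqN : ¬ q ∣ N)
    (f : CuspForm (Gamma0 N) 2) (𝔪 : Ideal (integralClosure ℤ ℂ)) (hmax : 𝔪.IsMaximal)
    (G : Set ℕ) (c : ℕ → ℤ)
    (hcong : ∀ ℓ : ℕ, ℓ.Prime → ℓ ∈ G → ¬ ℓ ∣ N → ℓ ≠ p →
      ∃ a : integralClosure ℤ ℂ, (a : ℂ) = ModularFormClass.qCoeff f ℓ ∧
        a - ((c ℓ : ℤ) : integralClosure ℤ ℂ) ∈ 𝔪)
    (hLR : ∃ a : integralClosure ℤ ℂ, (a : ℂ) = ModularFormClass.qCoeff f q ∧
      a ^ 2 - ((q : integralClosure ℤ ℂ) + 1) ^ 2 ∈ 𝔪)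
    {ℓ₁ : ℕ} (hℓ₁ : ℓ₁.Prime) (hℓ₁G : ℓ₁ ∈ G) (hℓ₁N : ¬ ℓ₁ ∣ N) (hℓ₁Nq : ¬ ℓ₁ ∣ N * q)
    (hℓ₁p : ℓ₁ ≠ p) (hne : ¬ (p : ℤ) ∣ c ℓ₁ - ((ℓ₁ : ℤ) + 1))
    [NeZero (N * ℓ₁)]
    (hSeed : SeedStmt N p f 𝔪)
    (D : DegData N q hq hqN) (D₁ : DegData N ℓ₁ hℓ₁ hℓ₁N)
    (P : PairData p N) (P' : PairData p (N * q)) (P₁ : PairData p (N * ℓ₁))
    (hadj : IsAdj P P' D) (hadj₁ : IsAdj P P₁ D₁)
    (hEnd : EndgameStmt N q p D.uq) :
    ∃ (g : CuspForm (Gamma0 (N * q)) 2) (𝔪' : Ideal (integralClosure ℤ ℂ)),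
      g.IsNormalizedEigenform ∧ 𝔪'.IsMaximal ∧ (p : integralClosure ℤ ℂ) ∈ 𝔪' ∧
      (∀ ℓ : ℕ, ℓ.Prime → ℓ ∈ G → ¬ ℓ ∣ N * q → ℓ ≠ p →
        ∃ a : integralClosure ℤ ℂ, (a : ℂ) = ModularFormClass.qCoeff g ℓ ∧
          a - ((c ℓ : ℤ) : integralClosure ℤ ℂ) ∈ 𝔪') ∧
      g.IsNewAt q := by
  classical
  -- the sign `ε` with `a_q(f) ≡ ε (q + 1)`
  obtain ⟨aq, haq, haq2⟩ := hLR
  have hfac : (aq - ((q : integralClosure ℤ ℂ) + 1)) * (aq + ((q : integralClosure ℤ ℂ) + 1))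
      ∈ 𝔪 := by
    have h1 : (aq - ((q : integralClosure ℤ ℂ) + 1)) * (aq + ((q : integralClosure ℤ ℂ) + 1)) =
        aq ^ 2 - ((q : integralClosure ℤ ℂ) + 1) ^ 2 := by ring
    rw [h1]; exact haq2
  obtain ⟨ε, hε, hεq⟩ : ∃ ε : ℤ, ε * ε = 1 ∧
      aq - (((ε * ((q : ℤ) + 1) : ℤ)) : integralClosure ℤ ℂ) ∈ 𝔪 := by
    rcases hmax.isPrime.mem_or_mem hfac with h | h
    · refine ⟨1, by norm_num, ?_⟩
      have h1 : (((1 * ((q : ℤ) + 1) : ℤ)) : integralClosure ℤ ℂ) =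
          (q : integralClosure ℤ ℂ) + 1 := by push_cast; ring
      rw [h1]; exact h
    · refine ⟨-1, by norm_num, ?_⟩
      have h1 : aq - (((-1 * ((q : ℤ) + 1) : ℤ)) : integralClosure ℤ ℂ) =
          aq + ((q : integralClosure ℤ ℂ) + 1) := by push_cast; ring
      rw [h1]; exact h
  -- the seed
  let I₀ : Set ℕ := {ℓ | ℓ.Prime ∧ ℓ ∈ G ∧ ¬ ℓ ∣ N * q ∧ ℓ ≠ p}
  let a : ℕ → ℤ := fun ℓ => if ℓ = q then ε * ((q : ℤ) + 1) else c ℓ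
  have hqI₀ : ∀ ℓ ∈ I₀, ℓ ≠ q := by
    rintro ℓ ⟨-, -, h, -⟩ rfl
    exact h (dvd_mul_left _ _)
  have haI₀ : ∀ ℓ ∈ I₀, a ℓ = c ℓ := fun ℓ hℓ => if_neg (hqI₀ ℓ hℓ)
  have haq' : a q = ε * ((q : ℤ) + 1) := if_pos rfl
  obtain ⟨v, hv0, hv⟩ := hSeed (I₀ ∪ {q}) a
    (by
      rintro ℓ (hℓ | hℓ)
      · exact ⟨hℓ.1, fun h => hℓ.2.2.1 (Dvd.dvd.mul_right h q)⟩
      · rw [Set.mem_singleton_iff] at hℓ
        subst hℓ
        exact ⟨hq, hqN⟩)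
    (by
      rintro ℓ (hℓ | hℓ)
      · rw [haI₀ ℓ hℓ]
        exact hcong ℓ hℓ.1 hℓ.2.1 (fun h => hℓ.2.2.1 (Dvd.dvd.mul_right h q)) hℓ.2.2.2
      · rw [Set.mem_singleton_iff] at hℓ
        subst hℓ
        rw [haq']
        exact ⟨aq, haq, hεq⟩)
  -- the data for Ribet's linear algebra
  let ι : Type := {ℓ : ℕ // ℓ.Prime ∧ ℓ ∈ G ∧ ¬ ℓ ∣ N * q ∧ ℓ ≠ p}
  have hιN : ∀ i : ι, ¬ i.1 ∣ N := fun i h => i.2.2.2.1 (Dvd.dvd.mul_right h q)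
  let t : ι → Lat N →ₗ[ℤ] Lat N := fun i => tcohL N i.2.1 (hιN i)
  let T' : ι → Lat (N * q) →ₗ[ℤ] Lat (N * q) := fun i => tcohL (N * q) i.2.1 i.2.2.2.1
  let A : Lat N × Lat N →ₗ[ℤ] Lat (N * q) := D.resA.coprod D.resB
  let B : Lat (N * q) →ₗ[ℤ] Lat N × Lat N := D.corA.prod D.corB
  haveI := lat_finite N
  have htf : ∀ m : Lat N, (p : ℤ) • m = 0 → m = 0 := by
    intro m hm
    apply Subtype.ext
    refine AddMonoidHom.ext fun γ => ?_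
    have h1 := congrArg (fun z : Lat N => (z : Additive (Gamma0 N) →+ ℤ) γ) hm
    simp only [Submodule.coe_smul, AddMonoidHom.smul_apply, smul_eq_mul, Submodule.coe_zero,
      AddMonoidHom.zero_apply] at h1
    rcases mul_eq_zero.1 h1 with h2 | h2
    · exact absurd (by exact_mod_cast h2) hp.ne_zero
    · exact h2
  have hA : ∀ i x, A (t i x.1, t i x.2) = T' i (A x) := by
    intro i x
    show D.resA (tcohL N i.2.1 (hιN i) x.1) + D.resB (tcohL N i.2.1 (hιN i) x.2) =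
      tcohL (N * q) i.2.1 i.2.2.2.1 (D.resA x.1 + D.resB x.2)
    rw [D.resA_tcoh i.2.1 (hιN i) i.2.2.2.1, D.resB_tcoh i.2.1 (hιN i) i.2.2.2.1, map_add]
  have hB : ∀ i y, B (T' i y) = (t i (B y).1, t i (B y).2) := by
    intro i y
    show (D.corA (tcohL (N * q) i.2.1 i.2.2.2.1 y), D.corB (tcohL (N * q) i.2.1 i.2.2.2.1 y)) =
      (tcohL N i.2.1 (hιN i) (D.corA y), tcohL N i.2.1 (hιN i) (D.corB y))
    rw [D.corA_tcoh i.2.1 (hιN i) i.2.2.2.1, D.corB_tcoh i.2.1 (hιN i) i.2.2.2.1]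
  have hBAq : ∀ x : Lat N × Lat N, ∃ w : Lat N × Lat N,
      B (A x) = (((q : ℤ) + 1) • x.1 + tcohL N hq hqN x.2,
        tcohL N hq hqN x.1 + ((q : ℤ) + 1) • x.2) + (p : ℤ) • w := by
    intro x
    refine ⟨0, ?_⟩
    rw [smul_zero, add_zero]
    show (D.corA (D.resA x.1 + D.resB x.2), D.corB (D.resA x.1 + D.resB x.2)) = _
    rw [map_add, map_add, D.corA_resA, D.corA_resB, D.corB_resA, D.corB_resB]
  let i₁ : ι := ⟨ℓ₁, hℓ₁, hℓ₁G, hℓ₁Nq, hℓ₁p⟩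
  have hIh : ∀ x : Lat N × Lat N, (∃ y, A x = (p : ℤ) • y) →
      ∃ w : Lat N × Lat N,
        (t i₁ x.1 - ((ℓ₁ : ℤ) + 1) • x.1, t i₁ x.2 - ((ℓ₁ : ℤ) + 1) • x.2) = (p : ℤ) • w := by
    intro x hx
    obtain ⟨⟨w₁, h₁⟩, ⟨w₂, h₂⟩⟩ := ihara_lat D hp hp2 hℓ₁ hℓ₁N x.1 x.2 hx
    exact ⟨(w₁, w₂), Prod.ext h₁ h₂⟩
  have hDI : ∀ z : Lat N × Lat N, ∃ (y : Lat (N * q)) (w : Lat N × Lat N),
      (t i₁ z.1 - ((ℓ₁ : ℤ) + 1) • z.1, t i₁ z.2 - ((ℓ₁ : ℤ) + 1) • z.2) =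
        B y + (p : ℤ) • w :=
    fun z => dualIhara_lat D hp hp2 hℓ₁ hℓ₁N P P' hadj (fun x z => hadj₁.tcoh_selfAdj x z) z
  obtain ⟨y, hy0, hynd, hycong⟩ := RibetLA.exists_new_prod p hp htf t T' A B hA hB
    (tcohL N hq hqN) ((q : ℤ) + 1) hBAq (fun i => c i.1) v hv0
    (fun i => by
      obtain ⟨w, hw⟩ := hv i.1 i.2.1 (hιN i) (Or.inl i.2)
      rw [haI₀ i.1 i.2] at hw
      exact ⟨w, hw⟩)
    ε hε
    (by
      obtain ⟨w, hw⟩ := hv q hq hqN (Or.inr rfl)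
      rw [haq'] at hw
      exact ⟨w, hw⟩)
    i₁ ((ℓ₁ : ℤ) + 1) hne hIh hDI
  -- the endgame on the new lattice
  have hKB : ∀ y, B y = 0 ↔ y ∈ D.newLat := by
    intro y
    rw [DegData.mem_newLat]
    exact Prod.mk_eq_zero
  obtain ⟨g, 𝔪', hg, hm', hpm', hc', hnew⟩ := hEnd D.newLat I₀ c
    (fun ℓ hℓ => ⟨hℓ.1, hℓ.2.2.1⟩)
    (fun ℓ hℓ hℓNq _ x hx => D.tcoh_mem_newLat hℓ hℓNq hx)
    (fun x hx => D.uq_mem_newLat hx) (fun x hx => D.uq_uq_of_mem hx)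
    y ((hKB y).1 hy0)
    (by
      rintro ⟨y₀, hy₀, rfl⟩
      exact hynd ⟨y₀, (hKB y₀).2 hy₀, rfl⟩)
    (by
      intro ℓ hℓ hℓNq hℓI
      obtain ⟨w, hw0, hw⟩ := hycong ⟨ℓ, hℓI⟩
      exact ⟨w, (hKB w).1 hw0, hw⟩)
  exact ⟨g, 𝔪', hg, hm', hpm', fun ℓ hℓ hG hℓNq hℓp => hc' ℓ ⟨hℓ, hG, hℓNq, hℓp⟩, hnew⟩

/-- **[LR] from the second-layer contracts.**  `Plan.LevelRaiseStmt` holds as soon as the seed
[SEED], the degeneracy data [COH-HECKE], the pairings [PD] and the endgame [ENDGAME] are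
available at all levels. -/
theorem levelRaiseStmt_of_contracts
    (hSeed : ∀ (N p : ℕ) [NeZero N] (f : CuspForm (Gamma0 N) 2)
      (𝔪 : Ideal (integralClosure ℤ ℂ)), p.Prime → f.IsNormalizedEigenform → 𝔪.IsMaximal →
      (p : integralClosure ℤ ℂ) ∈ 𝔪 → SeedStmt N p f 𝔪)
    (D : ∀ (N q : ℕ) [NeZero N] [NeZero (N * q)] (hq : q.Prime) (hqN : ¬ q ∣ N),
      DegData N q hq hqN)
    (P : ∀ (p M : ℕ), p.Prime → p ≠ 2 → 0 < M → PairData p M)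
    (hP : ∀ (p N q : ℕ) [NeZero N] [NeZero (N * q)] (hp : p.Prime) (hp2 : p ≠ 2)
      (hq : q.Prime) (hqN : ¬ q ∣ N) (hN : 0 < N) (hNq : 0 < N * q),
      IsAdj (P p N hp hp2 hN) (P p (N * q) hp hp2 hNq) (D N q hq hqN))
    (hEnd : ∀ (N q p : ℕ) [NeZero N] [NeZero (N * q)] (hq : q.Prime) (hqN : ¬ q ∣ N),
      p.Prime → p ≠ 2 → q ≠ p → EndgameStmt N q p (D N q hq hqN).uq) :
    Plan.LevelRaiseStmt := by
  intro p N q hp hp2 hN hq hqN hqp f 𝔪 hf hmax hpm G c hcong hLR hne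
  obtain ⟨ℓ₁, hℓ₁, hℓ₁G, hℓ₁Nq, hℓ₁p, hne₁⟩ := hne
  have hℓ₁N : ¬ ℓ₁ ∣ N := fun h => hℓ₁Nq (Dvd.dvd.mul_right h q)
  haveI : NeZero N := ⟨hN.ne'⟩
  haveI : NeZero (N * q) := ⟨(Nat.mul_pos hN hq.pos).ne'⟩
  haveI : NeZero (N * ℓ₁) := ⟨(Nat.mul_pos hN hℓ₁.pos).ne'⟩
  exact levelRaise_core hp hp2 hq hqN f 𝔪 hmax G c hcong hLR hℓ₁ hℓ₁G hℓ₁N hℓ₁Nq hℓ₁p hne₁
    (hSeed N p f 𝔪 hp hf hmax hpm) (D N q hq hqN) (D N ℓ₁ hℓ₁ hℓ₁N)
    (P p N hp hp2 hN) (P p (N * q) hp hp2 (Nat.mul_pos hN hq.pos))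
    (P p (N * ℓ₁) hp hp2 (Nat.mul_pos hN hℓ₁.pos))
    (hP p N q hp hp2 hq hqN hN _) (hP p N ℓ₁ hp hp2 hℓ₁ hℓ₁N hN _)
    (hEnd N q p hq hqN hp hp2 hqp)

end Fermat.Agent.P7.LRCore
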