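import Mathlib
import Fermat.Agent.P7.LRCore
import Fermat.Agent.P7.DegenLat
import Fermat.Agent.P7.DegenLatHecke

/-!
# P7 [COH-HECKE], contract (C2): the degeneracy data between `Γ₀(N)` and `Γ₀(N q)` (helper95)

`degData N q hq hqN : LRCore.DegData N q hq hqN` packages the two-level calculus of
`P7/DegenDefs`, `DegenMackey`, `DegenUq`, `DegenHecke` (on `Hom(Γ₀(·), A)`), restricted to the
parabolic lattices in `P7/DegenLat`, `DegenLatHecke`:

* `resA := DegenLat.resAL N q`, `resB := DegenLat.resBL N q hqN`,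
  `corA := DegenLat.corAL N q`, `corB := DegenLat.corBL N q hqN`,
  `wq := DegenLat.wqL N q hqN`, `uq := DegenLat.uqL N q`
  (the instance `Fact q.Prime` is `⟨hq⟩`; `degData_resA`, …, `degData_uq` are `rfl` for every
  instance);
* `coe_resA`, …, `coe_uq`: the underlying homomorphisms are `Degen.resA N q ℤ x`, …,
  `Degen.uq N q ℤ y` (`rfl`).
-/

set_option autoImplicit false

namespace Fermat.Agent.P7.DegInst

open scoped MatrixGroups
open CongruenceSubgroup
open Fermat.Agent.P7.Degen Fermat.Agent.P7.DegenLat Fermat.Agent.P7.DegenLatHecke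
open Fermat.Agent.P5.Per (Lat tcohL)

/-- An element of `Γ₀(N)` with the entries of `δ γ δ⁻¹`, `δ = diag(q, 1)`, is `conjB γ`. -/
theorem conjB_eq_of_entries (N q : ℕ) [NeZero q] (γ : Gamma0 (N * q)) (γ' : Gamma0 N)
    (h00 : (γ' : SL(2, ℤ)) 0 0 = (γ : SL(2, ℤ)) 0 0)
    (h01 : (γ' : SL(2, ℤ)) 0 1 = q * (γ : SL(2, ℤ)) 0 1)
    (h10 : (γ : SL(2, ℤ)) 1 0 = q * (γ' : SL(2, ℤ)) 1 0)
    (h11 : (γ' : SL(2, ℤ)) 1 1 = (γ : SL(2, ℤ)) 1 1) : conjB N q γ = γ' := by
  apply Subtype.ext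
  rw [coe_conjB]
  ext i j
  fin_cases i <;> fin_cases j
  · exact h00.symm
  · exact h01.symm
  · show (γ : SL(2, ℤ)) 1 0 / q = (γ' : SL(2, ℤ)) 1 0
    rw [h10, Int.mul_ediv_cancel_left _ (by exact_mod_cast NeZero.ne q)]
  · exact h11.symm

/-- An element of `Γ₀(N)` equal to `γ ∈ Γ₀(N q)` in `SL₂(ℤ)` is `incl γ`. -/
theorem incl_eq_of_coe (N q : ℕ) (γ : Gamma0 (N * q)) (γ' : Gamma0 N)
    (h : (γ' : SL(2, ℤ)) = (γ : SL(2, ℤ))) : incl N q γ = γ' :=
  Subtype.ext h.symm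

section Fields

variable (N q : ℕ) [NeZero N] [Fact q.Prime] (hqN : ¬ q ∣ N)

theorem resAL_apply_of (x : Lat N) (γ : Gamma0 (N * q)) (γ' : Gamma0 N)
    (h : (γ' : SL(2, ℤ)) = (γ : SL(2, ℤ))) :
    (resAL N q x : Additive (Gamma0 (N * q)) →+ ℤ) (Additive.ofMul γ) =
      (x : Additive (Gamma0 N) →+ ℤ) (Additive.ofMul γ') := by
  rw [coe_resAL, resA_apply, incl_eq_of_coe N q γ γ' h]

theorem resBL_apply_of (x : Lat N) (γ : Gamma0 (N * q)) (γ' : Gamma0 N)
    (h00 : (γ' : SL(2, ℤ)) 0 0 = (γ : SL(2, ℤ)) 0 0)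
    (h01 : (γ' : SL(2, ℤ)) 0 1 = q * (γ : SL(2, ℤ)) 0 1)
    (h10 : (γ : SL(2, ℤ)) 1 0 = q * (γ' : SL(2, ℤ)) 1 0)
    (h11 : (γ' : SL(2, ℤ)) 1 1 = (γ : SL(2, ℤ)) 1 1) :
    (resBL N q hqN x : Additive (Gamma0 (N * q)) →+ ℤ) (Additive.ofMul γ) =
      (x : Additive (Gamma0 N) →+ ℤ) (Additive.ofMul γ') := by
  rw [coe_resBL, resB_apply, conjB_eq_of_entries N q γ γ' h00 h01 h10 h11]

include hqN in
theorem corAL_resAL_zsmul (x : Lat N) : corAL N q (resAL N q x) = ((q : ℤ) + 1) • x := by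
  rw [corAL_resAL N q hqN, zsmul_eq]

theorem corBL_resBL_zsmul (x : Lat N) :
    corBL N q hqN (resBL N q hqN x) = ((q : ℤ) + 1) • x := by
  rw [corBL_resBL, zsmul_eq]

end Fields

/-- **Contract (C2)**: the degeneracy data between the levels `N` and `N q` on the parabolic
lattices. -/
noncomputable def degData (N q : ℕ) [NeZero N] [NeZero (N * q)] (hq : q.Prime) (hqN : ¬ q ∣ N) :
    Fermat.Agent.P7.LRCore.DegData N q hq hqN :=
  haveI : Fact q.Prime := ⟨hq⟩
  { resA := resAL N q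
    resB := resBL N q hqN
    corA := corAL N q
    corB := corBL N q hqN
    wq := wqL N q hqN
    uq := uqL N q
    resA_apply := resAL_apply_of N q
    resB_apply := resBL_apply_of N q hqN
    corA_resA := corAL_resAL_zsmul N q hqN
    corB_resB := corBL_resBL_zsmul N q hqN
    corA_resB := corAL_resBL N q hqN
    corB_resA := corBL_resAL N q hqN
    resA_tcoh := fun hℓ hℓN hℓNq x => resAL_tcohL N q hℓ hℓN hℓNq x
    resB_tcoh := fun hℓ hℓN hℓNq x => resBL_tcohL N q hqN hℓ hℓN hℓNq x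
    corA_tcoh := fun hℓ hℓN hℓNq y => corAL_tcohL N q hqN hℓ hℓN hℓNq y
    corB_tcoh := fun hℓ hℓN hℓNq y => corBL_tcohL N q hqN hℓ hℓN hℓNq y
    wq_wq := wqL_wqL N q hqN
    resB_eq := resBL_eq N q hqN
    corB_eq := corBL_eq N q hqN
    resA_corA := resAL_corAL N q hqN }

/-! ### The fields, for an arbitrary instance `Fact q.Prime` -/

section Unfold

variable (N q : ℕ) [NeZero N] [NeZero (N * q)] [Fact q.Prime] (hq : q.Prime) (hqN : ¬ q ∣ N)

theorem degData_resA : (degData N q hq hqN).resA = resAL N q := rfl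

theorem degData_resB : (degData N q hq hqN).resB = resBL N q hqN := rfl

theorem degData_corA : (degData N q hq hqN).corA = corAL N q := rfl

theorem degData_corB : (degData N q hq hqN).corB = corBL N q hqN := rfl

theorem degData_wq : (degData N q hq hqN).wq = wqL N q hqN := rfl

theorem degData_uq : (degData N q hq hqN).uq = uqL N q := rfl

omit [Fact q.Prime] in
theorem coe_resA (x : Lat N) :
    (((degData N q hq hqN).resA x : Lat (N * q)) : Additive ↥(Gamma0 (N * q)) →+ ℤ) =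
      resA N q ℤ x := rfl

theorem coe_resB (x : Lat N) :
    (((degData N q hq hqN).resB x : Lat (N * q)) : Additive ↥(Gamma0 (N * q)) →+ ℤ) =
      resB N q hqN ℤ x := rfl

theorem coe_corA (y : Lat (N * q)) :
    (((degData N q hq hqN).corA y : Lat N) : Additive ↥(Gamma0 N) →+ ℤ) = corA N q ℤ y := rfl

theorem coe_corB (y : Lat (N * q)) :
    (((degData N q hq hqN).corB y : Lat N) : Additive ↥(Gamma0 N) →+ ℤ) =
      corB N q hqN ℤ y := rfl

theorem coe_wq (y : Lat (N * q)) :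
    (((degData N q hq hqN).wq y : Lat (N * q)) : Additive ↥(Gamma0 (N * q)) →+ ℤ) =
      wq N q hqN ℤ y := rfl

theorem coe_uq (y : Lat (N * q)) :
    (((degData N q hq hqN).uq y : Lat (N * q)) : Additive ↥(Gamma0 (N * q)) →+ ℤ) =
      uq N q ℤ y := rfl

/-- The new lattice of `degData` is the kernel of `DegenLat.alphaDown`. -/
theorem mem_newLat_iff (y : Lat (N * q)) :
    y ∈ (degData N q hq hqN).newLat ↔ alphaDown N q hqN y = 0 := by
  rw [Fermat.Agent.P7.LRCore.DegData.mem_newLat, alphaDown_apply, Prod.mk_eq_zero]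
  rfl

/-- The new lattice of `degData`, on the level of homomorphisms. -/
theorem mem_newLat_iff' (y : Lat (N * q)) :
    y ∈ (degData N q hq hqN).newLat ↔
      corA N q ℤ (y : Additive ↥(Gamma0 (N * q)) →+ ℤ) = 0 ∧
        corB N q hqN ℤ (y : Additive ↥(Gamma0 (N * q)) →+ ℤ) = 0 := by
  rw [mem_newLat_iff, alphaDown_eq_zero_iff]

end Unfold

end Fermat.Agent.P7.DegInst
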