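import Mathlib

/-!
# P7 [EIG-START], linear algebra half (helper10)  — Mathlib only

* `exists_common_eigenvector` : a commuting family `T i` of endomorphisms of a finite-dimensional
  vector space has a common eigenvector with eigenvalues `a i` as soon as `a` is a *character*
  of the family (every noncommutative polynomial relation satisfied by the `T i` is satisfied
  by the `a i`).
* `exists_eigen_mod` : commuting integer matrices `A i` with a common complex eigenvector whose
  eigenvalues `lam i` are congruent to integers `a i` modulo a maximal ideal `𝔪` over `p` of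
  `integralClosure ℤ ℂ` have a common eigenvector modulo `p` with eigenvalues `a i`.
-/

set_option autoImplicit false

open Module

namespace Fermat.Agent.P7.EigStartLA

section field

universe u

variable {k : Type*} [Field k] {ι : Type*}

/-- If `Z` kills `ker N` and commutes with `N`, then `Z ^ a` kills `ker (N ^ a)`. -/
theorem pow_apply_eq_zero_of_ker {V : Type*} [AddCommGroup V] [Module k V]
    (N Z : Module.End k V) (hc : Z * N = N * Z) (hZ : ∀ v, N v = 0 → Z v = 0) (a : ℕ) :
    ∀ v, (N ^ a) v = 0 → (Z ^ a) v = 0 := by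
  induction a with
  | zero =>
    intro v hv
    simpa using hv
  | succ a ih =>
    intro v hv
    have h1 : (N ^ a) (N v) = 0 := by
      rw [pow_succ] at hv
      exact hv
    have h2 : (Z ^ a) (N v) = 0 := ih _ h1
    have hc' : Z ^ a * N = N * Z ^ a := by
      have : Commute (Z ^ a) N := (show Commute Z N from hc).pow_left a
      exact this
    have h3 : N ((Z ^ a) v) = 0 := by
      have := congrArg (fun F : Module.End k V => F v) hc'
      simp only [Module.End.mul_apply] at this
      rw [← this]
      exact h2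
    have h4 : Z ((Z ^ a) v) = 0 := hZ _ h3
    rw [pow_succ']
    exact h4

/-- Restriction to an invariant subspace commutes with evaluation of noncommutative
polynomials. -/
theorem lift_restrict_apply {V : Type*} [AddCommGroup V] [Module k V]
    (N : ι → Module.End k V) (K : Submodule k V) (hK : ∀ i, ∀ v ∈ K, N i v ∈ K)
    (x : FreeAlgebra k ι) (v : K) :
    ((FreeAlgebra.lift k (fun i => (N i).restrict (hK i)) x v : K) : V) =
      FreeAlgebra.lift k N x (v : V) := by
  induction x using FreeAlgebra.induction generalizing v with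
  | grade0 r =>
    simp [Algebra.algebraMap_eq_smul_one]
  | grade1 i =>
    simp [LinearMap.restrict_apply]
  | mul x y hx hy =>
    rw [map_mul, map_mul, Module.End.mul_apply, Module.End.mul_apply, hx, hy]
  | add x y hx hy =>
    rw [map_add, map_add, LinearMap.add_apply, LinearMap.add_apply, Submodule.coe_add, hx, hy]

/-- Every noncommutative polynomial in commuting operators commutes with each of them. -/
theorem lift_commute {V : Type*} [AddCommGroup V] [Module k V]
    (N : ι → Module.End k V) (hcomm : ∀ i j, N i * N j = N j * N i) (i₀ : ι)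
    (x : FreeAlgebra k ι) :
    FreeAlgebra.lift k N x * N i₀ = N i₀ * FreeAlgebra.lift k N x := by
  induction x using FreeAlgebra.induction with
  | grade0 r =>
    rw [AlgHom.commutes]
    exact (Algebra.commutes r (N i₀))
  | grade1 i => simpa using hcomm i i₀
  | mul x y hx' hy' =>
    rw [map_mul, mul_assoc, hy', ← mul_assoc, hx', mul_assoc]
  | add x y hx' hy' =>
    rw [map_add, add_mul, mul_add, hx', hy']

/-- Core induction: commuting operators `N i` such that every noncommutative polynomial relation
among them has vanishing constant term have a common nonzero kernel vector. -/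
theorem exists_common_kernel_aux :
    ∀ (n : ℕ) (V : Type u) [AddCommGroup V] [Module k V] [FiniteDimensional k V],
      finrank k V = n → ∀ (N : ι → Module.End k V), (∀ i j, N i * N j = N j * N i) →
      (∀ x : FreeAlgebra k ι, FreeAlgebra.lift k N x = 0 →
        FreeAlgebra.lift k (fun _ : ι => (0 : k)) x = 0) →
      ∃ v : V, v ≠ 0 ∧ ∀ i, N i v = 0 := by
  intro n
  induction n using Nat.strong_induction_on with
  | _ n ih =>
    intro V _ _ _ hn N hcomm hchar
    by_cases hall : ∀ i, N i = 0
    · -- all operators vanish: `V` is nontrivial by `hchar` applied to `1`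
      have hnt : Nontrivial V := by
        by_contra hsub
        rw [not_nontrivial_iff_subsingleton] at hsub
        have h1 : FreeAlgebra.lift k N (1 : FreeAlgebra k ι) = 0 := by
          ext v
          exact Subsingleton.elim _ _
        have := hchar 1 h1
        rw [map_one] at this
        exact one_ne_zero this
      obtain ⟨v, hv⟩ := exists_ne (0 : V)
      exact ⟨v, hv, fun i => by rw [hall i]; rfl⟩
    · push Not at hall
      obtain ⟨i₀, hi₀⟩ := hall
      set K : Submodule k V := LinearMap.ker (N i₀) with hKdef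
      have hKinv : ∀ i, ∀ v ∈ K, N i v ∈ K := by
        intro i v hv
        rw [hKdef, LinearMap.mem_ker] at hv ⊢
        have := congrArg (fun F : Module.End k V => F v) (hcomm i₀ i)
        simp only [Module.End.mul_apply] at this
        rw [this, hv, map_zero]
      have hKlt : finrank k K < n := by
        rw [← hn]
        apply Submodule.finrank_lt
        intro htop
        exact hi₀ (LinearMap.ker_eq_top.mp htop)
      -- a polynomial `X ^ a * g` with `g(0) = 1` killing `N i₀`
      obtain ⟨a, g, hg0, hgN⟩ : ∃ (a : ℕ) (g : Polynomial k), g.coeff 0 = 1 ∧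
          (N i₀) ^ a * Polynomial.aeval (N i₀) g = 0 := by
        have hμ : minpoly k (N i₀) ≠ 0 := minpoly.ne_zero (Algebra.IsIntegral.isIntegral _)
        obtain ⟨q, hq, hndvd⟩ :=
          Polynomial.exists_eq_pow_rootMultiplicity_mul_and_not_dvd (minpoly k (N i₀)) hμ 0
        rw [Polynomial.C_0, sub_zero] at hq hndvd
        have hq0 : q.coeff 0 ≠ 0 := fun h => hndvd (Polynomial.X_dvd_iff.mpr h)
        refine ⟨Polynomial.rootMultiplicity 0 (minpoly k (N i₀)),
          Polynomial.C (q.coeff 0)⁻¹ * q, ?_, ?_⟩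
        · rw [Polynomial.coeff_C_mul, inv_mul_cancel₀ hq0]
        · have h1 : Polynomial.aeval (N i₀) (minpoly k (N i₀)) = 0 := minpoly.aeval _ _
          rw [hq, map_mul, map_pow, Polynomial.aeval_X] at h1
          rw [map_mul, Polynomial.aeval_C, ← mul_assoc,
            (Algebra.commutes ((q.coeff 0)⁻¹) ((N i₀) ^ _)).symm, mul_assoc, h1, mul_zero]
      -- the restricted family
      set N' : ι → Module.End k K := fun i => (N i).restrict (hKinv i) with hN'
      have hcomm' : ∀ i j, N' i * N' j = N' j * N' i := by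
        intro i j
        ext v
        have := congrArg (fun F : Module.End k V => F (v : V)) (hcomm i j)
        simpa [hN', Module.End.mul_apply, LinearMap.restrict_apply] using this
      have hchar' : ∀ x : FreeAlgebra k ι, FreeAlgebra.lift k N' x = 0 →
          FreeAlgebra.lift k (fun _ : ι => (0 : k)) x = 0 := by
        intro x hx
        set Z : Module.End k V := FreeAlgebra.lift k N x with hZdef
        -- `Z` commutes with `N i₀`
        have hZc : Z * N i₀ = N i₀ * Z := lift_commute N hcomm i₀ x
        -- `Z` kills `K = ker (N i₀)`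
        have hZK : ∀ v, N i₀ v = 0 → Z v = 0 := by
          intro v hv
          have hvK : v ∈ K := by rw [hKdef, LinearMap.mem_ker]; exact hv
          have h1 := lift_restrict_apply N K hKinv x ⟨v, hvK⟩
          rw [show FreeAlgebra.lift k (fun i => (N i).restrict (hKinv i)) x = 0 from hx] at h1
          simpa using h1.symm
        have hpow := pow_apply_eq_zero_of_ker (N i₀) Z hZc hZK a
        -- hence `Z ^ a * g(N i₀) = 0`
        have hzero : FreeAlgebra.lift k N
            (x ^ a * Polynomial.aeval (FreeAlgebra.ι k i₀) g) = 0 := by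
          rw [map_mul, map_pow, ← hZdef]
          have hg' : FreeAlgebra.lift k N (Polynomial.aeval (FreeAlgebra.ι k i₀) g) =
              Polynomial.aeval (N i₀) g := by
            rw [← Polynomial.aeval_algHom_apply, FreeAlgebra.lift_ι_apply]
          rw [hg']
          ext v
          rw [Module.End.mul_apply, LinearMap.zero_apply]
          apply hpow
          have := congrArg (fun F : Module.End k V => F v) hgN
          simpa [Module.End.mul_apply] using this
        have h2 := hchar _ hzero
        rw [map_mul, map_pow] at h2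
        have hg'' : FreeAlgebra.lift k (fun _ : ι => (0 : k))
            (Polynomial.aeval (FreeAlgebra.ι k i₀) g) = 1 := by
          rw [← Polynomial.aeval_algHom_apply, FreeAlgebra.lift_ι_apply,
            Polynomial.aeval_def, Polynomial.eval₂_at_zero, hg0]
          simp
        rw [hg'', mul_one] at h2
        by_cases ha : a = 0
        · rw [ha, pow_zero] at h2
          exact absurd h2 one_ne_zero
        · exact (pow_eq_zero_iff ha).mp h2
      obtain ⟨v, hv, hvN⟩ := ih (finrank k K) hKlt K rfl N' hcomm' hchar'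
      refine ⟨(v : V), fun h => hv (Subtype.ext h), fun i => ?_⟩
      have := congrArg (fun w : K => (w : V)) (hvN i)
      simpa [hN', LinearMap.restrict_apply] using this

/-- **Eigenvector for a character.** A commuting family of endomorphisms of a finite-dimensional
vector space has a common eigenvector with eigenvalues `a i` provided every noncommutative
polynomial relation among the `T i` is satisfied by the scalars `a i`. -/
theorem exists_common_eigenvector {V : Type u} [AddCommGroup V] [Module k V]
    [FiniteDimensional k V] (T : ι → Module.End k V) (hcomm : ∀ i j, T i * T j = T j * T i)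
    (a : ι → k)
    (hchar : ∀ x : FreeAlgebra k ι, FreeAlgebra.lift k T x = 0 → FreeAlgebra.lift k a x = 0) :
    ∃ v : V, v ≠ 0 ∧ ∀ i, T i v = a i • v := by
  set N : ι → Module.End k V := fun i => T i - algebraMap k _ (a i) with hN
  have hcommN : ∀ i j, N i * N j = N j * N i := by
    intro i j
    simp only [hN, sub_mul, mul_sub, hcomm i j]
    rw [(Algebra.commutes (a i) (T j)), (Algebra.commutes (a j) (T i)),
      (Algebra.commutes (a i) (algebraMap k (Module.End k V) (a j)))]
    abel
  -- the shift `X_i ↦ X_i - a_i`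
  let θ : FreeAlgebra k ι →ₐ[k] FreeAlgebra k ι :=
    FreeAlgebra.lift k (fun i => FreeAlgebra.ι k i - algebraMap k _ (a i))
  have h1 : (FreeAlgebra.lift k T).comp θ = FreeAlgebra.lift k N := by
    apply FreeAlgebra.hom_ext
    funext i
    simp [θ, hN]
  have h2 : (FreeAlgebra.lift k a).comp θ = FreeAlgebra.lift k (fun _ : ι => (0 : k)) := by
    apply FreeAlgebra.hom_ext
    funext i
    simp [θ]
  have hcharN : ∀ x : FreeAlgebra k ι, FreeAlgebra.lift k N x = 0 →
      FreeAlgebra.lift k (fun _ : ι => (0 : k)) x = 0 := by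
    intro x hx
    rw [← h2, AlgHom.comp_apply]
    apply hchar
    rw [← AlgHom.comp_apply, h1]
    exact hx
  obtain ⟨v, hv, hvN⟩ := exists_common_kernel_aux (finrank k V) V rfl N hcommN hcharN
  refine ⟨v, hv, fun i => ?_⟩
  have := hvN i
  simp only [hN, LinearMap.sub_apply, Module.algebraMap_end_apply] at this
  exact sub_eq_zero.mp this

end field

section int

open Matrix

variable {s : ℕ} {ι : Type*}

theorem map_cast_mul (M N : Matrix (Fin s) (Fin s) ℤ) :
    (M * N).map (Int.cast : ℤ → ℂ) = M.map (Int.cast : ℤ → ℂ) * N.map (Int.cast : ℤ → ℂ) :=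
  Matrix.map_mul (f := Int.castRingHom ℂ)

theorem map_cast_smul_one (r : ℤ) :
    ((r • (1 : Matrix (Fin s) (Fin s) ℤ)).map (Int.cast : ℤ → ℂ)) =
      (r : ℂ) • (1 : Matrix (Fin s) (Fin s) ℂ) := by
  ext i j
  rw [Matrix.map_apply, Matrix.smul_apply, Matrix.smul_apply, Matrix.one_apply, Matrix.one_apply]
  split_ifs <;> simp

/-- An eigenvalue (on a nonzero complex vector) of an integer matrix is an algebraic integer. -/
theorem isIntegral_of_eigen (Y : Matrix (Fin s) (Fin s) ℤ) (z : Fin s → ℂ) (hz : z ≠ 0) (μ : ℂ)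
    (h : (Y.map (Int.cast : ℤ → ℂ)) *ᵥ z = μ • z) : IsIntegral ℤ μ := by
  have key : ∀ P : Polynomial ℤ,
      ((Polynomial.aeval Y P).map (Int.cast : ℤ → ℂ)) *ᵥ z = (Polynomial.aeval μ P) • z := by
    intro P
    induction P using Polynomial.induction_on' with
    | add P Q hP hQ =>
      rw [map_add, map_add, Matrix.map_add (Int.cast : ℤ → ℂ) (fun _ _ => Int.cast_add _ _),
        Matrix.add_mulVec, hP, hQ, add_smul]
    | monomial n a =>
      induction n with
      | zero =>
        rw [Polynomial.monomial_zero_left, Polynomial.aeval_C, Polynomial.aeval_C,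
          Algebra.algebraMap_eq_smul_one]
        rw [map_cast_smul_one, Matrix.smul_mulVec, Matrix.one_mulVec]
        simp
      | succ n ih =>
        have h1 : Polynomial.monomial (n + 1) a = Polynomial.monomial n a * Polynomial.X := by
          rw [Polynomial.monomial_mul_X]
        rw [h1, map_mul, map_mul, Polynomial.aeval_X, Polynomial.aeval_X,
          map_cast_mul, ← Matrix.mulVec_mulVec]
        rw [h, Matrix.mulVec_smul, ih, smul_smul, mul_comm]
  refine ⟨Y.charpoly, Matrix.charpoly_monic Y, ?_⟩
  have h2 := key Y.charpoly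
  rw [Matrix.aeval_self_charpoly] at h2
  have h3 : (Polynomial.aeval μ Y.charpoly) • z = 0 := by
    rw [← h2]
    simp
  rcases smul_eq_zero.mp h3 with h4 | h4
  · exact h4
  · exact absurd h4 hz

/-- Two ring homomorphisms out of `FreeAlgebra ℤ ι` agreeing on the generators are equal. -/
theorem ringHom_ext_int {S : Type*} [Ring S] (f g : FreeAlgebra ℤ ι →+* S)
    (h : ∀ i, f (FreeAlgebra.ι ℤ i) = g (FreeAlgebra.ι ℤ i)) : f = g := by
  refine RingHom.ext fun x => ?_
  induction x using FreeAlgebra.induction with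
  | grade0 r => rw [eq_intCast (algebraMap ℤ (FreeAlgebra ℤ ι)) r, map_intCast, map_intCast]
  | grade1 i => exact h i
  | mul x y hx hy => rw [map_mul, map_mul, hx, hy]
  | add x y hx hy => rw [map_add, map_add, hx, hy]

/-- The eigenvector property propagates to all noncommutative polynomials. -/
theorem lift_eigen (A : ι → Matrix (Fin s) (Fin s) ℤ) (z : Fin s → ℂ)
    (lam : ι → integralClosure ℤ ℂ)
    (hA : ∀ i, (A i).map (Int.cast : ℤ → ℂ) *ᵥ z = (lam i : ℂ) • z)
    (x : FreeAlgebra ℤ ι) :
    ((FreeAlgebra.lift ℤ A x).map (Int.cast : ℤ → ℂ)) *ᵥ z =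
      ((FreeAlgebra.lift ℤ lam x : integralClosure ℤ ℂ) : ℂ) • z := by
  induction x using FreeAlgebra.induction with
  | grade0 r =>
    rw [AlgHom.commutes, AlgHom.commutes, Algebra.algebraMap_eq_smul_one]
    rw [map_cast_smul_one, Matrix.smul_mulVec, Matrix.one_mulVec]
    simp
  | grade1 i =>
    rw [FreeAlgebra.lift_ι_apply, FreeAlgebra.lift_ι_apply]
    exact hA i
  | mul x y hx hy =>
    rw [map_mul, map_mul, map_cast_mul, ← Matrix.mulVec_mulVec]
    rw [hy, Matrix.mulVec_smul, hx, smul_smul, mul_comm]
    simp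
  | add x y hx hy =>
    rw [map_add, map_add, Matrix.map_add (Int.cast : ℤ → ℂ) (fun _ _ => Int.cast_add _ _),
      Matrix.add_mulVec, hx, hy, ← add_smul]
    simp

/-- Reduction of noncommutative integer polynomials modulo `p`. -/
noncomputable def red (p : ℕ) (ι : Type*) : FreeAlgebra ℤ ι →+* FreeAlgebra (ZMod p) ι :=
  (FreeAlgebra.lift ℤ (fun i => FreeAlgebra.ι (ZMod p) i)).toRingHom

theorem red_ι (p : ℕ) (i : ι) : red p ι (FreeAlgebra.ι ℤ i) = FreeAlgebra.ι (ZMod p) i := by
  simp [red]

theorem red_surjective (p : ℕ) : Function.Surjective (red p ι) := by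
  intro x
  induction x using FreeAlgebra.induction with
  | grade0 r =>
    obtain ⟨n, rfl⟩ := ZMod.intCast_surjective r
    refine ⟨(n : FreeAlgebra ℤ ι), ?_⟩
    rw [map_intCast, map_intCast]
  | grade1 i => exact ⟨FreeAlgebra.ι ℤ i, red_ι p i⟩
  | mul x y hx hy =>
    obtain ⟨x', rfl⟩ := hx
    obtain ⟨y', rfl⟩ := hy
    exact ⟨x' * y', map_mul _ _ _⟩
  | add x y hx hy =>
    obtain ⟨x', rfl⟩ := hx
    obtain ⟨y', rfl⟩ := hy
    exact ⟨x' + y', map_add _ _ _⟩

/-- **Mod `p` eigenvector from a complex eigenvector.** Commuting integer matrices `A i` with a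
common complex eigenvector `z`, eigenvalues `lam i ∈ ℤ̄` congruent to integers `a i` modulo a
maximal ideal `𝔪 ∋ p`, have a common eigenvector modulo `p` with eigenvalues `a i`. -/
theorem exists_eigen_mod (p : ℕ) [Fact p.Prime] (A : ι → Matrix (Fin s) (Fin s) ℤ)
    (hcomm : ∀ i j, A i * A j = A j * A i) (z : Fin s → ℂ) (hz : z ≠ 0)
    (lam : ι → integralClosure ℤ ℂ)
    (hA : ∀ i, (A i).map (Int.cast : ℤ → ℂ) *ᵥ z = (lam i : ℂ) • z)
    (𝔪 : Ideal (integralClosure ℤ ℂ)) (hmax : 𝔪.IsMaximal)
    (hpm : (p : integralClosure ℤ ℂ) ∈ 𝔪) (a : ι → ℤ)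
    (ha : ∀ i, lam i - (a i : integralClosure ℤ ℂ) ∈ 𝔪) :
    ∃ v : Fin s → ℤ, (¬ ∃ v' : Fin s → ℤ, v = (p : ℤ) • v') ∧
      ∀ i, ∃ w : Fin s → ℤ, A i *ᵥ v - a i • v = (p : ℤ) • w := by
  classical
  have hp : p.Prime := Fact.out
  set T : ι → Module.End (ZMod p) (Fin s → ZMod p) :=
    fun i => Matrix.toLinAlgEquiv' ((A i).map (Int.castRingHom (ZMod p))) with hT
  set ā : ι → ZMod p := fun i => (a i : ZMod p) with hā
  have hcommT : ∀ i j, T i * T j = T j * T i := by
    intro i j
    simp only [hT]
    rw [← map_mul, ← map_mul, ← Matrix.map_mul, ← Matrix.map_mul, hcomm i j]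
  -- (★) divisibility by `p` of the matrix forces the eigenvalue into `𝔪`
  have hstar : ∀ x : FreeAlgebra ℤ ι,
      (∃ Y : Matrix (Fin s) (Fin s) ℤ, FreeAlgebra.lift ℤ A x = (p : ℤ) • Y) →
      FreeAlgebra.lift ℤ lam x ∈ 𝔪 := by
    rintro x ⟨Y, hY⟩
    have h1 := lift_eigen A z lam hA x
    rw [hY] at h1
    have hp0 : (p : ℂ) ≠ 0 := Nat.cast_ne_zero.mpr hp.ne_zero
    have h2 : (Y.map (Int.cast : ℤ → ℂ)) *ᵥ z =
        (((FreeAlgebra.lift ℤ lam x : integralClosure ℤ ℂ) : ℂ) / p) • z := by
      have h3 : (((p : ℤ) • Y).map (Int.cast : ℤ → ℂ)) = (p : ℂ) • Y.map (Int.cast : ℤ → ℂ) := by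
        ext i j
        rw [Matrix.map_apply, Matrix.smul_apply, Matrix.smul_apply, Matrix.map_apply,
          smul_eq_mul, smul_eq_mul]
        push_cast
        rfl
      rw [h3, Matrix.smul_mulVec] at h1
      rw [div_eq_inv_mul, ← smul_smul, ← h1, smul_smul, inv_mul_cancel₀ hp0, one_smul]
    have h4 : IsIntegral ℤ (((FreeAlgebra.lift ℤ lam x : integralClosure ℤ ℂ) : ℂ) / p) :=
      isIntegral_of_eigen Y z hz _ h2
    have h5 : FreeAlgebra.lift ℤ lam x =
        (p : integralClosure ℤ ℂ) * (⟨_, h4⟩ : integralClosure ℤ ℂ) := by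
      apply Subtype.ext
      push_cast
      field_simp
    rw [h5]
    exact 𝔪.mul_mem_right _ hpm
  -- the residue field
  have : Nontrivial (integralClosure ℤ ℂ ⧸ 𝔪) := Ideal.Quotient.nontrivial_iff.mpr hmax.ne_top
  have : CharP (integralClosure ℤ ℂ ⧸ 𝔪) p := by
    refine (CharP.charP_iff_prime_eq_zero hp).mpr ?_
    rw [← map_natCast (Ideal.Quotient.mk 𝔪)]
    exact Ideal.Quotient.eq_zero_iff_mem.mpr hpm
  -- `ā` is a character of the family `T`
  have hchar : ∀ x : FreeAlgebra (ZMod p) ι, FreeAlgebra.lift (ZMod p) T x = 0 →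
      FreeAlgebra.lift (ZMod p) ā x = 0 := by
    intro x hx
    obtain ⟨x', rfl⟩ := red_surjective p x
    have hΦ : ((FreeAlgebra.lift (ZMod p) T).toRingHom).comp (red p ι) =
        ((Matrix.toLinAlgEquiv' :
            Matrix (Fin s) (Fin s) (ZMod p) ≃ₐ[ZMod p] _) : _ →+* _).comp
          (((Int.castRingHom (ZMod p)).mapMatrix).comp (FreeAlgebra.lift ℤ A).toRingHom) := by
      apply ringHom_ext_int
      intro i
      simp [red_ι, hT]
    have h1 : FreeAlgebra.lift (ZMod p) T (red p ι x') =
        Matrix.toLinAlgEquiv' ((FreeAlgebra.lift ℤ A x').map (Int.castRingHom (ZMod p))) :=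
      congrArg (fun F : FreeAlgebra ℤ ι →+* Module.End (ZMod p) (Fin s → ZMod p) => F x') hΦ
    rw [hx] at h1
    have h2 : (FreeAlgebra.lift ℤ A x').map (Int.castRingHom (ZMod p)) = 0 := by
      apply (Matrix.toLinAlgEquiv' :
        Matrix (Fin s) (Fin s) (ZMod p) ≃ₐ[ZMod p] _).injective
      rw [← h1, map_zero]
    have h3 : ∃ Y : Matrix (Fin s) (Fin s) ℤ, FreeAlgebra.lift ℤ A x' = (p : ℤ) • Y := by
      refine ⟨Matrix.of fun i j => (FreeAlgebra.lift ℤ A x') i j / p, ?_⟩
      ext i j
      have h := congrFun (congrFun h2 i) j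
      rw [Matrix.map_apply, Matrix.zero_apply, eq_intCast,
        ZMod.intCast_zmod_eq_zero_iff_dvd] at h
      rw [Matrix.smul_apply, Matrix.of_apply, smul_eq_mul, Int.mul_ediv_cancel' h]
    have h4 := hstar x' h3
    have hΨ : (Ideal.Quotient.mk 𝔪).comp (FreeAlgebra.lift ℤ lam).toRingHom =
        (ZMod.castHom (dvd_refl p) (integralClosure ℤ ℂ ⧸ 𝔪)).comp
          (((FreeAlgebra.lift (ZMod p) ā).toRingHom).comp (red p ι)) := by
      apply ringHom_ext_int
      intro i
      have h6 : Ideal.Quotient.mk 𝔪 (lam i) =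
          Ideal.Quotient.mk 𝔪 ((a i : integralClosure ℤ ℂ)) :=
        Ideal.Quotient.eq.mpr (ha i)
      simp [red_ι, hā, h6]
    have h5 : Ideal.Quotient.mk 𝔪 (FreeAlgebra.lift ℤ lam x') =
        ZMod.castHom (dvd_refl p) (integralClosure ℤ ℂ ⧸ 𝔪)
          (FreeAlgebra.lift (ZMod p) ā (red p ι x')) :=
      congrArg (fun F : FreeAlgebra ℤ ι →+* (integralClosure ℤ ℂ ⧸ 𝔪) => F x') hΨ
    rw [Ideal.Quotient.eq_zero_iff_mem.mpr h4] at h5
    exact (RingHom.injective (ZMod.castHom (dvd_refl p) (integralClosure ℤ ℂ ⧸ 𝔪)))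
      (h5.symm.trans (map_zero _).symm)
  obtain ⟨vbar, hvbar, hv⟩ := exists_common_eigenvector T hcommT ā hchar
  refine ⟨fun j => ((vbar j).val : ℤ), ?_, fun i => ?_⟩
  · rintro ⟨v', hv'⟩
    apply hvbar
    funext j
    have h := congrArg (fun u : Fin s → ℤ => ((u j : ℤ) : ZMod p)) hv'
    simp only [Pi.smul_apply, smul_eq_mul, Int.cast_mul, Int.cast_natCast,
      ZMod.natCast_self, zero_mul, ZMod.natCast_zmod_val] at h
    exact h
  · have hcast : ∀ j, (((A i *ᵥ fun j => ((vbar j).val : ℤ)) - a i • fun j => ((vbar j).val : ℤ)) j : ZMod p) = 0 := by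
      intro j
      have h1 := RingHom.map_mulVec (Int.castRingHom (ZMod p)) (A i)
        (fun j => ((vbar j).val : ℤ)) j
      have h2 : (⇑(Int.castRingHom (ZMod p)) ∘ fun j => ((vbar j).val : ℤ)) = vbar := by
        funext j
        simp
      rw [h2] at h1
      have h3 := congrFun (hv i) j
      rw [hT] at h3
      simp only [Matrix.toLinAlgEquiv'_apply] at h3
      rw [← h1] at h3
      simp only [Pi.sub_apply, Pi.smul_apply, smul_eq_mul, Int.cast_sub, Int.cast_mul,
        Int.cast_natCast, ZMod.natCast_zmod_val]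
      rw [eq_intCast] at h3
      rw [h3, hā]
      simp
    refine ⟨fun j => ((A i *ᵥ fun j => ((vbar j).val : ℤ)) - a i • fun j => ((vbar j).val : ℤ)) j / p, ?_⟩
    funext j
    have h := (ZMod.intCast_zmod_eq_zero_iff_dvd _ p).mp (hcast j)
    rw [Pi.smul_apply, smul_eq_mul, Int.mul_ediv_cancel' h]

end int

end Fermat.Agent.P7.EigStartLA
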