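import Mathlib
import Fermat.Agent.P5.Per.Action
import Fermat.Agent.P5.G9.EigenHom
import Fermat.Agent.P7.EigStartLA

/-!
# P7 [EIG-START] (helper10): the mod `p` eigenvector of an eigenform in the parabolic lattice

The entry point of Ribet's argument (`P7/RibetLA.exists_new_prod`): from a normalised eigenform
`f` of level `N` whose eigenvalues are congruent modulo a maximal ideal `𝔪 ∋ p` of
`integralClosure ℤ ℂ` to integers `c ℓ` (on a set `G` of primes) and with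
`a_q(f)² ≡ (q+1)² mod 𝔪`, we produce `v ∈ L = Per.Lat N`, `v ∉ p L`, with
`T_ℓ v ≡ c ℓ • v mod p L` (`ℓ ∈ G`) and `T_q v ≡ ε (q+1) v mod p L`, `ε = ±1`.

* `exists_eigen_lat` : the general form, for an arbitrary family of primes `ℓ i ∤ N`.
* `exists_eigen_mod_p` : the shape consumed by `RibetLA.exists_new_prod`.
-/

set_option autoImplicit false

open CongruenceSubgroup ModularCurve ModularCurve.Period ModularFormClass Matrix

namespace Fermat.Agent.P7.EigStart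

open Fermat.Agent.P5.Per

/-- Coordinates in a basis of `Lat N` with dual elements are evaluations. -/
theorem repr_eq_eval {N : ℕ} {s : ℕ} (b : Module.Basis (Fin s) ℤ (Lat N)) (g : Fin s → Gamma0 N)
    (hbg : ∀ i j, (b i : Additive (Gamma0 N) →+ ℤ) (Additive.ofMul (g j)) = if i = j then 1 else 0)
    (ψ : Lat N) (r : Fin s) :
    b.repr ψ r = (ψ : Additive (Gamma0 N) →+ ℤ) (Additive.ofMul (g r)) := by
  conv_rhs => rw [← b.sum_repr ψ]
  rw [Submodule.coe_sum, AddMonoidHom.finsetSum_apply]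
  simp only [Submodule.coe_smul, AddMonoidHom.smul_apply, hbg, smul_eq_mul, mul_ite, mul_one,
    mul_zero, Finset.sum_ite_eq', Finset.mem_univ, if_true]

/-- Every complex parabolic homomorphism is the combination of the complexified basis with its
values on the dual elements as coefficients. -/
theorem eq_sum_toC {N : ℕ} [NeZero N] {s : ℕ} (b : Module.Basis (Fin s) ℤ (Lat N))
    (g : Fin s → Gamma0 N)
    (hbg : ∀ i j, (b i : Additive (Gamma0 N) →+ ℤ) (Additive.ofMul (g j)) = if i = j then 1 else 0)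
    (φ : Additive (Gamma0 N) →+ ℂ) (hφ : φ ∈ parabolicHoms ℂ (Gamma0 N) ℂ) :
    φ = ∑ j, φ (Additive.ofMul (g j)) • toC (b j : Additive (Gamma0 N) →+ ℤ) := by
  let Λ : (Additive (Gamma0 N) →+ ℂ) →ₗ[ℂ] (Additive (Gamma0 N) →+ ℂ) :=
    { toFun := fun φ => ∑ j, φ (Additive.ofMul (g j)) • toC (b j : Additive (Gamma0 N) →+ ℤ)
      map_add' := fun φ φ' => by
        simp only [AddMonoidHom.add_apply, add_smul, Finset.sum_add_distrib]
      map_smul' := fun c φ => by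
        simp only [AddMonoidHom.smul_apply, RingHom.id_apply, Finset.smul_sum, smul_smul,
          smul_eq_mul] }
  have hΛ : Set.EqOn Λ
      (LinearMap.id : (Additive (Gamma0 N) →+ ℂ) →ₗ[ℂ] (Additive (Gamma0 N) →+ ℂ))
      (Submodule.span ℂ (toC '' {ψ | ψ ∈ parabolicHoms ℤ (Gamma0 N) ℤ})) := by
    refine LinearMap.eqOn_span (f := Λ) (g := LinearMap.id) ?_
    rintro _ ⟨ψ, hψ, rfl⟩
    show ∑ j, (toC ψ) (Additive.ofMul (g j)) • toC (b j : Additive (Gamma0 N) →+ ℤ) = toC ψ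
    refine AddMonoidHom.ext fun x => ?_
    have h1 : (ψ : Additive (Gamma0 N) →+ ℤ) x =
        ∑ j, ψ (Additive.ofMul (g j)) * (b j : Additive (Gamma0 N) →+ ℤ) x := by
      have h2 := b.sum_repr (⟨ψ, hψ⟩ : Lat N)
      have h3 := congrArg (fun ψ' : Lat N => (ψ' : Additive (Gamma0 N) →+ ℤ) x) h2
      simp only [Submodule.coe_sum, AddMonoidHom.finsetSum_apply, Submodule.coe_smul,
        AddMonoidHom.smul_apply, smul_eq_mul] at h3
      rw [← h3]
      refine Finset.sum_congr rfl fun j _ => ?_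
      rw [repr_eq_eval b g hbg]
    rw [AddMonoidHom.finsetSum_apply, toC_apply, h1]
    push_cast
    refine Finset.sum_congr rfl fun j _ => ?_
    simp only [Pi.smul_apply, toC_apply, smul_eq_mul]
  rw [parabolicHoms_eq_span] at hφ
  exact (hΛ hφ).symm

/-- `tcoh` over `ℂ` is homogeneous. -/
theorem tcoh_smul (N : ℕ) {ℓ : ℕ} (hℓ : ℓ.Prime) (hℓN : ¬ ℓ ∣ N) (c : ℂ)
    (φ : Additive (Gamma0 N) →+ ℂ) :
    tcoh N hℓ hℓN ℂ (c • φ) = c • tcoh N hℓ hℓN ℂ φ := by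
  have h1 : ∀ φ' : Additive (Gamma0 N) →+ ℂ, c • φ' = (AddMonoidHom.mulLeft c).comp φ' := by
    intro φ'
    refine AddMonoidHom.ext fun x => ?_
    simp
  rw [h1, h1, tcoh_comp]

/-- `tcoh` commutes with complexification. -/
theorem tcoh_toC (N : ℕ) {ℓ : ℕ} (hℓ : ℓ.Prime) (hℓN : ¬ ℓ ∣ N)
    (ψ : Additive (Gamma0 N) →+ ℤ) :
    tcoh N hℓ hℓN ℂ (toC ψ) = toC (tcoh N hℓ hℓN ℤ ψ) := by
  show tcoh N hℓ hℓN ℂ ((Int.castAddHom ℂ).comp ψ) = (Int.castAddHom ℂ).comp _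
  rw [tcoh_comp]

/-- **General form.** A complex parabolic class `P ≠ 0` which is a common eigenvector of the
`T_{ℓ i}` with eigenvalues `lam i ∈ ℤ̄` congruent to integers `a i` modulo `𝔪 ∋ p` gives a
primitive-mod-`p` lattice vector which is a common eigenvector modulo `p` with eigenvalues `a i`. -/
theorem exists_eigen_lat {p N : ℕ} [NeZero N] (hp : p.Prime) {ι : Type*} (ℓ : ι → ℕ)
    (hℓ : ∀ i, (ℓ i).Prime) (hℓN : ∀ i, ¬ ℓ i ∣ N)
    (P : Additive (Gamma0 N) →+ ℂ) (hP : P ∈ parabolicHoms ℂ (Gamma0 N) ℂ) (hP0 : P ≠ 0)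
    (lam : ι → integralClosure ℤ ℂ)
    (hlam : ∀ i, tcoh N (hℓ i) (hℓN i) ℂ P = (lam i : ℂ) • P)
    (𝔪 : Ideal (integralClosure ℤ ℂ)) (hmax : 𝔪.IsMaximal)
    (hpm : (p : integralClosure ℤ ℂ) ∈ 𝔪) (a : ι → ℤ)
    (ha : ∀ i, lam i - (a i : integralClosure ℤ ℂ) ∈ 𝔪) :
    ∃ v : Lat N, (¬ ∃ v' : Lat N, v = (p : ℤ) • v') ∧
      ∀ i, ∃ w : Lat N, tcohL N (hℓ i) (hℓN i) v - a i • v = (p : ℤ) • w := by
  classical
  have : Fact p.Prime := ⟨hp⟩
  obtain ⟨s, b, g, hbg⟩ := exists_lat_basis N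
  set A : ι → Matrix (Fin s) (Fin s) ℤ :=
    fun i => LinearMap.toMatrix b b (tcohL N (hℓ i) (hℓN i)) with hAdef
  set z : Fin s → ℂ := fun j => P (Additive.ofMul (g j)) with hz
  have hPz : P = ∑ j, z j • toC (b j : Additive (Gamma0 N) →+ ℤ) := eq_sum_toC b g hbg P hP
  have hcomm : ∀ i j, A i * A j = A j * A i := by
    intro i j
    simp only [hAdef]
    rw [← LinearMap.toMatrix_mul, ← LinearMap.toMatrix_mul]
    congr 1
    ext ψ : 2
    simp only [Module.End.mul_apply, coe_tcohL]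
    exact tcoh_comm_int N (hℓ i) (hℓN i) (hℓ j) (hℓN j) ψ.2
  have hz0 : z ≠ 0 := by
    intro h
    apply hP0
    rw [hPz]
    simp [h]
  have hA : ∀ i, (A i).map (Int.cast : ℤ → ℂ) *ᵥ z = (lam i : ℂ) • z := by
    intro i
    funext r
    have h1 := congrArg (fun φ : Additive (Gamma0 N) →+ ℂ => φ (Additive.ofMul (g r))) (hlam i)
    simp only [AddMonoidHom.smul_apply] at h1
    have h2 : tcoh N (hℓ i) (hℓN i) ℂ P =
        ∑ j, z j • toC (tcoh N (hℓ i) (hℓN i) ℤ (b j : Additive (Gamma0 N) →+ ℤ)) := by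
      conv_lhs => rw [hPz]
      rw [map_sum]
      refine Finset.sum_congr rfl fun j _ => ?_
      rw [tcoh_smul, tcoh_toC]
    rw [h2, AddMonoidHom.finsetSum_apply] at h1
    have h1' : ∑ j, (z j • toC (tcoh N (hℓ i) (hℓN i) ℤ (b j : Additive (Gamma0 N) →+ ℤ)))
        (Additive.ofMul (g r)) = (lam i : ℂ) * z r := h1
    rw [Pi.smul_apply, smul_eq_mul, ← h1', Matrix.mulVec, dotProduct]
    refine Finset.sum_congr rfl fun j _ => ?_
    have hAij : A i r j =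
        (tcoh N (hℓ i) (hℓN i) ℤ (b j : Additive (Gamma0 N) →+ ℤ)) (Additive.ofMul (g r)) := by
      simp only [hAdef]
      rw [LinearMap.toMatrix_apply, repr_eq_eval b g hbg, coe_tcohL]
    rw [AddMonoidHom.smul_apply, toC_apply, smul_eq_mul, Matrix.map_apply, hAij, mul_comm]
  obtain ⟨v₀, hv₀, hv⟩ :=
    Fermat.Agent.P7.EigStartLA.exists_eigen_mod p A hcomm z hz0 lam hA 𝔪 hmax hpm a ha
  refine ⟨b.equivFun.symm v₀, ?_, fun i => ?_⟩
  · rintro ⟨v', hv'⟩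
    apply hv₀
    refine ⟨b.equivFun v', ?_⟩
    have := congrArg b.equivFun hv'
    rw [LinearEquiv.apply_symm_apply, map_smul] at this
    exact this
  · obtain ⟨w₀, hw₀⟩ := hv i
    refine ⟨b.equivFun.symm w₀, ?_⟩
    apply b.equivFun.injective
    rw [map_sub, map_smul, map_smul, LinearEquiv.apply_symm_apply, LinearEquiv.apply_symm_apply,
      ← hw₀]
    congr 1
    have h3 := LinearMap.toMatrix_mulVec_repr b b (tcohL N (hℓ i) (hℓN i)) (b.equivFun.symm v₀)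
    have h4 : (b.repr (b.equivFun.symm v₀) : Fin s → ℤ) = v₀ := by
      have := LinearEquiv.apply_symm_apply b.equivFun v₀
      exact this
    rw [h4] at h3
    funext r
    rw [Module.Basis.equivFun_apply]
    exact (congrFun h3 r).symm

/-- The period class of a normalised eigenform is a `T_ℓ`-eigenvector with eigenvalue `a_ℓ`. -/
theorem tcoh_periodMap_eq {N : ℕ} [NeZero N] {f : CuspForm (Gamma0 N) 2}
    (hf : f.IsNormalizedEigenform) {ℓ : ℕ} (hℓ : ℓ.Prime) (hℓN : ¬ ℓ ∣ N) :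
    tcoh N hℓ hℓN ℂ (periodMap N f) = qCoeff f ℓ • periodMap N f := by
  rw [← periodMap_heckeTLin, Fermat.Agent.P5.G9.EigenHom.heckeTLin_eq hf hℓ hℓN]
  have := (Fermat.Agent.S21.periodMapLin N).map_smul (qCoeff f ℓ) f
  rw [Fermat.Agent.S21.periodMapLin_apply, Fermat.Agent.S21.periodMapLin_apply] at this
  exact this

/-- **[EIG-START]** The mod `p` eigenvector of `f` in the parabolic lattice, in the shape consumed
by `RibetLA.exists_new_prod` (hypotheses spelled as in `Plan.LevelRaiseStmt`). -/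
theorem exists_eigen_mod_p {p N q : ℕ} [NeZero N] (hp : p.Prime) (hq : q.Prime) (hqN : ¬ q ∣ N)
    (f : CuspForm (Gamma0 N) 2) (𝔪 : Ideal (integralClosure ℤ ℂ))
    (hf : f.IsNormalizedEigenform) (hmax : 𝔪.IsMaximal) (hpm : (p : integralClosure ℤ ℂ) ∈ 𝔪)
    (G : Set ℕ) (c : ℕ → ℤ)
    (hcong : ∀ ℓ : ℕ, ℓ.Prime → ℓ ∈ G → ¬ ℓ ∣ N → ℓ ≠ p →
      ∃ a : integralClosure ℤ ℂ, (a : ℂ) = ModularFormClass.qCoeff f ℓ ∧
        a - ((c ℓ : ℤ) : integralClosure ℤ ℂ) ∈ 𝔪)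
    (hLR : ∃ a : integralClosure ℤ ℂ, (a : ℂ) = ModularFormClass.qCoeff f q ∧
      a ^ 2 - ((q : integralClosure ℤ ℂ) + 1) ^ 2 ∈ 𝔪) :
    ∃ (v : Lat N) (ε : ℤ), ε * ε = 1 ∧ (¬ ∃ v' : Lat N, v = (p : ℤ) • v') ∧
      (∀ (ℓ : ℕ) (hℓ : ℓ.Prime) (hℓN : ¬ ℓ ∣ N), ℓ ∈ G → ℓ ≠ p →
        ∃ w : Lat N, tcohL N hℓ hℓN v - c ℓ • v = (p : ℤ) • w) ∧
      ∃ w : Lat N, tcohL N hq hqN v - (ε * ((q : ℤ) + 1)) • v = (p : ℤ) • w := by
  classical
  obtain ⟨aq, haq, haq2⟩ := hLR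
  have hprime : 𝔪.IsPrime := hmax.isPrime
  have hfac : (aq - ((q : integralClosure ℤ ℂ) + 1)) * (aq + ((q : integralClosure ℤ ℂ) + 1)) ∈ 𝔪 := by
    have : (aq - ((q : integralClosure ℤ ℂ) + 1)) * (aq + ((q : integralClosure ℤ ℂ) + 1)) =
        aq ^ 2 - ((q : integralClosure ℤ ℂ) + 1) ^ 2 := by ring
    rw [this]
    exact haq2
  obtain ⟨ε, hε, hεm⟩ : ∃ ε : ℤ, ε * ε = 1 ∧
      aq - (((ε * ((q : ℤ) + 1) : ℤ)) : integralClosure ℤ ℂ) ∈ 𝔪 := by
    rcases hprime.mem_or_mem hfac with h | h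
    · refine ⟨1, by norm_num, ?_⟩
      have : (((1 * ((q : ℤ) + 1) : ℤ)) : integralClosure ℤ ℂ) = (q : integralClosure ℤ ℂ) + 1 := by
        push_cast; ring
      rw [this]
      exact h
    · refine ⟨-1, by norm_num, ?_⟩
      have : aq - (((-1 * ((q : ℤ) + 1) : ℤ)) : integralClosure ℤ ℂ) =
          aq + ((q : integralClosure ℤ ℂ) + 1) := by
        push_cast; ring
      rw [this]
      exact h
  let ι : Type := Option {ℓ : ℕ // ℓ.Prime ∧ ¬ ℓ ∣ N ∧ ℓ ∈ G ∧ ℓ ≠ p}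
  let ℓf : ι → ℕ := fun i => i.elim q (fun x => x.1)
  have hℓ : ∀ i, (ℓf i).Prime := by
    rintro (_ | x)
    · exact hq
    · exact x.2.1
  have hℓN : ∀ i, ¬ ℓf i ∣ N := by
    rintro (_ | x)
    · exact hqN
    · exact x.2.2.1
  let lam : ι → integralClosure ℤ ℂ := fun i =>
    match i with
    | none => aq
    | some x => Classical.choose (hcong x.1 x.2.1 x.2.2.2.1 x.2.2.1 x.2.2.2.2)
  let a : ι → ℤ := fun i =>
    match i with
    | none => ε * ((q : ℤ) + 1)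
    | some x => c x.1
  have hP0 : periodMap N f ≠ 0 := by
    intro h
    apply hf.ne_zero
    apply periodMap_injective N
    rw [h]
    have := (Fermat.Agent.S21.periodMapLin N).map_zero
    rw [Fermat.Agent.S21.periodMapLin_apply] at this
    exact this.symm
  have hlam : ∀ i, tcoh N (hℓ i) (hℓN i) ℂ (periodMap N f) = (lam i : ℂ) • periodMap N f := by
    rintro (_ | x)
    · rw [tcoh_periodMap_eq hf]
      show qCoeff f q • periodMap N f = (aq : ℂ) • periodMap N f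
      rw [haq]
    · rw [tcoh_periodMap_eq hf]
      show qCoeff f x.1 • periodMap N f =
        ((Classical.choose (hcong x.1 x.2.1 x.2.2.2.1 x.2.2.1 x.2.2.2.2) : integralClosure ℤ ℂ) : ℂ) •
          periodMap N f
      rw [(Classical.choose_spec (hcong x.1 x.2.1 x.2.2.2.1 x.2.2.1 x.2.2.2.2)).1]
  have ha : ∀ i, lam i - ((a i : ℤ) : integralClosure ℤ ℂ) ∈ 𝔪 := by
    rintro (_ | x)
    · exact hεm
    · exact (Classical.choose_spec (hcong x.1 x.2.1 x.2.2.2.1 x.2.2.1 x.2.2.2.2)).2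
  obtain ⟨v, hv0, hv⟩ := exists_eigen_lat hp ℓf hℓ hℓN (periodMap N f) (periodMap_mem N f) hP0
    lam hlam 𝔪 hmax hpm a ha
  exact ⟨v, ε, hε, hv0, fun ℓ hℓ' hℓN' hG hℓp => hv (some ⟨ℓ, hℓ', hℓN', hG, hℓp⟩), hv none⟩

end Fermat.Agent.P7.EigStart
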