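import Mathlib

/-!
# P7 / [ELL3] — elements of finite order of `SL(2, ℤ)` (owner: helper31)

Elementary classification, Mathlib only.  `R := S * T = (0 -1; 1 1)` (`R ^ 3 = -1`).

* `exists_conj_of_trace` : every element of trace `±1` is conjugate to a power of `S * T`
  (`exists_conj_of_trace'` : with exponent in `{1, -1, 2, -2}`; `exists_conj_pm` : to
  `±(S * T)^{±1}`);
* `exists_conj_of_trace_zero` : every element of trace `0` is conjugate to `S^{±1}`, and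
  `sq_eq_neg_one_of_trace_zero`;
* `finOrder_trace_cases`, `finOrder_cases`, `finOrder_conj` : an element of finite order is `±1`,
  or has trace `0` (conjugate to `S^{±1}`), or has trace `±1` (conjugate to a power of `S * T`).

Method: for `γ` of trace `t`, the binary quadratic form `Q(v) = det(v, γ v)` has discriminant
`t² - 4 ∈ {-3, -4}`; such a form represents `±1` (descent), and a vector `v` with `Q(v) = ±1`
gives a basis `(v, ± γ v ...)` of `ℤ²` in which `γ` is an explicit power of `S * T` (resp. `S`).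
Finite order forces `|t| ≤ 2` by the Cayley–Hamilton recursion for `tr (γ ^ n)`.
-/

set_option autoImplicit false
set_option linter.unusedSimpArgs false

namespace Fermat.Agent.P7.EllConj

open MatrixGroups ModularGroup

/-- Entrywise extensionality for `SL(2, ℤ)`. -/
theorem sl_ext {g h : SL(2, ℤ)} (h00 : g.1 0 0 = h.1 0 0) (h01 : g.1 0 1 = h.1 0 1)
    (h10 : g.1 1 0 = h.1 1 0) (h11 : g.1 1 1 = h.1 1 1) : g = h := by
  apply Subtype.ext
  ext i j
  fin_cases i <;> fin_cases j <;> assumption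

theorem det_eq (γ : SL(2, ℤ)) : γ.1 0 0 * γ.1 1 1 - γ.1 0 1 * γ.1 1 0 = 1 := by
  have h := γ.2
  rw [Matrix.det_fin_two] at h
  exact h

theorem mul_apply00 (g h : SL(2, ℤ)) :
    (g * h).1 0 0 = g.1 0 0 * h.1 0 0 + g.1 0 1 * h.1 1 0 := by
  simp [Matrix.SpecialLinearGroup.coe_mul, Matrix.mul_apply, Fin.sum_univ_two]

theorem mul_apply01 (g h : SL(2, ℤ)) :
    (g * h).1 0 1 = g.1 0 0 * h.1 0 1 + g.1 0 1 * h.1 1 1 := by
  simp [Matrix.SpecialLinearGroup.coe_mul, Matrix.mul_apply, Fin.sum_univ_two]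

theorem mul_apply10 (g h : SL(2, ℤ)) :
    (g * h).1 1 0 = g.1 1 0 * h.1 0 0 + g.1 1 1 * h.1 1 0 := by
  simp [Matrix.SpecialLinearGroup.coe_mul, Matrix.mul_apply, Fin.sum_univ_two]

theorem mul_apply11 (g h : SL(2, ℤ)) :
    (g * h).1 1 1 = g.1 1 0 * h.1 0 1 + g.1 1 1 * h.1 1 1 := by
  simp [Matrix.SpecialLinearGroup.coe_mul, Matrix.mul_apply, Fin.sum_univ_two]

/-- Build an element of `SL(2, ℤ)` from its entries. -/
def mk (a b c d : ℤ) (h : a * d - b * c = 1) : SL(2, ℤ) :=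
  ⟨!![a, b; c, d], by rw [Matrix.det_fin_two_of]; exact h⟩

@[simp] theorem mk_00 (a b c d : ℤ) (h : a * d - b * c = 1) : (mk a b c d h).1 0 0 = a := rfl
@[simp] theorem mk_01 (a b c d : ℤ) (h : a * d - b * c = 1) : (mk a b c d h).1 0 1 = b := rfl
@[simp] theorem mk_10 (a b c d : ℤ) (h : a * d - b * c = 1) : (mk a b c d h).1 1 0 = c := rfl
@[simp] theorem mk_11 (a b c d : ℤ) (h : a * d - b * c = 1) : (mk a b c d h).1 1 1 = d := rfl

theorem R_eq : S * T = mk 0 (-1) 1 1 (by norm_num) := by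
  apply sl_ext
  · rw [mul_apply00]; simp [S, T]
  · rw [mul_apply01]; simp [S, T]
  · rw [mul_apply10]; simp [S, T]
  · rw [mul_apply11]; simp [S, T]

theorem R_sq : (S * T) ^ (2 : ℤ) = mk (-1) (-1) 1 0 (by norm_num) := by
  rw [zpow_ofNat, pow_two, R_eq]
  apply sl_ext <;> simp [mul_apply00, mul_apply01, mul_apply10, mul_apply11]

theorem R_inv : (S * T) ^ (-1 : ℤ) = mk 1 1 (-1) 0 (by norm_num) := by
  rw [_root_.zpow_neg_one, R_eq]
  apply inv_eq_of_mul_eq_one_right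
  apply sl_ext <;> simp [mul_apply00, mul_apply01, mul_apply10, mul_apply11]

theorem R_inv_sq : (S * T) ^ (-2 : ℤ) = mk 0 1 (-1) (-1) (by norm_num) := by
  rw [_root_.zpow_neg, R_sq]
  apply inv_eq_of_mul_eq_one_right
  apply sl_ext <;> simp [mul_apply00, mul_apply01, mul_apply10, mul_apply11]


/-- A binary quadratic form of discriminant `-D`, `0 < D ≤ 4`, represents `1` or `-1`. -/
theorem exists_repr_one_of_disc (D : ℤ) (hD : 0 < D) (hD4 : D ≤ 4) (n : ℕ) :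
    ∀ A B C : ℤ, A.natAbs ≤ n → B ^ 2 - 4 * A * C = -D →
    ∃ x y : ℤ, A * x ^ 2 + B * x * y + C * y ^ 2 = 1 ∨
      A * x ^ 2 + B * x * y + C * y ^ 2 = -1 := by
  induction n with
  | zero =>
    intro A B C hA h
    have hA0 : A = 0 := by simpa using hA
    subst hA0
    nlinarith [sq_nonneg B]
  | succ n ih =>
    intro A B C hA h
    have hA0 : A ≠ 0 := by
      rintro rfl
      nlinarith [sq_nonneg B]
    have hApos : 0 < |A| := abs_pos.mpr hA0
    set m : ℤ := 2 * |A| with hm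
    have hmpos : 0 < m := by positivity
    set B' : ℤ := (B + |A|) % m - |A| with hB'
    have h1 : -|A| ≤ B' := by
      have := Int.emod_nonneg (B + |A|) hmpos.ne'
      linarith
    have h2 : B' < |A| := by
      have := Int.emod_lt_of_pos (B + |A|) hmpos
      linarith
    have hdvd : 2 * A ∣ B' - B := by
      have h3 : m ∣ B' - B := by
        have := Int.emod_add_mul_ediv (B + |A|) m
        exact ⟨-((B + |A|) / m), by linarith⟩
      refine dvd_trans ?_ h3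
      rw [hm]
      exact mul_dvd_mul_left 2 (self_dvd_abs A)
    obtain ⟨k, hk⟩ := hdvd
    have hBk : B' = B + 2 * A * k := by linarith
    set C' : ℤ := A * k ^ 2 + B * k + C with hC'
    have hdisc : B' ^ 2 - 4 * A * C' = -D := by
      rw [hBk, hC']
      linear_combination h
    have hB'sq : B' ^ 2 ≤ A ^ 2 := by
      have h4 : |B'| ≤ |A| := abs_le.mpr ⟨h1, h2.le⟩
      calc B' ^ 2 = |B'| ^ 2 := (sq_abs _).symm
        _ ≤ |A| ^ 2 := pow_le_pow_left₀ (abs_nonneg _) h4 2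
        _ = A ^ 2 := sq_abs _
    by_cases hlt : C'.natAbs < A.natAbs
    · obtain ⟨x, y, hxy⟩ := ih C' B' A (by omega) (by linear_combination hdisc)
      refine ⟨y + k * x, x, ?_⟩
      have key : A * (y + k * x) ^ 2 + B * (y + k * x) * x + C * x ^ 2
          = C' * x ^ 2 + B' * x * y + A * y ^ 2 := by
        rw [hBk, hC']; ring
      rw [key]; exact hxy
    · have hle : A ^ 2 ≤ C' ^ 2 := by
        have h5 : A.natAbs ≤ C'.natAbs := not_lt.mp hlt
        exact Int.natAbs_le_iff_sq_le.mp h5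
      have hA1 : A ^ 2 ≤ 1 := by
        by_contra hc
        have hc := not_le.mp hc
        have h4 : 4 * A * C' = B' ^ 2 + D := by linarith
        have h6 : (4 * A * C') ^ 2 = 16 * (A ^ 2 * C' ^ 2) := by ring
        have h7 : A ^ 2 * A ^ 2 ≤ A ^ 2 * C' ^ 2 := mul_le_mul_of_nonneg_left hle (sq_nonneg A)
        have h8 : (B' ^ 2 + D) ^ 2 ≤ (A ^ 2 + 4) ^ 2 :=
          pow_le_pow_left₀ (by positivity) (by linarith) 2
        rw [h4] at h6
        nlinarith [sq_nonneg (A ^ 2 - 2)]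
      have hA' : A = 1 ∨ A = -1 := by
        have h3 : -1 ≤ A := by nlinarith
        have h4 : A ≤ 1 := by nlinarith
        interval_cases A
        · right; rfl
        · exact absurd rfl hA0
        · left; rfl
      refine ⟨1, 0, ?_⟩
      rcases hA' with hA' | hA' <;> simp [hA']

/-- A binary quadratic form of discriminant `-3` represents `1` or `-1`. -/
theorem exists_repr_one (n : ℕ) : ∀ A B C : ℤ, A.natAbs ≤ n → B ^ 2 - 4 * A * C = -3 →
    ∃ x y : ℤ, A * x ^ 2 + B * x * y + C * y ^ 2 = 1 ∨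
      A * x ^ 2 + B * x * y + C * y ^ 2 = -1 :=
  exists_repr_one_of_disc 3 (by norm_num) (by norm_num) n

section Conj

variable (γ : SL(2, ℤ)) (x y : ℤ)

theorem conj_one_pos (htr : γ.1 0 0 + γ.1 1 1 = 1)
    (hQ : γ.1 1 0 * x ^ 2 + (γ.1 1 1 - γ.1 0 0) * x * y + (-γ.1 0 1) * y ^ 2 = 1) :
    ∃ g : SL(2, ℤ), γ = g * (S * T) ^ (1 : ℤ) * g⁻¹ := by
  have hdet := det_eq γ
  refine ⟨mk x (γ.1 0 0 * x + γ.1 0 1 * y) y (γ.1 1 0 * x + γ.1 1 1 * y)
    (by linear_combination hQ), ?_⟩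
  rw [eq_mul_inv_iff_mul_eq, zpow_one, R_eq]
  apply sl_ext
  · rw [mul_apply00, mul_apply00]; simp only [mk_00, mk_01, mk_10, mk_11]; ring
  · rw [mul_apply01, mul_apply01]; simp only [mk_00, mk_01, mk_10, mk_11]
    linear_combination (x * γ.1 0 0 + y * γ.1 0 1) * htr - x * hdet
  · rw [mul_apply10, mul_apply10]; simp only [mk_00, mk_01, mk_10, mk_11]; ring
  · rw [mul_apply11, mul_apply11]; simp only [mk_00, mk_01, mk_10, mk_11]
    linear_combination (x * γ.1 1 0 + y * γ.1 1 1) * htr - y * hdet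

theorem conj_one_neg (htr : γ.1 0 0 + γ.1 1 1 = 1)
    (hQ : γ.1 1 0 * x ^ 2 + (γ.1 1 1 - γ.1 0 0) * x * y + (-γ.1 0 1) * y ^ 2 = -1) :
    ∃ g : SL(2, ℤ), γ = g * (S * T) ^ (-1 : ℤ) * g⁻¹ := by
  have hdet := det_eq γ
  refine ⟨mk x (x - (γ.1 0 0 * x + γ.1 0 1 * y)) y (y - (γ.1 1 0 * x + γ.1 1 1 * y))
    (by linear_combination -hQ), ?_⟩
  rw [eq_mul_inv_iff_mul_eq, R_inv]
  apply sl_ext
  · rw [mul_apply00, mul_apply00]; simp only [mk_00, mk_01, mk_10, mk_11]; ring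
  · rw [mul_apply01, mul_apply01]; simp only [mk_00, mk_01, mk_10, mk_11]
    linear_combination -(x * γ.1 0 0 + y * γ.1 0 1) * htr + x * hdet
  · rw [mul_apply10, mul_apply10]; simp only [mk_00, mk_01, mk_10, mk_11]; ring
  · rw [mul_apply11, mul_apply11]; simp only [mk_00, mk_01, mk_10, mk_11]
    linear_combination -(x * γ.1 1 0 + y * γ.1 1 1) * htr + y * hdet

theorem conj_neg_one_pos (htr : γ.1 0 0 + γ.1 1 1 = -1)
    (hQ : γ.1 1 0 * x ^ 2 + (γ.1 1 1 - γ.1 0 0) * x * y + (-γ.1 0 1) * y ^ 2 = 1) :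
    ∃ g : SL(2, ℤ), γ = g * (S * T) ^ (2 : ℤ) * g⁻¹ := by
  have hdet := det_eq γ
  refine ⟨mk x (γ.1 0 0 * x + γ.1 0 1 * y + x) y (γ.1 1 0 * x + γ.1 1 1 * y + y)
    (by linear_combination hQ), ?_⟩
  rw [eq_mul_inv_iff_mul_eq, R_sq]
  apply sl_ext
  · rw [mul_apply00, mul_apply00]; simp only [mk_00, mk_01, mk_10, mk_11]; ring
  · rw [mul_apply01, mul_apply01]; simp only [mk_00, mk_01, mk_10, mk_11]
    linear_combination (x * γ.1 0 0 + y * γ.1 0 1) * htr - x * hdet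
  · rw [mul_apply10, mul_apply10]; simp only [mk_00, mk_01, mk_10, mk_11]; ring
  · rw [mul_apply11, mul_apply11]; simp only [mk_00, mk_01, mk_10, mk_11]
    linear_combination (x * γ.1 1 0 + y * γ.1 1 1) * htr - y * hdet

theorem conj_neg_one_neg (htr : γ.1 0 0 + γ.1 1 1 = -1)
    (hQ : γ.1 1 0 * x ^ 2 + (γ.1 1 1 - γ.1 0 0) * x * y + (-γ.1 0 1) * y ^ 2 = -1) :
    ∃ g : SL(2, ℤ), γ = g * (S * T) ^ (-2 : ℤ) * g⁻¹ := by
  have hdet := det_eq γ
  refine ⟨mk x (-(γ.1 0 0 * x + γ.1 0 1 * y)) y (-(γ.1 1 0 * x + γ.1 1 1 * y))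
    (by linear_combination -hQ), ?_⟩
  rw [eq_mul_inv_iff_mul_eq, R_inv_sq]
  apply sl_ext
  · rw [mul_apply00, mul_apply00]; simp only [mk_00, mk_01, mk_10, mk_11]; ring
  · rw [mul_apply01, mul_apply01]; simp only [mk_00, mk_01, mk_10, mk_11]
    linear_combination -(x * γ.1 0 0 + y * γ.1 0 1) * htr + x * hdet
  · rw [mul_apply10, mul_apply10]; simp only [mk_00, mk_01, mk_10, mk_11]; ring
  · rw [mul_apply11, mul_apply11]; simp only [mk_00, mk_01, mk_10, mk_11]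
    linear_combination -(x * γ.1 1 0 + y * γ.1 1 1) * htr + y * hdet

end Conj

theorem trace_eq (γ : SL(2, ℤ)) : γ.1.trace = γ.1 0 0 + γ.1 1 1 := Matrix.trace_fin_two _

/-- **(E1)** Every element of `SL(2, ℤ)` of trace `±1` is conjugate to a power of `R = S * T`
(namely to `R^{±1}` if the trace is `1` and to `R^{±2}` if the trace is `-1`). -/
theorem exists_conj_of_trace' (γ : SL(2, ℤ)) (h : γ.1.trace = 1 ∨ γ.1.trace = -1) :
    ∃ (g : SL(2, ℤ)) (k : ℤ), (k = 1 ∨ k = -1 ∨ k = 2 ∨ k = -2) ∧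
      γ = g * (S * T) ^ k * g⁻¹ := by
  rw [trace_eq] at h
  have hdet := det_eq γ
  have hdisc : (γ.1 1 1 - γ.1 0 0) ^ 2 - 4 * γ.1 1 0 * (-γ.1 0 1) = -3 := by
    rcases h with h | h
    · have h2 : (γ.1 0 0 + γ.1 1 1) ^ 2 = 1 := by rw [h]; norm_num
      linear_combination -4 * hdet + h2
    · have h2 : (γ.1 0 0 + γ.1 1 1) ^ 2 = 1 := by rw [h]; norm_num
      linear_combination -4 * hdet + h2
  obtain ⟨x, y, hxy⟩ := exists_repr_one _ (γ.1 1 0) (γ.1 1 1 - γ.1 0 0) (-γ.1 0 1) le_rfl hdisc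
  rcases h with h | h <;> rcases hxy with hQ | hQ
  · obtain ⟨g, hg⟩ := conj_one_pos γ x y h hQ
    exact ⟨g, 1, Or.inl rfl, hg⟩
  · obtain ⟨g, hg⟩ := conj_one_neg γ x y h hQ
    exact ⟨g, -1, Or.inr (Or.inl rfl), hg⟩
  · obtain ⟨g, hg⟩ := conj_neg_one_pos γ x y h hQ
    exact ⟨g, 2, Or.inr (Or.inr (Or.inl rfl)), hg⟩
  · obtain ⟨g, hg⟩ := conj_neg_one_neg γ x y h hQ
    exact ⟨g, -2, Or.inr (Or.inr (Or.inr rfl)), hg⟩

theorem exists_conj_of_trace (γ : SL(2, ℤ)) (h : γ.1.trace = 1 ∨ γ.1.trace = -1) :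
    ∃ (g : SL(2, ℤ)) (k : ℤ), γ = g * (S * T) ^ k * g⁻¹ := by
  obtain ⟨g, k, -, hg⟩ := exists_conj_of_trace' γ h
  exact ⟨g, k, hg⟩

theorem sq_matrix_aux (a b c d : ℤ) (h : a * d - b * c = 1) :
    !![a, b; c, d] * !![a, b; c, d] = (a + d) • !![a, b; c, d] - 1 := by
  rw [Matrix.mul_fin_two, Matrix.smul_of, Matrix.one_fin_two, Matrix.smul_cons, Matrix.smul_cons]
  simp only [Matrix.smul_cons, Matrix.smul_empty, smul_eq_mul, Matrix.of_sub_of, Matrix.sub_cons, Matrix.head_cons, Matrix.tail_cons, Matrix.empty_sub_empty]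
  congr 1
  ext i j
  fin_cases i <;> fin_cases j <;> simp <;> first | linear_combination h | linear_combination -h | linear_combination 2 * h | linear_combination -2 * h | ring

/-- Cayley–Hamilton for `SL(2, ℤ)`: `γ² = (tr γ) γ - 1`. -/
theorem sq_matrix (γ : SL(2, ℤ)) :
    γ.1 * γ.1 = (γ.1 0 0 + γ.1 1 1) • γ.1 - 1 := by
  have hdet := det_eq γ
  have hγ : γ.1 = !![γ.1 0 0, γ.1 0 1; γ.1 1 0, γ.1 1 1] := Matrix.eta_fin_two γ.1
  have := sq_matrix_aux _ _ _ _ hdet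
  rw [← hγ] at this
  exact this

theorem pow_succ_succ_matrix (γ : SL(2, ℤ)) (n : ℕ) :
    γ.1 ^ (n + 2) = (γ.1 0 0 + γ.1 1 1) • γ.1 ^ (n + 1) - γ.1 ^ n := by
  rw [pow_add, pow_two, sq_matrix, mul_sub, mul_one, Matrix.mul_smul, ← pow_succ]

theorem trace_pow_succ_succ (γ : SL(2, ℤ)) (n : ℕ) :
    (γ.1 ^ (n + 2)).trace = (γ.1 0 0 + γ.1 1 1) * (γ.1 ^ (n + 1)).trace - (γ.1 ^ n).trace := by
  rw [pow_succ_succ_matrix, Matrix.trace_sub, Matrix.trace_smul, smul_eq_mul]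

theorem trace_growth (γ : SL(2, ℤ)) (ht : 3 ≤ |γ.1 0 0 + γ.1 1 1|) (n : ℕ) :
    2 ≤ |(γ.1 ^ n).trace| ∧ |(γ.1 ^ n).trace| < |(γ.1 ^ (n + 1)).trace| := by
  induction n with
  | zero =>
    have h1 : (γ.1 ^ 0).trace = 2 := by
      rw [pow_zero, Matrix.trace_one]; simp
    have h2 : (γ.1 ^ (0 + 1)).trace = γ.1 0 0 + γ.1 1 1 := by
      rw [zero_add, pow_one, Matrix.trace_fin_two]
    rw [h1, h2]
    refine ⟨by norm_num, ?_⟩
    have : |(2 : ℤ)| = 2 := by norm_num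
    rw [this]; linarith
  | succ n ih =>
    obtain ⟨ih1, ih2⟩ := ih
    refine ⟨by linarith, ?_⟩
    rw [show n + 1 + 1 = n + 2 from rfl, trace_pow_succ_succ]
    have h3 : |(γ.1 0 0 + γ.1 1 1) * (γ.1 ^ (n + 1)).trace| - |(γ.1 ^ n).trace|
        ≤ |(γ.1 0 0 + γ.1 1 1) * (γ.1 ^ (n + 1)).trace - (γ.1 ^ n).trace| :=
      abs_sub_abs_le_abs_sub _ _
    rw [abs_mul] at h3
    have h4 : 3 * |(γ.1 ^ (n + 1)).trace| ≤ |γ.1 0 0 + γ.1 1 1| * |(γ.1 ^ (n + 1)).trace| :=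
      mul_le_mul_of_nonneg_right ht (abs_nonneg _)
    linarith

theorem coe_pow' (γ : SL(2, ℤ)) (n : ℕ) : (γ ^ n).1 = γ.1 ^ n :=
  Matrix.SpecialLinearGroup.coe_pow γ n

/-- The trace of an element of finite order of `SL(2, ℤ)` has absolute value at most `2`. -/
theorem abs_trace_le_two_of_pow_eq_one (γ : SL(2, ℤ)) {n : ℕ} (hn : 0 < n) (h : γ ^ n = 1) :
    |γ.1 0 0 + γ.1 1 1| ≤ 2 := by
  by_contra hc
  have ht : 3 ≤ |γ.1 0 0 + γ.1 1 1| := by
    have := not_le.mp hc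
    omega
  obtain ⟨m, rfl⟩ : ∃ m, n = m + 1 := ⟨n - 1, by omega⟩
  have h1 := trace_growth γ ht m
  have h2 : (γ.1 ^ (m + 1)).trace = 2 := by
    rw [← coe_pow', h]
    simp [Matrix.trace_one]
  rw [h2] at h1
  have : |(2 : ℤ)| = 2 := by norm_num
  rw [this] at h1
  linarith [h1.1, h1.2]

/-- A unipotent element (trace `2`) of finite order is trivial. -/
theorem eq_one_of_trace_two (γ : SL(2, ℤ)) (ht : γ.1 0 0 + γ.1 1 1 = 2) {n : ℕ} (hn : 0 < n)
    (h : γ ^ n = 1) : γ = 1 := by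
  have hpow : ∀ k : ℕ, γ.1 ^ k = 1 + (k : ℤ) • (γ.1 - 1) := by
    intro k
    induction k using Nat.strong_induction_on with
    | _ k ih =>
      match k with
      | 0 => simp
      | 1 => simp
      | (k + 2) =>
        rw [pow_succ_succ_matrix, ht, ih (k + 1) (by omega), ih k (by omega)]
        push_cast
        module
  have h1 : γ.1 ^ n = 1 := by rw [← coe_pow', h]; rfl
  rw [hpow n] at h1
  have h2 : (n : ℤ) • (γ.1 - 1) = 0 := by
    have := h1
    rw [add_eq_left] at this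
    exact this
  have hn0 : (n : ℤ) ≠ 0 := by exact_mod_cast hn.ne'
  have h3 : γ.1 - 1 = 0 := by
    ext i j
    have h4 := congrFun (congrFun h2 i) j
    simp only [Matrix.smul_apply, smul_eq_mul, Matrix.zero_apply] at h4
    rcases mul_eq_zero.mp h4 with h5 | h5
    · exact absurd h5 hn0
    · simpa using h5
  apply Subtype.ext
  rw [sub_eq_zero] at h3
  rw [h3]; rfl

theorem neg_apply (γ : SL(2, ℤ)) (i j : Fin 2) : (-γ).1 i j = -γ.1 i j := by
  simp [Matrix.SpecialLinearGroup.coe_neg]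

/-- An element of trace `-2` of finite order is `-1`. -/
theorem eq_neg_one_of_trace_neg_two (γ : SL(2, ℤ)) (ht : γ.1 0 0 + γ.1 1 1 = -2) {n : ℕ}
    (hn : 0 < n) (h : γ ^ n = 1) : γ = -1 := by
  have h1 : (-γ) ^ (2 * n) = 1 := by
    rw [Even.neg_pow (even_two_mul n), pow_mul', h, one_pow]
  have h2 : (-γ).1 0 0 + (-γ).1 1 1 = 2 := by
    rw [neg_apply, neg_apply]; linarith
  have h3 := eq_one_of_trace_two (-γ) h2 (by omega : 0 < 2 * n) h1
  rw [← h3, neg_neg]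

/-- **(E0)** An element of trace `0` squares to `-1`. -/
theorem sq_eq_neg_one_of_trace_zero (γ : SL(2, ℤ)) (h : γ.1.trace = 0) : γ ^ 2 = -1 := by
  rw [trace_eq] at h
  apply Subtype.ext
  rw [coe_pow', pow_two, sq_matrix, h, zero_smul, zero_sub]
  simp [Matrix.SpecialLinearGroup.coe_neg]

theorem S_eq : S = mk 0 (-1) 1 0 (by norm_num) := by
  apply sl_ext <;> simp [S]

theorem S_inv : S ^ (-1 : ℤ) = mk 0 1 (-1) 0 (by norm_num) := by
  rw [_root_.zpow_neg_one, S_eq]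
  apply inv_eq_of_mul_eq_one_right
  apply sl_ext
  · rw [mul_apply00]; simp
  · rw [mul_apply01]; simp
  · rw [mul_apply10]; simp
  · rw [mul_apply11]; simp

/-- Every element of `SL(2, ℤ)` of trace `0` is conjugate to `S` or `S⁻¹`. -/
theorem exists_conj_of_trace_zero' (γ : SL(2, ℤ)) (h : γ.1.trace = 0) :
    ∃ (g : SL(2, ℤ)) (k : ℤ), (k = 1 ∨ k = -1) ∧ γ = g * S ^ k * g⁻¹ := by
  rw [trace_eq] at h
  have hdet := det_eq γ
  have hdisc : (γ.1 1 1 - γ.1 0 0) ^ 2 - 4 * γ.1 1 0 * (-γ.1 0 1) = -4 := by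
    have h2 : (γ.1 0 0 + γ.1 1 1) ^ 2 = 0 := by rw [h]; norm_num
    linear_combination -4 * hdet + h2
  obtain ⟨x, y, hxy⟩ := exists_repr_one_of_disc 4 (by norm_num) (by norm_num) _ (γ.1 1 0)
    (γ.1 1 1 - γ.1 0 0) (-γ.1 0 1) le_rfl hdisc
  rcases hxy with hQ | hQ
  · refine ⟨mk x (γ.1 0 0 * x + γ.1 0 1 * y) y (γ.1 1 0 * x + γ.1 1 1 * y)
      (by linear_combination hQ), 1, Or.inl rfl, ?_⟩
    rw [eq_mul_inv_iff_mul_eq, zpow_one, S_eq]
    apply sl_ext
    · rw [mul_apply00, mul_apply00]; simp only [mk_00, mk_01, mk_10, mk_11]; ring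
    · rw [mul_apply01, mul_apply01]; simp only [mk_00, mk_01, mk_10, mk_11]
      linear_combination (x * γ.1 0 0 + y * γ.1 0 1) * h - x * hdet
    · rw [mul_apply10, mul_apply10]; simp only [mk_00, mk_01, mk_10, mk_11]; ring
    · rw [mul_apply11, mul_apply11]; simp only [mk_00, mk_01, mk_10, mk_11]
      linear_combination (x * γ.1 1 0 + y * γ.1 1 1) * h - y * hdet
  · refine ⟨mk x (-(γ.1 0 0 * x + γ.1 0 1 * y)) y (-(γ.1 1 0 * x + γ.1 1 1 * y))
      (by linear_combination -hQ), -1, Or.inr rfl, ?_⟩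
    rw [eq_mul_inv_iff_mul_eq, S_inv]
    apply sl_ext
    · rw [mul_apply00, mul_apply00]; simp only [mk_00, mk_01, mk_10, mk_11]; ring
    · rw [mul_apply01, mul_apply01]; simp only [mk_00, mk_01, mk_10, mk_11]
      linear_combination -(x * γ.1 0 0 + y * γ.1 0 1) * h + x * hdet
    · rw [mul_apply10, mul_apply10]; simp only [mk_00, mk_01, mk_10, mk_11]; ring
    · rw [mul_apply11, mul_apply11]; simp only [mk_00, mk_01, mk_10, mk_11]
      linear_combination -(x * γ.1 1 0 + y * γ.1 1 1) * h + y * hdet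

theorem exists_conj_of_trace_zero (γ : SL(2, ℤ)) (h : γ.1.trace = 0) :
    ∃ (g : SL(2, ℤ)) (k : ℤ), γ = g * S ^ k * g⁻¹ := by
  obtain ⟨g, k, -, hg⟩ := exists_conj_of_trace_zero' γ h
  exact ⟨g, k, hg⟩

/-- The trace of an element of finite order is `0`, `±1`, or the element is `±1`. -/
theorem finOrder_trace_cases (ε : SL(2, ℤ)) (h : IsOfFinOrder ε) :
    ε = 1 ∨ ε = -1 ∨ ε.1.trace = 0 ∨ ε.1.trace = 1 ∨ ε.1.trace = -1 := by
  obtain ⟨n, hn, hpow⟩ := isOfFinOrder_iff_pow_eq_one.mp h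
  have habs := abs_trace_le_two_of_pow_eq_one ε hn hpow
  rw [abs_le] at habs
  obtain ⟨h1, h2⟩ := habs
  rw [trace_eq]
  generalize ht : ε.1 0 0 + ε.1 1 1 = t at h1 h2
  interval_cases t
  · exact Or.inr (Or.inl (eq_neg_one_of_trace_neg_two ε ht hn hpow))
  · exact Or.inr (Or.inr (Or.inr (Or.inr rfl)))
  · exact Or.inr (Or.inr (Or.inl rfl))
  · exact Or.inr (Or.inr (Or.inr (Or.inl rfl)))
  · exact Or.inl (eq_one_of_trace_two ε ht hn hpow)

/-- **(F)** Classification of the elements of finite order of `SL(2, ℤ)`. -/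
theorem finOrder_cases (ε : SL(2, ℤ)) (h : IsOfFinOrder ε) :
    ε = 1 ∨ ε = -1 ∨ ε ^ 2 = -1 ∨
      ∃ (g : SL(2, ℤ)) (k : ℤ), ε = g * (S * T) ^ k * g⁻¹ := by
  rcases finOrder_trace_cases ε h with h1 | h1 | h1 | h1
  · exact Or.inl h1
  · exact Or.inr (Or.inl h1)
  · exact Or.inr (Or.inr (Or.inl (sq_eq_neg_one_of_trace_zero ε h1)))
  · exact Or.inr (Or.inr (Or.inr (exists_conj_of_trace ε h1)))

/-- Every element of finite order of `SL(2, ℤ)` is conjugate to a power of `S` or of `S * T`. -/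
theorem finOrder_conj (ε : SL(2, ℤ)) (h : IsOfFinOrder ε) :
    (∃ (g : SL(2, ℤ)) (k : ℤ), ε = g * S ^ k * g⁻¹) ∨
      ∃ (g : SL(2, ℤ)) (k : ℤ), ε = g * (S * T) ^ k * g⁻¹ := by
  rcases finOrder_trace_cases ε h with h1 | h1 | h1 | h1
  · exact Or.inl ⟨1, 0, by rw [h1]; simp⟩
  · refine Or.inl ⟨1, 2, ?_⟩
    have hSS : S * S = -1 := by
      apply Subtype.ext
      rw [Matrix.SpecialLinearGroup.coe_mul, S_mul_S_eq]
      simp [Matrix.SpecialLinearGroup.coe_neg]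
    rw [h1, zpow_ofNat, pow_two, hSS]; simp
  · exact Or.inl (exists_conj_of_trace_zero ε h1)
  · exact Or.inr (exists_conj_of_trace ε h1)

/-! ## Forms modulo `±1` -/

theorem R_zpow_two_eq : (S * T) ^ (2 : ℤ) = -(S * T)⁻¹ := by
  rw [R_sq, ← _root_.zpow_neg_one, R_inv]
  apply sl_ext
  · rw [neg_apply]; simp
  · rw [neg_apply]; simp
  · rw [neg_apply]; simp
  · rw [neg_apply]; simp

theorem R_zpow_neg_two_eq : (S * T) ^ (-2 : ℤ) = -(S * T) := by
  rw [R_inv_sq, R_eq]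
  apply sl_ext
  · rw [neg_apply]; simp
  · rw [neg_apply]; simp
  · rw [neg_apply]; simp
  · rw [neg_apply]; simp

theorem R_pow_three : (S * T) ^ 3 = -1 := by
  have h : (S * T) ^ 3 = (S * T) ^ (2 : ℤ) * (S * T) := by
    rw [zpow_ofNat, pow_succ]
  rw [h, R_zpow_two_eq, neg_mul, inv_mul_cancel]

/-- Every element of trace `±1` is `± g (S * T)^{±1} g⁻¹`. -/
theorem exists_conj_pm (γ : SL(2, ℤ)) (h : γ.1.trace = 1 ∨ γ.1.trace = -1) :
    ∃ g : SL(2, ℤ), γ = g * (S * T) * g⁻¹ ∨ γ = g * (S * T)⁻¹ * g⁻¹ ∨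
      γ = -(g * (S * T) * g⁻¹) ∨ γ = -(g * (S * T)⁻¹ * g⁻¹) := by
  obtain ⟨g, k, hk, hg⟩ := exists_conj_of_trace' γ h
  refine ⟨g, ?_⟩
  rcases hk with rfl | rfl | rfl | rfl
  · left; rw [hg, zpow_one]
  · right; left; rw [hg, _root_.zpow_neg_one]
  · right; right; right; rw [hg, R_zpow_two_eq, mul_neg, neg_mul]
  · right; right; left; rw [hg, R_zpow_neg_two_eq, mul_neg, neg_mul]

end Fermat.Agent.P7.EllConj
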