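import Mathlib
import Fermat.Agent.P5.Per.Action
import Fermat.Agent.S49.DS
import Fermat.Agent.S49.Eigen
import Fermat.Agent.S22

/-!
# P7 block [ENDGAME]: from a mod-`p` eigenclass in a `U_q`-involutive Hecke-stable sublattice of
the parabolic lattice to a normalised eigenform with `a_q ^ 2 = 1`

`Γ = Γ₀(M)`, `q ∣ M` prime.  Let `K ≤ Lat M = parabolicHoms ℤ Γ ℤ` be a sublattice which is stable
under all cohomological Hecke operators `T_ℓ` (`ℓ ∤ M`, `Per.tcoh`) and `U_r` (`r ∣ M`, `ucoh`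
below) and on which `U_q ^ 2 = 1` (for `M = N q` the `q`-new lattice `ker α_*` has these
properties).  If `y ∈ K ∖ p K` is an eigenvector modulo `p K` of the `T_ℓ`, `ℓ ∈ I`, with
eigenvalues `a ℓ ∈ ℤ`, then there is a normalised eigenform `g` of level `M` and a maximal ideal
`𝔪'` of `ℤ̄` over `p` with `a_ℓ(g) ≡ a ℓ mod 𝔪'` for all `ℓ ∈ I` and `a_q(g) ^ 2 = 1`.

* `ucoh`, `periodMap_heckeULin`, `ucoh_charInvolution`, `ucoh_comp`: the cohomological `U_r`;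
* `periodHomPair_heckeT`, `periodHomPair_heckeU`: Hecke equivariance of the Eichler–Shimura
  pair map;
* `exists_eigenvector_of_ker_le`: the Deligne–Serre lifting lemma for a not necessarily
  faithful action;
* `exists_eigenform_of_new_class`: the main theorem.
-/

set_option autoImplicit false
set_option linter.style.haveILetI false
set_option linter.unusedSectionVars false

namespace Fermat.Agent.P7.Endgame

open UpperHalfPlane hiding I
open scoped MatrixGroups ModularForm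
open CongruenceSubgroup ModularCurve ModularCurve.Period ModularFormClass
open Fermat.Agent.Lib.HeckeHom Fermat.Agent.Lib.HeckeHomGL Fermat.Agent.Lib.HeckePeriod
open Fermat.Agent.P5.Per
open P2MW.S_ModularForm_heckeT_slash_eq_self_of_mem_Gamma0.ModularForm.HeckeSlashInvariance

/-! ### Deligne–Serre for a non-faithful action -/

section DS

variable {K V : Type*} [Field K] [IsAlgClosed K] [AddCommGroup V] [Module K V]
  [FiniteDimensional K V] {H : Type*} [CommRing H]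

/-- Deligne–Serre lifting: a commutative ring `H` acting on a finite-dimensional space `V` over
an algebraically closed field, and a prime `m` of `H` containing the kernel of the action: there
is a simultaneous eigenvector whose eigencharacter has kernel inside `m`. -/
theorem exists_eigenvector_of_ker_le (ρ : H →+* Module.End K V) (m : Ideal H) [m.IsPrime]
    (hk : RingHom.ker ρ ≤ m) :
    ∃ (ψ : H →+* K) (v : V), v ≠ 0 ∧ (∀ h, ρ h v = ψ h • v) ∧ RingHom.ker ψ ≤ m := by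
  let π : H →+* H ⧸ RingHom.ker ρ := Ideal.Quotient.mk (RingHom.ker ρ)
  have hπ : Function.Surjective π := Ideal.Quotient.mk_surjective
  haveI : (m.map π).IsPrime :=
    Ideal.map_isPrime_of_surjective hπ (by rw [Ideal.mk_ker]; exact hk)
  obtain ⟨ψ', v, hv, heig, hker⟩ := Fermat.Agent.S49.DS.exists_eigenvector_ker_le
    (RingHom.kerLift ρ) (RingHom.kerLift_injective ρ) (m.map π)
  refine ⟨ψ'.comp π, v, hv, fun h => ?_, fun h hh => ?_⟩
  · have h1 := heig (π h)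
    rw [RingHom.kerLift_mk] at h1
    exact h1
  · have h1 : π h ∈ m.map π := hker (by rw [RingHom.mem_ker] at hh ⊢; exact hh)
    rw [Ideal.mem_map_iff_of_surjective π hπ] at h1
    obtain ⟨x, hx, hxh⟩ := h1
    have h2 : h - x ∈ RingHom.ker ρ := by
      rw [← Ideal.Quotient.eq]
      exact hxh.symm
    have h3 := m.add_mem (hk h2) hx
    rwa [sub_add_cancel] at h3

end DS

/-! ### The cohomological `U_r` -/

/-- The cohomological Hecke operator `U_r` (`r ∣ M` prime) on `Hom(Γ₀(M), A)`. -/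
noncomputable def ucoh (M : ℕ) {r : ℕ} (hr : r.Prime) (hrM : r ∣ M) (A : Type*)
    [AddCommGroup A] : (Additive (Gamma0 M) →+ A) →+ (Additive (Gamma0 M) →+ A) :=
  haveI : NeZero r := ⟨hr.ne_zero⟩
  ((isCosetFamily_heckeMatrix M r hrM).heckeLin ℤ).toAddMonoidHom

/-- `ucoh` is the transfer operator of `Lib/HeckeHom` for the family `heckeMatrix r`. -/
theorem ucoh_eq_heckeHom (M : ℕ) {r : ℕ} [NeZero r] (hr : r.Prime) (hrM : r ∣ M)
    {A : Type*} [AddCommGroup A] (φ : Additive (Gamma0 M) →+ A) :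
    ucoh M hr hrM A φ = (isCosetFamily_heckeMatrix M r hrM).heckeHom φ := rfl

/-- Naturality of `ucoh` in the coefficient group. -/
theorem ucoh_comp (M : ℕ) {r : ℕ} (hr : r.Prime) (hrM : r ∣ M) {A B : Type*}
    [AddCommGroup A] [AddCommGroup B] (ψ : A →+ B) (φ : Additive (Gamma0 M) →+ A) :
    ucoh M hr hrM B (ψ.comp φ) = ψ.comp (ucoh M hr hrM A φ) :=
  haveI : NeZero r := ⟨hr.ne_zero⟩
  (isCosetFamily_heckeMatrix M r hrM).heckeHom_comp ψ φ

/-- `ucoh` commutes with the involution induced by conjugation with `diag(-1, 1)`. -/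
theorem ucoh_charInvolution (M : ℕ) {r : ℕ} (hr : r.Prime) (hrM : r ∣ M) (R : Type*)
    [Semiring R] {A : Type*} [AddCommGroup A] [Module R A] (φ : Additive (Gamma0 M) →+ A) :
    ucoh M hr hrM A (charInvolution M R A φ) = charInvolution M R A (ucoh M hr hrM A φ) :=
  haveI : NeZero r := ⟨hr.ne_zero⟩
  heckeHom_charInvolution (isCosetFamily_heckeMatrix M r hrM) (fun x : ZMod r => -x)
    neg_involutive.bijective (eps_heckeMatrix M r) R φ

/-- Hecke equivariance of the period map for `U_r`, `r ∣ M`. -/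
theorem periodMap_heckeULin (M : ℕ) [NeZero M] {r : ℕ} (hr : r.Prime) (hrM : r ∣ M)
    (f : CuspForm (Gamma0 M) 2) :
    periodMap M (CuspForm.heckeULin 2 hrM f) = ucoh M hr hrM ℂ (periodMap M f) := by
  haveI : NeZero r := ⟨hr.ne_zero⟩
  symm
  refine heckeHom_periodMap (isCosetFamily_heckeMatrix M r hrM)
    (fun x => ⟨_, _, _, isUT_heckeMatrix r x.val⟩) f (CuspForm.heckeULin 2 hrM f) ?_
  rw [CuspForm.coe_heckeULin_apply]
  exact heckeU_eq_sum_zmod 2 f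

/-- `tcoh` with complex coefficients is `ℂ`-linear. -/
theorem tcoh_smul (M : ℕ) {ℓ : ℕ} (hℓ : ℓ.Prime) (hℓM : ¬ ℓ ∣ M) (c : ℂ)
    (φ : Additive (Gamma0 M) →+ ℂ) :
    tcoh M hℓ hℓM ℂ (c • φ) = c • tcoh M hℓ hℓM ℂ φ :=
  tcoh_comp M hℓ hℓM (AddMonoidHom.mulLeft c) φ

/-- `ucoh` with complex coefficients is `ℂ`-linear. -/
theorem ucoh_smul (M : ℕ) {r : ℕ} (hr : r.Prime) (hrM : r ∣ M) (c : ℂ)
    (φ : Additive (Gamma0 M) →+ ℂ) :
    ucoh M hr hrM ℂ (c • φ) = c • ucoh M hr hrM ℂ φ :=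
  ucoh_comp M hr hrM (AddMonoidHom.mulLeft c) φ

theorem tcoh_toC (M : ℕ) {ℓ : ℕ} (hℓ : ℓ.Prime) (hℓM : ¬ ℓ ∣ M)
    (ψ : Additive (Gamma0 M) →+ ℤ) :
    tcoh M hℓ hℓM ℂ (toC ψ) = toC (tcoh M hℓ hℓM ℤ ψ) :=
  tcoh_comp M hℓ hℓM (Int.castAddHom ℂ) ψ

theorem ucoh_toC (M : ℕ) {r : ℕ} (hr : r.Prime) (hrM : r ∣ M)
    (ψ : Additive (Gamma0 M) →+ ℤ) :
    ucoh M hr hrM ℂ (toC ψ) = toC (ucoh M hr hrM ℤ ψ) :=
  ucoh_comp M hr hrM (Int.castAddHom ℂ) ψ

/-! ### Equivariance of the pair map -/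

section Pair

variable (M : ℕ) [NeZero M]

/-- Hecke equivariance of the Eichler–Shimura pair map for `T_ℓ`. -/
theorem periodHomPair_heckeT {ℓ : ℕ} (hℓ : ℓ.Prime) (hℓM : ¬ ℓ ∣ M)
    (x : CuspForm (Gamma0 M) 2 × CuspForm (Gamma0 M) 2) :
    periodHomPair M (CuspForm.heckeTLin 2 hℓ hℓM x.1, CuspForm.heckeTLin 2 hℓ hℓM x.2) =
      tcoh M hℓ hℓM ℂ (periodHomPair M x) := by
  rw [Fermat.Agent.S21.periodHomPair_eq]
  simp only [LinearMap.coprod_apply, LinearMap.comp_apply, LinearMap.add_apply,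
    LinearMap.sub_apply, LinearMap.id_apply, Fermat.Agent.S21.periodMapLin_apply]
  rw [periodMap_heckeTLin, periodMap_heckeTLin, map_add, map_add, map_sub,
    tcoh_charInvolution, tcoh_charInvolution]

/-- Hecke equivariance of the Eichler–Shimura pair map for `U_r`. -/
theorem periodHomPair_heckeU {r : ℕ} (hr : r.Prime) (hrM : r ∣ M)
    (x : CuspForm (Gamma0 M) 2 × CuspForm (Gamma0 M) 2) :
    periodHomPair M (CuspForm.heckeULin 2 hrM x.1, CuspForm.heckeULin 2 hrM x.2) =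
      ucoh M hr hrM ℂ (periodHomPair M x) := by
  rw [Fermat.Agent.S21.periodHomPair_eq]
  simp only [LinearMap.coprod_apply, LinearMap.comp_apply, LinearMap.add_apply,
    LinearMap.sub_apply, LinearMap.id_apply, Fermat.Agent.S21.periodMapLin_apply]
  rw [periodMap_heckeULin M hr hrM, periodMap_heckeULin M hr hrM, map_add, map_add, map_sub,
    ucoh_charInvolution, ucoh_charInvolution]

end Pair

/-! ### Complexification is additive -/

section ToC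

variable {M : ℕ}

theorem toC_zero : toC (0 : Additive (Gamma0 M) →+ ℤ) = 0 :=
  AddMonoidHom.ext fun x => by simp

theorem toC_add (ψ ψ' : Additive (Gamma0 M) →+ ℤ) : toC (ψ + ψ') = toC ψ + toC ψ' :=
  AddMonoidHom.ext fun x => by simp

theorem toC_neg (ψ : Additive (Gamma0 M) →+ ℤ) : toC (-ψ) = -toC ψ :=
  AddMonoidHom.ext fun x => by simp

theorem toC_sub (ψ ψ' : Additive (Gamma0 M) →+ ℤ) : toC (ψ - ψ') = toC ψ - toC ψ' :=
  AddMonoidHom.ext fun x => by simp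

theorem toC_zsmul (n : ℤ) (ψ : Additive (Gamma0 M) →+ ℤ) : toC (n • ψ) = n • toC ψ :=
  AddMonoidHom.ext fun x => by simp

theorem toC_intCast_smul (n : ℤ) (ψ : Additive (Gamma0 M) →+ ℤ) :
    toC (n • ψ) = (n : ℂ) • toC ψ :=
  AddMonoidHom.ext fun x => by simp [AddMonoidHom.smul_apply]

end ToC

/-! ### The lattice of pairs and the Hecke action on it -/

section Lattice

variable (M : ℕ) [NeZero M] (K : Submodule ℤ (Additive (Gamma0 M) →+ ℤ))

/-- The diagonal action of the full Hecke algebra on pairs of cusp forms. -/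
noncomputable def diag : CuspForm.heckeAlgebra M 2 (∅ : Set ℕ) →+*
    Module.End ℂ (CuspForm (Gamma0 M) 2 × CuspForm (Gamma0 M) 2) :=
  (LinearMap.prodMapRingHom ℂ (CuspForm (Gamma0 M) 2) (CuspForm (Gamma0 M) 2)).comp
    (RingHom.prod
      ((CuspForm.heckeAlgebra M 2 (∅ : Set ℕ)).val :
        CuspForm.heckeAlgebra M 2 (∅ : Set ℕ) →+* Module.End ℂ (CuspForm (Gamma0 M) 2))
      ((CuspForm.heckeAlgebra M 2 (∅ : Set ℕ)).val :
        CuspForm.heckeAlgebra M 2 (∅ : Set ℕ) →+* Module.End ℂ (CuspForm (Gamma0 M) 2)))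

theorem diag_apply (t : CuspForm.heckeAlgebra M 2 (∅ : Set ℕ))
    (x : CuspForm (Gamma0 M) 2 × CuspForm (Gamma0 M) 2) :
    diag M t x = (t.1 x.1, t.1 x.2) := rfl

/-- The lattice of pairs of cusp forms whose Eichler–Shimura class lies in `toC K`. -/
noncomputable def pairLat : AddSubgroup (CuspForm (Gamma0 M) 2 × CuspForm (Gamma0 M) 2) where
  carrier := {x | ∃ ψ ∈ K, periodHomPair M x = toC ψ}
  add_mem' := by
    rintro x x' ⟨ψ, hψ, h⟩ ⟨ψ', hψ', h'⟩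
    exact ⟨ψ + ψ', K.add_mem hψ hψ', by rw [map_add, h, h', toC_add]⟩
  zero_mem' := ⟨0, K.zero_mem, by rw [map_zero, toC_zero]⟩
  neg_mem' := by
    rintro x ⟨ψ, hψ, h⟩
    exact ⟨-ψ, K.neg_mem hψ, by rw [map_neg, h, toC_neg]⟩

theorem mem_pairLat {x : CuspForm (Gamma0 M) 2 × CuspForm (Gamma0 M) 2} :
    x ∈ pairLat M K ↔ ∃ ψ ∈ K, periodHomPair M x = toC ψ := Iff.rfl

variable {M K}

/-- The pair lattice is stable under the Hecke algebra. -/
theorem prod_mem_pairLat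
    (hT : ∀ (ℓ : ℕ) (hℓ : ℓ.Prime) (hℓM : ¬ ℓ ∣ M), ∀ x ∈ K, tcoh M hℓ hℓM ℤ x ∈ K)
    (hU : ∀ (r : ℕ) (hr : r.Prime) (hrM : r ∣ M), ∀ x ∈ K, ucoh M hr hrM ℤ x ∈ K)
    {t : Module.End ℂ (CuspForm (Gamma0 M) 2)}
    (ht : t ∈ CuspForm.heckeAlgebra M 2 (∅ : Set ℕ)) :
    ∀ x ∈ pairLat M K, (t x.1, t x.2) ∈ pairLat M K := by
  refine Algebra.adjoin_induction
    (p := fun t _ => ∀ x ∈ pairLat M K, (t x.1, t x.2) ∈ pairLat M K) ?_ ?_ ?_ ?_ ht
  · rintro t (⟨ℓ, hℓ, hℓN, -, rfl⟩ | ⟨r, hrN, hr, -, rfl⟩) x ⟨ψ, hψ, h⟩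
    · exact ⟨tcoh M hℓ hℓN ℤ ψ, hT ℓ hℓ hℓN ψ hψ, by rw [periodHomPair_heckeT, h, tcoh_toC]⟩
    · exact ⟨ucoh M hr hrN ℤ ψ, hU r hr hrN ψ hψ, by
        rw [periodHomPair_heckeU M hr, h, ucoh_toC]⟩
  · intro n x hx
    have h1 : ((algebraMap ℤ (Module.End ℂ (CuspForm (Gamma0 M) 2)) n) x.1,
        (algebraMap ℤ (Module.End ℂ (CuspForm (Gamma0 M) 2)) n) x.2) = n • x := by
      ext <;> simp
    rw [h1]
    exact (pairLat M K).zsmul_mem hx n
  · intro s t _ _ hs ht x hx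
    exact (pairLat M K).add_mem (hs x hx) (ht x hx)
  · intro s t _ _ hs ht x hx
    exact hs _ (ht x hx)

theorem diag_mem_pairLat
    (hT : ∀ (ℓ : ℕ) (hℓ : ℓ.Prime) (hℓM : ¬ ℓ ∣ M), ∀ x ∈ K, tcoh M hℓ hℓM ℤ x ∈ K)
    (hU : ∀ (r : ℕ) (hr : r.Prime) (hrM : r ∣ M), ∀ x ∈ K, ucoh M hr hrM ℤ x ∈ K)
    (t : CuspForm.heckeAlgebra M 2 (∅ : Set ℕ))
    {x : CuspForm (Gamma0 M) 2 × CuspForm (Gamma0 M) 2} (hx : x ∈ pairLat M K) :
    diag M t x ∈ pairLat M K :=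
  prod_mem_pairLat hT hU t.2 x hx

theorem diag_mem_span
    (hT : ∀ (ℓ : ℕ) (hℓ : ℓ.Prime) (hℓM : ¬ ℓ ∣ M), ∀ x ∈ K, tcoh M hℓ hℓM ℤ x ∈ K)
    (hU : ∀ (r : ℕ) (hr : r.Prime) (hrM : r ∣ M), ∀ x ∈ K, ucoh M hr hrM ℤ x ∈ K)
    (t : CuspForm.heckeAlgebra M 2 (∅ : Set ℕ))
    {x : CuspForm (Gamma0 M) 2 × CuspForm (Gamma0 M) 2}
    (hx : x ∈ Submodule.span ℂ (pairLat M K : Set (CuspForm (Gamma0 M) 2 × CuspForm (Gamma0 M) 2))) :
    diag M t x ∈
      Submodule.span ℂ (pairLat M K : Set (CuspForm (Gamma0 M) 2 × CuspForm (Gamma0 M) 2)) := by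
  have h1 := (Submodule.map_span_le (diag M t)
    (pairLat M K : Set (CuspForm (Gamma0 M) 2 × CuspForm (Gamma0 M) 2))
    (Submodule.span ℂ (pairLat M K : Set (CuspForm (Gamma0 M) 2 × CuspForm (Gamma0 M) 2)))).2
    (fun z hz => Submodule.subset_span (diag_mem_pairLat hT hU t hz))
  exact h1 (Submodule.mem_map_of_mem hx)

/-- The Hecke action on the complex span of the pair lattice. -/
noncomputable def rhoW
    (hT : ∀ (ℓ : ℕ) (hℓ : ℓ.Prime) (hℓM : ¬ ℓ ∣ M), ∀ x ∈ K, tcoh M hℓ hℓM ℤ x ∈ K)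
    (hU : ∀ (r : ℕ) (hr : r.Prime) (hrM : r ∣ M), ∀ x ∈ K, ucoh M hr hrM ℤ x ∈ K) :
    CuspForm.heckeAlgebra M 2 (∅ : Set ℕ) →+* Module.End ℂ
      (Submodule.span ℂ (pairLat M K : Set (CuspForm (Gamma0 M) 2 × CuspForm (Gamma0 M) 2))) where
  toFun t := (diag M t).restrict (fun _ hx => diag_mem_span hT hU t hx)
  map_one' := LinearMap.ext fun x => Subtype.ext (by
    rw [LinearMap.coe_restrict_apply, map_one]; rfl)
  map_mul' s t := LinearMap.ext fun x => Subtype.ext (by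
    rw [LinearMap.coe_restrict_apply, map_mul]; rfl)
  map_zero' := LinearMap.ext fun x => Subtype.ext (by
    rw [LinearMap.coe_restrict_apply, map_zero]; rfl)
  map_add' s t := LinearMap.ext fun x => Subtype.ext (by
    rw [LinearMap.coe_restrict_apply, map_add]; rfl)

theorem rhoW_apply_coe
    (hT : ∀ (ℓ : ℕ) (hℓ : ℓ.Prime) (hℓM : ¬ ℓ ∣ M), ∀ x ∈ K, tcoh M hℓ hℓM ℤ x ∈ K)
    (hU : ∀ (r : ℕ) (hr : r.Prime) (hrM : r ∣ M), ∀ x ∈ K, ucoh M hr hrM ℤ x ∈ K)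
    (t : CuspForm.heckeAlgebra M 2 (∅ : Set ℕ))
    (x : Submodule.span ℂ (pairLat M K : Set (CuspForm (Gamma0 M) 2 × CuspForm (Gamma0 M) 2))) :
    ((rhoW hT hU t x : Submodule.span ℂ
      (pairLat M K : Set (CuspForm (Gamma0 M) 2 × CuspForm (Gamma0 M) 2))) :
      CuspForm (Gamma0 M) 2 × CuspForm (Gamma0 M) 2) = diag M t x := rfl

/-- The ideal of Hecke operators mapping `y'` into `p` times the pair lattice. -/
noncomputable def idealOf
    (hT : ∀ (ℓ : ℕ) (hℓ : ℓ.Prime) (hℓM : ¬ ℓ ∣ M), ∀ x ∈ K, tcoh M hℓ hℓM ℤ x ∈ K)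
    (hU : ∀ (r : ℕ) (hr : r.Prime) (hrM : r ∣ M), ∀ x ∈ K, ucoh M hr hrM ℤ x ∈ K)
    (p : ℕ) (y' : CuspForm (Gamma0 M) 2 × CuspForm (Gamma0 M) 2) :
    Ideal (CuspForm.heckeAlgebra M 2 (∅ : Set ℕ)) where
  carrier := {t | ∃ z ∈ pairLat M K, diag M t y' = (p : ℂ) • z}
  add_mem' := by
    rintro s t ⟨z, hz, h⟩ ⟨z', hz', h'⟩
    exact ⟨z + z', (pairLat M K).add_mem hz hz', by
      rw [map_add, LinearMap.add_apply, h, h', smul_add]⟩
  zero_mem' := ⟨0, (pairLat M K).zero_mem, by rw [map_zero, smul_zero]; rfl⟩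
  smul_mem' := by
    rintro c t ⟨z, hz, h⟩
    refine ⟨diag M c z, diag_mem_pairLat hT hU c hz, ?_⟩
    rw [smul_eq_mul, map_mul, Module.End.mul_apply, h, map_smul]

end Lattice

/-! ### The main theorem -/

/-- **[ENDGAME]**: a class `y` of a Hecke-stable sublattice `K` of the parabolic lattice of level
`M` (`q ∣ M`) on which `U_q ^ 2 = 1`, which is not divisible by `p` in `K` and is an eigenvector
modulo `p K` for the `T_ℓ`, `ℓ ∈ I`, with integer eigenvalues `a ℓ`, yields a normalised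
eigenform `g` of level `M` with `a_q(g) ^ 2 = 1` and `a_ℓ(g) ≡ a ℓ` modulo a maximal ideal over
`p`. -/
theorem exists_eigenform_of_new_class (M q p : ℕ) [NeZero M] (hq : q.Prime) (hqM : q ∣ M)
    (K : Submodule ℤ (Additive (Gamma0 M) →+ ℤ)) (hKL : K ≤ Lat M)
    (hT : ∀ (ℓ : ℕ) (hℓ : ℓ.Prime) (hℓM : ¬ ℓ ∣ M), ∀ x ∈ K, tcoh M hℓ hℓM ℤ x ∈ K)
    (hU : ∀ (r : ℕ) (hr : r.Prime) (hrM : r ∣ M), ∀ x ∈ K, ucoh M hr hrM ℤ x ∈ K)
    (hUq : ∀ x ∈ K, ucoh M hq hqM ℤ (ucoh M hq hqM ℤ x) = x)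
    (I : Set ℕ) (a : ℕ → ℤ) (y : Additive (Gamma0 M) →+ ℤ) (hyK : y ∈ K)
    (hy : ∀ y₀ ∈ K, y ≠ (p : ℤ) • y₀)
    (hcong : ∀ (ℓ : ℕ) (hℓ : ℓ.Prime) (hℓM : ¬ ℓ ∣ M), ℓ ∈ I →
      ∃ w ∈ K, tcoh M hℓ hℓM ℤ y - a ℓ • y = (p : ℤ) • w) :
    ∃ (g : CuspForm (Gamma0 M) 2) (𝔪' : Ideal (integralClosure ℤ ℂ)),
      g.IsNormalizedEigenform ∧ 𝔪'.IsMaximal ∧ (p : integralClosure ℤ ℂ) ∈ 𝔪' ∧
      (∀ ℓ : ℕ, ℓ.Prime → ¬ ℓ ∣ M → ℓ ∈ I → ∃ α : integralClosure ℤ ℂ,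
        (α : ℂ) = qCoeff g ℓ ∧ α - ((a ℓ : ℤ) : integralClosure ℤ ℂ) ∈ 𝔪') ∧
      qCoeff g q ^ 2 = 1 := by
  classical
  haveI : FiniteDimensional ℂ (CuspForm (Gamma0 M) 2) :=
    (Fermat.Agent.S21.finrank_cuspForm_le M).1
  let H := CuspForm.heckeAlgebra M 2 (∅ : Set ℕ)
  have hEinj : Function.Injective (periodHomPair M) := (Fermat.Agent.S21.result M).1
  have hErange : ∀ ψ ∈ K, ∃ z, periodHomPair M z = toC ψ := by
    intro ψ hψ
    have h1 : toC ψ ∈ LinearMap.range (periodHomPair M) := by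
      rw [(Fermat.Agent.S21.result M).2]
      exact toC_mem_parabolicHoms.2 (hKL hψ)
    exact h1
  let ρ := rhoW hT hU
  obtain ⟨y', hy'⟩ := hErange y hyK
  have hy'Λ : y' ∈ pairLat M K := ⟨y, hyK, hy'⟩
  let m₀ : Ideal H := idealOf hT hU p y'
  have hone : (1 : H) ∉ m₀ := by
    rintro ⟨z, ⟨φ, hφ, hz⟩, h⟩
    rw [map_one, Module.End.one_apply] at h
    apply hy φ hφ
    apply toC_injective
    rw [toC_intCast_smul, ← hy', h, map_smul, hz]
    push_cast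
    rfl
  obtain ⟨m, hmmax, hm₀m⟩ := Ideal.exists_le_maximal m₀ ((Ideal.ne_top_iff_one m₀).2 hone)
  haveI := hmmax.isPrime
  have hker : RingHom.ker ρ ≤ m := by
    intro t ht
    apply hm₀m
    refine ⟨0, (pairLat M K).zero_mem, ?_⟩
    rw [smul_zero]
    have h1 : ρ t ⟨y', Submodule.subset_span hy'Λ⟩ = 0 := by
      rw [RingHom.mem_ker.1 ht]; rfl
    exact congrArg Subtype.val h1
  obtain ⟨ψ, v, hv0, heig, hkerψ⟩ := exists_eigenvector_of_ker_le ρ m hker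
  -- a nonzero eigenform
  have hv0' : (v : CuspForm (Gamma0 M) 2 × CuspForm (Gamma0 M) 2) ≠ 0 :=
    fun h => hv0 (Subtype.ext h)
  have heig' : ∀ t : H, ((t.1 (v : CuspForm (Gamma0 M) 2 × CuspForm (Gamma0 M) 2).1,
      t.1 (v : CuspForm (Gamma0 M) 2 × CuspForm (Gamma0 M) 2).2) :
      CuspForm (Gamma0 M) 2 × CuspForm (Gamma0 M) 2) =
      ψ t • (v : CuspForm (Gamma0 M) 2 × CuspForm (Gamma0 M) 2) :=
    fun t => congrArg Subtype.val (heig t)
  obtain ⟨g₀, hg0, hgeig⟩ : ∃ g₀ : CuspForm (Gamma0 M) 2, g₀ ≠ 0 ∧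
      ∀ t : H, t.1 g₀ = ψ t • g₀ := by
    by_cases h1 : (v : CuspForm (Gamma0 M) 2 × CuspForm (Gamma0 M) 2).1 = 0
    · exact ⟨(v : CuspForm (Gamma0 M) 2 × CuspForm (Gamma0 M) 2).2,
        fun h2 => hv0' (Prod.ext h1 h2), fun t => congrArg Prod.snd (heig' t)⟩
    · exact ⟨(v : CuspForm (Gamma0 M) 2 × CuspForm (Gamma0 M) 2).1, h1,
        fun t => congrArg Prod.fst (heig' t)⟩
  -- `U_q ^ 2 = 1` on the span
  let Uq : H := CuspForm.heckeAlgebra.U hq hqM (Set.notMem_empty q)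
  have hsqΛ : ∀ x ∈ pairLat M K, diag M (Uq * Uq) x = x := by
    rintro x ⟨φ, hφ, hx⟩
    apply hEinj
    rw [map_mul, Module.End.mul_apply]
    have h1 : ∀ z, diag M Uq z = (CuspForm.heckeULin 2 hqM z.1, CuspForm.heckeULin 2 hqM z.2) :=
      fun z => rfl
    rw [h1, periodHomPair_heckeU M hq hqM, h1, periodHomPair_heckeU M hq hqM, hx, ucoh_toC,
      ucoh_toC, hUq φ hφ]
  have hsqψ : ψ Uq * ψ Uq = 1 := by
    have h1 : diag M (Uq * Uq) (v : CuspForm (Gamma0 M) 2 × CuspForm (Gamma0 M) 2) =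
        (v : CuspForm (Gamma0 M) 2 × CuspForm (Gamma0 M) 2) :=
      LinearMap.eqOn_span (f := diag M (Uq * Uq)) (g := LinearMap.id) (fun z hz => hsqΛ z hz) v.2
    have h2 : ψ (Uq * Uq) • v = v := by
      rw [← heig]
      exact Subtype.ext h1
    rw [map_mul] at h2
    have h2' : (ψ Uq * ψ Uq) • (v : CuspForm (Gamma0 M) 2 × CuspForm (Gamma0 M) 2) =
        (v : CuspForm (Gamma0 M) 2 × CuspForm (Gamma0 M) 2) := congrArg Subtype.val h2
    have h3 : (ψ Uq * ψ Uq - 1) • (v : CuspForm (Gamma0 M) 2 × CuspForm (Gamma0 M) 2) = 0 := by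
      rw [sub_smul, h2', one_smul, sub_self]
    rcases smul_eq_zero.1 h3 with h4 | h4
    · exact sub_eq_zero.1 h4
    · exact absurd h4 hv0'
  let lam : ℕ → ℂ := fun p =>
    if hp : p.Prime then
      (if hpN : p ∣ M then ψ (CuspForm.heckeAlgebra.U hp hpN (Set.notMem_empty p))
        else ψ (CuspForm.heckeAlgebra.T hp hpN (Set.notMem_empty p)))
    else 0
  obtain ⟨F, hF, hFlam⟩ := Fermat.Agent.S49.Eigen.exists_normalized g₀ hg0 lam
    (fun p hp hpN => by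
      simp only [lam, dif_pos hp, dif_neg hpN]
      exact hgeig (CuspForm.heckeAlgebra.T hp hpN (Set.notMem_empty p)))
    (fun p hp hpN => by
      simp only [lam, dif_pos hp, dif_pos hpN]
      exact hgeig (CuspForm.heckeAlgebra.U hp hpN (Set.notMem_empty p)))
  -- integrality
  haveI : Module.Finite ℤ H := Fermat.Agent.S22.result M 2 ∅
  have hint : ∀ t : H, IsIntegral ℤ (ψ t) := fun t =>
    (Algebra.IsIntegral.isIntegral (R := ℤ) t).map ψ.toIntAlgHom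
  let ψ' : H →+* integralClosure ℤ ℂ := ψ.codRestrict (integralClosure ℤ ℂ) hint
  letI : Algebra H (integralClosure ℤ ℂ) := ψ'.toAlgebra
  haveI : Algebra.IsIntegral H (integralClosure ℤ ℂ) :=
    ⟨fun x => (integralClosure.isIntegral x).tower_top⟩
  have hker' : RingHom.ker (algebraMap H (integralClosure ℤ ℂ)) ≤ m := by
    intro t ht
    apply hkerψ
    rw [RingHom.mem_ker] at ht ⊢
    exact congrArg Subtype.val ht
  obtain ⟨Q, hQmax, hQ⟩ := Ideal.exists_ideal_over_maximal_of_isIntegral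
    (S := integralClosure ℤ ℂ) m hker'
  have hQmem : ∀ t : H, t ∈ m → ψ' t ∈ Q := by
    intro t ht
    rw [← hQ] at ht
    exact ht
  -- `p ∈ m`
  have hpm : ((p : ℤ) : H) ∈ m := by
    apply hm₀m
    refine ⟨y', hy'Λ, ?_⟩
    rw [map_intCast, Module.End.intCast_apply, ← Int.cast_smul_eq_zsmul ℂ]
    push_cast
    rfl
  -- `T_ℓ - a ℓ ∈ m`
  have hTm : ∀ (ℓ : ℕ) (hℓ : ℓ.Prime) (hℓM : ¬ ℓ ∣ M), ℓ ∈ I →
      CuspForm.heckeAlgebra.T hℓ hℓM (Set.notMem_empty ℓ) - ((a ℓ : ℤ) : H) ∈ m := by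
    intro ℓ hℓ hℓM hℓI
    apply hm₀m
    obtain ⟨w, hwK, hw⟩ := hcong ℓ hℓ hℓM hℓI
    obtain ⟨z, hz⟩ := hErange w hwK
    refine ⟨z, ⟨w, hwK, hz⟩, ?_⟩
    apply hEinj
    rw [map_sub, LinearMap.sub_apply, map_sub, map_intCast, Module.End.intCast_apply, map_zsmul,
      map_smul, hz]
    have h1 : diag M (CuspForm.heckeAlgebra.T hℓ hℓM (Set.notMem_empty ℓ)) y' =
        (CuspForm.heckeTLin 2 hℓ hℓM y'.1, CuspForm.heckeTLin 2 hℓ hℓM y'.2) := rfl
    rw [h1, periodHomPair_heckeT, hy', tcoh_toC, ← toC_zsmul, ← toC_sub, hw, toC_intCast_smul]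
    push_cast
    rfl
  refine ⟨F, Q, hF, hQmax, ?_, ?_, ?_⟩
  · have := hQmem _ hpm
    rw [map_intCast] at this
    exact_mod_cast this
  · intro ℓ hℓ hℓM hℓI
    refine ⟨ψ' (CuspForm.heckeAlgebra.T hℓ hℓM (Set.notMem_empty ℓ)), ?_, ?_⟩
    · rw [hFlam ℓ hℓ]
      simp only [lam, dif_pos hℓ, dif_neg hℓM]
      rfl
    · have := hQmem _ (hTm ℓ hℓ hℓM hℓI)
      simpa using this
  · rw [hFlam q hq]
    simp only [lam, dif_pos hq, dif_pos hqM]
    rw [pow_two]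
    exact hsqψ

end Fermat.Agent.P7.Endgame
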