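import Mathlib
import Fermat.Agent.P7.Endgame

/-!
# P7 block [ENDGAME], second form: weaker stability hypotheses

`Endgame.exists_eigenform_of_new_class` assumes that the sublattice `K ≤ Lat M` is stable under
all `T_ℓ` (`ℓ ∤ M`) and all `U_r` (`r ∣ M`).  Here only the `T_ℓ` with `ℓ ∈ I` and the single
operator `U_q` are needed:

* `exists_eigen_of_subalgebra`: the core — for a subalgebra `H'` of the full Hecke algebra of
  level `M` which stabilises the lattice of pairs attached to `K` and a class `y ∈ K ∖ p K` there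
  are a system of eigenvalues `χ` of the FULL Hecke algebra occurring in `S₂(Γ₀(M))` and a maximal
  ideal `Q` of `ℤ̄` such that `χ t = 0` for the `t ∈ H'` killing the lattice and `χ t ∈ Q` for
  the `t ∈ H'` mapping (the pair of) `y` into `p` times the lattice;
* `exists_eigenform_of_new_class_weak`: the main theorem in the weak form;
* `uq_new`: on the kernel of `(cor_A, cor_B)` the operator `U_q` equals `-w_q`; in particular it
  preserves the kernel and is an involution on it.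
-/

set_option autoImplicit false
set_option linter.style.haveILetI false
set_option linter.unusedSectionVars false

namespace Fermat.Agent.P7.Endgame2

open UpperHalfPlane hiding I
open scoped MatrixGroups ModularForm
open CongruenceSubgroup ModularCurve ModularCurve.Period ModularFormClass
open Fermat.Agent.P5.Per Fermat.Agent.P7.Endgame

/-! ### `U_q = -w_q` on the new lattice -/

/-- Abstract form of "`U_q = -w_q` on `ker (cor_A, cor_B)`": from `res_A ∘ cor_A = 1 + U_q ∘ w_q`,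
`w_q ^ 2 = 1` and `cor_B = cor_A ∘ w_q`. -/
theorem uq_new {L L' : Type*} [AddCommGroup L] [AddCommGroup L'] (resA : L' →+ L)
    (corA corB : L →+ L') (wq uq : L →+ L) (h1 : ∀ x, resA (corA x) = x + uq (wq x))
    (h2 : ∀ x, wq (wq x) = x) (h3 : ∀ x, corB x = corA (wq x)) (x : L) (hA : corA x = 0)
    (hB : corB x = 0) : corA (uq x) = 0 ∧ corB (uq x) = 0 ∧ uq (uq x) = x := by
  have hAw : corA (wq x) = 0 := by rw [← h3, hB]
  have e1 : uq x = -wq x := by
    have := h1 (wq x)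
    rw [hAw, map_zero, h2] at this
    exact (neg_eq_of_add_eq_zero_right this.symm).symm
  have e2 : uq (wq x) = -x := by
    have := h1 x
    rw [hA, map_zero] at this
    exact (neg_eq_of_add_eq_zero_right this.symm).symm
  refine ⟨?_, ?_, ?_⟩
  · rw [e1, map_neg, hAw, neg_zero]
  · rw [h3, e1, map_neg, h2, map_neg, hA, neg_zero]
  · rw [e1, map_neg, e2, neg_neg]

/-! ### The core -/

section Core

variable {M : ℕ} [NeZero M] {K : Submodule ℤ (Additive (Gamma0 M) →+ ℤ)}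

theorem diag_mem_span_of {t : CuspForm.heckeAlgebra M 2 (∅ : Set ℕ)}
    (ht : ∀ x ∈ pairLat M K, diag M t x ∈ pairLat M K)
    {x : CuspForm (Gamma0 M) 2 × CuspForm (Gamma0 M) 2}
    (hx : x ∈ Submodule.span ℂ (pairLat M K : Set (CuspForm (Gamma0 M) 2 × CuspForm (Gamma0 M) 2))) :
    diag M t x ∈
      Submodule.span ℂ (pairLat M K : Set (CuspForm (Gamma0 M) 2 × CuspForm (Gamma0 M) 2)) := by
  have h1 := (Submodule.map_span_le (diag M t)
    (pairLat M K : Set (CuspForm (Gamma0 M) 2 × CuspForm (Gamma0 M) 2))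
    (Submodule.span ℂ (pairLat M K : Set (CuspForm (Gamma0 M) 2 × CuspForm (Gamma0 M) 2)))).2
    (fun z hz => Submodule.subset_span (ht z hz))
  exact h1 (Submodule.mem_map_of_mem hx)

/-- The action of a subalgebra stabilising the pair lattice on its complex span. -/
noncomputable def rhoSub (H' : Subalgebra ℤ (CuspForm.heckeAlgebra M 2 (∅ : Set ℕ)))
    (hH' : ∀ t ∈ H', ∀ x ∈ pairLat M K, diag M t x ∈ pairLat M K) :
    H' →+* Module.End ℂ
      (Submodule.span ℂ (pairLat M K : Set (CuspForm (Gamma0 M) 2 × CuspForm (Gamma0 M) 2))) where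
  toFun t := (diag M t.1).restrict (fun _ hx => diag_mem_span_of (hH' t.1 t.2) hx)
  map_one' := LinearMap.ext fun x => Subtype.ext (by
    rw [LinearMap.coe_restrict_apply, OneMemClass.coe_one, map_one]; rfl)
  map_mul' s t := LinearMap.ext fun x => Subtype.ext (by
    rw [LinearMap.coe_restrict_apply, MulMemClass.coe_mul, map_mul]; rfl)
  map_zero' := LinearMap.ext fun x => Subtype.ext (by
    rw [LinearMap.coe_restrict_apply, ZeroMemClass.coe_zero, map_zero]; rfl)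
  map_add' s t := LinearMap.ext fun x => Subtype.ext (by
    rw [LinearMap.coe_restrict_apply, AddMemClass.coe_add, map_add]; rfl)

/-- The ideal of operators of the subalgebra mapping `y'` into `p` times the pair lattice. -/
noncomputable def idealSub (H' : Subalgebra ℤ (CuspForm.heckeAlgebra M 2 (∅ : Set ℕ)))
    (hH' : ∀ t ∈ H', ∀ x ∈ pairLat M K, diag M t x ∈ pairLat M K)
    (p : ℕ) (y' : CuspForm (Gamma0 M) 2 × CuspForm (Gamma0 M) 2) : Ideal H' where
  carrier := {t | ∃ z ∈ pairLat M K, diag M t.1 y' = (p : ℂ) • z}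
  add_mem' := by
    rintro s t ⟨z, hz, h⟩ ⟨z', hz', h'⟩
    exact ⟨z + z', (pairLat M K).add_mem hz hz', by
      rw [AddMemClass.coe_add, map_add, LinearMap.add_apply, h, h', smul_add]⟩
  zero_mem' := ⟨0, (pairLat M K).zero_mem, by
    rw [ZeroMemClass.coe_zero, map_zero, smul_zero]; rfl⟩
  smul_mem' := by
    rintro c t ⟨z, hz, h⟩
    refine ⟨diag M c.1 z, hH' c.1 c.2 z hz, ?_⟩
    rw [smul_eq_mul, MulMemClass.coe_mul, map_mul, Module.End.mul_apply, h, map_smul]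

/-- **Core of [ENDGAME]**: a subalgebra `H'` of the Hecke algebra stabilising the pair lattice of
`K` and a class `y ∈ K ∖ p K` give an eigensystem `χ` of the full Hecke algebra on cusp forms and
a maximal ideal `Q` of `ℤ̄` such that `χ` vanishes on the elements of `H'` killing the lattice
and maps the elements of `H'` sending `y` into `p` times the lattice into `Q`. -/
theorem exists_eigen_of_subalgebra (p : ℕ) (hKL : K ≤ Lat M)
    (H' : Subalgebra ℤ (CuspForm.heckeAlgebra M 2 (∅ : Set ℕ)))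
    (hH' : ∀ t ∈ H', ∀ x ∈ pairLat M K, diag M t x ∈ pairLat M K)
    (y : Additive (Gamma0 M) →+ ℤ) (hyK : y ∈ K) (hy : ∀ y₀ ∈ K, y ≠ (p : ℤ) • y₀) :
    ∃ (χ : CuspForm.heckeAlgebra M 2 (∅ : Set ℕ) →+* ℂ) (g₀ : CuspForm (Gamma0 M) 2)
      (Q : Ideal (integralClosure ℤ ℂ)),
      g₀ ≠ 0 ∧ (∀ t : CuspForm.heckeAlgebra M 2 (∅ : Set ℕ), t.1 g₀ = χ t • g₀) ∧ Q.IsMaximal ∧
      (∀ t ∈ H', (∀ x ∈ pairLat M K, diag M t x = 0) → χ t = 0) ∧
      (∀ t ∈ H', (∀ y', periodHomPair M y' = toC y →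
          ∃ z ∈ pairLat M K, diag M t y' = (p : ℂ) • z) →
        ∃ α : integralClosure ℤ ℂ, (α : ℂ) = χ t ∧ α ∈ Q) := by
  classical
  haveI : FiniteDimensional ℂ (CuspForm (Gamma0 M) 2) :=
    (Fermat.Agent.S21.finrank_cuspForm_le M).1
  let H := CuspForm.heckeAlgebra M 2 (∅ : Set ℕ)
  obtain ⟨y', hy'⟩ : ∃ z, periodHomPair M z = toC y := by
    have h1 : toC y ∈ LinearMap.range (periodHomPair M) := by
      rw [(Fermat.Agent.S21.result M).2]
      exact toC_mem_parabolicHoms.2 (hKL hyK)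
    exact h1
  have hy'Λ : y' ∈ pairLat M K := ⟨y, hyK, hy'⟩
  let ρ := rhoSub H' hH'
  let m₀ : Ideal H' := idealSub H' hH' p y'
  have hone : (1 : H') ∉ m₀ := by
    rintro ⟨z, ⟨φ, hφ, hz⟩, h⟩
    rw [OneMemClass.coe_one, map_one, Module.End.one_apply] at h
    apply hy φ hφ
    apply toC_injective
    rw [toC_intCast_smul, ← hy', h, map_smul, hz]
    push_cast
    rfl
  obtain ⟨m, hmmax, hm₀m⟩ := Ideal.exists_le_maximal m₀ ((Ideal.ne_top_iff_one m₀).2 hone)
  haveI := hmmax.isPrime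
  have hker : RingHom.ker ρ ≤ m := by
    intro t ht
    apply hm₀m
    refine ⟨0, (pairLat M K).zero_mem, ?_⟩
    rw [smul_zero]
    have h1 : ρ t ⟨y', Submodule.subset_span hy'Λ⟩ = 0 := by
      rw [RingHom.mem_ker.1 ht]; rfl
    exact congrArg Subtype.val h1
  obtain ⟨ψ, v, hv0, heig, hkerψ⟩ := exists_eigenvector_of_ker_le ρ m hker
  have hv0' : (v : CuspForm (Gamma0 M) 2 × CuspForm (Gamma0 M) 2) ≠ 0 :=
    fun h => hv0 (Subtype.ext h)
  have heig' : ∀ t : H', diag M t.1 (v : CuspForm (Gamma0 M) 2 × CuspForm (Gamma0 M) 2) =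
      ψ t • (v : CuspForm (Gamma0 M) 2 × CuspForm (Gamma0 M) 2) :=
    fun t => congrArg Subtype.val (heig t)
  obtain ⟨g₁, hg1, hg1eig⟩ : ∃ g₁ : CuspForm (Gamma0 M) 2, g₁ ≠ 0 ∧
      ∀ t : H', t.1.1 g₁ = ψ t • g₁ := by
    by_cases h1 : (v : CuspForm (Gamma0 M) 2 × CuspForm (Gamma0 M) 2).1 = 0
    · exact ⟨(v : CuspForm (Gamma0 M) 2 × CuspForm (Gamma0 M) 2).2,
        fun h2 => hv0' (Prod.ext h1 h2), fun t => congrArg Prod.snd (heig' t)⟩
    · exact ⟨(v : CuspForm (Gamma0 M) 2 × CuspForm (Gamma0 M) 2).1, h1,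
        fun t => congrArg Prod.fst (heig' t)⟩
  -- the `ψ`-eigenspace of the cusp forms, a module over the full Hecke algebra
  let V : Submodule ℂ (CuspForm (Gamma0 M) 2) :=
    ⨅ t : H', LinearMap.ker ((t.1.1 : Module.End ℂ (CuspForm (Gamma0 M) 2)) - ψ t • LinearMap.id)
  have hVmem : ∀ g, g ∈ V ↔ ∀ t : H', t.1.1 g = ψ t • g := by
    intro g
    simp only [V, Submodule.mem_iInf, LinearMap.mem_ker, LinearMap.sub_apply,
      LinearMap.smul_apply, LinearMap.id_apply, sub_eq_zero]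
  have hVstab : ∀ s : H, ∀ g ∈ V, s.1 g ∈ V := by
    intro s g hg
    rw [hVmem] at hg ⊢
    intro t
    have hcomm : t.1.1 * s.1 = s.1 * t.1.1 := congrArg Subtype.val (mul_comm t.1 s)
    have h1 : t.1.1 (s.1 g) = s.1 (t.1.1 g) := by
      change (t.1.1 * s.1) g = (s.1 * t.1.1) g
      rw [hcomm]
    rw [h1, hg t, map_smul]
  let ρ₂ : H →+* Module.End ℂ V :=
    { toFun := fun s => (s.1).restrict (hVstab s)
      map_one' := rfl
      map_mul' := fun s t => rfl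
      map_zero' := rfl
      map_add' := fun s t => rfl }
  have hone₂ : (1 : H) ∉ RingHom.ker ρ₂ := by
    intro h
    rw [RingHom.mem_ker, map_one] at h
    apply hg1
    have h2 := congrArg (fun f : Module.End ℂ V => (f ⟨g₁, (hVmem g₁).2 hg1eig⟩ : V)) h
    exact congrArg Subtype.val h2
  obtain ⟨m₂, hm₂max, hm₂⟩ :=
    Ideal.exists_le_maximal (RingHom.ker ρ₂) ((Ideal.ne_top_iff_one _).2 hone₂)
  haveI := hm₂max.isPrime
  obtain ⟨χ, w, hw0, hweig, -⟩ := exists_eigenvector_of_ker_le ρ₂ m₂ hm₂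
  have hw0' : (w : CuspForm (Gamma0 M) 2) ≠ 0 := fun h => hw0 (Subtype.ext h)
  have hweig' : ∀ s : H, s.1 (w : CuspForm (Gamma0 M) 2) = χ s • (w : CuspForm (Gamma0 M) 2) :=
    fun s => congrArg Subtype.val (hweig s)
  have hχψ : ∀ t : H', χ t.1 = ψ t := by
    intro t
    have h1 := hweig' t.1
    rw [(hVmem w).1 w.2 t] at h1
    have h2 : (ψ t - χ t.1) • (w : CuspForm (Gamma0 M) 2) = 0 := by rw [sub_smul, h1, sub_self]
    rcases smul_eq_zero.1 h2 with h3 | h3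
    · exact (sub_eq_zero.1 h3).symm
    · exact absurd h3 hw0'
  -- integrality and going up
  haveI : Module.Finite ℤ H := Fermat.Agent.S22.result M 2 ∅
  have hint : ∀ t : H', IsIntegral ℤ (ψ t) := fun t => by
    rw [← hχψ t]
    exact (Algebra.IsIntegral.isIntegral (R := ℤ) t.1).map χ.toIntAlgHom
  let ψ' : H' →+* integralClosure ℤ ℂ := ψ.codRestrict (integralClosure ℤ ℂ) hint
  letI : Algebra H' (integralClosure ℤ ℂ) := ψ'.toAlgebra
  letI : Module H' (integralClosure ℤ ℂ) := Algebra.toModule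
  haveI : Algebra.IsIntegral H' (integralClosure ℤ ℂ) :=
    ⟨fun x => (integralClosure.isIntegral x).tower_top⟩
  have hker' : RingHom.ker (algebraMap H' (integralClosure ℤ ℂ)) ≤ m := by
    intro t ht
    apply hkerψ
    rw [RingHom.mem_ker] at ht ⊢
    exact congrArg Subtype.val ht
  obtain ⟨Q, hQmax, hQ⟩ := Ideal.exists_ideal_over_maximal_of_isIntegral
    (S := integralClosure ℤ ℂ) m hker'
  have hQmem : ∀ t : H', t ∈ m → ψ' t ∈ Q := by
    intro t ht
    rw [← hQ] at ht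
    exact ht
  refine ⟨χ, w, Q, hw0', hweig', hQmax, ?_, ?_⟩
  · intro t ht hkill
    have h0 : χ t = ψ ⟨t, ht⟩ := hχψ ⟨t, ht⟩
    rw [h0]
    have h1 : diag M t (v : CuspForm (Gamma0 M) 2 × CuspForm (Gamma0 M) 2) = 0 :=
      LinearMap.eqOn_span (f := diag M t) (g := 0) (fun z hz => hkill z hz) v.2
    have h2 : ψ ⟨t, ht⟩ • (v : CuspForm (Gamma0 M) 2 × CuspForm (Gamma0 M) 2) = 0 := by
      rw [← heig' ⟨t, ht⟩]
      exact h1
    rcases smul_eq_zero.1 h2 with h3 | h3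
    · exact h3
    · exact absurd h3 hv0'
  · intro t ht hcond
    exact ⟨ψ' ⟨t, ht⟩, (hχψ ⟨t, ht⟩).symm, hQmem _ (hm₀m (hcond y' hy'))⟩

end Core

/-! ### The main theorem, weak form -/

/-- **[ENDGAME], weak form**: as `Endgame.exists_eigenform_of_new_class`, but the sublattice `K`
is only assumed to be stable under the `T_ℓ` with `ℓ ∈ I` and under `U_q`. -/
theorem exists_eigenform_of_new_class_weak (M q p : ℕ) [NeZero M] (hq : q.Prime) (hqM : q ∣ M)
    (K : Submodule ℤ (Additive (Gamma0 M) →+ ℤ)) (hKL : K ≤ Lat M) (I : Set ℕ)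
    (hT : ∀ (ℓ : ℕ) (hℓ : ℓ.Prime) (hℓM : ¬ ℓ ∣ M), ℓ ∈ I → ∀ x ∈ K, tcoh M hℓ hℓM ℤ x ∈ K)
    (hU : ∀ x ∈ K, ucoh M hq hqM ℤ x ∈ K)
    (hUq : ∀ x ∈ K, ucoh M hq hqM ℤ (ucoh M hq hqM ℤ x) = x)
    (a : ℕ → ℤ) (y : Additive (Gamma0 M) →+ ℤ) (hyK : y ∈ K)
    (hy : ∀ y₀ ∈ K, y ≠ (p : ℤ) • y₀)
    (hcong : ∀ (ℓ : ℕ) (hℓ : ℓ.Prime) (hℓM : ¬ ℓ ∣ M), ℓ ∈ I →
      ∃ w ∈ K, tcoh M hℓ hℓM ℤ y - a ℓ • y = (p : ℤ) • w) :
    ∃ (g : CuspForm (Gamma0 M) 2) (𝔪' : Ideal (integralClosure ℤ ℂ)),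
      g.IsNormalizedEigenform ∧ 𝔪'.IsMaximal ∧ (p : integralClosure ℤ ℂ) ∈ 𝔪' ∧
      (∀ ℓ : ℕ, ℓ.Prime → ¬ ℓ ∣ M → ℓ ∈ I → ∃ α : integralClosure ℤ ℂ,
        (α : ℂ) = qCoeff g ℓ ∧ α - ((a ℓ : ℤ) : integralClosure ℤ ℂ) ∈ 𝔪') ∧
      qCoeff g q ^ 2 = 1 := by
  classical
  let H := CuspForm.heckeAlgebra M 2 (∅ : Set ℕ)
  let Uq : H := CuspForm.heckeAlgebra.U hq hqM (Set.notMem_empty q)
  let gens : Set H := {t | ∃ (ℓ : ℕ) (hℓ : ℓ.Prime) (hℓM : ¬ ℓ ∣ M), ℓ ∈ I ∧
    t = CuspForm.heckeAlgebra.T hℓ hℓM (Set.notMem_empty ℓ)} ∪ {Uq}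
  let H' : Subalgebra ℤ H := Algebra.adjoin ℤ gens
  have hEinj : Function.Injective (periodHomPair M) := (Fermat.Agent.S21.result M).1
  have hErange : ∀ ψ ∈ K, ∃ z, periodHomPair M z = toC ψ := by
    intro ψ hψ
    have h1 : toC ψ ∈ LinearMap.range (periodHomPair M) := by
      rw [(Fermat.Agent.S21.result M).2]
      exact toC_mem_parabolicHoms.2 (hKL hψ)
    exact h1
  have hdT : ∀ (ℓ : ℕ) (hℓ : ℓ.Prime) (hℓM : ¬ ℓ ∣ M) (z),
      diag M (CuspForm.heckeAlgebra.T hℓ hℓM (Set.notMem_empty ℓ)) z =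
        (CuspForm.heckeTLin 2 hℓ hℓM z.1, CuspForm.heckeTLin 2 hℓ hℓM z.2) := fun _ _ _ _ => rfl
  have hdU : ∀ z, diag M Uq z = (CuspForm.heckeULin 2 hqM z.1, CuspForm.heckeULin 2 hqM z.2) :=
    fun z => rfl
  have hH' : ∀ t ∈ H', ∀ x ∈ pairLat M K, diag M t x ∈ pairLat M K := by
    intro t ht
    refine Algebra.adjoin_induction
      (p := fun t _ => ∀ x ∈ pairLat M K, diag M t x ∈ pairLat M K) ?_ ?_ ?_ ?_ ht
    · rintro t (⟨ℓ, hℓ, hℓM, hℓI, rfl⟩ | rfl) x ⟨ψ, hψ, h⟩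
      · exact ⟨tcoh M hℓ hℓM ℤ ψ, hT ℓ hℓ hℓM hℓI ψ hψ, by
          rw [hdT, periodHomPair_heckeT, h, tcoh_toC]⟩
      · exact ⟨ucoh M hq hqM ℤ ψ, hU ψ hψ, by
          rw [hdU, periodHomPair_heckeU M hq, h, ucoh_toC]⟩
    · intro n x hx
      have h1 : diag M (algebraMap ℤ H n) x = n • x := by
        rw [eq_intCast, map_intCast, Module.End.intCast_apply]
      rw [h1]
      exact (pairLat M K).zsmul_mem hx n
    · intro s t _ _ hs ht x hx
      rw [map_add, LinearMap.add_apply]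
      exact (pairLat M K).add_mem (hs x hx) (ht x hx)
    · intro s t _ _ hs ht x hx
      rw [map_mul, Module.End.mul_apply]
      exact hs _ (ht x hx)
  obtain ⟨χ, g₀, Q, hg0, hgeig, hQmax, hzero, hQ⟩ :=
    exists_eigen_of_subalgebra p hKL H' hH' y hyK hy
  have hUqH' : Uq ∈ H' := Algebra.subset_adjoin (Or.inr rfl)
  have hTH' : ∀ (ℓ : ℕ) (hℓ : ℓ.Prime) (hℓM : ¬ ℓ ∣ M), ℓ ∈ I →
      CuspForm.heckeAlgebra.T hℓ hℓM (Set.notMem_empty ℓ) ∈ H' :=
    fun ℓ hℓ hℓM hℓI => Algebra.subset_adjoin (Or.inl ⟨ℓ, hℓ, hℓM, hℓI, rfl⟩)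
  -- `U_q ^ 2 = 1`
  have hsq : χ Uq * χ Uq = 1 := by
    have h1 : χ (Uq * Uq - 1) = 0 := by
      apply hzero _ (H'.sub_mem (H'.mul_mem hUqH' hUqH') H'.one_mem)
      rintro x ⟨φ, hφ, hx⟩
      rw [map_sub, map_one, LinearMap.sub_apply, Module.End.one_apply, sub_eq_zero]
      apply hEinj
      rw [map_mul, Module.End.mul_apply, hdU, periodHomPair_heckeU M hq hqM, hdU,
        periodHomPair_heckeU M hq hqM, hx, ucoh_toC, ucoh_toC, hUq φ hφ]
    rw [map_sub, map_mul, map_one] at h1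
    exact sub_eq_zero.1 h1
  -- `p ∈ Q`
  have hpQ : (p : integralClosure ℤ ℂ) ∈ Q := by
    obtain ⟨α, hα, hαQ⟩ := hQ ((p : ℤ) : H) (intCast_mem H' p)
      (fun y' hy' => ⟨y', ⟨y, hyK, hy'⟩, by
        rw [map_intCast, Module.End.intCast_apply, ← Int.cast_smul_eq_zsmul ℂ]
        push_cast
        rfl⟩)
    have h1 : α = (p : integralClosure ℤ ℂ) := by
      apply Subtype.ext
      rw [hα, map_intCast]
      push_cast
      rfl
    rw [← h1]
    exact hαQ
  let lam : ℕ → ℂ := fun p =>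
    if hp : p.Prime then
      (if hpN : p ∣ M then χ (CuspForm.heckeAlgebra.U hp hpN (Set.notMem_empty p))
        else χ (CuspForm.heckeAlgebra.T hp hpN (Set.notMem_empty p)))
    else 0
  obtain ⟨F, hF, hFlam⟩ := Fermat.Agent.S49.Eigen.exists_normalized g₀ hg0 lam
    (fun p hp hpN => by
      simp only [lam, dif_pos hp, dif_neg hpN]
      exact hgeig (CuspForm.heckeAlgebra.T hp hpN (Set.notMem_empty p)))
    (fun p hp hpN => by
      simp only [lam, dif_pos hp, dif_pos hpN]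
      exact hgeig (CuspForm.heckeAlgebra.U hp hpN (Set.notMem_empty p)))
  refine ⟨F, Q, hF, hQmax, hpQ, ?_, ?_⟩
  · intro ℓ hℓ hℓM hℓI
    obtain ⟨w, hwK, hw⟩ := hcong ℓ hℓ hℓM hℓI
    obtain ⟨z, hz⟩ := hErange w hwK
    obtain ⟨β, hβ, hβQ⟩ := hQ
      (CuspForm.heckeAlgebra.T hℓ hℓM (Set.notMem_empty ℓ) - ((a ℓ : ℤ) : H))
      (H'.sub_mem (hTH' ℓ hℓ hℓM hℓI) (intCast_mem H' (a ℓ)))
      (fun y' hy' => ⟨z, ⟨w, hwK, hz⟩, by
        apply hEinj
        rw [map_sub, LinearMap.sub_apply, map_sub, map_intCast, Module.End.intCast_apply,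
          map_zsmul, map_smul, hz, hdT, periodHomPair_heckeT, hy', tcoh_toC, ← toC_zsmul,
          ← toC_sub, hw, toC_intCast_smul]
        push_cast
        rfl⟩)
    refine ⟨β + ((a ℓ : ℤ) : integralClosure ℤ ℂ), ?_, ?_⟩
    · rw [hFlam ℓ hℓ]
      simp only [lam, dif_pos hℓ, dif_neg hℓM]
      push_cast
      rw [hβ, map_sub, map_intCast]
      ring
    · rw [add_sub_cancel_right]
      exact hβQ
  · rw [hFlam q hq]
    simp only [lam, dif_pos hq, dif_pos hqM]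
    rw [pow_two]
    exact hsq

end Fermat.Agent.P7.Endgame2
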