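import Mathlib
import Fermat.Agent.P7.Endgame2
import Fermat.Agent.P7.LRCore
import Fermat.Agent.P7.DegenLat

/-!
# P7 [ENDGAME] in the shape of `LRCore.EndgameStmt` (contract (C4) of `P7/LRCore`)

`LRCore.EndgameStmt N q p uq` is stated for a sublattice `K` of `↥(Lat (N q))` and an abstract
linear map `uq` on `↥(Lat (N q))`.  It holds for EVERY `uq` lifting the cohomological `U_q` of
`P7/Endgame` (`Endgame.ucoh`, the transfer operator of the coset family `heckeMatrix q j`):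

* `endgameStmt_of_coe`: `EndgameStmt N q p uq` from
  `∀ y, ↑(uq y) = Endgame.ucoh (N q) hq _ ℤ ↑y`;
* `endgameStmt_uqL`: the instance `uq := DegenLat.uqL N q` (the coercion equation is `rfl`).
-/

set_option autoImplicit false
set_option linter.style.haveILetI false
set_option linter.unusedSectionVars false

namespace Fermat.Agent.P7.EndgameLR

open UpperHalfPlane hiding I
open scoped MatrixGroups ModularForm
open CongruenceSubgroup ModularCurve ModularCurve.Period ModularFormClass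
open Fermat.Agent.P5.Per Fermat.Agent.P7.Endgame Fermat.Agent.P7.Endgame2

/-- **(C4) [ENDGAME]**: `LRCore.EndgameStmt` for any linear map `uq` on the parabolic lattice of
level `N q` which lifts the cohomological `U_q`. -/
theorem endgameStmt_of_coe (N q p : ℕ) [NeZero (N * q)] (hq : q.Prime)
    (uq : Lat (N * q) →ₗ[ℤ] Lat (N * q))
    (huq : ∀ y : Lat (N * q), ((uq y : Lat (N * q)) : Additive (Gamma0 (N * q)) →+ ℤ) =
      ucoh (N * q) hq (Dvd.intro_left N rfl) ℤ (y : Additive (Gamma0 (N * q)) →+ ℤ)) :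
    LRCore.EndgameStmt N q p uq := by
  intro K I a hI hT hU hUq y hyK hy hcong
  -- the sublattice as a submodule of the raw homomorphisms
  have hmem : ∀ x : Additive (Gamma0 (N * q)) →+ ℤ,
      x ∈ K.map (Lat (N * q)).subtype ↔ ∃ x₀ ∈ K, (x₀ : Additive (Gamma0 (N * q)) →+ ℤ) = x :=
    fun x => Submodule.mem_map
  have hT' : ∀ (ℓ : ℕ) (hℓ : ℓ.Prime) (hℓM : ¬ ℓ ∣ N * q), ℓ ∈ I →
      ∀ x ∈ K.map (Lat (N * q)).subtype, tcoh (N * q) hℓ hℓM ℤ x ∈ K.map (Lat (N * q)).subtype := by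
    intro ℓ hℓ hℓM hℓI x hx
    obtain ⟨x₀, hx₀, rfl⟩ := (hmem x).1 hx
    exact (hmem _).2 ⟨tcohL (N * q) hℓ hℓM x₀, hT ℓ hℓ hℓM hℓI x₀ hx₀, rfl⟩
  have hU' : ∀ x ∈ K.map (Lat (N * q)).subtype,
      ucoh (N * q) hq (Dvd.intro_left N rfl) ℤ x ∈ K.map (Lat (N * q)).subtype := by
    intro x hx
    obtain ⟨x₀, hx₀, rfl⟩ := (hmem x).1 hx
    exact (hmem _).2 ⟨uq x₀, hU x₀ hx₀, huq x₀⟩
  have hUq' : ∀ x ∈ K.map (Lat (N * q)).subtype,
      ucoh (N * q) hq (Dvd.intro_left N rfl) ℤ (ucoh (N * q) hq (Dvd.intro_left N rfl) ℤ x) = x := by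
    intro x hx
    obtain ⟨x₀, hx₀, rfl⟩ := (hmem x).1 hx
    rw [← huq, ← huq, hUq x₀ hx₀]
  have hyK' : (y : Additive (Gamma0 (N * q)) →+ ℤ) ∈ K.map (Lat (N * q)).subtype :=
    (hmem _).2 ⟨y, hyK, rfl⟩
  have hy' : ∀ y₀ ∈ K.map (Lat (N * q)).subtype,
      (y : Additive (Gamma0 (N * q)) →+ ℤ) ≠ (p : ℤ) • y₀ := by
    intro y₀ hy₀ h
    obtain ⟨z, hz, rfl⟩ := (hmem y₀).1 hy₀
    exact hy ⟨z, hz, Subtype.ext h⟩
  have hcong' : ∀ (ℓ : ℕ) (hℓ : ℓ.Prime) (hℓM : ¬ ℓ ∣ N * q), ℓ ∈ I →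
      ∃ w ∈ K.map (Lat (N * q)).subtype,
        tcoh (N * q) hℓ hℓM ℤ (y : Additive (Gamma0 (N * q)) →+ ℤ) -
          a ℓ • (y : Additive (Gamma0 (N * q)) →+ ℤ) = (p : ℤ) • w := by
    intro ℓ hℓ hℓM hℓI
    obtain ⟨w, hw, h⟩ := hcong ℓ hℓ hℓM hℓI
    exact ⟨(w : Additive (Gamma0 (N * q)) →+ ℤ), (hmem _).2 ⟨w, hw, rfl⟩,
      congrArg Subtype.val h⟩
  obtain ⟨g, 𝔪', hg, hmax, hp𝔪, hc, hnew⟩ :=
    exists_eigenform_of_new_class_weak (N * q) q p hq (Dvd.intro_left N rfl)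
      (K.map (Lat (N * q)).subtype) (Submodule.map_subtype_le _ _) I hT' hU' hUq' a
      (y : Additive (Gamma0 (N * q)) →+ ℤ) hyK' hy' hcong'
  exact ⟨g, 𝔪', hg, hmax, hp𝔪, fun ℓ hℓ => hc ℓ (hI ℓ hℓ).1 (hI ℓ hℓ).2 hℓ, hnew⟩

/-- **(C4) [ENDGAME]** for the concrete `U_q` on the lattice of `P7/DegenLat`. -/
theorem endgameStmt_uqL (N q p : ℕ) [NeZero N] [Fact q.Prime] :
    LRCore.EndgameStmt N q p (DegenLat.uqL N q) :=
  endgameStmt_of_coe N q p (Fact.out : q.Prime) (DegenLat.uqL N q) (fun _ => rfl)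

end Fermat.Agent.P7.EndgameLR
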