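import Mathlib
import Fermat.Prelude.Def_FreyPackage_LevelRaising
import Fermat.Agent.P7.Endgame2
import Fermat.Agent.P7.DegenUq

/-!
# P7 block [ENDGAME], instance for the `q`-new lattice of level `N q`

`newLat N q hqN` is the sublattice of the integral parabolic lattice `Lat (N q)` killed by the two
transfers `corA`, `corB` to level `N` (`P7/DegenDefs`).  By `P7/DegenUq` the operator `U_q`
(`Degen.uq = Endgame.ucoh`, definitionally) preserves it and is an involution on it, so the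
hypotheses (hKL), (hU), (hUq) of `Endgame2.exists_eigenform_of_new_class_weak` hold and only the
stability under the `T_ℓ`, `ℓ ∈ I`, remains as a hypothesis:

* `ucoh_mem_lat`: the cohomological `U_r` preserves the parabolic lattice;
* `newLat`, `mem_newLat`, `ucoh_mem_newLat`, `ucoh_ucoh_newLat`, `tcoh_mem_newLat`;
* `exists_eigenform_of_new`: the endgame for classes in `newLat` (raw homomorphisms);
* `exists_eigenform_of_new_lat`: the same for elements of `↥(Lat (N q))` and arbitrary linear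
  maps `cA cB : Lat (N q) →ₗ[ℤ] Lat N` lifting `corA`, `corB` — the hypotheses are literally the
  conclusion of `RibetDual.exists_new_of_contract'`.
-/

set_option autoImplicit false
set_option linter.style.haveILetI false
set_option linter.unusedSectionVars false

namespace Fermat.Agent.P7.EndgameNew

open UpperHalfPlane hiding I
open scoped MatrixGroups ModularForm
open CongruenceSubgroup ModularCurve ModularCurve.Period ModularFormClass
open Fermat.Agent.P5.Per Fermat.Agent.P7.Endgame Fermat.Agent.P7.Endgame2 Fermat.Agent.P7.Degen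

/-- The cohomological `U_r` preserves the integral parabolic lattice. -/
theorem ucoh_mem_lat (M : ℕ) [NeZero M] {r : ℕ} (hr : r.Prime) (hrM : r ∣ M)
    {ψ : Additive (Gamma0 M) →+ ℤ} (hψ : ψ ∈ Lat M) : ucoh M hr hrM ℤ ψ ∈ Lat M := by
  refine toC_mem_parabolicHoms.1 ?_
  rw [← ucoh_toC]
  have h1 : toC ψ ∈ LinearMap.range (periodHomPair M) := by
    rw [(Fermat.Agent.S21.result M).2]
    exact toC_mem_parabolicHoms.2 hψ
  obtain ⟨z, hz⟩ := h1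
  rw [← hz, ← periodHomPair_heckeU M hr hrM, ← (Fermat.Agent.S21.result M).2]
  exact LinearMap.mem_range_self _ _

section New

variable (N q : ℕ) [NeZero N] [Fact q.Prime] (hqN : ¬ q ∣ N)

/-- The `q`-new sublattice of the parabolic lattice of level `N q`: the classes killed by both
transfers to level `N`. -/
noncomputable def newLat : Submodule ℤ (Additive (Gamma0 (N * q)) →+ ℤ) where
  carrier := {y | y ∈ Lat (N * q) ∧ corA N q ℤ y = 0 ∧ corB N q hqN ℤ y = 0}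
  add_mem' := by
    rintro x y ⟨hx, hxA, hxB⟩ ⟨hy, hyA, hyB⟩
    exact ⟨(Lat (N * q)).add_mem hx hy, by rw [map_add, hxA, hyA, add_zero],
      by rw [map_add, hxB, hyB, add_zero]⟩
  zero_mem' := ⟨(Lat (N * q)).zero_mem, map_zero _, map_zero _⟩
  smul_mem' := by
    rintro c x ⟨hx, hxA, hxB⟩
    exact ⟨(Lat (N * q)).smul_mem c hx, by rw [map_zsmul, hxA, smul_zero],
      by rw [map_zsmul, hxB, smul_zero]⟩

variable {N q}

theorem mem_newLat {y : Additive (Gamma0 (N * q)) →+ ℤ} :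
    y ∈ newLat N q hqN ↔ y ∈ Lat (N * q) ∧ corA N q ℤ y = 0 ∧ corB N q hqN ℤ y = 0 := Iff.rfl

theorem newLat_le : newLat N q hqN ≤ Lat (N * q) := fun _ h => h.1

/-- `Degen.uq` is `Endgame.ucoh`. -/
theorem uq_eq_ucoh (A : Type*) [AddCommGroup A] (y : Additive (Gamma0 (N * q)) →+ A) :
    uq N q A y = ucoh (N * q) (Fact.out : q.Prime) (dvd_mul_left q N) A y := rfl

/-- `U_q` preserves the new lattice. -/
theorem ucoh_mem_newLat {y : Additive (Gamma0 (N * q)) →+ ℤ} (hy : y ∈ newLat N q hqN) :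
    ucoh (N * q) (Fact.out : q.Prime) (dvd_mul_left q N) ℤ y ∈ newLat N q hqN := by
  obtain ⟨hL, hA, hB⟩ := hy
  refine ⟨ucoh_mem_lat (N * q) _ _ hL, ?_, ?_⟩
  · rw [← uq_eq_ucoh]
    exact corA_uq_of_new N q hqN y hB
  · rw [← uq_eq_ucoh]
    exact corB_uq_of_new N q hqN y hA hB

/-- `U_q` is an involution on the new lattice. -/
theorem ucoh_ucoh_newLat {y : Additive (Gamma0 (N * q)) →+ ℤ} (hy : y ∈ newLat N q hqN) :
    ucoh (N * q) (Fact.out : q.Prime) (dvd_mul_left q N) ℤ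
      (ucoh (N * q) (Fact.out : q.Prime) (dvd_mul_left q N) ℤ y) = y := by
  obtain ⟨-, hA, hB⟩ := hy
  rw [← uq_eq_ucoh, ← uq_eq_ucoh]
  exact uq_uq_of_new N q hqN y hA hB

/-- `T_ℓ` preserves the new lattice as soon as it commutes with the two transfers. -/
theorem tcoh_mem_newLat {ℓ : ℕ} (hℓ : ℓ.Prime) (hℓM : ¬ ℓ ∣ N * q) (hℓN : ¬ ℓ ∣ N)
    (hA : ∀ x : Additive (Gamma0 (N * q)) →+ ℤ,
      corA N q ℤ (tcoh (N * q) hℓ hℓM ℤ x) = tcoh N hℓ hℓN ℤ (corA N q ℤ x))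
    (hB : ∀ x : Additive (Gamma0 (N * q)) →+ ℤ,
      corB N q hqN ℤ (tcoh (N * q) hℓ hℓM ℤ x) = tcoh N hℓ hℓN ℤ (corB N q hqN ℤ x))
    {y : Additive (Gamma0 (N * q)) →+ ℤ} (hy : y ∈ newLat N q hqN) :
    tcoh (N * q) hℓ hℓM ℤ y ∈ newLat N q hqN := by
  obtain ⟨hL, hyA, hyB⟩ := hy
  exact ⟨tcoh_mem_parabolicHoms_int (N * q) hℓ hℓM hL, by rw [hA, hyA, map_zero],
    by rw [hB, hyB, map_zero]⟩

/-- **[ENDGAME] for the new lattice** (raw homomorphisms): a class `y` of the `q`-new lattice of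
level `N q`, not divisible by `p` in it, which is an eigenvector modulo `p` times the new lattice
of the `T_ℓ`, `ℓ ∈ I`, gives a normalised eigenform of level `N q`, new at `q`, with the same
eigenvalues modulo a maximal ideal over `p`. -/
theorem exists_eigenform_of_new (p : ℕ) (I : Set ℕ) (a : ℕ → ℤ)
    (hT : ∀ (ℓ : ℕ) (hℓ : ℓ.Prime) (hℓM : ¬ ℓ ∣ N * q), ℓ ∈ I →
      ∀ x ∈ newLat N q hqN, tcoh (N * q) hℓ hℓM ℤ x ∈ newLat N q hqN)
    (y : Additive (Gamma0 (N * q)) →+ ℤ) (hyK : y ∈ newLat N q hqN)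
    (hy : ∀ y₀ ∈ newLat N q hqN, y ≠ (p : ℤ) • y₀)
    (hcong : ∀ (ℓ : ℕ) (hℓ : ℓ.Prime) (hℓM : ¬ ℓ ∣ N * q), ℓ ∈ I →
      ∃ w ∈ newLat N q hqN, tcoh (N * q) hℓ hℓM ℤ y - a ℓ • y = (p : ℤ) • w) :
    ∃ (g : CuspForm (Gamma0 (N * q)) 2) (𝔪' : Ideal (integralClosure ℤ ℂ)),
      g.IsNormalizedEigenform ∧ 𝔪'.IsMaximal ∧ (p : integralClosure ℤ ℂ) ∈ 𝔪' ∧
      (∀ ℓ : ℕ, ℓ.Prime → ¬ ℓ ∣ N * q → ℓ ∈ I → ∃ α : integralClosure ℤ ℂ,
        (α : ℂ) = qCoeff g ℓ ∧ α - ((a ℓ : ℤ) : integralClosure ℤ ℂ) ∈ 𝔪') ∧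
      g.IsNewAt q :=
  exists_eigenform_of_new_class_weak (N * q) q p (Fact.out : q.Prime) (dvd_mul_left q N)
    (newLat N q hqN) (newLat_le hqN) I hT (fun _ hx => ucoh_mem_newLat hqN hx)
    (fun _ hx => ucoh_ucoh_newLat hqN hx) a y hyK hy hcong

/-- **[ENDGAME] for the new lattice, lattice form**: `cA`, `cB` are any linear maps
`Lat (N q) → Lat N` lifting the two transfers.  The hypotheses `hyA`, `hyB`, `hy`, `hcong` are the
conclusion of `RibetDual.exists_new_of_contract'` (with `t' = tcohL`). -/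
theorem exists_eigenform_of_new_lat (p : ℕ) (I : Set ℕ) (a : ℕ → ℤ)
    (cA cB : Lat (N * q) →ₗ[ℤ] Lat N)
    (hcA : ∀ y : Lat (N * q), ((cA y : Lat N) : Additive (Gamma0 N) →+ ℤ) =
      corA N q ℤ (y : Additive (Gamma0 (N * q)) →+ ℤ))
    (hcB : ∀ y : Lat (N * q), ((cB y : Lat N) : Additive (Gamma0 N) →+ ℤ) =
      corB N q hqN ℤ (y : Additive (Gamma0 (N * q)) →+ ℤ))
    (hT : ∀ (ℓ : ℕ) (hℓ : ℓ.Prime) (hℓM : ¬ ℓ ∣ N * q), ℓ ∈ I → ∀ x : Lat (N * q),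
      cA x = 0 → cB x = 0 → cA (tcohL (N * q) hℓ hℓM x) = 0 ∧ cB (tcohL (N * q) hℓ hℓM x) = 0)
    (y : Lat (N * q)) (hyA : cA y = 0) (hyB : cB y = 0)
    (hy : ¬ ∃ y₀ : Lat (N * q), cA y₀ = 0 ∧ cB y₀ = 0 ∧ y = (p : ℤ) • y₀)
    (hcong : ∀ (ℓ : ℕ) (hℓ : ℓ.Prime) (hℓM : ¬ ℓ ∣ N * q), ℓ ∈ I →
      ∃ w : Lat (N * q), cA w = 0 ∧ cB w = 0 ∧
        tcohL (N * q) hℓ hℓM y - a ℓ • y = (p : ℤ) • w) :
    ∃ (g : CuspForm (Gamma0 (N * q)) 2) (𝔪' : Ideal (integralClosure ℤ ℂ)),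
      g.IsNormalizedEigenform ∧ 𝔪'.IsMaximal ∧ (p : integralClosure ℤ ℂ) ∈ 𝔪' ∧
      (∀ ℓ : ℕ, ℓ.Prime → ¬ ℓ ∣ N * q → ℓ ∈ I → ∃ α : integralClosure ℤ ℂ,
        (α : ℂ) = qCoeff g ℓ ∧ α - ((a ℓ : ℤ) : integralClosure ℤ ℂ) ∈ 𝔪') ∧
      g.IsNewAt q := by
  -- the dictionary between the two descriptions of the new lattice
  have hmem : ∀ x : Lat (N * q),
      (x : Additive (Gamma0 (N * q)) →+ ℤ) ∈ newLat N q hqN ↔ cA x = 0 ∧ cB x = 0 := by
    intro x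
    constructor
    · rintro ⟨-, hA, hB⟩
      exact ⟨Subtype.ext (by rw [hcA, hA]; rfl), Subtype.ext (by rw [hcB, hB]; rfl)⟩
    · rintro ⟨hA, hB⟩
      refine ⟨x.2, ?_, ?_⟩
      · rw [← hcA, hA]; rfl
      · rw [← hcB, hB]; rfl
  refine exists_eigenform_of_new hqN p I a ?_ (y : Additive (Gamma0 (N * q)) →+ ℤ)
    ((hmem y).2 ⟨hyA, hyB⟩) ?_ ?_
  · intro ℓ hℓ hℓM hℓI x hx
    have h1 := (hmem ⟨x, hx.1⟩).1 hx
    exact (hmem (tcohL (N * q) hℓ hℓM ⟨x, hx.1⟩)).2 (hT ℓ hℓ hℓM hℓI ⟨x, hx.1⟩ h1.1 h1.2)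
  · intro y₀ hy₀ h
    have h1 := (hmem ⟨y₀, hy₀.1⟩).1 hy₀
    exact hy ⟨⟨y₀, hy₀.1⟩, h1.1, h1.2, Subtype.ext h⟩
  · intro ℓ hℓ hℓM hℓI
    obtain ⟨w, hwA, hwB, hw⟩ := hcong ℓ hℓ hℓM hℓI
    exact ⟨(w : Additive (Gamma0 (N * q)) →+ ℤ), (hmem w).2 ⟨hwA, hwB⟩,
      congrArg Subtype.val hw⟩

end New

end Fermat.Agent.P7.EndgameNew
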