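import Mathlib
import Fermat.Agent.S21.ParabolicConj
import Fermat.Agent.P7.Shap
import Fermat.Agent.P7.EllConj

/-!
# `Shap.Kills` versus trace conditions on subgroups of `SL(2, ℤ)`

For a subgroup `Γ ≤ SL(2, ℤ)` and an additive function `φ : Γ → A`, the Shapiro-side
description "`φ` kills every element of `Γ` conjugate in `SL(2, ℤ)` to a power of `S`, of
`S * T` and of a parabolic generator" (`Shap.Kills`) is the same as the matrix-side description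
"`φ` kills every element of trace `0`, `±1`, `±2`".

* `trace_zero_of_kills`, `trace_sq_one_of_kills`, `trace_sq_four_of_kills` : `Kills ⇒ trace`;
* `kills_of_finOrder_of_trace`, `kills_of_trace_sq_four` : `trace ⇒ Kills`;
* `kills_iff_trace` : the equivalence;
* transfer lemmas `kills_zpow`, `kills_conj`, `kills_inv`, `kills_neg`;
* the `Additive ↥Γ →+ A` forms (`hom_*`) and the `Gamma0 N` corollaries.
-/

set_option autoImplicit false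

namespace Fermat.Agent.P7.KillsTrace

open MatrixGroups ModularGroup
open Fermat.Agent.P7.Shap

/-! ## General transfer lemmas -/

section general

variable {G : Type*} [Group G] {Γ : Subgroup G} {A : Type*} [AddCommGroup A]

/-- `Kills` with integer exponents. -/
theorem kills_zpow {φ : Γ → A} (hφ : IsAdd φ) {t : G} (hk : Kills φ t) (u : G) (k : ℤ)
    (h : u⁻¹ * t ^ k * u ∈ Γ) : φ ⟨u⁻¹ * t ^ k * u, h⟩ = 0 := by
  rcases Int.eq_nat_or_neg k with ⟨n, rfl | rfl⟩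
  · have h' : u⁻¹ * t ^ n * u ∈ Γ := by simpa using h
    have := hk u n h'
    convert this using 2
    simp
  · have e : u⁻¹ * t ^ (-(n : ℤ)) * u = (u⁻¹ * t ^ n * u)⁻¹ := by
      rw [zpow_neg, zpow_natCast]; group
    have h' : u⁻¹ * t ^ n * u ∈ Γ := by
      have := Γ.inv_mem h
      rw [e, inv_inv] at this
      exact this
    have h0 := hk u n h'
    have h1 : (⟨u⁻¹ * t ^ (-(n : ℤ)) * u, h⟩ : Γ) = (⟨u⁻¹ * t ^ n * u, h'⟩ : Γ)⁻¹ :=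
      Subtype.ext e
    rw [h1, hφ.map_inv, h0, neg_zero]

/-- A convenient form: `φ` vanishes at `γ ∈ Γ` as soon as `γ = g * t ^ k * g⁻¹`. -/
theorem eq_zero_of_conj_zpow {φ : Γ → A} (hφ : IsAdd φ) {t : G} (hk : Kills φ t) (γ : Γ)
    (g : G) (k : ℤ) (h : (γ : G) = g * t ^ k * g⁻¹) : φ γ = 0 := by
  have hm : (g⁻¹)⁻¹ * t ^ k * g⁻¹ ∈ Γ := by
    rw [inv_inv, ← h]; exact γ.2
  have := kills_zpow hφ hk g⁻¹ k hm
  have e : (⟨(g⁻¹)⁻¹ * t ^ k * g⁻¹, hm⟩ : Γ) = γ := by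
    apply Subtype.ext
    show (g⁻¹)⁻¹ * t ^ k * g⁻¹ = (γ : G)
    rw [inv_inv, h]
  rwa [e] at this

theorem kills_conj_of {φ : Γ → A} {t : G} (w : G) (hk : Kills φ t) :
    Kills φ (w * t * w⁻¹) := by
  intro u e hu
  have e1 : u⁻¹ * (w * t * w⁻¹) ^ e * u = (w⁻¹ * u)⁻¹ * t ^ e * (w⁻¹ * u) := by
    rw [conj_pow]; group
  have h' : (w⁻¹ * u)⁻¹ * t ^ e * (w⁻¹ * u) ∈ Γ := by rw [← e1]; exact hu
  have := hk (w⁻¹ * u) e h'
  have e2 : (⟨u⁻¹ * (w * t * w⁻¹) ^ e * u, hu⟩ : Γ) = ⟨(w⁻¹ * u)⁻¹ * t ^ e * (w⁻¹ * u), h'⟩ :=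
    Subtype.ext e1
  rw [e2, this]

/-- `Kills` only depends on the conjugacy class of `t`. -/
theorem kills_conj {φ : Γ → A} {t : G} (w : G) : Kills φ (w * t * w⁻¹) ↔ Kills φ t := by
  refine ⟨fun h => ?_, kills_conj_of w⟩
  have := kills_conj_of w⁻¹ h
  have e : w⁻¹ * (w * t * w⁻¹) * w⁻¹⁻¹ = t := by group
  rwa [e] at this

theorem kills_inv_of {φ : Γ → A} (hφ : IsAdd φ) {t : G} (hk : Kills φ t) : Kills φ t⁻¹ := by
  intro u e hu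
  have e1 : u⁻¹ * t⁻¹ ^ e * u = u⁻¹ * t ^ (-(e : ℤ)) * u := by
    rw [zpow_neg, zpow_natCast, inv_pow]
  have h' : u⁻¹ * t ^ (-(e : ℤ)) * u ∈ Γ := by rw [← e1]; exact hu
  have := kills_zpow hφ hk u (-(e : ℤ)) h'
  have e2 : (⟨u⁻¹ * t⁻¹ ^ e * u, hu⟩ : Γ) = ⟨u⁻¹ * t ^ (-(e : ℤ)) * u, h'⟩ := Subtype.ext e1
  rw [e2, this]

/-- `Kills` is insensitive to inversion of `t`. -/
theorem kills_inv {φ : Γ → A} (hφ : IsAdd φ) {t : G} : Kills φ t⁻¹ ↔ Kills φ t := by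
  refine ⟨fun h => ?_, kills_inv_of hφ⟩
  have := kills_inv_of hφ h
  rwa [inv_inv] at this

end general

/-! ## `SL(2, ℤ)` -/

section sl2

variable {Γ : Subgroup SL(2, ℤ)} {A : Type*} [AddCommGroup A]

/-- The value at `-1` vanishes when `A` has no `2`-torsion. -/
theorem map_neg_one {φ : Γ → A} (hφ : IsAdd φ) (hneg : (-1 : SL(2, ℤ)) ∈ Γ)
    (h2 : ∀ a : A, a + a = 0 → a = 0) : φ ⟨-1, hneg⟩ = 0 := by
  apply h2
  rw [← hφ]
  have : (⟨-1, hneg⟩ : Γ) * ⟨-1, hneg⟩ = 1 := Subtype.ext (by simp)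
  rw [this, hφ.map_one]

theorem neg_mem_of (hneg : (-1 : SL(2, ℤ)) ∈ Γ) {x : SL(2, ℤ)} (hx : x ∈ Γ) : -x ∈ Γ := by
  have := Γ.mul_mem hneg hx
  rwa [neg_one_mul] at this

theorem neg_mem_iff (hneg : (-1 : SL(2, ℤ)) ∈ Γ) {x : SL(2, ℤ)} : -x ∈ Γ ↔ x ∈ Γ :=
  ⟨fun h => by simpa using neg_mem_of hneg h, neg_mem_of hneg⟩

/-- `φ (-x) = φ x` when `φ (-1) = 0`. -/
theorem map_neg {φ : Γ → A} (hφ : IsAdd φ) (hneg : (-1 : SL(2, ℤ)) ∈ Γ)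
    (h0 : φ ⟨-1, hneg⟩ = 0) {x : SL(2, ℤ)} (hx : x ∈ Γ) (hx' : -x ∈ Γ) :
    φ ⟨-x, hx'⟩ = φ ⟨x, hx⟩ := by
  have : (⟨-x, hx'⟩ : Γ) = ⟨-1, hneg⟩ * ⟨x, hx⟩ := Subtype.ext (by simp)
  rw [this, hφ, h0, zero_add]

theorem neg_pow_eq (t : SL(2, ℤ)) (e : ℕ) : (-t) ^ e = t ^ e ∨ (-t) ^ e = -(t ^ e) := by
  rcases Nat.even_or_odd e with he | he
  · left; exact he.neg_pow t
  · right; exact he.neg_pow t

theorem kills_neg_of {φ : Γ → A} (hφ : IsAdd φ) (hneg : (-1 : SL(2, ℤ)) ∈ Γ)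
    (h0 : φ ⟨-1, hneg⟩ = 0) {t : SL(2, ℤ)} (hk : Kills φ t) : Kills φ (-t) := by
  intro u e hu
  rcases neg_pow_eq t e with h | h
  · have e1 : u⁻¹ * (-t) ^ e * u = u⁻¹ * t ^ e * u := by rw [h]
    have h' : u⁻¹ * t ^ e * u ∈ Γ := by rw [← e1]; exact hu
    have e2 : (⟨u⁻¹ * (-t) ^ e * u, hu⟩ : Γ) = ⟨u⁻¹ * t ^ e * u, h'⟩ := Subtype.ext e1
    rw [e2, hk u e h']
  · have e1 : u⁻¹ * (-t) ^ e * u = -(u⁻¹ * t ^ e * u) := by
      rw [h, mul_neg, neg_mul]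
    have h'' : -(u⁻¹ * t ^ e * u) ∈ Γ := by rw [← e1]; exact hu
    have h' : u⁻¹ * t ^ e * u ∈ Γ := (neg_mem_iff hneg).mp h''
    have e2 : (⟨u⁻¹ * (-t) ^ e * u, hu⟩ : Γ) = ⟨-(u⁻¹ * t ^ e * u), h''⟩ := Subtype.ext e1
    rw [e2, map_neg hφ hneg h0 h' h'', hk u e h']

/-- `Kills` is insensitive to the sign of `t` (when `-1 ∈ Γ` is killed). -/
theorem kills_neg {φ : Γ → A} (hφ : IsAdd φ) (hneg : (-1 : SL(2, ℤ)) ∈ Γ)
    (h0 : φ ⟨-1, hneg⟩ = 0) {t : SL(2, ℤ)} : Kills φ (-t) ↔ Kills φ t := by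
  refine ⟨fun h => ?_, kills_neg_of hφ hneg h0⟩
  have := kills_neg_of hφ hneg h0 h
  rwa [neg_neg] at this

/-! ### `Kills ⇒ trace` -/

/-- **(K0)** `Kills φ S` kills every element of trace `0`. -/
theorem trace_zero_of_kills {φ : Γ → A} (hφ : IsAdd φ) (hS : Kills φ S) (γ : Γ)
    (h : ((γ : SL(2, ℤ)) : Matrix (Fin 2) (Fin 2) ℤ).trace = 0) : φ γ = 0 := by
  obtain ⟨g, k, hg⟩ := EllConj.exists_conj_of_trace_zero (γ : SL(2, ℤ)) h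
  exact eq_zero_of_conj_zpow hφ hS γ g k hg

theorem trace_eq_pm_one_of_sq {t : ℤ} (h : t ^ 2 = 1) : t = 1 ∨ t = -1 := by
  have h' : (t - 1) * (t + 1) = 0 := by linear_combination h
  rcases mul_eq_zero.mp h' with h1 | h1
  · left; linarith
  · right; linarith

/-- **(K1)** `Kills φ (S * T)` kills every element of trace `±1`. -/
theorem trace_sq_one_of_kills {φ : Γ → A} (hφ : IsAdd φ) (hR : Kills φ (S * T)) (γ : Γ)
    (h : ((γ : SL(2, ℤ)) : Matrix (Fin 2) (Fin 2) ℤ).trace ^ 2 = 1) : φ γ = 0 := by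
  obtain ⟨g, k, hg⟩ := EllConj.exists_conj_of_trace (γ : SL(2, ℤ)) (trace_eq_pm_one_of_sq h)
  exact eq_zero_of_conj_zpow hφ hR γ g k hg

/-- **(K4)**, general form: if `φ (-1) = 0` then `Kills φ T` kills every element of
trace `±2`. -/
theorem trace_sq_four_of_kills' {φ : Γ → A} (hφ : IsAdd φ) (hneg : (-1 : SL(2, ℤ)) ∈ Γ)
    (h0 : φ ⟨-1, hneg⟩ = 0) (hT : Kills φ T) (γ : Γ)
    (h : ((γ : SL(2, ℤ)) : Matrix (Fin 2) (Fin 2) ℤ).trace ^ 2 = 4) : φ γ = 0 := by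
  obtain ⟨δ, m, hδ | hδ⟩ := Fermat.Agent.S21.exists_conj_T_zpow (γ : SL(2, ℤ)) h
  · exact eq_zero_of_conj_zpow hφ hT γ δ m hδ
  · have hm : -(γ : SL(2, ℤ)) ∈ Γ := neg_mem_of hneg γ.2
    have e : ((⟨-(γ : SL(2, ℤ)), hm⟩ : Γ) : SL(2, ℤ)) = δ * T ^ m * δ⁻¹ := by
      simp only [hδ, neg_neg]
    have h1 := eq_zero_of_conj_zpow hφ hT ⟨-(γ : SL(2, ℤ)), hm⟩ δ m e
    rw [map_neg hφ hneg h0 γ.2 hm] at h1
    exact h1

/-- **(K4)** `Kills φ T` kills every element of trace `±2` (`-1 ∈ Γ`, no `2`-torsion). -/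
theorem trace_sq_four_of_kills {φ : Γ → A} (hφ : IsAdd φ) (hneg : (-1 : SL(2, ℤ)) ∈ Γ)
    (h2 : ∀ a : A, a + a = 0 → a = 0) (hT : Kills φ T) (γ : Γ)
    (h : ((γ : SL(2, ℤ)) : Matrix (Fin 2) (Fin 2) ℤ).trace ^ 2 = 4) : φ γ = 0 :=
  trace_sq_four_of_kills' hφ hneg (map_neg_one hφ hneg h2) hT γ h

/-! ### The other spellings of the parabolic generator -/

theorem S_inv_eq_neg : (S : SL(2, ℤ))⁻¹ = -S := by
  have hSS : S * S = (-1 : SL(2, ℤ)) := by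
    apply Subtype.ext
    rw [Matrix.SpecialLinearGroup.coe_mul, S_mul_S_eq]
    simp [Matrix.SpecialLinearGroup.coe_neg]
  rw [inv_eq_iff_mul_eq_one, mul_neg, hSS, neg_neg]

/-- `R * S = S * T * S = -(S * T * S⁻¹)`. -/
theorem STS_eq : S * T * S = -(S * T * S⁻¹) := by
  rw [S_inv_eq_neg, mul_neg, neg_neg]

theorem kills_STS_iff {φ : Γ → A} (hφ : IsAdd φ) (hneg : (-1 : SL(2, ℤ)) ∈ Γ)
    (h0 : φ ⟨-1, hneg⟩ = 0) : Kills φ (S * T * S) ↔ Kills φ T := by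
  rw [STS_eq, kills_neg hφ hneg h0, kills_conj]

theorem kills_SinvR_iff {φ : Γ → A} : Kills φ (S⁻¹ * (S * T)) ↔ Kills φ T := by
  rw [inv_mul_cancel_left]

/-- **(K4)** for the parabolic generator `R * S = S * T * S`. -/
theorem trace_sq_four_of_kills_STS {φ : Γ → A} (hφ : IsAdd φ) (hneg : (-1 : SL(2, ℤ)) ∈ Γ)
    (h2 : ∀ a : A, a + a = 0 → a = 0) (hP : Kills φ (S * T * S)) (γ : Γ)
    (h : ((γ : SL(2, ℤ)) : Matrix (Fin 2) (Fin 2) ℤ).trace ^ 2 = 4) : φ γ = 0 :=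
  trace_sq_four_of_kills hφ hneg h2
    ((kills_STS_iff hφ hneg (map_neg_one hφ hneg h2)).mp hP) γ h

/-- **(K4)** for the parabolic generator `S⁻¹ * R = S⁻¹ * (S * T)`. -/
theorem trace_sq_four_of_kills_SinvR {φ : Γ → A} (hφ : IsAdd φ) (hneg : (-1 : SL(2, ℤ)) ∈ Γ)
    (h2 : ∀ a : A, a + a = 0 → a = 0) (hP : Kills φ (S⁻¹ * (S * T))) (γ : Γ)
    (h : ((γ : SL(2, ℤ)) : Matrix (Fin 2) (Fin 2) ℤ).trace ^ 2 = 4) : φ γ = 0 :=
  trace_sq_four_of_kills hφ hneg h2 (kills_SinvR_iff.mp hP) γ h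

/-! ### `trace ⇒ Kills` -/

theorem trace_conj (u x : SL(2, ℤ)) :
    ((u⁻¹ * x * u : SL(2, ℤ)) : Matrix (Fin 2) (Fin 2) ℤ).trace =
      (x : Matrix (Fin 2) (Fin 2) ℤ).trace := by
  rw [Matrix.SpecialLinearGroup.coe_mul, Matrix.trace_mul_comm, ← Matrix.SpecialLinearGroup.coe_mul,
    mul_inv_cancel_left]

theorem trace_one' : ((1 : SL(2, ℤ)) : Matrix (Fin 2) (Fin 2) ℤ).trace = 2 := by
  rw [Matrix.SpecialLinearGroup.coe_one, Matrix.trace_one]; simp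

theorem trace_neg_one' : ((-1 : SL(2, ℤ)) : Matrix (Fin 2) (Fin 2) ℤ).trace = -2 := by
  rw [Matrix.SpecialLinearGroup.coe_neg, Matrix.trace_neg, Matrix.SpecialLinearGroup.coe_one,
    Matrix.trace_one]; simp

/-- An element of finite order is killed by every `φ` that kills the traces `0`, `±1`, `±2`. -/
theorem kills_of_finOrder_of_trace {φ : Γ → A}
    (h0 : ∀ γ : Γ, ((γ : SL(2, ℤ)) : Matrix (Fin 2) (Fin 2) ℤ).trace = 0 → φ γ = 0)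
    (h1 : ∀ γ : Γ, ((γ : SL(2, ℤ)) : Matrix (Fin 2) (Fin 2) ℤ).trace ^ 2 = 1 → φ γ = 0)
    (h4 : ∀ γ : Γ, ((γ : SL(2, ℤ)) : Matrix (Fin 2) (Fin 2) ℤ).trace ^ 2 = 4 → φ γ = 0)
    {t : SL(2, ℤ)} (ht : IsOfFinOrder t) : Kills φ t := by
  intro u e hu
  have hfin : IsOfFinOrder (u⁻¹ * t ^ e * u) := by
    obtain ⟨n, hn, hpow⟩ := isOfFinOrder_iff_pow_eq_one.mp ht
    rw [isOfFinOrder_iff_pow_eq_one]
    refine ⟨n, hn, ?_⟩
    have h1 : u⁻¹ * t ^ e * u = u⁻¹ * t ^ e * u⁻¹⁻¹ := by rw [inv_inv]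
    rw [h1, conj_pow, ← pow_mul, mul_comm e n, pow_mul, hpow, one_pow]
    group
  rcases EllConj.finOrder_trace_cases _ hfin with h | h | h | h | h
  · exact h4 _ (by show ((u⁻¹ * t ^ e * u : SL(2, ℤ)) : Matrix (Fin 2) (Fin 2) ℤ).trace ^ 2 = 4
                   rw [h, trace_one']; norm_num)
  · exact h4 _ (by show ((u⁻¹ * t ^ e * u : SL(2, ℤ)) : Matrix (Fin 2) (Fin 2) ℤ).trace ^ 2 = 4
                   rw [h, trace_neg_one']; norm_num)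
  · exact h0 _ h
  · exact h1 _ (by show ((u⁻¹ * t ^ e * u : SL(2, ℤ)) : Matrix (Fin 2) (Fin 2) ℤ).trace ^ 2 = 1
                   rw [h]; norm_num)
  · exact h1 _ (by show ((u⁻¹ * t ^ e * u : SL(2, ℤ)) : Matrix (Fin 2) (Fin 2) ℤ).trace ^ 2 = 1
                   rw [h]; norm_num)

/-- Powers of an element of trace `±2` have trace `±2`. -/
theorem trace_pow_sq_four (t : SL(2, ℤ))
    (ht : (t : Matrix (Fin 2) (Fin 2) ℤ).trace ^ 2 = 4) (e : ℕ) :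
    ((t ^ e : SL(2, ℤ)) : Matrix (Fin 2) (Fin 2) ℤ).trace ^ 2 = 4 := by
  rw [EllConj.coe_pow']
  have hkey : ∀ n : ℕ, ((t.1 ^ n).trace ^ 2 = 4 ∧ (t.1 ^ (n + 1)).trace ^ 2 = 4) ∧
      (t.1 ^ (n + 1)).trace * 2 = (t.1 0 0 + t.1 1 1) * (t.1 ^ n).trace := by
    intro n
    have htr : t.1.trace = t.1 0 0 + t.1 1 1 := Matrix.trace_fin_two _
    rw [htr] at ht
    induction n with
    | zero =>
      have h1 : (t.1 ^ 0).trace = 2 := by rw [pow_zero, Matrix.trace_one]; simp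
      have h2 : (t.1 ^ (0 + 1)).trace = t.1 0 0 + t.1 1 1 := by
        rw [zero_add, pow_one, Matrix.trace_fin_two]
      rw [h1, h2]
      exact ⟨⟨by norm_num, ht⟩, by ring⟩
    | succ n ih =>
      obtain ⟨⟨ih1, ih2⟩, ih3⟩ := ih
      have hrec := EllConj.trace_pow_succ_succ t n
      have e2 : (t.1 ^ (n + 1 + 1)).trace * 2 = (t.1 0 0 + t.1 1 1) * (t.1 ^ (n + 1)).trace := by
        rw [hrec]
        have h5 : 2 * ((t.1 0 0 + t.1 1 1) * (t.1 ^ (n + 1)).trace) = 4 * (t.1 ^ n).trace := by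
          linear_combination (t.1 0 0 + t.1 1 1) * ih3 + (t.1 ^ n).trace * ht
        linarith
      refine ⟨⟨ih2, ?_⟩, e2⟩
      have h4 : ((t.1 ^ (n + 1 + 1)).trace * 2) ^ 2 = 16 := by
        rw [e2, mul_pow, ht, ih2]; norm_num
      nlinarith [h4]
  exact (hkey e).1.1

/-- An element of trace `±2` is killed by every `φ` that kills the traces `±2`. -/
theorem kills_of_trace_sq_four {φ : Γ → A}
    (h4 : ∀ γ : Γ, ((γ : SL(2, ℤ)) : Matrix (Fin 2) (Fin 2) ℤ).trace ^ 2 = 4 → φ γ = 0)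
    {t : SL(2, ℤ)} (ht : (t : Matrix (Fin 2) (Fin 2) ℤ).trace ^ 2 = 4) : Kills φ t := by
  intro u e hu
  apply h4
  show ((u⁻¹ * t ^ e * u : SL(2, ℤ)) : Matrix (Fin 2) (Fin 2) ℤ).trace ^ 2 = 4
  rw [trace_conj]
  exact trace_pow_sq_four t ht e


theorem S_pow_four : (S : SL(2, ℤ)) ^ 4 = 1 := by
  have hSS : S * S = (-1 : SL(2, ℤ)) := by
    apply Subtype.ext
    rw [Matrix.SpecialLinearGroup.coe_mul, S_mul_S_eq]
    simp [Matrix.SpecialLinearGroup.coe_neg]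
  have : (S : SL(2, ℤ)) ^ 4 = (S * S) * (S * S) := by
    rw [show (4 : ℕ) = 2 + 2 from rfl, pow_add, pow_two]
  rw [this, hSS, neg_mul_neg, one_mul]

theorem isOfFinOrder_S : IsOfFinOrder (S : SL(2, ℤ)) :=
  isOfFinOrder_iff_pow_eq_one.mpr ⟨4, by norm_num, S_pow_four⟩

theorem R_pow_six : (S * T : SL(2, ℤ)) ^ 6 = 1 := by
  have : (S * T : SL(2, ℤ)) ^ 6 = (S * T) ^ 3 * (S * T) ^ 3 := by
    rw [show (6 : ℕ) = 3 + 3 from rfl, pow_add]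
  rw [this, EllConj.R_pow_three, neg_mul_neg, one_mul]

theorem isOfFinOrder_R : IsOfFinOrder (S * T : SL(2, ℤ)) :=
  isOfFinOrder_iff_pow_eq_one.mpr ⟨6, by norm_num, R_pow_six⟩

theorem trace_T : ((T : SL(2, ℤ)) : Matrix (Fin 2) (Fin 2) ℤ).trace = 2 := by
  rw [coe_T, Matrix.trace_fin_two]; simp

theorem trace_STS_sq :
    ((S * T * S : SL(2, ℤ)) : Matrix (Fin 2) (Fin 2) ℤ).trace ^ 2 = 4 := by
  have h : ((S * T * S : SL(2, ℤ)) : Matrix (Fin 2) (Fin 2) ℤ).trace = -2 := by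
    rw [STS_eq, Matrix.SpecialLinearGroup.coe_neg, Matrix.trace_neg]
    have := trace_conj (S⁻¹ : SL(2, ℤ)) T
    rw [inv_inv] at this
    rw [this, trace_T]
  rw [h]; norm_num

variable {φ : Γ → A}

theorem kills_S_of_trace
    (h0 : ∀ γ : Γ, ((γ : SL(2, ℤ)) : Matrix (Fin 2) (Fin 2) ℤ).trace = 0 → φ γ = 0)
    (h1 : ∀ γ : Γ, ((γ : SL(2, ℤ)) : Matrix (Fin 2) (Fin 2) ℤ).trace ^ 2 = 1 → φ γ = 0)
    (h4 : ∀ γ : Γ, ((γ : SL(2, ℤ)) : Matrix (Fin 2) (Fin 2) ℤ).trace ^ 2 = 4 → φ γ = 0) :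
    Kills φ S :=
  kills_of_finOrder_of_trace h0 h1 h4 isOfFinOrder_S

theorem kills_R_of_trace
    (h0 : ∀ γ : Γ, ((γ : SL(2, ℤ)) : Matrix (Fin 2) (Fin 2) ℤ).trace = 0 → φ γ = 0)
    (h1 : ∀ γ : Γ, ((γ : SL(2, ℤ)) : Matrix (Fin 2) (Fin 2) ℤ).trace ^ 2 = 1 → φ γ = 0)
    (h4 : ∀ γ : Γ, ((γ : SL(2, ℤ)) : Matrix (Fin 2) (Fin 2) ℤ).trace ^ 2 = 4 → φ γ = 0) :
    Kills φ (S * T) :=
  kills_of_finOrder_of_trace h0 h1 h4 isOfFinOrder_R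

theorem kills_T_of_trace
    (h4 : ∀ γ : Γ, ((γ : SL(2, ℤ)) : Matrix (Fin 2) (Fin 2) ℤ).trace ^ 2 = 4 → φ γ = 0) :
    Kills φ T :=
  kills_of_trace_sq_four h4 (by rw [trace_T]; norm_num)

theorem kills_STS_of_trace
    (h4 : ∀ γ : Γ, ((γ : SL(2, ℤ)) : Matrix (Fin 2) (Fin 2) ℤ).trace ^ 2 = 4 → φ γ = 0) :
    Kills φ (S * T * S) :=
  kills_of_trace_sq_four h4 trace_STS_sq

/-- **(K)** The Shapiro-side and the trace-side descriptions agree. -/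
theorem kills_iff_trace (hφ : IsAdd φ) (hneg : (-1 : SL(2, ℤ)) ∈ Γ)
    (h2 : ∀ a : A, a + a = 0 → a = 0) :
    (Kills φ S ∧ Kills φ (S * T) ∧ Kills φ (S * T * S)) ↔
      ((∀ γ : Γ, ((γ : SL(2, ℤ)) : Matrix (Fin 2) (Fin 2) ℤ).trace = 0 → φ γ = 0) ∧
        (∀ γ : Γ, ((γ : SL(2, ℤ)) : Matrix (Fin 2) (Fin 2) ℤ).trace ^ 2 = 1 → φ γ = 0) ∧
        (∀ γ : Γ, ((γ : SL(2, ℤ)) : Matrix (Fin 2) (Fin 2) ℤ).trace ^ 2 = 4 → φ γ = 0)) := by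
  constructor
  · rintro ⟨hS, hR, hP⟩
    exact ⟨trace_zero_of_kills hφ hS, trace_sq_one_of_kills hφ hR,
      trace_sq_four_of_kills_STS hφ hneg h2 hP⟩
  · rintro ⟨h0, h1, h4⟩
    exact ⟨kills_S_of_trace h0 h1 h4, kills_R_of_trace h0 h1 h4, kills_STS_of_trace h4⟩

/-- **(K)** with `T` as the parabolic generator. -/
theorem kills_iff_trace_T (hφ : IsAdd φ) (hneg : (-1 : SL(2, ℤ)) ∈ Γ)
    (h2 : ∀ a : A, a + a = 0 → a = 0) :
    (Kills φ S ∧ Kills φ (S * T) ∧ Kills φ T) ↔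
      ((∀ γ : Γ, ((γ : SL(2, ℤ)) : Matrix (Fin 2) (Fin 2) ℤ).trace = 0 → φ γ = 0) ∧
        (∀ γ : Γ, ((γ : SL(2, ℤ)) : Matrix (Fin 2) (Fin 2) ℤ).trace ^ 2 = 1 → φ γ = 0) ∧
        (∀ γ : Γ, ((γ : SL(2, ℤ)) : Matrix (Fin 2) (Fin 2) ℤ).trace ^ 2 = 4 → φ γ = 0)) := by
  constructor
  · rintro ⟨hS, hR, hP⟩
    exact ⟨trace_zero_of_kills hφ hS, trace_sq_one_of_kills hφ hR,
      trace_sq_four_of_kills hφ hneg h2 hP⟩
  · rintro ⟨h0, h1, h4⟩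
    exact ⟨kills_S_of_trace h0 h1 h4, kills_R_of_trace h0 h1 h4, kills_T_of_trace h4⟩

/-- In the presence of the two elliptic conditions the three spellings of the parabolic
condition agree. -/
theorem kills_STS_iff_T (hφ : IsAdd φ) (hneg : (-1 : SL(2, ℤ)) ∈ Γ)
    (h2 : ∀ a : A, a + a = 0 → a = 0) : Kills φ (S * T * S) ↔ Kills φ T :=
  kills_STS_iff hφ hneg (map_neg_one hφ hneg h2)

/-- Every element of finite order of `Γ` is killed by `φ ∈ V` (Shapiro-side spelling). -/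
theorem finOrder_of_kills (hφ : IsAdd φ) (hneg : (-1 : SL(2, ℤ)) ∈ Γ)
    (h2 : ∀ a : A, a + a = 0 → a = 0) (hS : Kills φ S) (hR : Kills φ (S * T)) (γ : Γ)
    (hγ : IsOfFinOrder γ) : φ γ = 0 := by
  have hfin : IsOfFinOrder (γ : SL(2, ℤ)) := by
    obtain ⟨n, hn, hpow⟩ := isOfFinOrder_iff_pow_eq_one.mp hγ
    refine isOfFinOrder_iff_pow_eq_one.mpr ⟨n, hn, ?_⟩
    rw [← Subgroup.coe_pow, hpow, Subgroup.coe_one]
  rcases EllConj.finOrder_trace_cases _ hfin with h | h | h | h | h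
  · have : γ = 1 := Subtype.ext h
    rw [this, hφ.map_one]
  · have : γ = ⟨-1, hneg⟩ := Subtype.ext h
    rw [this, map_neg_one hφ hneg h2]
  · exact trace_zero_of_kills hφ hS γ h
  · exact trace_sq_one_of_kills hφ hR γ (by rw [h]; norm_num)
  · exact trace_sq_one_of_kills hφ hR γ (by rw [h]; norm_num)

end sl2

/-! ## `Additive ↥Γ →+ A` forms -/

section hom

variable {Γ : Subgroup SL(2, ℤ)} {A : Type*} [AddCommGroup A]

theorem isAdd_hom (χ : Additive ↥Γ →+ A) : IsAdd (fun γ : Γ => χ (Additive.ofMul γ)) := by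
  intro a b
  show χ (Additive.ofMul (a * b)) = χ (Additive.ofMul a) + χ (Additive.ofMul b)
  rw [ofMul_mul, map_add]

/-- **(K)**, hom form: exactly the hypotheses `h0`, `h1`, `h4` of the lifting theorems. -/
theorem hom_trace_of_kills (hneg : (-1 : SL(2, ℤ)) ∈ Γ) (h2 : ∀ a : A, a + a = 0 → a = 0)
    (χ : Additive ↥Γ →+ A)
    (hS : Kills (fun γ : Γ => χ (Additive.ofMul γ)) S)
    (hR : Kills (fun γ : Γ => χ (Additive.ofMul γ)) (S * T))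
    (hP : Kills (fun γ : Γ => χ (Additive.ofMul γ)) (S * T * S)) :
    (∀ γ : Γ, ((γ : SL(2, ℤ)) : Matrix (Fin 2) (Fin 2) ℤ).trace = 0 →
        χ (Additive.ofMul γ) = 0) ∧
      (∀ γ : Γ, ((γ : SL(2, ℤ)) : Matrix (Fin 2) (Fin 2) ℤ).trace ^ 2 = 1 →
        χ (Additive.ofMul γ) = 0) ∧
      (∀ γ : Γ, ((γ : SL(2, ℤ)) : Matrix (Fin 2) (Fin 2) ℤ).trace ^ 2 = 4 →
        χ (Additive.ofMul γ) = 0) :=
  (kills_iff_trace (isAdd_hom χ) hneg h2).mp ⟨hS, hR, hP⟩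

/-- The converse, hom form. -/
theorem hom_kills_of_trace (χ : Additive ↥Γ →+ A)
    (h0 : ∀ γ : Γ, ((γ : SL(2, ℤ)) : Matrix (Fin 2) (Fin 2) ℤ).trace = 0 →
        χ (Additive.ofMul γ) = 0)
    (h1 : ∀ γ : Γ, ((γ : SL(2, ℤ)) : Matrix (Fin 2) (Fin 2) ℤ).trace ^ 2 = 1 →
        χ (Additive.ofMul γ) = 0)
    (h4 : ∀ γ : Γ, ((γ : SL(2, ℤ)) : Matrix (Fin 2) (Fin 2) ℤ).trace ^ 2 = 4 →
        χ (Additive.ofMul γ) = 0) :
    Kills (fun γ : Γ => χ (Additive.ofMul γ)) S ∧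
      Kills (fun γ : Γ => χ (Additive.ofMul γ)) (S * T) ∧
      Kills (fun γ : Γ => χ (Additive.ofMul γ)) (S * T * S) ∧
      Kills (fun γ : Γ => χ (Additive.ofMul γ)) T :=
  ⟨kills_S_of_trace h0 h1 h4, kills_R_of_trace h0 h1 h4, kills_STS_of_trace h4,
    kills_T_of_trace h4⟩

/-- `ZMod p` has no `2`-torsion for an odd prime `p`. -/
theorem zmod_add_self_eq_zero (p : ℕ) [Fact p.Prime] (hp : p ≠ 2) (a : ZMod p)
    (h : a + a = 0) : a = 0 := by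
  have h2 : (2 : ZMod p) ≠ 0 := by
    intro h0
    have : ((2 : ℕ) : ZMod p) = 0 := by exact_mod_cast h0
    rw [ZMod.natCast_eq_zero_iff] at this
    have hp2 := (Nat.prime_dvd_prime_iff_eq (Fact.out : p.Prime) Nat.prime_two).mp this
    exact hp hp2
  have : (2 : ZMod p) * a = 0 := by rw [two_mul]; exact h
  rcases mul_eq_zero.mp this with h' | h'
  · exact absurd h' h2
  · exact h'

theorem neg_one_mem_Gamma0' (N : ℕ) : (-1 : SL(2, ℤ)) ∈ CongruenceSubgroup.Gamma0 N := by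
  rw [CongruenceSubgroup.Gamma0_mem]
  simp

/-- The `Γ₀(N)`, `ZMod p` corollary (`p` odd): a hom killed on the Shapiro side satisfies the
three trace conditions. -/
theorem gamma0_trace_of_kills (N p : ℕ) [Fact p.Prime] (hp : p ≠ 2)
    (χ : Additive ↥(CongruenceSubgroup.Gamma0 N) →+ ZMod p)
    (hS : Kills (fun γ : CongruenceSubgroup.Gamma0 N => χ (Additive.ofMul γ)) S)
    (hR : Kills (fun γ : CongruenceSubgroup.Gamma0 N => χ (Additive.ofMul γ)) (S * T))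
    (hP : Kills (fun γ : CongruenceSubgroup.Gamma0 N => χ (Additive.ofMul γ)) (S * T * S)) :
    (∀ γ : CongruenceSubgroup.Gamma0 N,
        ((γ : SL(2, ℤ)) : Matrix (Fin 2) (Fin 2) ℤ).trace = 0 → χ (Additive.ofMul γ) = 0) ∧
      (∀ γ : CongruenceSubgroup.Gamma0 N,
        ((γ : SL(2, ℤ)) : Matrix (Fin 2) (Fin 2) ℤ).trace ^ 2 = 1 → χ (Additive.ofMul γ) = 0) ∧
      (∀ γ : CongruenceSubgroup.Gamma0 N,
        ((γ : SL(2, ℤ)) : Matrix (Fin 2) (Fin 2) ℤ).trace ^ 2 = 4 → χ (Additive.ofMul γ) = 0) :=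
  hom_trace_of_kills (neg_one_mem_Gamma0' N) (zmod_add_self_eq_zero p hp) χ hS hR hP

end hom

end Fermat.Agent.P7.KillsTrace
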