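import Mathlib

/-!
# P7 [NON-EIS], group-theoretic half: a stable line from fixed vectors

Let `V` be a two-dimensional vector space over a field `k` and `S` a multiplicatively closed set
of endomorphisms of `V` each of which fixes a nonzero vector.  Then `S` stabilises a line.

The proof is elementary (no Brauer–Nesbitt, no Clifford theory, any characteristic):

* if some `f₀ ∈ S` has determinant `d ≠ 1`, it is diagonalisable with eigenvalues `1, d`; in an
  eigenbasis the conditions "`f` and `f₀ f` fix a nonzero vector" force the upper-left entry of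
  every `f ∈ S` to be `1` and the product of the off-diagonal entries to vanish, and closure under
  products shows that all elements are simultaneously upper or lower triangular;
* if all determinants are `1`, every element is unipotent, and a nontrivial `f₁ ∈ S` is
  `(1 1; 0 1)` in a suitable basis; the condition for `f₁ f` forces every `f` to fix the first
  basis vector.
-/

set_option autoImplicit false

namespace Fermat.Agent.P7.NonEisGroup

open Matrix

section MatrixPart

variable {k : Type*} [Field k]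

/-- The fixed-vector condition in entries. -/
lemma det_sub_one_eq_zero_iff (M : Matrix (Fin 2) (Fin 2) k) :
    (M - 1).det = 0 ↔ (M 0 0 - 1) * (M 1 1 - 1) = M 0 1 * M 1 0 := by
  rw [Matrix.det_fin_two]
  simp [Matrix.sub_apply, sub_eq_zero]

/-- A `2 × 2` matrix fixes a nonzero vector iff `det (M - 1) = 0`. -/
lemma exists_fixed_iff (M : Matrix (Fin 2) (Fin 2) k) :
    (∃ v : Fin 2 → k, v ≠ 0 ∧ M *ᵥ v = v) ↔ (M - 1).det = 0 := by
  rw [← Matrix.exists_mulVec_eq_zero_iff]
  constructor
  · rintro ⟨v, hv, h⟩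
    exact ⟨v, hv, by rw [Matrix.sub_mulVec, h, Matrix.one_mulVec, sub_self]⟩
  · rintro ⟨v, hv, h⟩
    refine ⟨v, hv, ?_⟩
    rw [Matrix.sub_mulVec, Matrix.one_mulVec, sub_eq_zero] at h
    exact h

/-- Case (a): the set contains `diag(1, d)` with `d ≠ 1`. -/
lemma core_a (S : Set (Matrix (Fin 2) (Fin 2) k)) (hmul : ∀ A ∈ S, ∀ B ∈ S, A * B ∈ S)
    (hfix : ∀ M ∈ S, (M 0 0 - 1) * (M 1 1 - 1) = M 0 1 * M 1 0) (d : k) (hd : d ≠ 1)
    (hD : !![1, 0; 0, d] ∈ S) :
    (∀ M ∈ S, M 0 0 = 1 ∧ M 1 0 = 0) ∨ (∀ M ∈ S, M 0 1 = 0) := by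
  have h1 : ∀ M ∈ S, M 0 0 = 1 ∧ M 0 1 * M 1 0 = 0 := by
    intro M hM
    have e1 := hfix M hM
    have e2 := hfix _ (hmul _ hD M hM)
    simp only [Matrix.mul_apply, Fin.sum_univ_two, Matrix.of_apply, Matrix.cons_val_zero,
      Matrix.cons_val_one, Matrix.cons_val', Matrix.cons_val_fin_one] at e2
    have h3 : (M 0 0 - 1) * (d - 1) = 0 := by linear_combination e2 - d * e1
    have h4 : M 0 0 = 1 := by
      rcases mul_eq_zero.mp h3 with h | h
      · exact sub_eq_zero.mp h
      · exact absurd (sub_eq_zero.mp h) hd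
    refine ⟨h4, ?_⟩
    rw [← e1, h4, sub_self, zero_mul]
  by_cases h : ∀ M ∈ S, M 1 0 = 0
  · exact Or.inl fun M hM => ⟨(h1 M hM).1, h M hM⟩
  · right
    push Not at h
    obtain ⟨M', hM', hc⟩ := h
    intro M hM
    have e := (h1 _ (hmul M hM M' hM')).1
    simp only [Matrix.mul_apply, Fin.sum_univ_two] at e
    rw [(h1 M hM).1, (h1 M' hM').1] at e
    have h0 : M 0 1 * M' 1 0 = 0 := by linear_combination e
    exact (mul_eq_zero.mp h0).resolve_right hc

/-- Case (b): all determinants are `1` and the set contains `(1 1; 0 1)`. -/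
lemma core_b (S : Set (Matrix (Fin 2) (Fin 2) k)) (hmul : ∀ A ∈ S, ∀ B ∈ S, A * B ∈ S)
    (hfix : ∀ M ∈ S, (M 0 0 - 1) * (M 1 1 - 1) = M 0 1 * M 1 0)
    (hdet : ∀ M ∈ S, M 0 0 * M 1 1 - M 0 1 * M 1 0 = 1)
    (hU : !![1, 1; 0, 1] ∈ S) : ∀ M ∈ S, M 0 0 = 1 ∧ M 1 0 = 0 := by
  intro M hM
  have e1 := hfix M hM
  have d1 := hdet M hM
  have e2 := hfix _ (hmul _ hU M hM)
  have d2 := hdet _ (hmul _ hU M hM)
  simp only [Matrix.mul_apply, Fin.sum_univ_two, Matrix.of_apply, Matrix.cons_val_zero,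
    Matrix.cons_val_one, Matrix.cons_val', Matrix.cons_val_fin_one] at e2 d2
  have htr : M 0 0 + M 1 1 = 2 := by linear_combination d1 - e1
  have hc : M 1 0 = 0 := by linear_combination d2 - e2 - htr
  have hsq : (M 0 0 - 1) ^ 2 = 0 := by linear_combination M 0 0 * htr - d1 - M 0 1 * hc
  exact ⟨sub_eq_zero.mp ((pow_eq_zero_iff two_ne_zero).mp hsq), hc⟩

/-- Unipotent `2 × 2` matrices: trace `2` and determinant `1` give `(M - 1)² = 0`. -/
lemma sub_one_mul_sub_one (M : Matrix (Fin 2) (Fin 2) k)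
    (hfix : (M 0 0 - 1) * (M 1 1 - 1) = M 0 1 * M 1 0)
    (hdet : M 0 0 * M 1 1 - M 0 1 * M 1 0 = 1) : (M - 1) * (M - 1) = 0 := by
  have htr : M 0 0 + M 1 1 = 2 := by linear_combination hdet - hfix
  ext i j
  fin_cases i <;> fin_cases j <;>
    simp only [Matrix.mul_apply, Fin.sum_univ_two, Matrix.sub_apply, Matrix.one_apply,
      Matrix.zero_apply, Fin.zero_eta, Fin.mk_one, Fin.isValue, if_true, if_false,
      zero_ne_one, one_ne_zero, sub_zero]
  · linear_combination M 0 0 * htr - hdet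
  · linear_combination M 0 1 * htr
  · linear_combination M 1 0 * htr
  · linear_combination M 1 1 * htr - hdet

end MatrixPart

section ModulePart

open Module

variable {k V : Type*} [Field k] [AddCommGroup V] [Module k V]

/-- The image of a basis vector in terms of matrix entries. -/
lemma apply_basis (b : Basis (Fin 2) k V) (f : V →ₗ[k] V) (j : Fin 2) :
    f (b j) = LinearMap.toMatrix b b f 0 j • b 0 + LinearMap.toMatrix b b f 1 j • b 1 := by
  have h := b.sum_repr (f (b j))
  rw [Fin.sum_univ_two] at h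
  simp only [LinearMap.toMatrix_apply]
  exact h.symm

/-- The matrix of an endomorphism from the images of the two basis vectors. -/
lemma toMatrix_eq_of_apply (b : Basis (Fin 2) k V) (f : V →ₗ[k] V) (a₀₀ a₀₁ a₁₀ a₁₁ : k)
    (h0 : f (b 0) = a₀₀ • b 0 + a₁₀ • b 1) (h1 : f (b 1) = a₀₁ • b 0 + a₁₁ • b 1) :
    LinearMap.toMatrix b b f = !![a₀₀, a₀₁; a₁₀, a₁₁] := by
  ext i j
  rw [LinearMap.toMatrix_apply]
  fin_cases j <;> fin_cases i <;>
    simp [h0, h1, Basis.repr_self]

/-- The line spanned by a common eigenvector. -/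
lemma line_of_eigen (hV : finrank k V = 2) (S : Set (V →ₗ[k] V)) (e : V) (he : e ≠ 0)
    (h : ∀ f ∈ S, ∃ c : k, f e = c • e) :
    ∃ N : Submodule k V, N ≠ ⊥ ∧ N ≠ ⊤ ∧ ∀ f ∈ S, ∀ x ∈ N, f x ∈ N := by
  refine ⟨Submodule.span k {e}, ?_, ?_, ?_⟩
  · rw [Ne, Submodule.span_singleton_eq_bot]
    exact he
  · intro htop
    have h1 : finrank k (Submodule.span k {e}) = 1 := finrank_span_singleton he
    rw [htop, finrank_top, hV] at h1
    omega
  · intro f hf x hx
    obtain ⟨a, rfl⟩ := Submodule.mem_span_singleton.mp hx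
    obtain ⟨c, hc⟩ := h f hf
    rw [map_smul, hc]
    exact Submodule.smul_mem _ _ (Submodule.smul_mem _ _ (Submodule.mem_span_singleton_self e))

/-- The entry form of the fixed-vector condition in any basis. -/
lemma fix_entries (b : Basis (Fin 2) k V) (f : V →ₗ[k] V) (hf : ∃ v : V, v ≠ 0 ∧ f v = v) :
    (LinearMap.toMatrix b b f 0 0 - 1) * (LinearMap.toMatrix b b f 1 1 - 1) =
      LinearMap.toMatrix b b f 0 1 * LinearMap.toMatrix b b f 1 0 := by
  rw [← det_sub_one_eq_zero_iff, ← exists_fixed_iff]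
  obtain ⟨v, hv, hfv⟩ := hf
  refine ⟨⇑(b.repr v), ?_, ?_⟩
  · intro h0
    apply hv
    apply b.repr.injective
    rw [map_zero]
    exact DFunLike.coe_injective h0
  · rw [LinearMap.toMatrix_mulVec_repr, hfv]

/-- **Stable line.** A multiplicatively closed set of endomorphisms of a two-dimensional vector
space, each of which fixes a nonzero vector, stabilises a line. -/
theorem exists_stable_line (hV : finrank k V = 2) (S : Set (V →ₗ[k] V))
    (hmul : ∀ f ∈ S, ∀ g ∈ S, f * g ∈ S) (hfix : ∀ f ∈ S, ∃ v : V, v ≠ 0 ∧ f v = v) :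
    ∃ N : Submodule k V, N ≠ ⊥ ∧ N ≠ ⊤ ∧ ∀ f ∈ S, ∀ x ∈ N, f x ∈ N := by
  classical
  have : Module.Finite k V := Module.finite_of_finrank_pos (by rw [hV]; norm_num)
  -- the matrix sets
  have hSmul : ∀ b : Basis (Fin 2) k V,
      ∀ A ∈ (LinearMap.toMatrix b b) '' S, ∀ B ∈ (LinearMap.toMatrix b b) '' S,
        A * B ∈ (LinearMap.toMatrix b b) '' S := by
    rintro b _ ⟨f, hf, rfl⟩ _ ⟨g, hg, rfl⟩
    exact ⟨f * g, hmul f hf g hg, LinearMap.toMatrix_mul b f g⟩
  have hSfix : ∀ b : Basis (Fin 2) k V, ∀ M ∈ (LinearMap.toMatrix b b) '' S,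
      (M 0 0 - 1) * (M 1 1 - 1) = M 0 1 * M 1 0 := by
    rintro b _ ⟨f, hf, rfl⟩
    exact fix_entries b f (hfix f hf)
  by_cases hdet : ∀ f ∈ S, LinearMap.det f = 1
  · by_cases hone : ∀ f ∈ S, f = 1
    · obtain ⟨e, he⟩ : ∃ e : V, e ≠ 0 := by
        have : 0 < finrank k V := by rw [hV]; norm_num
        exact Module.finrank_pos_iff_exists_ne_zero.mp this
      exact line_of_eigen hV S e he fun f hf => ⟨1, by rw [hone f hf, one_smul]; rfl⟩
    · push Not at hone
      obtain ⟨f₁, hf₁, hne⟩ := hone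
      obtain ⟨w, hw⟩ : ∃ w : V, f₁ w ≠ w := by
        by_contra hall
        push Not at hall
        exact hne (LinearMap.ext fun x => hall x)
      -- `(f₁ - 1)² = 0`
      have hsq : (f₁ - 1) * (f₁ - 1) = 0 := by
        let b₀ : Basis (Fin 2) k V := Module.finBasisOfFinrankEq k V hV
        apply (LinearMap.toMatrix b₀ b₀).injective
        rw [LinearMap.toMatrix_mul, map_sub, LinearMap.toMatrix_one, map_zero]
        refine sub_one_mul_sub_one _ (fix_entries b₀ f₁ (hfix f₁ hf₁)) ?_
        rw [← Matrix.det_fin_two, LinearMap.det_toMatrix]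
        exact hdet f₁ hf₁
      set e₁ : V := f₁ w - w with he₁
      have he₁0 : e₁ ≠ 0 := sub_ne_zero.mpr hw
      have hfe₁ : f₁ e₁ = e₁ := by
        have h := LinearMap.congr_fun hsq w
        simp only [Module.End.mul_apply, LinearMap.sub_apply, Module.End.one_apply,
          LinearMap.zero_apply] at h
        rw [he₁]
        exact sub_eq_zero.mp h
      have hfw : f₁ w = e₁ + w := by rw [he₁]; abel
      have li : LinearIndependent k ![e₁, w] := by
        rw [LinearIndependent.pair_iff]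
        intro s t hst
        have h2 := congrArg f₁ hst
        rw [map_add, map_smul, map_smul, hfe₁, hfw, map_zero, smul_add] at h2
        have h3 : t • e₁ = 0 := by
          have : t • e₁ = (s • e₁ + (t • e₁ + t • w)) - (s • e₁ + t • w) := by abel
          rw [this, h2, hst, sub_zero]
        have ht : t = 0 := (smul_eq_zero.mp h3).resolve_right he₁0
        rw [ht, zero_smul, add_zero] at hst
        exact ⟨(smul_eq_zero.mp hst).resolve_right he₁0, ht⟩
      let b : Basis (Fin 2) k V :=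
        basisOfLinearIndependentOfCardEqFinrank li (by rw [hV]; rfl)
      have hb0 : b 0 = e₁ := by
        simp [b, coe_basisOfLinearIndependentOfCardEqFinrank]
      have hb1 : b 1 = w := by
        simp [b, coe_basisOfLinearIndependentOfCardEqFinrank]
      have hU : !![1, 1; 0, 1] ∈ (LinearMap.toMatrix b b) '' S := by
        refine ⟨f₁, hf₁, toMatrix_eq_of_apply b f₁ 1 1 0 1 ?_ ?_⟩
        · rw [hb0, hb1, hfe₁, one_smul, zero_smul, add_zero]
        · rw [hb0, hb1, hfw, one_smul, one_smul]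
      have hdetM : ∀ M ∈ (LinearMap.toMatrix b b) '' S, M 0 0 * M 1 1 - M 0 1 * M 1 0 = 1 := by
        rintro _ ⟨f, hf, rfl⟩
        rw [← Matrix.det_fin_two, LinearMap.det_toMatrix]
        exact hdet f hf
      have key := core_b _ (hSmul b) (hSfix b) hdetM hU
      refine line_of_eigen hV S e₁ he₁0 fun f hf => ⟨1, ?_⟩
      obtain ⟨h00, h10⟩ := key _ ⟨f, hf, rfl⟩
      have h := apply_basis b f 0
      rw [h00, h10, hb0, one_smul, zero_smul, add_zero] at h
      rw [h, one_smul]
  · push Not at hdet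
    obtain ⟨f₀, hf₀, hd⟩ := hdet
    set d : k := LinearMap.det f₀ with hd_def
    obtain ⟨e₁, he₁0, hfe₁⟩ := hfix f₀ hf₀
    -- an eigenvector for the eigenvalue `d`
    obtain ⟨e₂, he₂0, hfe₂⟩ : ∃ e₂ : V, e₂ ≠ 0 ∧ f₀ e₂ = d • e₂ := by
      let b₀ : Basis (Fin 2) k V := Module.finBasisOfFinrankEq k V hV
      set M₀ := LinearMap.toMatrix b₀ b₀ f₀ with hM₀
      have hfx := fix_entries b₀ f₀ (hfix f₀ hf₀)
      have hdM : M₀ 0 0 * M₀ 1 1 - M₀ 0 1 * M₀ 1 0 = d := by
        rw [← Matrix.det_fin_two, hM₀, LinearMap.det_toMatrix]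
      have hdet0 : (M₀ - d • (1 : Matrix (Fin 2) (Fin 2) k)).det = 0 := by
        rw [Matrix.det_fin_two]
        simp only [Matrix.sub_apply, Matrix.smul_apply, Matrix.one_apply, smul_eq_mul,
          if_true, if_false, zero_ne_one, one_ne_zero, mul_one, mul_zero, sub_zero,
          Fin.isValue]
        linear_combination (1 - d) * hdM + d * hfx
      obtain ⟨u, hu0, hu⟩ := Matrix.exists_mulVec_eq_zero_iff.mpr hdet0
      rw [Matrix.sub_mulVec, Matrix.smul_mulVec, Matrix.one_mulVec, sub_eq_zero] at hu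
      have hr : ⇑(b₀.repr (∑ i, u i • b₀ i)) = u := b₀.repr_sum_self u
      have key : ∀ e₂ : V, ⇑(b₀.repr e₂) = u → e₂ ≠ 0 ∧ f₀ e₂ = d • e₂ := by
        intro e₂ hr
        constructor
        · intro h0
          apply hu0
          rw [← hr, h0, map_zero]
          rfl
        · apply b₀.repr.injective
          apply DFunLike.coe_injective
          have h1 : ⇑(b₀.repr (f₀ e₂)) = d • u := by
            rw [← LinearMap.toMatrix_mulVec_repr b₀ b₀ f₀, hr, ← hM₀, hu]
          have h2 : ⇑(b₀.repr (d • e₂)) = d • u := by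
            rw [map_smul, Finsupp.coe_smul, hr]
          exact h1.trans h2.symm
      exact ⟨_, key _ hr⟩
    have li : LinearIndependent k ![e₁, e₂] := by
      rw [LinearIndependent.pair_iff]
      intro s t hst
      have h2 := congrArg f₀ hst
      rw [map_add, map_smul, map_smul, hfe₁, hfe₂, map_zero] at h2
      have h3 : (t * (d - 1)) • e₂ = 0 := by
        have : (t * (d - 1)) • e₂ = (s • e₁ + t • d • e₂) - (s • e₁ + t • e₂) := by
          rw [mul_sub, mul_one, sub_smul, mul_smul]; abel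
        rw [this, h2, hst, sub_zero]
      have ht : t = 0 := by
        rcases smul_eq_zero.mp h3 with h | h
        · rcases mul_eq_zero.mp h with h | h
          · exact h
          · exact absurd (sub_eq_zero.mp h) hd
        · exact absurd h he₂0
      rw [ht, zero_smul, add_zero] at hst
      exact ⟨(smul_eq_zero.mp hst).resolve_right he₁0, ht⟩
    let b : Basis (Fin 2) k V :=
      basisOfLinearIndependentOfCardEqFinrank li (by rw [hV]; rfl)
    have hb0 : b 0 = e₁ := by
      simp [b, coe_basisOfLinearIndependentOfCardEqFinrank]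
    have hb1 : b 1 = e₂ := by
      simp [b, coe_basisOfLinearIndependentOfCardEqFinrank]
    have hD : !![1, 0; 0, d] ∈ (LinearMap.toMatrix b b) '' S := by
      refine ⟨f₀, hf₀, toMatrix_eq_of_apply b f₀ 1 0 0 d ?_ ?_⟩
      · rw [hb0, hb1, hfe₁, one_smul, zero_smul, add_zero]
      · rw [hb0, hb1, hfe₂, zero_smul, zero_add]
    rcases core_a _ (hSmul b) (hSfix b) d hd hD with key | key
    · refine line_of_eigen hV S e₁ he₁0 fun f hf => ⟨1, ?_⟩
      obtain ⟨h00, h10⟩ := key _ ⟨f, hf, rfl⟩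
      have h := apply_basis b f 0
      rw [h00, h10, hb0, one_smul, zero_smul, add_zero] at h
      rw [h, one_smul]
    · refine line_of_eigen hV S e₂ he₂0 fun f hf => ⟨LinearMap.toMatrix b b f 1 1, ?_⟩
      have h01 := key _ ⟨f, hf, rfl⟩
      have h := apply_basis b f 1
      rw [h01, hb1, zero_smul, zero_add] at h
      exact h

/-- The same for a monoid acting linearly: if every element fixes a nonzero vector of the
two-dimensional space `V`, there is a stable line. -/
theorem exists_stable_line_of_smul {G : Type*} [Monoid G] [DistribMulAction G V]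
    [SMulCommClass G k V] (hV : finrank k V = 2)
    (hfix : ∀ g : G, ∃ v : V, v ≠ 0 ∧ g • v = v) :
    ∃ N : Submodule k V, N ≠ ⊥ ∧ N ≠ ⊤ ∧ ∀ g : G, ∀ x ∈ N, g • x ∈ N := by
  have hmulS : ∀ f ∈ Set.range (DistribMulAction.toModuleEnd k V : G →* Module.End k V),
      ∀ g ∈ Set.range (DistribMulAction.toModuleEnd k V : G →* Module.End k V),
        f * g ∈ Set.range (DistribMulAction.toModuleEnd k V : G →* Module.End k V) := by
    rintro _ ⟨g, rfl⟩ _ ⟨h, rfl⟩
    exact ⟨g * h, map_mul _ g h⟩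
  have hfixS : ∀ f ∈ Set.range (DistribMulAction.toModuleEnd k V : G →* Module.End k V),
      ∃ v : V, v ≠ 0 ∧ f v = v := by
    rintro _ ⟨g, rfl⟩
    obtain ⟨v, hv, hgv⟩ := hfix g
    exact ⟨v, hv, hgv⟩
  obtain ⟨N, h1, h2, h3⟩ := exists_stable_line hV _ hmulS hfixS
  exact ⟨N, h1, h2, fun g x hx => h3 _ ⟨g, rfl⟩ x hx⟩

end ModulePart

end Fermat.Agent.P7.NonEisGroup
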