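import Mathlib
import Fermat.Prelude.Def_FLTPrelim_Modularity
import Fermat.Prelude.Def_EllipticCurve_FrobeniusTrace
import Fermat.Agent.Lib.DivPoly.OddTorsion
import Fermat.Agent.Lib.FrobAlt

/-!
# A Frobenius element fixes a nonzero `p`-torsion point when `p ∣ #W̃(𝔽_ℓ)`

Input of the non-Eisenstein step of level raising (S41).  For an integral Weierstrass model `W`,
a good prime `ℓ ≠ p` (`p` an odd prime) with `p ∣ a_ℓ(W) - (ℓ + 1)`, a valuation subring `A` of
`ℚ̄` over `ℓ` and a Frobenius element `σ` at `A`, there is a nonzero point `P ∈ W(ℚ̄)[p]` with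
`σ • P = P` (`exists_fixed_torsion`).

The proof never reduces the group law.  A point of order `p` of `W̃(𝔽_ℓ)` has an abscissa `x̄`
that is a root of the `p`-th division polynomial `f = preΨ'_p` modulo `ℓ`.  The leading
coefficient `p` of `f` is a unit of `A`, so `f` splits over `A` and `x̄` lifts to a root `x₀ ∈ A`
(`exists_lift_root`); the reduction of `f` is separable, so the residue map is injective on the
roots of `f` (`residue_injOn_roots`), hence `σ x₀ = x₀`.  The ordinate is handled by the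
quadratic equation, using that a point of odd order is not `2`-torsion.
-/

set_option autoImplicit false

namespace Fermat.Agent.P7.RedFix

open Polynomial

noncomputable section

section Generic

variable {L : Type*} [Field L] (A : ValuationSubring L)

/-- A root of an integer polynomial whose leading coefficient is a unit of `A` lies in `A`. -/
theorem mem_of_root (f : ℤ[X]) (hlc : A.valuation ((f.leadingCoeff : ℤ) : L) = 1) {x : L}
    (hx : (f.map (Int.castRingHom L)).eval x = 0) : x ∈ A := by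
  have h1 : aeval x f = 0 := by
    rw [← hx, eval_map]
    rfl
  have h2 : IsIntegral ℤ (f.leadingCoeff • x) := isIntegral_leadingCoeff_smul f x h1
  have h3 := Fermat.Agent.Lib.FrobAlt.val_le_one_of_isIntegral_int A h2
  rw [zsmul_eq_mul, map_mul, hlc, one_mul] at h3
  exact (A.valuation_le_one_iff x).mp h3

/-- A root of a monic quadratic with coefficients in `A` lies in `A`. -/
theorem mem_of_quadratic {y b c : L} (hb : b ∈ A) (hc : c ∈ A) (h : y ^ 2 + b * y = c) : y ∈ A := by
  rw [← A.valuation_le_one_iff]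
  by_contra hcon
  push Not at hcon
  have hb1 : A.valuation b ≤ 1 := (A.valuation_le_one_iff b).mpr hb
  have hc1 : A.valuation c ≤ 1 := (A.valuation_le_one_iff c).mpr hc
  have h1 : y ^ 2 = c - b * y := by rw [← h]; ring
  have h2 : A.valuation (y ^ 2) = A.valuation y * A.valuation y := by rw [pow_two, map_mul]
  have h3 : A.valuation (c - b * y) ≤ A.valuation y := by
    refine le_trans (Valuation.map_sub _ _ _) (max_le (hc1.trans hcon.le) ?_)
    rw [map_mul]
    calc A.valuation b * A.valuation y ≤ 1 * A.valuation y := by gcongr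
      _ = A.valuation y := one_mul _
  rw [← h1, h2] at h3
  have h4 : A.valuation y * 1 < A.valuation y * A.valuation y := by
    have hpos : 0 < A.valuation y := lt_trans zero_lt_one hcon
    exact mul_lt_mul_of_pos_left hcon hpos
  rw [mul_one] at h4
  exact absurd h3 (not_le.mpr h4)

end Generic

section Factor

variable {L : Type*} [Field L] [IsAlgClosed L] (A : ValuationSubring L)

/-- Over an algebraically closed field, an integer polynomial whose leading coefficient is a unit
of the valuation ring `A` splits over `A`. -/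
theorem exists_multiset (f : ℤ[X]) (hlc : A.valuation ((f.leadingCoeff : ℤ) : L) = 1) :
    ∃ s : Multiset A,
      f.map (Int.castRingHom A) =
        C ((f.leadingCoeff : ℤ) : A) * (s.map (fun a => X - C a)).prod ∧
      ∀ x : A, x ∈ s ↔ (f.map (Int.castRingHom L)).eval (x : L) = 0 := by
  classical
  set g : L[X] := f.map (Int.castRingHom L) with hg
  have hlc0 : ((f.leadingCoeff : ℤ) : L) ≠ 0 := by
    intro h
    rw [h, map_zero] at hlc
    exact zero_ne_one hlc
  have hglc : g.leadingCoeff = ((f.leadingCoeff : ℤ) : L) := by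
    rw [hg, leadingCoeff_map_of_leadingCoeff_ne_zero _ (by simpa using hlc0)]
    simp
  have hg0 : g ≠ 0 := by
    intro h
    rw [h, leadingCoeff_zero] at hglc
    exact hlc0 hglc.symm
  have hmem : ∀ x ∈ g.roots, x ∈ A := fun x hx =>
    mem_of_root A f hlc ((mem_roots hg0).mp hx)
  let s : Multiset A := g.roots.pmap (fun x hx => (⟨x, hx⟩ : A)) hmem
  have hs : s.map (fun a : A => (a : L)) = g.roots := by
    rw [Multiset.map_pmap]
    exact (Multiset.pmap_eq_map _ _ _ _).trans (Multiset.map_id' _)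
  refine ⟨s, ?_, ?_⟩
  · apply Polynomial.map_injective A.subtype Subtype.coe_injective
    have hcomp : A.subtype.comp (Int.castRingHom A) = Int.castRingHom L := RingHom.ext_int _ _
    rw [Polynomial.map_map, hcomp, Polynomial.map_mul, Polynomial.map_C,
      Polynomial.map_multiset_prod, Multiset.map_map]
    have h1 := (IsAlgClosed.splits g).eq_prod_roots
    rw [hglc] at h1
    rw [← hg]
    conv_lhs => rw [h1]
    rw [← hs, Multiset.map_map]
    simp
  · intro x
    constructor
    · intro hx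
      obtain ⟨a, ha, rfl⟩ := Multiset.mem_pmap.mp hx
      exact (mem_roots hg0).mp ha
    · intro hx
      exact Multiset.mem_pmap.mpr ⟨x, (mem_roots hg0).mpr hx, rfl⟩

omit [IsAlgClosed L] in
theorem residue_intCast_ne_zero {n : ℤ} (hn : A.valuation ((n : ℤ) : L) = 1) :
    ((n : ℤ) : IsLocalRing.ResidueField A) ≠ 0 := by
  have h1 : ((n : ℤ) : IsLocalRing.ResidueField A) = IsLocalRing.residue A ((n : ℤ) : A) := by
    rw [map_intCast]
  rw [h1, Ne, IsLocalRing.residue_eq_zero_iff, A.valuation_lt_one_iff]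
  push_cast
  rw [hn]
  exact lt_irrefl _

omit [IsAlgClosed L] in
theorem map_residue_eq (f : ℤ[X]) (s : Multiset A)
    (hs : f.map (Int.castRingHom A) =
        C ((f.leadingCoeff : ℤ) : A) * (s.map (fun a => X - C a)).prod) :
    f.map (Int.castRingHom (IsLocalRing.ResidueField A)) =
      C ((f.leadingCoeff : ℤ) : IsLocalRing.ResidueField A) *
        ((s.map (IsLocalRing.residue A)).map (fun a => X - C a)).prod := by
  have hcomp : (IsLocalRing.residue A).comp (Int.castRingHom A) =
      Int.castRingHom (IsLocalRing.ResidueField A) := RingHom.ext_int _ _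
  rw [← hcomp, ← Polynomial.map_map, hs, Polynomial.map_mul, Polynomial.map_C,
    Polynomial.map_multiset_prod, Multiset.map_map, Multiset.map_map]
  simp

/-- Every root in the residue field of the reduction of `f` lifts to a root in `A`. -/
theorem exists_lift_root (f : ℤ[X]) (hlc : A.valuation ((f.leadingCoeff : ℤ) : L) = 1)
    (xb : IsLocalRing.ResidueField A)
    (hxb : (f.map (Int.castRingHom (IsLocalRing.ResidueField A))).eval xb = 0) :
    ∃ x : A, (f.map (Int.castRingHom L)).eval (x : L) = 0 ∧ IsLocalRing.residue A x = xb := by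
  obtain ⟨s, hs, hmem⟩ := exists_multiset A f hlc
  rw [map_residue_eq A f s hs, eval_mul, eval_C, eval_multiset_prod, Multiset.map_map,
    Multiset.map_map] at hxb
  rcases mul_eq_zero.mp hxb with h | h
  · exact absurd h (residue_intCast_ne_zero A hlc)
  · rw [Multiset.prod_eq_zero_iff] at h
    obtain ⟨a, ha, h0⟩ := Multiset.mem_map.mp h
    refine ⟨a, (hmem a).mp ha, ?_⟩
    simp only [Function.comp_apply, eval_sub, eval_X, eval_C] at h0
    exact (sub_eq_zero.mp h0).symm

/-- If the reduction of `f` is separable, the residue map is injective on the roots of `f`. -/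
theorem residue_injOn_roots (f : ℤ[X]) (hlc : A.valuation ((f.leadingCoeff : ℤ) : L) = 1)
    (hsep : (f.map (Int.castRingHom (IsLocalRing.ResidueField A))).Separable)
    {x x' : A} (hx : (f.map (Int.castRingHom L)).eval (x : L) = 0)
    (hx' : (f.map (Int.castRingHom L)).eval (x' : L) = 0)
    (h : IsLocalRing.residue A x = IsLocalRing.residue A x') : x = x' := by
  classical
  obtain ⟨s, hs, hmem⟩ := exists_multiset A f hlc
  have hnd := nodup_roots hsep
  rw [map_residue_eq A f s hs, roots_C_mul _ (residue_intCast_ne_zero A hlc),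
    roots_multiset_prod_X_sub_C] at hnd
  exact Multiset.inj_on_of_nodup_map hnd x ((hmem x).mpr hx) x' ((hmem x').mpr hx') h

end Factor

section Eqn

open WeierstrassCurve WeierstrassCurve.Affine

variable (W : WeierstrassCurve ℤ)

/-- The Weierstrass equation of the integral curve `W` over an arbitrary commutative ring. -/
def Eqn (R : Type*) [CommRing R] (x y : R) : Prop :=
  y ^ 2 + (W.a₁ : R) * x * y + (W.a₃ : R) * y =
    x ^ 3 + (W.a₂ : R) * x ^ 2 + (W.a₄ : R) * x + (W.a₆ : R)

theorem equation_iff_eqn (R : Type*) [CommRing R] (x y : R) :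
    (W.map (Int.castRingHom R)).toAffine.Equation x y ↔ Eqn W R x y := by
  rw [equation_iff]
  simp [Eqn]

theorem negY_eq (R : Type*) [CommRing R] (x y : R) :
    (W.map (Int.castRingHom R)).toAffine.negY x y = -y - (W.a₁ : R) * x - (W.a₃ : R) := by
  simp [Affine.negY]

theorem Eqn.map {R S : Type*} [CommRing R] [CommRing S] (φ : R →+* S) {x y : R}
    (h : Eqn W R x y) : Eqn W S (φ x) (φ y) := by
  have h1 := congrArg φ h
  simpa [Eqn] using h1

theorem Eqn.of_map {R S : Type*} [CommRing R] [CommRing S] (φ : R →+* S)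
    (hφ : Function.Injective φ) {x y : R} (h : Eqn W S (φ x) (φ y)) : Eqn W R x y := by
  apply hφ
  simpa [Eqn] using h

theorem Eqn.neg {R : Type*} [CommRing R] {x y : R} (h : Eqn W R x y) :
    Eqn W R x (-y - (W.a₁ : R) * x - (W.a₃ : R)) := by
  unfold Eqn at h ⊢
  linear_combination h

theorem Eqn.eq_or_eq {R : Type*} [CommRing R] [IsDomain R] {x y y' : R} (h : Eqn W R x y)
    (h' : Eqn W R x y') : y' = y ∨ y' = -y - (W.a₁ : R) * x - (W.a₃ : R) := by
  unfold Eqn at h h'
  have h1 : (y' - y) * (y' - (-y - (W.a₁ : R) * x - (W.a₃ : R))) = 0 := by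
    linear_combination h' - h
  rcases mul_eq_zero.mp h1 with h2 | h2
  · exact Or.inl (sub_eq_zero.mp h2)
  · exact Or.inr (sub_eq_zero.mp h2)

theorem eval_map_intCast {R S : Type*} [CommRing R] [CommRing S] (φ : R →+* S) (f : ℤ[X])
    (x : R) :
    (f.map (Int.castRingHom S)).eval (φ x) = φ ((f.map (Int.castRingHom R)).eval x) := by
  rw [eval_map, eval_map, hom_eval₂]
  congr 1
  exact RingHom.ext_int _ _

end Eqn

section ModPoint

open WeierstrassCurve WeierstrassCurve.Affine

/-- If `p ∣ #W̃(𝔽_ℓ)` (`p` an odd prime), the reduction has an `𝔽_ℓ`-point whose abscissa is a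
root of the `p`-th division polynomial and which is not a `2`-torsion point. -/
theorem exists_point_mod (W : WeierstrassCurve ℤ) {p ℓ : ℕ} [Fact ℓ.Prime] (hp : p.Prime)
    (hp2 : p ≠ 2) (hdvd : (p : ℤ) ∣ W.apOfModel ℓ - (ℓ + 1)) :
    ∃ x y : ZMod ℓ, Eqn W (ZMod ℓ) x y ∧
      ((W.preΨ' p).map (Int.castRingHom (ZMod ℓ))).eval x = 0 ∧
      y ≠ -y - (W.a₁ : ZMod ℓ) * x - (W.a₃ : ZMod ℓ) := by
  classical
  have : Fact p.Prime := ⟨hp⟩
  have hodd : Odd p := hp.odd_of_ne_two hp2
  have hcard : p ∣ Nat.card (W.reductionMod ℓ).toAffine.Point := by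
    have h1 : W.apOfModel ℓ - (ℓ + 1) = -(Nat.card (W.reductionMod ℓ).toAffine.Point : ℤ) := by
      rw [WeierstrassCurve.apOfModel, WeierstrassCurve.traceOfFrobenius, WeierstrassCurve.card,
        Nat.card_zmod]
      ring
    rw [h1, dvd_neg] at hdvd
    exact_mod_cast hdvd
  obtain ⟨Q, hQ⟩ := exists_prime_addOrderOf_dvd_card' p hcard
  have hQ0 : Q ≠ 0 := by
    rintro rfl
    rw [addOrderOf_zero] at hQ
    exact hp.one_lt.ne hQ
  have hpQ : p • Q = 0 := by
    rw [← hQ]
    exact addOrderOf_nsmul_eq_zero Q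
  rcases Q with _ | ⟨x, y, h⟩
  · exact absurd rfl hQ0
  · refine ⟨x, y, (equation_iff_eqn W (ZMod ℓ) x y).mp h.1, ?_, ?_⟩
    · have h1 := (Fermat.Agent.Lib.DivPoly.nsmul_eq_zero_iff_preΨ' _ h hodd).mp hpQ
      rw [WeierstrassCurve.reductionMod, WeierstrassCurve.map_preΨ'] at h1
      exact h1
    · intro hy
      apply hQ0
      apply Fermat.Agent.Lib.DivPoly.eq_zero_of_odd_nsmul_of_eq_neg _ hodd hpQ
      rw [Point.neg_some]
      simp only [Point.some.injEq, true_and]
      rw [WeierstrassCurve.reductionMod, negY_eq]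
      exact hy

end ModPoint

section Main

open WeierstrassCurve WeierstrassCurve.Affine WeierstrassCurve.Affine.Point

local notation "Qb" => AlgebraicClosure ℚ

theorem baseChange_eq (W : WeierstrassCurve ℤ) :
    ((W.map (Int.castRingHom ℚ)).toAffine⁄Qb) = W.map (Int.castRingHom Qb) := by
  show ((W.map (Int.castRingHom ℚ)).map (algebraMap ℚ Qb)) = _
  rw [WeierstrassCurve.map_map]
  congr 1

/-- **A Frobenius element at a good prime `ℓ ≠ p` with `p ∣ #W̃(𝔽_ℓ)` fixes a nonzero
`p`-torsion point of `W(ℚ̄)`** (`p` an odd prime). -/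
theorem exists_fixed_torsion (W : WeierstrassCurve ℤ) {p ℓ : ℕ} (hp : p.Prime) (hp2 : p ≠ 2)
    (hℓ : ℓ.Prime) (hℓp : ℓ ≠ p) (hgood : W.IsGoodPrimeFor ℓ)
    (hdvd : (p : ℤ) ∣ W.apOfModel ℓ - (ℓ + 1))
    (A : ValuationSubring Qb) (hA : A.LiesOverPrime ℓ)
    (σ : Qb ≃ₐ[ℚ] Qb) (hσ : A.IsFrobeniusAt σ ℓ) :
    ∃ P : ((W.map (Int.castRingHom ℚ)).toAffine⁄Qb).Point, P ≠ 0 ∧ p • P = 0 ∧ σ • P = P := by
  have : Fact ℓ.Prime := ⟨hℓ⟩
  have hodd : Odd p := hp.odd_of_ne_two hp2
  -- the residue field has characteristic `ℓ`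
  have hℓk : ((ℓ : ℕ) : IsLocalRing.ResidueField A) = 0 := by
    have h1 : ((ℓ : ℕ) : IsLocalRing.ResidueField A) = IsLocalRing.residue A ((ℓ : ℕ) : A) := by
      rw [map_natCast]
    rw [h1, IsLocalRing.residue_eq_zero_iff, ← ValuationSubring.coe_mem_nonunits_iff]
    exact_mod_cast hA
  have : CharP (IsLocalRing.ResidueField A) ℓ := (CharP.charP_iff_prime_eq_zero hℓ).mpr hℓk
  let φ : ZMod ℓ →+* IsLocalRing.ResidueField A := ZMod.castHom (dvd_refl ℓ) _
  have hφ : Function.Injective φ := φ.injective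
  have hφpow : ∀ z : ZMod ℓ, φ z ^ ℓ = φ z := fun z => by rw [← map_pow, ZMod.pow_card]
  have hint : ∀ n : ℤ, ¬ (ℓ : ℤ) ∣ n → ((n : ℤ) : IsLocalRing.ResidueField A) ≠ 0 := fun n hn =>
    residue_intCast_ne_zero A (Fermat.Agent.Lib.FrobAlt.val_intCast_eq_one A hℓ hA hn)
  -- a point mod `ℓ`
  obtain ⟨xb, yb, heq, hroot, hneg⟩ := exists_point_mod W hp hp2 hdvd
  set f : ℤ[X] := W.preΨ' p with hf
  have hℓp' : ¬ (ℓ : ℤ) ∣ (p : ℤ) := by
    rw [Int.natCast_dvd_natCast]
    exact fun h => hℓp ((Nat.prime_dvd_prime_iff_eq hℓ hp).mp h)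
  have hlcf : f.leadingCoeff = (p : ℤ) := by
    rw [hf, W.leadingCoeff_preΨ' (by exact_mod_cast hp.ne_zero),
      if_neg (Nat.not_even_iff_odd.mpr hodd)]
  have hlc : A.valuation ((f.leadingCoeff : ℤ) : Qb) = 1 := by
    rw [hlcf]
    exact Fermat.Agent.Lib.FrobAlt.val_intCast_eq_one A hℓ hA hℓp'
  have hrootk : (f.map (Int.castRingHom (IsLocalRing.ResidueField A))).eval (φ xb) = 0 := by
    rw [eval_map_intCast φ f xb, hroot, _root_.map_zero]
  obtain ⟨x0, hx0, hres0⟩ := exists_lift_root A f hlc (φ xb) hrootk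
  -- separability of the reduction
  have hsep : (f.map (Int.castRingHom (IsLocalRing.ResidueField A))).Separable := by
    have h1 := Fermat.Agent.Lib.DivPoly.separable_preΨ'
      (W := (W.map (Int.castRingHom (IsLocalRing.ResidueField A))).toAffine) (n := p) ?_ hodd ?_
    · rwa [WeierstrassCurve.map_preΨ'] at h1
    · rw [WeierstrassCurve.map_Δ]
      exact hint _ hgood
    · have := hint (p : ℤ) hℓp'
      exact_mod_cast this
  -- the curve over `ℚ̄`
  set E : Affine Qb := ((W.map (Int.castRingHom ℚ)).toAffine⁄Qb) with hE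
  have hEeq : E = W.map (Int.castRingHom Qb) := baseChange_eq W
  have hEΔ : E.Δ ≠ 0 := by
    rw [hEeq, WeierstrassCurve.map_Δ]
    have hΔ0 : W.Δ ≠ 0 := fun h => hgood (h ▸ dvd_zero _)
    rw [eq_intCast]
    exact_mod_cast hΔ0
  have hEeqn : ∀ x y : Qb, E.Equation x y ↔ Eqn W Qb x y := fun x y => by
    rw [hEeq]
    exact equation_iff_eqn W Qb x y
  have hEpsi : E.preΨ' p = f.map (Int.castRingHom Qb) := by
    rw [hEeq, WeierstrassCurve.map_preΨ']
  -- a point above `x0`
  obtain ⟨y1, hy1⟩ := Fermat.Agent.Lib.DivPoly.exists_nonsingular_of_Δ_ne_zero E hEΔ (x0 : Qb)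
  have hy1e : Eqn W Qb (x0 : Qb) y1 := (hEeqn _ _).mp hy1.1
  have hintA : ∀ n : ℤ, ((n : ℤ) : Qb) ∈ A := fun n =>
    (A.valuation_le_one_iff _).mp (Fermat.Agent.Lib.FrobAlt.val_intCast_le_one A n)
  have hy1A : y1 ∈ A := by
    refine mem_of_quadratic A (b := (W.a₁ : Qb) * x0 + (W.a₃ : Qb))
      (c := (x0 : Qb) ^ 3 + (W.a₂ : Qb) * (x0 : Qb) ^ 2 + (W.a₄ : Qb) * x0 + (W.a₆ : Qb))
      ?_ ?_ ?_
    · exact add_mem (mul_mem (hintA _) x0.2) (hintA _)
    · exact add_mem (add_mem (add_mem (pow_mem x0.2 3) (mul_mem (hintA _) (pow_mem x0.2 2)))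
        (mul_mem (hintA _) x0.2)) (hintA _)
    · unfold Eqn at hy1e
      linear_combination hy1e
  -- choose the ordinate with the right residue
  have hex : ∃ y0 : A, Eqn W A x0 y0 ∧ IsLocalRing.residue A y0 = φ yb := by
    have e1 : Eqn W A x0 ⟨y1, hy1A⟩ := Eqn.of_map W A.subtype Subtype.coe_injective hy1e
    have e2 := Eqn.map W (IsLocalRing.residue A) e1
    have e3 := Eqn.map W φ heq
    rw [hres0] at e2
    rcases Eqn.eq_or_eq W e2 e3 with h | h
    · exact ⟨⟨y1, hy1A⟩, e1, h.symm⟩
    · refine ⟨-⟨y1, hy1A⟩ - (W.a₁ : A) * x0 - (W.a₃ : A), Eqn.neg W e1, ?_⟩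
      rw [h, map_sub, map_sub, map_neg, map_mul, map_intCast, map_intCast, hres0]
  obtain ⟨y0, hy0e, hres1⟩ := hex
  have hy0e' : Eqn W Qb (x0 : Qb) (y0 : Qb) := Eqn.map W A.subtype hy0e
  have hns : E.Nonsingular (x0 : Qb) (y0 : Qb) :=
    (E.equation_iff_nonsingular_of_Δ_ne_zero hEΔ).mp ((hEeqn _ _).mpr hy0e')
  -- the Frobenius element
  let g : A.decompositionSubgroup ℚ := ⟨σ, hσ.mem_decompositionSubgroup⟩
  have hgres : ∀ a : A, IsLocalRing.residue A (g • a) = IsLocalRing.residue A a ^ ℓ := fun a => by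
    rw [IsLocalRing.ResidueField.residue_smul]
    exact hσ.smul_residue_eq _
  have hgcoe : ∀ a : A, ((g • a : A) : Qb) = σ (a : Qb) := fun a => rfl
  have hσx : σ (x0 : Qb) = x0 := by
    have h1 : g • x0 = x0 := by
      apply residue_injOn_roots A f hlc hsep _ hx0
      · rw [hgres, hres0, hφpow]
      · rw [hgcoe]
        have h2 := eval_map_intCast (σ : Qb →+* Qb) f (x0 : Qb)
        rw [hx0, _root_.map_zero] at h2
        exact h2
    exact congrArg (fun a : A => (a : Qb)) h1
  have hσy : σ (y0 : Qb) = y0 := by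
    have e1 : Eqn W Qb (x0 : Qb) (σ (y0 : Qb)) := by
      have h2 := Eqn.map W (σ : Qb →+* Qb) hy0e'
      rw [RingHom.coe_coe, hσx] at h2
      exact h2
    rcases Eqn.eq_or_eq W hy0e' e1 with h | h
    · exact h
    · exfalso
      have h1 : g • y0 = -y0 - (W.a₁ : A) * x0 - (W.a₃ : A) := by
        apply Subtype.ext
        rw [hgcoe, h]
        push_cast
        rfl
      have h2 := congrArg (IsLocalRing.residue A) h1
      rw [hgres, hres1, hφpow, map_sub, map_sub, map_neg, map_mul, map_intCast, map_intCast,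
        hres0, hres1] at h2
      apply hneg
      apply hφ
      rw [map_sub, map_sub, map_neg, map_mul, map_intCast, map_intCast]
      exact h2
  refine ⟨Point.some _ _ hns, Point.some_ne_zero hns, ?_, ?_⟩
  · rw [Fermat.Agent.Lib.DivPoly.nsmul_eq_zero_iff_preΨ' E hns hodd, hEpsi]
    exact hx0
  · rw [algEquiv_smul_def, Point.map_some]
    simp only [Point.some.injEq]
    exact ⟨hσx, hσy⟩

end Main

end

end Fermat.Agent.P7.RedFix
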