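import Mathlib
import Fermat.Prelude.Def_FLTPrelim_GaloisRep
import Fermat.Prelude.Def_FLTPrelim_Modularity
import Fermat.Agent.S52.VC

/-!
# P7 [VC-ADD]: an admissible change of variables is a group isomorphism on points

`Fermat.Agent.S52.VC.pointEquiv C W : W.Point ≃ (C • W).Point` is additive (over a field), and for
an integral model `W` of `E` (`W.IsIntegralModelOf E`) this gives a Galois-equivariant additive
isomorphism `E(ℚ̄) ≃+ W_ℚ(ℚ̄)`.
-/

set_option autoImplicit false

open WeierstrassCurve WeierstrassCurve.Affine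

namespace Fermat.Agent.P7.VCAdd

open Fermat.Agent.S52.VC

section Field

variable {F : Type*} [Field F] (C : VariableChange F) (W : WeierstrassCurve F)

lemma uinv_ne_zero : ((↑C.u⁻¹ : F)) ≠ 0 := (C.u⁻¹).ne_zero

lemma xMap_injective {x₁ x₂ : F} (h : xMap C x₁ = xMap C x₂) : x₁ = x₂ := by
  have h2 := congrArg (xInv C) h
  rwa [xInv_xMap, xInv_xMap] at h2

lemma yMap_injective (x : F) {y₁ y₂ : F} (h : yMap C x y₁ = yMap C x y₂) : y₁ = y₂ := by
  have h2 := congrArg (yInv C (xMap C x)) h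
  rwa [yInv_xMap_yMap, yInv_xMap_yMap] at h2

/-- Negation commutes with the change of variables. -/
lemma negY_map (x y : F) :
    (C • W).toAffine.negY (xMap C x) (yMap C x y) = yMap C x (W.toAffine.negY x y) := by
  simp only [Affine.negY, variableChange_def, xMap, yMap]
  ring

/-- The abscissa of a sum, with the transformed slope. -/
lemma addX_map (x₁ x₂ ℓ : F) :
    (C • W).toAffine.addX (xMap C x₁) (xMap C x₂) ((↑C.u⁻¹ : F) * (ℓ - C.s)) =
      xMap C (W.toAffine.addX x₁ x₂ ℓ) := by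
  simp only [Affine.addX, variableChange_def, xMap]
  ring

lemma negAddY_map (x₁ x₂ y₁ ℓ : F) :
    (C • W).toAffine.negAddY (xMap C x₁) (xMap C x₂) (yMap C x₁ y₁) ((↑C.u⁻¹ : F) * (ℓ - C.s)) =
      yMap C (W.toAffine.addX x₁ x₂ ℓ) (W.toAffine.negAddY x₁ x₂ y₁ ℓ) := by
  simp only [Affine.negAddY, Affine.addX, variableChange_def, xMap, yMap]
  ring

lemma addY_map (x₁ x₂ y₁ ℓ : F) :
    (C • W).toAffine.addY (xMap C x₁) (xMap C x₂) (yMap C x₁ y₁) ((↑C.u⁻¹ : F) * (ℓ - C.s)) =
      yMap C (W.toAffine.addX x₁ x₂ ℓ) (W.toAffine.addY x₁ x₂ y₁ ℓ) := by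
  rw [Affine.addY, Affine.addY, negAddY_map, addX_map, negY_map]

variable [DecidableEq F]

/-- The slope transforms by `ℓ ↦ u⁻¹ (ℓ - s)` outside the vertical case. -/
lemma slope_map {x₁ x₂ y₁ y₂ : F} (h₁ : W.toAffine.Equation x₁ y₁) (h₂ : W.toAffine.Equation x₂ y₂)
    (hxy : ¬(x₁ = x₂ ∧ y₁ = W.toAffine.negY x₂ y₂)) :
    (C • W).toAffine.slope (xMap C x₁) (xMap C x₂) (yMap C x₁ y₁) (yMap C x₂ y₂) =
      (↑C.u⁻¹ : F) * (W.toAffine.slope x₁ x₂ y₁ y₂ - C.s) := by
  have hv : ((↑C.u⁻¹ : F)) ≠ 0 := uinv_ne_zero C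
  by_cases hx : x₁ = x₂
  · subst hx
    have hy : y₁ ≠ W.toAffine.negY x₁ y₂ := fun h => hxy ⟨rfl, h⟩
    have hyy : y₁ = y₂ := (Affine.Y_eq_of_X_eq h₁ h₂ rfl).resolve_right hy
    subst hyy
    have hy' : yMap C x₁ y₁ ≠ (C • W).toAffine.negY (xMap C x₁) (yMap C x₁ y₁) := by
      rw [negY_map]
      exact fun h => hy (yMap_injective C x₁ h)
    rw [Affine.slope_of_Y_ne rfl hy', Affine.slope_of_Y_ne rfl hy, negY_map]
    have hd : y₁ - W.toAffine.negY x₁ y₁ ≠ 0 := sub_ne_zero.mpr hy
    have hd' : yMap C x₁ y₁ - yMap C x₁ (W.toAffine.negY x₁ y₁) ≠ 0 := by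
      rw [← negY_map]
      exact sub_ne_zero.mpr hy'
    rw [div_eq_iff hd']
    have hL := div_mul_cancel₀
      (3 * x₁ ^ 2 + 2 * W.toAffine.a₂ * x₁ + W.toAffine.a₄ - W.toAffine.a₁ * y₁) hd
    generalize (3 * x₁ ^ 2 + 2 * W.toAffine.a₂ * x₁ + W.toAffine.a₄ - W.toAffine.a₁ * y₁) /
      (y₁ - W.toAffine.negY x₁ y₁) = L at hL ⊢
    simp only [Affine.negY, variableChange_def, xMap, yMap] at hL ⊢
    linear_combination (-(↑C.u⁻¹ : F) ^ 4) * hL
  · have hx' : xMap C x₁ ≠ xMap C x₂ := fun h => hx (xMap_injective C h)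
    rw [Affine.slope_of_X_ne hx', Affine.slope_of_X_ne hx]
    have hd : x₁ - x₂ ≠ 0 := sub_ne_zero.mpr hx
    have hd' : xMap C x₁ - xMap C x₂ ≠ 0 := sub_ne_zero.mpr hx'
    rw [div_eq_iff hd']
    simp only [xMap, yMap]
    field_simp
    ring

/-- **The change of variables is additive on points.** -/
theorem pointEquiv_add (P Q : W.toAffine.Point) :
    pointEquiv C W (P + Q) = pointEquiv C W P + pointEquiv C W Q := by
  rcases P with _ | ⟨x₁, y₁, h₁⟩
  · show pointEquiv C W (0 + Q) = 0 + pointEquiv C W Q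
    rw [zero_add, zero_add]
  rcases Q with _ | ⟨x₂, y₂, h₂⟩
  · show pointEquiv C W (Affine.Point.some x₁ y₁ h₁ + 0) = pointEquiv C W (Affine.Point.some x₁ y₁ h₁) + 0
    rw [add_zero, add_zero]
  have e₁ : pointEquiv C W (Affine.Point.some x₁ y₁ h₁) =
      Affine.Point.some (xMap C x₁) (yMap C x₁ y₁) ((nonsingular_map_iff C W x₁ y₁).mpr h₁) := rfl
  have e₂ : pointEquiv C W (Affine.Point.some x₂ y₂ h₂) =
      Affine.Point.some (xMap C x₂) (yMap C x₂ y₂) ((nonsingular_map_iff C W x₂ y₂).mpr h₂) := rfl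
  rw [e₁, e₂]
  by_cases hxy : x₁ = x₂ ∧ y₁ = W.toAffine.negY x₂ y₂
  · rw [Affine.Point.add_of_Y_eq hxy.1 hxy.2,
      Affine.Point.add_of_Y_eq (congrArg (xMap C) hxy.1) (by rw [negY_map, hxy.1, ← hxy.2])]
    rfl
  · have hxy' : ¬(xMap C x₁ = xMap C x₂ ∧
        yMap C x₁ y₁ = (C • W).toAffine.negY (xMap C x₂) (yMap C x₂ y₂)) := by
      rintro ⟨hx, hy⟩
      have hx0 : x₁ = x₂ := xMap_injective C hx
      subst hx0
      rw [negY_map] at hy
      exact hxy ⟨rfl, yMap_injective C x₁ hy⟩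
    rw [Affine.Point.add_some hxy, Affine.Point.add_some hxy']
    have e₃ : ∀ (x y : F) (h : W.toAffine.Nonsingular x y),
        pointEquiv C W (Affine.Point.some x y h) =
          Affine.Point.some (xMap C x) (yMap C x y) ((nonsingular_map_iff C W x y).mpr h) :=
      fun _ _ _ => rfl
    rw [e₃]
    refine some_congr _ _ ?_ ?_
    · rw [slope_map C W h₁.1 h₂.1 hxy, addX_map]
    · rw [slope_map C W h₁.1 h₂.1 hxy, addY_map]

/-- The additive isomorphism on points induced by an admissible change of variables. -/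
noncomputable def pointAddEquiv : W.toAffine.Point ≃+ (C • W).toAffine.Point :=
  { pointEquiv C W with map_add' := pointEquiv_add C W }

@[simp] lemma pointAddEquiv_apply (P : W.toAffine.Point) :
    pointAddEquiv C W P = pointEquiv C W P := rfl

lemma pointAddEquiv_some (x y : F) (h : W.toAffine.Nonsingular x y) :
    pointAddEquiv C W (Affine.Point.some x y h) =
      Affine.Point.some (xMap C x) (yMap C x y) ((nonsingular_map_iff C W x y).mpr h) := rfl

lemma pointAddEquiv_zero' : pointAddEquiv C W (Affine.Point.zero) = Affine.Point.zero := rfl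

end Field

/-! ### Transport along an equality of curves -/

section Congr

variable {K : Type*} [Field K] [DecidableEq K]

/-- Transport of points along an equality of curves. -/
noncomputable def congrPt {W₁ W₂ : WeierstrassCurve K} (h : W₁ = W₂) :
    W₁.toAffine.Point ≃+ W₂.toAffine.Point := by
  subst h
  exact AddEquiv.refl _

lemma congrPt_zero {W₁ W₂ : WeierstrassCurve K} (h : W₁ = W₂) :
    congrPt h (Affine.Point.zero : W₁.toAffine.Point) = Affine.Point.zero := by
  subst h
  rfl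

lemma congrPt_some {W₁ W₂ : WeierstrassCurve K} (h : W₁ = W₂) {x y : K}
    (hxy : W₁.toAffine.Nonsingular x y) :
    congrPt h (Affine.Point.some x y hxy) = Affine.Point.some x y (h ▸ hxy) := by
  subst h
  rfl

end Congr

/-! ### Base change: a change of variables over `F` acts Galois-equivariantly on `K`-points -/

section BaseChange

variable {F : Type*} [Field F] {K : Type*} [Field K] [Algebra F K] [DecidableEq K]
  (C : VariableChange F) (E : WeierstrassCurve F)

/-- The additive isomorphism `E(K) ≃+ (C • E)(K)` induced by a change of variables over `F`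
(spelled with `map (algebraMap F K)`; `E⁄K` unfolds to it). -/
noncomputable def baseEquiv :
    (E.map (algebraMap F K)).toAffine.Point ≃+ ((C • E).map (algebraMap F K)).toAffine.Point :=
  (pointAddEquiv (C.map (algebraMap F K)) (E.map (algebraMap F K))).trans
    (congrPt (WeierstrassCurve.map_variableChange (W := E) (C := C) (φ := algebraMap F K)))

lemma baseEquiv_zero :
    baseEquiv (K := K) C E (Affine.Point.zero) = Affine.Point.zero := by
  show congrPt _ (pointAddEquiv (C.map (algebraMap F K)) (E.map (algebraMap F K))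
    Affine.Point.zero) = _
  rw [pointAddEquiv_zero', congrPt_zero]

lemma baseEquiv_some (x y : K) (h : (E.map (algebraMap F K)).toAffine.Nonsingular x y) :
    ∃ h' : ((C • E).map (algebraMap F K)).toAffine.Nonsingular
        (xMap (C.map (algebraMap F K)) x) (yMap (C.map (algebraMap F K)) x y),
      baseEquiv (K := K) C E (Affine.Point.some x y h) = Affine.Point.some _ _ h' := by
  refine ⟨(WeierstrassCurve.map_variableChange (W := E) (C := C) (φ := algebraMap F K)) ▸
    (nonsingular_map_iff (C.map (algebraMap F K)) (E.map (algebraMap F K)) x y).mpr h, ?_⟩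
  show congrPt _ (pointAddEquiv (C.map (algebraMap F K)) (E.map (algebraMap F K))
    (Affine.Point.some x y h)) = _
  rw [pointAddEquiv_some, congrPt_some]

omit [DecidableEq K] in
lemma xMap_algEquiv (σ : K ≃ₐ[F] K) (x : K) :
    xMap (C.map (algebraMap F K)) (σ x) = σ (xMap (C.map (algebraMap F K)) x) := by
  simp only [xMap, VariableChange.map, Units.coe_map_inv, MonoidHom.coe_coe, map_mul, map_pow,
    map_sub, AlgEquiv.commutes]

omit [DecidableEq K] in
lemma yMap_algEquiv (σ : K ≃ₐ[F] K) (x y : K) :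
    yMap (C.map (algebraMap F K)) (σ x) (σ y) = σ (yMap (C.map (algebraMap F K)) x y) := by
  simp only [yMap, VariableChange.map, Units.coe_map_inv, MonoidHom.coe_coe, map_mul, map_pow,
    map_sub, AlgEquiv.commutes]

/-- The same isomorphism, typed with the base-change notation of the Prelude. -/
noncomputable def baseEquivBC : (E⁄K).toAffine.Point ≃+ ((C • E)⁄K).toAffine.Point :=
  baseEquiv C E

lemma baseEquivBC_some (x y : K) (h : (E⁄K).toAffine.Nonsingular x y) :
    ∃ h' : ((C • E)⁄K).toAffine.Nonsingular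
        (xMap (C.map (algebraMap F K)) x) (yMap (C.map (algebraMap F K)) x y),
      baseEquivBC (K := K) C E (Affine.Point.some x y h) = Affine.Point.some _ _ h' :=
  baseEquiv_some C E x y h

open WeierstrassCurve.Affine.Point in
/-- `baseEquivBC` commutes with the Galois action. -/
theorem baseEquivBC_smul (σ : K ≃ₐ[F] K) (P : (E⁄K).toAffine.Point) :
    baseEquivBC (K := K) C E (σ • P) = σ • baseEquivBC (K := K) C E P := by
  rcases P with _ | ⟨x, y, h⟩
  · show baseEquivBC (K := K) C E (σ • (0 : (E⁄K).toAffine.Point)) =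
      σ • baseEquivBC (K := K) C E 0
    rw [smul_zero, _root_.map_zero, smul_zero]
  · obtain ⟨h', e'⟩ := baseEquivBC_some (K := K) C E x y h
    rw [e', algEquiv_smul_def, algEquiv_smul_def, Affine.Point.map_some, Affine.Point.map_some]
    generalize_proofs hσ hσ'
    obtain ⟨h'', e''⟩ := baseEquivBC_some (K := K) C E _ _ hσ
    rw [e'']
    exact some_congr _ _ (xMap_algEquiv C σ x) (yMap_algEquiv C σ x y)

end BaseChange

/-! ### Transfer of torsion and of irreducibility along an equivariant isomorphism -/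

section Transfer

open WeierstrassCurve.Affine.Point

variable {F : Type*} [Field F] {K : Type*} [Field K] [Algebra F K] [DecidableEq K]
  {E₁ E₂ : WeierstrassCurve F}

/-- An additive isomorphism of the groups of points restricts to the `n`-torsion. -/
noncomputable def torsionEquiv (e : (E₁⁄K).Point ≃+ (E₂⁄K).Point) (n : ℕ) :
    Submodule.torsionBy ℤ (E₁⁄K).Point n ≃+ Submodule.torsionBy ℤ (E₂⁄K).Point n where
  toFun x := ⟨e x.1, by
    rw [Submodule.mem_torsionBy_iff, ← map_zsmul, (Submodule.mem_torsionBy_iff _ _).mp x.2,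
      _root_.map_zero]⟩
  invFun y := ⟨e.symm y.1, by
    rw [Submodule.mem_torsionBy_iff, ← map_zsmul, (Submodule.mem_torsionBy_iff _ _).mp y.2,
      _root_.map_zero]⟩
  left_inv x := Subtype.ext (e.symm_apply_apply x.1)
  right_inv y := Subtype.ext (e.apply_symm_apply y.1)
  map_add' x y := Subtype.ext (map_add e x.1 y.1)

lemma torsionEquiv_coe (e : (E₁⁄K).Point ≃+ (E₂⁄K).Point) (n : ℕ)
    (x : Submodule.torsionBy ℤ (E₁⁄K).Point n) :
    ((torsionEquiv e n x : Submodule.torsionBy ℤ (E₂⁄K).Point n) : (E₂⁄K).Point) = e x.1 := rfl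

lemma torsionEquiv_smul (e : (E₁⁄K).Point ≃+ (E₂⁄K).Point)
    (he : ∀ (σ : K ≃ₐ[F] K) (P : (E₁⁄K).Point), e (σ • P) = σ • e P) (n : ℕ) (σ : K ≃ₐ[F] K)
    (x : Submodule.torsionBy ℤ (E₁⁄K).Point n) :
    torsionEquiv e n (σ • x) = σ • torsionEquiv e n x :=
  Subtype.ext (he σ x.1)

lemma symm_smul (e : (E₁⁄K).Point ≃+ (E₂⁄K).Point)
    (he : ∀ (σ : K ≃ₐ[F] K) (P : (E₁⁄K).Point), e (σ • P) = σ • e P) (σ : K ≃ₐ[F] K)
    (Q : (E₂⁄K).Point) : e.symm (σ • Q) = σ • e.symm Q := by
  apply e.injective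
  rw [e.apply_symm_apply, he, e.apply_symm_apply]

/-- Irreducibility of the mod `n` representation is transported by an equivariant additive
isomorphism of the groups of points. -/
theorem irreducible_of_equiv (e : (E₁⁄K).Point ≃+ (E₂⁄K).Point)
    (he : ∀ (σ : K ≃ₐ[F] K) (P : (E₁⁄K).Point), e (σ • P) = σ • e P) (n : ℕ)
    (h : GaloisRepIsIrreducible (K := K) F E₁ n) : GaloisRepIsIrreducible (K := K) F E₂ n := by
  obtain ⟨hnt, hirr⟩ := h
  refine ⟨(torsionEquiv e n).symm.toEquiv.nontrivial, ?_⟩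
  intro N hN
  let f : Submodule.torsionBy ℤ (E₁⁄K).Point n →ₗ[ZMod n] Submodule.torsionBy ℤ (E₂⁄K).Point n :=
    AddMonoidHom.toZModLinearMap n (torsionEquiv e n).toAddMonoidHom
  have hf : ∀ x, f x = torsionEquiv e n x := fun _ => rfl
  have hstab : IsGaloisStable (K := K) F (N.comap f) := by
    intro σ x hx
    rw [Submodule.mem_comap, hf, torsionEquiv_smul e he n σ x]
    exact hN σ _ (by rw [← hf]; exact hx)
  rcases hirr _ hstab with h0 | h1
  · left
    rw [eq_bot_iff]
    intro y hy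
    have hx : (torsionEquiv e n).symm y ∈ N.comap f := by
      rw [Submodule.mem_comap, hf, AddEquiv.apply_symm_apply]
      exact hy
    rw [h0, Submodule.mem_bot] at hx
    rw [Submodule.mem_bot, ← (torsionEquiv e n).apply_symm_apply y, hx, _root_.map_zero]
  · right
    rw [eq_top_iff]
    intro y _
    have hx : (torsionEquiv e n).symm y ∈ N.comap f := by rw [h1]; exact Submodule.mem_top
    rw [Submodule.mem_comap, hf, AddEquiv.apply_symm_apply] at hx
    exact hx

/-- A nonzero `n`-torsion point fixed by `σ` is transported to a nonzero fixed element of the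
`n`-torsion module. -/
theorem fixed_of_equiv (e : (E₁⁄K).Point ≃+ (E₂⁄K).Point)
    (he : ∀ (σ : K ≃ₐ[F] K) (P : (E₁⁄K).Point), e (σ • P) = σ • e P) (n : ℕ) (σ : K ≃ₐ[F] K)
    (h : ∃ P : (E₂⁄K).Point, P ≠ 0 ∧ n • P = 0 ∧ σ • P = P) :
    ∃ x : Submodule.torsionBy ℤ (E₁⁄K).Point n, x ≠ 0 ∧ σ • x = x := by
  obtain ⟨P, hP0, hPn, hPσ⟩ := h
  have hmem : e.symm P ∈ Submodule.torsionBy ℤ (E₁⁄K).Point n := by
    rw [Submodule.mem_torsionBy_iff, ← map_zsmul, natCast_zsmul, hPn, _root_.map_zero]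
  refine ⟨⟨e.symm P, hmem⟩, ?_, ?_⟩
  · intro h0
    apply hP0
    have h1 : e.symm P = 0 := congrArg Subtype.val h0
    rw [← e.apply_symm_apply P, h1, _root_.map_zero]
  · apply Subtype.ext
    show σ • e.symm P = e.symm P
    rw [← symm_smul e he, hPσ]

end Transfer

/-! ### The shape of the frozen statement S41 -/

section Rat

open WeierstrassCurve.Affine.Point

/-- For an integral model `W` of `E` there is a Galois-equivariant additive isomorphism
`E(ℚ̄) ≃+ W_ℚ(ℚ̄)`. -/
theorem exists_equivariant_addEquiv {E : WeierstrassCurve ℚ} {W : WeierstrassCurve ℤ}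
    (hW : W.IsIntegralModelOf E) :
    ∃ e : (E⁄(AlgebraicClosure ℚ)).Point ≃+
        ((W.map (Int.castRingHom ℚ))⁄(AlgebraicClosure ℚ)).Point,
      ∀ (σ : AlgebraicClosure ℚ ≃ₐ[ℚ] AlgebraicClosure ℚ) (P : (E⁄(AlgebraicClosure ℚ)).Point),
        e (σ • P) = σ • e P := by
  obtain ⟨C, hC⟩ := hW
  generalize W.map (Int.castRingHom ℚ) = E' at hC
  subst hC
  exact ⟨baseEquivBC C E, baseEquivBC_smul C E⟩

/-- Irreducibility of the mod `n` representation of `E` and of (the generic fibre of) an integral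
model are equivalent. -/
theorem galoisRepIsIrreducible_iff {E : WeierstrassCurve ℚ} {W : WeierstrassCurve ℤ}
    (hW : W.IsIntegralModelOf E) (n : ℕ) :
    GaloisRepIsIrreducible (K := AlgebraicClosure ℚ) ℚ E n ↔
      GaloisRepIsIrreducible (K := AlgebraicClosure ℚ) ℚ (W.map (Int.castRingHom ℚ)) n := by
  obtain ⟨e, he⟩ := exists_equivariant_addEquiv hW
  exact ⟨irreducible_of_equiv e he n, irreducible_of_equiv e.symm (symm_smul e he) n⟩

/-- A nonzero `n`-torsion point of `W_ℚ(ℚ̄)` fixed by `σ` gives a nonzero element of `E[n]` fixed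
by `σ`. -/
theorem fixed_transfer {E : WeierstrassCurve ℚ} {W : WeierstrassCurve ℤ}
    (hW : W.IsIntegralModelOf E) (n : ℕ) (σ : AlgebraicClosure ℚ ≃ₐ[ℚ] AlgebraicClosure ℚ)
    (h : ∃ P : ((W.map (Int.castRingHom ℚ))⁄(AlgebraicClosure ℚ)).Point,
      P ≠ 0 ∧ n • P = 0 ∧ σ • P = P) :
    ∃ x : Submodule.torsionBy ℤ (E⁄(AlgebraicClosure ℚ)).Point n, x ≠ 0 ∧ σ • x = x := by
  obtain ⟨e, he⟩ := exists_equivariant_addEquiv hW
  exact fixed_of_equiv e he n σ h

end Rat

end Fermat.Agent.P7.VCAdd
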