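import Mathlib
import Fermat.Agent.P7.NonEisGroup
import Fermat.Agent.P7.RedFix
import Fermat.Agent.P7.VCAdd
import Fermat.Agent.Lib.WeakCheb.Final
import Fermat.Agent.Lib.DivPoly.Count

/-!
# P7 [NON-EIS]: an irreducible `E[p]` is not Eisenstein

Let `E / ℚ` be an elliptic curve with integral model `W`, `p` an odd prime.  If
`a_ℓ(W) ≡ ℓ + 1 (mod p)` for all good primes `ℓ ≠ p` outside a finite set `S`, then `E[p]` is
reducible (`not_irreducible_of_ap_congr`).  Equivalently, if `E[p]` is irreducible, then for every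
finite set `S` there is a good prime `ℓ ∉ S`, `ℓ ≠ p`, with `p ∤ a_ℓ(W) - (ℓ + 1)`
(`exists_prime_not_eis`).

Proof.  By `RedFix.exists_fixed_torsion` (+ `VCAdd.fixed_transfer`) every Frobenius element at
such an `ℓ` fixes a nonzero vector of `E[p]`; by the weak Chebotarev theorem
(`Lib.WeakCheb.weakChebotarev'`) every element of the Galois group acts on `E[p]` as a power of
such a Frobenius element, hence fixes a nonzero vector too; by the elementary group lemma
`NonEisGroup.exists_stable_line_of_smul` there is a Galois-stable line.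
-/

set_option autoImplicit false

namespace Fermat.Agent.P7.NonEis

open WeierstrassCurve WeierstrassCurve.Affine WeierstrassCurve.Affine.Point

local notation "Qb" => AlgebraicClosure ℚ

/-- The coordinates of a point. -/
def coords {K : Type*} [Field K] {W : Affine K} : W.Point → Set K
  | .zero => ∅
  | .some x y _ => {x, y}

lemma coords_finite {K : Type*} [Field K] {W : Affine K} (P : W.Point) : (coords P).Finite := by
  rcases P with _ | ⟨x, y, h⟩
  · exact Set.finite_empty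
  · exact Set.toFinite {x, y}

/-- Two automorphisms agreeing on the coordinates of a point act in the same way on it. -/
lemma smul_eq_smul_of_coords {E : WeierstrassCurve ℚ} (g τ : Qb ≃ₐ[ℚ] Qb) (P : (E⁄Qb).Point)
    (h : ∀ c ∈ coords P, g c = τ c) : g • P = τ • P := by
  rcases P with _ | ⟨x, y, hxy⟩
  · rfl
  · have hx : g x = τ x := h x (by simp [coords])
    have hy : g y = τ y := h y (by simp [coords])
    rw [algEquiv_smul_def, algEquiv_smul_def]
    exact Fermat.Agent.S52.VC.some_congr _ _ hx hy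

/-- The discriminant of an integral model of an elliptic curve is nonzero. -/
lemma Δ_ne_zero_of_isIntegralModelOf (E : WeierstrassCurve ℚ) [E.IsElliptic]
    {W : WeierstrassCurve ℤ} (hW : W.IsIntegralModelOf E) : W.Δ ≠ 0 := by
  obtain ⟨C, hC⟩ := hW
  intro h0
  have h1 : (C • E).Δ = 0 := by
    rw [hC, WeierstrassCurve.map_Δ, h0, _root_.map_zero]
  rw [WeierstrassCurve.variableChange_Δ] at h1
  rcases mul_eq_zero.mp h1 with h | h
  · exact (pow_ne_zero 12 (C.u⁻¹).ne_zero) h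
  · exact E.isUnit_Δ.ne_zero h

/-- **[NON-EIS], contrapositive form.** If `a_ℓ ≡ ℓ + 1 (mod p)` for all good primes `ℓ ≠ p`
outside a finite set, then `E[p]` is reducible. -/
theorem not_irreducible_of_ap_congr (E : WeierstrassCurve ℚ) [E.IsElliptic]
    {W : WeierstrassCurve ℤ} (hW : W.IsIntegralModelOf E) {p : ℕ} (hp : p.Prime) (hp2 : p ≠ 2)
    (S : Finset ℕ)
    (h : ∀ ℓ : ℕ, ℓ.Prime → W.IsGoodPrimeFor ℓ → ℓ ∉ S → ℓ ≠ p →
      (p : ℤ) ∣ W.apOfModel ℓ - (ℓ + 1)) :
    ¬ GaloisRepIsIrreducible (K := AlgebraicClosure ℚ) ℚ E p := by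
  intro hirr
  have : Fact p.Prime := ⟨hp⟩
  have hWΔ : W.Δ ≠ 0 := Δ_ne_zero_of_isIntegralModelOf E hW
  -- the module `V = E[p]`
  have hEΔ : (E⁄Qb).Δ ≠ 0 := by
    show (E.map (algebraMap ℚ Qb)).Δ ≠ 0
    rw [WeierstrassCurve.map_Δ]
    exact (map_ne_zero _).mpr E.isUnit_Δ.ne_zero
  have hcard : Nat.card (Submodule.torsionBy ℤ (E⁄Qb).Point p) = p ^ 2 :=
    Fermat.Agent.Lib.DivPoly.card_torsionBy_of_natCast_ne_zero (E⁄Qb) hEΔ p
      (Nat.cast_ne_zero.mpr hp.ne_zero)
  have : Finite (Submodule.torsionBy ℤ (E⁄Qb).Point p) :=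
    Nat.finite_of_card_ne_zero (by rw [hcard]; exact pow_ne_zero 2 hp.ne_zero)
  have hrank : Module.finrank (ZMod p) (Submodule.torsionBy ℤ (E⁄Qb).Point p) = 2 := by
    have h1 := Module.natCard_eq_pow_finrank (K := ZMod p)
      (V := Submodule.torsionBy ℤ (E⁄Qb).Point p)
    rw [hcard, Nat.card_zmod] at h1
    exact (Nat.pow_right_injective hp.two_le h1).symm
  -- a finite Galois extension containing all coordinates of `E[p]`
  let Cset : Set Qb := ⋃ x : Submodule.torsionBy ℤ (E⁄Qb).Point p, coords (x : (E⁄Qb).Point)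
  have hCfin : Cset.Finite := Set.finite_iUnion fun x => coords_finite _
  have : Finite Cset := hCfin
  have : FiniteDimensional ℚ (IntermediateField.adjoin ℚ Cset) :=
    IntermediateField.finiteDimensional_adjoin fun x _ => Algebra.IsIntegral.isIntegral x
  let M : IntermediateField ℚ Qb :=
    IntermediateField.normalClosure ℚ (IntermediateField.adjoin ℚ Cset) Qb
  have : FiniteDimensional ℚ M := normalClosure.is_finiteDimensional ℚ _ Qb
  have : Normal ℚ M := normalClosure.normal ℚ _ Qb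
  have : IsGalois ℚ M := ⟨⟩
  have hCM : ∀ c ∈ Cset, c ∈ M := fun c hc =>
    IntermediateField.le_normalClosure (IntermediateField.adjoin ℚ Cset)
      (IntermediateField.subset_adjoin ℚ Cset hc)
  -- every element of the Galois group fixes a nonzero vector
  have hfix : ∀ g : Qb ≃ₐ[ℚ] Qb,
      ∃ v : Submodule.torsionBy ℤ (E⁄Qb).Point p, v ≠ 0 ∧ g • v = v := by
    intro g
    obtain ⟨ℓ, hℓ, hℓS, A, hA, σ, hσ, j, hj⟩ :=
      Fermat.Agent.Lib.WeakCheb.weakChebotarev' M g (S ∪ {p} ∪ W.Δ.natAbs.primeFactors)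
    have hℓS' : ℓ ∉ S := fun hmem => hℓS (by simp [hmem])
    have hℓp : ℓ ≠ p := fun hmem => hℓS (by simp [hmem])
    have hgood : W.IsGoodPrimeFor ℓ := by
      intro hdvd
      apply hℓS
      have h1 : ℓ ∣ W.Δ.natAbs := Int.natCast_dvd.mp hdvd
      have h2 : ℓ ∈ W.Δ.natAbs.primeFactors :=
        Nat.mem_primeFactors.mpr ⟨hℓ, h1, Int.natAbs_ne_zero.mpr hWΔ⟩
      simp [h2]
    have hdvd := h ℓ hℓ hgood hℓS' hℓp
    obtain ⟨v, hv0, hσv⟩ := Fermat.Agent.P7.VCAdd.fixed_transfer hW p σ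
      (Fermat.Agent.P7.RedFix.exists_fixed_torsion W hp hp2 hℓ hℓp hgood hdvd A hA σ hσ)
    refine ⟨v, hv0, ?_⟩
    have hpow : (σ ^ j) • v = v := by
      have hmem : σ ∈ MulAction.stabilizer (Qb ≃ₐ[ℚ] Qb) v := hσv
      exact (MulAction.stabilizer (Qb ≃ₐ[ℚ] Qb) v).pow_mem hmem j
    have hgv : g • v = (σ ^ j) • v := by
      apply Subtype.ext
      show g • (v : (E⁄Qb).Point) = (σ ^ j) • (v : (E⁄Qb).Point)
      refine smul_eq_smul_of_coords g (σ ^ j) _ fun c hc => ?_
      exact (hj c (hCM c (Set.mem_iUnion.mpr ⟨v, hc⟩))).symm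
    rw [hgv, hpow]
  obtain ⟨N, hN0, hN1, hNstab⟩ :=
    Fermat.Agent.P7.NonEisGroup.exists_stable_line_of_smul (k := ZMod p)
      (G := Qb ≃ₐ[ℚ] Qb) hrank hfix
  rcases hirr.2 N (fun σ x hx => hNstab σ x hx) with h0 | h1
  · exact hN0 h0
  · exact hN1 h1

/-- **[NON-EIS].** If `E[p]` is irreducible (`p` odd), then outside every finite set of primes
there is a good prime `ℓ ≠ p` with `p ∤ a_ℓ - (ℓ + 1)`. -/
theorem exists_prime_not_eis (E : WeierstrassCurve ℚ) [E.IsElliptic] {W : WeierstrassCurve ℤ}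
    (hW : W.IsIntegralModelOf E) {p : ℕ} (hp : p.Prime) (hp2 : p ≠ 2)
    (hirr : GaloisRepIsIrreducible (K := AlgebraicClosure ℚ) ℚ E p) (S : Finset ℕ) :
    ∃ ℓ : ℕ, ℓ.Prime ∧ ℓ ∉ S ∧ W.IsGoodPrimeFor ℓ ∧ ℓ ≠ p ∧
      ¬ (p : ℤ) ∣ W.apOfModel ℓ - (ℓ + 1) := by
  by_contra hcon
  refine not_irreducible_of_ap_congr E hW hp hp2 S (fun ℓ hℓ hgood hℓS hℓp => ?_) hirr
  by_contra hnd
  exact hcon ⟨ℓ, hℓ, hℓS, hgood, hℓp, hnd⟩

end Fermat.Agent.P7.NonEis
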