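import Mathlib
import Fermat.Agent.P7.Plan
import Fermat.Agent.P7.NonEis

/-!
# P7: the spine of S41 with [NON-EIS] discharged

`Plan.NonEisStmt` is stated for every prime `p`; the frozen statement S41 only needs odd `p`, and
`NonEis.exists_prime_not_eis` is proved for odd `p`.  This file gives

* `exists_prime_not_dvd` : `Plan.NonEisStmt` with the extra hypothesis `p ≠ 2` (level form);
* `s41_of_levelRaise`   : `Plan.LevelRaiseStmt → Plan.S41Stmt` (the spine `Plan.s41_of_plan` with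
  [NON-EIS] already plugged in).
-/

set_option autoImplicit false

open CuspForm CongruenceSubgroup WeierstrassCurve

namespace Fermat.Agent.P7.NonEisSpine

/-- `Plan.NonEisStmt` for odd `p`: away from any level `M > 0` there is a good prime `ℓ ≠ p` with
`a_ℓ(W) ≢ ℓ + 1 (mod p)`. -/
theorem exists_prime_not_dvd (E : WeierstrassCurve ℚ) [E.IsElliptic] {W : WeierstrassCurve ℤ}
    (hW : W.IsIntegralModelOf E) {p : ℕ} (hp : p.Prime) (hp2 : p ≠ 2) (M : ℕ) (hM : 0 < M)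
    (hirr : WeierstrassCurve.Affine.Point.GaloisRepIsIrreducible (K := AlgebraicClosure ℚ) ℚ E p) :
    ∃ ℓ : ℕ, ℓ.Prime ∧ W.IsGoodPrimeFor ℓ ∧ ¬ ℓ ∣ M ∧ ℓ ≠ p ∧
      ¬ (p : ℤ) ∣ W.apOfModel ℓ - ((ℓ : ℤ) + 1) := by
  obtain ⟨ℓ, hℓ, hℓS, hgood, hℓp, hne⟩ :=
    Fermat.Agent.P7.NonEis.exists_prime_not_eis E hW hp hp2 hirr M.primeFactors
  exact ⟨ℓ, hℓ, hgood, fun hd => hℓS (Nat.mem_primeFactors.mpr ⟨hℓ, hd, hM.ne'⟩), hℓp, hne⟩

/-- **The spine with [NON-EIS] discharged**: S41 follows from `Plan.LevelRaiseStmt`. -/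
theorem s41_of_levelRaise (hLR : Fermat.Agent.P7.Plan.LevelRaiseStmt) :
    Fermat.Agent.P7.Plan.S41Stmt := by
  intro E _ W hW p N q' hp hp2 hN hq' hq'N hq'p hirr f 𝔪 hf hmax hpm hcong hLRc
  obtain ⟨ℓ₀, hℓ₀, hgood, hℓ₀M, hℓ₀p, hne⟩ :=
    exists_prime_not_dvd E hW hp hp2 (N * q') (Nat.mul_pos hN hq'.pos) hirr
  exact hLR hp hp2 hN hq' hq'N hq'p f 𝔪 hf hmax hpm {ℓ | W.IsGoodPrimeFor ℓ}
    (fun ℓ => W.apOfModel ℓ) (fun ℓ hℓ hG hℓN hℓp => hcong ℓ hℓ hG hℓN hℓp) hLRc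
    ⟨ℓ₀, hℓ₀, hgood, hℓ₀M, hℓ₀p, hne⟩

end Fermat.Agent.P7.NonEisSpine
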