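import Mathlib

/-!
# P7 [SEED], abstract half: an eigensystem congruent to integers occurs modulo `p` in the lattice

`exists_int_vector`: let `A i` be integer `s × s` matrices (no commutativity is assumed), `ω ≠ 0`
a complex vector with `A i ω = α i ω`, where the `α i` are algebraic integers congruent to the
rational integers `a i` modulo a proper ideal `𝔪 ∋ p` of `ℤ̄`.  Then there is an integer vector
`v ∉ p ℤ^s` with `A i v ≡ a i v (mod p)` for all `i`.

Proof: otherwise the matrices `A i - a i` have trivial joint kernel modulo `p`, so their rows span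
`𝔽_p^s`, and there are integer combinations `Σ C (A i - a i) = 1 + p E`.  Applied to `ω` this gives
`(1 - D) ω = 0` with a matrix `D` with entries in `𝔪`, so `det (1 - D) = 0`; but
`det (1 - D) ≡ 1 (mod 𝔪)`.
-/

set_option autoImplicit false

open Matrix

namespace Fermat.Agent.P7.Seed

/-- The rows of the matrices `A i - a i` modulo `p` span `𝔽_p^s` as soon as no integer vector
`v ∉ p ℤ^s` satisfies `A i v ≡ a i v` for all `i`. -/
theorem span_rows_eq_top {s : ℕ} {ι : Type*} (A : ι → Matrix (Fin s) (Fin s) ℤ) (a : ι → ℤ)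
    (p : ℕ) [Fact p.Prime]
    (hcon : ∀ v : Fin s → ℤ, (¬ ∀ k, (p : ℤ) ∣ v k) →
      ∃ i k, ¬ (p : ℤ) ∣ ((A i) *ᵥ v - a i • v) k) :
    Submodule.span (ZMod p) (Set.range fun x : ι × Fin s =>
      fun l : Fin s => (((A x.1 x.2 l - if x.2 = l then a x.1 else 0 : ℤ)) : ZMod p)) = ⊤ := by
  classical
  by_contra hne
  obtain ⟨f, hf0, hf⟩ := Submodule.exists_le_ker_of_lt_top _ (lt_top_iff_ne_top.mpr hne)
  -- the functional is the dot product with `vb`
  set vb : Fin s → ZMod p := fun k => f (Pi.single k 1) with hvb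
  have hfx : ∀ x : Fin s → ZMod p, f x = ∑ k, x k * vb k := by
    intro x
    have h1 := LinearMap.pi_apply_eq_sum_univ f x
    rw [h1]
    refine Finset.sum_congr rfl fun k _ => ?_
    rw [smul_eq_mul, hvb]
    congr 2
    ext j
    simp [Pi.single_apply, eq_comm]
  obtain ⟨v, hv⟩ : ∃ v : Fin s → ℤ, ∀ k, ((v k : ℤ) : ZMod p) = vb k :=
    ⟨fun k => ((vb k).val : ℤ), fun k => by simp⟩
  have hv0 : ¬ ∀ k, (p : ℤ) ∣ v k := by
    intro h
    apply hf0
    refine LinearMap.ext fun x => ?_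
    rw [hfx, LinearMap.zero_apply]
    refine Finset.sum_eq_zero fun k _ => ?_
    rw [← hv k, (ZMod.intCast_zmod_eq_zero_iff_dvd _ p).mpr (h k), mul_zero]
  obtain ⟨i, k, hik⟩ := hcon v hv0
  apply hik
  rw [← ZMod.intCast_zmod_eq_zero_iff_dvd]
  have hmem : (fun l : Fin s => (((A i k l - if k = l then a i else 0 : ℤ)) : ZMod p)) ∈
      LinearMap.ker f := hf (Submodule.subset_span ⟨(i, k), rfl⟩)
  rw [LinearMap.mem_ker, hfx] at hmem
  rw [← hmem]
  simp only [Pi.sub_apply, Pi.smul_apply, Matrix.mulVec, dotProduct, smul_eq_mul, Int.cast_sub,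
    Int.cast_sum, Int.cast_mul, ← hv]
  simp only [sub_mul, Finset.sum_sub_distrib, Int.cast_ite, Int.cast_zero, ite_mul, zero_mul,
    Finset.sum_ite_eq, Finset.mem_univ, if_true]

/-- **[SEED], abstract form.** -/
theorem exists_int_vector {s : ℕ} {ι : Type*} (A : ι → Matrix (Fin s) (Fin s) ℤ) (a : ι → ℤ)
    (p : ℕ) (hp : p.Prime) (𝔪 : Ideal (integralClosure ℤ ℂ)) (h𝔪 : 𝔪 ≠ ⊤)
    (hpm : (p : integralClosure ℤ ℂ) ∈ 𝔪) (ω : Fin s → ℂ) (hω : ω ≠ 0)
    (α : ι → integralClosure ℤ ℂ) (hα : ∀ i, α i - (a i : integralClosure ℤ ℂ) ∈ 𝔪)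
    (heig : ∀ i, (A i).map (Int.cast : ℤ → ℂ) *ᵥ ω = (α i : ℂ) • ω) :
    ∃ v : Fin s → ℤ, (¬ ∀ k, (p : ℤ) ∣ v k) ∧ ∀ i k, (p : ℤ) ∣ ((A i) *ᵥ v - a i • v) k := by
  classical
  have : Fact p.Prime := ⟨hp⟩
  by_contra hcon0
  have hcon : ∀ v : Fin s → ℤ, (¬ ∀ k, (p : ℤ) ∣ v k) →
      ∃ i k, ¬ (p : ℤ) ∣ ((A i) *ᵥ v - a i • v) k := by
    intro v hv
    by_contra h
    push Not at h
    exact hcon0 ⟨v, hv, h⟩
  have hspan := span_rows_eq_top A a p hcon
  set R : ι × Fin s → (Fin s → ZMod p) := fun x => fun l : Fin s =>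
    (((A x.1 x.2 l - if x.2 = l then a x.1 else 0 : ℤ)) : ZMod p) with hR
  -- coefficients expressing the standard basis vectors through the rows
  have hex : ∀ k : Fin s, ∃ c : (ι × Fin s) →₀ ZMod p,
      (c.sum fun x r => r • R x) = Pi.single k 1 := by
    intro k
    have hmem : (Pi.single k 1 : Fin s → ZMod p) ∈ Submodule.span (ZMod p) (Set.range R) := by
      rw [hspan]; trivial
    exact (Finsupp.mem_span_range_iff_exists_finsupp).mp hmem
  choose c hc using hex
  set S : Finset (ι × Fin s) := Finset.univ.biUnion fun k => (c k).support with hS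
  set C : Fin s → ι × Fin s → ℤ := fun k x => ((c k x).val : ℤ) with hC
  have hCc : ∀ k x, ((C k x : ℤ) : ZMod p) = c k x := fun k x => by simp [hC]
  -- the integer congruence `Σ C (A - a) ≡ 1 (mod p)`
  have hcongr : ∀ k l : Fin s, ∃ e : ℤ,
      ∑ x ∈ S, C k x * (A x.1 x.2 l - if x.2 = l then a x.1 else 0)
        = (if k = l then 1 else 0) + p * e := by
    intro k l
    have h1 : ((∑ x ∈ S, C k x * (A x.1 x.2 l - if x.2 = l then a x.1 else 0) : ℤ) : ZMod p)
        = (((if k = l then 1 else 0 : ℤ)) : ZMod p) := by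
      have h0 : (∑ x ∈ S, c k x • R x) = Pi.single k 1 := by
        rw [← hc k]
        exact (Finsupp.sum_of_support_subset (c k) (s := S)
          (fun x hx => Finset.mem_biUnion.mpr ⟨k, Finset.mem_univ k, hx⟩) (fun x r => r • R x)
          (fun x _ => zero_smul (ZMod p) (R x))).symm
      have h2 := congrFun h0 l
      rw [Finset.sum_apply] at h2
      rw [Int.cast_sum]
      simp only [Int.cast_mul, hCc]
      rw [Pi.single_apply] at h2
      simp only [Pi.smul_apply, smul_eq_mul, hR] at h2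
      rw [h2]
      by_cases hkl : k = l
      · simp [hkl]
      · simp [hkl, Ne.symm hkl]
    obtain ⟨e, he⟩ := (ZMod.intCast_eq_intCast_iff_dvd_sub _ _ p).mp h1.symm
    exact ⟨e, by linarith⟩
  choose E hE using hcongr
  -- the complex identities
  have hA : ∀ i m, ∑ l, (A i m l : ℂ) * ω l = (α i : ℂ) * ω m := by
    intro i m
    have h := congrFun (heig i) m
    simpa [Matrix.mulVec, dotProduct] using h
  have h1 : ∀ k, ∑ l, ((∑ x ∈ S, C k x * (A x.1 x.2 l - if x.2 = l then a x.1 else 0) : ℤ) : ℂ)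
      * ω l = ω k + p * ∑ l, (E k l : ℂ) * ω l := by
    intro k
    simp only [hE k]
    push_cast
    simp only [add_mul, Finset.sum_add_distrib, ite_mul, one_mul, zero_mul, Finset.sum_ite_eq,
      Finset.mem_univ, if_true, mul_assoc, Finset.mul_sum]
  have h2 : ∀ k, ∑ l, ((∑ x ∈ S, C k x * (A x.1 x.2 l - if x.2 = l then a x.1 else 0) : ℤ) : ℂ)
      * ω l = ∑ x ∈ S, (C k x : ℂ) * (((α x.1 : ℂ) - a x.1) * ω x.2) := by
    intro k
    push_cast
    simp only [Finset.sum_mul]
    rw [Finset.sum_comm]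
    refine Finset.sum_congr rfl fun x _ => ?_
    have h3 : ∀ l, (C k x : ℂ) * ((A x.1 x.2 l : ℂ) - if x.2 = l then (a x.1 : ℂ) else 0) * ω l
        = (C k x : ℂ) * ((A x.1 x.2 l : ℂ) * ω l)
          - (C k x : ℂ) * (if x.2 = l then (a x.1 : ℂ) * ω l else 0) := by
      intro l
      split_ifs <;> ring
    simp only [h3, Finset.sum_sub_distrib, ← Finset.mul_sum, hA, Finset.sum_ite_eq,
      Finset.mem_univ, if_true]
    ring
  -- the matrix `D` with entries in `𝔪`
  let φ : integralClosure ℤ ℂ →+* ℂ := algebraMap (integralClosure ℤ ℂ) ℂ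
  have hφ : ∀ x : integralClosure ℤ ℂ, φ x = (x : ℂ) := fun _ => rfl
  let D : Matrix (Fin s) (Fin s) (integralClosure ℤ ℂ) := fun k m =>
    (∑ x ∈ S, if x.2 = m then (C k x : integralClosure ℤ ℂ) *
      (α x.1 - (a x.1 : integralClosure ℤ ℂ)) else 0)
      - (p : integralClosure ℤ ℂ) * (E k m : integralClosure ℤ ℂ)
  have hD : ∀ k m, D k m ∈ 𝔪 := by
    intro k m
    refine 𝔪.sub_mem (𝔪.sum_mem fun x _ => ?_) (𝔪.mul_mem_right _ hpm)
    split_ifs
    · exact 𝔪.mul_mem_left _ (hα _)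
    · exact 𝔪.zero_mem
  have h4 : ∀ k, ∑ m, φ (D k m) * ω m = ω k := by
    intro k
    have h5 : ∀ m, φ (D k m) * ω m
        = (∑ x ∈ S, if x.2 = m then (C k x : ℂ) * (((α x.1 : ℂ) - a x.1) * ω m) else 0)
          - p * ((E k m : ℂ) * ω m) := by
      intro m
      simp only [D, map_sub, map_sum, map_mul, map_intCast, map_natCast, apply_ite φ, map_zero]
      simp only [hφ, sub_mul, Finset.sum_mul, ite_mul, zero_mul, mul_assoc]
    simp only [h5, Finset.sum_sub_distrib, ← Finset.mul_sum]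
    rw [Finset.sum_comm]
    simp only [Finset.sum_ite_eq, Finset.mem_univ, if_true]
    rw [← h2 k, h1 k]
    ring
  -- `(1 - D) ω = 0`
  have hker : ((1 - D).map φ) *ᵥ ω = 0 := by
    ext k
    simp only [Matrix.mulVec, dotProduct, Matrix.map_apply, Matrix.sub_apply, Matrix.one_apply,
      map_sub, Pi.zero_apply, sub_mul, Finset.sum_sub_distrib, h4 k]
    simp [apply_ite φ]
  have hdet : ((1 - D).map φ).det = 0 := Matrix.exists_mulVec_eq_zero_iff.mp ⟨ω, hω, hker⟩
  have hdet' : (1 - D).det = 0 := by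
    have h6 : φ ((1 - D).det) = 0 := by
      rw [RingHom.map_det, RingHom.mapMatrix_apply]
      exact hdet
    exact Subtype.val_injective (by rw [← hφ, h6]; rfl)
  -- reduce modulo `𝔪`
  have hone : (Ideal.Quotient.mk 𝔪).mapMatrix (1 - D) = 1 := by
    ext k m
    simp only [RingHom.mapMatrix_apply, Matrix.map_apply, Matrix.sub_apply, map_sub,
      Ideal.Quotient.eq_zero_iff_mem.mpr (hD k m), sub_zero, Matrix.one_apply]
    split_ifs <;> simp
  have h7 : (Ideal.Quotient.mk 𝔪) ((1 - D).det) = 1 := by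
    rw [RingHom.map_det, hone, Matrix.det_one]
  rw [hdet', map_zero] at h7
  apply h𝔪
  rw [Ideal.eq_top_iff_one]
  exact Ideal.Quotient.eq_zero_iff_mem.mp (by rw [map_one]; exact h7.symm)

end Fermat.Agent.P7.Seed
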