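import Mathlib
import Fermat.Agent.P5.Per.Action
import Fermat.Agent.P5.G9.EigenHom
import Fermat.Agent.P7.Seed

/-!
# P7 [SEED], concrete half: the mod `p` eigenvector of `(f, 𝔪)` in the parabolic lattice

`L = Per.Lat N = parabolicHoms ℤ Γ₀(N) ℤ`, `t_ℓ = Per.tcohL N hℓ hℓN`.

* `tcoh_periodMap`: the period map of a normalised eigenform is an eigenvector of `T^coh_ℓ`
  (`ℓ ∤ N`) with eigenvalue `a_ℓ(f)`;
* `exists_seed`: for ANY family of primes `ℓ i ∤ N` and integers `a i` with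
  `a_{ℓ i}(f) ≡ a i (mod 𝔪)` (`𝔪 ∋ p` a proper ideal of `ℤ̄`) there is `v ∈ L ∖ pL` with
  `t_{ℓ i} v ≡ a i v (mod p L)` for all `i`;
* `exists_seed_sign`: the same with one extra prime `q ∤ N` at which only
  `a_q(f)² ≡ (q + 1)² (mod 𝔪)` is known (`𝔪` prime): `t_q v ≡ ε (q + 1) v` for a sign `ε`;
* `exists_eigen_mod_p`: the form in the binders of `Plan.LevelRaiseStmt`
  (= the inputs `v, hv0, hv, ε, hε, hvq` of `RibetLA.exists_new_prod`).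

No commutativity of the Hecke operators is used, `p = 3` and `p ∣ N` are allowed.
-/

set_option autoImplicit false

namespace Fermat.Agent.P7.SeedLat

open scoped MatrixGroups
open CongruenceSubgroup ModularCurve ModularCurve.Period ModularFormClass Matrix
open Fermat.Agent.P5.Per

/-- The period map of a normalised eigenform is an eigenvector of `T^coh_ℓ`, `ℓ ∤ N`, with
eigenvalue `a_ℓ(f)`. -/
theorem tcoh_periodMap (N : ℕ) [NeZero N] {f : CuspForm (Gamma0 N) 2}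
    (hf : f.IsNormalizedEigenform) {ℓ : ℕ} (hℓ : ℓ.Prime) (hℓN : ¬ ℓ ∣ N) :
    tcoh N hℓ hℓN ℂ (periodMap N f) = qCoeff f ℓ • periodMap N f := by
  rw [← periodMap_heckeTLin N hℓ hℓN f, Fermat.Agent.P5.G9.EigenHom.heckeTLin_eq hf hℓ hℓN]
  have h := (Fermat.Agent.S21.periodMapLin N).map_smul (qCoeff f ℓ) f
  simpa only [Fermat.Agent.S21.periodMapLin_apply] using h

/-- **[SEED]** the mod `p` eigenvector of `(f, 𝔪)` in the parabolic lattice, for an arbitrary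
family of primes `ℓ i ∤ N` with congruences `a_{ℓ i}(f) ≡ a i (mod 𝔪)`. -/
theorem exists_seed (N : ℕ) [NeZero N] (p : ℕ) (hp : p.Prime) {f : CuspForm (Gamma0 N) 2}
    (hf : f.IsNormalizedEigenform) (𝔪 : Ideal (integralClosure ℤ ℂ)) (h𝔪 : 𝔪 ≠ ⊤)
    (hpm : (p : integralClosure ℤ ℂ) ∈ 𝔪) {ι : Type*} (ℓ : ι → ℕ) (hℓ : ∀ i, (ℓ i).Prime)
    (hℓN : ∀ i, ¬ ℓ i ∣ N) (a : ι → ℤ)
    (hcong : ∀ i, ∃ α : integralClosure ℤ ℂ, (α : ℂ) = qCoeff f (ℓ i) ∧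
      α - (a i : integralClosure ℤ ℂ) ∈ 𝔪) :
    ∃ v : Lat N, (¬ ∃ v', v = (p : ℤ) • v') ∧
      ∀ i, ∃ w, tcohL N (hℓ i) (hℓN i) v - a i • v = (p : ℤ) • w := by
  classical
  obtain ⟨s, ψ, g, h1, h2, h3⟩ := exists_parabolic_dual_basis.{0} N
  set P : Additive (Gamma0 N) →+ ℂ := periodMap N f with hP
  have hPmem : IsParabolicHom (Gamma0 N) P := periodMap_mem N f
  have hexpC : ∀ x, P x = ∑ k, ψ k x • P (Additive.ofMul (g k)) := h3 ℂ P hPmem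
  -- the lattice vectors
  let bv : Fin s → Lat N := fun k => ⟨ψ k, h1 k⟩
  have hev : ∀ (c : Fin s → ℤ) (j : Fin s),
      ((∑ k, c k • bv k : Lat N) : Additive (Gamma0 N) →+ ℤ) (Additive.ofMul (g j)) = c j := by
    intro c j
    rw [Submodule.coe_sum, AddMonoidHom.finsetSum_apply]
    simp only [Submodule.coe_smul, AddMonoidHom.smul_apply, bv, h2, smul_eq_mul, mul_ite, mul_one,
      mul_zero, Finset.sum_ite_eq', Finset.mem_univ, if_true]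
  have hext : ∀ φ₁ φ₂ : Lat N,
      (∀ k, (φ₁ : Additive (Gamma0 N) →+ ℤ) (Additive.ofMul (g k)) =
        (φ₂ : Additive (Gamma0 N) →+ ℤ) (Additive.ofMul (g k))) → φ₁ = φ₂ := by
    intro φ₁ φ₂ h
    apply Subtype.ext
    refine AddMonoidHom.ext fun x => ?_
    rw [h3 ℤ φ₁.1 φ₁.2 x, h3 ℤ φ₂.1 φ₂.2 x]
    exact Finset.sum_congr rfl fun k _ => by rw [h k]
  -- the matrices of the Hecke operators and the period vector
  let A : ι → Matrix (Fin s) (Fin s) ℤ := fun i =>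
    Matrix.of fun k j => tcoh N (hℓ i) (hℓN i) ℤ (ψ j) (Additive.ofMul (g k))
  let ω : Fin s → ℂ := fun k => P (Additive.ofMul (g k))
  have hω : ω ≠ 0 := by
    intro h0
    apply hf.ne_zero
    apply periodMap_injective N
    have hz : periodMap N (0 : CuspForm (Gamma0 N) 2) = 0 :=
      (Fermat.Agent.S21.periodMapLin N).map_zero
    rw [hz]
    refine AddMonoidHom.ext fun x => ?_
    show P x = 0
    rw [hexpC x]
    refine Finset.sum_eq_zero fun k _ => ?_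
    have hk : P (Additive.ofMul (g k)) = 0 := congrFun h0 k
    rw [hk, smul_zero]
  choose α hα1 hα2 using hcong
  have heig : ∀ i, (A i).map (Int.cast : ℤ → ℂ) *ᵥ ω = (α i : ℂ) • ω := by
    intro i
    have : Fact (ℓ i).Prime := ⟨hℓ i⟩
    funext k
    have hR : (α i : ℂ) * P (Additive.ofMul (g k)) =
        ∑ x : OnePoint (ZMod (ℓ i)), ∑ j, ((ψ j (Additive.ofMul
          ((Fermat.Agent.Lib.HeckeHomGL.isCosetFamily_heckeRep N (ℓ i) (hℓN i)).cof (g k) x)) : ℤ) : ℂ) *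
            P (Additive.ofMul (g j)) := by
      rw [hα1 i]
      have h4 := congrArg (fun φ : Additive (Gamma0 N) →+ ℂ => φ (Additive.ofMul (g k)))
        (tcoh_periodMap N hf (hℓ i) (hℓN i))
      simp only [AddMonoidHom.smul_apply, smul_eq_mul] at h4
      rw [← hP] at h4
      rw [← h4, tcoh_apply]
      refine Finset.sum_congr rfl fun x _ => ?_
      rw [hexpC]
      refine Finset.sum_congr rfl fun j _ => ?_
      rw [zsmul_eq_mul]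
    show ∑ j, (A i).map (Int.cast : ℤ → ℂ) k j * ω j = (α i : ℂ) * ω k
    rw [show ω k = P (Additive.ofMul (g k)) from rfl, hR, Finset.sum_comm]
    refine Finset.sum_congr rfl fun j _ => ?_
    show (((tcoh N (hℓ i) (hℓN i) ℤ (ψ j) (Additive.ofMul (g k)) : ℤ)) : ℂ) *
      P (Additive.ofMul (g j)) = _
    rw [tcoh_apply, Int.cast_sum, Finset.sum_mul]
  obtain ⟨v₀, hv₀, hdiv⟩ := Seed.exists_int_vector A a p hp 𝔪 h𝔪 hpm ω hω α hα2 heig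
  refine ⟨∑ k, v₀ k • bv k, ?_, fun i => ?_⟩
  · rintro ⟨v', hv'⟩
    apply hv₀
    intro j
    have h5 := congrArg (fun φ : Lat N => (φ : Additive (Gamma0 N) →+ ℤ) (Additive.ofMul (g j))) hv'
    simp only [hev, Submodule.coe_smul, AddMonoidHom.smul_apply, smul_eq_mul] at h5
    exact ⟨_, h5⟩
  · have hex : ∀ k, ∃ e : ℤ, ((A i) *ᵥ v₀ - a i • v₀) k = (p : ℤ) * e := fun k => hdiv i k
    choose e he using hex
    refine ⟨∑ k, e k • bv k, hext _ _ fun k => ?_⟩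
    have hL : ((tcohL N (hℓ i) (hℓN i) (∑ j, v₀ j • bv j) - a i • ∑ j, v₀ j • bv j : Lat N) :
        Additive (Gamma0 N) →+ ℤ) (Additive.ofMul (g k)) = ((A i) *ᵥ v₀ - a i • v₀) k := by
      rw [Submodule.coe_sub, AddMonoidHom.sub_apply, Submodule.coe_smul, AddMonoidHom.smul_apply,
        hev, coe_tcohL, Submodule.coe_sum, map_sum, AddMonoidHom.finsetSum_apply]
      simp only [Submodule.coe_smul, map_zsmul, AddMonoidHom.smul_apply, bv, smul_eq_mul,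
        Pi.sub_apply, Pi.smul_apply, Matrix.mulVec, dotProduct, A, Matrix.of_apply]
      congr 1
      exact Finset.sum_congr rfl fun j _ => mul_comm _ _
    rw [hL, he k, Submodule.coe_smul, AddMonoidHom.smul_apply, hev, smul_eq_mul]

/-- From `α² ≡ (q + 1)² (mod 𝔪)` with `𝔪` prime: `α ≡ ε (q + 1)` for a sign `ε`. -/
theorem exists_sign (𝔪 : Ideal (integralClosure ℤ ℂ)) (h𝔪 : 𝔪.IsPrime) (q : ℕ)
    (α : integralClosure ℤ ℂ) (h : α ^ 2 - ((q : integralClosure ℤ ℂ) + 1) ^ 2 ∈ 𝔪) :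
    ∃ ε : ℤ, ε * ε = 1 ∧ α - ((ε * ((q : ℤ) + 1) : ℤ) : integralClosure ℤ ℂ) ∈ 𝔪 := by
  have h1 : (α - ((q : integralClosure ℤ ℂ) + 1)) * (α + ((q : integralClosure ℤ ℂ) + 1)) ∈ 𝔪 := by
    have h0 : (α - ((q : integralClosure ℤ ℂ) + 1)) * (α + ((q : integralClosure ℤ ℂ) + 1)) =
        α ^ 2 - ((q : integralClosure ℤ ℂ) + 1) ^ 2 := by ring
    rw [h0]
    exact h
  rcases h𝔪.mem_or_mem h1 with h2 | h2
  · refine ⟨1, by norm_num, ?_⟩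
    have h0 : α - (((1 : ℤ) * ((q : ℤ) + 1) : ℤ) : integralClosure ℤ ℂ) =
        α - ((q : integralClosure ℤ ℂ) + 1) := by push_cast; ring
    rw [h0]
    exact h2
  · refine ⟨-1, by norm_num, ?_⟩
    have h0 : α - (((-1 : ℤ) * ((q : ℤ) + 1) : ℤ) : integralClosure ℤ ℂ) =
        α + ((q : integralClosure ℤ ℂ) + 1) := by push_cast; ring
    rw [h0]
    exact h2

/-- **[SEED] with the level-raising prime**: as `exists_seed`, with one extra prime `q ∤ N` at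
which `a_q(f)² ≡ (q + 1)² (mod 𝔪)`; the seed satisfies `t_q v ≡ ε (q + 1) v (mod p L)` for a
sign `ε`. -/
theorem exists_seed_sign (N : ℕ) [NeZero N] (p : ℕ) (hp : p.Prime) {f : CuspForm (Gamma0 N) 2}
    (hf : f.IsNormalizedEigenform) (𝔪 : Ideal (integralClosure ℤ ℂ)) (h𝔪 : 𝔪.IsPrime)
    (hpm : (p : integralClosure ℤ ℂ) ∈ 𝔪) {ι : Type*} (ℓ : ι → ℕ) (hℓ : ∀ i, (ℓ i).Prime)
    (hℓN : ∀ i, ¬ ℓ i ∣ N) (a : ι → ℤ)
    (hcong : ∀ i, ∃ α : integralClosure ℤ ℂ, (α : ℂ) = qCoeff f (ℓ i) ∧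
      α - (a i : integralClosure ℤ ℂ) ∈ 𝔪)
    {q : ℕ} (hq : q.Prime) (hqN : ¬ q ∣ N)
    (hLR : ∃ α : integralClosure ℤ ℂ, (α : ℂ) = qCoeff f q ∧
      α ^ 2 - ((q : integralClosure ℤ ℂ) + 1) ^ 2 ∈ 𝔪) :
    ∃ (ε : ℤ) (v : Lat N), ε * ε = 1 ∧ (¬ ∃ v', v = (p : ℤ) • v') ∧
      (∀ i, ∃ w, tcohL N (hℓ i) (hℓN i) v - a i • v = (p : ℤ) • w) ∧
      ∃ w, tcohL N hq hqN v - (ε * ((q : ℤ) + 1)) • v = (p : ℤ) • w := by
  obtain ⟨αq, hαq1, hαq2⟩ := hLR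
  obtain ⟨ε, hε, hεm⟩ := exists_sign 𝔪 h𝔪 q αq hαq2
  obtain ⟨v, hv0, hv⟩ := exists_seed N p hp hf 𝔪 h𝔪.ne_top hpm
    (fun o : Option ι => o.elim q ℓ)
    (fun o => Option.rec (motive := fun o => (o.elim q ℓ).Prime) hq hℓ o)
    (fun o => Option.rec (motive := fun o => ¬ o.elim q ℓ ∣ N) hqN hℓN o)
    (fun o : Option ι => o.elim (ε * ((q : ℤ) + 1)) a)
    (fun o => Option.rec (motive := fun o => ∃ α : integralClosure ℤ ℂ,
        (α : ℂ) = qCoeff f (o.elim q ℓ) ∧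
          α - ((o.elim (ε * ((q : ℤ) + 1)) a : ℤ) : integralClosure ℤ ℂ) ∈ 𝔪)
      ⟨αq, hαq1, hεm⟩ hcong o)
  exact ⟨ε, v, hε, hv0, fun i => hv (some i), hv none⟩

/-- **[SEED] in the binders of `Plan.LevelRaiseStmt`**: the mod `p` eigenvector `v ∈ L ∖ pL` of
`(f, 𝔪)` with `t_ℓ v ≡ c ℓ v` for the primes `ℓ ∈ G`, `ℓ ∤ N`, `ℓ ≠ p`, and
`t_q v ≡ ε (q + 1) v`. -/
theorem exists_eigen_mod_p {p N q : ℕ} [NeZero N] (hp : p.Prime) (hq : q.Prime) (hqN : ¬ q ∣ N)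
    (f : CuspForm (Gamma0 N) 2) (𝔪 : Ideal (integralClosure ℤ ℂ)) (hf : f.IsNormalizedEigenform)
    (hmax : 𝔪.IsMaximal) (hpm : (p : integralClosure ℤ ℂ) ∈ 𝔪) (G : Set ℕ) (c : ℕ → ℤ)
    (hcong : ∀ ℓ : ℕ, ℓ.Prime → ℓ ∈ G → ¬ ℓ ∣ N → ℓ ≠ p →
      ∃ a : integralClosure ℤ ℂ, (a : ℂ) = qCoeff f ℓ ∧
        a - ((c ℓ : ℤ) : integralClosure ℤ ℂ) ∈ 𝔪)
    (hLR : ∃ a : integralClosure ℤ ℂ, (a : ℂ) = qCoeff f q ∧
      a ^ 2 - ((q : integralClosure ℤ ℂ) + 1) ^ 2 ∈ 𝔪) :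
    ∃ (v : Lat N) (ε : ℤ), ε * ε = 1 ∧ (¬ ∃ v', v = (p : ℤ) • v') ∧
      (∀ (ℓ : ℕ) (hℓ : ℓ.Prime) (hℓN : ¬ ℓ ∣ N), ℓ ∈ G → ℓ ≠ p →
        ∃ w, tcohL N hℓ hℓN v - c ℓ • v = (p : ℤ) • w) ∧
      ∃ w, tcohL N hq hqN v - (ε * ((q : ℤ) + 1)) • v = (p : ℤ) • w := by
  obtain ⟨ε, v, hε, hv0, hv, hvq⟩ := exists_seed_sign N p hp hf 𝔪 hmax.isPrime hpm
    (ι := {ℓ : ℕ // ℓ.Prime ∧ ℓ ∈ G ∧ ¬ ℓ ∣ N ∧ ℓ ≠ p}) (fun i => i.1) (fun i => i.2.1)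
    (fun i => i.2.2.2.1) (fun i => c i.1)
    (fun i => hcong i.1 i.2.1 i.2.2.1 i.2.2.2.1 i.2.2.2.2) hq hqN hLR
  exact ⟨v, ε, hε, hv0, fun ℓ hℓ hℓN hG hℓp => hv ⟨ℓ, hℓ, hG, hℓN, hℓp⟩, hvq⟩

end Fermat.Agent.P7.SeedLat
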