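import Mathlib
import Fermat.Agent.P7.SeedLat
import Fermat.Agent.P7.LRCore

/-!
# P7 [SEED], contract form: `LRCore.SeedStmt`

`seedStmt` is deliverable (C1) of `LRCore.levelRaiseStmt_of_contracts`, verbatim: for a normalised
eigenform `f` of level `N` and a maximal ideal `𝔪 ∋ p` of `ℤ̄`, the eigensystem of `(f, 𝔪)` occurs
in `Lat N / p` (`SeedLat.exists_seed` for the index type `{ℓ // ℓ ∈ I}`).
-/

set_option autoImplicit false

namespace Fermat.Agent.P7.SeedInst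

open CongruenceSubgroup
open Fermat.Agent.P5.Per

/-- **(C1) [SEED]** in the shape consumed by `LRCore.levelRaiseStmt_of_contracts`. -/
theorem seedStmt (N p : ℕ) [NeZero N] (f : CuspForm (Gamma0 N) 2)
    (𝔪 : Ideal (integralClosure ℤ ℂ)) (hp : p.Prime) (hf : f.IsNormalizedEigenform)
    (hmax : 𝔪.IsMaximal) (hpm : (p : integralClosure ℤ ℂ) ∈ 𝔪) :
    LRCore.SeedStmt N p f 𝔪 := by
  intro I a hI hcong
  obtain ⟨v, hv0, hv⟩ := SeedLat.exists_seed N p hp hf 𝔪 hmax.ne_top hpm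
    (ι := {ℓ : ℕ // ℓ ∈ I}) (fun i => i.1) (fun i => (hI i.1 i.2).1) (fun i => (hI i.1 i.2).2)
    (fun i => a i.1) (fun i => hcong i.1 i.2)
  exact ⟨v, hv0, fun ℓ _ _ hℓI => hv ⟨ℓ, hℓI⟩⟩

/-- The hypothesis `hSeed` of `LRCore.levelRaiseStmt_of_contracts`, verbatim. -/
theorem hSeed : ∀ (N p : ℕ) [NeZero N] (f : CuspForm (Gamma0 N) 2)
    (𝔪 : Ideal (integralClosure ℤ ℂ)), p.Prime → f.IsNormalizedEigenform → 𝔪.IsMaximal →
    (p : integralClosure ℤ ℂ) ∈ 𝔪 → LRCore.SeedStmt N p f 𝔪 :=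
  fun N p _ f 𝔪 hp hf hmax hpm => seedStmt N p f 𝔪 hp hf hmax hpm

end Fermat.Agent.P7.SeedInst
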