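import Mathlib
import Fermat.Agent.P7.LRCore
import Fermat.Agent.P7.SeedInst
import Fermat.Agent.P7.DegInst
import Fermat.Agent.P7.EndgameLR
import Fermat.Agent.P7.NonEisSpine

/-!
# P7: S41 from the [PD] contract alone (helper80)

With [SEED] (`SeedInst.hSeed`), [COH-HECKE] (`DegInst.degData`), [ENDGAME]
(`EndgameLR.endgameStmt_of_coe`) and [NON-EIS] (`NonEisSpine.s41_of_levelRaise`) on main, the
frozen statement S41 follows from the pairing contract [PD] for `DegInst.degData`: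

* `levelRaiseStmt_of_pd : (P) → (hP) → Plan.LevelRaiseStmt`;
* `s41Stmt_of_pd : (P) → (hP) → Plan.S41Stmt`.
-/

set_option autoImplicit false

namespace Fermat.Agent.P7.LRFinal

/-- `Plan.LevelRaiseStmt` from the pairing contract [PD]. -/
theorem levelRaiseStmt_of_pd
    (P : ∀ (p M : ℕ), p.Prime → p ≠ 2 → 0 < M → LRCore.PairData p M)
    (hP : ∀ (p N q : ℕ) [NeZero N] [NeZero (N * q)] (hp : p.Prime) (hp2 : p ≠ 2)
      (hq : q.Prime) (hqN : ¬ q ∣ N) (hN : 0 < N) (hNq : 0 < N * q),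
      LRCore.IsAdj (P p N hp hp2 hN) (P p (N * q) hp hp2 hNq) (DegInst.degData N q hq hqN)) :
    Plan.LevelRaiseStmt :=
  LRCore.levelRaiseStmt_of_contracts SeedInst.hSeed DegInst.degData P hP
    (fun N q p _ _ hq _ _ _ _ => EndgameLR.endgameStmt_of_coe N q p hq _ (fun _ => rfl))

/-- The frozen statement S41 (as `Plan.S41Stmt`) from the pairing contract [PD]. -/
theorem s41Stmt_of_pd
    (P : ∀ (p M : ℕ), p.Prime → p ≠ 2 → 0 < M → LRCore.PairData p M)
    (hP : ∀ (p N q : ℕ) [NeZero N] [NeZero (N * q)] (hp : p.Prime) (hp2 : p ≠ 2)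
      (hq : q.Prime) (hqN : ¬ q ∣ N) (hN : 0 < N) (hNq : 0 < N * q),
      LRCore.IsAdj (P p N hp hp2 hN) (P p (N * q) hp hp2 hNq) (DegInst.degData N q hq hqN)) :
    Plan.S41Stmt :=
  NonEisSpine.s41_of_levelRaise (levelRaiseStmt_of_pd P hP)

end Fermat.Agent.P7.LRFinal
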