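import Mathlib
import Fermat.Agent.Lib.ParabolicLift
import Fermat.Agent.P5.Per.Action

/-!
# P7 [LAT-LIFT]: integral parabolic lifts at every level

For every level `N ≥ 1` and every quotient `π : ℤ ↠ A`, a homomorphism `χ : Γ₀(N) → A` killing
the elements of trace `0`, `±1`, `±2` (elliptic elements, parabolic elements and `-1`) is the
reduction of an integer valued parabolic homomorphism, i.e. of an element of `P5.Per.Lat N`.

This generalises `Fermat.Agent.Lib.ParabolicLift.exists_parabolic_lift` (prime level) and gives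
`Lat N / p ≅ {homs Γ₀(N) → 𝔽_p killing parabolic and elliptic elements}`.

The proof uses the surjectivity of the Shapiro map (`Lib.ParabolicLift.bigMap_bijective`, i.e. the
genus formula and Eichler–Shimura), integral lifts of the generator values along `S` and `S * T`,
and a flow argument on the cusp graph to correct the `T`-orbit sums.
-/

set_option autoImplicit false

namespace Fermat.Agent.P7.LatLift

open MulAction
open scoped MatrixGroups
open CongruenceSubgroup ModularGroup ModularCurve ModularCurve.Period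
open Fermat.Agent.S21 Fermat.Agent.S21.PermDim Fermat.Agent.S21.Shapiro
open Fermat.Agent.Lib.ParabolicLift

section Orbit

variable {G : Type*} [Group G] (Γ : Subgroup G)

/-- Two cosets with the same image in the orbit space of `⟨g⟩` differ by a power of `g`. -/
theorem exists_zpow_of_opi_eq (g : G) {x y : G ⧸ Γ} (h : opi Γ g x = opi Γ g y) :
    ∃ j : ℤ, g ^ j • y = x := by
  have h1 : MulAction.orbitRel (Subgroup.zpowers g) (G ⧸ Γ) x y := Quotient.exact' h
  rw [MulAction.orbitRel_apply, MulAction.mem_orbit_iff] at h1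
  obtain ⟨⟨u, hu⟩, hux⟩ := h1
  obtain ⟨j, rfl⟩ := Subgroup.mem_zpowers_iff.mp hu
  exact ⟨j, hux⟩

theorem opi_zpow_smul (g : G) (j : ℤ) (x : G ⧸ Γ) : opi Γ g (g ^ j • x) = opi Γ g x :=
  invariant_zpow (opi Γ g) g (opi_smul Γ g) j x

theorem opi_pow_smul (g : G) (i : ℕ) (x : G ⧸ Γ) : opi Γ g (g ^ i • x) = opi Γ g x := by
  have h := opi_zpow_smul Γ g (i : ℤ) x
  rwa [zpow_natCast] at h

/-- An invariant function is constant on the fibres of `opi`. -/
theorem eq_of_opi_eq {Z : Type*} (g : G) (f : G ⧸ Γ → Z) (hf : ∀ x, f (g • x) = f x)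
    {x y : G ⧸ Γ} (h : opi Γ g x = opi Γ g y) : f x = f y := by
  obtain ⟨j, rfl⟩ := exists_zpow_of_opi_eq Γ g h
  exact invariant_zpow f g hf j y

/-- The powers `g ^ i • x₀`, `i < period`, are pairwise distinct. -/
theorem pow_smul_injOn (g : G) (x₀ : G ⧸ Γ) :
    Set.InjOn (fun i : ℕ => g ^ i • x₀) (Finset.range (MulAction.period g x₀) : Set ℕ) := by
  have key : ∀ i j : ℕ, i ≤ j → j < MulAction.period g x₀ → g ^ i • x₀ = g ^ j • x₀ → i = j := by
    intro i j hij hj h
    have h1 : g ^ j • x₀ = g ^ i • (g ^ (j - i) • x₀) := by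
      rw [← mul_smul, ← pow_add, Nat.add_sub_cancel' hij]
    rw [h1] at h
    have h2 : g ^ (j - i) • x₀ = x₀ := (smul_left_cancel _ h).symm
    have h3 := MulAction.pow_smul_eq_iff_period_dvd.mp h2
    have h4 : j - i = 0 := Nat.eq_zero_of_dvd_of_lt h3 (by omega)
    omega
  intro i hi j hj hij
  rw [Finset.coe_range, Set.mem_Iio] at hi hj
  rcases le_total i j with h | h
  · exact key i j h hj hij
  · exact (key j i h hi hij.symm).symm

/-- The sum of a function over the fibre of `opi` through `x₀` is the sum over the orbit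
`g ^ i • x₀`, `i < period`. -/
theorem sum_fibre_eq [Fintype (G ⧸ Γ)] (g : G) [DecidableEq (OQ Γ g)] (x₀ : G ⧸ Γ) {n : ℕ}
    (hn : 0 < n) (hgn : g ^ n • x₀ = x₀) {B : Type*} [AddCommMonoid B] (F : G ⧸ Γ → B) :
    ∑ x, (if opi Γ g x = opi Γ g x₀ then F x else 0)
      = ∑ i ∈ Finset.range (MulAction.period g x₀), F (g ^ i • x₀) := by
  classical
  have hw : 0 < MulAction.period g x₀ :=
    Nat.pos_of_dvd_of_pos (MulAction.pow_smul_eq_iff_period_dvd.mp hgn) hn
  have hset : Finset.univ.filter (fun x => opi Γ g x = opi Γ g x₀)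
      = (Finset.range (MulAction.period g x₀)).image (fun i => g ^ i • x₀) := by
    ext x
    simp only [Finset.mem_filter, Finset.mem_univ, true_and, Finset.mem_image, Finset.mem_range]
    constructor
    · intro h
      obtain ⟨j, hj⟩ := exists_zpow_of_opi_eq Γ g h
      have hwz : (0 : ℤ) < (MulAction.period g x₀ : ℤ) := by exact_mod_cast hw
      have h0 := Int.emod_nonneg j hwz.ne'
      have h1 := Int.emod_lt_of_pos j hwz
      refine ⟨(j % (MulAction.period g x₀ : ℤ)).toNat, by omega, ?_⟩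
      rw [← hj, ← MulAction.zpow_mod_period_smul j, ← zpow_natCast, Int.toNat_of_nonneg h0]
    · rintro ⟨i, -, rfl⟩
      exact opi_pow_smul Γ g i x₀
  rw [← Finset.sum_filter, hset, Finset.sum_image (pow_smul_injOn Γ g x₀)]

/-- Additivity of a character along the powers of `g`. -/
theorem map_pkap_pow {A : Type*} [AddCommGroup A] (χ : Additive Γ →+ A) (g : G) (n : ℕ)
    (x : G ⧸ Γ) :
    χ (Additive.ofMul (pkap Γ (g ^ n) x))
      = ∑ i ∈ Finset.range n, χ (Additive.ofMul (pkap Γ g (g ^ i • x))) := by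
  induction n with
  | zero => simp [pkap_one]
  | succ n ih =>
    rw [pow_succ', pkap_mul, ofMul_mul, map_add, Finset.sum_range_succ, ih, add_comm]

/-- **Flow lemma on the cusp graph.** If `S` and `T` generate `G` and `S` acts as an involution
on `G ⧸ Γ`, every vector `K` of `T`-orbit sums with values in a subgroup `H ≤ ℤ` and total sum
zero is realised by an `S`-antisymmetric function with values in `H`. -/
theorem exists_antisymm_of_sum_zero [Fintype (G ⧸ Γ)] (S T : G)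
    (hgen : Subgroup.closure {S, T} = ⊤) (hSS : ∀ x : G ⧸ Γ, S • S • x = x)
    (H : AddSubgroup ℤ) [Fintype (OQ Γ T)] [DecidableEq (OQ Γ T)]
    (K : OQ Γ T → ℤ) (hK : ∀ q, K q ∈ H) (hsum : ∑ q, K q = 0) :
    ∃ a : G ⧸ Γ → ℤ, (∀ x, a (S • x) = -a x) ∧ (∀ x, a x ∈ H) ∧
      ∀ q, ∑ x, (if opi Γ T x = q then a x else 0) = K q := by
  classical
  -- the subgroup of achievable orbit-sum vectors
  let I : AddSubgroup (OQ Γ T → ℤ) :=
    { carrier := {K' | ∃ a : G ⧸ Γ → ℤ, (∀ x, a (S • x) = -a x) ∧ (∀ x, a x ∈ H) ∧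
        ∀ q, ∑ x, (if opi Γ T x = q then a x else 0) = K' q}
      zero_mem' := ⟨0, fun x => by simp, fun x => H.zero_mem, fun q => by simp⟩
      add_mem' := by
        rintro K₁ K₂ ⟨a₁, h₁, h₁', h₁''⟩ ⟨a₂, h₂, h₂', h₂''⟩
        refine ⟨a₁ + a₂, fun x => ?_, fun x => H.add_mem (h₁' x) (h₂' x), fun q => ?_⟩
        · simp only [Pi.add_apply, h₁, h₂]; ring
        · rw [Pi.add_apply, ← h₁'' q, ← h₂'' q, ← Finset.sum_add_distrib]
          refine Finset.sum_congr rfl fun x _ => ?_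
          split_ifs <;> simp
      neg_mem' := by
        rintro K₁ ⟨a₁, h₁, h₁', h₁''⟩
        refine ⟨-a₁, fun x => ?_, fun x => H.neg_mem (h₁' x), fun q => ?_⟩
        · simp only [Pi.neg_apply, h₁]
        · rw [Pi.neg_apply, ← h₁'' q, ← Finset.sum_neg_distrib]
          refine Finset.sum_congr rfl fun x _ => ?_
          split_ifs <;> simp }
  have hImem : ∀ K' : OQ Γ T → ℤ, K' ∈ I ↔ ∃ a : G ⧸ Γ → ℤ, (∀ x, a (S • x) = -a x) ∧
      (∀ x, a x ∈ H) ∧ ∀ q, ∑ x, (if opi Γ T x = q then a x else 0) = K' q := fun _ => Iff.rfl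
  -- the difference vectors
  let D : G ⧸ Γ → G ⧸ Γ → ℤ → (OQ Γ T → ℤ) := fun x y h q =>
    (if q = opi Γ T x then h else 0) - (if q = opi Γ T y then h else 0)
  have hDdef : ∀ x y h q, D x y h q
      = (if q = opi Γ T x then h else 0) - (if q = opi Γ T y then h else 0) := fun _ _ _ _ => rfl
  have hsingle : ∀ (z : G ⧸ Γ) (q : OQ Γ T) (h : ℤ),
      ∑ y, (if opi Γ T y = q then (if y = z then h else 0) else 0)
        = if q = opi Γ T z then h else 0 := by
    intro z q h
    rw [Finset.sum_eq_single z]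
    · by_cases hq : q = opi Γ T z
      · simp [hq]
      · rw [if_neg hq, if_neg (fun h' => hq h'.symm)]
    · intro y _ hy
      simp [hy]
    · intro hz; exact absurd (Finset.mem_univ z) hz
  have hD_S : ∀ (x : G ⧸ Γ) (h : ℤ), h ∈ H → D (S • x) x h ∈ I := by
    intro x h hh
    rw [hImem]
    refine ⟨fun y => (if y = S • x then h else 0) - (if y = x then h else 0),
      fun y => ?_, fun y => ?_, fun q => ?_⟩
    · have e1 : (S • y = S • x) ↔ (y = x) := smul_left_cancel_iff S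
      have e2 : (S • y = x) ↔ (y = S • x) :=
        ⟨fun h' => by rw [← h', hSS], fun h' => by rw [h', hSS]⟩
      simp only [e1, e2]
      ring
    · by_cases h1 : y = S • x <;> by_cases h2 : y = x
      · simp only [if_pos h1, if_pos h2, sub_self]; exact H.zero_mem
      · simp only [if_pos h1, if_neg h2, sub_zero]; exact hh
      · simp only [if_neg h1, if_pos h2, zero_sub]; exact H.neg_mem hh
      · simp only [if_neg h1, if_neg h2, sub_zero]; exact H.zero_mem
    · rw [hDdef, ← hsingle (S • x) q h, ← hsingle x q h, ← Finset.sum_sub_distrib]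
      refine Finset.sum_congr rfl fun y _ => ?_
      by_cases h3 : opi Γ T y = q
      · simp only [if_pos h3]
      · simp only [if_neg h3, sub_self]
  have hD_T : ∀ (x : G ⧸ Γ) (h : ℤ), h ∈ H → D (T • x) x h ∈ I := by
    intro x h _
    have : D (T • x) x h = 0 := by
      funext q
      rw [hDdef, opi_smul, sub_self]
      rfl
    rw [this]
    exact I.zero_mem
  have hD_refl : ∀ (x : G ⧸ Γ) (h : ℤ), D x x h ∈ I := by
    intro x h
    have : D x x h = 0 := by
      funext q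
      rw [hDdef, sub_self]
      rfl
    rw [this]
    exact I.zero_mem
  have hD_trans : ∀ (x y z : G ⧸ Γ) (h : ℤ), D x y h ∈ I → D y z h ∈ I → D x z h ∈ I := by
    intro x y z h h1 h2
    have : D x z h = D x y h + D y z h := by
      funext q
      rw [Pi.add_apply, hDdef, hDdef, hDdef]
      ring
    rw [this]
    exact I.add_mem h1 h2
  have hD_symm : ∀ (x y : G ⧸ Γ) (h : ℤ), D x y h ∈ I → D y x h ∈ I := by
    intro x y h h1
    have : D y x h = -D x y h := by
      funext q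
      rw [Pi.neg_apply, hDdef, hDdef]
      ring
    rw [this]
    exact I.neg_mem h1
  have hD_all : ∀ g : G, ∀ (x : G ⧸ Γ) (h : ℤ), h ∈ H → D (g • x) x h ∈ I := by
    intro g
    have hg : g ∈ Subgroup.closure {S, T} := by rw [hgen]; trivial
    induction hg using Subgroup.closure_induction with
    | mem y hy =>
      rcases hy with rfl | hy
      · exact hD_S
      · rw [Set.mem_singleton_iff] at hy; subst hy; exact hD_T
    | one =>
      intro x h _
      rw [one_smul]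
      exact hD_refl x h
    | mul y z _ _ hy hz =>
      intro x h hh
      rw [mul_smul]
      exact hD_trans _ _ _ h (hy (z • x) h hh) (hz x h hh)
    | inv y _ hy =>
      intro x h hh
      have h1 := hy (y⁻¹ • x) h hh
      rw [smul_inv_smul] at h1
      exact hD_symm _ _ h h1
  -- conclusion
  obtain ⟨rep, hrep⟩ : ∃ rep : OQ Γ T → G ⧸ Γ, ∀ q, opi Γ T (rep q) = q :=
    ⟨fun q => (opi_surjective Γ T q).choose, fun q => (opi_surjective Γ T q).choose_spec⟩
  have hKI : K ∈ I := by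
    have e : K = ∑ q, D (rep q) (((1 : G) : G ⧸ Γ)) (K q) := by
      funext q'
      rw [Finset.sum_apply]
      have e1 : ∀ q, D (rep q) (((1 : G) : G ⧸ Γ)) (K q) q'
          = (if q' = q then K q else 0)
            - (if q' = opi Γ T (((1 : G) : G ⧸ Γ)) then K q else 0) := by
        intro q
        rw [hDdef, hrep]
      rw [Finset.sum_congr rfl (fun q _ => e1 q), Finset.sum_sub_distrib, Finset.sum_ite_eq,
        if_pos (Finset.mem_univ q')]
      by_cases hq : q' = opi Γ T (((1 : G) : G ⧸ Γ))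
      · simp only [if_pos hq, hsum, sub_zero]
      · simp only [if_neg hq, Finset.sum_const_zero, sub_zero]
    rw [e]
    refine I.sum_mem fun q _ => ?_
    obtain ⟨g, hg⟩ := MulAction.exists_smul_eq G (((1 : G) : G ⧸ Γ)) (rep q)
    rw [← hg]
    exact hD_all g _ (K q) (hK q)
  exact (hImem K).mp hKI

end Orbit

section Main

variable (N : ℕ) [NeZero N]

local notation "X₀" => SL(2, ℤ) ⧸ Gamma0 N

omit [NeZero N] in
/-- At a fixed point the Shapiro cocycle is a conjugate of the element. -/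
theorem trace_pkap_of_fixed' (g : SL(2, ℤ)) (x : X₀) (h : g • x = x) :
    ((pkap (Gamma0 N) g x : SL(2, ℤ)) : Matrix (Fin 2) (Fin 2) ℤ).trace
      = (g : Matrix (Fin 2) (Fin 2) ℤ).trace := by
  have h1 : (pkap (Gamma0 N) g x : SL(2, ℤ))
      = (psec (Gamma0 N) x)⁻¹ * g * psec (Gamma0 N) x := by
    simp only [pkap, h]
  rw [h1, trace_conj]

/-- **Integral parabolic lift at every level.**  A character of `Γ₀(N)` (values in a quotient
of `ℤ`) which kills the elements of trace `0`, `±1`, `±2` is the reduction of an integer valued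
parabolic homomorphism. -/
theorem exists_parabolic_lift {A : Type*} [AddCommGroup A] (π : ℤ →+ A)
    (hπ : Function.Surjective π) (χ : Additive (Gamma0 N) →+ A)
    (h0 : ∀ γ : Gamma0 N, ((γ : SL(2, ℤ)) : Matrix (Fin 2) (Fin 2) ℤ).trace = 0 →
      χ (Additive.ofMul γ) = 0)
    (h1 : ∀ γ : Gamma0 N, ((γ : SL(2, ℤ)) : Matrix (Fin 2) (Fin 2) ℤ).trace ^ 2 = 1 →
      χ (Additive.ofMul γ) = 0)
    (h4 : ∀ γ : Gamma0 N, ((γ : SL(2, ℤ)) : Matrix (Fin 2) (Fin 2) ℤ).trace ^ 2 = 4 →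
      χ (Additive.ofMul γ) = 0) :
    ∃ φZ : Additive (Gamma0 N) →+ ℤ,
      (Int.castAddHom ℂ).comp φZ ∈ parabolicHoms ℂ (Gamma0 N) ℂ ∧ ∀ γ, π (φZ γ) = χ γ := by
  classical
  have : Fintype X₀ := Fintype.ofFinite _
  have : Fintype (OQ (Gamma0 N) (T : SL(2, ℤ))) := Fintype.ofFinite _
  have hS2 : (S : SL(2, ℤ)) * S = -1 := by decide
  have hR3 : (S * T : SL(2, ℤ)) * ((S * T) * (S * T)) = -1 := by decide
  have hneg : ∀ x : X₀, χ (Additive.ofMul (pkap (Gamma0 N) (-1) x)) = 0 := by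
    intro x
    apply h4
    rw [trace_pkap_of_fixed' N (-1) x (neg_one_smul_coset N x), trace_neg_one]
    norm_num
  have hSS : ∀ x : X₀, (S : SL(2, ℤ)) • (S : SL(2, ℤ)) • x = x := by
    intro x
    rw [← mul_smul, hS2]
    exact neg_one_smul_coset N x
  have hRR : ∀ x : X₀, ((S * T) * (S * T) : SL(2, ℤ)) • x
      = (S * T : SL(2, ℤ)) • (S * T : SL(2, ℤ)) • x := fun x => mul_smul _ _ _
  have hRRR : ∀ x : X₀,
      (S * T : SL(2, ℤ)) • (S * T : SL(2, ℤ)) • (S * T : SL(2, ℤ)) • x = x := by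
    intro x
    have e1 : ((S * T : SL(2, ℤ)) * ((S * T) * (S * T))) • x
        = (S * T : SL(2, ℤ)) • ((S * T) * (S * T) : SL(2, ℤ)) • x := mul_smul _ _ _
    rw [← hRR x, ← e1, hR3]
    exact neg_one_smul_coset N x
  -- lift along `S`
  obtain ⟨a0, ha0, ha0'⟩ := exists_lift_two π hπ (fun x : X₀ => (S : SL(2, ℤ)) • x) hSS
    (fun x => χ (Additive.ofMul (pkap (Gamma0 N) S x)))
    (fun x hx => h0 _ (by rw [trace_pkap_of_fixed' N S x hx, trace_S]))
    (fun x => by
      have h := pkap_mul (Gamma0 N) S S x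
      rw [hS2] at h
      have h' := hneg x
      rw [h, ofMul_mul, map_add] at h'
      exact h')
  -- lift along `S * T`
  obtain ⟨d0, hd0, hd0'⟩ := exists_lift_three π hπ (fun x : X₀ => (S * T : SL(2, ℤ)) • x) hRRR
    (fun x => χ (Additive.ofMul (pkap (Gamma0 N) (S * T) x)))
    (fun x hx => h1 _ (by rw [trace_pkap_of_fixed' N (S * T) x hx, trace_ST]; norm_num))
    (fun x => by
      have h := pkap_mul (Gamma0 N) (S * T) ((S * T) * (S * T)) x
      rw [pkap_mul (Gamma0 N) (S * T) (S * T) x, hR3, hRR] at h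
      have h' := hneg x
      rw [h, ofMul_mul, ofMul_mul, map_add, map_add, ← add_assoc] at h'
      exact h')
  -- the first candidate for the values at `T`
  obtain ⟨b0, hb0⟩ : ∃ b0 : X₀ → ℤ, ∀ x, b0 x = d0 x - a0 ((T : SL(2, ℤ)) • x) :=
    ⟨_, fun _ => rfl⟩
  have hb0π : ∀ x, π (b0 x) = χ (Additive.ofMul (pkap (Gamma0 N) T x)) := by
    intro x
    rw [hb0, map_sub, hd0, ha0, pkap_mul, ofMul_mul, map_add, add_sub_cancel_left]
  -- its `T`-orbit sums
  obtain ⟨K, hKdef⟩ : ∃ K : OQ (Gamma0 N) (T : SL(2, ℤ)) → ℤ, ∀ q,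
      K q = ∑ x : X₀, if opi (Gamma0 N) T x = q then b0 x else 0 := ⟨_, fun _ => rfl⟩
  have hKker : ∀ q, K q ∈ π.ker := by
    intro q
    obtain ⟨x₀, rfl⟩ := opi_surjective (Gamma0 N) (T : SL(2, ℤ)) q
    rw [AddMonoidHom.mem_ker, hKdef, map_sum]
    have e1 : ∀ x : X₀, π (if opi (Gamma0 N) T x = opi (Gamma0 N) T x₀ then b0 x else 0)
        = if opi (Gamma0 N) T x = opi (Gamma0 N) T x₀
            then χ (Additive.ofMul (pkap (Gamma0 N) T x)) else 0 := by
      intro x
      split_ifs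
      · exact hb0π x
      · exact map_zero π
    rw [Finset.sum_congr rfl (fun x _ => e1 x),
      sum_fibre_eq (Gamma0 N) (T : SL(2, ℤ)) x₀ (NeZero.pos N) ((goodPow_T N).smul_eq x₀),
      ← map_pkap_pow]
    apply h4
    rw [trace_pkap_of_fixed' N _ x₀ (MulAction.pow_period_smul _ _), ← zpow_natCast, coe_T_zpow,
      Matrix.trace_fin_two_of]
    norm_num
  have hsumS : ∑ x : X₀, a0 x = 0 := by
    have h := Equiv.sum_comp (MulAction.toPerm (S : SL(2, ℤ))) a0
    simp only [MulAction.toPerm_apply, ha0', Finset.sum_neg_distrib] at h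
    omega
  have hsumR : ∑ x : X₀, d0 x = 0 := by
    have h1 := Equiv.sum_comp (MulAction.toPerm (S * T : SL(2, ℤ))) d0
    have h2 := Equiv.sum_comp (MulAction.toPerm (S * T : SL(2, ℤ)))
      (fun x => d0 ((S * T : SL(2, ℤ)) • x))
    simp only [MulAction.toPerm_apply] at h1 h2
    have h3 : ∑ x : X₀, (d0 ((S * T : SL(2, ℤ)) • (S * T : SL(2, ℤ)) • x)
        + d0 ((S * T : SL(2, ℤ)) • x) + d0 x) = 0 :=
      Finset.sum_eq_zero fun x _ => hd0' x
    rw [Finset.sum_add_distrib, Finset.sum_add_distrib, h2, h1] at h3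
    omega
  have hKsum : ∑ q, K q = 0 := by
    have e1 : ∑ q, K q = ∑ x : X₀, b0 x := by
      simp only [hKdef]
      rw [Finset.sum_comm]
      refine Finset.sum_congr rfl fun x _ => ?_
      rw [Finset.sum_ite_eq, if_pos (Finset.mem_univ _)]
    have e2 : ∑ x : X₀, a0 ((T : SL(2, ℤ)) • x) = ∑ x : X₀, a0 x :=
      Equiv.sum_comp (MulAction.toPerm (T : SL(2, ℤ))) a0
    rw [e1, Finset.sum_congr rfl (fun x _ => hb0 x), Finset.sum_sub_distrib, e2, hsumS, hsumR,
      sub_zero]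
  -- the correction
  obtain ⟨a2, ha2S, ha2H, ha2K⟩ := exists_antisymm_of_sum_zero (Gamma0 N) (S : SL(2, ℤ)) T
    SpecialLinearGroup.SL2Z_generators hSS π.ker K hKker hKsum
  obtain ⟨a1, ha1⟩ : ∃ a1 : X₀ → ℤ, ∀ x, a1 x = a0 x + a2 x := ⟨_, fun _ => rfl⟩
  have ha1π : ∀ x, π (a1 x) = χ (Additive.ofMul (pkap (Gamma0 N) S x)) := by
    intro x
    rw [ha1, map_add, ha0, AddMonoidHom.mem_ker.mp (ha2H x), add_zero]
  have ha1' : ∀ x, a1 ((S : SL(2, ℤ)) • x) = -a1 x := by
    intro x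
    rw [ha1, ha1, ha0' x, ha2S x]
    ring
  obtain ⟨b1, hb1⟩ : ∃ b1 : X₀ → ℤ, ∀ x, b1 x = d0 x - a1 ((T : SL(2, ℤ)) • x) :=
    ⟨_, fun _ => rfl⟩
  have hb1π : ∀ x, π (b1 x) = χ (Additive.ofMul (pkap (Gamma0 N) T x)) := by
    intro x
    rw [hb1, map_sub, hd0, ha1π, pkap_mul, ofMul_mul, map_add, add_sub_cancel_left]
  have hb1K : ∀ q, ∑ x : X₀, (if opi (Gamma0 N) T x = q then b1 x else 0) = 0 := by
    intro q
    have e : ∀ x, b1 x = b0 x - a2 ((T : SL(2, ℤ)) • x) := by
      intro x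
      rw [hb1, hb0, ha1]
      ring
    have e2 : ∑ x : X₀, (if opi (Gamma0 N) T x = q then a2 ((T : SL(2, ℤ)) • x) else 0)
        = K q := by
      rw [← ha2K q, ← Equiv.sum_comp (MulAction.toPerm (T : SL(2, ℤ)))
        (fun x => if opi (Gamma0 N) T x = q then a2 x else 0)]
      refine Finset.sum_congr rfl fun x _ => ?_
      simp only [MulAction.toPerm_apply, opi_smul]
    have e3 : ∀ x : X₀, (if opi (Gamma0 N) T x = q then b1 x else 0)
        = (if opi (Gamma0 N) T x = q then b0 x else 0)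
          - (if opi (Gamma0 N) T x = q then a2 ((T : SL(2, ℤ)) • x) else 0) := by
      intro x
      rw [e]
      split_ifs <;> simp
    rw [Finset.sum_congr rfl (fun x _ => e3 x), Finset.sum_sub_distrib, e2, ← hKdef, sub_self]
  -- orthogonality relations
  have hOS : ∀ f : X₀ → ℂ, (∀ x, f ((S : SL(2, ℤ)) • x) = f x) →
      ∑ x, (a1 x : ℂ) * f x = 0 := by
    intro f hf
    exact sum_mul_eq_zero_of_antisymm (MulAction.toPerm (S : SL(2, ℤ))) (fun x => (a1 x : ℂ))
      (fun x => by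
        show ((a1 ((S : SL(2, ℤ)) • x) : ℤ) : ℂ) = -(a1 x : ℂ)
        rw [ha1']
        push_cast
        ring) f hf
  have hOR : ∀ f : X₀ → ℂ, (∀ x, f ((S * T : SL(2, ℤ)) • x) = f x) →
      ∑ x, (((a1 ((T : SL(2, ℤ)) • x) : ℤ) : ℂ) + (b1 x : ℂ)) * f x = 0 := by
    intro f hf
    have h := sum_mul_eq_zero_of_three (MulAction.toPerm (S * T : SL(2, ℤ)))
      (fun x => (d0 x : ℂ)) (fun x => by
        show ((d0 ((S * T : SL(2, ℤ)) • (S * T : SL(2, ℤ)) • x) : ℤ) : ℂ)
          + (d0 ((S * T : SL(2, ℤ)) • x) : ℂ) + (d0 x : ℂ) = 0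
        exact_mod_cast hd0' x) f hf
    rw [← h]
    refine Finset.sum_congr rfl fun x _ => ?_
    rw [hb1]
    push_cast
    ring
  have hOT : ∀ f : X₀ → ℂ, (∀ x, f ((T : SL(2, ℤ)) • x) = f x) →
      ∑ x, (b1 x : ℂ) * f x = 0 := by
    intro f hf
    obtain ⟨rep, hrep⟩ : ∃ rep : OQ (Gamma0 N) (T : SL(2, ℤ)) → X₀,
        ∀ q, opi (Gamma0 N) T (rep q) = q :=
      ⟨fun q => (opi_surjective (Gamma0 N) T q).choose,
        fun q => (opi_surjective (Gamma0 N) T q).choose_spec⟩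
    have e1 : ∀ x : X₀, (b1 x : ℂ) * f x
        = ∑ q, ((if opi (Gamma0 N) T x = q then b1 x else 0 : ℤ) : ℂ) * f (rep q) := by
      intro x
      rw [Finset.sum_eq_single (opi (Gamma0 N) T x)]
      · rw [if_pos rfl]
        congr 1
        exact eq_of_opi_eq (Gamma0 N) (T : SL(2, ℤ)) f hf (hrep _).symm
      · intro q _ hq
        rw [if_neg (fun h => hq h.symm), Int.cast_zero, zero_mul]
      · intro h; exact absurd (Finset.mem_univ _) h
    rw [Finset.sum_congr rfl (fun x _ => e1 x), Finset.sum_comm]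
    refine Finset.sum_eq_zero fun q _ => ?_
    rw [← Finset.sum_mul, ← Int.cast_sum, hb1K q, Int.cast_zero, zero_mul]
  -- realise the pair by a parabolic homomorphism
  obtain ⟨φ, hφ, m, hmS, hmT⟩ := exists_pc_eq (parabolicHoms ℂ (Gamma0 N) ℂ) (S : SL(2, ℤ)) T
    (goodPow_S N) (goodPow_T N) (goodPow_ST N) (bigMap_bijective N).2
    (fun x => (a1 x : ℂ)) (fun x => (b1 x : ℂ)) hOS hOT hOR
  obtain ⟨φZ, hφZ, hφZπ⟩ := exists_intHom_of_gen φ m S T SpecialLinearGroup.SL2Z_generators π χ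
    (fun x => ⟨a1 x, hmS x, ha1π x⟩) (fun x => ⟨b1 x, hmT x, hb1π x⟩)
  refine ⟨φZ, ?_, hφZπ⟩
  have hcomp : (Int.castAddHom ℂ).comp φZ = φ := by
    refine AddMonoidHom.ext fun γ => ?_
    rw [hφZ]
    rfl
  rw [hcomp]
  exact hφ

/-- **[LAT-LIFT]** in the vocabulary of `P5.Per.Lat`. -/
theorem exists_lat_lift {A : Type*} [AddCommGroup A] (π : ℤ →+ A)
    (hπ : Function.Surjective π) (χ : Additive (Gamma0 N) →+ A)
    (h0 : ∀ γ : Gamma0 N, ((γ : SL(2, ℤ)) : Matrix (Fin 2) (Fin 2) ℤ).trace = 0 →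
      χ (Additive.ofMul γ) = 0)
    (h1 : ∀ γ : Gamma0 N, ((γ : SL(2, ℤ)) : Matrix (Fin 2) (Fin 2) ℤ).trace ^ 2 = 1 →
      χ (Additive.ofMul γ) = 0)
    (h4 : ∀ γ : Gamma0 N, ((γ : SL(2, ℤ)) : Matrix (Fin 2) (Fin 2) ℤ).trace ^ 2 = 4 →
      χ (Additive.ofMul γ) = 0) :
    ∃ φZ : Additive (Gamma0 N) →+ ℤ, φZ ∈ Fermat.Agent.P5.Per.Lat N ∧ ∀ γ, π (φZ γ) = χ γ := by
  obtain ⟨φZ, hφ, hπφ⟩ := exists_parabolic_lift N π hπ χ h0 h1 h4
  exact ⟨φZ, Fermat.Agent.P5.Per.toC_mem_parabolicHoms.mp hφ, hπφ⟩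

/-- **[LAT-LIFT]** for `𝔽_p`-valued (more generally `ZMod n`-valued) characters: every
homomorphism `Γ₀(N) → ZMod n` killing the elliptic and parabolic elements and `-1` is
`Per.castHom` of an element of `Per.Lat N`. -/
theorem exists_lat_castHom_eq (n : ℕ) (χ : Additive (Gamma0 N) →+ ZMod n)
    (h0 : ∀ γ : Gamma0 N, ((γ : SL(2, ℤ)) : Matrix (Fin 2) (Fin 2) ℤ).trace = 0 →
      χ (Additive.ofMul γ) = 0)
    (h1 : ∀ γ : Gamma0 N, ((γ : SL(2, ℤ)) : Matrix (Fin 2) (Fin 2) ℤ).trace ^ 2 = 1 →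
      χ (Additive.ofMul γ) = 0)
    (h4 : ∀ γ : Gamma0 N, ((γ : SL(2, ℤ)) : Matrix (Fin 2) (Fin 2) ℤ).trace ^ 2 = 4 →
      χ (Additive.ofMul γ) = 0) :
    ∃ φZ : Additive (Gamma0 N) →+ ℤ, φZ ∈ Fermat.Agent.P5.Per.Lat N ∧
      Fermat.Agent.P5.Per.castHom N (ZMod n) φZ = χ := by
  obtain ⟨φZ, hφ, hπφ⟩ := exists_lat_lift N (Int.castAddHom (ZMod n))
    (ZMod.intCast_surjective) χ h0 h1 h4
  exact ⟨φZ, hφ, AddMonoidHom.ext fun γ => hπφ γ⟩

end Main

end Fermat.Agent.P7.LatLift
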