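import Mathlib
import Fermat.Agent.P7.LatLift

/-!
# P7 [LAT-RED]: the parabolic lattice modulo `p`

Glue between `P5.Per.Lat N` and the space `V` of characters `Γ₀(N) → ZMod p` killing the elliptic
elements, the parabolic elements and `-1`:

* `lat_trace_zero`, `lat_trace_sq_one`, `lat_trace_sq_four`, `castHom_kills`: the reduction of an
  element of `Lat N` lies in `V`;
* `exists_smul_of_castHom_eq_zero`: the kernel of the reduction is `p • Lat N`;
* `range_castHom_iff`: the image of the reduction is exactly `V` (`LatLift.exists_lat_castHom_eq`);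
* `exists_smul_of_pair_eq_zero`: a nondegenerate pairing on `V` induces a pairing on `Lat N`
  which is perfect modulo `p` (the shape `hβ` of `RibetDual.exists_new_of_contract'`).
-/

set_option autoImplicit false

namespace Fermat.Agent.P7.LatRed

open scoped MatrixGroups
open CongruenceSubgroup ModularCurve ModularCurve.Period
open Fermat.Agent.P5.Per

/-- An integer valued homomorphism kills the elements of finite order. -/
theorem hom_eq_zero_of_pow_eq_one {G : Type*} [Group G] (φ : Additive G →+ ℤ) (g : G) {n : ℕ}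
    (hn : 0 < n) (h : g ^ n = 1) : φ (Additive.ofMul g) = 0 := by
  have h1 : n • φ (Additive.ofMul g) = 0 := by
    rw [← map_nsmul, ← ofMul_pow, h, ofMul_one, map_zero]
  rw [nsmul_eq_mul] at h1
  rcases mul_eq_zero.mp h1 with h2 | h2
  · exact absurd (by exact_mod_cast h2 : n = 0) hn.ne'
  · exact h2

/-- Cayley–Hamilton in `SL(2, ℤ)`: `γ ^ 2 = tr γ • γ - 1` (as matrices). -/
theorem sq_coe (γ : SL(2, ℤ)) :
    (γ : Matrix (Fin 2) (Fin 2) ℤ) * (γ : Matrix (Fin 2) (Fin 2) ℤ)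
      = (γ : Matrix (Fin 2) (Fin 2) ℤ).trace • (γ : Matrix (Fin 2) (Fin 2) ℤ) - 1 := by
  have hdet : (γ : Matrix (Fin 2) (Fin 2) ℤ) 0 0 * (γ : Matrix (Fin 2) (Fin 2) ℤ) 1 1
      - (γ : Matrix (Fin 2) (Fin 2) ℤ) 0 1 * (γ : Matrix (Fin 2) (Fin 2) ℤ) 1 0 = 1 := by
    have := γ.2
    rwa [Matrix.det_fin_two] at this
  rw [Matrix.trace_fin_two]
  ext i j
  fin_cases i <;> fin_cases j
  · simp only [Fin.zero_eta, Matrix.mul_apply, Fin.sum_univ_two, Matrix.sub_apply,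
      Matrix.smul_apply, smul_eq_mul, Matrix.one_apply_eq]
    linear_combination (-1 : ℤ) * hdet
  · simp only [Fin.zero_eta, Fin.mk_one, Matrix.mul_apply, Fin.sum_univ_two, Matrix.sub_apply,
      Matrix.smul_apply, smul_eq_mul, ne_eq, zero_ne_one, not_false_eq_true,
      Matrix.one_apply_ne]
    ring
  · simp only [Fin.zero_eta, Fin.mk_one, Matrix.mul_apply, Fin.sum_univ_two, Matrix.sub_apply,
      Matrix.smul_apply, smul_eq_mul, ne_eq, one_ne_zero, not_false_eq_true,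
      Matrix.one_apply_ne]
    ring
  · simp only [Fin.mk_one, Matrix.mul_apply, Fin.sum_univ_two, Matrix.sub_apply,
      Matrix.smul_apply, smul_eq_mul, Matrix.one_apply_eq]
    linear_combination (-1 : ℤ) * hdet

/-- An element of trace `0` has order dividing `4`. -/
theorem pow_four_of_trace_zero (γ : SL(2, ℤ))
    (h : (γ : Matrix (Fin 2) (Fin 2) ℤ).trace = 0) : γ ^ 4 = 1 := by
  apply Subtype.ext
  have hM := sq_coe γ
  rw [h, zero_smul, zero_sub] at hM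
  rw [Matrix.SpecialLinearGroup.coe_pow, Matrix.SpecialLinearGroup.coe_one]
  have e : (γ : Matrix (Fin 2) (Fin 2) ℤ) ^ 4
      = ((γ : Matrix (Fin 2) (Fin 2) ℤ) * (γ : Matrix (Fin 2) (Fin 2) ℤ))
        * ((γ : Matrix (Fin 2) (Fin 2) ℤ) * (γ : Matrix (Fin 2) (Fin 2) ℤ)) := by
    simp only [pow_succ, pow_zero, one_mul, mul_assoc]
  rw [e, hM, neg_mul_neg, one_mul]

/-- An element of trace `±1` has order dividing `6`. -/
theorem pow_six_of_trace_sq_one (γ : SL(2, ℤ))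
    (h : (γ : Matrix (Fin 2) (Fin 2) ℤ).trace ^ 2 = 1) : γ ^ 6 = 1 := by
  apply Subtype.ext
  have hM := sq_coe γ
  have ht : (γ : Matrix (Fin 2) (Fin 2) ℤ).trace * (γ : Matrix (Fin 2) (Fin 2) ℤ).trace = 1 := by
    rw [← sq]; exact h
  rw [Matrix.SpecialLinearGroup.coe_pow, Matrix.SpecialLinearGroup.coe_one]
  have h3 : (γ : Matrix (Fin 2) (Fin 2) ℤ) * (γ : Matrix (Fin 2) (Fin 2) ℤ)
      * (γ : Matrix (Fin 2) (Fin 2) ℤ)
      = -((γ : Matrix (Fin 2) (Fin 2) ℤ).trace • (1 : Matrix (Fin 2) (Fin 2) ℤ)) := by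
    rw [hM, sub_mul, Matrix.smul_mul, hM, one_mul, smul_sub, smul_smul, ht, one_smul]
    abel
  have e : (γ : Matrix (Fin 2) (Fin 2) ℤ) ^ 6
      = ((γ : Matrix (Fin 2) (Fin 2) ℤ) * (γ : Matrix (Fin 2) (Fin 2) ℤ)
          * (γ : Matrix (Fin 2) (Fin 2) ℤ))
        * ((γ : Matrix (Fin 2) (Fin 2) ℤ) * (γ : Matrix (Fin 2) (Fin 2) ℤ)
          * (γ : Matrix (Fin 2) (Fin 2) ℤ)) := by
    simp only [pow_succ, pow_zero, one_mul, mul_assoc]
  rw [e, h3, neg_mul_neg, Matrix.smul_mul, Matrix.mul_smul, one_mul, smul_smul, ht, one_smul]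

section Lat

variable {N : ℕ}

/-- Integer valued homomorphisms kill the elements of trace `0`. -/
theorem lat_trace_zero (φ : Additive (Gamma0 N) →+ ℤ) (γ : Gamma0 N)
    (h : ((γ : SL(2, ℤ)) : Matrix (Fin 2) (Fin 2) ℤ).trace = 0) : φ (Additive.ofMul γ) = 0 :=
  hom_eq_zero_of_pow_eq_one φ γ (n := 4) (by norm_num)
    (Subtype.ext (by
      rw [Subgroup.coe_pow, Subgroup.coe_one]
      exact pow_four_of_trace_zero _ h))

/-- Integer valued homomorphisms kill the elements of trace `±1`. -/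
theorem lat_trace_sq_one (φ : Additive (Gamma0 N) →+ ℤ) (γ : Gamma0 N)
    (h : ((γ : SL(2, ℤ)) : Matrix (Fin 2) (Fin 2) ℤ).trace ^ 2 = 1) :
    φ (Additive.ofMul γ) = 0 :=
  hom_eq_zero_of_pow_eq_one φ γ (n := 6) (by norm_num)
    (Subtype.ext (by
      rw [Subgroup.coe_pow, Subgroup.coe_one]
      exact pow_six_of_trace_sq_one _ h))

/-- Elements of the parabolic lattice kill the elements of trace `±2`. -/
theorem lat_trace_sq_four {φ : Additive (Gamma0 N) →+ ℤ} (hφ : φ ∈ Lat N) (γ : Gamma0 N)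
    (h : ((γ : SL(2, ℤ)) : Matrix (Fin 2) (Fin 2) ℤ).trace ^ 2 = 4) :
    φ (Additive.ofMul γ) = 0 :=
  hφ γ h

theorem castHom_trace_zero (E : Type*) [Ring E] (φ : Additive (Gamma0 N) →+ ℤ) (γ : Gamma0 N)
    (h : ((γ : SL(2, ℤ)) : Matrix (Fin 2) (Fin 2) ℤ).trace = 0) :
    castHom N E φ (Additive.ofMul γ) = 0 := by
  rw [castHom_apply, lat_trace_zero φ γ h, Int.cast_zero]

theorem castHom_trace_sq_one (E : Type*) [Ring E] (φ : Additive (Gamma0 N) →+ ℤ) (γ : Gamma0 N)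
    (h : ((γ : SL(2, ℤ)) : Matrix (Fin 2) (Fin 2) ℤ).trace ^ 2 = 1) :
    castHom N E φ (Additive.ofMul γ) = 0 := by
  rw [castHom_apply, lat_trace_sq_one φ γ h, Int.cast_zero]

theorem castHom_trace_sq_four (E : Type*) [Ring E] {φ : Additive (Gamma0 N) →+ ℤ}
    (hφ : φ ∈ Lat N) (γ : Gamma0 N)
    (h : ((γ : SL(2, ℤ)) : Matrix (Fin 2) (Fin 2) ℤ).trace ^ 2 = 4) :
    castHom N E φ (Additive.ofMul γ) = 0 := by
  rw [castHom_apply, lat_trace_sq_four hφ γ h, Int.cast_zero]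

/-- The reduction of `p • φ'` vanishes. -/
theorem castHom_smul_self (p : ℕ) (φ' : Additive (Gamma0 N) →+ ℤ) :
    castHom N (ZMod p) ((p : ℤ) • φ') = 0 := by
  refine AddMonoidHom.ext fun γ => ?_
  rw [castHom_apply, AddMonoidHom.smul_apply, smul_eq_mul]
  push_cast
  rw [ZMod.natCast_self, zero_mul]
  rfl

/-- **The kernel of the reduction modulo `p` on `Lat N` is `p • Lat N`.** -/
theorem exists_smul_of_castHom_eq_zero {p : ℕ} (hp : p ≠ 0) {φ : Additive (Gamma0 N) →+ ℤ}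
    (hφ : φ ∈ Lat N) (h : castHom N (ZMod p) φ = 0) :
    ∃ φ' ∈ Lat N, φ = (p : ℤ) • φ' := by
  have hp' : (p : ℤ) ≠ 0 := by exact_mod_cast hp
  have hdvd : ∀ γ, (p : ℤ) ∣ φ γ := by
    intro γ
    rw [← ZMod.intCast_zmod_eq_zero_iff_dvd, ← castHom_apply, h]
    rfl
  let φ' : Additive (Gamma0 N) →+ ℤ :=
    { toFun := fun γ => φ γ / (p : ℤ)
      map_zero' := by simp
      map_add' := fun a b => by
        rw [map_add, Int.add_ediv_of_dvd_left (hdvd a)] }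
  have hφ' : φ = (p : ℤ) • φ' := by
    refine AddMonoidHom.ext fun γ => ?_
    show φ γ = (p : ℤ) • (φ γ / (p : ℤ))
    rw [smul_eq_mul, Int.mul_ediv_cancel' (hdvd γ)]
  refine ⟨φ', ?_, hφ'⟩
  intro γ hγ
  have h1 := hφ γ hγ
  rw [hφ', AddMonoidHom.smul_apply, smul_eq_mul] at h1
  exact (mul_eq_zero.mp h1).resolve_left hp'

/-- **The image of the reduction `Lat N → Hom(Γ₀(N), ZMod n)`** is the space of characters
killing the elements of trace `0`, `±1`, `±2`. -/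
theorem range_castHom_iff [NeZero N] (n : ℕ) (χ : Additive (Gamma0 N) →+ ZMod n) :
    (∃ φ ∈ Lat N, castHom N (ZMod n) φ = χ) ↔
      ((∀ γ : Gamma0 N, ((γ : SL(2, ℤ)) : Matrix (Fin 2) (Fin 2) ℤ).trace = 0 →
          χ (Additive.ofMul γ) = 0) ∧
        (∀ γ : Gamma0 N, ((γ : SL(2, ℤ)) : Matrix (Fin 2) (Fin 2) ℤ).trace ^ 2 = 1 →
          χ (Additive.ofMul γ) = 0) ∧
        (∀ γ : Gamma0 N, ((γ : SL(2, ℤ)) : Matrix (Fin 2) (Fin 2) ℤ).trace ^ 2 = 4 →
          χ (Additive.ofMul γ) = 0)) := by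
  constructor
  · rintro ⟨φ, hφ, rfl⟩
    exact ⟨fun γ h => castHom_trace_zero _ φ γ h, fun γ h => castHom_trace_sq_one _ φ γ h,
      fun γ h => castHom_trace_sq_four _ hφ γ h⟩
  · rintro ⟨h0, h1, h4⟩
    exact Fermat.Agent.P7.LatLift.exists_lat_castHom_eq N n χ h0 h1 h4

/-- **(B1) glue.** Let `V` be the space of characters `Γ₀(N) → ZMod p` killing the elements of
trace `0`, `±1`, `±2` and let `pair` be a pairing which is nondegenerate on `V`.  Then the induced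
pairing on `Lat N` is perfect modulo `p`: an element orthogonal to `Lat N` lies in `p • Lat N`. -/
theorem exists_smul_of_pair_eq_zero [NeZero N] {p : ℕ} (hp : p ≠ 0)
    (V : (Additive (Gamma0 N) →+ ZMod p) → Prop)
    (hV : ∀ χ : Additive (Gamma0 N) →+ ZMod p, V χ ↔
      ((∀ γ : Gamma0 N, ((γ : SL(2, ℤ)) : Matrix (Fin 2) (Fin 2) ℤ).trace = 0 →
          χ (Additive.ofMul γ) = 0) ∧
        (∀ γ : Gamma0 N, ((γ : SL(2, ℤ)) : Matrix (Fin 2) (Fin 2) ℤ).trace ^ 2 = 1 →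
          χ (Additive.ofMul γ) = 0) ∧
        (∀ γ : Gamma0 N, ((γ : SL(2, ℤ)) : Matrix (Fin 2) (Fin 2) ℤ).trace ^ 2 = 4 →
          χ (Additive.ofMul γ) = 0)))
    (pair : (Additive (Gamma0 N) →+ ZMod p) → (Additive (Gamma0 N) →+ ZMod p) → ZMod p)
    (hnd : ∀ φ, V φ → (∀ ψ, V ψ → pair φ ψ = 0) → φ = 0)
    {x : Additive (Gamma0 N) →+ ℤ} (hx : x ∈ Lat N)
    (h : ∀ z ∈ Lat N, pair (castHom N (ZMod p) x) (castHom N (ZMod p) z) = 0) :
    ∃ x' ∈ Lat N, x = (p : ℤ) • x' := by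
  apply exists_smul_of_castHom_eq_zero hp hx
  apply hnd _ ((hV _).mpr ((range_castHom_iff p _).mp ⟨x, hx, rfl⟩))
  intro ψ hψ
  obtain ⟨z, hz, rfl⟩ := (range_castHom_iff p ψ).mpr ((hV ψ).mp hψ)
  exact h z hz

/-- The same on the subtype `↥(Lat N)`: the exact shape of the hypothesis `hβ` of
`RibetDual.exists_new_of_contract'` for `β x z := pair (castHom x) (castHom z)`. -/
theorem exists_smul_of_pair_eq_zero' [NeZero N] {p : ℕ} (hp : p ≠ 0)
    (V : (Additive (Gamma0 N) →+ ZMod p) → Prop)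
    (hV : ∀ χ : Additive (Gamma0 N) →+ ZMod p, V χ ↔
      ((∀ γ : Gamma0 N, ((γ : SL(2, ℤ)) : Matrix (Fin 2) (Fin 2) ℤ).trace = 0 →
          χ (Additive.ofMul γ) = 0) ∧
        (∀ γ : Gamma0 N, ((γ : SL(2, ℤ)) : Matrix (Fin 2) (Fin 2) ℤ).trace ^ 2 = 1 →
          χ (Additive.ofMul γ) = 0) ∧
        (∀ γ : Gamma0 N, ((γ : SL(2, ℤ)) : Matrix (Fin 2) (Fin 2) ℤ).trace ^ 2 = 4 →
          χ (Additive.ofMul γ) = 0)))
    (pair : (Additive (Gamma0 N) →+ ZMod p) → (Additive (Gamma0 N) →+ ZMod p) → ZMod p)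
    (hnd : ∀ φ, V φ → (∀ ψ, V ψ → pair φ ψ = 0) → φ = 0)
    (x : Lat N)
    (h : ∀ z : Lat N, pair (castHom N (ZMod p) (x : Additive (Gamma0 N) →+ ℤ))
      (castHom N (ZMod p) (z : Additive (Gamma0 N) →+ ℤ)) = 0) :
    ∃ x' : Lat N, x = (p : ℤ) • x' := by
  obtain ⟨x', hx', hxx'⟩ := exists_smul_of_pair_eq_zero hp V hV pair hnd x.2
    (fun z hz => h ⟨z, hz⟩)
  exact ⟨⟨x', hx'⟩, Subtype.ext hxx'⟩

end Lat

end Fermat.Agent.P7.LatRed
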