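import Mathlib

/-!
# The linear algebra of the modular-symbol pairing

`M` is a finite-dimensional space with a nondegenerate symmetric bilinear form `F` and two
isometries `σ`, `τ`.  On `W = range (σ - 1) ⊓ range (τ - 1)` the expression
`B(w', w) = F w' (m₂ - m₁)`, for `w = (σ - 1) m₁ = (τ - 1) m₂`, is a well defined skew-symmetric
bilinear form whose radical is `(σ - 1) (ker (σ - τ))`.

(Instance: `M = X → k` for a finite `G`-set `X`, `F` the dot product and `σ`, `τ` the translations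
by the two generators of `PSL₂(ℤ)`; then `W / Rad` is the parabolic cohomology.)
-/

set_option autoImplicit false

namespace Fermat.Agent.P7.PdModel

open LinearMap (BilinForm)

variable {k M : Type*} [Field k] [AddCommGroup M] [Module k M]

section basic

variable (F : BilinForm k M) (σ τ : M →ₗ[k] M)

/-- The space `W = range (σ - 1) ⊓ range (τ - 1)`. -/
def W : Submodule k M := LinearMap.range (σ - 1) ⊓ LinearMap.range (τ - 1)

theorem mem_W_iff {w : M} :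
    w ∈ W σ τ ↔ (∃ m₁, σ m₁ - m₁ = w) ∧ ∃ m₂, τ m₂ - m₂ = w := by
  simp [W, Submodule.mem_inf, LinearMap.mem_range, LinearMap.sub_apply]

theorem mem_W_of_eq {w m₁ m₂ : M} (h₁ : σ m₁ - m₁ = w) (h₂ : τ m₂ - m₂ = w) : w ∈ W σ τ :=
  (mem_W_iff σ τ).mpr ⟨⟨m₁, h₁⟩, ⟨m₂, h₂⟩⟩

variable {F σ}

/-- An isometry `σ`: `range (σ - 1)` is orthogonal to the `σ`-invariants. -/
theorem apply_sub_fixed (hσ : ∀ a b, F (σ a) (σ b) = F a b) (a ν : M) (hν : σ ν = ν) :
    F (σ a - a) ν = 0 := by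
  have h := hσ a ν
  rw [hν] at h
  rw [map_sub, LinearMap.sub_apply, h, sub_self]

/-- The basic identity for an isometry of a symmetric form. -/
theorem isometry_identity (hsymm : ∀ a b, F a b = F b a) (hσ : ∀ a b, F (σ a) (σ b) = F a b)
    (a b : M) : F (σ a - a) b + F (σ b - b) a + F (σ a - a) (σ b - b) = 0 := by
  simp only [map_sub, LinearMap.sub_apply]
  rw [hσ a b, hsymm (σ b) a, hsymm b a]
  ring

variable {τ}

/-- (M1) The pairing does not depend on the presentation of `w`. -/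
theorem pair_indep (hσ : ∀ a b, F (σ a) (σ b) = F a b) (hτ : ∀ a b, F (τ a) (τ b) = F a b)
    {w' : M} (hw' : w' ∈ W σ τ) {m₁ m₂ m₁' m₂' : M}
    (h₁ : σ m₁ - m₁ = σ m₁' - m₁') (h₂ : τ m₂ - m₂ = τ m₂' - m₂') :
    F w' (m₂ - m₁) = F w' (m₂' - m₁') := by
  obtain ⟨⟨a, rfl⟩, ⟨b, hb⟩⟩ := (mem_W_iff σ τ).mp hw'
  have e₁ : F (σ a - a) (m₁ - m₁') = 0 := by
    apply apply_sub_fixed hσ
    have : σ m₁ - σ m₁' = m₁ - m₁' := sub_eq_sub_iff_sub_eq_sub.mp h₁
    rw [map_sub, this]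
  have e₂ : F (σ a - a) (m₂ - m₂') = 0 := by
    rw [← hb]
    apply apply_sub_fixed hτ
    have : τ m₂ - τ m₂' = m₂ - m₂' := sub_eq_sub_iff_sub_eq_sub.mp h₂
    rw [map_sub, this]
  have : F (σ a - a) (m₂ - m₁) - F (σ a - a) (m₂' - m₁') = 0 := by
    rw [← map_sub]
    have e3 : m₂ - m₁ - (m₂' - m₁') = (m₂ - m₂') - (m₁ - m₁') := by abel
    rw [e3, map_sub, e₁, e₂, sub_zero]
  exact sub_eq_zero.mp this

/-- (M2) Skew-symmetry. -/
theorem pair_skew (hsymm : ∀ a b, F a b = F b a) (hσ : ∀ a b, F (σ a) (σ b) = F a b)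
    (hτ : ∀ a b, F (τ a) (τ b) = F a b) {w w' m₁ m₂ m₁' m₂' : M}
    (h₁ : σ m₁ - m₁ = w) (h₂ : τ m₂ - m₂ = w) (h₁' : σ m₁' - m₁' = w') (h₂' : τ m₂' - m₂' = w') :
    F w' (m₂ - m₁) + F w (m₂' - m₁') = 0 := by
  have e₁ := isometry_identity hsymm hσ m₁' m₁
  have e₂ := isometry_identity hsymm hτ m₂' m₂
  rw [h₁, h₁'] at e₁
  rw [h₂, h₂'] at e₂
  simp only [map_sub]
  linear_combination e₂ - e₁

end basic

section radical

variable {F : BilinForm k M} {σ τ : M →ₗ[k] M}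

theorem nondegenerate_of (hF : ∀ a, (∀ b, F a b = 0) → a = 0) (hsymm : ∀ a b, F a b = F b a) :
    F.Nondegenerate :=
  ⟨hF, fun y h => hF y (fun x => by rw [hsymm]; exact h x)⟩

theorem isRefl_of (hsymm : ∀ a b, F a b = F b a) : F.IsRefl :=
  fun a b h => by rw [hsymm]; exact h

theorem orthogonal_sup (P Q : Submodule k M) :
    F.orthogonal (P ⊔ Q) = F.orthogonal P ⊓ F.orthogonal Q := by
  ext m
  simp only [LinearMap.BilinForm.mem_orthogonal_iff, Submodule.mem_inf]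
  constructor
  · intro h
    exact ⟨fun n hn => h n (Submodule.mem_sup_left hn), fun n hn => h n (Submodule.mem_sup_right hn)⟩
  · rintro ⟨h₁, h₂⟩ n hn
    obtain ⟨p, hp, q, hq, rfl⟩ := Submodule.mem_sup.mp hn
    rw [map_add, LinearMap.add_apply, h₁ p hp, h₂ q hq, add_zero]

variable [FiniteDimensional k M]

/-- An isometry of a nondegenerate form on a finite-dimensional space is surjective. -/
theorem surjective_of_isometry (hF : ∀ a, (∀ b, F a b = 0) → a = 0)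
    (hσ : ∀ a b, F (σ a) (σ b) = F a b) : Function.Surjective σ := by
  apply LinearMap.injective_iff_surjective.mp
  rw [← LinearMap.ker_eq_bot, LinearMap.ker_eq_bot']
  intro a ha
  apply hF
  intro b
  rw [← hσ, ha, map_zero, LinearMap.zero_apply]

/-- The orthogonal complement of `range (σ - 1)` is the space of `σ`-invariants. -/
theorem orthogonal_range_sub_one (hF : ∀ a, (∀ b, F a b = 0) → a = 0)
    (hsymm : ∀ a b, F a b = F b a) (hσ : ∀ a b, F (σ a) (σ b) = F a b) :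
    F.orthogonal (LinearMap.range (σ - 1)) = LinearMap.ker (σ - 1) := by
  ext m
  rw [LinearMap.BilinForm.mem_orthogonal_iff, LinearMap.mem_ker, LinearMap.sub_apply,
    Module.End.one_apply]
  constructor
  · intro h
    have hsurj := surjective_of_isometry hF hσ
    have h0 : m - σ m = 0 := by
      apply hF
      intro b
      rw [hsymm]
      obtain ⟨a, rfl⟩ := hsurj b
      have h1 := h (σ a - a) ⟨a, by simp⟩
      rw [map_sub, LinearMap.sub_apply] at h1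
      rw [map_sub, hσ]
      have h2 : F (σ a) m = F a m := sub_eq_zero.mp h1
      rw [h2, sub_self]
    rw [sub_eq_zero] at h0 ⊢
    exact h0.symm
  · rintro h _ ⟨a, rfl⟩
    rw [LinearMap.sub_apply, Module.End.one_apply]
    exact apply_sub_fixed hσ a m (sub_eq_zero.mp h)

theorem orthogonal_inf (hF : ∀ a, (∀ b, F a b = 0) → a = 0) (hsymm : ∀ a b, F a b = F b a)
    (P Q : Submodule k M) : F.orthogonal (P ⊓ Q) = F.orthogonal P ⊔ F.orthogonal Q := by
  have hnd := nondegenerate_of hF hsymm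
  have hrefl := isRefl_of hsymm
  have h := orthogonal_sup (F := F) (F.orthogonal P) (F.orthogonal Q)
  rw [LinearMap.BilinForm.orthogonal_orthogonal hnd hrefl,
    LinearMap.BilinForm.orthogonal_orthogonal hnd hrefl] at h
  rw [← h, LinearMap.BilinForm.orthogonal_orthogonal hnd hrefl]

/-- The orthogonal complement of `W` is the sum of the invariants of `σ` and of `τ`. -/
theorem orthogonal_W (hF : ∀ a, (∀ b, F a b = 0) → a = 0) (hsymm : ∀ a b, F a b = F b a)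
    (hσ : ∀ a b, F (σ a) (σ b) = F a b) (hτ : ∀ a b, F (τ a) (τ b) = F a b) :
    F.orthogonal (W σ τ) = LinearMap.ker (σ - 1) ⊔ LinearMap.ker (τ - 1) := by
  rw [W, orthogonal_inf hF hsymm, orthogonal_range_sub_one hF hsymm hσ,
    orthogonal_range_sub_one hF hsymm hτ]

/-- (M3) **Perfectness**: an element of `W` pairing to zero with all of `W` lies in the radical
`(σ - 1) (ker (σ - τ))`. -/
theorem mem_rad_of_forall (hF : ∀ a, (∀ b, F a b = 0) → a = 0) (hsymm : ∀ a b, F a b = F b a)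
    (hσ : ∀ a b, F (σ a) (σ b) = F a b) (hτ : ∀ a b, F (τ a) (τ b) = F a b)
    {w' : M} (hw' : w' ∈ W σ τ)
    (h : ∀ m₁ m₂, σ m₁ - m₁ = τ m₂ - m₂ → F w' (m₂ - m₁) = 0) :
    ∃ n, σ n = τ n ∧ w' = σ n - n := by
  obtain ⟨⟨m₁', h₁'⟩, ⟨m₂', h₂'⟩⟩ := (mem_W_iff σ τ).mp hw'
  have hd : m₂' - m₁' ∈ F.orthogonal (W σ τ) := by
    rw [LinearMap.BilinForm.mem_orthogonal_iff]
    intro w hw
    obtain ⟨⟨m₁, h₁⟩, ⟨m₂, h₂⟩⟩ := (mem_W_iff σ τ).mp hw
    have hs := pair_skew hsymm hσ hτ h₁ h₂ h₁' h₂'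
    rw [h m₁ m₂ (h₁.trans h₂.symm), zero_add] at hs
    exact hs
  rw [orthogonal_W hF hsymm hσ hτ] at hd
  obtain ⟨a, ha, b, hb, hab⟩ := Submodule.mem_sup.mp hd
  rw [LinearMap.mem_ker, LinearMap.sub_apply, Module.End.one_apply, sub_eq_zero] at ha hb
  have hn : m₁' + a = m₂' - b := by
    rw [eq_sub_iff_add_eq, add_assoc, hab]
    abel
  have e₁ : σ (m₁' + a) - (m₁' + a) = w' := by
    rw [map_add, ha, ← h₁']
    abel
  have e₂ : τ (m₁' + a) - (m₁' + a) = w' := by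
    rw [hn, map_sub, hb, ← h₂']
    abel
  exact ⟨m₁' + a, sub_left_injective (e₁.trans e₂.symm), e₁.symm⟩

end radical

section rad_converse

variable {F : BilinForm k M} {σ τ : M →ₗ[k] M}

/-- Elements of the radical pair to zero (left slot). -/
theorem pair_eq_zero_of_rad_left (hsymm : ∀ a b, F a b = F b a)
    (hσ : ∀ a b, F (σ a) (σ b) = F a b) (hτ : ∀ a b, F (τ a) (τ b) = F a b)
    {n : M} (hn : σ n = τ n) {m₁ m₂ : M} (h : σ m₁ - m₁ = τ m₂ - m₂) :
    F (σ n - n) (m₂ - m₁) = 0 := by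
  have hs := pair_skew hsymm hσ hτ (w := σ m₁ - m₁) (w' := σ n - n) rfl h.symm rfl
    (by rw [hn])
  rw [sub_self, map_zero, add_zero] at hs
  exact hs

/-- Elements of the radical pair to zero (right slot): if `w = (σ - 1) n = (τ - 1) n` then
every presentation `(m₁, m₂)` of `w` has `F w' (m₂ - m₁) = 0` for `w' ∈ W`. -/
theorem pair_eq_zero_of_rad_right (hσ : ∀ a b, F (σ a) (σ b) = F a b)
    (hτ : ∀ a b, F (τ a) (τ b) = F a b) {w' : M} (hw' : w' ∈ W σ τ)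
    {n : M} (hn : σ n = τ n) {m₁ m₂ : M} (h₁ : σ m₁ - m₁ = σ n - n)
    (h₂ : τ m₂ - m₂ = σ n - n) : F w' (m₂ - m₁) = 0 := by
  rw [pair_indep hσ hτ hw' h₁ (h₂.trans (by rw [hn])), sub_self, map_zero]

end rad_converse

section packaged

/-- Every endomorphism of a vector space has a linear generalised inverse. -/
theorem exists_sec (f : M →ₗ[k] M) : ∃ g : M →ₗ[k] M, ∀ m, f (g (f m)) = f m := by
  obtain ⟨g₀, hg₀⟩ := f.rangeRestrict.exists_rightInverse_of_surjective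
    (LinearMap.range_rangeRestrict f)
  obtain ⟨g, hg⟩ := LinearMap.exists_extend g₀
  refine ⟨g, fun m => ?_⟩
  have h1 : g (f m) = g₀ ⟨f m, LinearMap.mem_range_self f m⟩ := by
    rw [← hg]; rfl
  have h2 := congrArg (fun φ : LinearMap.range f →ₗ[k] LinearMap.range f =>
    ((φ ⟨f m, LinearMap.mem_range_self f m⟩ : LinearMap.range f) : M)) hg₀
  simp only [LinearMap.comp_apply, LinearMap.id_apply] at h2
  rw [h1]
  exact h2

/-- A chosen linear generalised inverse. -/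
noncomputable def sec (f : M →ₗ[k] M) : M →ₗ[k] M := Classical.choose (exists_sec f)

theorem sec_spec (f : M →ₗ[k] M) (m : M) : f (sec f (f m)) = f m :=
  Classical.choose_spec (exists_sec f) m

variable (F : BilinForm k M) (σ τ : M →ₗ[k] M)

/-- (M4) The packaged bilinear form: `B w' w = F w' (m₂ - m₁)` for `w' ∈ W` and any
presentation `w = (σ - 1) m₁ = (τ - 1) m₂` (see `B_eq`). -/
noncomputable def B : BilinForm k M :=
  F.compRight (sec (τ - 1) - sec (σ - 1))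

theorem B_apply (w' w : M) :
    B F σ τ w' w = F w' (sec (τ - 1) w - sec (σ - 1) w) := rfl

variable {F σ τ}

theorem B_eq (hσ : ∀ a b, F (σ a) (σ b) = F a b) (hτ : ∀ a b, F (τ a) (τ b) = F a b)
    {w' : M} (hw' : w' ∈ W σ τ) {w m₁ m₂ : M} (h₁ : σ m₁ - m₁ = w) (h₂ : τ m₂ - m₂ = w) :
    B F σ τ w' w = F w' (m₂ - m₁) := by
  rw [B_apply]
  apply pair_indep hσ hτ hw'
  · have h := sec_spec (σ - 1) m₁
    simp only [LinearMap.sub_apply, Module.End.one_apply] at h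
    rw [h₁] at h
    rw [h, h₁]
  · have h := sec_spec (τ - 1) m₂
    simp only [LinearMap.sub_apply, Module.End.one_apply] at h
    rw [h₂] at h
    rw [h, h₂]

/-- `B` is skew-symmetric on `W`. -/
theorem B_skew (hsymm : ∀ a b, F a b = F b a) (hσ : ∀ a b, F (σ a) (σ b) = F a b)
    (hτ : ∀ a b, F (τ a) (τ b) = F a b) {w w' : M} (hw : w ∈ W σ τ) (hw' : w' ∈ W σ τ) :
    B F σ τ w' w + B F σ τ w w' = 0 := by
  obtain ⟨⟨m₁, h₁⟩, ⟨m₂, h₂⟩⟩ := (mem_W_iff σ τ).mp hw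
  obtain ⟨⟨m₁', h₁'⟩, ⟨m₂', h₂'⟩⟩ := (mem_W_iff σ τ).mp hw'
  rw [B_eq hσ hτ hw' h₁ h₂, B_eq hσ hτ hw h₁' h₂']
  exact pair_skew hsymm hσ hτ h₁ h₂ h₁' h₂'

/-- `B` is alternating on `W` when `2 ≠ 0`. -/
theorem B_self (h2 : (2 : k) ≠ 0) (hsymm : ∀ a b, F a b = F b a)
    (hσ : ∀ a b, F (σ a) (σ b) = F a b) (hτ : ∀ a b, F (τ a) (τ b) = F a b)
    {w : M} (hw : w ∈ W σ τ) : B F σ τ w w = 0 := by
  have h := B_skew hsymm hσ hτ hw hw
  rw [← two_mul] at h
  exact (mul_eq_zero.mp h).resolve_left h2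

/-- (M3) for the packaged form: the radical of `B` on `W` is `(σ - 1) (ker (σ - τ))`. -/
theorem B_rad [FiniteDimensional k M] (hF : ∀ a, (∀ b, F a b = 0) → a = 0)
    (hsymm : ∀ a b, F a b = F b a) (hσ : ∀ a b, F (σ a) (σ b) = F a b)
    (hτ : ∀ a b, F (τ a) (τ b) = F a b) {w' : M} (hw' : w' ∈ W σ τ)
    (h : ∀ w ∈ W σ τ, B F σ τ w' w = 0) : ∃ n, σ n = τ n ∧ w' = σ n - n := by
  apply mem_rad_of_forall hF hsymm hσ hτ hw'
  intro m₁ m₂ h12
  rw [← B_eq hσ hτ hw' rfl h12.symm]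
  exact h _ (mem_W_of_eq σ τ rfl h12.symm)

/-- The radical is contained in the left kernel of `B` on `W`. -/
theorem B_rad_left (hsymm : ∀ a b, F a b = F b a) (hσ : ∀ a b, F (σ a) (σ b) = F a b)
    (hτ : ∀ a b, F (τ a) (τ b) = F a b) {n : M} (hn : σ n = τ n) {w : M} (hw : w ∈ W σ τ) :
    B F σ τ (σ n - n) w = 0 := by
  obtain ⟨⟨m₁, h₁⟩, ⟨m₂, h₂⟩⟩ := (mem_W_iff σ τ).mp hw
  rw [B_eq hσ hτ (mem_W_of_eq σ τ rfl (by rw [hn])) h₁ h₂]
  exact pair_eq_zero_of_rad_left hsymm hσ hτ hn (h₁.trans h₂.symm)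

/-- The radical is contained in the right kernel of `B` on `W`. -/
theorem B_rad_right (hσ : ∀ a b, F (σ a) (σ b) = F a b)
    (hτ : ∀ a b, F (τ a) (τ b) = F a b) {n : M} (hn : σ n = τ n) {w' : M} (hw' : w' ∈ W σ τ) :
    B F σ τ w' (σ n - n) = 0 := by
  rw [B_eq hσ hτ hw' (m₁ := n) (m₂ := n) rfl (by rw [hn]), sub_self, map_zero]

end packaged

section functorial

variable {M' : Type*} [AddCommGroup M'] [Module k M']
  {F : BilinForm k M} {σ τ : M →ₗ[k] M} {F' : BilinForm k M'} {σ' τ' : M' →ₗ[k] M'}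

/-- An equivariant map sends `W` to `W`. -/
theorem map_mem_W (P : M →ₗ[k] M') (hPσ : ∀ a, P (σ a) = σ' (P a))
    (hPτ : ∀ a, P (τ a) = τ' (P a)) {w : M} (hw : w ∈ W σ τ) : P w ∈ W σ' τ' := by
  obtain ⟨⟨m₁, h₁⟩, ⟨m₂, h₂⟩⟩ := (mem_W_iff σ τ).mp hw
  exact mem_W_of_eq σ' τ' (m₁ := P m₁) (m₂ := P m₂) (by rw [← hPσ, ← map_sub, h₁])
    (by rw [← hPτ, ← map_sub, h₂])

/-- (M5) **Adjointness** (the model form of `⟨res x, y⟩ = ⟨x, tr y⟩`): if `P` and `Q` are
equivariant and adjoint for `F`, `F'`, they are adjoint for the pairings `B`. -/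
theorem B_adjoint (hσ : ∀ a b, F (σ a) (σ b) = F a b) (hτ : ∀ a b, F (τ a) (τ b) = F a b)
    (hσ' : ∀ a b, F' (σ' a) (σ' b) = F' a b) (hτ' : ∀ a b, F' (τ' a) (τ' b) = F' a b)
    (P : M →ₗ[k] M') (Q : M' →ₗ[k] M) (hPQ : ∀ a b, F' (P a) b = F a (Q b))
    (hPσ : ∀ a, P (σ a) = σ' (P a)) (hPτ : ∀ a, P (τ a) = τ' (P a))
    (hQσ : ∀ b, Q (σ' b) = σ (Q b)) (hQτ : ∀ b, Q (τ' b) = τ (Q b))
    {w₁ : M} (hw₁ : w₁ ∈ W σ τ) {w₂ : M'} (hw₂ : w₂ ∈ W σ' τ') :
    B F' σ' τ' (P w₁) w₂ = B F σ τ w₁ (Q w₂) := by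
  obtain ⟨⟨m₁, h₁⟩, ⟨m₂, h₂⟩⟩ := (mem_W_iff σ' τ').mp hw₂
  rw [B_eq hσ' hτ' (map_mem_W P hPσ hPτ hw₁) h₁ h₂,
    B_eq hσ hτ hw₁ (m₁ := Q m₁) (m₂ := Q m₂) (by rw [← hQσ, ← map_sub, h₁])
      (by rw [← hQτ, ← map_sub, h₂]), hPQ, map_sub]

/-- (M5'), the other slot. -/
theorem B_adjoint' (hsymm : ∀ a b, F a b = F b a) (hsymm' : ∀ a b, F' a b = F' b a)
    (hσ : ∀ a b, F (σ a) (σ b) = F a b) (hτ : ∀ a b, F (τ a) (τ b) = F a b)
    (hσ' : ∀ a b, F' (σ' a) (σ' b) = F' a b) (hτ' : ∀ a b, F' (τ' a) (τ' b) = F' a b)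
    (P : M →ₗ[k] M') (Q : M' →ₗ[k] M) (hPQ : ∀ a b, F' (P a) b = F a (Q b))
    (hPσ : ∀ a, P (σ a) = σ' (P a)) (hPτ : ∀ a, P (τ a) = τ' (P a))
    (hQσ : ∀ b, Q (σ' b) = σ (Q b)) (hQτ : ∀ b, Q (τ' b) = τ (Q b))
    {w₁ : M} (hw₁ : w₁ ∈ W σ τ) {w₂ : M'} (hw₂ : w₂ ∈ W σ' τ') :
    B F' σ' τ' w₂ (P w₁) = B F σ τ (Q w₂) w₁ := by
  have h1 := B_skew hsymm' hσ' hτ' (map_mem_W P hPσ hPτ hw₁) hw₂
  have h2 := B_skew hsymm hσ hτ hw₁ (map_mem_W Q hQσ hQτ hw₂)
  have h3 := B_adjoint hσ hτ hσ' hτ' P Q hPQ hPσ hPτ hQσ hQτ hw₁ hw₂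
  linear_combination h1 - h2 - h3

end functorial

section perm

/-! ### The instance `M = X → k` -/

variable (k) {X : Type*} [Fintype X]

/-- The dot product on `X → k`. -/
def dot : BilinForm k (X → k) := dotProductBilin k k

/-- Translation by a permutation of `X`: `(transl e a) x = a (e x)`. -/
def transl (e : Equiv.Perm X) : (X → k) →ₗ[k] (X → k) := LinearMap.funLeft k k e

variable {k}

theorem dot_apply (a b : X → k) : dot k a b = ∑ x, a x * b x := rfl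

omit [Fintype X] in
theorem transl_apply (e : Equiv.Perm X) (a : X → k) (x : X) : transl k e a x = a (e x) := rfl

theorem dot_nondeg (a : X → k) (h : ∀ b, dot k a b = 0) : a = 0 :=
  dotProduct_eq_zero a h

theorem dot_symm (a b : X → k) : dot k a b = dot k b a := by
  simp only [dot_apply, mul_comm]

theorem dot_transl (e : Equiv.Perm X) (a b : X → k) :
    dot k (transl k e a) (transl k e b) = dot k a b := by
  simp only [dot_apply, transl_apply]
  exact Equiv.sum_comp e (fun x => a x * b x)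

/-- Push-forward and pull-back along a map of finite sets are adjoint for the dot products. -/
theorem dot_pull_push {X' : Type*} [Fintype X'] [DecidableEq X] (π : X' → X) (a : X → k)
    (b : X' → k) :
    dot k (fun x' => a (π x')) b = dot k a (fun x => ∑ x' with π x' = x, b x') := by
  simp only [dot_apply, Finset.mul_sum]
  rw [← Finset.sum_fiberwise (s := Finset.univ) (g := π) (f := fun x' => a (π x') * b x')]
  refine Finset.sum_congr rfl fun x _ => ?_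
  refine Finset.sum_congr rfl fun x' hx' => ?_
  rw [(Finset.mem_filter.mp hx').2]

end perm

end Fermat.Agent.P7.PdModel
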