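/-
P7 [SHAP] part 2 (helper69): the restriction half of the (PD2) cochain bridge.

For `Γ' ≤ Γ ≤ G`, `π : G ⧸ Γ' → G ⧸ Γ` the canonical map, and an additive `φ : Γ → A`:
the Shapiro cocycle of `φ|Γ'` is the pull-back of the Shapiro cocycle of `φ` up to a coboundary,
  `zc Γ' (φ ∘ incl) g x' = zc Γ φ g (π x') + ν x' - ν (g • x')`.
-/
import Mathlib
import Fermat.Agent.P7.Shap

set_option autoImplicit false

namespace Fermat.Agent.P7.ShapRes

open Fermat.Agent.S21.PermDim Fermat.Agent.P7.Shap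

variable {G : Type*} [Group G] {Γ' Γ : Subgroup G} (hle : Γ' ≤ Γ) {A : Type*} [AddCommGroup A]

/-- The canonical projection `G ⧸ Γ' → G ⧸ Γ`. -/
abbrev proj : G ⧸ Γ' → G ⧸ Γ := Subgroup.quotientMapOfLE hle

theorem proj_coe (u : G) : proj hle ((u : G) : G ⧸ Γ') = ((u : G) : G ⧸ Γ) := rfl

theorem proj_smul (g : G) (x' : G ⧸ Γ') : proj hle (g • x') = g • proj hle x' := by
  induction x' using QuotientGroup.induction_on with
  | H u => rfl

theorem proj_surjective : Function.Surjective (proj hle) := by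
  intro x
  induction x using QuotientGroup.induction_on with
  | H u => exact ⟨((u : G) : G ⧸ Γ'), rfl⟩

theorem proj_x0 : proj hle (x0 Γ') = x0 Γ := rfl

/-- The inclusion `Γ' → Γ`. -/
def incl (γ' : Γ') : Γ := ⟨γ'.1, hle γ'.2⟩

@[simp] theorem coe_incl (γ' : Γ') : ((incl hle γ' : Γ) : G) = (γ' : G) := rfl

theorem incl_mul (a b : Γ') : incl hle (a * b) = incl hle a * incl hle b := rfl

theorem delta_mem (x' : G ⧸ Γ') : (psec Γ (proj hle x'))⁻¹ * psec Γ' x' ∈ Γ := by
  have h : ((psec Γ (proj hle x') : G) : G ⧸ Γ) = ((psec Γ' x' : G) : G ⧸ Γ) := by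
    rw [psec_spec, ← proj_coe hle, psec_spec]
  exact QuotientGroup.eq.mp h

/-- The comparison of the two sections: `δ x' = (psec Γ (π x'))⁻¹ * psec Γ' x' ∈ Γ`. -/
noncomputable def delta (x' : G ⧸ Γ') : Γ := ⟨_, delta_mem hle x'⟩

/-- The `Γ'`-cocycle is conjugate-twisted from the `Γ`-cocycle. -/
theorem pkap_res (g : G) (x' : G ⧸ Γ') :
    incl hle (pkap Γ' g x') =
      (delta hle (g • x'))⁻¹ * pkap Γ g (proj hle x') * delta hle x' := by
  apply Subtype.ext
  simp only [coe_incl, pkap, delta, Subgroup.coe_mul, Subgroup.coe_inv, proj_smul]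
  group

/-- **(R)**: the Shapiro cocycle of a restriction is the pull-back plus a coboundary. -/
theorem zc_res (φ : Γ → A) (hφ : IsAdd φ) :
    ∃ ν : G ⧸ Γ' → A, ∀ (g : G) (x' : G ⧸ Γ'),
      zc Γ' (fun γ' => φ (incl hle γ')) g x' = zc Γ φ g (proj hle x') + ν x' - ν (g • x') := by
  refine ⟨fun x' => φ (delta hle x'), fun g x' => ?_⟩
  simp only [zc]
  rw [pkap_res hle g x', hφ, hφ, hφ.map_inv]
  abel

/-- Restriction of an additive map is additive. -/
theorem isAdd_res {φ : Γ → A} (hφ : IsAdd φ) : IsAdd (fun γ' : Γ' => φ (incl hle γ')) :=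
  fun a b => by simp only [incl_mul, hφ _ _]

/-- Restriction preserves `Kills`. -/
theorem kills_res {φ : Γ → A} {t : G} (hk : Kills φ t) :
    Kills (fun γ' : Γ' => φ (incl hle γ')) t :=
  fun u e h => hk u e (hle h)

end Fermat.Agent.P7.ShapRes
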