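/-
P7 [SHAP] transfer twin (helper93; statement fixed with helper69, board row 2753).

Left-coset Shapiro dictionary of `P7/Shap.lean` (`zc Γ φ g x = φ (pkap Γ g x)`).  For
`Γ' ≤ Γ ≤ G`, `π : G ⧸ Γ' → G ⧸ Γ` and a transfer `τ` of `ψ : Γ' → A` along a right transversal
`r` of `Γ'` in `Γ`, the fibre sums of the cocycle of `ψ` are the cocycle of `τ` up to a
coboundary:

  `∑ x' with π x' = x, zc Γ' ψ g x' = zc Γ τ g x + ν x - ν (g • x)`.
-/
import Mathlib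
import Fermat.Agent.P7.Shap

set_option autoImplicit false

namespace Fermat.Agent.P7.ShapTr

open Fermat.Agent.S21.PermDim Fermat.Agent.P7.Shap

variable {G : Type*} [Group G] (Γ' Γ : Subgroup G)

/-- The projection `G ⧸ Γ' → G ⧸ Γ` is equivariant. -/
theorem quotientMapOfLE_smul (hle : Γ' ≤ Γ) (g : G) (x' : G ⧸ Γ') :
    Subgroup.quotientMapOfLE hle (g • x') = g • Subgroup.quotientMapOfLE hle x' := by
  induction x' using QuotientGroup.induction_on with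
  | H a => rfl

variable {ι : Type*} (r : ι → G)

/-- The point of the fibre of `G ⧸ Γ' → G ⧸ Γ` over `x` attached to the index `i`. -/
noncomputable def fib (x : G ⧸ Γ) (i : ι) : G ⧸ Γ' :=
  ((psec Γ x * (r i)⁻¹ : G) : G ⧸ Γ')

variable {Γ' Γ r}

theorem pi_fib (hle : Γ' ≤ Γ) (hr : ∀ i, r i ∈ Γ) (x : G ⧸ Γ) (i : ι) :
    Subgroup.quotientMapOfLE hle (fib Γ' Γ r x i) = x := by
  rw [fib, Subgroup.quotientMapOfLE_apply_mk]
  conv_rhs => rw [← psec_spec Γ x]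
  rw [QuotientGroup.eq]
  have : (psec Γ x * (r i)⁻¹)⁻¹ * psec Γ x = r i := by group
  rw [this]
  exact hr i

theorem fib_injective (hr : ∀ i, r i ∈ Γ) (hcov : ∀ γ ∈ Γ, ∃! i, γ * (r i)⁻¹ ∈ Γ')
    (x : G ⧸ Γ) : Function.Injective (fib Γ' Γ r x) := by
  intro i j hij
  rw [fib, fib, QuotientGroup.eq] at hij
  have h1 : (psec Γ x * (r i)⁻¹)⁻¹ * (psec Γ x * (r j)⁻¹) = r i * (r j)⁻¹ := by group
  rw [h1] at hij
  have h2 : r i * (r i)⁻¹ ∈ Γ' := by rw [mul_inv_cancel]; exact one_mem _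
  exact (hcov (r i) (hr i)).unique h2 hij

theorem exists_fib (hle : Γ' ≤ Γ) (hcov : ∀ γ ∈ Γ, ∃! i, γ * (r i)⁻¹ ∈ Γ') (x' : G ⧸ Γ') :
    ∃ i, fib Γ' Γ r (Subgroup.quotientMapOfLE hle x') i = x' := by
  induction x' using QuotientGroup.induction_on with
  | H a =>
    rw [Subgroup.quotientMapOfLE_apply_mk]
    have h1 : a⁻¹ * psec Γ ((a : G) : G ⧸ Γ) ∈ Γ := by
      rw [← QuotientGroup.eq]
      exact (psec_spec Γ _).symm
    obtain ⟨i, hi, -⟩ := hcov _ h1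
    refine ⟨i, ?_⟩
    rw [fib, QuotientGroup.eq]
    have h2 : (psec Γ ((a : G) : G ⧸ Γ) * (r i)⁻¹)⁻¹ * a
        = (a⁻¹ * psec Γ ((a : G) : G ⧸ Γ) * (r i)⁻¹)⁻¹ := by group
    rw [h2]
    exact inv_mem hi

theorem acor_mem (x : G ⧸ Γ) (i : ι) :
    (psec Γ x * (r i)⁻¹)⁻¹ * psec Γ' (fib Γ' Γ r x i) ∈ Γ' := by
  rw [← QuotientGroup.eq]
  exact (psec_spec Γ' _).symm

variable (Γ' Γ r) in
/-- The correction element `(s r_i⁻¹)⁻¹ · psec' (fibre point)`. -/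
noncomputable def acor (x : G ⧸ Γ) (i : ι) : Γ' :=
  ⟨(psec Γ x * (r i)⁻¹)⁻¹ * psec Γ' (fib Γ' Γ r x i), acor_mem x i⟩

/-- The image of a fibre point: if `r j * κ = c * r i` with `κ = pkap Γ g x`, `c ∈ Γ'`, then
`g` maps the `i`-th point over `x` to the `j`-th point over `g • x`. -/
theorem smul_fib (g : G) (x : G ⧸ Γ) (i j : ι) (c : Γ')
    (h : r j * (pkap Γ g x : G) = (c : G) * r i) :
    g • fib Γ' Γ r x i = fib Γ' Γ r (g • x) j := by
  rw [fib, fib, smul_coe_eq, QuotientGroup.eq]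
  have hk : (pkap Γ g x : G) = (psec Γ (g • x))⁻¹ * g * psec Γ x := rfl
  have h1 : (g * (psec Γ x * (r i)⁻¹))⁻¹ * (psec Γ (g • x) * (r j)⁻¹)
      = ((r j * (pkap Γ g x : G)) * (r i)⁻¹)⁻¹ := by
    rw [hk]; group
  rw [h1, h, mul_inv_cancel_right]
  exact inv_mem c.2

/-- The value of the `Γ'`-cocycle at a fibre point. -/
theorem pkap_fib (g : G) (x : G ⧸ Γ) (i j : ι) (c : Γ')
    (h : r j * (pkap Γ g x : G) = (c : G) * r i) :
    pkap Γ' g (fib Γ' Γ r x i) = (acor Γ' Γ r (g • x) j)⁻¹ * c * acor Γ' Γ r x i := by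
  apply Subtype.ext
  have hs := smul_fib g x i j c h
  have hk : (pkap Γ g x : G) = (psec Γ (g • x))⁻¹ * g * psec Γ x := rfl
  have hc : (c : G) = r j * (pkap Γ g x : G) * (r i)⁻¹ := by rw [h, mul_inv_cancel_right]
  simp only [pkap, acor, Subgroup.coe_mul, Subgroup.coe_inv]
  rw [hs, hc, hk]
  group

variable [Fintype ι] {A : Type*} [AddCommGroup A]

/-- **(T)** the transfer twin of the Shapiro bridge. -/
theorem sum_fibre_zc (hle : Γ' ≤ Γ) [Fintype (G ⧸ Γ')] [DecidableEq (G ⧸ Γ)]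
    (hr : ∀ i, r i ∈ Γ) (hcov : ∀ γ ∈ Γ, ∃! i, γ * (r i)⁻¹ ∈ Γ')
    (ψ : ↥Γ' → A) (hψ : IsAdd ψ) (τ : ↥Γ → A)
    (hτ : ∀ (γ : ↥Γ) (c : ι → ↥Γ') (σ : ι → ι),
      (∀ i, r i * γ = c i * r (σ i)) → τ γ = ∑ i, ψ (c i)) :
    ∃ ν : G ⧸ Γ → A, ∀ (g : G) (x : G ⧸ Γ),
      (∑ x' with Subgroup.quotientMapOfLE hle x' = x, zc Γ' ψ g x')
        = zc Γ τ g x + ν x - ν (g • x) := by
  classical
  refine ⟨fun x => ∑ i, ψ (acor Γ' Γ r x i), fun g x => ?_⟩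
  -- the fibre is the image of `fib`
  have hfil : (Finset.univ.filter fun x' : G ⧸ Γ' => Subgroup.quotientMapOfLE hle x' = x)
      = Finset.univ.image (fib Γ' Γ r x) := by
    ext x'
    simp only [Finset.mem_filter, Finset.mem_univ, true_and, Finset.mem_image]
    constructor
    · intro hx'
      obtain ⟨i, hi⟩ := exists_fib hle hcov x'
      exact ⟨i, by rw [← hx']; exact hi⟩
    · rintro ⟨i, rfl⟩
      exact pi_fib hle hr x i
  rw [hfil, Finset.sum_image (fun i _ j _ hij => fib_injective hr hcov x hij)]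
  -- cofactors
  have hex : ∀ j : ι, ∃ i : ι, r j * (pkap Γ g x : G) * (r i)⁻¹ ∈ Γ' := fun j =>
    (hcov _ (mul_mem (hr j) (pkap Γ g x).2)).exists
  choose σ hσ using hex
  let c : ι → Γ' := fun j => ⟨r j * (pkap Γ g x : G) * (r (σ j))⁻¹, hσ j⟩
  have hc : ∀ j, r j * (pkap Γ g x : G) = (c j : G) * r (σ j) := fun j => by
    simp only [c, inv_mul_cancel_right]
  have hσinj : Function.Injective σ := by
    intro j j' hjj
    have h1 := hσ j
    have h2 := hσ j'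
    rw [← hjj] at h2
    have h3 : r j * (r j')⁻¹ ∈ Γ' := by
      have h4 := mul_mem h1 (inv_mem h2)
      have h5 : r j * (pkap Γ g x : G) * (r (σ j))⁻¹ * (r j' * (pkap Γ g x : G) * (r (σ j))⁻¹)⁻¹
          = r j * (r j')⁻¹ := by group
      rwa [h5] at h4
    have h6 : r j * (r j)⁻¹ ∈ Γ' := by rw [mul_inv_cancel]; exact one_mem _
    exact ((hcov (r j) (hr j)).unique h6 h3).symm ▸ rfl
  have hσbij : Function.Bijective σ := ⟨hσinj, Finite.injective_iff_surjective.mp hσinj⟩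
  have hτκ : τ (pkap Γ g x) = ∑ j, ψ (c j) := hτ (pkap Γ g x) c σ hc
  have e1 : ∑ i, zc Γ' ψ g (fib Γ' Γ r x i) = ∑ j, zc Γ' ψ g (fib Γ' Γ r x (σ j)) :=
    (hσbij.sum_comp fun i => zc Γ' ψ g (fib Γ' Γ r x i)).symm
  have e2 : ∀ j, zc Γ' ψ g (fib Γ' Γ r x (σ j))
      = ψ (c j) + ψ (acor Γ' Γ r x (σ j)) - ψ (acor Γ' Γ r (g • x) j) := by
    intro j
    rw [zc, pkap_fib g x (σ j) j (c j) (hc j), hψ, hψ, hψ.map_inv]
    abel
  have e3 : ∑ j, ψ (acor Γ' Γ r x (σ j)) = ∑ i, ψ (acor Γ' Γ r x i) :=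
    hσbij.sum_comp fun i => ψ (acor Γ' Γ r x i)
  rw [e1, Finset.sum_congr rfl fun j _ => e2 j, Finset.sum_sub_distrib, Finset.sum_add_distrib,
    e3, zc, hτκ]

end Fermat.Agent.P7.ShapTr
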