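/-
P7 [PD-B3] (helper41), part 1: transport of the normalised symbol of a homomorphism along
restriction and transfer, for `Γ' ≤ Γ ≤ G` and `π : G ⧸ Γ' → G ⧸ Γ`, and the adjunction of the
model pairing `PdModel.B` for pull-back / push-forward along `π`.

Conventions of `P7/Shap.lean` (left cosets, `zc Γ φ g x = φ (pkap Γ g x)`).  The two cocycle
comparisons

* (R) `zc Γ' φ' g x' = zc Γ φ g (π x') + ν x' - ν (g • x')`            (`φ' = φ ∘ incl`),
* (T) `∑ x' with π x' = x, zc Γ' ψ g x' = zc Γ τ g x + ν' x - ν' (g • x)`   (`τ = transfer ψ`),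

are inputs here (hypothesis form); the outputs are

* `sym_res`, `sym_tr`: the symbol identities in unfolded spelling;
* `kills_res`, `kills_tr`: restriction and transfer preserve `Shap.Kills`;
* `B_pull_push`: `B' w₂ (π^* w₁) = B (π_* w₂) w₁`.
-/
import Mathlib
import Fermat.Agent.S21.PermDim
import Fermat.Agent.P7.Shap
import Fermat.Agent.P7.PdModel
import Fermat.Agent.P7.ShapRes
import Fermat.Agent.P7.ShapTr

set_option autoImplicit false

namespace Fermat.Agent.P7.PdB3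

open Fermat.Agent.S21.PermDim Fermat.Agent.P7.Shap Fermat.Agent.P7

section Fibre

variable {G : Type*} [Group G] {Γ' Γ : Subgroup G} (hle : Γ' ≤ Γ)

/-- The projection `G ⧸ Γ' → G ⧸ Γ` is `G`-equivariant. -/
theorem quotientMap_smul (g : G) (x' : G ⧸ Γ') :
    Subgroup.quotientMapOfLE hle (g • x') = g • Subgroup.quotientMapOfLE hle x' := by
  induction x' using QuotientGroup.induction_on with
  | H a => rfl

variable {A : Type*} [AddCommGroup A]

/-- **Symbol of a restriction.**  If `w` is the value at `t` of the cocycle `zc φ - dn`, then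
`w ∘ π` is the value at `t` of `zc φ' - d(n ∘ π - ν)`. -/
theorem sym_res {φ : Γ → A} {φ' : Γ' → A} {ν : G ⧸ Γ' → A}
    (hR : ∀ (g : G) (x' : G ⧸ Γ'),
      zc Γ' φ' g x' = zc Γ φ g (Subgroup.quotientMapOfLE hle x') + ν x' - ν (g • x'))
    (t : G) {n w : G ⧸ Γ → A} (hw : ∀ x, w x = zc Γ φ t x - (n (t • x) - n x))
    (x' : G ⧸ Γ') :
    w (Subgroup.quotientMapOfLE hle x') =
      zc Γ' φ' t x' -
        ((n (Subgroup.quotientMapOfLE hle (t • x')) - ν (t • x')) -
          (n (Subgroup.quotientMapOfLE hle x') - ν x')) := by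
  rw [hw, hR, quotientMap_smul]
  abel

/-- Restriction preserves `Kills`. -/
theorem kills_res {φ : Γ → A} {φ' : Γ' → A} (hφ' : ∀ γ' : Γ', φ' γ' = φ ⟨γ'.1, hle γ'.2⟩)
    {t : G} (hk : Kills φ t) : Kills φ' t := by
  intro u e h
  rw [hφ']
  exact hk u e (hle h)

variable [Fintype (G ⧸ Γ')] [DecidableEq (G ⧸ Γ)]

/-- Fibre sums commute with translation. -/
theorem sum_fibre_smul (g : G) (b : G ⧸ Γ' → A) (x : G ⧸ Γ) :
    (∑ x' with Subgroup.quotientMapOfLE hle x' = x, b (g • x')) =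
      ∑ y' with Subgroup.quotientMapOfLE hle y' = g • x, b y' := by
  refine Finset.sum_equiv (MulAction.toPerm g) (fun x' => ?_) (fun x' _ => rfl)
  simp only [Finset.mem_filter, Finset.mem_univ, true_and, MulAction.toPerm_apply,
    quotientMap_smul]
  exact ⟨fun h => by rw [h], fun h => smul_left_cancel g h⟩

/-- **Symbol of a transfer.**  If `w'` is the value at `t` of `zc ψ - dn'`, then the fibre sum
`π_* w'` is the value at `t` of `zc τ - d(π_* n' + ν')`. -/
theorem sym_tr {ψ : Γ' → A} {τ : Γ → A} {ν' : G ⧸ Γ → A}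
    (hT : ∀ (g : G) (x : G ⧸ Γ),
      (∑ x' with Subgroup.quotientMapOfLE hle x' = x, zc Γ' ψ g x') =
        zc Γ τ g x + ν' x - ν' (g • x))
    (t : G) {n' w' : G ⧸ Γ' → A} (hw' : ∀ x', w' x' = zc Γ' ψ t x' - (n' (t • x') - n' x'))
    (x : G ⧸ Γ) :
    (∑ x' with Subgroup.quotientMapOfLE hle x' = x, w' x') =
      zc Γ τ t x -
        (((∑ y' with Subgroup.quotientMapOfLE hle y' = t • x, n' y') + ν' (t • x)) -
          ((∑ x' with Subgroup.quotientMapOfLE hle x' = x, n' x') + ν' x)) := by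
  simp only [hw', Finset.sum_sub_distrib]
  rw [hT, sum_fibre_smul]
  abel

/-- Transfer preserves `Kills` (given the cocycle comparison (T)). -/
theorem kills_tr [Finite (G ⧸ Γ)] {ψ : Γ' → A} {τ : Γ → A} {ν' : G ⧸ Γ → A}
    (hT : ∀ (g : G) (x : G ⧸ Γ),
      (∑ x' with Subgroup.quotientMapOfLE hle x' = x, zc Γ' ψ g x') =
        zc Γ τ g x + ν' x - ν' (g • x))
    (hψ : IsAdd ψ) (hτ : IsAdd τ) {t : G} (hk : Kills ψ t) : Kills τ t := by
  obtain ⟨n', hn'⟩ := hk.exists_primitive hψ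
  refine kills_of_primitive hτ
    (fun x => (∑ x' with Subgroup.quotientMapOfLE hle x' = x, n' x') + ν' x) (fun x => ?_)
  have h := hT t x
  simp only [hn', Finset.sum_sub_distrib] at h
  rw [sum_fibre_smul] at h
  have h2 : zc Γ τ t x = (∑ y' with Subgroup.quotientMapOfLE hle y' = t • x, n' y') -
      (∑ x' with Subgroup.quotientMapOfLE hle x' = x, n' x') - ν' x + ν' (t • x) := by
    rw [h]; abel
  rw [h2]
  abel

end Fibre

/-! ### The model pairing -/

section Model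

variable {G : Type*} [Group G] {Γ' Γ : Subgroup G} (hle : Γ' ≤ Γ)
  [Fintype (G ⧸ Γ')] [Fintype (G ⧸ Γ)] [DecidableEq (G ⧸ Γ)] (k : Type*) [Field k]

/-- Pull-back of functions along `π : G ⧸ Γ' → G ⧸ Γ`. -/
def pullL : ((G ⧸ Γ) → k) →ₗ[k] ((G ⧸ Γ') → k) :=
  LinearMap.funLeft k k (Subgroup.quotientMapOfLE hle)

/-- Push-forward (fibre sums) along `π : G ⧸ Γ' → G ⧸ Γ`. -/
def pushL : ((G ⧸ Γ') → k) →ₗ[k] ((G ⧸ Γ) → k) where
  toFun b := fun x => ∑ x' with Subgroup.quotientMapOfLE hle x' = x, b x'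
  map_add' a b := by
    funext x
    simp only [Pi.add_apply, Finset.sum_add_distrib]
  map_smul' c b := by
    funext x
    simp only [Pi.smul_apply, smul_eq_mul, RingHom.id_apply, Finset.mul_sum]

variable {k}

omit [Fintype (G ⧸ Γ')] [Fintype (G ⧸ Γ)] [DecidableEq (G ⧸ Γ)] in
@[simp] theorem pullL_apply (a : (G ⧸ Γ) → k) (x' : G ⧸ Γ') :
    pullL hle k a x' = a (Subgroup.quotientMapOfLE hle x') := rfl

omit [Fintype (G ⧸ Γ)] in
@[simp] theorem pushL_apply (b : (G ⧸ Γ') → k) (x : G ⧸ Γ) :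
    pushL hle k b x = ∑ x' with Subgroup.quotientMapOfLE hle x' = x, b x' := rfl

theorem dot_pullL_pushL (a : (G ⧸ Γ) → k) (b : (G ⧸ Γ') → k) :
    PdModel.dot k (pullL hle k a) b = PdModel.dot k a (pushL hle k b) :=
  PdModel.dot_pull_push (Subgroup.quotientMapOfLE hle) a b

omit [Fintype (G ⧸ Γ')] [Fintype (G ⧸ Γ)] [DecidableEq (G ⧸ Γ)] in
theorem pullL_transl (g : G) (a : (G ⧸ Γ) → k) :
    pullL hle k (PdModel.transl k (MulAction.toPerm g) a) =
      PdModel.transl k (MulAction.toPerm g) (pullL hle k a) := by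
  funext x'
  simp only [pullL_apply, PdModel.transl_apply, MulAction.toPerm_apply, quotientMap_smul]

omit [Fintype (G ⧸ Γ)] in
theorem pushL_transl (g : G) (b : (G ⧸ Γ') → k) :
    pushL hle k (PdModel.transl k (MulAction.toPerm g) b) =
      PdModel.transl k (MulAction.toPerm g) (pushL hle k b) := by
  funext x
  simp only [pushL_apply, PdModel.transl_apply, MulAction.toPerm_apply]
  exact sum_fibre_smul hle g b x

/-- **Adjunction of the model pairing** along `π`: `B' w₂ (π^* w₁) = B (π_* w₂) w₁`. -/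
theorem B_pull_push (s r : G) {w₁ : (G ⧸ Γ) → k}
    (hw₁ : w₁ ∈ PdModel.W (PdModel.transl k (MulAction.toPerm s : Equiv.Perm (G ⧸ Γ)))
      (PdModel.transl k (MulAction.toPerm r : Equiv.Perm (G ⧸ Γ))))
    {w₂ : (G ⧸ Γ') → k}
    (hw₂ : w₂ ∈ PdModel.W (PdModel.transl k (MulAction.toPerm s : Equiv.Perm (G ⧸ Γ')))
      (PdModel.transl k (MulAction.toPerm r : Equiv.Perm (G ⧸ Γ')))) :
    PdModel.B (PdModel.dot k) (PdModel.transl k (MulAction.toPerm s : Equiv.Perm (G ⧸ Γ')))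
        (PdModel.transl k (MulAction.toPerm r : Equiv.Perm (G ⧸ Γ'))) w₂ (pullL hle k w₁) =
      PdModel.B (PdModel.dot k) (PdModel.transl k (MulAction.toPerm s : Equiv.Perm (G ⧸ Γ)))
        (PdModel.transl k (MulAction.toPerm r : Equiv.Perm (G ⧸ Γ))) (pushL hle k w₂) w₁ :=
  PdModel.B_adjoint' PdModel.dot_symm PdModel.dot_symm
    (PdModel.dot_transl _) (PdModel.dot_transl _) (PdModel.dot_transl _) (PdModel.dot_transl _)
    (pullL hle k) (pushL hle k) (dot_pullL_pushL hle)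
    (pullL_transl hle s) (pullL_transl hle r) (pushL_transl hle s) (pushL_transl hle r) hw₁ hw₂

/-- The first-slot form: `B' (π^* w₁) w₂ = B w₁ (π_* w₂)`. -/
theorem B_pull_push' (s r : G) {w₁ : (G ⧸ Γ) → k}
    (hw₁ : w₁ ∈ PdModel.W (PdModel.transl k (MulAction.toPerm s : Equiv.Perm (G ⧸ Γ)))
      (PdModel.transl k (MulAction.toPerm r : Equiv.Perm (G ⧸ Γ))))
    {w₂ : (G ⧸ Γ') → k}
    (hw₂ : w₂ ∈ PdModel.W (PdModel.transl k (MulAction.toPerm s : Equiv.Perm (G ⧸ Γ')))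
      (PdModel.transl k (MulAction.toPerm r : Equiv.Perm (G ⧸ Γ')))) :
    PdModel.B (PdModel.dot k) (PdModel.transl k (MulAction.toPerm s : Equiv.Perm (G ⧸ Γ')))
        (PdModel.transl k (MulAction.toPerm r : Equiv.Perm (G ⧸ Γ'))) (pullL hle k w₁) w₂ =
      PdModel.B (PdModel.dot k) (PdModel.transl k (MulAction.toPerm s : Equiv.Perm (G ⧸ Γ)))
        (PdModel.transl k (MulAction.toPerm r : Equiv.Perm (G ⧸ Γ))) w₁ (pushL hle k w₂) :=
  PdModel.B_adjoint
    (PdModel.dot_transl _) (PdModel.dot_transl _) (PdModel.dot_transl _) (PdModel.dot_transl _)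
    (pullL hle k) (pushL hle k) (dot_pullL_pushL hle)
    (pullL_transl hle s) (pullL_transl hle r) (pushL_transl hle s) (pushL_transl hle r) hw₁ hw₂

end Model

/-! ### Symbols: the unconditional transport statements -/

section Sym

variable {G : Type*} [Group G] {A : Type*} [AddCommGroup A]

/-- `w` is the common value at `s` and at `r` of the cocycle `zc Γ φ - dn` (the normalised symbol
of `φ` with respect to the primitive `n`). -/
def Sym (Γ : Subgroup G) (φ : Γ → A) (s r : G) (n w : G ⧸ Γ → A) : Prop :=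
  ∀ x, w x = zc Γ φ s x - (n (s • x) - n x) ∧ w x = zc Γ φ r x - (n (r • x) - n x)

variable {Γ' Γ : Subgroup G} (hle : Γ' ≤ Γ)

/-- **Restriction**: the symbol of `φ ∘ incl` is `w ∘ π`, with primitive `n ∘ π - ν` for one `ν`
depending only on `φ`. -/
theorem exists_sym_res (φ : Γ → A) (hφ : IsAdd φ) :
    ∃ ν : G ⧸ Γ' → A, ∀ (s r : G) (n w : G ⧸ Γ → A), Sym Γ φ s r n w →
      Sym Γ' (fun γ' => φ (ShapRes.incl hle γ')) s r
        (fun y' => n (ShapRes.proj hle y') - ν y') (fun y' => w (ShapRes.proj hle y')) := by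
  obtain ⟨ν, hν⟩ := ShapRes.zc_res hle φ hφ
  refine ⟨ν, fun s r n w h x' => ⟨?_, ?_⟩⟩
  · exact sym_res hle hν s (fun x => (h x).1) x'
  · exact sym_res hle hν r (fun x => (h x).2) x'

variable [Fintype (G ⧸ Γ')] [DecidableEq (G ⧸ Γ)]

/-- **Transfer**: the symbol of a transfer `τ` of `ψ` is the fibre sum `π_* w'`, with primitive
`π_* n' + ν'` for one `ν'` depending only on `ψ`. -/
theorem exists_sym_tr {ι : Type*} [Fintype ι] {r₀ : ι → G} (hr₀ : ∀ i, r₀ i ∈ Γ)
    (hcov : ∀ γ ∈ Γ, ∃! i, γ * (r₀ i)⁻¹ ∈ Γ') (ψ : Γ' → A) (hψ : IsAdd ψ) (τ : Γ → A)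
    (hτ : ∀ (γ : Γ) (c : ι → Γ') (σ : ι → ι),
      (∀ i, r₀ i * γ = c i * r₀ (σ i)) → τ γ = ∑ i, ψ (c i)) :
    ∃ ν' : G ⧸ Γ → A,
      (∀ (g : G) (x : G ⧸ Γ),
        (∑ x' with Subgroup.quotientMapOfLE hle x' = x, zc Γ' ψ g x') =
          zc Γ τ g x + ν' x - ν' (g • x)) ∧
      ∀ (s r : G) (n' w' : G ⧸ Γ' → A), Sym Γ' ψ s r n' w' →
        Sym Γ τ s r (fun x => (∑ x' with Subgroup.quotientMapOfLE hle x' = x, n' x') + ν' x)
          (fun x => ∑ x' with Subgroup.quotientMapOfLE hle x' = x, w' x') := by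
  obtain ⟨ν', hν'⟩ := ShapTr.sum_fibre_zc hle hr₀ hcov ψ hψ τ hτ
  refine ⟨ν', hν', fun s r n' w' h x => ⟨?_, ?_⟩⟩
  · exact sym_tr hle hν' s (fun x' => (h x').1) x
  · exact sym_tr hle hν' r (fun x' => (h x').2) x

end Sym

section SymW

variable {G : Type*} [Group G] {Γ : Subgroup G} [Finite (G ⧸ Γ)] {k : Type*} [Field k]

/-- The symbol of a homomorphism killing the conjugates of powers of `s` and of `r` lies in
`W = range (σ - 1) ⊓ range (τ - 1)`. -/
theorem Sym.mem_W {φ : Γ → k} (hφ : IsAdd φ) {s r : G} (hs : Kills φ s) (hr : Kills φ r)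
    {n w : G ⧸ Γ → k} (h : Sym Γ φ s r n w) :
    w ∈ PdModel.W (PdModel.transl k (MulAction.toPerm s : Equiv.Perm (G ⧸ Γ)))
      (PdModel.transl k (MulAction.toPerm r : Equiv.Perm (G ⧸ Γ))) := by
  obtain ⟨m₁, hm₁⟩ := hs.exists_primitive hφ
  obtain ⟨m₂, hm₂⟩ := hr.exists_primitive hφ
  refine PdModel.mem_W_of_eq _ _ (m₁ := m₁ - n) (m₂ := m₂ - n) ?_ ?_
  · funext x
    simp only [Pi.sub_apply, PdModel.transl_apply, MulAction.toPerm_apply]
    rw [(h x).1, hm₁]
    ring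
  · funext x
    simp only [Pi.sub_apply, PdModel.transl_apply, MulAction.toPerm_apply]
    rw [(h x).2, hm₂]
    ring

end SymW

section Final

variable {G : Type*} [Group G] {Γ' Γ : Subgroup G} (hle : Γ' ≤ Γ)
  [Fintype (G ⧸ Γ')] [Fintype (G ⧸ Γ)] [DecidableEq (G ⧸ Γ)] {k : Type*} [Field k]

/-- **(B3), model form.**  For `φ` on `Γ` and `ψ` on `Γ'` with symbols `w`, `w'`:
`B' w' (w ∘ π) = B (π_* w') w`. -/
theorem B_res_tr_of_sym {φ : Γ → k} (hφ : IsAdd φ) {ψ : Γ' → k} (hψ : IsAdd ψ) {s r : G}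
    (hφs : Kills φ s) (hφr : Kills φ r) (hψs : Kills ψ s) (hψr : Kills ψ r)
    {n w : G ⧸ Γ → k} (hw : Sym Γ φ s r n w) {n' w' : G ⧸ Γ' → k} (hw' : Sym Γ' ψ s r n' w') :
    PdModel.B (PdModel.dot k) (PdModel.transl k (MulAction.toPerm s : Equiv.Perm (G ⧸ Γ')))
        (PdModel.transl k (MulAction.toPerm r : Equiv.Perm (G ⧸ Γ'))) w'
        (fun y' => w (Subgroup.quotientMapOfLE hle y')) =
      PdModel.B (PdModel.dot k) (PdModel.transl k (MulAction.toPerm s : Equiv.Perm (G ⧸ Γ)))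
        (PdModel.transl k (MulAction.toPerm r : Equiv.Perm (G ⧸ Γ)))
        (fun x => ∑ x' with Subgroup.quotientMapOfLE hle x' = x, w' x') w :=
  B_pull_push hle s r (hw.mem_W hφ hφs hφr) (hw'.mem_W hψ hψs hψr)

end Final

end Fermat.Agent.P7.PdB3
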