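/-
P7 [PD-B3] (helper41), part 2: the instance `Γ₀(N q) ≤ Γ₀(N)` of the symbol transport, for the
maps `Degen.resA` and `Degen.corA` of `P7/DegenDefs.lean`.
-/
import Mathlib
import Fermat.Agent.P7.PdB3
import Fermat.Agent.P7.DegenDefs

set_option autoImplicit false

namespace Fermat.Agent.P7.PdB3Gamma

open scoped MatrixGroups
open CongruenceSubgroup
open Fermat.Agent.S21.PermDim Fermat.Agent.P7.Shap Fermat.Agent.P7 Fermat.Agent.P7.PdB3
open Fermat.Agent.Lib.HeckeHom Fermat.Agent.Lib.HeckeHomGL Fermat.Agent.P7.PairFam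

variable (N q : ℕ)

/-- The right transversal of `Γ₀(N q)` in `Γ₀(N)` used by `Degen.corA`, as elements of
`SL(2, ℤ)`. -/
noncomputable def rr (k : ↥(Gamma0 N) ⧸ (Degen.incl N q).range) : SL(2, ℤ) :=
  ((PairFam.rep (Degen.incl N q) k : Gamma0 N) : SL(2, ℤ))

theorem rr_mem (k : ↥(Gamma0 N) ⧸ (Degen.incl N q).range) : rr N q k ∈ Gamma0 N :=
  (PairFam.rep (Degen.incl N q) k).2

theorem rr_cov (γ : SL(2, ℤ)) (hγ : γ ∈ Gamma0 N) :
    ∃! k, γ * (rr N q k)⁻¹ ∈ Gamma0 (N * q) := by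
  obtain ⟨k, g, hg⟩ := PairFam.exists_rep (Degen.incl N q) (⟨γ, hγ⟩ : Gamma0 N)
  have hg' : γ = (g : SL(2, ℤ)) * rr N q k := congrArg Subtype.val hg
  refine ⟨k, ?_, fun k' hk' => ?_⟩
  · show γ * (rr N q k)⁻¹ ∈ Gamma0 (N * q)
    rw [hg', mul_inv_cancel_right]
    exact g.2
  · have h1 : rr N q k' * (rr N q k)⁻¹ ∈ Gamma0 (N * q) := by
      have h2 : γ * (rr N q k)⁻¹ ∈ Gamma0 (N * q) := by
        rw [hg', mul_inv_cancel_right]; exact g.2
      have h3 := mul_mem (inv_mem hk') h2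
      have h4 : (γ * (rr N q k')⁻¹)⁻¹ * (γ * (rr N q k)⁻¹) = rr N q k' * (rr N q k)⁻¹ := by group
      rwa [h4] at h3
    refine PairFam.rep_unique (Degen.incl N q) (g := ⟨_, h1⟩) (Subtype.ext ?_)
    show rr N q k' = rr N q k' * (rr N q k)⁻¹ * rr N q k
    rw [inv_mul_cancel_right]

variable [NeZero N] [Fact q.Prime] {A : Type*} [AddCommGroup A]

/-- `Degen.corA ψ` is the transfer of `ψ` for ANY choice of cofactors along the transversal
`rr`. -/
theorem corA_apply_of (ψ : Additive ↥(Gamma0 (N * q)) →+ A) (γ : Gamma0 N)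
    (c : ↥(Gamma0 N) ⧸ (Degen.incl N q).range → Gamma0 (N * q))
    (σ : ↥(Gamma0 N) ⧸ (Degen.incl N q).range → ↥(Gamma0 N) ⧸ (Degen.incl N q).range)
    (h : ∀ i, rr N q i * (γ : SL(2, ℤ)) = (c i : SL(2, ℤ)) * rr N q (σ i)) :
    Degen.corA N q A ψ (Additive.ofMul γ) = ∑ i, ψ (Additive.ofMul (c i)) := by
  rw [Degen.corA_eq, IsPairFamily.pairHom_apply]
  refine Finset.sum_congr rfl fun i _ => ?_
  have h1 : PairFam.rep (Degen.incl N q) i * γ =
      Degen.incl N q (c i) * PairFam.rep (Degen.incl N q) (σ i) := Subtype.ext (h i)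
  have h2 := congrArg (eG N) h1
  rw [map_mul, map_mul, Degen.eG_incl] at h2
  have h3 : (Degen.famCorA N q).cof γ i = c i :=
    (Degen.famCorA N q).cof_eq (j := σ i) (by
      simp only [PairFam.transferFam, one_mul]
      exact h2)
  rw [h3]

/-- The function on `Γ` underlying an additive character. -/
theorem isAdd_ofMul {Γ : Subgroup SL(2, ℤ)} (φ : Additive ↥Γ →+ A) :
    IsAdd (fun γ : Γ => φ (Additive.ofMul γ)) :=
  fun a b => by simp only [ofMul_mul, map_add]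

omit [NeZero N] [Fact q.Prime] in
/-- **Symbol of `resA φ`.** -/
theorem sym_resA (φ : Additive ↥(Gamma0 N) →+ A) :
    ∃ ν : SL(2, ℤ) ⧸ Gamma0 (N * q) → A,
      ∀ (s r : SL(2, ℤ)) (n w : SL(2, ℤ) ⧸ Gamma0 N → A),
        Sym (Gamma0 N) (fun γ => φ (Additive.ofMul γ)) s r n w →
        Sym (Gamma0 (N * q)) (fun γ' => Degen.resA N q A φ (Additive.ofMul γ')) s r
          (fun y' => n (Subgroup.quotientMapOfLE (Degen.Gamma0_mul_le' N q) y') - ν y')
          (fun y' => w (Subgroup.quotientMapOfLE (Degen.Gamma0_mul_le' N q) y')) :=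
  exists_sym_res (Degen.Gamma0_mul_le' N q) (fun γ => φ (Additive.ofMul γ)) (isAdd_ofMul φ)

omit [NeZero N] [Fact q.Prime] in
/-- `resA` preserves `Kills`. -/
theorem kills_resA (φ : Additive ↥(Gamma0 N) →+ A) {t : SL(2, ℤ)}
    (hk : Kills (fun γ : Gamma0 N => φ (Additive.ofMul γ)) t) :
    Kills (fun γ' : Gamma0 (N * q) => Degen.resA N q A φ (Additive.ofMul γ')) t :=
  ShapRes.kills_res (Degen.Gamma0_mul_le' N q) hk

variable [Fintype (SL(2, ℤ) ⧸ Gamma0 (N * q))] [DecidableEq (SL(2, ℤ) ⧸ Gamma0 N)]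

/-- **Symbol of `corA ψ`** (together with the cocycle comparison (T)). -/
theorem sym_corA (ψ : Additive ↥(Gamma0 (N * q)) →+ A) :
    ∃ ν' : SL(2, ℤ) ⧸ Gamma0 N → A,
      (∀ (g : SL(2, ℤ)) (x : SL(2, ℤ) ⧸ Gamma0 N),
        (∑ x' with Subgroup.quotientMapOfLE (Degen.Gamma0_mul_le' N q) x' = x,
            zc (Gamma0 (N * q)) (fun γ' => ψ (Additive.ofMul γ')) g x') =
          zc (Gamma0 N) (fun γ => Degen.corA N q A ψ (Additive.ofMul γ)) g x + ν' x
            - ν' (g • x)) ∧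
      ∀ (s r : SL(2, ℤ)) (n' w' : SL(2, ℤ) ⧸ Gamma0 (N * q) → A),
        Sym (Gamma0 (N * q)) (fun γ' => ψ (Additive.ofMul γ')) s r n' w' →
        Sym (Gamma0 N) (fun γ => Degen.corA N q A ψ (Additive.ofMul γ)) s r
          (fun x => (∑ x' with Subgroup.quotientMapOfLE (Degen.Gamma0_mul_le' N q) x' = x,
            n' x') + ν' x)
          (fun x => ∑ x' with Subgroup.quotientMapOfLE (Degen.Gamma0_mul_le' N q) x' = x,
            w' x') :=
  exists_sym_tr (Degen.Gamma0_mul_le' N q) (r₀ := rr N q) (rr_mem N q) (rr_cov N q)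
    (fun γ' => ψ (Additive.ofMul γ')) (isAdd_ofMul ψ)
    (fun γ => Degen.corA N q A ψ (Additive.ofMul γ))
    (fun γ c σ h => corA_apply_of N q ψ γ c σ h)

/-- `corA` preserves `Kills`. -/
theorem kills_corA [Finite (SL(2, ℤ) ⧸ Gamma0 N)] (ψ : Additive ↥(Gamma0 (N * q)) →+ A)
    {t : SL(2, ℤ)} (hk : Kills (fun γ' : Gamma0 (N * q) => ψ (Additive.ofMul γ')) t) :
    Kills (fun γ : Gamma0 N => Degen.corA N q A ψ (Additive.ofMul γ)) t := by
  obtain ⟨ν', hν', -⟩ := sym_corA N q ψ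
  exact kills_tr (Degen.Gamma0_mul_le' N q) hν' (isAdd_ofMul ψ) (isAdd_ofMul _) hk

end Fermat.Agent.P7.PdB3Gamma
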