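/-
P7 leaf [PSL2-UP] (helper93): the universal property of `PSL(2, ℤ) = C₂ ∗ C₃`, stated for `SL(2, ℤ)`.

For every group `H` and `s r : H` with `s ^ 2 = 1`, `r ^ 3 = 1` there is a homomorphism
`SL(2, ℤ) →* H` with `S ↦ s`, `S * T ↦ r`.

Proof: `SL(2, ℤ)` acts on integer `2 × 2` matrices by `Q ↦ g Q gᵀ` (`-1` acts trivially); ping-pong
on the rank one forms `v vᵀ` with `v 0 * v 1 > 0` resp. `< 0` (Mathlib's
`Monoid.CoprodI.lift_injective_of_ping_pong`).
-/
import Mathlib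

set_option autoImplicit false

namespace Fermat.Agent.P7.Psl2Free

open Matrix MatrixGroups ModularGroup

/-- The carrier of the ping-pong action. -/
abbrev Frm : Type := Matrix (Fin 2) (Fin 2) ℤ

/-- The congruence action `Q ↦ g Q gᵀ` as a permutation. -/
def piFun (g : SL(2, ℤ)) : Equiv.Perm Frm where
  toFun Q := g.1 * Q * g.1ᵀ
  invFun Q := (g⁻¹).1 * Q * (g⁻¹).1ᵀ
  left_inv Q := by
    have h1 : (g⁻¹).1 * g.1 = 1 := by
      rw [← Matrix.SpecialLinearGroup.coe_mul, inv_mul_cancel]; rfl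
    have h2 : g.1ᵀ * (g⁻¹).1ᵀ = 1 := by
      rw [← Matrix.transpose_mul, h1, Matrix.transpose_one]
    calc (g⁻¹).1 * (g.1 * Q * g.1ᵀ) * (g⁻¹).1ᵀ
        = ((g⁻¹).1 * g.1) * Q * (g.1ᵀ * (g⁻¹).1ᵀ) := by simp only [Matrix.mul_assoc]
      _ = Q := by rw [h1, h2, Matrix.one_mul, Matrix.mul_one]
  right_inv Q := by
    have h1 : g.1 * (g⁻¹).1 = 1 := by
      rw [← Matrix.SpecialLinearGroup.coe_mul, mul_inv_cancel]; rfl
    have h2 : (g⁻¹).1ᵀ * g.1ᵀ = 1 := by
      rw [← Matrix.transpose_mul, h1, Matrix.transpose_one]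
    calc g.1 * ((g⁻¹).1 * Q * (g⁻¹).1ᵀ) * g.1ᵀ
        = (g.1 * (g⁻¹).1) * Q * ((g⁻¹).1ᵀ * g.1ᵀ) := by simp only [Matrix.mul_assoc]
      _ = Q := by rw [h1, h2, Matrix.one_mul, Matrix.mul_one]

@[simp] lemma piFun_apply (g : SL(2, ℤ)) (Q : Frm) : piFun g Q = g.1 * Q * g.1ᵀ := rfl

/-- The congruence action as a homomorphism to permutations. -/
def pi : SL(2, ℤ) →* Equiv.Perm Frm where
  toFun := piFun
  map_one' := by
    ext Q : 1
    simp
  map_mul' g h := by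
    ext Q : 1
    simp [Matrix.mul_assoc, Matrix.transpose_mul]

@[simp] lemma pi_apply (g : SL(2, ℤ)) (Q : Frm) : pi g Q = g.1 * Q * g.1ᵀ := rfl

lemma pi_vecMulVec (g : SL(2, ℤ)) (v w : Fin 2 → ℤ) :
    pi g (Matrix.vecMulVec v w) = Matrix.vecMulVec (g.1 *ᵥ v) (g.1 *ᵥ w) := by
  rw [pi_apply, Matrix.mul_vecMulVec, Matrix.vecMulVec_mul, Matrix.vecMul_transpose]

lemma pi_neg_one : pi (-1 : SL(2, ℤ)) = 1 := by
  ext Q : 1
  simp

/-- `R = S * T`. -/
abbrev R : SL(2, ℤ) := S * T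

lemma S_sq : (S : SL(2, ℤ)) ^ 2 = -1 := by decide

lemma R_cube : (R : SL(2, ℤ)) ^ 3 = -1 := by decide

lemma pi_S_sq : pi S ^ 2 = 1 := by
  rw [← map_pow, S_sq, pi_neg_one]

lemma pi_R_cube : pi R ^ 3 = 1 := by
  rw [← map_pow, R_cube, pi_neg_one]

/-- The ping-pong sets. -/
def Xpos : Set Frm := {Q | ∃ v : Fin 2 → ℤ, 0 < v 0 * v 1 ∧ Q = Matrix.vecMulVec v v}

def Xneg : Set Frm := {Q | ∃ v : Fin 2 → ℤ, v 0 * v 1 < 0 ∧ Q = Matrix.vecMulVec v v}

lemma S_mulVec (v : Fin 2 → ℤ) : (S : SL(2, ℤ)).1 *ᵥ v = ![-v 1, v 0] := by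
  ext i
  fin_cases i <;> simp [ModularGroup.coe_S, Matrix.mulVec, dotProduct, Fin.sum_univ_two]

lemma R_mulVec (v : Fin 2 → ℤ) : (R : SL(2, ℤ)).1 *ᵥ v = ![-v 1, v 0 + v 1] := by
  ext i
  fin_cases i <;> simp [R, ModularGroup.coe_S, ModularGroup.coe_T, Matrix.mulVec, dotProduct,
    Fin.sum_univ_two, Matrix.mul_apply]

lemma R_sq_mulVec (v : Fin 2 → ℤ) :
    ((R : SL(2, ℤ)) ^ 2).1 *ᵥ v = ![-v 0 - v 1, v 0] := by
  ext i
  fin_cases i
  · simp [pow_two, R, ModularGroup.coe_S, ModularGroup.coe_T, Matrix.mulVec, dotProduct,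
      Fin.sum_univ_two, Matrix.mul_apply]
    ring
  · simp [pow_two, R, ModularGroup.coe_S, ModularGroup.coe_T, Matrix.mulVec, dotProduct,
      Fin.sum_univ_two, Matrix.mul_apply]

lemma pi_S_Xneg {Q : Frm} (hQ : Q ∈ Xneg) : pi S Q ∈ Xpos := by
  obtain ⟨v, hv, rfl⟩ := hQ
  refine ⟨(S : SL(2, ℤ)).1 *ᵥ v, ?_, pi_vecMulVec _ _ _⟩
  rw [S_mulVec]
  simp only [Matrix.cons_val_zero, Matrix.cons_val_one]
  nlinarith

lemma pi_R_Xpos {Q : Frm} (hQ : Q ∈ Xpos) : pi R Q ∈ Xneg := by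
  obtain ⟨v, hv, rfl⟩ := hQ
  refine ⟨(R : SL(2, ℤ)).1 *ᵥ v, ?_, pi_vecMulVec _ _ _⟩
  rw [R_mulVec]
  simp only [Matrix.cons_val_zero, Matrix.cons_val_one]
  nlinarith [sq_nonneg (v 1)]

lemma pi_R_sq_Xpos {Q : Frm} (hQ : Q ∈ Xpos) : (pi R ^ 2) Q ∈ Xneg := by
  obtain ⟨v, hv, rfl⟩ := hQ
  rw [← map_pow]
  refine ⟨((R : SL(2, ℤ)) ^ 2).1 *ᵥ v, ?_, pi_vecMulVec _ _ _⟩
  rw [R_sq_mulVec]
  simp only [Matrix.cons_val_zero, Matrix.cons_val_one]
  nlinarith [sq_nonneg (v 0)]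

lemma Xpos_Xneg_disjoint : Disjoint Xpos Xneg := by
  rw [Set.disjoint_left]
  rintro Q ⟨v, hv, rfl⟩ ⟨w, hw, h⟩
  have := congrFun (congrFun h 0) 1
  simp only [Matrix.vecMulVec_apply] at this
  omega

lemma Xpos_nonempty : Xpos.Nonempty :=
  ⟨Matrix.vecMulVec ![1, 1] ![1, 1], ![1, 1], by simp, rfl⟩

lemma Xneg_nonempty : Xneg.Nonempty :=
  ⟨Matrix.vecMulVec ![1, -1] ![1, -1], ![1, -1], by simp, rfl⟩

lemma pi_S_ne_one : pi S ≠ 1 := by
  intro h
  obtain ⟨Q, hQ⟩ := Xneg_nonempty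
  have h1 : pi S Q ∈ Xpos := pi_S_Xneg hQ
  rw [h] at h1
  exact Set.disjoint_left.mp Xpos_Xneg_disjoint h1 hQ

lemma pi_R_ne_one : pi R ≠ 1 := by
  intro h
  obtain ⟨Q, hQ⟩ := Xpos_nonempty
  have h1 : pi R Q ∈ Xneg := pi_R_Xpos hQ
  rw [h] at h1
  exact Set.disjoint_left.mp Xpos_Xneg_disjoint hQ h1

lemma orderOf_pi_S : orderOf (pi S) = 2 :=
  haveI : Fact (Nat.Prime 2) := ⟨Nat.prime_two⟩
  orderOf_eq_prime pi_S_sq pi_S_ne_one

lemma orderOf_pi_R : orderOf (pi R) = 3 :=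
  haveI : Fact (Nat.Prime 3) := ⟨Nat.prime_three⟩
  orderOf_eq_prime pi_R_cube pi_R_ne_one

section cyclic

variable {G : Type*} [Group G]

lemma eq_of_mem_zpowers_sq {g h : G} (hg : g ^ 2 = 1) (hh : h ∈ Subgroup.zpowers g) :
    h = 1 ∨ h = g := by
  obtain ⟨k, hk'⟩ := Subgroup.mem_zpowers_iff.mp hh
  subst hk'
  have hk : k = 2 * (k / 2) + k % 2 := (Int.mul_ediv_add_emod k 2).symm
  have h2 : g ^ (2 * (k / 2)) = 1 := by
    rw [_root_.zpow_mul, zpow_ofNat, hg, _root_.one_zpow]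
  rcases Int.emod_two_eq_zero_or_one k with h0 | h1
  · left
    rw [hk, h0, add_zero, h2]
  · right
    rw [hk, h1, _root_.zpow_add, h2, one_mul, zpow_one]

lemma eq_of_mem_zpowers_cube {g h : G} (hg : g ^ 3 = 1) (hh : h ∈ Subgroup.zpowers g) :
    h = 1 ∨ h = g ∨ h = g ^ 2 := by
  obtain ⟨k, hk'⟩ := Subgroup.mem_zpowers_iff.mp hh
  subst hk'
  have hk : k = 3 * (k / 3) + k % 3 := (Int.mul_ediv_add_emod k 3).symm
  have h2 : g ^ (3 * (k / 3)) = 1 := by
    rw [_root_.zpow_mul, zpow_ofNat, hg, _root_.one_zpow]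
  have h3 : k % 3 = 0 ∨ k % 3 = 1 ∨ k % 3 = 2 := by omega
  rcases h3 with h0 | h1 | h1
  · left
    rw [hk, h0, add_zero, h2]
  · right; left
    rw [hk, h1, _root_.zpow_add, h2, one_mul, zpow_one]
  · right; right
    rw [hk, h1, _root_.zpow_add, h2, one_mul]
    exact zpow_ofNat g 2

end cyclic

/-- The two generators, indexed by `Bool`. -/
def gen (b : Bool) : Equiv.Perm Frm := cond b (pi R) (pi S)

/-- The two cyclic subgroups. -/
def K (b : Bool) : Subgroup (Equiv.Perm Frm) := Subgroup.zpowers (gen b)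

/-- The ping-pong sets, indexed by `Bool`. -/
def X (b : Bool) : Set Frm := cond b Xneg Xpos

open scoped Pointwise in
lemma pingpong : Pairwise fun i j : Bool => ∀ h : K i, h ≠ 1 → ((K i).subtype h) • X j ⊆ X i := by
  intro i j hij h hh
  rintro _ ⟨Q, hQ, rfl⟩
  have hh' : (h : Equiv.Perm Frm) ≠ 1 := fun h1 => hh (Subtype.ext h1)
  cases i <;> cases j
  · exact absurd rfl hij
  · -- `i = false` (the `S`-group), `j = true`
    rcases eq_of_mem_zpowers_sq pi_S_sq h.2 with h1 | h1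
    · exact absurd h1 hh'
    · change (h : Equiv.Perm Frm) Q ∈ Xpos
      rw [h1]
      exact pi_S_Xneg hQ
  · rcases eq_of_mem_zpowers_cube pi_R_cube h.2 with h1 | h1 | h1
    · exact absurd h1 hh'
    · change (h : Equiv.Perm Frm) Q ∈ Xneg
      rw [h1]
      exact pi_R_Xpos hQ
    · change (h : Equiv.Perm Frm) Q ∈ Xneg
      rw [h1]
      exact pi_R_sq_Xpos hQ
  · exact absurd rfl hij

open Cardinal in
lemma card_K_true : (3 : Cardinal) ≤ #(K true) := by
  have hinj : Function.Injective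
      (fun i : Fin 3 => (⟨pi R ^ (i : ℕ), Subgroup.npow_mem_zpowers _ _⟩ : K true)) := by
    intro i j hij
    have h1 : pi R ^ (i : ℕ) = pi R ^ (j : ℕ) := congrArg Subtype.val hij
    have h2 := pow_injOn_Iio_orderOf (x := pi R)
      (by rw [orderOf_pi_R]; exact i.2) (by rw [orderOf_pi_R]; exact j.2) h1
    exact Fin.ext h2
  have := Cardinal.mk_le_of_injective hinj
  simpa using this

/-- The free product of the two cyclic groups embeds. -/
theorem lift_injective :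
    Function.Injective (Monoid.CoprodI.lift (fun b : Bool => (K b).subtype)) := by
  refine Monoid.CoprodI.lift_injective_of_ping_pong (fun b : Bool => (K b).subtype)
    (Or.inr ⟨true, card_K_true⟩) X ?_ ?_ pingpong
  · intro b
    cases b
    · exact Xpos_nonempty
    · exact Xneg_nonempty
  · intro i j hij
    cases i <;> cases j
    · exact absurd rfl hij
    · exact Xpos_Xneg_disjoint
    · exact Xpos_Xneg_disjoint.symm
    · exact absurd rfl hij

/-- `SL(2, ℤ)` is generated by `S` and `R = S * T`. -/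
lemma closure_S_R : Subgroup.closure ({S, R} : Set SL(2, ℤ)) = ⊤ := by
  rw [eq_top_iff, ← SpecialLinearGroup.SL2Z_generators, Subgroup.closure_le]
  rintro g (rfl | rfl)
  · exact Subgroup.subset_closure (Set.mem_insert _ _)
  · have h1 : (S : SL(2, ℤ)) ∈ Subgroup.closure ({S, R} : Set SL(2, ℤ)) :=
      Subgroup.subset_closure (Set.mem_insert _ _)
    have h2 : (R : SL(2, ℤ)) ∈ Subgroup.closure ({S, R} : Set SL(2, ℤ)) :=
      Subgroup.subset_closure (Set.mem_insert_of_mem _ rfl)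
    have h3 : (T : SL(2, ℤ)) = S⁻¹ * R := by
      change T = S⁻¹ * (S * T)
      rw [inv_mul_cancel_left]
    rw [SetLike.mem_coe, h3]
    exact mul_mem (inv_mem h1) h2

/-- Two homomorphisms out of `SL(2, ℤ)` agreeing on `S` and `S * T` are equal. -/
theorem hom_ext {H : Type*} [Group H] (f g : SL(2, ℤ) →* H) (hS : f S = g S)
    (hR : f (S * T) = g (S * T)) : f = g := by
  refine MonoidHom.eq_of_eqOn_dense closure_S_R ?_
  rintro x (rfl | rfl)
  · exact hS
  · exact hR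

lemma pi_mem_range (g : SL(2, ℤ)) :
    pi g ∈ (Monoid.CoprodI.lift (fun b : Bool => (K b).subtype)).range := by
  have hle : Subgroup.closure ({S, R} : Set SL(2, ℤ)) ≤
      (Monoid.CoprodI.lift (fun b : Bool => (K b).subtype)).range.comap pi := by
    rw [Subgroup.closure_le]
    rintro x (rfl | rfl)
    · refine ⟨Monoid.CoprodI.of (i := false) ⟨pi S, Subgroup.mem_zpowers _⟩, ?_⟩
      rw [Monoid.CoprodI.lift_of]
      rfl
    · refine ⟨Monoid.CoprodI.of (i := true) ⟨pi R, Subgroup.mem_zpowers _⟩, ?_⟩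
      rw [Monoid.CoprodI.lift_of]
      rfl
  rw [closure_S_R] at hle
  exact hle (Subgroup.mem_top g)

section target

variable {H : Type*} [Group H]

/-- The generator of `K b`. -/
def genK (b : Bool) : K b := ⟨gen b, Subgroup.mem_zpowers _⟩

lemma genK_gen (b : Bool) (x : K b) : x ∈ Subgroup.zpowers (genK b) := by
  obtain ⟨k, hk⟩ := x.2
  refine ⟨k, Subtype.ext ?_⟩
  rw [Subgroup.coe_zpow]
  exact hk

lemma orderOf_genK (b : Bool) : orderOf (genK b) = cond b 3 2 := by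
  rw [← Subgroup.orderOf_coe]
  cases b
  · exact orderOf_pi_S
  · exact orderOf_pi_R

/-- **Universal property of `PSL(2, ℤ) = C₂ ∗ C₃`**, stated for `SL(2, ℤ)`. -/
theorem exists_hom (s r : H) (hs : s ^ 2 = 1) (hr : r ^ 3 = 1) :
    ∃ f : SL(2, ℤ) →* H, f S = s ∧ f (S * T) = r := by
  classical
  have hord : ∀ b : Bool, orderOf (cond b r s) ∣ orderOf (genK b) := by
    intro b
    rw [orderOf_genK]
    cases b
    · exact orderOf_dvd_of_pow_eq_one hs
    · exact orderOf_dvd_of_pow_eq_one hr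
  let ψ : ∀ b : Bool, K b →* H := fun b =>
    monoidHomOfForallMemZpowers (g := genK b) (genK_gen b) (g' := cond b r s) (hord b)
  have hψ : ∀ b, ψ b (genK b) = cond b r s := fun b =>
    monoidHomOfForallMemZpowers_apply_gen (genK_gen b) (hord b)
  let Φ := Monoid.CoprodI.lift (fun b : Bool => (K b).subtype)
  let e : Monoid.CoprodI (fun b : Bool => K b) ≃* Φ.range := MonoidHom.ofInjective lift_injective
  let π' : SL(2, ℤ) →* Φ.range := pi.codRestrict Φ.range pi_mem_range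
  let f : SL(2, ℤ) →* H := (Monoid.CoprodI.lift ψ).comp (e.symm.toMonoidHom.comp π')
  have key : ∀ b : Bool, ∀ g : SL(2, ℤ), pi g = gen b → f g = cond b r s := by
    intro b g hg
    have h1 : π' g = e (Monoid.CoprodI.of (genK b)) := by
      apply Subtype.ext
      change pi g = Φ (Monoid.CoprodI.of (genK b))
      rw [hg]
      change gen b = Monoid.CoprodI.lift (fun b : Bool => (K b).subtype) (Monoid.CoprodI.of (genK b))
      rw [Monoid.CoprodI.lift_of]
      rfl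
    change Monoid.CoprodI.lift ψ (e.symm (π' g)) = _
    rw [h1, MulEquiv.symm_apply_apply, Monoid.CoprodI.lift_of, hψ]
  exact ⟨f, key false S rfl, key true (S * T) rfl⟩

end target

end Fermat.Agent.P7.Psl2Free
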