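import Mathlib
import Fermat.Agent.P7.Psl2Free

namespace Fermat.Agent.P7.PdExt

universe u v w

set_option linter.unusedSectionVars false

section HeisDef

variable {X : Type v} {k : Type w} [CommRing k]

/-- The action of a permutation on functions: `(p F)(x) = F (p⁻¹ x)`. -/
def pact (p : Equiv.Perm X) (F : X → k) : X → k := fun x => F (p⁻¹ x)

@[simp] theorem pact_apply (p : Equiv.Perm X) (F : X → k) (x : X) : pact p F x = F (p⁻¹ x) := rfl

theorem pact_one (F : X → k) : pact 1 F = F := by
  funext x; simp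

theorem pact_mul (p q : Equiv.Perm X) (F : X → k) : pact (p * q) F = pact p (pact q F) := by
  funext x; simp [mul_inv_rev]

theorem pact_add (p : Equiv.Perm X) (F F' : X → k) : pact p (F + F') = pact p F + pact p F' := rfl

theorem pact_sub (p : Equiv.Perm X) (F F' : X → k) : pact p (F - F') = pact p F - pact p F' := rfl

theorem pact_neg (p : Equiv.Perm X) (F : X → k) : pact p (-F) = -pact p F := rfl

theorem pact_zero (p : Equiv.Perm X) : pact p (0 : X → k) = 0 := rfl

theorem pact_mulf (p : Equiv.Perm X) (F F' : X → k) : pact p (F * F') = pact p F * pact p F' := rfl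

theorem pact_inv_pact (p : Equiv.Perm X) (F : X → k) : pact p⁻¹ (pact p F) = F := by
  rw [← pact_mul, inv_mul_cancel, pact_one]

theorem pact_pact_inv (p : Equiv.Perm X) (F : X → k) : pact p (pact p⁻¹ F) = F := by
  rw [← pact_mul, mul_inv_cancel, pact_one]

/-- The Heisenberg-type group `(M × M × M) ⋊ Perm X`, `M = X → k`. -/
@[ext] structure Heis (X : Type v) (k : Type w) where
  a : X → k
  b : X → k
  c : X → k
  p : Equiv.Perm X

namespace Heis

instance : Mul (Heis X k) :=
  ⟨fun x y => ⟨x.a + pact x.p y.a, x.b + pact x.p y.b,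
    x.c + pact x.p y.c - x.a * pact x.p y.b, x.p * y.p⟩⟩

instance : One (Heis X k) := ⟨⟨0, 0, 0, 1⟩⟩

instance : Inv (Heis X k) :=
  ⟨fun x => ⟨-pact x.p⁻¹ x.a, -pact x.p⁻¹ x.b, -pact x.p⁻¹ (x.c + x.a * x.b), x.p⁻¹⟩⟩

@[simp] theorem mul_a (x y : Heis X k) : (x * y).a = x.a + pact x.p y.a := rfl
@[simp] theorem mul_b (x y : Heis X k) : (x * y).b = x.b + pact x.p y.b := rfl
@[simp] theorem mul_c (x y : Heis X k) :
    (x * y).c = x.c + pact x.p y.c - x.a * pact x.p y.b := rfl
@[simp] theorem mul_p (x y : Heis X k) : (x * y).p = x.p * y.p := rfl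
@[simp] theorem one_a : (1 : Heis X k).a = 0 := rfl
@[simp] theorem one_b : (1 : Heis X k).b = 0 := rfl
@[simp] theorem one_c : (1 : Heis X k).c = 0 := rfl
@[simp] theorem one_p : (1 : Heis X k).p = 1 := rfl
@[simp] theorem inv_a (x : Heis X k) : (x⁻¹).a = -pact x.p⁻¹ x.a := rfl
@[simp] theorem inv_b (x : Heis X k) : (x⁻¹).b = -pact x.p⁻¹ x.b := rfl
@[simp] theorem inv_c (x : Heis X k) : (x⁻¹).c = -pact x.p⁻¹ (x.c + x.a * x.b) := rfl
@[simp] theorem inv_p (x : Heis X k) : (x⁻¹).p = x.p⁻¹ := rfl

instance : Group (Heis X k) :=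
  Group.ofLeftAxioms
    (by
      intro x y z
      apply Heis.ext
      · simp only [mul_a, mul_p, pact_mul, pact_add, add_assoc]
      · simp only [mul_b, mul_p, pact_mul, pact_add, add_assoc]
      · simp only [mul_a, mul_b, mul_c, mul_p, pact_mul, pact_add, pact_sub, pact_mulf]
        ring
      · simp only [mul_p, mul_assoc])
    (by
      intro x
      apply Heis.ext
      · simp only [mul_a, one_a, one_p, pact_one, zero_add]
      · simp only [mul_b, one_b, one_p, pact_one, zero_add]
      · simp only [mul_c, one_a, one_c, one_p, pact_one, zero_add, zero_mul, sub_zero]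
      · simp only [mul_p, one_p, one_mul])
    (by
      intro x
      apply Heis.ext
      · simp only [mul_a, inv_a, inv_p, one_a, neg_add_cancel]
      · simp only [mul_b, inv_b, inv_p, one_b, neg_add_cancel]
      · simp only [mul_c, inv_a, inv_c, inv_p, one_c, pact_add, pact_mulf]
        ring
      · simp only [mul_p, inv_p, one_p, inv_mul_cancel])

end Heis

end HeisDef


section Main

variable {G : Type u} [Group G] {X : Type v} [MulAction G X] {k : Type w} [CommRing k]

/-- The left action of `G` on functions on a `G`-set: `(g F)(x) = F (g⁻¹ x)`. -/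
def act (g : G) (F : X → k) : X → k := pact (MulAction.toPermHom G X g) F

theorem act_apply (g : G) (F : X → k) (x : X) : act g F x = F (g⁻¹ • x) := by
  show F ((MulAction.toPermHom G X g)⁻¹ x) = F (g⁻¹ • x)
  rw [← map_inv]
  rfl

theorem act_one (F : X → k) : act (1 : G) F = F := by
  rw [act, map_one, pact_one]

theorem act_mul (g h : G) (F : X → k) : act (g * h) F = act g (act h F) := by
  rw [act, map_mul, pact_mul]; rfl

theorem act_add (g : G) (F F' : X → k) : act g (F + F') = act g F + act g F' := rfl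

theorem act_sub (g : G) (F F' : X → k) : act g (F - F') = act g F - act g F' := rfl

theorem act_neg (g : G) (F : X → k) : act g (-F) = -act g F := rfl

theorem act_zero (g : G) : act g (0 : X → k) = 0 := rfl

theorem act_mulf (g : G) (F F' : X → k) : act g (F * F') = act g F * act g F' := rfl

theorem act_of_smul_eq (g : G) (hg : ∀ x : X, g • x = x) (F : X → k) : act g F = F := by
  funext x
  rw [act_apply]
  congr 1
  have := hg (g⁻¹ • x)
  rw [smul_inv_smul] at this
  exact this.symm

/-- `M`-valued 1-cocycles for the action `act`. -/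
def IsCocycle (z : G → X → k) : Prop := ∀ g h : G, z (g * h) = z g + act g (z h)

theorem IsCocycle.map_one {z : G → X → k} (hz : IsCocycle z) : z 1 = 0 := by
  have h := hz 1 1
  rw [mul_one, act_one] at h
  exact left_eq_add.mp h

theorem IsCocycle.map_inv {z : G → X → k} (hz : IsCocycle z) (g : G) :
    z g⁻¹ = -act g⁻¹ (z g) := by
  have h := hz g⁻¹ g
  rw [inv_mul_cancel, hz.map_one] at h
  exact eq_neg_of_add_eq_zero_left h.symm

/-- Two cocycles agreeing on a generating set are equal. -/
theorem cocycle_ext {S R : G} (hgen : Subgroup.closure {S, R} = ⊤) {z z' : G → X → k}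
    (hz : IsCocycle z) (hz' : IsCocycle z') (hS : z S = z' S) (hR : z R = z' R) : z = z' := by
  funext g
  have hg : g ∈ Subgroup.closure ({S, R} : Set G) := by rw [hgen]; trivial
  induction hg using Subgroup.closure_induction with
  | mem x hx =>
    rcases hx with rfl | rfl
    · exact hS
    · exact hR
  | one => rw [hz.map_one, hz'.map_one]
  | mul x y _ _ hx hy => rw [hz x y, hz' x y, hx, hy]
  | inv x _ hx => rw [hz.map_inv, hz'.map_inv, hx]

/-- The projection of the Heisenberg-type group to the permutation group. -/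
def Heis.pHom (X : Type v) (k : Type w) [CommRing k] : Heis X k →* Equiv.Perm X where
  toFun x := x.p
  map_one' := rfl
  map_mul' _ _ := rfl

variable (S R : G)

/-- A homomorphism to the Heisenberg-type group with prescribed values at `S`, `R`, lying over
the permutation action. -/
theorem exists_hom_heis
    (UP : ∀ {H : Type (max v w)} [Group H] (s r : H), s ^ 2 = 1 → r ^ 3 = 1 →
      ∃ f : G →* H, f S = s ∧ f R = r)
    (hgen : Subgroup.closure {S, R} = ⊤)
    (s r : Heis X k) (hs : s ^ 2 = 1) (hr : r ^ 3 = 1)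
    (hsp : s.p = MulAction.toPermHom G X S) (hrp : r.p = MulAction.toPermHom G X R) :
    ∃ f : G →* Heis X k, f S = s ∧ f R = r ∧ ∀ g, (f g).p = MulAction.toPermHom G X g := by
  obtain ⟨f, hfS, hfR⟩ := UP s r hs hr
  refine ⟨f, hfS, hfR, ?_⟩
  have h : (Heis.pHom X k).comp f = MulAction.toPermHom G X := by
    apply MonoidHom.eq_of_eqOn_dense hgen
    intro x hx
    rcases hx with rfl | rfl
    · show (f x).p = _
      rw [hfS, hsp]
    · show (f x).p = _
      rw [hfR, hrp]
  intro g
  exact congrArg (fun F : G →* Equiv.Perm X => F g) h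

theorem toPermHom_sq (hS2 : ∀ x : X, (S * S) • x = x) :
    MulAction.toPermHom G X S * MulAction.toPermHom G X S = 1 := by
  rw [← map_mul]
  ext x
  exact hS2 x

theorem toPermHom_cube (hR3 : ∀ x : X, (R * R * R) • x = x) :
    MulAction.toPermHom G X R * MulAction.toPermHom G X R * MulAction.toPermHom G X R = 1 := by
  rw [← map_mul, ← map_mul]
  ext x
  exact hR3 x

/-- **(CE1)** A cocycle with prescribed values at the two generators. -/
theorem exists_cocycle
    (UP : ∀ {H : Type (max v w)} [Group H] (s r : H), s ^ 2 = 1 → r ^ 3 = 1 →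
      ∃ f : G →* H, f S = s ∧ f R = r)
    (hgen : Subgroup.closure {S, R} = ⊤)
    (hS2 : ∀ x : X, (S * S) • x = x) (hR3 : ∀ x : X, (R * R * R) • x = x)
    (a b : X → k) (ha : a + act S a = 0) (hb : b + act R b + act R (act R b) = 0) :
    ∃ z : G → X → k, IsCocycle z ∧ z S = a ∧ z R = b := by
  have hσ := toPermHom_sq (X := X) S hS2
  have hρ := toPermHom_cube (X := X) R hR3
  obtain ⟨f, hfS, hfR, hfp⟩ := exists_hom_heis (X := X) (k := k) S R UP hgen
    ⟨a, 0, 0, MulAction.toPermHom G X S⟩ ⟨b, 0, 0, MulAction.toPermHom G X R⟩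
    (by
      rw [pow_two]
      apply Heis.ext
      · exact ha
      · simp only [Heis.mul_b, Heis.one_b, pact_zero, add_zero]
      · simp only [Heis.mul_c, Heis.one_c, pact_zero, add_zero, mul_zero, sub_zero]
      · exact hσ)
    (by
      rw [pow_succ, pow_two]
      apply Heis.ext
      · show b + pact _ b + pact (_ * _) b = 0
        rw [pact_mul]
        exact hb
      · simp only [Heis.mul_b, Heis.one_b, pact_zero, add_zero]
      · simp only [Heis.mul_c, Heis.one_c, pact_zero, add_zero, mul_zero, sub_zero]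
      · exact hρ)
    rfl rfl
  refine ⟨fun g => (f g).a, ?_, ?_, ?_⟩
  · intro g h
    show (f (g * h)).a = (f g).a + act g (f h).a
    rw [map_mul, Heis.mul_a, hfp g]
    rfl
  · show (f S).a = a
    rw [hfS]
  · show (f R).a = b
    rw [hfR]

/-- **(CE2)** A primitive of the cup product of two cocycles, with prescribed values at the two
generators. -/
theorem exists_primitive
    (UP : ∀ {H : Type (max v w)} [Group H] (s r : H), s ^ 2 = 1 → r ^ 3 = 1 →
      ∃ f : G →* H, f S = s ∧ f R = r)
    (hgen : Subgroup.closure {S, R} = ⊤)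
    (hS2 : ∀ x : X, (S * S) • x = x) (hR3 : ∀ x : X, (R * R * R) • x = x)
    (z z' : G → X → k) (hz : IsCocycle z) (hz' : IsCocycle z') (m1 m2 : X → k)
    (h1 : z S = act S m1 - m1) (h2 : z R = act R m2 - m2)
    (h1' : z' S + act S (z' S) = 0)
    (h2' : z' R + act R (z' R) + act R (act R (z' R)) = 0) :
    ∃ U : G → X → k, (∀ g h : G, U (g * h) = U g + act g (U h) - z g * act g (z' h)) ∧
      U S = m1 * z' S ∧ U R = m2 * z' R := by
  have hσ := toPermHom_sq (X := X) S hS2
  have hρ := toPermHom_cube (X := X) R hR3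
  have hSS : ∀ F : X → k, act S (act S F) = F := fun F => by
    rw [← act_mul]; exact act_of_smul_eq _ hS2 F
  have hRRR : ∀ F : X → k, act R (act R (act R F)) = F := fun F => by
    rw [← act_mul, ← act_mul]; exact act_of_smul_eq _ hR3 F
  obtain ⟨f, hfS, hfR, hfp⟩ := exists_hom_heis (X := X) (k := k) S R UP hgen
    ⟨z S, z' S, m1 * z' S, MulAction.toPermHom G X S⟩
    ⟨z R, z' R, m2 * z' R, MulAction.toPermHom G X R⟩
    (by
      rw [pow_two]
      apply Heis.ext
      · show z S + act S (z S) = 0
        rw [h1, act_sub, hSS]; abel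
      · exact h1'
      · show m1 * z' S + act S (m1 * z' S) - z S * act S (z' S) = 0
        have e : act S (z' S) = - z' S := eq_neg_of_add_eq_zero_right h1'
        rw [act_mulf, h1, e]
        ring
      · exact hσ)
    (by
      rw [pow_succ, pow_two]
      apply Heis.ext
      · show z R + act R (z R) + pact (_ * _) (z R) = 0
        rw [pact_mul]
        show z R + act R (z R) + act R (act R (z R)) = 0
        simp only [h2, act_sub, hRRR]; abel
      · show z' R + act R (z' R) + pact (_ * _) (z' R) = 0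
        rw [pact_mul]
        exact h2'
      · show m2 * z' R + act R (m2 * z' R) - z R * act R (z' R) + pact (_ * _) (m2 * z' R)
          - (z R + act R (z R)) * pact (_ * _) (z' R) = 0
        rw [pact_mul, pact_mul]
        show m2 * z' R + act R (m2 * z' R) - z R * act R (z' R) + act R (act R (m2 * z' R))
          - (z R + act R (z R)) * act R (act R (z' R)) = 0
        have e : act R (act R (z' R)) = - z' R - act R (z' R) := by
          linear_combination h2'
        simp only [act_mulf, h2, act_sub, e]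
        ring
      · exact hρ)
    rfl rfl
  have ha : (fun g => (f g).a) = z := by
    apply cocycle_ext hgen _ hz
    · show (f S).a = z S
      rw [hfS]
    · show (f R).a = z R
      rw [hfR]
    · intro g h
      show (f (g * h)).a = (f g).a + act g (f h).a
      rw [map_mul, Heis.mul_a, hfp g]
      rfl
  have hb : (fun g => (f g).b) = z' := by
    apply cocycle_ext hgen _ hz'
    · show (f S).b = z' S
      rw [hfS]
    · show (f R).b = z' R
      rw [hfR]
    · intro g h
      show (f (g * h)).b = (f g).b + act g (f h).b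
      rw [map_mul, Heis.mul_b, hfp g]
      rfl
  refine ⟨fun g => (f g).c, ?_, ?_, ?_⟩
  · intro g h
    show (f (g * h)).c = (f g).c + act g (f h).c - z g * act g (z' h)
    rw [map_mul, Heis.mul_c, hfp g, ← ha, ← hb]
    rfl
  · show (f S).c = m1 * z' S
    rw [hfS]
  · show (f R).c = m2 * z' R
    rw [hfR]

/-- Evaluation of the primitive at a point fixed by the first factor: the lift relation
`u (γ₁ γ₂) = u γ₁ + u γ₂ - φ γ₁ * ψ γ₂` on the stabiliser of `x₀`. -/
theorem primitive_eval {U z z' : G → X → k}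
    (hU : ∀ g h : G, U (g * h) = U g + act g (U h) - z g * act g (z' h)) (x₀ : X) (γ₁ γ₂ : G)
    (h₁ : γ₁ • x₀ = x₀) :
    U (γ₁ * γ₂) x₀ = U γ₁ x₀ + U γ₂ x₀ - z γ₁ x₀ * z' γ₂ x₀ := by
  have h := congrFun (hU γ₁ γ₂) x₀
  have e : γ₁⁻¹ • x₀ = x₀ := by
    conv_lhs => rw [← h₁]
    rw [inv_smul_smul]
  simp only [Pi.add_apply, Pi.sub_apply, Pi.mul_apply, act_apply, e] at h
  exact h

/-- Evaluation of a cocycle at a fixed point is additive on the stabiliser. -/
theorem cocycle_eval {z : G → X → k} (hz : IsCocycle z) (x₀ : X) (γ₁ γ₂ : G)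
    (h₁ : γ₁ • x₀ = x₀) : z (γ₁ * γ₂) x₀ = z γ₁ x₀ + z γ₂ x₀ := by
  have h := congrFun (hz γ₁ γ₂) x₀
  have e : γ₁⁻¹ • x₀ = x₀ := by
    conv_lhs => rw [← h₁]
    rw [inv_smul_smul]
  simp only [Pi.add_apply, act_apply, e] at h
  exact h

end Main

section SL2Z

open scoped MatrixGroups
open ModularGroup

theorem S_mul_S : (S * S : SL(2, ℤ)) = -1 := by
  apply Subtype.ext
  simp only [Matrix.SpecialLinearGroup.coe_mul, ModularGroup.coe_S,
    Matrix.SpecialLinearGroup.coe_neg, Matrix.SpecialLinearGroup.coe_one]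
  ext i j
  fin_cases i <;> fin_cases j <;> simp [Matrix.mul_apply, Fin.sum_univ_two]

theorem ST_cube : (S * T * (S * T) * (S * T) : SL(2, ℤ)) = -1 := by
  apply Subtype.ext
  simp only [Matrix.SpecialLinearGroup.coe_mul, ModularGroup.coe_S, ModularGroup.coe_T,
    Matrix.SpecialLinearGroup.coe_neg, Matrix.SpecialLinearGroup.coe_one]
  ext i j
  fin_cases i <;> fin_cases j <;> simp [Matrix.mul_apply, Fin.sum_univ_two]

theorem closure_S_ST : Subgroup.closure ({S, S * T} : Set SL(2, ℤ)) = ⊤ := by
  rw [eq_top_iff, ← SpecialLinearGroup.SL2Z_generators, Subgroup.closure_le]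
  intro x hx
  rcases hx with rfl | rfl
  · exact Subgroup.subset_closure (Set.mem_insert _ _)
  · have h1 : (S : SL(2, ℤ)) ∈ Subgroup.closure ({S, S * T} : Set SL(2, ℤ)) :=
      Subgroup.subset_closure (Set.mem_insert _ _)
    have h2 : (S * T : SL(2, ℤ)) ∈ Subgroup.closure ({S, S * T} : Set SL(2, ℤ)) :=
      Subgroup.subset_closure (Set.mem_insert_of_mem _ rfl)
    have h3 := Subgroup.mul_mem _ (Subgroup.inv_mem _ h1) h2
    rwa [inv_mul_cancel_left] at h3

variable {X : Type v} [MulAction SL(2, ℤ) X] {k : Type w} [CommRing k]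

/-- **(CE1) for `SL(2, ℤ)`**, with the universal property as a hypothesis. -/
theorem exists_cocycle_SL2Z
    (UP : ∀ {H : Type (max v w)} [Group H] (s r : H), s ^ 2 = 1 → r ^ 3 = 1 →
      ∃ f : SL(2, ℤ) →* H, f S = s ∧ f (S * T) = r)
    (hneg : ∀ x : X, (-1 : SL(2, ℤ)) • x = x)
    (a b : X → k) (ha : a + act S a = 0)
    (hb : b + act (S * T) b + act (S * T) (act (S * T) b) = 0) :
    ∃ z : SL(2, ℤ) → X → k, IsCocycle z ∧ z S = a ∧ z (S * T) = b :=
  exists_cocycle S (S * T) UP closure_S_ST (fun x => by rw [S_mul_S]; exact hneg x)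
    (fun x => by rw [ST_cube]; exact hneg x) a b ha hb

/-- **(CE2) for `SL(2, ℤ)`**, with the universal property as a hypothesis. -/
theorem exists_primitive_SL2Z
    (UP : ∀ {H : Type (max v w)} [Group H] (s r : H), s ^ 2 = 1 → r ^ 3 = 1 →
      ∃ f : SL(2, ℤ) →* H, f S = s ∧ f (S * T) = r)
    (hneg : ∀ x : X, (-1 : SL(2, ℤ)) • x = x)
    (z z' : SL(2, ℤ) → X → k) (hz : IsCocycle z) (hz' : IsCocycle z') (m1 m2 : X → k)
    (h1 : z S = act S m1 - m1) (h2 : z (S * T) = act (S * T) m2 - m2)
    (h1' : z' S + act S (z' S) = 0)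
    (h2' : z' (S * T) + act (S * T) (z' (S * T)) + act (S * T) (act (S * T) (z' (S * T))) = 0) :
    ∃ U : SL(2, ℤ) → X → k,
      (∀ g h : SL(2, ℤ), U (g * h) = U g + act g (U h) - z g * act g (z' h)) ∧
      U S = m1 * z' S ∧ U (S * T) = m2 * z' (S * T) :=
  exists_primitive S (S * T) UP closure_S_ST (fun x => by rw [S_mul_S]; exact hneg x)
    (fun x => by rw [ST_cube]; exact hneg x) z z' hz hz' m1 m2 h1 h2 h1' h2'

/-- **(CE1) for `SL(2, ℤ)`, unconditional** (universal property from `Psl2Free.exists_hom`). -/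
theorem exists_cocycle_sl2z (hneg : ∀ x : X, (-1 : SL(2, ℤ)) • x = x)
    (a b : X → k) (ha : a + act S a = 0)
    (hb : b + act (S * T) b + act (S * T) (act (S * T) b) = 0) :
    ∃ z : SL(2, ℤ) → X → k, IsCocycle z ∧ z S = a ∧ z (S * T) = b :=
  exists_cocycle_SL2Z (fun s r hs hr => Fermat.Agent.P7.Psl2Free.exists_hom s r hs hr)
    hneg a b ha hb

/-- **(CE2) for `SL(2, ℤ)`, unconditional** (universal property from `Psl2Free.exists_hom`). -/
theorem exists_primitive_sl2z (hneg : ∀ x : X, (-1 : SL(2, ℤ)) • x = x)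
    (z z' : SL(2, ℤ) → X → k) (hz : IsCocycle z) (hz' : IsCocycle z') (m1 m2 : X → k)
    (h1 : z S = act S m1 - m1) (h2 : z (S * T) = act (S * T) m2 - m2)
    (h1' : z' S + act S (z' S) = 0)
    (h2' : z' (S * T) + act (S * T) (z' (S * T)) + act (S * T) (act (S * T) (z' (S * T))) = 0) :
    ∃ U : SL(2, ℤ) → X → k,
      (∀ g h : SL(2, ℤ), U (g * h) = U g + act g (U h) - z g * act g (z' h)) ∧
      U S = m1 * z' S ∧ U (S * T) = m2 * z' (S * T) :=
  exists_primitive_SL2Z (fun s r hs hr => Fermat.Agent.P7.Psl2Free.exists_hom s r hs hr)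
    hneg z z' hz hz' m1 m2 h1 h2 h1' h2'

/-- Uniqueness of cocycles on `SL(2, ℤ)` from their values at `S` and `S * T`. -/
theorem cocycle_ext_sl2z {z z' : SL(2, ℤ) → X → k} (hz : IsCocycle z) (hz' : IsCocycle z')
    (hS : z S = z' S) (hR : z (S * T) = z' (S * T)) : z = z' :=
  cocycle_ext closure_S_ST hz hz' hS hR

end SL2Z

end Fermat.Agent.P7.PdExt
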