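/-
P7 [PD-SYM] (helper42): the normalised symbol of a parabolic class and the pairing on
`V(Γ)`, for a finite index subgroup `Γ ≤ SL(2, ℤ)` containing `-1`.

Conventions (helper30 #2672/#2700, helper69 `Shap`, helper85 `PdModel`): left cosets
`X = SL(2, ℤ) ⧸ Γ`, `R = S * T`, `zc φ g x = φ (pkap g x)`, `σ a = a ∘ S`, `τ a = a ∘ R`,
the parabolic element is `R * S`.

* `VK Γ k`: homs `Γ → k` killing the `Γ`-elements conjugate to powers of `S`, `R`, `R * S`.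
* `IsSym φ n w`: the cocycle `zc φ - d n` takes the same value `w` at `S` and at `R`.
* existence, uniqueness modulo the radical, surjectivity (every `w ∈ W` is a symbol),
  injectivity;
* `pairV Γ k`: the pairing on `VK Γ k`, skew and nondegenerate.
-/
import Mathlib
import Fermat.Agent.S21.PermDim
import Fermat.Agent.P7.Shap
import Fermat.Agent.P7.PdModel
import Fermat.Agent.P7.PdExt
import Fermat.Prelude.Def_ModularCurve_PeriodMap

set_option autoImplicit false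

namespace Fermat.Agent.P7.PdSym

open scoped MatrixGroups
open ModularGroup (S T)
open Fermat.Agent.S21.PermDim
open Fermat.Agent.P7

/-! ### The action of `-1`, `S`, `R` on the coset space -/

section action

variable (Γ : Subgroup SL(2, ℤ))

theorem neg_one_smul_coset (hneg : -1 ∈ Γ) (x : SL(2, ℤ) ⧸ Γ) : (-1 : SL(2, ℤ)) • x = x := by
  induction x using QuotientGroup.induction_on with
  | H g =>
    rw [smul_coe_eq]
    have : (-1 : SL(2, ℤ)) * g = g * -1 := by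
      rw [neg_mul, one_mul, mul_neg, mul_one]
    rw [this]
    exact QuotientGroup.mk_mul_of_mem g hneg

theorem S_S_smul (hneg : -1 ∈ Γ) (x : SL(2, ℤ) ⧸ Γ) : (S : SL(2, ℤ)) • (S : SL(2, ℤ)) • x = x := by
  rw [← mul_smul, PdExt.S_mul_S, neg_one_smul_coset Γ hneg]

theorem R_R_R_smul (hneg : -1 ∈ Γ) (x : SL(2, ℤ) ⧸ Γ) :
    (S * T : SL(2, ℤ)) • (S * T : SL(2, ℤ)) • (S * T : SL(2, ℤ)) • x = x := by
  rw [smul_smul, smul_smul, PdExt.ST_cube, neg_one_smul_coset Γ hneg]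

end action

/-! ### Abstract cocycles in the convention of `Shap.zc` -/

section cocycle

variable {G : Type*} [Group G] (Γ : Subgroup G) {A : Type*} [AddCommGroup A]

/-- A function `c : G → (G ⧸ Γ → A)` satisfying the cocycle law of `Shap.zc`. -/
def IsZc (c : G → G ⧸ Γ → A) : Prop := ∀ (g h : G) (x : G ⧸ Γ), c (g * h) x = c g (h • x) + c h x

variable {Γ}

theorem IsZc.map_one {c : G → G ⧸ Γ → A} (hc : IsZc Γ c) (x : G ⧸ Γ) : c 1 x = 0 := by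
  have h := hc 1 1 x
  rw [mul_one, one_smul] at h
  exact (add_eq_left.mp h.symm)

theorem IsZc.map_inv {c : G → G ⧸ Γ → A} (hc : IsZc Γ c) (g : G) (x : G ⧸ Γ) :
    c g⁻¹ x = - c g (g⁻¹ • x) := by
  have h := hc g g⁻¹ x
  rw [mul_inv_cancel, hc.map_one] at h
  exact eq_neg_of_add_eq_zero_right h.symm

theorem isZc_zc {φ : Γ → A} (hφ : Shap.IsAdd φ) : IsZc Γ (Shap.zc Γ φ) :=
  fun g h x => Shap.zc_mul hφ g h x

variable (Γ)

/-- The additive function on `Γ` attached to a cocycle: evaluation at the base coset. -/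
def homOf (c : G → G ⧸ Γ → A) : Γ → A := fun γ => c (γ : G) (Shap.x0 Γ)

variable {Γ}

theorem IsZc.isAdd_homOf {c : G → G ⧸ Γ → A} (hc : IsZc Γ c) : Shap.IsAdd (homOf Γ c) := by
  intro a b
  show c ((a * b : Γ) : G) (Shap.x0 Γ) = c (a : G) (Shap.x0 Γ) + c (b : G) (Shap.x0 Γ)
  rw [Subgroup.coe_mul, hc, Shap.smul_x0]

theorem psec_smul_x0 (x : G ⧸ Γ) : psec Γ x • Shap.x0 Γ = x := by
  rw [smul_coe_eq, mul_one, psec_spec]

theorem inv_psec_smul (y : G ⧸ Γ) : (psec Γ y)⁻¹ • y = Shap.x0 Γ := by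
  rw [inv_smul_eq_iff, psec_smul_x0]

/-- The Shapiro cocycle of `homOf c` is cohomologous to `c`. -/
theorem IsZc.zc_homOf {c : G → G ⧸ Γ → A} (hc : IsZc Γ c) (g : G) (x : G ⧸ Γ) :
    Shap.zc Γ (homOf Γ c) g x
      = c g x - (c (psec Γ (g • x)) (Shap.x0 Γ) - c (psec Γ x) (Shap.x0 Γ)) := by
  show c ((pkap Γ g x : Γ) : G) (Shap.x0 Γ) = _
  have e : ((pkap Γ g x : Γ) : G) = (psec Γ (g • x))⁻¹ * g * psec Γ x := rfl
  rw [e, hc, hc, psec_smul_x0, hc.map_inv, inv_psec_smul]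
  abel

end cocycle

/-! ### Symbols -/

section symbols

variable (Γ : Subgroup SL(2, ℤ)) {A : Type*} [AddCommGroup A]

/-- `w` is a normalised symbol of `φ` (with normalising function `n`): the cocycle
`zc φ - d n` takes the value `w` both at `S` and at `R = S * T`. -/
def IsSym (φ : Γ → A) (n w : SL(2, ℤ) ⧸ Γ → A) : Prop :=
  ∀ x, w x = Shap.zc Γ φ S x - (n ((S : SL(2, ℤ)) • x) - n x) ∧
    w x = Shap.zc Γ φ (S * T) x - (n ((S * T : SL(2, ℤ)) • x) - n x)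

variable {Γ}

/-- A symbol is anti-invariant under `S`. -/
theorem IsSym.apply_S (hneg : -1 ∈ Γ) {φ : Γ → A} (hφ : Shap.IsAdd φ)
    (hS : Shap.Kills φ (S : SL(2, ℤ))) {n w : SL(2, ℤ) ⧸ Γ → A} (h : IsSym Γ φ n w)
    (x : SL(2, ℤ) ⧸ Γ) : w ((S : SL(2, ℤ)) • x) + w x = 0 := by
  have h0 : Shap.zc Γ φ ((S : SL(2, ℤ)) ^ 2) x = 0 :=
    hS.zc_pow_eq_zero hφ x 2 (by rw [pow_two, mul_smul, S_S_smul Γ hneg])
  rw [pow_two, Shap.zc_mul hφ] at h0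
  rw [(h (S • x)).1, (h x).1, S_S_smul Γ hneg, ← h0]
  abel

/-- (V1) Existence of a symbol. -/
theorem exists_sym [Finite (SL(2, ℤ) ⧸ Γ)] (hneg : -1 ∈ Γ) {φ : Γ → A} (hφ : Shap.IsAdd φ)
    (hS : Shap.Kills φ (S : SL(2, ℤ))) (hP : Shap.Kills φ (S * T * S : SL(2, ℤ))) :
    ∃ n w : SL(2, ℤ) ⧸ Γ → A, IsSym Γ φ n w := by
  obtain ⟨n, hn⟩ := hP.exists_primitive hφ
  refine ⟨n, fun x => Shap.zc Γ φ S x - (n ((S : SL(2, ℤ)) • x) - n x), fun x => ⟨rfl, ?_⟩⟩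
  have h0 : Shap.zc Γ φ ((S : SL(2, ℤ)) ^ 2) x = 0 :=
    hS.zc_pow_eq_zero hφ x 2 (by rw [pow_two, mul_smul, S_S_smul Γ hneg])
  rw [pow_two, Shap.zc_mul hφ] at h0
  have h1 := hn ((S : SL(2, ℤ)) • x)
  rw [Shap.zc_mul hφ, mul_smul, S_S_smul Γ hneg] at h1
  have h2 : Shap.zc Γ φ (S * T) x
      = n ((S * T : SL(2, ℤ)) • x) - n ((S : SL(2, ℤ)) • x) - Shap.zc Γ φ S ((S : SL(2, ℤ)) • x) :=
    eq_sub_of_add_eq h1
  rw [h2, eq_neg_of_add_eq_zero_left h0]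
  abel_nf

/-- (V3) Two symbols of the same class differ by an element of the radical. -/
theorem IsSym.sub_eq {φ : Γ → A} {n w n' w' : SL(2, ℤ) ⧸ Γ → A} (h : IsSym Γ φ n w)
    (h' : IsSym Γ φ n' w') (x : SL(2, ℤ) ⧸ Γ) :
    w x - w' x = (n' - n) ((S : SL(2, ℤ)) • x) - (n' - n) x ∧
      w x - w' x = (n' - n) ((S * T : SL(2, ℤ)) • x) - (n' - n) x := by
  constructor
  · rw [(h x).1, (h' x).1]; simp only [Pi.sub_apply]; abel
  · rw [(h x).2, (h' x).2]; simp only [Pi.sub_apply]; abel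

theorem IsSym.add {φ φ' : Γ → A} {n w n' w' : SL(2, ℤ) ⧸ Γ → A} (h : IsSym Γ φ n w)
    (h' : IsSym Γ φ' n' w') : IsSym Γ (φ + φ') (n + n') (w + w') := by
  intro x
  constructor
  · show w x + w' x = (φ _ + φ' _) - ((n _ + n' _) - (n x + n' x))
    rw [(h x).1, (h' x).1]; simp only [Shap.zc]; abel
  · show w x + w' x = (φ _ + φ' _) - ((n _ + n' _) - (n x + n' x))
    rw [(h x).2, (h' x).2]; simp only [Shap.zc]; abel

theorem IsSym.smul {K : Type*} [Monoid K] [DistribMulAction K A] (c : K) {φ : Γ → A}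
    {n w : SL(2, ℤ) ⧸ Γ → A} (h : IsSym Γ φ n w) : IsSym Γ (c • φ) (c • n) (c • w) := by
  intro x
  constructor
  · show c • w x = c • φ _ - (c • n _ - c • n x)
    rw [(h x).1, smul_sub, smul_sub]; rfl
  · show c • w x = c • φ _ - (c • n _ - c • n x)
    rw [(h x).2, smul_sub, smul_sub]; rfl

/-- (V5) Injectivity: a class with a symbol in the radical vanishes. -/
theorem IsSym.eq_zero {φ : Γ → A} (hφ : Shap.IsAdd φ) {n w ν : SL(2, ℤ) ⧸ Γ → A}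
    (h : IsSym Γ φ n w) (h1 : ∀ x, w x = ν ((S : SL(2, ℤ)) • x) - ν x)
    (h2 : ∀ x, w x = ν ((S * T : SL(2, ℤ)) • x) - ν x) (γ : Γ) : φ γ = 0 := by
  refine Shap.eq_zero_of_primitive hφ {S, S * T} PdExt.closure_S_ST (ν + n) ?_ γ
  intro t ht x
  rcases ht with rfl | rfl
  · have := (h x).1
    rw [h1 x] at this
    have e : Shap.zc Γ φ S x
        = (ν ((S : SL(2, ℤ)) • x) - ν x) + (n ((S : SL(2, ℤ)) • x) - n x) := by
      rw [this]; abel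
    simp only [Pi.add_apply]
    rw [e]; abel
  · have := (h x).2
    rw [h2 x] at this
    have e : Shap.zc Γ φ (S * T) x
        = (ν ((S * T : SL(2, ℤ)) • x) - ν x) + (n ((S * T : SL(2, ℤ)) • x) - n x) := by
      rw [this]; abel
    simp only [Pi.add_apply]
    rw [e]; abel

/-- (V2), coefficient-free form: a symbol of a class killing the conjugates of the powers of
`S` and of `R` is a coboundary along `S` and along `R`. -/
theorem IsSym.exists_primitives [Finite (SL(2, ℤ) ⧸ Γ)] {φ : Γ → A} (hφ : Shap.IsAdd φ)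
    (hS : Shap.Kills φ (S : SL(2, ℤ))) (hR : Shap.Kills φ (S * T : SL(2, ℤ)))
    {n w : SL(2, ℤ) ⧸ Γ → A} (h : IsSym Γ φ n w) :
    (∃ m₁ : SL(2, ℤ) ⧸ Γ → A, ∀ x, w x = m₁ ((S : SL(2, ℤ)) • x) - m₁ x) ∧
      ∃ m₂ : SL(2, ℤ) ⧸ Γ → A, ∀ x, w x = m₂ ((S * T : SL(2, ℤ)) • x) - m₂ x := by
  obtain ⟨a, ha⟩ := hS.exists_primitive hφ
  obtain ⟨b, hb⟩ := hR.exists_primitive hφ
  refine ⟨⟨a - n, fun x => ?_⟩, ⟨b - n, fun x => ?_⟩⟩
  · rw [(h x).1, ha]; simp only [Pi.sub_apply]; abel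
  · rw [(h x).2, hb]; simp only [Pi.sub_apply]; abel

end symbols

/-! ### Surjectivity: every element of `W` is a symbol -/

section surj

variable {Γ : Subgroup SL(2, ℤ)} {k : Type*} [CommRing k]

/-- (V4) Every function which is a coboundary along `S` and along `R` is the normalised symbol
of a class killing the conjugates of the powers of `S`, `R` and `R * S`. -/
theorem exists_of_primitives (hneg : -1 ∈ Γ) (w m₁ m₂ : SL(2, ℤ) ⧸ Γ → k)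
    (h1 : ∀ x, w x = m₁ ((S : SL(2, ℤ)) • x) - m₁ x)
    (h2 : ∀ x, w x = m₂ ((S * T : SL(2, ℤ)) • x) - m₂ x) :
    ∃ (φ : Γ → k) (n : SL(2, ℤ) ⧸ Γ → k), Shap.IsAdd φ ∧ IsSym Γ φ n w ∧
      Shap.Kills φ (S : SL(2, ℤ)) ∧ Shap.Kills φ (S * T : SL(2, ℤ)) ∧
      Shap.Kills φ (S * T * S : SL(2, ℤ)) := by
  have hS' : ∀ x : SL(2, ℤ) ⧸ Γ, (S : SL(2, ℤ))⁻¹ • x = (S : SL(2, ℤ)) • x := fun x => by
    rw [inv_smul_eq_iff, S_S_smul Γ hneg]
  have hR' : ∀ x : SL(2, ℤ) ⧸ Γ,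
      (S * T : SL(2, ℤ))⁻¹ • x = (S * T : SL(2, ℤ)) • (S * T : SL(2, ℤ)) • x := fun x => by
    rw [inv_smul_eq_iff, R_R_R_smul Γ hneg]
  have hwS : ∀ x : SL(2, ℤ) ⧸ Γ, w ((S : SL(2, ℤ)) • x) + w x = 0 := fun x => by
    rw [h1 ((S : SL(2, ℤ)) • x), h1 x, S_S_smul Γ hneg]; abel
  have hwR : ∀ x : SL(2, ℤ) ⧸ Γ,
      w ((S * T : SL(2, ℤ)) • (S * T : SL(2, ℤ)) • x) + w ((S * T : SL(2, ℤ)) • x) + w x = 0 :=
    fun x => by
      rw [h2 ((S * T : SL(2, ℤ)) • (S * T : SL(2, ℤ)) • x), h2 ((S * T : SL(2, ℤ)) • x), h2 x,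
        R_R_R_smul Γ hneg]
      abel
  obtain ⟨z, hz, hzS, hzR⟩ := PdExt.exists_cocycle_sl2z (X := SL(2, ℤ) ⧸ Γ) (k := k)
    (neg_one_smul_coset Γ hneg) (PdExt.act (S : SL(2, ℤ)) w) (PdExt.act (S * T : SL(2, ℤ)) w)
    (by
      funext x
      simp only [Pi.add_apply, PdExt.act_apply, Pi.zero_apply, hS']
      rw [S_S_smul Γ hneg]
      exact hwS x)
    (by
      funext x
      simp only [Pi.add_apply, PdExt.act_apply, Pi.zero_apply, hR']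
      have e1 : (S * T : SL(2, ℤ)) • (S * T : SL(2, ℤ)) • (S * T : SL(2, ℤ)) •
          (S * T : SL(2, ℤ)) • x = (S * T : SL(2, ℤ)) • x := by rw [R_R_R_smul Γ hneg]
      have e2 : (S * T : SL(2, ℤ)) • (S * T : SL(2, ℤ)) • (S * T : SL(2, ℤ)) •
          (S * T : SL(2, ℤ)) • (S * T : SL(2, ℤ)) • (S * T : SL(2, ℤ)) • x = x := by
        rw [R_R_R_smul Γ hneg, R_R_R_smul Γ hneg]
      rw [e2, e1]
      exact hwR x)
  let c : SL(2, ℤ) → SL(2, ℤ) ⧸ Γ → k := fun g x => z g (g • x)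
  have hc : IsZc Γ c := by
    intro g h x
    show z (g * h) ((g * h) • x) = z g (g • h • x) + z h (h • x)
    rw [hz g h]
    simp only [Pi.add_apply, PdExt.act_apply]
    rw [mul_smul, inv_smul_smul]
  have hcS : ∀ x, c S x = w x := by
    intro x
    show z S ((S : SL(2, ℤ)) • x) = w x
    rw [hzS, PdExt.act_apply, inv_smul_smul]
  have hcR : ∀ x, c (S * T) x = w x := by
    intro x
    show z (S * T) ((S * T : SL(2, ℤ)) • x) = w x
    rw [hzR, PdExt.act_apply, inv_smul_smul]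
  refine ⟨homOf Γ c, fun x => - c (psec Γ x) (Shap.x0 Γ), hc.isAdd_homOf, ?_, ?_, ?_, ?_⟩
  · intro x
    rw [hc.zc_homOf, hc.zc_homOf, hcS, hcR]
    constructor <;> ring
  · apply Shap.kills_of_primitive hc.isAdd_homOf (fun x => m₁ x + - c (psec Γ x) (Shap.x0 Γ))
    intro x
    rw [hc.zc_homOf, hcS, h1]
    ring
  · apply Shap.kills_of_primitive hc.isAdd_homOf (fun x => m₂ x + - c (psec Γ x) (Shap.x0 Γ))
    intro x
    rw [hc.zc_homOf, hcR, h2]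
    ring
  · apply Shap.kills_of_primitive hc.isAdd_homOf (fun x => - c (psec Γ x) (Shap.x0 Γ))
    intro x
    have h0 : c (S * T * S) x = 0 := by
      rw [hc, hcR, hcS]
      exact hwS x
    rw [hc.zc_homOf, h0]
    ring

end surj

/-! ### The space `VK` and the pairing -/

section pairing

variable (Γ : Subgroup SL(2, ℤ))

/-- The function underlying a homomorphism `Additive Γ →+ A`. -/
def fn {A : Type*} [AddCommGroup A] (φ : Additive Γ →+ A) : Γ → A := fun γ => φ (Additive.ofMul γ)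

theorem isAdd_fn {A : Type*} [AddCommGroup A] (φ : Additive Γ →+ A) : Shap.IsAdd (fn Γ φ) := by
  intro a b
  show φ (Additive.ofMul (a * b)) = φ (Additive.ofMul a) + φ (Additive.ofMul b)
  rw [ofMul_mul, map_add]

/-- The homomorphism with a given additive underlying function. -/
def ofFn {A : Type*} [AddCommGroup A] (f : Γ → A) (hf : Shap.IsAdd f) : Additive Γ →+ A :=
  AddMonoidHom.mk' (fun a => f (Additive.toMul a)) (fun _ _ => hf _ _)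

theorem fn_ofFn {A : Type*} [AddCommGroup A] (f : Γ → A) (hf : Shap.IsAdd f) :
    fn Γ (ofFn Γ f hf) = f := rfl

variable (k : Type*) [Field k]

/-- `V(Γ)`: the homomorphisms `Γ → k` killing the `Γ`-elements conjugate to powers of `S`,
of `R = S * T` and of the parabolic element `R * S`. -/
def VK : Submodule k (Additive Γ →+ k) where
  carrier := {φ | Shap.Kills (fn Γ φ) (S : SL(2, ℤ)) ∧ Shap.Kills (fn Γ φ) (S * T : SL(2, ℤ)) ∧
    Shap.Kills (fn Γ φ) (S * T * S : SL(2, ℤ))}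
  zero_mem' := ⟨fun _ _ _ => rfl, fun _ _ _ => rfl, fun _ _ _ => rfl⟩
  add_mem' := by
    rintro φ ψ ⟨h1, h2, h3⟩ ⟨h1', h2', h3'⟩
    refine ⟨fun u e h => ?_, fun u e h => ?_, fun u e h => ?_⟩
    · have a : φ _ = 0 := h1 u e h
      have b : ψ _ = 0 := h1' u e h
      show φ _ + ψ _ = 0
      rw [a, b, add_zero]
    · have a : φ _ = 0 := h2 u e h
      have b : ψ _ = 0 := h2' u e h
      show φ _ + ψ _ = 0
      rw [a, b, add_zero]
    · have a : φ _ = 0 := h3 u e h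
      have b : ψ _ = 0 := h3' u e h
      show φ _ + ψ _ = 0
      rw [a, b, add_zero]
  smul_mem' := by
    rintro c φ ⟨h1, h2, h3⟩
    refine ⟨fun u e h => ?_, fun u e h => ?_, fun u e h => ?_⟩
    · have a : φ _ = 0 := h1 u e h
      show c • φ _ = 0
      rw [a, smul_zero]
    · have a : φ _ = 0 := h2 u e h
      show c • φ _ = 0
      rw [a, smul_zero]
    · have a : φ _ = 0 := h3 u e h
      show c • φ _ = 0
      rw [a, smul_zero]

variable {Γ k}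

theorem mem_VK {φ : Additive Γ →+ k} : φ ∈ VK Γ k ↔
    Shap.Kills (fn Γ φ) (S : SL(2, ℤ)) ∧ Shap.Kills (fn Γ φ) (S * T : SL(2, ℤ)) ∧
      Shap.Kills (fn Γ φ) (S * T * S : SL(2, ℤ)) := Iff.rfl

variable (Γ k)

/-- Translation by `S` on functions on the coset space. -/
def sg : (SL(2, ℤ) ⧸ Γ → k) →ₗ[k] (SL(2, ℤ) ⧸ Γ → k) :=
  PdModel.transl k (MulAction.toPerm (S : SL(2, ℤ)))

/-- Translation by `R = S * T` on functions on the coset space. -/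
def tg : (SL(2, ℤ) ⧸ Γ → k) →ₗ[k] (SL(2, ℤ) ⧸ Γ → k) :=
  PdModel.transl k (MulAction.toPerm (S * T : SL(2, ℤ)))

variable {Γ k}

theorem sg_apply (a : SL(2, ℤ) ⧸ Γ → k) (x : SL(2, ℤ) ⧸ Γ) :
    sg Γ k a x = a ((S : SL(2, ℤ)) • x) := rfl

theorem tg_apply (a : SL(2, ℤ) ⧸ Γ → k) (x : SL(2, ℤ) ⧸ Γ) :
    tg Γ k a x = a ((S * T : SL(2, ℤ)) • x) := rfl

theorem dot_sg [Fintype (SL(2, ℤ) ⧸ Γ)] (a b : SL(2, ℤ) ⧸ Γ → k) :
    PdModel.dot k (sg Γ k a) (sg Γ k b) = PdModel.dot k a b := PdModel.dot_transl _ a b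

theorem dot_tg [Fintype (SL(2, ℤ) ⧸ Γ)] (a b : SL(2, ℤ) ⧸ Γ → k) :
    PdModel.dot k (tg Γ k a) (tg Γ k b) = PdModel.dot k a b := PdModel.dot_transl _ a b

/-- Membership in `W`, unfolded. -/
theorem mem_W_iff' {w : SL(2, ℤ) ⧸ Γ → k} : w ∈ PdModel.W (sg Γ k) (tg Γ k) ↔
    (∃ m₁ : SL(2, ℤ) ⧸ Γ → k, ∀ x, w x = m₁ ((S : SL(2, ℤ)) • x) - m₁ x) ∧
      ∃ m₂ : SL(2, ℤ) ⧸ Γ → k, ∀ x, w x = m₂ ((S * T : SL(2, ℤ)) • x) - m₂ x := by
  rw [PdModel.mem_W_iff]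
  constructor
  · rintro ⟨⟨m₁, h₁⟩, ⟨m₂, h₂⟩⟩
    exact ⟨⟨m₁, fun x => (congrFun h₁ x).symm⟩, ⟨m₂, fun x => (congrFun h₂ x).symm⟩⟩
  · rintro ⟨⟨m₁, h₁⟩, ⟨m₂, h₂⟩⟩
    exact ⟨⟨m₁, funext fun x => (h₁ x).symm⟩, ⟨m₂, funext fun x => (h₂ x).symm⟩⟩

/-- Membership in the radical, unfolded. -/
theorem rad_iff' {w : SL(2, ℤ) ⧸ Γ → k} :
    (∃ ν, sg Γ k ν = tg Γ k ν ∧ w = sg Γ k ν - ν) ↔
      ∃ ν : SL(2, ℤ) ⧸ Γ → k, (∀ x, w x = ν ((S : SL(2, ℤ)) • x) - ν x) ∧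
        ∀ x, w x = ν ((S * T : SL(2, ℤ)) • x) - ν x := by
  constructor
  · rintro ⟨ν, h1, h2⟩
    refine ⟨ν, fun x => by rw [h2]; rfl, fun x => ?_⟩
    rw [h2]
    show sg Γ k ν x - ν x = _
    rw [h1]; rfl
  · rintro ⟨ν, h1, h2⟩
    refine ⟨ν, funext fun x => ?_, funext fun x => ?_⟩
    · have := (h1 x).symm.trans (h2 x)
      exact sub_left_injective this
    · rw [h1]; rfl

/-- (V2) A symbol of a class in `VK` lies in `W`. -/
theorem IsSym.mem_W [Finite (SL(2, ℤ) ⧸ Γ)] {φ : Additive Γ →+ k} (hφ : φ ∈ VK Γ k)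
    {n w : SL(2, ℤ) ⧸ Γ → k} (h : IsSym Γ (fn Γ φ) n w) : w ∈ PdModel.W (sg Γ k) (tg Γ k) :=
  mem_W_iff'.mpr (h.exists_primitives (isAdd_fn Γ φ) hφ.1 hφ.2.1)

/-- (V1) for `VK`. -/
theorem exists_sym_of_mem [Finite (SL(2, ℤ) ⧸ Γ)] (hneg : -1 ∈ Γ) {φ : Additive Γ →+ k}
    (hφ : φ ∈ VK Γ k) : ∃ w n : SL(2, ℤ) ⧸ Γ → k, IsSym Γ (fn Γ φ) n w := by
  obtain ⟨n, w, h⟩ := exists_sym hneg (isAdd_fn Γ φ) hφ.1 hφ.2.2
  exact ⟨w, n, h⟩

/-- (V4) for `VK`: every element of `W` is the symbol of a class in `VK`. -/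
theorem exists_of_mem_W (hneg : -1 ∈ Γ) {w : SL(2, ℤ) ⧸ Γ → k}
    (hw : w ∈ PdModel.W (sg Γ k) (tg Γ k)) :
    ∃ φ ∈ VK Γ k, ∃ n : SL(2, ℤ) ⧸ Γ → k, IsSym Γ (fn Γ φ) n w := by
  obtain ⟨⟨m₁, h₁⟩, ⟨m₂, h₂⟩⟩ := mem_W_iff'.mp hw
  obtain ⟨f, n, hf, hsym, hS, hR, hP⟩ := exists_of_primitives hneg w m₁ m₂ h₁ h₂
  exact ⟨ofFn Γ f hf, ⟨hS, hR, hP⟩, n, hsym⟩

/-- (V5) for `VK`: a class whose symbol lies in the radical vanishes. -/
theorem eq_zero_of_sym_rad {φ : Additive Γ →+ k} {n w : SL(2, ℤ) ⧸ Γ → k}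
    (h : IsSym Γ (fn Γ φ) n w) (hrad : ∃ ν, sg Γ k ν = tg Γ k ν ∧ w = sg Γ k ν - ν) : φ = 0 := by
  obtain ⟨ν, h1, h2⟩ := rad_iff'.mp hrad
  ext γ
  exact h.eq_zero (isAdd_fn Γ φ) h1 h2 (Additive.toMul γ)

end pairing

/-! ### The pairing on `VK` -/

section pairV

variable {Γ : Subgroup SL(2, ℤ)} {k : Type*} [Field k]

/-- (V3) in terms of the radical of the model. -/
theorem IsSym.sub_rad {φ : Γ → k} {n w n' w' : SL(2, ℤ) ⧸ Γ → k} (h : IsSym Γ φ n w)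
    (h' : IsSym Γ φ n' w') : ∃ ν, sg Γ k ν = tg Γ k ν ∧ w - w' = sg Γ k ν - ν :=
  rad_iff'.mpr ⟨n' - n, fun x => (h.sub_eq h' x).1, fun x => (h.sub_eq h' x).2⟩

variable [Fintype (SL(2, ℤ) ⧸ Γ)]

variable (Γ k) in
/-- The model pairing on functions on the coset space. -/
noncomputable abbrev Bm : LinearMap.BilinForm k (SL(2, ℤ) ⧸ Γ → k) :=
  PdModel.B (PdModel.dot k) (sg Γ k) (tg Γ k)

/-- The model pairing of two symbols only depends on the classes. -/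
theorem Bm_congr {φ ψ : Additive Γ →+ k} (hφ : φ ∈ VK Γ k) (hψ : ψ ∈ VK Γ k)
    {n₁ w₁ n₂ w₂ n₁' w₁' n₂' w₂' : SL(2, ℤ) ⧸ Γ → k}
    (h₁ : IsSym Γ (fn Γ φ) n₁ w₁) (h₂ : IsSym Γ (fn Γ φ) n₂ w₂)
    (h₁' : IsSym Γ (fn Γ ψ) n₁' w₁') (h₂' : IsSym Γ (fn Γ ψ) n₂' w₂') :
    Bm Γ k w₁' w₁ = Bm Γ k w₂' w₂ := by
  obtain ⟨ν, hν, e⟩ := h₁.sub_rad h₂
  obtain ⟨ν', hν', e'⟩ := h₁'.sub_rad h₂'
  have hw₁' := h₁'.mem_W hψ
  have hw₂ := h₂.mem_W hφ
  have ew : w₁ = w₂ + (sg Γ k ν - ν) := by rw [← e]; abel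
  have ew' : w₁' = w₂' + (sg Γ k ν' - ν') := by rw [← e']; abel
  rw [ew, map_add, PdModel.B_rad_right dot_sg dot_tg hν hw₁', add_zero, ew', map_add,
    LinearMap.add_apply, PdModel.B_rad_left PdModel.dot_symm dot_sg dot_tg hν' hw₂, add_zero]

/-- A chosen symbol of a class in `VK`. -/
noncomputable def symW (hneg : -1 ∈ Γ) (φ : VK Γ k) : SL(2, ℤ) ⧸ Γ → k :=
  Classical.choose (exists_sym_of_mem hneg φ.2)

theorem symW_spec (hneg : -1 ∈ Γ) (φ : VK Γ k) :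
    ∃ n : SL(2, ℤ) ⧸ Γ → k, IsSym Γ (fn Γ (φ : Additive Γ →+ k)) n (symW hneg φ) :=
  Classical.choose_spec (exists_sym_of_mem hneg φ.2)

theorem Bm_symW (hneg : -1 ∈ Γ) (φ ψ : VK Γ k) {n w n' w' : SL(2, ℤ) ⧸ Γ → k}
    (h : IsSym Γ (fn Γ (φ : Additive Γ →+ k)) n w)
    (h' : IsSym Γ (fn Γ (ψ : Additive Γ →+ k)) n' w') :
    Bm Γ k (symW hneg ψ) (symW hneg φ) = Bm Γ k w' w := by
  obtain ⟨n₁, h₁⟩ := symW_spec hneg φ
  obtain ⟨n₁', h₁'⟩ := symW_spec hneg ψ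
  exact Bm_congr φ.2 ψ.2 h₁ h h₁' h'

/-- **The pairing on `V(Γ)`**: `pairV φ ψ = B(w_ψ, w_φ)` for normalised symbols `w_φ`, `w_ψ`. -/
noncomputable def pairV (hneg : -1 ∈ Γ) : VK Γ k →ₗ[k] VK Γ k →ₗ[k] k :=
  LinearMap.mk₂ k (fun φ ψ => Bm Γ k (symW hneg ψ) (symW hneg φ))
    (fun φ φ' ψ => by
      obtain ⟨n₁, h₁⟩ := symW_spec hneg φ
      obtain ⟨n₂, h₂⟩ := symW_spec hneg φ'
      obtain ⟨n', h'⟩ := symW_spec hneg ψ
      rw [Bm_symW hneg (φ + φ') ψ (h₁.add h₂) h', map_add])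
    (fun c φ ψ => by
      obtain ⟨n₁, h₁⟩ := symW_spec hneg φ
      obtain ⟨n', h'⟩ := symW_spec hneg ψ
      rw [Bm_symW hneg (c • φ) ψ (h₁.smul c) h', map_smul])
    (fun φ ψ ψ' => by
      obtain ⟨n₁, h₁⟩ := symW_spec hneg φ
      obtain ⟨n', h'⟩ := symW_spec hneg ψ
      obtain ⟨n'', h''⟩ := symW_spec hneg ψ'
      rw [Bm_symW hneg φ (ψ + ψ') h₁ (h'.add h''), map_add, LinearMap.add_apply])
    (fun c φ ψ => by
      obtain ⟨n₁, h₁⟩ := symW_spec hneg φ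
      obtain ⟨n', h'⟩ := symW_spec hneg ψ
      rw [Bm_symW hneg φ (c • ψ) h₁ (h'.smul c), map_smul, LinearMap.smul_apply])

/-- The pairing, computed with arbitrary symbols. -/
theorem pairV_eq (hneg : -1 ∈ Γ) (φ ψ : VK Γ k) {n w n' w' : SL(2, ℤ) ⧸ Γ → k}
    (h : IsSym Γ (fn Γ (φ : Additive Γ →+ k)) n w)
    (h' : IsSym Γ (fn Γ (ψ : Additive Γ →+ k)) n' w') :
    pairV hneg φ ψ = Bm Γ k w' w :=
  Bm_symW hneg φ ψ h h'

/-- The pairing is skew-symmetric. -/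
theorem pairV_skew (hneg : -1 ∈ Γ) (φ ψ : VK Γ k) : pairV hneg φ ψ + pairV hneg ψ φ = 0 := by
  obtain ⟨n, h⟩ := symW_spec hneg φ
  obtain ⟨n', h'⟩ := symW_spec hneg ψ
  rw [pairV_eq hneg φ ψ h h', pairV_eq hneg ψ φ h' h]
  exact PdModel.B_skew PdModel.dot_symm dot_sg dot_tg (h.mem_W φ.2) (h'.mem_W ψ.2)

/-- The pairing is alternating in characteristic `≠ 2`. -/
theorem pairV_self (hneg : -1 ∈ Γ) (h2 : (2 : k) ≠ 0) (φ : VK Γ k) : pairV hneg φ φ = 0 := by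
  have h := pairV_skew hneg φ φ
  rw [← two_mul] at h
  exact (mul_eq_zero.mp h).resolve_left h2

/-- **(PD1)** The pairing on `V(Γ)` is nondegenerate. -/
theorem pairV_nondeg (hneg : -1 ∈ Γ) (φ : VK Γ k) (h : ∀ ψ : VK Γ k, pairV hneg φ ψ = 0) :
    φ = 0 := by
  obtain ⟨n, hsym⟩ := symW_spec hneg φ
  have hw := hsym.mem_W φ.2
  have hrad : ∃ ν, sg Γ k ν = tg Γ k ν ∧ symW hneg φ = sg Γ k ν - ν := by
    apply PdModel.B_rad PdModel.dot_nondeg PdModel.dot_symm dot_sg dot_tg hw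
    intro w' hw'
    obtain ⟨ψ, hψ, n', hsym'⟩ := exists_of_mem_W hneg hw'
    have h0 := h ⟨ψ, hψ⟩
    rw [pairV_eq hneg φ ⟨ψ, hψ⟩ hsym hsym'] at h0
    have hs := PdModel.B_skew PdModel.dot_symm dot_sg dot_tg hw hw'
    rw [h0, zero_add] at hs
    exact hs
  exact Subtype.ext (eq_zero_of_sym_rad hsym hrad)

end pairV

/-! ### Parabolic homomorphisms killing the elements of finite order lie in `VK` -/

section trace

theorem STS_pow_entries (e : ℕ) :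
    ((S * T * S : SL(2, ℤ)) ^ e).1 0 0 = (-1) ^ e ∧ ((S * T * S : SL(2, ℤ)) ^ e).1 0 1 = 0 ∧
      ((S * T * S : SL(2, ℤ)) ^ e).1 1 1 = (-1) ^ e := by
  induction e with
  | zero => simp
  | succ e ih =>
    obtain ⟨h1, h2, h3⟩ := ih
    have hM : (S * T * S : SL(2, ℤ)).1 = !![-1, 0; 1, -1] := by
      simp only [Matrix.SpecialLinearGroup.coe_mul, ModularGroup.coe_S, ModularGroup.coe_T]
      ext i j
      fin_cases i <;> fin_cases j <;> simp [Matrix.mul_apply, Fin.sum_univ_two]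
    rw [pow_succ, Matrix.SpecialLinearGroup.coe_mul, hM]
    simp only [Matrix.mul_apply, Fin.sum_univ_two, Matrix.of_apply, Matrix.cons_val_zero,
      Matrix.cons_val_one, h1, h2, h3]
    refine ⟨by ring, by ring, by ring⟩

theorem trace_conj (u a : SL(2, ℤ)) : (u⁻¹ * a * u).1.trace = a.1.trace := by
  rw [mul_assoc, Matrix.SpecialLinearGroup.coe_mul, Matrix.trace_mul_comm,
    ← Matrix.SpecialLinearGroup.coe_mul, mul_assoc, mul_inv_cancel, mul_one]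

variable {Γ : Subgroup SL(2, ℤ)} {k : Type*} [Field k]

/-- A parabolic homomorphism which kills the elements of finite order lies in `VK`. -/
theorem mem_VK_of {φ : Additive Γ →+ k}
    (hfin : ∀ γ : Γ, IsOfFinOrder γ → φ (Additive.ofMul γ) = 0)
    (hpar : ModularCurve.Period.IsParabolicHom Γ φ) : φ ∈ VK Γ k := by
  refine ⟨?_, ?_, ?_⟩
  · refine Shap.kills_of_finOrder (m := 4) (by norm_num) ?_ hfin
    rw [show (4 : ℕ) = 2 * 2 from rfl, pow_mul, Psl2Free.S_sq, neg_one_sq]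
  · refine Shap.kills_of_finOrder (m := 6) (by norm_num) ?_ hfin
    rw [show (6 : ℕ) = 3 * 2 from rfl, pow_mul, Psl2Free.R_cube, neg_one_sq]
  · intro u e h
    apply hpar
    show (u⁻¹ * (S * T * S : SL(2, ℤ)) ^ e * u).1.trace ^ 2 = 4
    rw [trace_conj, Matrix.trace_fin_two]
    obtain ⟨h1, -, h3⟩ := STS_pow_entries e
    rw [h1, h3, ← two_mul, mul_pow, ← pow_mul, mul_comm e 2, pow_mul]
    norm_num

end trace

end Fermat.Agent.P7.PdSym
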