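/-
P7 [PD-B3] (helper41), final part: the adjunction `⟨res x, y⟩ = ⟨x, tr y⟩` for the pairing
`PdSym.pairV`, along `Γ₀(N q) ≤ Γ₀(N)`, for the maps `Degen.resA` and `Degen.corA`
(contract item (B3) before reduction to the lattice).
-/
import Mathlib
import Fermat.Agent.P7.PdB3Gamma
import Fermat.Agent.P7.PdSym

set_option autoImplicit false

namespace Fermat.Agent.P7.PdB3Pair

open scoped MatrixGroups
open CongruenceSubgroup ModularGroup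
open Fermat.Agent.S21.PermDim Fermat.Agent.P7.Shap Fermat.Agent.P7 Fermat.Agent.P7.PdB3
open Fermat.Agent.P7.PdB3Gamma

variable (N q : ℕ) {k : Type*} [Field k]

/-- `resA` maps `VK (Γ₀(N))` to `VK (Γ₀(N q))`. -/
theorem resA_mem_VK {φ : Additive ↥(Gamma0 N) →+ k} (hφ : φ ∈ PdSym.VK (Gamma0 N) k) :
    Degen.resA N q k φ ∈ PdSym.VK (Gamma0 (N * q)) k :=
  ⟨kills_resA N q φ hφ.1, kills_resA N q φ hφ.2.1, kills_resA N q φ hφ.2.2⟩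

variable [NeZero N] [Fact q.Prime]

/-- `corA` maps `VK (Γ₀(N q))` to `VK (Γ₀(N))`. -/
theorem corA_mem_VK [Finite (SL(2, ℤ) ⧸ Gamma0 (N * q))] [Finite (SL(2, ℤ) ⧸ Gamma0 N)]
    {ψ : Additive ↥(Gamma0 (N * q)) →+ k} (hψ : ψ ∈ PdSym.VK (Gamma0 (N * q)) k) :
    Degen.corA N q k ψ ∈ PdSym.VK (Gamma0 N) k := by
  classical
  let _ : Fintype (SL(2, ℤ) ⧸ Gamma0 (N * q)) := Fintype.ofFinite _
  exact ⟨kills_corA N q ψ hψ.1, kills_corA N q ψ hψ.2.1, kills_corA N q ψ hψ.2.2⟩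

/-- **(B3) on `V`**: `⟨resA φ, ψ⟩_{N q} = ⟨φ, corA ψ⟩_N` for the pairings `PdSym.pairV`. -/
theorem pairV_resA_corA [Fintype (SL(2, ℤ) ⧸ Gamma0 (N * q))] [Fintype (SL(2, ℤ) ⧸ Gamma0 N)]
    (hneg : -1 ∈ Gamma0 N) (hneg' : -1 ∈ Gamma0 (N * q))
    (φ : PdSym.VK (Gamma0 N) k) (ψ : PdSym.VK (Gamma0 (N * q)) k) :
    PdSym.pairV hneg' ⟨Degen.resA N q k φ, resA_mem_VK N q φ.2⟩ ψ =
      PdSym.pairV hneg φ ⟨Degen.corA N q k ψ, corA_mem_VK N q ψ.2⟩ := by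
  classical
  obtain ⟨w, n, hsym⟩ := PdSym.exists_sym_of_mem hneg φ.2
  obtain ⟨w', n', hsym'⟩ := PdSym.exists_sym_of_mem hneg' ψ.2
  obtain ⟨ν, hν⟩ := sym_resA N q (φ : Additive ↥(Gamma0 N) →+ k)
  obtain ⟨ν', -, hν'⟩ := sym_corA N q (ψ : Additive ↥(Gamma0 (N * q)) →+ k)
  have h1 : PdSym.IsSym (Gamma0 (N * q))
      (PdSym.fn (Gamma0 (N * q)) (Degen.resA N q k (φ : Additive ↥(Gamma0 N) →+ k)))
      (fun y' => n (Subgroup.quotientMapOfLE (Degen.Gamma0_mul_le' N q) y') - ν y')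
      (fun y' => w (Subgroup.quotientMapOfLE (Degen.Gamma0_mul_le' N q) y')) :=
    hν S (S * T) n w hsym
  have h2 : PdSym.IsSym (Gamma0 N)
      (PdSym.fn (Gamma0 N) (Degen.corA N q k (ψ : Additive ↥(Gamma0 (N * q)) →+ k)))
      (fun x => ∑ x' with Subgroup.quotientMapOfLE (Degen.Gamma0_mul_le' N q) x' = x, n' x' + ν' x)
      (fun x => ∑ x' with Subgroup.quotientMapOfLE (Degen.Gamma0_mul_le' N q) x' = x, w' x') :=
    hν' S (S * T) n' w' hsym'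
  have e1 := PdSym.pairV_eq hneg' ⟨Degen.resA N q k φ, resA_mem_VK N q φ.2⟩ ψ h1 hsym'
  have e2 := PdSym.pairV_eq hneg φ ⟨Degen.corA N q k ψ, corA_mem_VK N q ψ.2⟩ hsym h2
  rw [e1, e2]
  exact B_res_tr_of_sym (Degen.Gamma0_mul_le' N q) (isAdd_ofMul (φ : Additive ↥(Gamma0 N) →+ k))
    (isAdd_ofMul (ψ : Additive ↥(Gamma0 (N * q)) →+ k)) φ.2.1 φ.2.2.1 ψ.2.1 ψ.2.2.1 hsym hsym'

end Fermat.Agent.P7.PdB3Pair
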