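/-
P7 [PD-INST] (helper90): the concrete instance of the [PD] machine,
`X := SL(2, ℤ) ⧸ Γ` (left cosets, `S21.PermDim.psec / pkap` vocabulary, `Shap.zc / Shap.Kills`).

Part A (any group `G`, any subgroup `Γ`, any `t : G`):
* `smul_eq_self_iff`, `pkap_pow_of_fixed`, `isOfFinOrder_pkap_of_fixed`;
* `period_pos`, the orbit generator `orbGen Γ t x = (psec x)⁻¹ * t ^ e * psec x`
  (`e` the `t`-period of `x`), `conj_zpow_mem_iff`, `orbGen_smul`, `map_orbGen_of_mem_orbit`;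
* `kills_iff_orbGen`, `kills_iff_orep` (one representative per `t`-orbit);
* `exists_unique_orbit` (every `g` is `γ * (psec (orep o))⁻¹ * t ^ j` for a unique orbit `o`);
* `kills_iff_of_prime_central` (elements whose `p`-th power is central and lies in `Γ`).

Part B (`G = SL(2, ℤ)`, `-1 ∈ Γ`): `neg_one_smul`, `S_sq_smul`, `R_cube_smul`, the permutations
`permS`, `permR`, `permT`, transitivity / invariants, orbit products of `pkap`, `kills_S_iff`,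
`kills_R_iff`, `isParabolicHom_iff_kills`, and the four coset counts for `Gamma0 M`.
-/
import Mathlib
import Fermat.Prelude.Def_ModularCurve_PeriodMap
import Fermat.Prelude.Def_ModularCurve_GenusNumerics
import Fermat.Agent.S21.PermDim
import Fermat.Agent.S21.ParabolicConj
import Fermat.Agent.S21.Shapiro
import Fermat.Agent.Lib.Gamma0Count
import Fermat.Agent.P7.Psl2Free
import Fermat.Agent.P7.Shap
import Fermat.Agent.P7.CuspAut
import Fermat.Agent.P7.EllConj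

set_option autoImplicit false

namespace Fermat.Agent.P7.PdInst

open Fermat.Agent.S21.PermDim Fermat.Agent.P7

/-! ## Part A: generic coset-space lemmas -/

section Generic

variable {G : Type*} [Group G] (Γ : Subgroup G)

/-- `t` fixes the coset `x` iff the conjugate of `t` by the section lies in `Γ`. -/
theorem smul_eq_self_iff (t : G) (x : G ⧸ Γ) :
    t • x = x ↔ (psec Γ x)⁻¹ * t * psec Γ x ∈ Γ := by
  have h := Shap.smul_coe_eq_self_iff Γ t (psec Γ x)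
  rwa [psec_spec] at h

theorem pow_smul_of_fixed {t : G} {x : G ⧸ Γ} (h : t • x = x) (m : ℕ) : t ^ m • x = x := by
  induction m with
  | zero => simp
  | succ m ih => rw [pow_succ, mul_smul, h, ih]

theorem coe_pkap_pow_of_fixed {t : G} {x : G ⧸ Γ} (h : t • x = x) (m : ℕ) :
    ((pkap Γ t x ^ m : Γ) : G) = (psec Γ x)⁻¹ * t ^ m * psec Γ x := by
  rw [Subgroup.coe_pow, Shap.coe_pkap_of_fixed Γ h]
  have h1 : (psec Γ x)⁻¹ * t * psec Γ x = (psec Γ x)⁻¹ * t * ((psec Γ x)⁻¹)⁻¹ := by rw [inv_inv]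
  rw [h1, conj_pow, inv_inv]

/-- At a fixed point the cocycle `pkap Γ t x` is multiplicative in powers of `t`. -/
theorem pkap_pow_of_fixed {t : G} {x : G ⧸ Γ} (h : t • x = x) (m : ℕ) :
    pkap Γ t x ^ m = pkap Γ (t ^ m) x := by
  apply Subtype.ext
  rw [coe_pkap_pow_of_fixed Γ h, Shap.coe_pkap_of_fixed Γ (pow_smul_of_fixed Γ h m)]

/-- At a fixed point of a finite-order element the cocycle value has finite order. -/
theorem isOfFinOrder_pkap_of_fixed {t : G} {x : G ⧸ Γ} (h : t • x = x) {m : ℕ} (hm : 0 < m)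
    (ht : t ^ m = 1) : IsOfFinOrder (pkap Γ t x) := by
  rw [isOfFinOrder_iff_pow_eq_one]
  refine ⟨m, hm, Subtype.ext ?_⟩
  rw [coe_pkap_pow_of_fixed Γ h, ht]
  simp

theorem toPerm_pow (t : G) (n : ℕ) :
    (MulAction.toPerm t : Equiv.Perm (G ⧸ Γ)) ^ n = MulAction.toPerm (t ^ n) :=
  (map_pow (MulAction.toPermHom G (G ⧸ Γ)) t n).symm

/-- Every `t`-orbit on a finite coset space is periodic. -/
theorem period_pos [Finite (G ⧸ Γ)] (t : G) (x : G ⧸ Γ) : 0 < MulAction.period t x := by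
  have hfin : IsOfFinOrder (MulAction.toPerm t : Equiv.Perm (G ⧸ Γ)) := isOfFinOrder_of_finite _
  obtain ⟨n, hn, hn1⟩ := isOfFinOrder_iff_pow_eq_one.mp hfin
  refine MulAction.period_pos_of_fixed hn ?_
  rw [toPerm_pow] at hn1
  have h2 := congrArg (fun p : Equiv.Perm (G ⧸ Γ) => p x) hn1
  simpa using h2

theorem period_smul (t : G) (x : G ⧸ Γ) : MulAction.period t (t • x) = MulAction.period t x := by
  have key : ∀ n : ℕ, t ^ n • t • x = t • x ↔ t ^ n • x = x := by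
    intro n
    rw [← mul_smul, (Commute.pow_self t n).eq, mul_smul, smul_left_cancel_iff]
  apply Nat.dvd_antisymm
  · rw [← MulAction.pow_smul_eq_iff_period_dvd, key]
    exact MulAction.pow_period_smul t x
  · rw [← MulAction.pow_smul_eq_iff_period_dvd, ← key]
    exact MulAction.pow_period_smul t (t • x)

/-- The generator of the stabiliser attached to the `t`-orbit of `x`:
`(psec x)⁻¹ * t ^ e * psec x ∈ Γ`, `e` the `t`-period of `x` (the orbit product of `pkap Γ t`). -/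
noncomputable def orbGen (t : G) (x : G ⧸ Γ) : Γ := pkap Γ (t ^ MulAction.period t x) x

theorem coe_orbGen (t : G) (x : G ⧸ Γ) :
    (orbGen Γ t x : G) = (psec Γ x)⁻¹ * t ^ MulAction.period t x * psec Γ x :=
  Shap.coe_pkap_of_fixed Γ (MulAction.pow_period_smul t x)

/-- Minimality: a conjugate of `t ^ j` by the section lies in `Γ` iff the period divides `j`. -/
theorem conj_zpow_mem_iff (t : G) (x : G ⧸ Γ) (j : ℤ) :
    (psec Γ x)⁻¹ * t ^ j * psec Γ x ∈ Γ ↔ (MulAction.period t x : ℤ) ∣ j := by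
  rw [← smul_eq_self_iff, MulAction.zpow_smul_eq_iff_period_dvd]

theorem conj_pow_mem_iff (t : G) (x : G ⧸ Γ) (j : ℕ) :
    (psec Γ x)⁻¹ * t ^ j * psec Γ x ∈ Γ ↔ MulAction.period t x ∣ j := by
  rw [← smul_eq_self_iff, MulAction.pow_smul_eq_iff_period_dvd]

/-- ... and it is then the corresponding power of the orbit generator. -/
theorem conj_zpow_eq_orbGen_zpow (t : G) (x : G ⧸ Γ) (k : ℤ) :
    (psec Γ x)⁻¹ * t ^ ((MulAction.period t x : ℤ) * k) * psec Γ x = ((orbGen Γ t x ^ k : Γ) : G) := by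
  rw [Subgroup.coe_zpow, coe_orbGen, zpow_mul, zpow_natCast]
  have h1 : (psec Γ x)⁻¹ * t ^ MulAction.period t x * psec Γ x
      = (psec Γ x)⁻¹ * t ^ MulAction.period t x * ((psec Γ x)⁻¹)⁻¹ := by rw [inv_inv]
  rw [h1, conj_zpow, inv_inv]

theorem pkap_pow_period_mul (t : G) (x : G ⧸ Γ) (k : ℕ) :
    pkap Γ (t ^ (MulAction.period t x * k)) x = orbGen Γ t x ^ k := by
  rw [pow_mul, orbGen, pkap_pow_of_fixed Γ (MulAction.pow_period_smul t x)]

/-- Moving along the orbit conjugates the orbit generator by the cocycle. -/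
theorem orbGen_smul (t : G) (x : G ⧸ Γ) :
    orbGen Γ t (t • x) = pkap Γ t x * orbGen Γ t x * (pkap Γ t x)⁻¹ := by
  have h1 := pkap_mul Γ (t ^ MulAction.period t x) t x
  have h2 := pkap_mul Γ t (t ^ MulAction.period t x) x
  rw [MulAction.pow_period_smul] at h2
  rw [(Commute.pow_self t (MulAction.period t x)).eq, h2] at h1
  unfold orbGen
  rw [period_smul, eq_mul_inv_iff_mul_eq]
  exact h1.symm

theorem exists_conj_orbGen_pow_smul (t : G) (x : G ⧸ Γ) (n : ℕ) :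
    ∃ a : Γ, orbGen Γ t (t ^ n • x) = a * orbGen Γ t x * a⁻¹ := by
  induction n with
  | zero => exact ⟨1, by simp⟩
  | succ n ih =>
    obtain ⟨a, ha⟩ := ih
    refine ⟨pkap Γ t (t ^ n • x) * a, ?_⟩
    rw [pow_succ', mul_smul, orbGen_smul, ha]
    group

theorem exists_conj_orbGen_zpow_smul (t : G) (x : G ⧸ Γ) (j : ℤ) :
    ∃ a : Γ, orbGen Γ t (t ^ j • x) = a * orbGen Γ t x * a⁻¹ := by
  obtain ⟨n, rfl | rfl⟩ := Int.eq_nat_or_neg j
  · rw [zpow_natCast]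
    exact exists_conj_orbGen_pow_smul Γ t x n
  · obtain ⟨a, ha⟩ := exists_conj_orbGen_pow_smul Γ t ((t ^ n)⁻¹ • x) n
    rw [smul_inv_smul] at ha
    refine ⟨a⁻¹, ?_⟩
    rw [zpow_neg, zpow_natCast, ha]
    group

/-- Orbit generators of two points of one `t`-orbit are `Γ`-conjugate. -/
theorem exists_conj_orbGen_of_mem_orbit (t : G) {x y : G ⧸ Γ}
    (h : y ∈ MulAction.orbit (Subgroup.zpowers t) x) :
    ∃ a : Γ, orbGen Γ t y = a * orbGen Γ t x * a⁻¹ := by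
  obtain ⟨g, rfl⟩ := MulAction.mem_orbit_iff.mp h
  obtain ⟨j, hj⟩ := Subgroup.mem_zpowers_iff.mp g.2
  have hg : g • x = t ^ j • x := by rw [hj]; rfl
  rw [hg]
  exact exists_conj_orbGen_zpow_smul Γ t x j

/-! ### Additive functions and `Shap.Kills` in terms of orbit generators -/

section Kills

variable {Γ} {A : Type*} [AddCommGroup A]

theorem IsAdd.map_pow {φ : Γ → A} (hφ : Shap.IsAdd φ) (a : Γ) (k : ℕ) : φ (a ^ k) = k • φ a := by
  induction k with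
  | zero => simp [hφ.map_one]
  | succ k ih => rw [pow_succ, hφ, ih, succ_nsmul]

theorem IsAdd.map_conj' {φ : Γ → A} (hφ : Shap.IsAdd φ) (a b : Γ) : φ (a * b * a⁻¹) = φ b := by
  rw [hφ, hφ, hφ.map_inv]; abel

/-- An additive function takes the same value on the orbit generators of one `t`-orbit. -/
theorem map_orbGen_of_mem_orbit {φ : Γ → A} (hφ : Shap.IsAdd φ) (t : G) {x y : G ⧸ Γ}
    (h : y ∈ MulAction.orbit (Subgroup.zpowers t) x) : φ (orbGen Γ t y) = φ (orbGen Γ t x) := by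
  obtain ⟨a, ha⟩ := exists_conj_orbGen_of_mem_orbit Γ t h
  rw [ha, IsAdd.map_conj' hφ]

theorem map_orbGen_smul {φ : Γ → A} (hφ : Shap.IsAdd φ) (t : G) (x : G ⧸ Γ) :
    φ (orbGen Γ t (t • x)) = φ (orbGen Γ t x) := by
  rw [orbGen_smul, IsAdd.map_conj' hφ]

omit [AddCommGroup A] in
/-- The orbit generator is the closed-orbit value of the Shapiro cocycle. -/
theorem zc_pow_period {φ : Γ → A} (t : G) (x : G ⧸ Γ) :
    Shap.zc Γ φ (t ^ MulAction.period t x) x = φ (orbGen Γ t x) := rfl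

theorem sum_zc_period {φ : Γ → A} (hφ : Shap.IsAdd φ) (t : G) (x : G ⧸ Γ) :
    ∑ i ∈ Finset.range (MulAction.period t x), Shap.zc Γ φ t (t ^ i • x) = φ (orbGen Γ t x) := by
  rw [← Shap.zc_pow hφ]; rfl

/-- `φ` kills the `Γ`-conjugates of powers of `t` iff it kills every orbit generator. -/
theorem kills_iff_orbGen {φ : Γ → A} (hφ : Shap.IsAdd φ) (t : G) :
    Shap.Kills φ t ↔ ∀ x : G ⧸ Γ, φ (orbGen Γ t x) = 0 := by
  constructor
  · intro hk x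
    exact hk.zc_pow_eq_zero hφ x _ (MulAction.pow_period_smul t x)
  · intro h u e hu
    rw [← Shap.zc_pow_of_fixed hφ t u e hu]
    have hfix := (Shap.smul_coe_eq_self_iff Γ (t ^ e) u).mpr hu
    obtain ⟨k, rfl⟩ := MulAction.pow_smul_eq_iff_period_dvd.mp hfix
    show φ (pkap Γ (t ^ (MulAction.period t ((u : G) : G ⧸ Γ) * k)) ((u : G) : G ⧸ Γ)) = 0
    rw [pkap_pow_period_mul, IsAdd.map_pow hφ, h, smul_zero]

/-- The zpow form of `Shap.Kills`. -/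
theorem Kills.zpow {φ : Γ → A} (hφ : Shap.IsAdd φ) {t : G} (hk : Shap.Kills φ t) (u : G) (j : ℤ)
    (h : u⁻¹ * t ^ j * u ∈ Γ) : φ ⟨u⁻¹ * t ^ j * u, h⟩ = 0 := by
  obtain ⟨n, rfl | rfl⟩ := Int.eq_nat_or_neg j
  · have h' : u⁻¹ * t ^ n * u ∈ Γ := by simpa using h
    have e : (⟨u⁻¹ * t ^ (n : ℤ) * u, h⟩ : Γ) = ⟨u⁻¹ * t ^ n * u, h'⟩ := Subtype.ext (by simp)
    rw [e]
    exact hk u n h'
  · have h' : u⁻¹ * t ^ n * u ∈ Γ := by
      have := Γ.inv_mem h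
      have e : (u⁻¹ * t ^ (-(n : ℤ)) * u)⁻¹ = u⁻¹ * t ^ n * u := by
        rw [zpow_neg, zpow_natCast]; group
      rwa [e] at this
    have e : (⟨u⁻¹ * t ^ (-(n : ℤ)) * u, h⟩ : Γ) = (⟨u⁻¹ * t ^ n * u, h'⟩ : Γ)⁻¹ := by
      apply Subtype.ext
      rw [Subgroup.coe_inv]
      show u⁻¹ * t ^ (-(n : ℤ)) * u = (u⁻¹ * t ^ n * u)⁻¹
      rw [zpow_neg, zpow_natCast]; group
    rw [e, hφ.map_inv, hk u n h', neg_zero]

/-- `Shap.Kills` is invariant under conjugation of `t`. -/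
theorem kills_conj {φ : Γ → A} {t : G} (hk : Shap.Kills φ t) (g : G) :
    Shap.Kills φ (g * t * g⁻¹) := by
  intro u e hu
  have e1 : u⁻¹ * (g * t * g⁻¹) ^ e * u = (g⁻¹ * u)⁻¹ * t ^ e * (g⁻¹ * u) := by
    rw [conj_pow]; group
  have hu' : (g⁻¹ * u)⁻¹ * t ^ e * (g⁻¹ * u) ∈ Γ := e1 ▸ hu
  have e2 : (⟨u⁻¹ * (g * t * g⁻¹) ^ e * u, hu⟩ : Γ) = ⟨_, hu'⟩ := Subtype.ext e1
  rw [e2]
  exact hk _ e hu'

/-- `Shap.Kills` is invariant under multiplying `t` by a central element of `Γ` killed by `φ`. -/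
theorem kills_central_mul {φ : Γ → A} (hφ : Shap.IsAdd φ) {t z : G} (hz : ∀ g : G, g * z = z * g)
    (hzm : z ∈ Γ) (h0 : φ ⟨z, hzm⟩ = 0) (hk : Shap.Kills φ t) : Shap.Kills φ (z * t) := by
  intro u e hu
  have hcomm : Commute z t := (hz t).symm
  have hze : ∀ g : G, g * z ^ e = z ^ e * g := fun g => ((Commute.pow_right (hz g) e)).eq
  have e1 : u⁻¹ * (z * t) ^ e * u = z ^ e * (u⁻¹ * t ^ e * u) := by
    rw [hcomm.mul_pow, ← mul_assoc u⁻¹, hze u⁻¹]; group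
  have hzem : z ^ e ∈ Γ := Γ.pow_mem hzm e
  have hu' : u⁻¹ * t ^ e * u ∈ Γ := by
    have h2 : u⁻¹ * t ^ e * u = (z ^ e)⁻¹ * (u⁻¹ * (z * t) ^ e * u) := by rw [e1]; group
    rw [h2]
    exact Γ.mul_mem (Γ.inv_mem hzem) hu
  have e2 : (⟨u⁻¹ * (z * t) ^ e * u, hu⟩ : Γ) = (⟨z, hzm⟩ : Γ) ^ e * ⟨u⁻¹ * t ^ e * u, hu'⟩ :=
    Subtype.ext e1
  rw [e2, hφ, IsAdd.map_pow hφ, h0, smul_zero, zero_add]
  exact hk u e hu'

end Kills

/-! ### Orbit representatives and the double-coset decomposition -/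

/-- A chosen point of a `t`-orbit. -/
noncomputable def orep (t : G) (o : OQ Γ t) : G ⧸ Γ := Quotient.out o

theorem opi_orep (t : G) (o : OQ Γ t) : opi Γ t (orep Γ t o) = o := Quotient.out_eq o

theorem orep_opi_mem_orbit (t : G) (x : G ⧸ Γ) :
    orep Γ t (opi Γ t x) ∈ MulAction.orbit (Subgroup.zpowers t) x := by
  have h : opi Γ t (orep Γ t (opi Γ t x)) = opi Γ t x := opi_orep Γ t _
  exact (MulAction.orbitRel_apply).mp (Quotient.exact h)

theorem mem_orbit_orep_opi (t : G) (x : G ⧸ Γ) :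
    x ∈ MulAction.orbit (Subgroup.zpowers t) (orep Γ t (opi Γ t x)) := by
  have h : opi Γ t x = opi Γ t (orep Γ t (opi Γ t x)) := (opi_orep Γ t _).symm
  exact (MulAction.orbitRel_apply).mp (Quotient.exact h)

theorem exists_zpow_smul_orep (t : G) (x : G ⧸ Γ) :
    ∃ j : ℤ, t ^ j • orep Γ t (opi Γ t x) = x := by
  obtain ⟨g, hg⟩ := MulAction.mem_orbit_iff.mp (mem_orbit_orep_opi Γ t x)
  obtain ⟨j, hj⟩ := Subgroup.mem_zpowers_iff.mp g.2
  refine ⟨j, ?_⟩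
  rw [hj]
  exact hg

theorem opi_zpow_smul (t : G) (j : ℤ) (x : G ⧸ Γ) : opi Γ t (t ^ j • x) = opi Γ t x := by
  apply Quotient.sound
  show MulAction.orbitRel _ _ _ _
  rw [MulAction.orbitRel_apply]
  exact ⟨⟨t ^ j, j, rfl⟩, rfl⟩

/-- **Double cosets `Γ \ G / ⟨t⟩`**: every `g` is `γ * (psec (orep o))⁻¹ * t ^ j` for a unique
`t`-orbit `o` on `G ⧸ Γ` (namely the orbit of `g⁻¹Γ`). -/
theorem exists_unique_orbit (t : G) (g : G) :
    ∃! o : OQ Γ t, ∃ (γ : Γ) (j : ℤ), g = γ * (psec Γ (orep Γ t o))⁻¹ * t ^ j := by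
  refine ⟨opi Γ t ((g⁻¹ : G) : G ⧸ Γ), ?_, ?_⟩
  · obtain ⟨j, hj⟩ := exists_zpow_smul_orep Γ t ((g⁻¹ : G) : G ⧸ Γ)
    set y := orep Γ t (opi Γ t ((g⁻¹ : G) : G ⧸ Γ)) with hy
    have h1 : ((t ^ j * psec Γ y : G) : G ⧸ Γ) = ((g⁻¹ : G) : G ⧸ Γ) := by
      rw [← smul_coe_eq, psec_spec]; exact hj
    have h2 : g * (t ^ j * psec Γ y) ∈ Γ := by
      have := QuotientGroup.eq.mp h1.symm
      rwa [inv_inv] at this
    refine ⟨⟨_, h2⟩, -j, ?_⟩
    show g = g * (t ^ j * psec Γ y) * (psec Γ y)⁻¹ * t ^ (-j)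
    rw [zpow_neg]; group
  · rintro o ⟨γ, j, hg⟩
    have h1 : ((g⁻¹ : G) : G ⧸ Γ) = t ^ (-j) • orep Γ t o := by
      have h2 : t ^ (-j) • orep Γ t o = ((t ^ (-j) * psec Γ (orep Γ t o) : G) : G ⧸ Γ) := by
        rw [← smul_coe_eq, psec_spec]
      rw [h2, QuotientGroup.eq, inv_inv, hg]
      have : γ * (psec Γ (orep Γ t o))⁻¹ * t ^ j * (t ^ (-j) * psec Γ (orep Γ t o)) = γ := by
        rw [zpow_neg]; group
      rw [this]
      exact γ.2
    rw [h1, opi_zpow_smul, opi_orep]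

/-- `φ` kills the conjugates of powers of `t` iff it kills one orbit generator per `t`-orbit. -/
theorem kills_iff_orep {A : Type*} [AddCommGroup A] {φ : Γ → A} (hφ : Shap.IsAdd φ) (t : G) :
    Shap.Kills φ t ↔ ∀ o : OQ Γ t, φ (orbGen Γ t (orep Γ t o)) = 0 := by
  rw [kills_iff_orbGen hφ]
  constructor
  · intro h o
    exact h _
  · intro h x
    rw [map_orbGen_of_mem_orbit hφ t (mem_orbit_orep_opi Γ t x)]
    exact h _

/-! ### Elements with a central prime power in `Γ` -/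

/-- If `t ^ p` is central and lies in `Γ` (`p` prime) then `t ^ p` acts trivially, every orbit has
length `1` or `p`, and the orbit generators are `pkap Γ t x` (fixed points) or `t ^ p`. -/
theorem pow_smul_of_central {t : G} {p : ℕ} (hc : ∀ g : G, g * t ^ p = t ^ p * g)
    (hmem : t ^ p ∈ Γ) (x : G ⧸ Γ) : t ^ p • x = x := by
  induction x using QuotientGroup.induction_on with
  | H u =>
    rw [smul_coe_eq, eq_comm, QuotientGroup.eq, ← hc, inv_mul_cancel_left]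
    exact hmem

theorem orbGen_of_central {t : G} {p : ℕ} (hp : p.Prime) (hc : ∀ g : G, g * t ^ p = t ^ p * g)
    (hmem : t ^ p ∈ Γ) (x : G ⧸ Γ) :
    (t • x = x ∧ orbGen Γ t x = pkap Γ t x) ∨ (t • x ≠ x ∧ orbGen Γ t x = ⟨t ^ p, hmem⟩) := by
  have hdvd : MulAction.period t x ∣ p :=
    MulAction.pow_smul_eq_iff_period_dvd.mp (pow_smul_of_central Γ hc hmem x)
  rcases (Nat.dvd_prime hp).mp hdvd with h1 | h1
  · left
    refine ⟨MulAction.period_eq_one_iff.mp h1, ?_⟩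
    unfold orbGen
    rw [h1, pow_one]
  · right
    refine ⟨fun hfix => ?_, Subtype.ext ?_⟩
    · rw [← MulAction.period_eq_one_iff, h1] at hfix
      exact hp.one_lt.ne' hfix
    · rw [coe_orbGen, h1]
      show (psec Γ x)⁻¹ * t ^ p * psec Γ x = t ^ p
      rw [mul_assoc, ← hc, inv_mul_cancel_left]

theorem kills_iff_of_prime_central {A : Type*} [AddCommGroup A] {φ : Γ → A} (hφ : Shap.IsAdd φ)
    {t : G} {p : ℕ} (hp : p.Prime) (hc : ∀ g : G, g * t ^ p = t ^ p * g) (hmem : t ^ p ∈ Γ) :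
    Shap.Kills φ t ↔ φ ⟨t ^ p, hmem⟩ = 0 ∧ ∀ x : G ⧸ Γ, t • x = x → φ (pkap Γ t x) = 0 := by
  constructor
  · intro hk
    refine ⟨?_, fun x hx => ?_⟩
    · have h1 : (1 : G)⁻¹ * t ^ p * 1 ∈ Γ := by simpa using hmem
      have e : (⟨t ^ p, hmem⟩ : Γ) = ⟨(1 : G)⁻¹ * t ^ p * 1, h1⟩ := Subtype.ext (by simp)
      rw [e]
      exact hk 1 p h1
    · have h1 := (kills_iff_orbGen hφ t).mp hk x
      rcases orbGen_of_central Γ hp hc hmem x with ⟨_, h2⟩ | ⟨h2, _⟩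
      · rwa [h2] at h1
      · exact absurd hx h2
  · rintro ⟨h0, hfix⟩
    rw [kills_iff_orbGen hφ]
    intro x
    rcases orbGen_of_central Γ hp hc hmem x with ⟨h1, h2⟩ | ⟨_, h2⟩
    · rw [h2]; exact hfix x h1
    · rw [h2]; exact h0

end Generic

/-! ## Part B: `G = SL(2, ℤ)` -/

section SL2

open Matrix MatrixGroups ModularGroup CongruenceSubgroup ModularCurve.Period

variable (Γ : Subgroup SL(2, ℤ))

/-! ### (I1) `-1`, `S`, `R = S * T` on the coset space -/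

theorem neg_one_smul (hneg : -1 ∈ Γ) (x : SL(2, ℤ) ⧸ Γ) : (-1 : SL(2, ℤ)) • x = x := by
  induction x using QuotientGroup.induction_on with
  | H g =>
    rw [smul_coe_eq, eq_comm, QuotientGroup.eq]
    have h : g⁻¹ * (-1 * g) = -1 := by rw [neg_mul, one_mul, mul_neg, inv_mul_cancel]
    rw [h]
    exact hneg

theorem S_mul_S : (S * S : SL(2, ℤ)) = -1 := by decide

theorem R_mul_R_mul_R : (S * T * (S * T) * (S * T) : SL(2, ℤ)) = -1 := by decide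

theorem neg_one_central (g : SL(2, ℤ)) : g * (-1) = -1 * g := by simp

theorem S_sq_smul (hneg : -1 ∈ Γ) (x : SL(2, ℤ) ⧸ Γ) : (S * S : SL(2, ℤ)) • x = x := by
  rw [S_mul_S]; exact neg_one_smul Γ hneg x

theorem R_cube_smul (hneg : -1 ∈ Γ) (x : SL(2, ℤ) ⧸ Γ) :
    (S * T * (S * T) * (S * T) : SL(2, ℤ)) • x = x := by
  rw [R_mul_R_mul_R]; exact neg_one_smul Γ hneg x

theorem S_smul_S_smul (hneg : -1 ∈ Γ) (x : SL(2, ℤ) ⧸ Γ) : S • S • x = x := by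
  rw [← mul_smul]; exact S_sq_smul Γ hneg x

theorem R_smul_R_smul_R_smul (hneg : -1 ∈ Γ) (x : SL(2, ℤ) ⧸ Γ) :
    (S * T : SL(2, ℤ)) • (S * T : SL(2, ℤ)) • (S * T : SL(2, ℤ)) • x = x := by
  rw [← mul_smul, ← mul_smul]; exact R_cube_smul Γ hneg x

theorem S_inv_smul (hneg : -1 ∈ Γ) (x : SL(2, ℤ) ⧸ Γ) : (S : SL(2, ℤ))⁻¹ • x = S • x := by
  rw [inv_smul_eq_iff, S_smul_S_smul Γ hneg]

theorem T_eq_S_inv_mul_R : (T : SL(2, ℤ)) = S⁻¹ * (S * T) := by rw [inv_mul_cancel_left]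

theorem T_smul (x : SL(2, ℤ) ⧸ Γ) : (T : SL(2, ℤ)) • x = (S : SL(2, ℤ))⁻¹ • (S * T : SL(2, ℤ)) • x := by
  rw [← mul_smul, inv_mul_cancel_left]

theorem T_smul' (hneg : -1 ∈ Γ) (x : SL(2, ℤ) ⧸ Γ) :
    (T : SL(2, ℤ)) • x = (S : SL(2, ℤ)) • (S * T : SL(2, ℤ)) • x := by
  rw [T_smul, S_inv_smul Γ hneg]

/-- The permutation of the coset space given by `S`. -/
def permS : Equiv.Perm (SL(2, ℤ) ⧸ Γ) := MulAction.toPerm (S : SL(2, ℤ))

/-- The permutation of the coset space given by `R = S * T`. -/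
def permR : Equiv.Perm (SL(2, ℤ) ⧸ Γ) := MulAction.toPerm (S * T : SL(2, ℤ))

/-- The permutation of the coset space given by `T`. -/
def permT : Equiv.Perm (SL(2, ℤ) ⧸ Γ) := MulAction.toPerm (T : SL(2, ℤ))

@[simp] theorem permS_apply (x : SL(2, ℤ) ⧸ Γ) : permS Γ x = (S : SL(2, ℤ)) • x := rfl

@[simp] theorem permR_apply (x : SL(2, ℤ) ⧸ Γ) : permR Γ x = (S * T : SL(2, ℤ)) • x := rfl

@[simp] theorem permT_apply (x : SL(2, ℤ) ⧸ Γ) : permT Γ x = (T : SL(2, ℤ)) • x := rfl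

theorem permS_mul_self (hneg : -1 ∈ Γ) : permS Γ * permS Γ = 1 := by
  ext x
  simp only [Equiv.Perm.coe_mul, Function.comp_apply, permS_apply, Equiv.Perm.coe_one, id_eq]
  rw [S_smul_S_smul Γ hneg]

theorem permS_sq (hneg : -1 ∈ Γ) : permS Γ ^ 2 = 1 := by
  rw [pow_two, permS_mul_self Γ hneg]

theorem permS_inv (hneg : -1 ∈ Γ) : (permS Γ)⁻¹ = permS Γ :=
  inv_eq_of_mul_eq_one_left (permS_mul_self Γ hneg)

theorem permR_cube (hneg : -1 ∈ Γ) : permR Γ ^ 3 = 1 := by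
  ext x
  simp only [pow_succ, pow_zero, one_mul, Equiv.Perm.coe_mul, Function.comp_apply, permR_apply,
    Equiv.Perm.coe_one, id_eq]
  rw [R_smul_R_smul_R_smul Γ hneg]

theorem permT_eq : permT Γ = (permS Γ)⁻¹ * permR Γ := by
  rw [eq_inv_mul_iff_mul_eq]
  ext x
  simp only [Equiv.Perm.coe_mul, Function.comp_apply, permS_apply, permR_apply, permT_apply]
  rw [← mul_smul]

theorem permT_eq' (hneg : -1 ∈ Γ) : permT Γ = permS Γ * permR Γ := by
  rw [permT_eq, permS_inv Γ hneg]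

/-! ### (I2) transitivity -/

theorem exists_smul_eq (x y : SL(2, ℤ) ⧸ Γ) : ∃ g : SL(2, ℤ), g • x = y :=
  MulAction.exists_smul_eq _ x y

/-- A function on the coset space invariant under `S` and `R = S * T` is constant. -/
theorem eq_of_invariant {β : Type*} (F : SL(2, ℤ) ⧸ Γ → β) (hS : ∀ x, F ((S : SL(2, ℤ)) • x) = F x)
    (hR : ∀ x, F ((S * T : SL(2, ℤ)) • x) = F x) (x y : SL(2, ℤ) ⧸ Γ) : F x = F y := by
  have hall : ∀ g : SL(2, ℤ), ∀ x, F (g • x) = F x := by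
    intro g
    have hg : g ∈ Subgroup.closure ({S, S * T} : Set SL(2, ℤ)) := by
      rw [Psl2Free.closure_S_R]; trivial
    induction hg using Subgroup.closure_induction with
    | mem y hy =>
      rcases hy with rfl | rfl
      · exact hS
      · exact hR
    | one => intro x; rw [one_smul]
    | mul y z _ _ hy hz => intro x; rw [mul_smul, hy, hz]
    | inv y _ hy =>
      intro x
      have := hy (y⁻¹ • x)
      rw [smul_inv_smul] at this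
      exact this.symm
  obtain ⟨g, rfl⟩ := exists_smul_eq Γ x y
  exact (hall g x).symm

/-- The permutation form of `eq_of_invariant`. -/
theorem eq_of_invariant_perm {β : Type*} (F : SL(2, ℤ) ⧸ Γ → β) (hS : ∀ x, F (permS Γ x) = F x)
    (hR : ∀ x, F (permR Γ x) = F x) (x y : SL(2, ℤ) ⧸ Γ) : F x = F y :=
  eq_of_invariant Γ F hS hR x y

/-- `permS` and `permR` generate a transitive group. -/
theorem exists_mem_closure_perm (x y : SL(2, ℤ) ⧸ Γ) :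
    ∃ w ∈ Subgroup.closure ({permS Γ, permR Γ} : Set (Equiv.Perm (SL(2, ℤ) ⧸ Γ))), w x = y := by
  obtain ⟨g, rfl⟩ := exists_smul_eq Γ x y
  refine ⟨MulAction.toPerm g, ?_, rfl⟩
  have hg : g ∈ Subgroup.closure ({S, S * T} : Set SL(2, ℤ)) := by
    rw [Psl2Free.closure_S_R]; trivial
  have hmap := Subgroup.mem_map_of_mem (MulAction.toPermHom SL(2, ℤ) (SL(2, ℤ) ⧸ Γ)) hg
  rw [MonoidHom.map_closure] at hmap
  have himg : (MulAction.toPermHom SL(2, ℤ) (SL(2, ℤ) ⧸ Γ)) '' ({S, S * T} : Set SL(2, ℤ))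
      = {permS Γ, permR Γ} := by
    rw [Set.image_pair]; rfl
  rw [himg] at hmap
  exact hmap

/-! ### (I3) fixed cosets and orbit products of the cocycle -/

theorem coe_pkap_S_mul_S (hneg : -1 ∈ Γ) (x : SL(2, ℤ) ⧸ Γ) :
    (pkap Γ (S * S) x : SL(2, ℤ)) = -1 := by
  rw [Shap.coe_pkap_of_fixed Γ (S_sq_smul Γ hneg x), S_mul_S]
  simp

theorem coe_pkap_R_cube (hneg : -1 ∈ Γ) (x : SL(2, ℤ) ⧸ Γ) :
    (pkap Γ (S * T * (S * T) * (S * T)) x : SL(2, ℤ)) = -1 := by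
  rw [Shap.coe_pkap_of_fixed Γ (R_cube_smul Γ hneg x), R_mul_R_mul_R]
  simp

/-- The `S`-orbit product of the cocycle is `-1` (at every coset, fixed or not). -/
theorem pkap_S_mul_pkap_S (hneg : -1 ∈ Γ) (x : SL(2, ℤ) ⧸ Γ) :
    pkap Γ S ((S : SL(2, ℤ)) • x) * pkap Γ S x = ⟨-1, hneg⟩ := by
  rw [← pkap_mul]
  exact Subtype.ext (coe_pkap_S_mul_S Γ hneg x)

/-- The `R`-orbit product of the cocycle is `-1` (at every coset, fixed or not). -/
theorem pkap_R_mul_pkap_R_mul_pkap_R (hneg : -1 ∈ Γ) (x : SL(2, ℤ) ⧸ Γ) :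
    pkap Γ (S * T) ((S * T : SL(2, ℤ)) • (S * T : SL(2, ℤ)) • x)
      * pkap Γ (S * T) ((S * T : SL(2, ℤ)) • x) * pkap Γ (S * T) x = ⟨-1, hneg⟩ := by
  rw [← pkap_mul, ← pkap_mul]
  exact Subtype.ext (coe_pkap_R_cube Γ hneg x)

theorem S_smul_eq_self_iff (x : SL(2, ℤ) ⧸ Γ) :
    (S : SL(2, ℤ)) • x = x ↔ (psec Γ x)⁻¹ * S * psec Γ x ∈ Γ := smul_eq_self_iff Γ S x

theorem R_smul_eq_self_iff (x : SL(2, ℤ) ⧸ Γ) :
    (S * T : SL(2, ℤ)) • x = x ↔ (psec Γ x)⁻¹ * (S * T) * psec Γ x ∈ Γ :=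
  smul_eq_self_iff Γ (S * T) x

theorem isOfFinOrder_pkap_S {x : SL(2, ℤ) ⧸ Γ} (h : (S : SL(2, ℤ)) • x = x) :
    IsOfFinOrder (pkap Γ S x) :=
  isOfFinOrder_pkap_of_fixed Γ h (m := 4) (by norm_num) (by decide)

theorem isOfFinOrder_pkap_R {x : SL(2, ℤ) ⧸ Γ} (h : (S * T : SL(2, ℤ)) • x = x) :
    IsOfFinOrder (pkap Γ (S * T) x) :=
  isOfFinOrder_pkap_of_fixed Γ h (m := 6) (by norm_num) (by decide)

section Add

variable {Γ} {A : Type*} [AddCommGroup A]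

theorem isAdd_of_hom (φ : Additive Γ →+ A) : Shap.IsAdd (fun γ : Γ => φ (Additive.ofMul γ)) :=
  fun a b => φ.map_add (Additive.ofMul a) (Additive.ofMul b)

theorem map_neg_one_add_self {φ : Γ → A} (hφ : Shap.IsAdd φ) (hneg : -1 ∈ Γ) :
    φ ⟨-1, hneg⟩ + φ ⟨-1, hneg⟩ = 0 := by
  rw [← hφ]
  have e : (⟨-1, hneg⟩ : Γ) * ⟨-1, hneg⟩ = 1 := Subtype.ext (by simp)
  rw [e, hφ.map_one]

theorem zc_S_add_zc_S {φ : Γ → A} (hφ : Shap.IsAdd φ) (hneg : -1 ∈ Γ) (x : SL(2, ℤ) ⧸ Γ) :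
    Shap.zc Γ φ S ((S : SL(2, ℤ)) • x) + Shap.zc Γ φ S x = φ ⟨-1, hneg⟩ := by
  unfold Shap.zc
  rw [← hφ, pkap_S_mul_pkap_S Γ hneg]

theorem zc_R_add_zc_R_add_zc_R {φ : Γ → A} (hφ : Shap.IsAdd φ) (hneg : -1 ∈ Γ)
    (x : SL(2, ℤ) ⧸ Γ) :
    Shap.zc Γ φ (S * T) ((S * T : SL(2, ℤ)) • (S * T : SL(2, ℤ)) • x)
      + Shap.zc Γ φ (S * T) ((S * T : SL(2, ℤ)) • x) + Shap.zc Γ φ (S * T) x = φ ⟨-1, hneg⟩ := by
  unfold Shap.zc
  rw [← hφ, ← hφ, pkap_R_mul_pkap_R_mul_pkap_R Γ hneg]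

/-- `φ` kills the conjugates of powers of `S` iff it kills `-1` and the cocycle values at the
`S`-fixed cosets. -/
theorem kills_S_iff {φ : Γ → A} (hφ : Shap.IsAdd φ) (hneg : -1 ∈ Γ) :
    Shap.Kills φ S ↔ φ ⟨-1, hneg⟩ = 0 ∧
      ∀ x : SL(2, ℤ) ⧸ Γ, (S : SL(2, ℤ)) • x = x → φ (pkap Γ S x) = 0 := by
  have hS2 : (S : SL(2, ℤ)) ^ 2 = -1 := Psl2Free.S_sq
  have hmem : (S : SL(2, ℤ)) ^ 2 ∈ Γ := by rw [hS2]; exact hneg
  have hc : ∀ g : SL(2, ℤ), g * S ^ 2 = S ^ 2 * g := by intro g; rw [hS2]; simp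
  have e : (⟨(S : SL(2, ℤ)) ^ 2, hmem⟩ : Γ) = ⟨-1, hneg⟩ := Subtype.ext hS2
  rw [kills_iff_of_prime_central Γ hφ Nat.prime_two hc hmem, e]

/-- `φ` kills the conjugates of powers of `R = S * T` iff it kills `-1` and the cocycle values
at the `R`-fixed cosets. -/
theorem kills_R_iff {φ : Γ → A} (hφ : Shap.IsAdd φ) (hneg : -1 ∈ Γ) :
    Shap.Kills φ (S * T) ↔ φ ⟨-1, hneg⟩ = 0 ∧
      ∀ x : SL(2, ℤ) ⧸ Γ, (S * T : SL(2, ℤ)) • x = x → φ (pkap Γ (S * T) x) = 0 := by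
  have hR3 : (S * T : SL(2, ℤ)) ^ 3 = -1 := Psl2Free.R_cube
  have hmem : (S * T : SL(2, ℤ)) ^ 3 ∈ Γ := by rw [hR3]; exact hneg
  have hc : ∀ g : SL(2, ℤ), g * (S * T) ^ 3 = (S * T) ^ 3 * g := by intro g; rw [hR3]; simp
  have e : (⟨(S * T : SL(2, ℤ)) ^ 3, hmem⟩ : Γ) = ⟨-1, hneg⟩ := Subtype.ext hR3
  rw [kills_iff_of_prime_central Γ hφ Nat.prime_three hc hmem, e]

/-- Killing all finite-order elements of `Γ` is the same as `Kills S ∧ Kills R`. -/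
theorem kills_finOrder_iff {φ : Γ → A} (hφ : Shap.IsAdd φ) :
    (∀ γ : Γ, IsOfFinOrder γ → φ γ = 0) ↔ Shap.Kills φ S ∧ Shap.Kills φ (S * T) := by
  constructor
  · intro h
    exact ⟨Shap.kills_of_finOrder (m := 4) (by norm_num) (by decide) h,
      Shap.kills_of_finOrder (m := 6) (by norm_num) (by decide) h⟩
  · rintro ⟨hS, hR⟩ γ hγ
    have hγ' : IsOfFinOrder (γ : SL(2, ℤ)) := by
      rw [isOfFinOrder_iff_pow_eq_one] at hγ ⊢
      obtain ⟨n, hn, h1⟩ := hγ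
      exact ⟨n, hn, by rw [← Subgroup.coe_pow, h1]; rfl⟩
    rcases EllConj.finOrder_conj (γ : SL(2, ℤ)) hγ' with ⟨g, k, h⟩ | ⟨g, k, h⟩
    · have hmem : (g⁻¹)⁻¹ * S ^ k * g⁻¹ ∈ Γ := by rw [inv_inv, ← h]; exact γ.2
      have e : γ = ⟨(g⁻¹)⁻¹ * S ^ k * g⁻¹, hmem⟩ := Subtype.ext (by
        show (γ : SL(2, ℤ)) = (g⁻¹)⁻¹ * S ^ k * g⁻¹
        rw [inv_inv]; exact h)
      rw [e]
      exact Kills.zpow hφ hS g⁻¹ k hmem
    · have hmem : (g⁻¹)⁻¹ * (S * T) ^ k * g⁻¹ ∈ Γ := by rw [inv_inv, ← h]; exact γ.2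
      have e : γ = ⟨(g⁻¹)⁻¹ * (S * T) ^ k * g⁻¹, hmem⟩ := Subtype.ext (by
        show (γ : SL(2, ℤ)) = (g⁻¹)⁻¹ * (S * T) ^ k * g⁻¹
        rw [inv_inv]; exact h)
      rw [e]
      exact Kills.zpow hφ hR g⁻¹ k hmem

/-! ### (I5) parabolic homomorphisms -/

theorem kills_T_of_isParabolicHom (φ : Additive Γ →+ A) (h : IsParabolicHom Γ φ) :
    Shap.Kills (fun γ : Γ => φ (Additive.ofMul γ)) T := by
  intro u e hu
  apply h
  show ((u⁻¹ * T ^ e * u : SL(2, ℤ)) : Matrix (Fin 2) (Fin 2) ℤ).trace ^ 2 = 4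
  rw [← zpow_natCast, Fermat.Agent.S21.Shapiro.conj_T_zpow_trace]
  norm_num

theorem isParabolicHom_of_kills_T (hneg : -1 ∈ Γ) (φ : Additive Γ →+ A)
    (h1 : φ (Additive.ofMul (⟨-1, hneg⟩ : Γ)) = 0)
    (hk : Shap.Kills (fun γ : Γ => φ (Additive.ofMul γ)) T) : IsParabolicHom Γ φ := by
  intro γ hγ
  obtain ⟨δ, m, h | h⟩ := Fermat.Agent.S21.exists_conj_T_zpow γ.1 hγ
  · have hmem : (δ⁻¹)⁻¹ * T ^ m * δ⁻¹ ∈ Γ := by rw [inv_inv, ← h]; exact γ.2
    have e : γ = ⟨(δ⁻¹)⁻¹ * T ^ m * δ⁻¹, hmem⟩ := Subtype.ext (by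
      show (γ : SL(2, ℤ)) = (δ⁻¹)⁻¹ * T ^ m * δ⁻¹
      rw [inv_inv]; exact h)
    rw [e]
    exact Kills.zpow (isAdd_of_hom φ) hk δ⁻¹ m hmem
  · have hmem : (δ⁻¹)⁻¹ * T ^ m * δ⁻¹ ∈ Γ := by
      have h2 : (δ⁻¹)⁻¹ * T ^ m * δ⁻¹ = -1 * (γ : SL(2, ℤ)) := by rw [inv_inv, h]; simp
      rw [h2]
      exact Γ.mul_mem hneg γ.2
    have e : γ = (⟨-1, hneg⟩ : Γ) * ⟨(δ⁻¹)⁻¹ * T ^ m * δ⁻¹, hmem⟩ :=
      Subtype.ext (by
        show (γ : SL(2, ℤ)) = -1 * ((δ⁻¹)⁻¹ * T ^ m * δ⁻¹)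
        rw [inv_inv, h]; simp)
    rw [e]
    have h3 := isAdd_of_hom φ (⟨-1, hneg⟩ : Γ) ⟨(δ⁻¹)⁻¹ * T ^ m * δ⁻¹, hmem⟩
    have h4 := Kills.zpow (isAdd_of_hom φ) hk δ⁻¹ m hmem
    simp only at h3 h4
    rw [h3, h1, h4, add_zero]

/-- **Bridge to the Prelude's parabolic homs**: a hom is parabolic and kills the finite-order
elements iff it kills the conjugates of powers of `S`, `R = S * T` and `T`. -/
theorem isParabolicHom_and_finOrder_iff (hneg : -1 ∈ Γ) (φ : Additive Γ →+ A) :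
    (IsParabolicHom Γ φ ∧ ∀ γ : Γ, IsOfFinOrder γ → φ (Additive.ofMul γ) = 0) ↔
      Shap.Kills (fun γ : Γ => φ (Additive.ofMul γ)) S ∧
      Shap.Kills (fun γ : Γ => φ (Additive.ofMul γ)) (S * T) ∧
      Shap.Kills (fun γ : Γ => φ (Additive.ofMul γ)) T := by
  constructor
  · rintro ⟨hpar, hfin⟩
    obtain ⟨hS, hR⟩ := (kills_finOrder_iff (isAdd_of_hom φ)).mp hfin
    exact ⟨hS, hR, kills_T_of_isParabolicHom φ hpar⟩
  · rintro ⟨hS, hR, hT⟩
    have hfin := (kills_finOrder_iff (isAdd_of_hom φ)).mpr ⟨hS, hR⟩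
    refine ⟨isParabolicHom_of_kills_T hneg φ ?_ hT, hfin⟩
    exact ((kills_S_iff (isAdd_of_hom φ) hneg).mp hS).1

/-- The twisted parabolic `R * S = S * T * S = -(S * T * S⁻¹)`: same kernel condition as `T`. -/
theorem kills_RS_iff {φ : Γ → A} (hφ : Shap.IsAdd φ) (hneg : -1 ∈ Γ) (h0 : φ ⟨-1, hneg⟩ = 0) :
    Shap.Kills φ (S * T * S) ↔ Shap.Kills φ T := by
  have hS : (S : SL(2, ℤ))⁻¹ = -S := by decide
  have e1 : (S * T * S : SL(2, ℤ)) = -1 * (S * T * S⁻¹) := by rw [hS]; simp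
  have e2 : (T : SL(2, ℤ)) = -1 * (S⁻¹ * (S * T * S) * (S⁻¹)⁻¹) := by
    have h3 : (S⁻¹ * (S * T * S) * (S⁻¹)⁻¹ : SL(2, ℤ)) = T * (S * S) := by group
    rw [h3, S_mul_S]; simp
  constructor
  · intro h
    rw [e2]
    exact kills_central_mul hφ (fun g => by simp) hneg h0 (kills_conj h S⁻¹)
  · intro h
    rw [e1]
    exact kills_central_mul hφ (fun g => by simp) hneg h0 (kills_conj h S)

end Add

/-! ### (I4) cusps: the `T`-orbit generators are the positive primitive parabolics -/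

/-- The generator of the cusp stabiliser attached to the `T`-orbit `o`:
`(psec r)⁻¹ * T ^ e * psec r`, `r = orep Γ T o` the chosen point of `o`, `e` its width. -/
noncomputable def cuspGen (o : OQ Γ T) : Γ := orbGen Γ T (orep Γ T o)

/-- The width of the `T`-orbit `o`. -/
noncomputable def cuspWidth (o : OQ Γ T) : ℕ := MulAction.period (T : SL(2, ℤ)) (orep Γ T o)

theorem cuspWidth_pos [Finite (SL(2, ℤ) ⧸ Γ)] (o : OQ Γ T) : 0 < cuspWidth Γ o :=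
  period_pos Γ T _

theorem coe_cuspGen (o : OQ Γ T) :
    (cuspGen Γ o : SL(2, ℤ)) = (psec Γ (orep Γ T o))⁻¹ * T ^ cuspWidth Γ o * psec Γ (orep Γ T o) :=
  coe_orbGen Γ T _

/-- The `T`-orbit generators form a system of representatives of the `Γ`-conjugacy classes of
positive primitive parabolic elements: exactly (h1), (h2), (h3) of `CuspAut.sum_comp_aut`. -/
theorem cusp_family (hneg : -1 ∈ Γ) [Finite (SL(2, ℤ) ⧸ Γ)] :
    (∀ o, CuspAut.IsPosPrim Γ (cuspGen Γ o).1) ∧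
    (∀ P : Γ, CuspAut.IsPosPrim Γ P.1 → ∃ o, ∃ γ : Γ, P = γ * cuspGen Γ o * γ⁻¹) ∧
    (∀ o o' (γ : Γ), cuspGen Γ o = γ * cuspGen Γ o' * γ⁻¹ → o = o') := by
  have hmem : ∀ o : OQ Γ T, (psec Γ (orep Γ T o))⁻¹ * T ^ cuspWidth Γ o
      * ((psec Γ (orep Γ T o))⁻¹)⁻¹ ∈ Γ := by
    intro o
    rw [inv_inv]
    exact (conj_pow_mem_iff Γ T _ _).mpr dvd_rfl
  have hgen : ∀ o : OQ Γ T, (⟨(psec Γ (orep Γ T o))⁻¹ * T ^ cuspWidth Γ o
      * ((psec Γ (orep Γ T o))⁻¹)⁻¹, hmem o⟩ : Γ) = cuspGen Γ o := by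
    intro o
    apply Subtype.ext
    show (psec Γ (orep Γ T o))⁻¹ * T ^ cuspWidth Γ o * ((psec Γ (orep Γ T o))⁻¹)⁻¹
      = (cuspGen Γ o : SL(2, ℤ))
    rw [coe_cuspGen, inv_inv]
  obtain ⟨h1, h2, h3⟩ := CuspAut.of_orbits Γ hneg (fun o : OQ Γ T => (psec Γ (orep Γ T o))⁻¹)
    (fun o => cuspWidth Γ o) (fun o => cuspWidth_pos Γ o) hmem
    (by
      intro o k hk hke
      rw [inv_inv, conj_pow_mem_iff]
      intro hdvd
      exact absurd (Nat.le_of_dvd hk hdvd) (not_le.mpr hke))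
    (by
      intro g
      obtain ⟨o, ⟨γ, j, hg⟩, _⟩ := exists_unique_orbit Γ T g
      exact ⟨o, γ, γ.2, j, hg⟩)
    (by
      intro o o' γ hγ j h
      obtain ⟨o₀, _, huniq⟩ := exists_unique_orbit Γ T (psec Γ (orep Γ T o))⁻¹
      have e1 : o = o₀ := huniq o ⟨1, 0, by simp⟩
      have e2 : o' = o₀ := huniq o' ⟨⟨γ, hγ⟩, j, h⟩
      rw [e1, e2])
  refine ⟨fun o => ?_, fun P hP => ?_, fun o o' γ h => ?_⟩
  · rw [← hgen]; exact h1 o
  · obtain ⟨o, γ, h⟩ := h2 P hP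
    exact ⟨o, γ, by rw [h, hgen]⟩
  · exact h3 o o' γ (by rw [hgen, hgen]; exact h)

/-- **(B4) input**: the sum of a class function over the cusp generators is invariant under an
automorphism of `Γ` induced by an integral matrix of positive determinant. -/
theorem sum_cuspGen_comp_aut (hneg : -1 ∈ Γ) [Finite (SL(2, ℤ) ⧸ Γ)] [Fintype (OQ Γ T)]
    (W : Matrix (Fin 2) (Fin 2) ℤ) (θ : Γ ≃* Γ) (hW : 0 < W.det)
    (hθ : ∀ γ : Γ, W * (γ.1 : Matrix (Fin 2) (Fin 2) ℤ) = ((θ γ).1 : Matrix (Fin 2) (Fin 2) ℤ) * W)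
    {k : Type*} [AddCommMonoid k] (u : Γ → k)
    (hu : ∀ γ P : Γ, CuspAut.IsPosPrim Γ P.1 → u (γ * P * γ⁻¹) = u P) :
    ∑ o, u (θ (cuspGen Γ o)) = ∑ o, u (cuspGen Γ o) := by
  obtain ⟨h1, h2, h3⟩ := cusp_family Γ hneg
  exact CuspAut.sum_comp_aut W θ (cuspGen Γ) h1 h2 h3 hW hθ u hu

/-- Every orbit generator of `T` is positive primitive (not only the chosen representatives). -/
theorem isPosPrim_orbGen_T (hneg : -1 ∈ Γ) [Finite (SL(2, ℤ) ⧸ Γ)] (x : SL(2, ℤ) ⧸ Γ) :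
    CuspAut.IsPosPrim Γ (orbGen Γ T x).1 := by
  have h := CuspAut.isPosPrim_conj_T_pow Γ hneg (psec Γ x)⁻¹ (period_pos Γ T x)
    (by rw [inv_inv]; exact (conj_pow_mem_iff Γ T _ _).mpr dvd_rfl)
    (by
      intro k hk hke
      rw [inv_inv, conj_pow_mem_iff]
      intro hdvd
      exact absurd (Nat.le_of_dvd hk hdvd) (not_le.mpr hke))
  rw [inv_inv] at h
  rw [coe_orbGen]
  exact h

end SL2

/-! ### The instance `Γ = Γ₀(M)` -/

section Gamma0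

open Matrix MatrixGroups ModularGroup CongruenceSubgroup

theorem neg_one_mem_Gamma0 (M : ℕ) : (-1 : SL(2, ℤ)) ∈ Gamma0 M := by
  rw [Gamma0_mem]
  simp

theorem finite_quotient_Gamma0 (M : ℕ) [NeZero M] : Finite (SL(2, ℤ) ⧸ Gamma0 M) := inferInstance

/-- The four coset counts of `Γ₀(M)` (from `Lib.Gamma0Count`). -/
theorem counts_Gamma0 (M : ℕ) [NeZero M] :
    Nat.card (SL(2, ℤ) ⧸ Gamma0 M) = ModularCurve.dedekindPsi M ∧
    Nat.card (MulAction.fixedBy (SL(2, ℤ) ⧸ Gamma0 M) S) = ModularCurve.nuTwo M ∧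
    Nat.card (MulAction.fixedBy (SL(2, ℤ) ⧸ Gamma0 M) (S * T)) = ModularCurve.nuThree M ∧
    Nat.card (OQ (Gamma0 M) T) = ModularCurve.cuspCount M :=
  ⟨Lib.Gamma0Count.card_quotient M, Lib.Gamma0Count.card_fixedBy_S M,
    Lib.Gamma0Count.card_fixedBy_ST M, Lib.Gamma0Count.card_orbits_T M⟩

end Gamma0

end Fermat.Agent.P7.PdInst
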