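import Mathlib

/-!
# `[PD-RES]` — the residue bridge for the Poincaré-duality pairing (group-free form)

`X` a finite set, `Γ` a group, `k` a commutative ring, `φ ψ : Γ → k` additive and
`u : Γ → k` a "Heisenberg lift": `u (a * b) = u a + u b - φ a * ψ b`.
A *cocycle over a permutation `g` of `X`* is just a function `c : X → Γ`
(instance: `c x = pkap Γ g x` on `X = G ⧸ Γ`).
-/

namespace Fermat.Agent.P7.PdRes

open Finset

variable {X : Type*} [Fintype X] {Γ : Type*} [Group Γ] {k : Type*} [CommRing k]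

/-- `φ, ψ` additive and `u (a * b) = u a + u b - φ a * ψ b`. -/
structure Lift (φ ψ u : Γ → k) : Prop where
  map_mul_left : ∀ a b, φ (a * b) = φ a + φ b
  map_mul_right : ∀ a b, ψ (a * b) = ψ a + ψ b
  map_mul : ∀ a b, u (a * b) = u a + u b - φ a * ψ b

namespace Lift

variable {φ ψ u : Γ → k}

lemma left_one (h : Lift φ ψ u) : φ 1 = 0 := by
  have := h.map_mul_left 1 1
  rw [mul_one] at this
  linear_combination -this

lemma right_one (h : Lift φ ψ u) : ψ 1 = 0 := by
  have := h.map_mul_right 1 1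
  rw [mul_one] at this
  linear_combination -this

lemma map_one (h : Lift φ ψ u) : u 1 = 0 := by
  have := h.map_mul 1 1
  rw [mul_one, h.left_one, zero_mul, sub_zero] at this
  linear_combination -this

end Lift

/-- **(A) orbit telescoping.** `P` = partial products from the orbit representative,
`L` = the last points of the orbits; then `∑_{x ∈ L} u (c x * P x)` is the sum of `u` over the
orbit products. -/
theorem sum_last {φ ψ u : Γ → k} (h : Lift φ ψ u) (g : Equiv.Perm X) (c P : X → Γ)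
    (L : Finset X) (hP₁ : ∀ x, x ∉ L → P (g x) = c x * P x) (hP₂ : ∀ x, x ∈ L → P (g x) = 1)
    (hψL : ∀ x, x ∈ L → ψ (c x * P x) = 0)
    (m n : X → k) (hm : ∀ x, φ (c x) = m (g x) - m x) (hn : ∀ x, ψ (c x) = n (g x) - n x) :
    ∑ x ∈ L, u (c x * P x) = ∑ x, (u (c x) - φ (c x) * n x) := by
  classical
  -- Step 1: reindexing by `g`
  have h1 : ∑ x, u (P (g x)) = ∑ x, u (P x) := Equiv.sum_comp g (fun x => u (P x))
  -- Step 3: split the full sum
  have h3 : ∑ x, u (c x * P x) = ∑ x ∈ L, u (c x * P x) + ∑ x, u (P (g x)) := by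
    rw [← Finset.sum_filter_add_sum_filter_not Finset.univ (fun x => x ∈ L)
      (fun x => u (c x * P x)),
      ← Finset.sum_filter_add_sum_filter_not Finset.univ (fun x => x ∈ L)
      (fun x => u (P (g x)))]
    have e1 : ∑ x ∈ Finset.univ.filter (fun x => x ∈ L), u (P (g x)) = 0 := by
      apply Finset.sum_eq_zero
      intro x hx
      rw [hP₂ x (Finset.mem_filter.mp hx).2, h.map_one]
    have e2 : ∑ x ∈ Finset.univ.filter (fun x => x ∉ L), u (c x * P x)
        = ∑ x ∈ Finset.univ.filter (fun x => x ∉ L), u (P (g x)) := by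
      apply Finset.sum_congr rfl
      intro x hx
      rw [hP₁ x (Finset.mem_filter.mp hx).2]
    have e3 : Finset.univ.filter (fun x => x ∈ L) = L := by
      ext x; simp
    rw [e1, e2, e3, zero_add]
  -- Step 4: `ν := n - ψ ∘ P` is `g`-invariant
  have hν : ∀ x, n (g x) - ψ (P (g x)) = n x - ψ (P x) := by
    intro x
    by_cases hx : x ∈ L
    · have := hψL x hx
      rw [h.map_mul_right, hn] at this
      rw [hP₂ x hx, h.right_one]
      linear_combination this
    · rw [hP₁ x hx, h.map_mul_right, hn]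
      ring
  -- Step 5
  have h5 : ∑ x, φ (c x) * (n x - ψ (P x)) = 0 := by
    have e1 : ∑ x, m (g x) * (n x - ψ (P x)) = ∑ x, m x * (n x - ψ (P x)) := by
      rw [← Equiv.sum_comp g (fun x => m x * (n x - ψ (P x)))]
      apply Finset.sum_congr rfl
      intro x _
      rw [hν x]
    calc ∑ x, φ (c x) * (n x - ψ (P x))
        = ∑ x, m (g x) * (n x - ψ (P x)) - ∑ x, m x * (n x - ψ (P x)) := by
          rw [← Finset.sum_sub_distrib]
          apply Finset.sum_congr rfl
          intro x _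
          rw [hm x]; ring
      _ = 0 := by rw [e1, sub_self]
  have h2 : ∑ x, u (c x * P x) = ∑ x, (u (c x) + u (P x) - φ (c x) * ψ (P x)) := by
    apply Finset.sum_congr rfl
    intro x _
    rw [h.map_mul]
  have key : ∑ x ∈ L, u (c x * P x)
      = ∑ x, (u (c x) + u (P x) - φ (c x) * ψ (P x)) - ∑ x, u (P x) := by
    rw [← h2, h3, h1]; ring
  rw [key, ← Finset.sum_sub_distrib]
  have : ∑ x, (u (c x) + u (P x) - φ (c x) * ψ (P x) - u (P x))
      = ∑ x, (u (c x) - φ (c x) * n x) + ∑ x, φ (c x) * (n x - ψ (P x)) := by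
    rw [← Finset.sum_add_distrib]
    apply Finset.sum_congr rfl
    intro x _
    ring
  rw [this, h5, add_zero]


/-! ### Orbit products -/

/-- The product of the cocycle `c` over `g` along the first `j` points of the orbit of `y`:
`iter g c (j+1) y = c (g^j y) * iter g c j y`. (Instance: `iter (toPerm t) (pkap Γ t) j y =
pkap Γ (t ^ j) y`.) -/
def iter (g : Equiv.Perm X) (c : X → Γ) : ℕ → X → Γ
  | 0, _ => 1
  | (j + 1), y => c ((g ^ j) y) * iter g c j y

omit [Fintype X] in
@[simp] lemma iter_zero (g : Equiv.Perm X) (c : X → Γ) (y : X) : iter g c 0 y = 1 := rfl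

omit [Fintype X] in
lemma iter_succ (g : Equiv.Perm X) (c : X → Γ) (j : ℕ) (y : X) :
    iter g c (j + 1) y = c ((g ^ j) y) * iter g c j y := rfl

omit [Fintype X] in
lemma Lift.right_iter {φ ψ u : Γ → k} (h : Lift φ ψ u) (g : Equiv.Perm X) (c : X → Γ)
    (n : X → k) (hn : ∀ x, ψ (c x) = n (g x) - n x) (j : ℕ) (y : X) :
    ψ (iter g c j y) = n ((g ^ j) y) - n y := by
  induction j with
  | zero => simp [h.right_one]
  | succ j ih =>
    rw [iter_succ, h.map_mul_right, ih, hn, pow_succ', Equiv.Perm.mul_apply]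
    ring

/-- Every permutation of a finite set has a system of representatives of its cycles. -/
theorem exists_reps (g : Equiv.Perm X) :
    ∃ R : Finset X, ∀ x, ∃! y, y ∈ R ∧ g.SameCycle y x := by
  classical
  let r : X → X := fun x => (Quotient.out (s := Equiv.Perm.SameCycle.setoid g) ⟦x⟧)
  have hr : ∀ x, g.SameCycle (r x) x := fun x =>
    Quotient.exact (s := Equiv.Perm.SameCycle.setoid g) (Quotient.out_eq _)
  have hr2 : ∀ x z, g.SameCycle z x → r z = r x := by
    intro x z hzx
    have : (⟦z⟧ : Quotient (Equiv.Perm.SameCycle.setoid g)) = ⟦x⟧ :=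
      Quotient.sound (s := Equiv.Perm.SameCycle.setoid g) hzx
    simp only [r, this]
  refine ⟨Finset.univ.image r, fun x => ⟨r x, ⟨Finset.mem_image_of_mem r (Finset.mem_univ x), hr x⟩, ?_⟩⟩
  rintro y ⟨hy, hyx⟩
  obtain ⟨z, -, rfl⟩ := Finset.mem_image.mp hy
  exact hr2 x z ((hr z).symm.trans hyx)

/-- **(D) orbit sums.** For a system `R` of representatives of the cycles of `g`, the sum of `u`
over the orbit products `iter g c (minimalPeriod g y) y`, `y ∈ R`, is `∑ x, (u (c x) - φ (c x) * n x)`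
(`n` a `ψ`-primitive of `c`; a `φ`-primitive has to exist). -/
theorem sum_orbit {φ ψ u : Γ → k} (h : Lift φ ψ u) (g : Equiv.Perm X) (c : X → Γ)
    (R : Finset X) (hR : ∀ x, ∃! y, y ∈ R ∧ g.SameCycle y x)
    (m n : X → k) (hm : ∀ x, φ (c x) = m (g x) - m x) (hn : ∀ x, ψ (c x) = n (g x) - n x) :
    ∑ y ∈ R, u (iter g c (Function.minimalPeriod g y) y) = ∑ x, (u (c x) - φ (c x) * n x) := by
  classical
  choose r hr hr' using hR
  have hrg : ∀ x, r (g x) = r x := fun x =>
    (hr' (g x) (r x) ⟨(hr x).1, Equiv.Perm.sameCycle_apply_right.mpr (hr x).2⟩).symm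
  have hrR : ∀ y ∈ R, r y = y := fun y hy =>
    (hr' y y ⟨hy, Equiv.Perm.SameCycle.refl g y⟩).symm
  have hex : ∀ x, ∃ i : ℕ, (g ^ i) (r x) = x := fun x => (hr x).2.exists_nat_pow_eq
  let j : X → ℕ := fun x => Nat.find (hex x)
  have hj : ∀ x, (g ^ j x) (r x) = x := fun x => Nat.find_spec (hex x)
  have hjmin : ∀ x i, (g ^ i) (r x) = x → j x ≤ i := fun x i hi => Nat.find_min' (hex x) hi
  -- (F1)
  have hF1 : ∀ x, g x ≠ r x → j (g x) = j x + 1 := by
    intro x hx
    have h1 : (g ^ (j x + 1)) (r (g x)) = g x := by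
      rw [hrg, pow_succ', Equiv.Perm.mul_apply, hj]
    have h2 : j (g x) ≤ j x + 1 := hjmin (g x) _ h1
    have h3 : j (g x) ≠ 0 := by
      intro h0
      have := hj (g x)
      rw [h0, pow_zero, Equiv.Perm.one_apply, hrg] at this
      exact hx this.symm
    obtain ⟨i, hi⟩ := Nat.exists_eq_succ_of_ne_zero h3
    have h4 := hj (g x)
    rw [hi, Nat.succ_eq_add_one, pow_succ', Equiv.Perm.mul_apply, hrg] at h4
    have h5 : j x ≤ i := hjmin x i (g.injective h4)
    omega
  -- (F2)
  have hF2 : ∀ x, g x = r x → j (g x) = 0 := by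
    intro x hx
    have : j (g x) ≤ 0 := hjmin (g x) 0 (by rw [pow_zero, Equiv.Perm.one_apply, hrg, hx])
    omega
  let P : X → Γ := fun x => iter g c (j x) (r x)
  let L : Finset X := Finset.univ.filter (fun x => g x = r x)
  have hL : ∀ x, x ∈ L ↔ g x = r x := fun x => by simp [L]
  have hcP : ∀ x, c x * P x = iter g c (j x + 1) (r x) := by
    intro x
    rw [iter_succ, hj]
  have hP₁ : ∀ x, x ∉ L → P (g x) = c x * P x := by
    intro x hx
    rw [hL] at hx
    show iter g c (j (g x)) (r (g x)) = _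
    rw [hF1 x hx, hrg, hcP]
  have hP₂ : ∀ x, x ∈ L → P (g x) = 1 := by
    intro x hx
    rw [hL] at hx
    show iter g c (j (g x)) (r (g x)) = _
    rw [hF2 x hx, iter_zero]
  have hψL : ∀ x, x ∈ L → ψ (c x * P x) = 0 := by
    intro x hx
    rw [hL] at hx
    rw [h.map_mul_right, hn]
    show n (g x) - n x + ψ (iter g c (j x) (r x)) = 0
    rw [h.right_iter g c n hn, hj, hx]
    ring
  have key := sum_last h g c P L hP₁ hP₂ hψL m n hm hn
  rw [← key]
  -- (F3): the last exponent is the minimal period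
  have hF3 : ∀ x, x ∈ L → j x + 1 = Function.minimalPeriod g (r x) := by
    intro x hx
    rw [hL] at hx
    have hper : Function.IsPeriodicPt g (j x + 1) (r x) := by
      show (⇑g)^[j x + 1] (r x) = r x
      rw [Equiv.Perm.iterate_eq_pow, pow_succ', Equiv.Perm.mul_apply, hj, hx]
    have hpos : 0 < Function.minimalPeriod g (r x) := hper.minimalPeriod_pos (Nat.succ_pos _)
    have hle : Function.minimalPeriod g (r x) ≤ j x + 1 := hper.minimalPeriod_le (Nat.succ_pos _)
    have hmp : (g ^ Function.minimalPeriod g (r x)) (r x) = r x := by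
      have := Function.isPeriodicPt_minimalPeriod g (r x)
      rw [Function.IsPeriodicPt, Function.IsFixedPt, Equiv.Perm.iterate_eq_pow] at this
      exact this
    by_contra hne
    have hlt : Function.minimalPeriod g (r x) ≤ j x := by omega
    have h6 : (g ^ (j x - Function.minimalPeriod g (r x))) (r x) = x := by
      have h7 := hj x
      have h8 : j x = (j x - Function.minimalPeriod g (r x)) + Function.minimalPeriod g (r x) := by
        omega
      rw [h8, pow_add, Equiv.Perm.mul_apply, hmp] at h7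
      exact h7
    have := hjmin x _ h6
    omega
  -- reindex `L ≃ R` by `g`
  symm
  refine Finset.sum_bij' (fun x _ => g x) (fun y _ => g.symm y) ?_ ?_ ?_ ?_ ?_
  · intro x hx
    have hx' := (hL x).mp hx
    rw [hx']
    exact (hr x).1
  · intro y hy
    rw [hL, Equiv.apply_symm_apply]
    have := hrg (g.symm y)
    rw [Equiv.apply_symm_apply] at this
    rw [← this, hrR y hy]
  · intro x _
    exact Equiv.symm_apply_apply g x
  · intro y _
    exact Equiv.apply_symm_apply g y
  · intro x hx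
    have hx' := (hL x).mp hx
    rw [hcP, hF3 x hx, hx']


/-! ### The residue bridge -/

/-- **(B) The residue bridge.**  `s`, `t` permutations of `X` with `s² = 1`; `cs`, `ct`
`Γ`-valued cocycles over them and `cT x = ct (s x) * cs x` the product cocycle over `t * s`.
Assume the pair `(φ ∘ cs, φ ∘ ct)` is cohomologous (via `n`) to a *normalised* pair `(w, w)`, the
same for `ψ` (via `n'`, with `(w', w')`), that `w = a₁ ∘ s - a₁`, `w' = m₁ ∘ s - m₁ = m₂ ∘ t - m₂`,
and that the lift `u` vanishes on the orbit products of `s` and of `t`.  Then the sum of `u` over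
the orbit products of `t * s` is the model pairing `∑ x, w x * (m₂ x - m₁ x)`. -/
theorem bridge {φ ψ u : Γ → k} (h : Lift φ ψ u) (s t : Equiv.Perm X) (hss : ∀ x, s (s x) = x)
    (cs ct : X → Γ) (n w n' w' a₁ a₂ m₁ m₂ : X → k)
    (hφs : ∀ x, φ (cs x) = w x + (n (s x) - n x)) (hφt : ∀ x, φ (ct x) = w x + (n (t x) - n x))
    (hψs : ∀ x, ψ (cs x) = w' x + (n' (s x) - n' x))
    (hψt : ∀ x, ψ (ct x) = w' x + (n' (t x) - n' x))
    (hw₁ : ∀ x, w x = a₁ (s x) - a₁ x) (hw₂ : ∀ x, w x = a₂ (t x) - a₂ x)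
    (hw₁' : ∀ x, w' x = m₁ (s x) - m₁ x) (hw₂' : ∀ x, w' x = m₂ (t x) - m₂ x)
    (hus : ∀ y, u (iter s cs (Function.minimalPeriod s y) y) = 0)
    (hut : ∀ y, u (iter t ct (Function.minimalPeriod t y) y) = 0)
    (RT : Finset X) (hRT : ∀ x, ∃! y, y ∈ RT ∧ (t * s).SameCycle y x) :
    ∑ y ∈ RT, u (iter (t * s) (fun x => ct (s x) * cs x) (Function.minimalPeriod (t * s) y) y)
      = ∑ x, w x * (m₂ x - m₁ x) := by
  classical
  have hws : ∀ x, w (s x) = - w x := by
    intro x
    rw [hw₁ (s x), hw₁ x, hss]; ring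
  have hws' : ∀ x, w' (s x) = - w' x := by
    intro x
    rw [hw₁' (s x), hw₁' x, hss]; ring
  -- the `T`-orbits
  have hmT : ∀ x, φ (ct (s x) * cs x) = n ((t * s) x) - n x := by
    intro x
    rw [h.map_mul_left, hφt, hφs, hws, Equiv.Perm.mul_apply]; ring
  have hnT : ∀ x, ψ (ct (s x) * cs x) = n' ((t * s) x) - n' x := by
    intro x
    rw [h.map_mul_right, hψt, hψs, hws', Equiv.Perm.mul_apply]; ring
  rw [sum_orbit h (t * s) (fun x => ct (s x) * cs x) RT hRT n n' hmT hnT]
  -- the `s`-orbits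
  obtain ⟨Rs, hRs⟩ := exists_reps s
  have Es : ∑ x, (u (cs x) - φ (cs x) * (m₁ x + n' x)) = 0 := by
    rw [← sum_orbit h s cs Rs hRs (fun x => a₁ x + n x) (fun x => m₁ x + n' x)
      (fun x => by rw [hφs, hw₁]; ring) (fun x => by rw [hψs, hw₁']; ring)]
    exact Finset.sum_eq_zero fun y _ => hus y
  -- the `t`-orbits
  obtain ⟨Rt, hRt⟩ := exists_reps t
  have Et : ∑ x, (u (ct x) - φ (ct x) * (m₂ x + n' x)) = 0 := by
    rw [← sum_orbit h t ct Rt hRt (fun x => a₂ x + n x) (fun x => m₂ x + n' x)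
      (fun x => by rw [hφt, hw₂]; ring) (fun x => by rw [hψt, hw₂']; ring)]
    exact Finset.sum_eq_zero fun y _ => hut y
  have Et' : ∑ x, (u (ct (s x)) - φ (ct (s x)) * (m₂ (s x) + n' (s x))) = 0 := by
    rw [← Et]
    exact Equiv.sum_comp s (fun x => u (ct x) - φ (ct x) * (m₂ x + n' x))
  -- the pointwise identity
  have hD : ∀ x, (u (ct (s x) * cs x) - φ (ct (s x) * cs x) * n' x) - w x * (m₂ x - m₁ x)
      - (u (cs x) - φ (cs x) * (m₁ x + n' x))
      - (u (ct (s x)) - φ (ct (s x)) * (m₂ (s x) + n' (s x)))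
      = (w (s x) * (m₂ (s x) - m₁ (s x)) - w x * (m₂ x - m₁ x))
        + (n (t (s x)) * m₂ (t (s x)) - n x * m₂ x)
        - (n (s x) * (m₂ (s x) - m₁ (s x)) - n x * (m₂ x - m₁ x)) := by
    intro x
    have e10 : m₂ (t (s x)) = m₂ (s x) - m₁ (s x) + m₁ x := by
      have h1 := hw₂' (s x)
      have h2 := hws' x
      have h3 := hw₁' x
      linear_combination -h1 + h2 - h3
    rw [h.map_mul, h.map_mul_left, hφt (s x), hφs x, hψs x, hws x, hw₁' x, e10]
    ring
  have hsum : ∑ x, ((u (ct (s x) * cs x) - φ (ct (s x) * cs x) * n' x) - w x * (m₂ x - m₁ x)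
      - (u (cs x) - φ (cs x) * (m₁ x + n' x))
      - (u (ct (s x)) - φ (ct (s x)) * (m₂ (s x) + n' (s x)))) = 0 := by
    rw [Finset.sum_congr rfl fun x _ => hD x]
    rw [Finset.sum_sub_distrib, Finset.sum_add_distrib, Finset.sum_sub_distrib,
      Finset.sum_sub_distrib, Finset.sum_sub_distrib]
    have c1 : ∑ x, w (s x) * (m₂ (s x) - m₁ (s x)) = ∑ x, w x * (m₂ x - m₁ x) :=
      Equiv.sum_comp s (fun x => w x * (m₂ x - m₁ x))
    have c2 : ∑ x, n (t (s x)) * m₂ (t (s x)) = ∑ x, n x * m₂ x :=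
      Equiv.sum_comp (t * s) (fun x => n x * m₂ x)
    have c3 : ∑ x, n (s x) * (m₂ (s x) - m₁ (s x)) = ∑ x, n x * (m₂ x - m₁ x) :=
      Equiv.sum_comp s (fun x => n x * (m₂ x - m₁ x))
    rw [c1, c2, c3]; ring
  rw [Finset.sum_sub_distrib, Finset.sum_sub_distrib, Finset.sum_sub_distrib, Es, Et'] at hsum
  linear_combination hsum

end Fermat.Agent.P7.PdRes
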