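import Mathlib
import Fermat.Agent.S21.PermDim
import Fermat.Agent.P7.Shap
import Fermat.Agent.P7.PdRes
import Fermat.Agent.P7.CuspAut

/-!
# `[PD]` (B4): the Atkin–Lehner automorphism is an isometry of the modular-symbol pairing

Conventions of the `[PD]` block: left cosets `X = SL(2, ℤ) ⧸ Γ`, `pkap`, `Shap.zc`, generators
`S` and `R = S * T`, parabolic element `P = S * T * S`.

* `bridge_sl2` : for a Heisenberg lift `u` of `(φ, ψ)` vanishing on the elliptic elements, the sum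
  of `u` over the orbit products of `P` is the model pairing of the normalised symbols.
* `sum_theta`  : the orbit sums of `u ∘ θ` and `u` agree, for `θ` induced by an integer matrix of
  positive determinant.
* `isometry`   : hence the model pairing of the symbols of `(φ ∘ θ, ψ ∘ θ)` equals that of `(φ, ψ)`.
-/

set_option autoImplicit false

namespace Fermat.Agent.P7.PdB4

open Fermat.Agent.S21.PermDim Fermat.Agent.P7.Shap ModularGroup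
open scoped MatrixGroups

section generic

variable {G : Type*} [Group G] (Γ : Subgroup G)

theorem toPerm_pow_apply (g : G) (j : ℕ) (x : G ⧸ Γ) :
    ((MulAction.toPerm g : Equiv.Perm (G ⧸ Γ)) ^ j) x = g ^ j • x := by
  induction j generalizing x with
  | zero => simp
  | succ j ih => rw [pow_succ', Equiv.Perm.mul_apply, ih, pow_succ', mul_smul]; rfl

/-- The orbit products of the cocycle `pkap Γ g` are `pkap Γ (g ^ j)`. -/
theorem iter_pkap (g : G) (j : ℕ) (y : G ⧸ Γ) :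
    PdRes.iter (MulAction.toPerm g) (pkap Γ g) j y = pkap Γ (g ^ j) y := by
  induction j with
  | zero => rw [PdRes.iter_zero, pow_zero, pkap_one]
  | succ j ih => rw [PdRes.iter_succ, ih, toPerm_pow_apply, pkap_pow_succ]

theorem toPerm_mul (g h : G) :
    (MulAction.toPerm g : Equiv.Perm (G ⧸ Γ)) * MulAction.toPerm h = MulAction.toPerm (g * h) :=
  Equiv.ext fun x => (mul_smul g h x).symm

end generic

section SL2

variable (Γ : Subgroup SL(2, ℤ)) (hneg : (-1 : SL(2, ℤ)) ∈ Γ)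

theorem S_mul_S : (S * S : SL(2, ℤ)) = -1 := by decide

theorem R_pow_three : ((S * T) ^ 3 : SL(2, ℤ)) = -1 := by decide

include hneg in
theorem neg_one_smul (x : SL(2, ℤ) ⧸ Γ) : (-1 : SL(2, ℤ)) • x = x := by
  induction x using QuotientGroup.induction_on with
  | H g =>
    rw [smul_coe_eq, QuotientGroup.eq]
    have h1 : ((-1 : SL(2, ℤ)))⁻¹ = -1 := by decide
    have : (-1 * g)⁻¹ * g = (-1 : SL(2, ℤ)) := by
      rw [mul_inv_rev, mul_assoc, h1, neg_one_mul, mul_neg, inv_mul_cancel]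
    rw [this]
    exact hneg

include hneg in
theorem S_smul_S_smul (x : SL(2, ℤ) ⧸ Γ) : S • S • x = x := by
  rw [← mul_smul, S_mul_S, neg_one_smul Γ hneg]

include hneg in
theorem pkap_neg_one (x : SL(2, ℤ) ⧸ Γ) : pkap Γ (-1 : SL(2, ℤ)) x = ⟨-1, hneg⟩ := by
  apply Subtype.ext
  rw [coe_pkap_of_fixed Γ (neg_one_smul Γ hneg x)]
  rw [mul_neg, mul_one, neg_mul, inv_mul_cancel]

end SL2

section bridge

variable (Γ : Subgroup SL(2, ℤ)) (hneg : (-1 : SL(2, ℤ)) ∈ Γ) [Fintype (SL(2, ℤ) ⧸ Γ)]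
  {k : Type*} [CommRing k]

include hneg in
/-- **The residue bridge for `Γ ≤ SL(2, ℤ)`.**  `u` a Heisenberg lift of `(φ, ψ)` vanishing at
`-1` and at the elliptic elements `pkap Γ S x`, `pkap Γ (S * T) x` of the fixed cosets; `(n, w)`,
`(n', w')` normalised symbols of `φ`, `ψ`; `w' = m₁ ∘ S - m₁ = m₂ ∘ R - m₂`.  Then the sum of `u`
over the primitive parabolic elements `pkap Γ (P ^ e) y` (`P = S * T * S`, `y` running through
representatives of the `P`-orbits, `e` the orbit length) is `∑ x, w x * (m₂ x - m₁ x)`. -/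
theorem bridge_sl2 (φ ψ u : ↥Γ → k) (hφ : IsAdd φ) (hψ : IsAdd ψ)
    (hu : ∀ a b, u (a * b) = u a + u b - φ a * ψ b)
    (hu1 : u ⟨-1, hneg⟩ = 0)
    (huS : ∀ x : SL(2, ℤ) ⧸ Γ, S • x = x → u (pkap Γ S x) = 0)
    (huR : ∀ x : SL(2, ℤ) ⧸ Γ, (S * T) • x = x → u (pkap Γ (S * T) x) = 0)
    (n w n' w' a₁ a₂ m₁ m₂ : SL(2, ℤ) ⧸ Γ → k)
    (hφS : ∀ x, w x = zc Γ φ S x - (n (S • x) - n x))
    (hφR : ∀ x, w x = zc Γ φ (S * T) x - (n ((S * T) • x) - n x))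
    (hψS : ∀ x, w' x = zc Γ ψ S x - (n' (S • x) - n' x))
    (hψR : ∀ x, w' x = zc Γ ψ (S * T) x - (n' ((S * T) • x) - n' x))
    (hw₁ : ∀ x, w x = a₁ (S • x) - a₁ x) (hw₂ : ∀ x, w x = a₂ ((S * T) • x) - a₂ x)
    (hw₁' : ∀ x, w' x = m₁ (S • x) - m₁ x) (hw₂' : ∀ x, w' x = m₂ ((S * T) • x) - m₂ x)
    (Rep : Finset (SL(2, ℤ) ⧸ Γ))
    (hRep : ∀ x, ∃! y, y ∈ Rep ∧
      (MulAction.toPerm (S * T * S) : Equiv.Perm (SL(2, ℤ) ⧸ Γ)).SameCycle y x) :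
    ∑ y ∈ Rep, u (pkap Γ ((S * T * S) ^ Function.minimalPeriod
        (MulAction.toPerm (S * T * S) : Equiv.Perm (SL(2, ℤ) ⧸ Γ)) y) y)
      = ∑ x, w x * (m₂ x - m₁ x) := by
  classical
  have hL : PdRes.Lift φ ψ u := ⟨hφ, hψ, hu⟩
  have hts : (MulAction.toPerm (S * T) : Equiv.Perm (SL(2, ℤ) ⧸ Γ)) * MulAction.toPerm S
      = MulAction.toPerm (S * T * S) := toPerm_mul Γ _ _
  have hcT : (fun x => pkap Γ (S * T) ((MulAction.toPerm S : Equiv.Perm (SL(2, ℤ) ⧸ Γ)) x)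
      * pkap Γ S x) = pkap Γ (S * T * S) := by
    funext x
    exact (pkap_mul Γ (S * T) S x).symm
  have hus : ∀ y, u (PdRes.iter (MulAction.toPerm S) (pkap Γ S) (Function.minimalPeriod
      (⇑(MulAction.toPerm S : Equiv.Perm (SL(2, ℤ) ⧸ Γ))) y) y) = 0 := by
    intro y
    rw [iter_pkap]
    have hper : Function.IsPeriodicPt (⇑(MulAction.toPerm S : Equiv.Perm (SL(2, ℤ) ⧸ Γ))) 2 y :=
      S_smul_S_smul Γ hneg y
    rcases (Nat.dvd_prime Nat.prime_two).mp hper.minimalPeriod_dvd with h1 | h2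
    · rw [h1, pow_one]
      apply huS
      have := Function.isPeriodicPt_minimalPeriod
        (⇑(MulAction.toPerm S : Equiv.Perm (SL(2, ℤ) ⧸ Γ))) y
      rw [h1] at this
      exact this
    · rw [h2, pow_two, S_mul_S, pkap_neg_one Γ hneg]
      exact hu1
  have hut : ∀ y, u (PdRes.iter (MulAction.toPerm (S * T)) (pkap Γ (S * T))
      (Function.minimalPeriod (⇑(MulAction.toPerm (S * T) : Equiv.Perm (SL(2, ℤ) ⧸ Γ))) y) y)
      = 0 := by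
    intro y
    rw [iter_pkap]
    have hper : Function.IsPeriodicPt
        (⇑(MulAction.toPerm (S * T) : Equiv.Perm (SL(2, ℤ) ⧸ Γ))) 3 y := by
      show (S * T) • (S * T) • (S * T) • y = y
      rw [← mul_smul, ← mul_smul, ← pow_two, ← pow_succ, R_pow_three, neg_one_smul Γ hneg]
    rcases (Nat.dvd_prime Nat.prime_three).mp hper.minimalPeriod_dvd with h1 | h3
    · rw [h1, pow_one]
      apply huR
      have := Function.isPeriodicPt_minimalPeriod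
        (⇑(MulAction.toPerm (S * T) : Equiv.Perm (SL(2, ℤ) ⧸ Γ))) y
      rw [h1] at this
      exact this
    · rw [h3, R_pow_three, pkap_neg_one Γ hneg]
      exact hu1
  have key := PdRes.bridge hL (MulAction.toPerm S) (MulAction.toPerm (S * T))
    (fun x => S_smul_S_smul Γ hneg x) (pkap Γ S) (pkap Γ (S * T)) n w n' w' a₁ a₂ m₁ m₂
    (fun x => by
      have h' : w x = φ (pkap Γ S x) - (n (S • x) - n x) := hφS x
      show φ (pkap Γ S x) = w x + (n (S • x) - n x)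
      rw [h']; ring)
    (fun x => by
      have h' : w x = φ (pkap Γ (S * T) x) - (n ((S * T) • x) - n x) := hφR x
      show φ (pkap Γ (S * T) x) = w x + (n ((S * T) • x) - n x)
      rw [h']; ring)
    (fun x => by
      have h' : w' x = ψ (pkap Γ S x) - (n' (S • x) - n' x) := hψS x
      show ψ (pkap Γ S x) = w' x + (n' (S • x) - n' x)
      rw [h']; ring)
    (fun x => by
      have h' : w' x = ψ (pkap Γ (S * T) x) - (n' ((S * T) • x) - n' x) := hψR x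
      show ψ (pkap Γ (S * T) x) = w' x + (n' ((S * T) • x) - n' x)
      rw [h']; ring)
    hw₁ hw₂ hw₁' hw₂' hus hut Rep (by rw [hts]; exact hRep)
  rw [hts, hcT] at key
  rw [← key]
  refine Finset.sum_congr rfl fun y _ => ?_
  rw [iter_pkap]

end bridge

section theta

/-- The parabolic element `P = S * T * S` (`= R * S = -S T S⁻¹`). -/
abbrev PP : SL(2, ℤ) := S * T * S

/-- The length of the `P`-orbit of a coset. -/
noncomputable abbrev per (Γ : Subgroup SL(2, ℤ)) (y : SL(2, ℤ) ⧸ Γ) : ℕ :=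
  Function.minimalPeriod (MulAction.toPerm PP : Equiv.Perm (SL(2, ℤ) ⧸ Γ)) y

variable (Γ : Subgroup SL(2, ℤ)) (hneg : (-1 : SL(2, ℤ)) ∈ Γ) [Fintype (SL(2, ℤ) ⧸ Γ)]

omit [Fintype (SL(2, ℤ) ⧸ Γ)] in
include hneg in
/-- **Orbit sums are invariant under automorphisms induced by matrices of positive
determinant.**  The hypotheses `hO1`–`hO5` are the orbit data of a system `Rep` of
representatives of the `P`-orbits (`[PD-ORB]`). -/
theorem sum_theta (Rep : Finset (SL(2, ℤ) ⧸ Γ))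
    (hO1 : ∀ y : Rep, 0 < per Γ y.1)
    (hO2 : ∀ y : Rep, ((pkap Γ (PP ^ per Γ y.1) y.1 : ↥Γ) : SL(2, ℤ))
      = (-1) ^ per Γ y.1 * (((psec Γ y.1)⁻¹ * S) * T ^ per Γ y.1 * ((psec Γ y.1)⁻¹ * S)⁻¹))
    (hO3 : ∀ y : Rep, ∀ j : ℕ, 0 < j → j < per Γ y.1 →
      ((psec Γ y.1)⁻¹ * S) * T ^ j * ((psec Γ y.1)⁻¹ * S)⁻¹ ∉ Γ)
    (hO4 : ∀ g : SL(2, ℤ), ∃ y : Rep, ∃ γ ∈ Γ, ∃ j : ℤ, g = γ * ((psec Γ y.1)⁻¹ * S) * T ^ j)
    (hO5 : ∀ y y' : Rep, ∀ γ ∈ Γ, ∀ j : ℤ,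
      (psec Γ y.1)⁻¹ * S = γ * ((psec Γ y'.1)⁻¹ * S) * T ^ j → y = y')
    (W : Matrix (Fin 2) (Fin 2) ℤ) (hW : 0 < W.det) (θ : ↥Γ ≃* ↥Γ)
    (hθ : ∀ γ : ↥Γ, W * (γ.1 : Matrix (Fin 2) (Fin 2) ℤ)
      = ((θ γ).1 : Matrix (Fin 2) (Fin 2) ℤ) * W)
    {k : Type*} [AddCommMonoid k] (u : ↥Γ → k)
    (hconj : ∀ γ P : ↥Γ, CuspAut.IsPosPrim Γ P.1 → u (γ * P * γ⁻¹) = u P)
    (hnegu : ∀ γ γ' : ↥Γ, γ.1 = -γ'.1 → u γ = u γ') :
    ∑ y ∈ Rep, u (θ (pkap Γ (PP ^ per Γ y) y)) = ∑ y ∈ Rep, u (pkap Γ (PP ^ per Γ y) y) := by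
  classical
  have hmem : ∀ y : Rep, ((psec Γ y.1)⁻¹ * S) * T ^ per Γ y.1 * ((psec Γ y.1)⁻¹ * S)⁻¹ ∈ Γ := by
    intro y
    have hm := (pkap Γ (PP ^ per Γ y.1) y.1).2
    rw [hO2 y] at hm
    rcases neg_one_pow_eq_or (SL(2, ℤ)) (per Γ y.1) with h | h
    · rw [h, one_mul] at hm
      exact hm
    · rw [h, neg_one_mul] at hm
      have h2 := Γ.mul_mem hneg hm
      rw [neg_one_mul, neg_neg] at h2
      exact h2
  obtain ⟨h1, h2, h3⟩ := CuspAut.of_orbits Γ hneg (fun y : Rep => (psec Γ y.1)⁻¹ * S)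
    (fun y : Rep => per Γ y.1) hO1 hmem hO3 hO4 hO5
  have key := CuspAut.sum_comp_aut W θ
    (fun y : Rep => (⟨((psec Γ y.1)⁻¹ * S) * T ^ per Γ y.1 * ((psec Γ y.1)⁻¹ * S)⁻¹,
      hmem y⟩ : ↥Γ)) h1 h2 h3 hW hθ u hconj
  have hA : ∀ y : Rep, u (pkap Γ (PP ^ per Γ y.1) y.1)
      = u ⟨((psec Γ y.1)⁻¹ * S) * T ^ per Γ y.1 * ((psec Γ y.1)⁻¹ * S)⁻¹, hmem y⟩ := by
    intro y
    rcases neg_one_pow_eq_or (SL(2, ℤ)) (per Γ y.1) with h | h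
    · congr 1
      apply Subtype.ext
      rw [hO2 y, h, one_mul]
    · apply hnegu
      rw [hO2 y, h, neg_one_mul]
  have hB : ∀ y : Rep, u (θ (pkap Γ (PP ^ per Γ y.1) y.1))
      = u (θ ⟨((psec Γ y.1)⁻¹ * S) * T ^ per Γ y.1 * ((psec Γ y.1)⁻¹ * S)⁻¹, hmem y⟩) := by
    intro y
    rcases neg_one_pow_eq_or (SL(2, ℤ)) (per Γ y.1) with h | h
    · congr 2
      apply Subtype.ext
      rw [hO2 y, h, one_mul]
    · apply hnegu
      exact CuspAut.aut_neg W θ hW.ne' hθ (by rw [hO2 y, h, neg_one_mul])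
  rw [← Finset.sum_coe_sort Rep, ← Finset.sum_coe_sort Rep]
  rw [Finset.sum_congr rfl fun y _ => hA y, Finset.sum_congr rfl fun y _ => hB y]
  exact key

omit [Fintype (SL(2, ℤ) ⧸ Γ)] in
/-- Elliptic elements at the fixed cosets have finite order. -/
theorem pkap_isOfFinOrder (g : SL(2, ℤ)) (m : ℕ) (hm : 0 < m) (hg : g ^ m = 1)
    (x : SL(2, ℤ) ⧸ Γ) (hx : g • x = x) : IsOfFinOrder (pkap Γ g x) := by
  rw [isOfFinOrder_iff_pow_eq_one]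
  refine ⟨m, hm, Subtype.ext ?_⟩
  rw [Subgroup.coe_pow, coe_pkap_of_fixed Γ hx, Subgroup.coe_one]
  have h1 : (psec Γ x)⁻¹ * g * psec Γ x = (psec Γ x)⁻¹ * g * ((psec Γ x)⁻¹)⁻¹ := by rw [inv_inv]
  rw [h1, conj_pow, hg]
  group

include hneg in
/-- **(B4), symbol form.**  Let `θ` be an automorphism of `Γ` induced by an integer matrix of
positive determinant, `φ, ψ` additive and trivial on `-1` and on the positive primitive parabolic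
elements, `u` a Heisenberg lift of `(φ, ψ)` vanishing on the elements of finite order.  Then the
model pairing of normalised symbols of `(φ ∘ θ, ψ ∘ θ)` equals that of symbols of `(φ, ψ)`. -/
theorem isometry {k : Type*} [CommRing k] (Rep : Finset (SL(2, ℤ) ⧸ Γ))
    (hRep : ∀ x, ∃! y, y ∈ Rep ∧
      (MulAction.toPerm (S * T * S) : Equiv.Perm (SL(2, ℤ) ⧸ Γ)).SameCycle y x)
    (hO1 : ∀ y : Rep, 0 < per Γ y.1)
    (hO2 : ∀ y : Rep, ((pkap Γ (PP ^ per Γ y.1) y.1 : ↥Γ) : SL(2, ℤ))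
      = (-1) ^ per Γ y.1 * (((psec Γ y.1)⁻¹ * S) * T ^ per Γ y.1 * ((psec Γ y.1)⁻¹ * S)⁻¹))
    (hO3 : ∀ y : Rep, ∀ j : ℕ, 0 < j → j < per Γ y.1 →
      ((psec Γ y.1)⁻¹ * S) * T ^ j * ((psec Γ y.1)⁻¹ * S)⁻¹ ∉ Γ)
    (hO4 : ∀ g : SL(2, ℤ), ∃ y : Rep, ∃ γ ∈ Γ, ∃ j : ℤ, g = γ * ((psec Γ y.1)⁻¹ * S) * T ^ j)
    (hO5 : ∀ y y' : Rep, ∀ γ ∈ Γ, ∀ j : ℤ,
      (psec Γ y.1)⁻¹ * S = γ * ((psec Γ y'.1)⁻¹ * S) * T ^ j → y = y')
    (W : Matrix (Fin 2) (Fin 2) ℤ) (hW : 0 < W.det) (θ : ↥Γ ≃* ↥Γ)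
    (hθ : ∀ γ : ↥Γ, W * (γ.1 : Matrix (Fin 2) (Fin 2) ℤ)
      = ((θ γ).1 : Matrix (Fin 2) (Fin 2) ℤ) * W)
    (φ ψ u : ↥Γ → k) (hφ : IsAdd φ) (hψ : IsAdd ψ)
    (hu : ∀ a b, u (a * b) = u a + u b - φ a * ψ b)
    (hφ1 : φ ⟨-1, hneg⟩ = 0)
    (hφpar : ∀ P : ↥Γ, CuspAut.IsPosPrim Γ P.1 → φ P = 0)
    (hψpar : ∀ P : ↥Γ, CuspAut.IsPosPrim Γ P.1 → ψ P = 0)
    (hufin : ∀ γ : ↥Γ, IsOfFinOrder γ → u γ = 0)
    -- symbols of `φ`, `ψ`
    (n w n' w' a₁ a₂ m₁ m₂ : SL(2, ℤ) ⧸ Γ → k)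
    (hφS : ∀ x, w x = zc Γ φ S x - (n (S • x) - n x))
    (hφR : ∀ x, w x = zc Γ φ (S * T) x - (n ((S * T) • x) - n x))
    (hψS : ∀ x, w' x = zc Γ ψ S x - (n' (S • x) - n' x))
    (hψR : ∀ x, w' x = zc Γ ψ (S * T) x - (n' ((S * T) • x) - n' x))
    (hw₁ : ∀ x, w x = a₁ (S • x) - a₁ x) (hw₂ : ∀ x, w x = a₂ ((S * T) • x) - a₂ x)
    (hw₁' : ∀ x, w' x = m₁ (S • x) - m₁ x) (hw₂' : ∀ x, w' x = m₂ ((S * T) • x) - m₂ x)
    -- symbols of `φ ∘ θ`, `ψ ∘ θ`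
    (nθ wθ nθ' wθ' b₁ b₂ l₁ l₂ : SL(2, ℤ) ⧸ Γ → k)
    (hφSθ : ∀ x, wθ x = zc Γ (fun γ => φ (θ γ)) S x - (nθ (S • x) - nθ x))
    (hφRθ : ∀ x, wθ x = zc Γ (fun γ => φ (θ γ)) (S * T) x - (nθ ((S * T) • x) - nθ x))
    (hψSθ : ∀ x, wθ' x = zc Γ (fun γ => ψ (θ γ)) S x - (nθ' (S • x) - nθ' x))
    (hψRθ : ∀ x, wθ' x = zc Γ (fun γ => ψ (θ γ)) (S * T) x - (nθ' ((S * T) • x) - nθ' x))
    (hwθ₁ : ∀ x, wθ x = b₁ (S • x) - b₁ x) (hwθ₂ : ∀ x, wθ x = b₂ ((S * T) • x) - b₂ x)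
    (hwθ₁' : ∀ x, wθ' x = l₁ (S • x) - l₁ x) (hwθ₂' : ∀ x, wθ' x = l₂ ((S * T) • x) - l₂ x) :
    ∑ x, wθ x * (l₂ x - l₁ x) = ∑ x, w x * (m₂ x - m₁ x) := by
  classical
  have hfin1 : IsOfFinOrder (⟨-1, hneg⟩ : ↥Γ) := by
    rw [isOfFinOrder_iff_pow_eq_one]
    refine ⟨2, by norm_num, Subtype.ext ?_⟩
    show ((-1 : SL(2, ℤ))) ^ 2 = 1
    decide
  have hS4 : (S : SL(2, ℤ)) ^ 4 = 1 := by decide
  have hR6 : ((S * T : SL(2, ℤ))) ^ 6 = 1 := by decide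
  have hfinS : ∀ x : SL(2, ℤ) ⧸ Γ, S • x = x → IsOfFinOrder (pkap Γ S x) :=
    fun x hx => pkap_isOfFinOrder Γ S 4 (by norm_num) hS4 x hx
  have hfinR : ∀ x : SL(2, ℤ) ⧸ Γ, (S * T) • x = x → IsOfFinOrder (pkap Γ (S * T) x) :=
    fun x hx => pkap_isOfFinOrder Γ (S * T) 6 (by norm_num) hR6 x hx
  have hθfin : ∀ γ : ↥Γ, IsOfFinOrder γ → IsOfFinOrder (θ γ) :=
    fun γ hγ => θ.toMonoidHom.isOfFinOrder hγ
  have hu_one : u 1 = 0 := by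
    have := hu 1 1
    rw [mul_one, hφ.map_one, zero_mul, sub_zero] at this
    linear_combination -this
  have hu_inv : ∀ γ : ↥Γ, u γ⁻¹ = - u γ - φ γ * ψ γ := by
    intro γ
    have := hu γ γ⁻¹
    rw [mul_inv_cancel, hu_one, hψ.map_inv] at this
    linear_combination -this
  have hconj : ∀ γ P : ↥Γ, CuspAut.IsPosPrim Γ P.1 → u (γ * P * γ⁻¹) = u P := by
    intro γ P hP
    rw [hu, hu, hφ, hφpar P hP, hψpar P hP, hψ.map_inv, hu_inv]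
    ring
  have hnegu : ∀ γ γ' : ↥Γ, γ.1 = -γ'.1 → u γ = u γ' := by
    intro γ γ' h
    have e : γ = ⟨-1, hneg⟩ * γ' := by
      apply Subtype.ext
      rw [Subgroup.coe_mul, h, neg_one_mul]
    rw [e, hu, hufin _ hfin1, hφ1]
    ring
  have hφθ : IsAdd (fun γ => φ (θ γ)) := fun a b => by
    show φ (θ (a * b)) = φ (θ a) + φ (θ b)
    rw [map_mul, hφ]
  have hψθ : IsAdd (fun γ => ψ (θ γ)) := fun a b => by
    show ψ (θ (a * b)) = ψ (θ a) + ψ (θ b)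
    rw [map_mul, hψ]
  have B1 := bridge_sl2 Γ hneg φ ψ u hφ hψ hu (hufin _ hfin1)
    (fun x hx => hufin _ (hfinS x hx)) (fun x hx => hufin _ (hfinR x hx))
    n w n' w' a₁ a₂ m₁ m₂ hφS hφR hψS hψR hw₁ hw₂ hw₁' hw₂' Rep hRep
  have B2 := bridge_sl2 Γ hneg (fun γ => φ (θ γ)) (fun γ => ψ (θ γ)) (fun γ => u (θ γ)) hφθ hψθ
    (fun a b => by
      show u (θ (a * b)) = u (θ a) + u (θ b) - φ (θ a) * ψ (θ b)
      rw [map_mul, hu])
    (hufin _ (hθfin _ hfin1))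
    (fun x hx => hufin _ (hθfin _ (hfinS x hx))) (fun x hx => hufin _ (hθfin _ (hfinR x hx)))
    nθ wθ nθ' wθ' b₁ b₂ l₁ l₂ hφSθ hφRθ hψSθ hψRθ hwθ₁ hwθ₂ hwθ₁' hwθ₂' Rep hRep
  rw [← B1, ← B2]
  exact sum_theta Γ hneg Rep hO1 hO2 hO3 hO4 hO5 W hW θ hθ u hconj hnegu

end theta

end Fermat.Agent.P7.PdB4
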