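import Mathlib
import Fermat.Agent.P7.PdExt
import Fermat.Agent.P7.Shap

/-!
P7 [PD-EXIST] (helper46): existence of the lift `u` with
`u (a * b) = u a + u b - φ a * ψ b` (sign convention (L)) on a subgroup `Γ ≤ SL(2, ℤ)`
containing `-1`, for additive `φ ψ : Γ → k` whose Shapiro cocycles `zc` (left cosets,
`S21.PermDim.pkap`) are coboundaries along `S` and along `S * T`; the lift kills every element
of `Γ` that is conjugate in `SL(2, ℤ)` to a power of `S` or of `S * T` (`Shap.Kills`).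

Built on `PdExt.exists_primitive_sl2z` (Heisenberg primitive from the universal property).
-/

namespace Fermat.Agent.P7.PdExist

open Fermat.Agent.S21.PermDim Fermat.Agent.P7.Shap Fermat.Agent.P7.PdExt

universe u v w

set_option linter.unusedSectionVars false

/-! ### Abstract consequences of the primitive relation -/

section Abs

variable {G : Type u} [Group G] {X : Type w} [MulAction G X] {k : Type v} [CommRing k]

theorem U_one {U z z' : G → X → k} (hz : IsCocycle z)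
    (hU : ∀ g h : G, U (g * h) = U g + act g (U h) - z g * act g (z' h)) : U 1 = 0 := by
  have h := hU 1 1
  rw [mul_one, act_one, act_one, hz.map_one, zero_mul, sub_zero] at h
  exact left_eq_add.mp h

/-- Along the powers of an element `t` on which `z` is the coboundary of `μ` and `U t = μ * z' t`,
the primitive is `μ * z'`. -/
theorem U_pow {U z z' : G → X → k} (hz : IsCocycle z) (hz' : IsCocycle z')
    (hU : ∀ g h : G, U (g * h) = U g + act g (U h) - z g * act g (z' h))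
    (t : G) (μ : X → k) (hzt : z t = act t μ - μ) (hUt : U t = μ * z' t) (e : ℕ) :
    U (t ^ e) = μ * z' (t ^ e) := by
  induction e with
  | zero => rw [pow_zero, U_one hz hU, hz'.map_one, mul_zero]
  | succ e ih =>
    rw [pow_succ', hU, hUt, ih, hzt, hz' t (t ^ e), act_mulf]
    ring

/-- The value of the primitive at a conjugate `b⁻¹ g b` of an element `g` fixing `x = b x₀`. -/
theorem U_conj {U z z' : G → X → k} (hz : IsCocycle z) (hz' : IsCocycle z')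
    (hU : ∀ g h : G, U (g * h) = U g + act g (U h) - z g * act g (z' h))
    (x₀ x : X) (b g : G) (hb : b • x₀ = x) (hg : g • x = x) :
    U (b⁻¹ * (g * b)) x₀ = U g x - z g x * z' b x - z b⁻¹ x₀ * z' g x := by
  have hg' : g⁻¹ • x = x := by
    conv_lhs => rw [← hg]
    rw [inv_smul_smul]
  have e1 := congrFun (hU b⁻¹ (g * b)) x₀
  have e2 := congrFun (hU g b) x
  have e3 := congrFun (hU b⁻¹ b) x₀
  have e4 := congrFun (hz' g b) x
  rw [inv_mul_cancel, U_one hz hU] at e3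
  simp only [Pi.add_apply, Pi.sub_apply, Pi.mul_apply, Pi.zero_apply, act_apply, inv_inv, hb, hg']
    at e1 e2 e3 e4
  rw [e1, e2, e4]
  linear_combination -e3

end Abs

/-! ### The left-convention cocycle of an additive map -/

section General

variable {G : Type u} [Group G] {Γ : Subgroup G} {k : Type v} [CommRing k]

/-- The cocycle `g ↦ (x ↦ φ (pkap Γ g (g⁻¹ • x)))`, a 1-cocycle for `PdExt.act`. -/
noncomputable def zl (φ : Γ → k) (g : G) : G ⧸ Γ → k := fun x => zc Γ φ g (g⁻¹ • x)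

theorem zl_apply (φ : Γ → k) (g : G) (x : G ⧸ Γ) : zl φ g x = zc Γ φ g (g⁻¹ • x) := rfl

theorem zl_of_fixed (φ : Γ → k) {g : G} {x : G ⧸ Γ} (hx : g • x = x) :
    zl φ g x = zc Γ φ g x := by
  have h : g⁻¹ • x = x := by
    conv_lhs => rw [← hx]
    rw [inv_smul_smul]
  rw [zl_apply, h]

theorem isCocycle_zl {φ : Γ → k} (hφ : IsAdd φ) : IsCocycle (zl φ) := by
  intro g h
  funext x
  simp only [Pi.add_apply, act_apply, zl_apply]
  rw [zc_mul hφ, mul_inv_rev, mul_smul, smul_inv_smul]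

theorem zl_base {φ : Γ → k} (hφ : IsAdd φ) (γ : Γ) : zl φ (γ : G) (x0 Γ) = φ γ := by
  rw [zl_of_fixed φ (smul_x0 Γ γ), zc_base hφ]

theorem zl_prim (φ : Γ → k) (t : G) (m : G ⧸ Γ → k)
    (h : ∀ x, zc Γ φ t x = m (t • x) - m x) : zl φ t = act t (-m) - (-m) := by
  funext x
  simp only [Pi.sub_apply, Pi.neg_apply, act_apply, zl_apply]
  rw [h, smul_inv_smul]; ring

/-- A function killing the conjugates of powers of `t` vanishes on the closed-orbit values of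
`pkap`. -/
theorem kills_pkap_pow {A : Type w} [AddCommGroup A] {f : Γ → A} {t : G} (hk : Kills f t)
    (x : G ⧸ Γ) (e : ℕ) (hx : t ^ e • x = x) : f (pkap Γ (t ^ e) x) = 0 := by
  have hx' : t ^ e • ((psec Γ x : G) : G ⧸ Γ) = ((psec Γ x : G) : G ⧸ Γ) := by
    rw [psec_spec]; exact hx
  have h := (smul_coe_eq_self_iff Γ (t ^ e) (psec Γ x)).mp hx'
  have e1 : pkap Γ (t ^ e) x = ⟨(psec Γ x)⁻¹ * t ^ e * psec Γ x, h⟩ :=
    Subtype.ext (coe_pkap_of_fixed Γ hx)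
  rw [e1]; exact hk _ e h

theorem kills_pkap {A : Type w} [AddCommGroup A] {f : Γ → A} {t : G} (hk : Kills f t)
    (x : G ⧸ Γ) (hx : t • x = x) : f (pkap Γ t x) = 0 := by
  have h := kills_pkap_pow hk x 1 (by rwa [pow_one])
  rwa [pow_one] at h

/-- The base-point evaluation of a Heisenberg primitive kills the conjugates of powers of an
element `t` along which both cocycles are coboundaries and the primitive is normalised. -/
theorem kills_lift {φ ψ : Γ → k} (hφ : IsAdd φ) (hψ : IsAdd ψ) {U : G → G ⧸ Γ → k}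
    (hU : ∀ g h : G, U (g * h) = U g + act g (U h) - zl φ g * act g (zl ψ h))
    (t : G) (μ : G ⧸ Γ → k) (hzt : zl φ t = act t μ - μ) (hUt : U t = μ * zl ψ t)
    (kφ : Kills φ t) (kψ : Kills ψ t) : Kills (fun γ : Γ => U (γ : G) (x0 Γ)) t := by
  intro b e h
  show U (b⁻¹ * t ^ e * b) (x0 Γ) = 0
  have hx : t ^ e • ((b : G) : G ⧸ Γ) = ((b : G) : G ⧸ Γ) :=
    (smul_coe_eq_self_iff Γ (t ^ e) b).mpr h
  have hb : b • x0 Γ = ((b : G) : G ⧸ Γ) := by rw [smul_coe_eq, mul_one]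
  have e1 : zl φ (t ^ e) ((b : G) : G ⧸ Γ) = 0 := by
    rw [zl_of_fixed φ hx]; exact kφ.zc_pow_eq_zero hφ _ e hx
  have e2 : zl ψ (t ^ e) ((b : G) : G ⧸ Γ) = 0 := by
    rw [zl_of_fixed ψ hx]; exact kψ.zc_pow_eq_zero hψ _ e hx
  rw [mul_assoc, U_conj (isCocycle_zl hφ) (isCocycle_zl hψ) hU (x0 Γ) _ b (t ^ e) hb hx,
    U_pow (isCocycle_zl hφ) (isCocycle_zl hψ) hU t μ hzt hUt e, Pi.mul_apply, e1, e2]
  ring

/-- The lift relation for the base-point evaluation of a Heisenberg primitive. -/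
theorem lift_rel {φ ψ : Γ → k} (hφ : IsAdd φ) (hψ : IsAdd ψ) {U : G → G ⧸ Γ → k}
    (hU : ∀ g h : G, U (g * h) = U g + act g (U h) - zl φ g * act g (zl ψ h)) (a b : Γ) :
    U ((a * b : Γ) : G) (x0 Γ) = U (a : G) (x0 Γ) + U (b : G) (x0 Γ) - φ a * ψ b := by
  have h := primitive_eval hU (x0 Γ) (a : G) (b : G) (smul_x0 Γ a)
  rw [zl_base hφ, zl_base hψ] at h
  exact h

end General

/-! ### `SL(2, ℤ)` -/

section SL2Z

open scoped MatrixGroups
open ModularGroup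

variable (Γ : Subgroup SL(2, ℤ)) {k : Type v} [CommRing k]

theorem neg_one_smul_quot (hneg : -1 ∈ Γ) (x : SL(2, ℤ) ⧸ Γ) : (-1 : SL(2, ℤ)) • x = x := by
  induction x using QuotientGroup.induction_on with
  | H a =>
    rw [smul_coe_eq, eq_comm, QuotientGroup.eq]
    have h : a⁻¹ * (-1 * a) = -1 := by
      rw [neg_one_mul, mul_neg, inv_mul_cancel]
    rw [h]; exact hneg

/-- **[PD-EXIST], `Kills` form.** -/
theorem exists_lift_prim (hneg : -1 ∈ Γ) (φ ψ : Γ → k) (hφ : IsAdd φ) (hψ : IsAdd ψ)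
    (m1 m2 m1' m2' : SL(2, ℤ) ⧸ Γ → k)
    (h1 : ∀ x, φ (pkap Γ S x) = m1 (S • x) - m1 x)
    (h2 : ∀ x, φ (pkap Γ (S * T) x) = m2 ((S * T) • x) - m2 x)
    (h1' : ∀ x, ψ (pkap Γ S x) = m1' (S • x) - m1' x)
    (h2' : ∀ x, ψ (pkap Γ (S * T) x) = m2' ((S * T) • x) - m2' x) :
    ∃ u : Γ → k, (∀ a b, u (a * b) = u a + u b - φ a * ψ b) ∧ Kills u S ∧ Kills u (S * T) := by
  have hn := neg_one_smul_quot Γ hneg
  have hS2 : ∀ x : SL(2, ℤ) ⧸ Γ, (S * S : SL(2, ℤ)) • x = x := fun x => by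
    rw [S_mul_S]; exact hn x
  have hR3 : ∀ x : SL(2, ℤ) ⧸ Γ, (S * T * (S * T) * (S * T) : SL(2, ℤ)) • x = x := fun x => by
    rw [ST_cube]; exact hn x
  have e1 := zl_prim φ S m1 h1
  have e2 := zl_prim φ (S * T) m2 h2
  have e1' := zl_prim ψ S m1' h1'
  have e2' := zl_prim ψ (S * T) m2' h2'
  have c1 : zl ψ S + act S (zl ψ S) = 0 := by
    rw [e1', act_sub, ← act_mul, act_of_smul_eq (S * S) hS2]; abel
  have c2 : zl ψ (S * T) + act (S * T) (zl ψ (S * T))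
      + act (S * T) (act (S * T) (zl ψ (S * T))) = 0 := by
    have e3 : act (S * T) (act (S * T) (act (S * T) (-m2'))) = -m2' := by
      rw [← act_mul, ← act_mul, act_of_smul_eq _ hR3]
    rw [e2']
    simp only [act_sub]
    rw [e3]; abel
  obtain ⟨U, hU, hUS, hUR⟩ := exists_primitive_sl2z hn (zl φ) (zl ψ) (isCocycle_zl hφ)
    (isCocycle_zl hψ) (-m1) (-m2) e1 e2 c1 c2
  refine ⟨fun γ => U (γ : SL(2, ℤ)) (x0 Γ), fun a b => lift_rel hφ hψ hU a b, ?_, ?_⟩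
  · exact kills_lift hφ hψ hU S (-m1) e1 hUS (kills_of_primitive hφ m1 h1)
      (kills_of_primitive hψ m1' h1')
  · exact kills_lift hφ hψ hU (S * T) (-m2) e2 hUR (kills_of_primitive hφ m2 h2)
      (kills_of_primitive hψ m2' h2')

/-- **[PD-EXIST]** (announced form). -/
theorem exists_lift (hneg : -1 ∈ Γ) (φ ψ : Γ → k)
    (hφ : ∀ a b, φ (a * b) = φ a + φ b) (hψ : ∀ a b, ψ (a * b) = ψ a + ψ b)
    (m1 m2 m1' m2' : SL(2, ℤ) ⧸ Γ → k)
    (h1 : ∀ x, φ (pkap Γ S x) = m1 (S • x) - m1 x)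
    (h2 : ∀ x, φ (pkap Γ (S * T) x) = m2 ((S * T) • x) - m2 x)
    (h1' : ∀ x, ψ (pkap Γ S x) = m1' (S • x) - m1' x)
    (h2' : ∀ x, ψ (pkap Γ (S * T) x) = m2' ((S * T) • x) - m2' x) :
    ∃ u : Γ → k, (∀ a b, u (a * b) = u a + u b - φ a * ψ b) ∧ u ⟨-1, hneg⟩ = 0 ∧
      (∀ x, S • x = x → u (pkap Γ S x) = 0) ∧
      (∀ x, (S * T) • x = x → u (pkap Γ (S * T) x) = 0) := by
  obtain ⟨u, hu, kS, kR⟩ := exists_lift_prim Γ hneg φ ψ hφ hψ m1 m2 m1' m2' h1 h2 h1' h2'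
  refine ⟨u, hu, ?_, fun x hx => kills_pkap kS x hx, fun x hx => kills_pkap kR x hx⟩
  have h0 : (1 : SL(2, ℤ))⁻¹ * S ^ 2 * 1 = -1 := by
    rw [inv_one, one_mul, mul_one, pow_two, S_mul_S]
  have hmem : (1 : SL(2, ℤ))⁻¹ * S ^ 2 * 1 ∈ Γ := by rw [h0]; exact hneg
  have e : (⟨-1, hneg⟩ : Γ) = ⟨(1 : SL(2, ℤ))⁻¹ * S ^ 2 * 1, hmem⟩ := Subtype.ext h0.symm
  rw [e]; exact kS 1 2 hmem

/-- **[PD-EXIST]** from `Shap.Kills` hypotheses (finite index). -/
theorem exists_lift_kills [Finite (SL(2, ℤ) ⧸ Γ)] (hneg : -1 ∈ Γ) (φ ψ : Γ → k)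
    (hφ : IsAdd φ) (hψ : IsAdd ψ) (kφS : Kills φ S) (kφR : Kills φ (S * T))
    (kψS : Kills ψ S) (kψR : Kills ψ (S * T)) :
    ∃ u : Γ → k, (∀ a b, u (a * b) = u a + u b - φ a * ψ b) ∧ Kills u S ∧ Kills u (S * T) := by
  obtain ⟨m1, h1⟩ := kφS.exists_primitive hφ
  obtain ⟨m2, h2⟩ := kφR.exists_primitive hφ
  obtain ⟨m1', h1'⟩ := kψS.exists_primitive hψ
  obtain ⟨m2', h2'⟩ := kψR.exists_primitive hψ
  exact exists_lift_prim Γ hneg φ ψ hφ hψ m1 m2 m1' m2' h1 h2 h1' h2'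

end SL2Z

end Fermat.Agent.P7.PdExist
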