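/-
P7 [PD-ORB] (helper90; leaf (C3) of helper30's [PD] directive): orbit data of the parabolic
element `P := S * T * S` (`= -(S * T * S⁻¹)`) on `X = SL(2, ℤ) ⧸ Γ` (left cosets,
`S21.PermDim.psec / pkap`), in exactly the shape consumed by `CuspAut.of_orbits` with
`s y := (psec Γ y)⁻¹ * S` and `e y :=` the `P`-period of `y`.
-/
import Mathlib
import Fermat.Agent.S21.PermDim
import Fermat.Agent.P7.Shap
import Fermat.Agent.P7.CuspAut
import Fermat.Agent.P7.PdInst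

set_option autoImplicit false

namespace Fermat.Agent.P7.PdOrb

open Matrix MatrixGroups ModularGroup
open Fermat.Agent.S21.PermDim Fermat.Agent.P7

/-! ### Generic permutation facts -/

section Generic

variable {G : Type*} [Group G] {X : Type*} [MulAction G X]

theorem minimalPeriod_toPerm (g : G) (x : X) :
    Function.minimalPeriod (MulAction.toPerm g : Equiv.Perm X) x = MulAction.period g x :=
  MulAction.period_eq_minimalPeriod.symm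

theorem toPerm_zpow_apply (g : G) (n : ℤ) (x : X) :
    ((MulAction.toPerm g : Equiv.Perm X) ^ n) x = g ^ n • x := by
  have h : (MulAction.toPerm g : Equiv.Perm X) ^ n = MulAction.toPerm (g ^ n) :=
    (map_zpow (MulAction.toPermHom G X) g n).symm
  rw [h]
  rfl

theorem sameCycle_toPerm_iff (g : G) (x y : X) :
    (MulAction.toPerm g : Equiv.Perm X).SameCycle x y ↔ ∃ i : ℤ, g ^ i • x = y := by
  constructor
  · rintro ⟨i, hi⟩
    exact ⟨i, by rw [← toPerm_zpow_apply]; exact hi⟩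
  · rintro ⟨i, hi⟩
    exact ⟨i, by rw [toPerm_zpow_apply]; exact hi⟩

/-- Pulling a central element to the front. -/
theorem central_pull {z : G} (hz : ∀ g : G, g * z = z * g) (a b : G) : a * (z * b) = z * (a * b) := by
  rw [← mul_assoc, hz a, mul_assoc]

end Generic

/-! ### The parabolic element `P = S * T * S` -/

theorem P_eq : (S * T * S : SL(2, ℤ)) = -1 * (S * T * S⁻¹) := by
  have hS : (S : SL(2, ℤ))⁻¹ = -S := by decide
  rw [hS]; simp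

theorem neg_one_zpow_central (j : ℤ) (g : SL(2, ℤ)) : g * (-1 : SL(2, ℤ)) ^ j = (-1) ^ j * g :=
  ((Commute.neg_one_right g).zpow_right j).eq

theorem P_zpow (j : ℤ) : (S * T * S : SL(2, ℤ)) ^ j = (-1) ^ j * (S * T ^ j * S⁻¹) := by
  rw [P_eq, (Commute.neg_one_left (S * T * S⁻¹ : SL(2, ℤ))).mul_zpow, conj_zpow]

/-- Conjugates of powers of `P` versus conjugates of powers of `T` by `u⁻¹ * S`. -/
theorem conj_P_zpow (u : SL(2, ℤ)) (j : ℤ) :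
    u⁻¹ * (S * T * S) ^ j * u = (-1) ^ j * ((u⁻¹ * S) * T ^ j * (u⁻¹ * S)⁻¹) := by
  rw [P_zpow, mul_assoc, mul_assoc, central_pull (neg_one_zpow_central j)]
  congr 1
  group

theorem conj_P_pow (u : SL(2, ℤ)) (j : ℕ) :
    u⁻¹ * (S * T * S) ^ j * u = (-1) ^ j * ((u⁻¹ * S) * T ^ j * (u⁻¹ * S)⁻¹) := by
  have h := conj_P_zpow u (j : ℤ)
  simpa only [zpow_natCast] using h

variable (Γ : Subgroup SL(2, ℤ))

theorem neg_one_zpow_smul (hneg : (-1 : SL(2, ℤ)) ∈ Γ) (j : ℤ) (x : SL(2, ℤ) ⧸ Γ) :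
    (-1 : SL(2, ℤ)) ^ j • x = x := by
  rw [MulAction.zpow_smul_eq_iff_period_dvd,
    MulAction.period_eq_one_iff.mpr (PdInst.neg_one_smul Γ hneg x)]
  simp

/-- `s T^j s⁻¹ ∈ Γ` for `s = (psec y)⁻¹ * S` iff the `P`-period of `y` divides `j`. -/
theorem conj_T_zpow_mem_iff (hneg : (-1 : SL(2, ℤ)) ∈ Γ) (y : SL(2, ℤ) ⧸ Γ) (j : ℤ) :
    ((psec Γ y)⁻¹ * S) * T ^ j * ((psec Γ y)⁻¹ * S)⁻¹ ∈ Γ ↔
      (MulAction.period (S * T * S : SL(2, ℤ)) y : ℤ) ∣ j := by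
  rw [← PdInst.conj_zpow_mem_iff Γ (S * T * S) y j, conj_P_zpow,
    Γ.mul_mem_cancel_left (Γ.zpow_mem hneg j)]

/-- The coset of `S * g⁻¹` lies on the `P`-orbit of `y` iff `g ∈ Γ * ((psec y)⁻¹ * S) * ⟨T⟩`. -/
theorem exists_of_zpow_smul (hneg : (-1 : SL(2, ℤ)) ∈ Γ) (y : SL(2, ℤ) ⧸ Γ) (g : SL(2, ℤ)) (i : ℤ)
    (h : (S * T * S : SL(2, ℤ)) ^ i • y = ((S * g⁻¹ : SL(2, ℤ)) : SL(2, ℤ) ⧸ Γ)) :
    ∃ γ ∈ Γ, g = γ * ((psec Γ y)⁻¹ * S) * T ^ (-i) := by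
  have h1 : (((S * T * S) ^ i * psec Γ y : SL(2, ℤ)) : SL(2, ℤ) ⧸ Γ)
      = ((S * g⁻¹ : SL(2, ℤ)) : SL(2, ℤ) ⧸ Γ) := by
    rw [← smul_coe_eq, psec_spec]; exact h
  have h2 : (S * g⁻¹)⁻¹ * ((S * T * S) ^ i * psec Γ y) ∈ Γ := QuotientGroup.eq.mp h1.symm
  have h3 : (S * g⁻¹)⁻¹ * ((S * T * S) ^ i * psec Γ y)
      = (-1) ^ i * (g * T ^ i * S⁻¹ * psec Γ y) := by
    rw [P_zpow, mul_assoc ((-1 : SL(2, ℤ)) ^ i), central_pull (neg_one_zpow_central i)]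
    congr 1
    group
  rw [h3, Γ.mul_mem_cancel_left (Γ.zpow_mem hneg i)] at h2
  refine ⟨_, h2, ?_⟩
  rw [_root_.zpow_neg]
  group

/-- Conversely, a relation `(psec y)⁻¹ * S = γ * ((psec y')⁻¹ * S) * T ^ j` puts `y` on the
`P`-orbit of `y'`. -/
theorem zpow_smul_of_rel (hneg : (-1 : SL(2, ℤ)) ∈ Γ) (y y' : SL(2, ℤ) ⧸ Γ) (γ : SL(2, ℤ))
    (hγ : γ ∈ Γ) (j : ℤ) (h : (psec Γ y)⁻¹ * S = γ * ((psec Γ y')⁻¹ * S) * T ^ j) :
    (S * T * S : SL(2, ℤ)) ^ (-j) • y' = y := by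
  have h1 : psec Γ y = S * T ^ (-j) * S⁻¹ * psec Γ y' * γ⁻¹ := by
    have h2 : psec Γ y = ((psec Γ y)⁻¹ * S * S⁻¹)⁻¹ := by group
    rw [h2, h, _root_.zpow_neg]
    group
  have h3 : y = ((S * T ^ (-j) * S⁻¹ * psec Γ y' : SL(2, ℤ)) : SL(2, ℤ) ⧸ Γ) := by
    conv_lhs => rw [← psec_spec Γ y, h1]
    rw [QuotientGroup.eq]
    have : (S * T ^ (-j) * S⁻¹ * psec Γ y' * γ⁻¹)⁻¹ * (S * T ^ (-j) * S⁻¹ * psec Γ y') = γ := by
      group
    rw [this]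
    exact hγ
  rw [P_zpow, mul_smul, neg_one_zpow_smul Γ hneg, h3, ← smul_coe_eq, psec_spec]

/-- **[PD-ORB]** Orbit data of `P = S * T * S` for a system `Rep` of orbit representatives:
positivity of the periods, the orbit products of `pkap` as `(-1)^e * s T^e s⁻¹` with
`s = (psec y)⁻¹ * S`, minimality, and the double-coset statements — the hypotheses of
`CuspAut.of_orbits`. -/
theorem orbit_data (Γ : Subgroup SL(2, ℤ)) (hneg : (-1 : SL(2, ℤ)) ∈ Γ)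
    [Fintype (SL(2, ℤ) ⧸ Γ)] (Rep : Finset (SL(2, ℤ) ⧸ Γ))
    (hRep : ∀ x, ∃! y, y ∈ Rep ∧
      (MulAction.toPerm (S * T * S) : Equiv.Perm (SL(2, ℤ) ⧸ Γ)).SameCycle y x) :
    (∀ y : Rep, 0 < Function.minimalPeriod
        (MulAction.toPerm (S * T * S) : Equiv.Perm (SL(2, ℤ) ⧸ Γ)) y.1) ∧
    (∀ y : Rep, ((pkap Γ ((S * T * S) ^ Function.minimalPeriod
        (MulAction.toPerm (S * T * S) : Equiv.Perm (SL(2, ℤ) ⧸ Γ)) y.1) y.1 : ↥Γ) : SL(2, ℤ))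
      = (-1) ^ Function.minimalPeriod
          (MulAction.toPerm (S * T * S) : Equiv.Perm (SL(2, ℤ) ⧸ Γ)) y.1
        * (((psec Γ y.1)⁻¹ * S) * T ^ Function.minimalPeriod
            (MulAction.toPerm (S * T * S) : Equiv.Perm (SL(2, ℤ) ⧸ Γ)) y.1
          * ((psec Γ y.1)⁻¹ * S)⁻¹)) ∧
    (∀ y : Rep, ∀ j : ℕ, 0 < j → j < Function.minimalPeriod
        (MulAction.toPerm (S * T * S) : Equiv.Perm (SL(2, ℤ) ⧸ Γ)) y.1 →
      ((psec Γ y.1)⁻¹ * S) * T ^ j * ((psec Γ y.1)⁻¹ * S)⁻¹ ∉ Γ) ∧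
    (∀ g : SL(2, ℤ), ∃ y : Rep, ∃ γ ∈ Γ, ∃ j : ℤ, g = γ * ((psec Γ y.1)⁻¹ * S) * T ^ j) ∧
    (∀ y y' : Rep, ∀ γ ∈ Γ, ∀ j : ℤ,
      (psec Γ y.1)⁻¹ * S = γ * ((psec Γ y'.1)⁻¹ * S) * T ^ j → y = y') := by
  refine ⟨fun y => ?_, fun y => ?_, fun y j hj hjp => ?_, fun g => ?_, fun y y' γ hγ j h => ?_⟩
  · rw [minimalPeriod_toPerm]
    exact PdInst.period_pos Γ _ _
  · rw [minimalPeriod_toPerm,
      Shap.coe_pkap_of_fixed Γ (MulAction.pow_period_smul (S * T * S : SL(2, ℤ)) y.1),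
      conj_P_pow]
  · rw [minimalPeriod_toPerm] at hjp
    intro hmem
    have h1 := (conj_T_zpow_mem_iff Γ hneg y.1 (j : ℤ)).mp (by rw [zpow_natCast]; exact hmem)
    have h2 : MulAction.period (S * T * S : SL(2, ℤ)) y.1 ∣ j := by exact_mod_cast h1
    exact absurd (Nat.le_of_dvd hj h2) (not_le.mpr hjp)
  · obtain ⟨y, ⟨hyR, hcyc⟩, _⟩ := hRep (((S * g⁻¹ : SL(2, ℤ)) : SL(2, ℤ) ⧸ Γ))
    obtain ⟨i, hi⟩ := (sameCycle_toPerm_iff _ _ _).mp hcyc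
    obtain ⟨γ, hγ, hg⟩ := exists_of_zpow_smul Γ hneg y g i hi
    exact ⟨⟨y, hyR⟩, γ, hγ, -i, hg⟩
  · have hcyc : (MulAction.toPerm (S * T * S) : Equiv.Perm (SL(2, ℤ) ⧸ Γ)).SameCycle y'.1 y.1 :=
      (sameCycle_toPerm_iff _ _ _).mpr ⟨-j, zpow_smul_of_rel Γ hneg y.1 y'.1 γ hγ j h⟩
    obtain ⟨y0, _, huniq⟩ := hRep y.1
    have e1 : y.1 = y0 := huniq y.1 ⟨y.2, Equiv.Perm.SameCycle.refl _ _⟩
    have e2 : y'.1 = y0 := huniq y'.1 ⟨y'.2, hcyc⟩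
    exact Subtype.ext (e1.trans e2.symm)

/-! ### The packaged family of positive generators and the (B4) input -/

/-- The positive primitive parabolic attached to the `P`-orbit of `y`:
`s T^e s⁻¹`, `s = (psec y)⁻¹ * S`, `e` the `P`-period of `y`. -/
noncomputable def posGen (hneg : (-1 : SL(2, ℤ)) ∈ Γ) (y : SL(2, ℤ) ⧸ Γ) : Γ :=
  ⟨((psec Γ y)⁻¹ * S) * T ^ MulAction.period (S * T * S : SL(2, ℤ)) y * ((psec Γ y)⁻¹ * S)⁻¹, by
    have h := (conj_T_zpow_mem_iff Γ hneg y (MulAction.period (S * T * S : SL(2, ℤ)) y : ℤ)).mpr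
      dvd_rfl
    rwa [zpow_natCast] at h⟩

theorem coe_posGen (hneg : (-1 : SL(2, ℤ)) ∈ Γ) (y : SL(2, ℤ) ⧸ Γ) :
    (posGen Γ hneg y : SL(2, ℤ)) = ((psec Γ y)⁻¹ * S)
      * T ^ MulAction.period (S * T * S : SL(2, ℤ)) y * ((psec Γ y)⁻¹ * S)⁻¹ := rfl

/-- The `P`-orbit product of the cocycle is `(-1)^e` times the positive generator. -/
theorem pkap_P_pow_period (hneg : (-1 : SL(2, ℤ)) ∈ Γ) (y : SL(2, ℤ) ⧸ Γ) :
    pkap Γ ((S * T * S) ^ MulAction.period (S * T * S : SL(2, ℤ)) y) y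
      = (⟨-1, hneg⟩ : Γ) ^ MulAction.period (S * T * S : SL(2, ℤ)) y * posGen Γ hneg y := by
  apply Subtype.ext
  rw [Shap.coe_pkap_of_fixed Γ (MulAction.pow_period_smul (S * T * S : SL(2, ℤ)) y), conj_P_pow]
  rfl

/-- The minimal-period spelling of `pkap_P_pow_period`. -/
theorem pkap_P_pow_minimalPeriod (hneg : (-1 : SL(2, ℤ)) ∈ Γ) (y : SL(2, ℤ) ⧸ Γ) :
    pkap Γ ((S * T * S) ^ Function.minimalPeriod
        (MulAction.toPerm (S * T * S) : Equiv.Perm (SL(2, ℤ) ⧸ Γ)) y) y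
      = (⟨-1, hneg⟩ : Γ) ^ MulAction.period (S * T * S : SL(2, ℤ)) y * posGen Γ hneg y := by
  rw [minimalPeriod_toPerm]
  exact pkap_P_pow_period Γ hneg y

/-- For a system `Rep` of representatives of the `P`-orbits, the positive generators form a
system of representatives of the `Γ`-conjugacy classes of positive primitive parabolic elements:
(h1), (h2), (h3) of `CuspAut.sum_comp_aut`. -/
theorem posGen_family (hneg : (-1 : SL(2, ℤ)) ∈ Γ) [Fintype (SL(2, ℤ) ⧸ Γ)]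
    (Rep : Finset (SL(2, ℤ) ⧸ Γ))
    (hRep : ∀ x, ∃! y, y ∈ Rep ∧
      (MulAction.toPerm (S * T * S) : Equiv.Perm (SL(2, ℤ) ⧸ Γ)).SameCycle y x) :
    (∀ y : Rep, CuspAut.IsPosPrim Γ (posGen Γ hneg y.1).1) ∧
    (∀ Q : Γ, CuspAut.IsPosPrim Γ Q.1 → ∃ y : Rep, ∃ γ : Γ, Q = γ * posGen Γ hneg y.1 * γ⁻¹) ∧
    (∀ (y y' : Rep) (γ : Γ), posGen Γ hneg y.1 = γ * posGen Γ hneg y'.1 * γ⁻¹ → y = y') := by
  obtain ⟨d1, _, d3, d4, d5⟩ := orbit_data Γ hneg Rep hRep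
  simp only [minimalPeriod_toPerm] at d1 d3
  exact CuspAut.of_orbits Γ hneg (fun y : Rep => (psec Γ y.1)⁻¹ * S)
    (fun y => MulAction.period (S * T * S : SL(2, ℤ)) y.1) d1 (fun y => (posGen Γ hneg y.1).2)
    d3 d4 d5

/-- A function invariant under multiplication by `-1` does not see `θ` of a sign. -/
theorem map_aut_neg_pow (hneg : (-1 : SL(2, ℤ)) ∈ Γ) (W : Matrix (Fin 2) (Fin 2) ℤ) (θ : Γ ≃* Γ)
    (hW : W.det ≠ 0)
    (hθ : ∀ γ : Γ, W * (γ.1 : Matrix (Fin 2) (Fin 2) ℤ) = ((θ γ).1 : Matrix (Fin 2) (Fin 2) ℤ) * W)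
    {k : Type*} (u : Γ → k) (hun : ∀ Q : Γ, u (⟨-1, hneg⟩ * Q) = u Q) (e : ℕ) (Q : Γ) :
    u (θ ((⟨-1, hneg⟩ : Γ) ^ e * Q)) = u (θ Q) := by
  induction e with
  | zero => simp
  | succ e ih =>
    have h1 : (((⟨-1, hneg⟩ : Γ) ^ (e + 1) * Q : Γ) : SL(2, ℤ))
        = -(((⟨-1, hneg⟩ : Γ) ^ e * Q : Γ) : SL(2, ℤ)) := by
      rw [pow_succ']
      simp
    have h2 := CuspAut.aut_neg W θ hW hθ h1
    have h3 : θ ((⟨-1, hneg⟩ : Γ) ^ (e + 1) * Q) = ⟨-1, hneg⟩ * θ ((⟨-1, hneg⟩ : Γ) ^ e * Q) := by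
      apply Subtype.ext
      rw [h2]
      simp
    rw [h3, hun, ih]

theorem map_neg_pow (hneg : (-1 : SL(2, ℤ)) ∈ Γ) {k : Type*} (u : Γ → k)
    (hun : ∀ Q : Γ, u (⟨-1, hneg⟩ * Q) = u Q) (e : ℕ) (Q : Γ) :
    u ((⟨-1, hneg⟩ : Γ) ^ e * Q) = u Q := by
  induction e with
  | zero => simp
  | succ e ih => rw [pow_succ', mul_assoc, hun, ih]

/-- **(B4) input in the `P`-orbit form**: for `u` invariant under `Γ`-conjugation on positive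
primitive parabolics and under multiplication by `-1`, the sum of `u` over the `P`-orbit
products of the cocycle is invariant under an automorphism `θ` of `Γ` induced by an integral
matrix of positive determinant. -/
theorem sum_orbit_comp_aut (hneg : (-1 : SL(2, ℤ)) ∈ Γ) [Fintype (SL(2, ℤ) ⧸ Γ)]
    (Rep : Finset (SL(2, ℤ) ⧸ Γ))
    (hRep : ∀ x, ∃! y, y ∈ Rep ∧
      (MulAction.toPerm (S * T * S) : Equiv.Perm (SL(2, ℤ) ⧸ Γ)).SameCycle y x)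
    (W : Matrix (Fin 2) (Fin 2) ℤ) (θ : Γ ≃* Γ) (hW : 0 < W.det)
    (hθ : ∀ γ : Γ, W * (γ.1 : Matrix (Fin 2) (Fin 2) ℤ) = ((θ γ).1 : Matrix (Fin 2) (Fin 2) ℤ) * W)
    {k : Type*} [AddCommMonoid k] (u : Γ → k)
    (hu : ∀ γ Q : Γ, CuspAut.IsPosPrim Γ Q.1 → u (γ * Q * γ⁻¹) = u Q)
    (hun : ∀ Q : Γ, u (⟨-1, hneg⟩ * Q) = u Q) :
    ∑ y ∈ Rep, u (θ (pkap Γ ((S * T * S) ^ Function.minimalPeriod
        (MulAction.toPerm (S * T * S) : Equiv.Perm (SL(2, ℤ) ⧸ Γ)) y) y))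
      = ∑ y ∈ Rep, u (pkap Γ ((S * T * S) ^ Function.minimalPeriod
        (MulAction.toPerm (S * T * S) : Equiv.Perm (SL(2, ℤ) ⧸ Γ)) y) y) := by
  obtain ⟨h1, h2, h3⟩ := posGen_family Γ hneg Rep hRep
  have key := CuspAut.sum_comp_aut W θ (fun y : Rep => posGen Γ hneg y.1) h1 h2 h3 hW hθ u hu
  have e1 : ∀ y, u (θ (pkap Γ ((S * T * S) ^ Function.minimalPeriod
        (MulAction.toPerm (S * T * S) : Equiv.Perm (SL(2, ℤ) ⧸ Γ)) y) y))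
      = u (θ (posGen Γ hneg y)) := by
    intro y
    rw [pkap_P_pow_minimalPeriod Γ hneg, map_aut_neg_pow Γ hneg W θ (ne_of_gt hW) hθ u hun]
  have e2 : ∀ y, u (pkap Γ ((S * T * S) ^ Function.minimalPeriod
        (MulAction.toPerm (S * T * S) : Equiv.Perm (SL(2, ℤ) ⧸ Γ)) y) y)
      = u (posGen Γ hneg y) := by
    intro y
    rw [pkap_P_pow_minimalPeriod Γ hneg, map_neg_pow Γ hneg u hun]
  simp only [e1, e2]
  rw [← Finset.sum_coe_sort Rep (fun y => u (θ (posGen Γ hneg y))),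
    ← Finset.sum_coe_sort Rep (fun y => u (posGen Γ hneg y))]
  exact key

end Fermat.Agent.P7.PdOrb
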