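import Mathlib
import Fermat.Agent.P7.PdSym
import Fermat.Agent.P7.PdExist
import Fermat.Agent.P7.PdOrb
import Fermat.Agent.P7.AlInst
import Fermat.Agent.P7.KillsTrace
import Fermat.Agent.P7.EllConj
import Fermat.Agent.P7.PdB4

/-!
# `[PD]` (B4): the pairing `PdSym.pairV` is invariant under the Atkin–Lehner automorphism

* `pairV_theta` : for `Γ ≤ SL(2, ℤ)` of finite index containing `-1` and an automorphism `θ` of
  `Γ` induced by an integer matrix of positive determinant, `pairV (φ ∘ θ) (ψ ∘ θ) = pairV φ ψ`.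
* `pairV_wq`    : the case `Γ = Γ₀(N q)`, `θ = Degen.cW`.
-/

set_option autoImplicit false

namespace Fermat.Agent.P7.PdWq

open Fermat.Agent.S21.PermDim Fermat.Agent.P7.Shap ModularGroup
open Fermat.Agent.P7
open scoped MatrixGroups

section general

theorem zpow_eq_pow_of_pow_eq_one {G : Type*} [Group G] (t : G) (m : ℕ) (hm : 0 < m)
    (ht : t ^ m = 1) (j : ℤ) : ∃ e : ℕ, t ^ j = t ^ e := by
  refine ⟨(j % m).toNat, ?_⟩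
  have h1 : (0 : ℤ) ≤ j % m := Int.emod_nonneg j (by exact_mod_cast hm.ne')
  have h2 : j = j % m + m * (j / m) := (Int.emod_add_mul_ediv j m).symm
  conv_lhs => rw [h2]
  rw [zpow_add, zpow_mul, zpow_natCast, ht, one_zpow, mul_one, ← zpow_natCast,
    Int.toNat_of_nonneg h1]

/-- A function on `Γ` killing the conjugates of the powers of `S` and of `S * T` vanishes on all
elements of finite order (no additivity needed). -/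
theorem eq_zero_of_isOfFinOrder {Γ : Subgroup SL(2, ℤ)} {A : Type*} [AddCommGroup A]
    (u : ↥Γ → A) (hS : Kills u S) (hR : Kills u (S * T)) (γ : ↥Γ) (hγ : IsOfFinOrder γ) :
    u γ = 0 := by
  have hγ' : IsOfFinOrder (γ : SL(2, ℤ)) := by
    rw [isOfFinOrder_iff_pow_eq_one] at hγ ⊢
    obtain ⟨n, hn, h1⟩ := hγ
    exact ⟨n, hn, by rw [← Subgroup.coe_pow, h1]; rfl⟩
  rcases EllConj.finOrder_conj _ hγ' with ⟨g, j, hj⟩ | ⟨g, j, hj⟩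
  · obtain ⟨e, he⟩ := zpow_eq_pow_of_pow_eq_one (S : SL(2, ℤ)) 4 (by norm_num) (by decide) j
    have hmem : (g⁻¹)⁻¹ * S ^ e * g⁻¹ ∈ Γ := by
      rw [inv_inv, ← he, ← hj]; exact γ.2
    have e2 : γ = ⟨_, hmem⟩ := Subtype.ext (by
      show (γ : SL(2, ℤ)) = (g⁻¹)⁻¹ * S ^ e * g⁻¹
      rw [hj, he, inv_inv])
    rw [e2]
    exact hS g⁻¹ e hmem
  · obtain ⟨e, he⟩ := zpow_eq_pow_of_pow_eq_one (S * T : SL(2, ℤ)) 6 (by norm_num) (by decide) j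
    have hmem : (g⁻¹)⁻¹ * (S * T) ^ e * g⁻¹ ∈ Γ := by
      rw [inv_inv, ← he, ← hj]; exact γ.2
    have e2 : γ = ⟨_, hmem⟩ := Subtype.ext (by
      show (γ : SL(2, ℤ)) = (g⁻¹)⁻¹ * (S * T) ^ e * g⁻¹
      rw [hj, he, inv_inv])
    rw [e2]
    exact hR g⁻¹ e hmem

end general

section theta

variable (Γ : Subgroup SL(2, ℤ)) (hneg : (-1 : SL(2, ℤ)) ∈ Γ) [Fintype (SL(2, ℤ) ⧸ Γ)]
  {k : Type*} [Field k]

/-- **(B4) for a general `Γ`.**  If `θ` is an automorphism of `Γ` induced by an integer matrix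
of positive determinant (`W * γ = θ γ * W`) and `φ' = φ ∘ θ`, `ψ' = ψ ∘ θ` in `VK Γ k`, then
`pairV φ' ψ' = pairV φ ψ`. -/
theorem pairV_theta (h2 : (2 : k) ≠ 0) (W : Matrix (Fin 2) (Fin 2) ℤ) (hW : 0 < W.det)
    (θ : ↥Γ ≃* ↥Γ)
    (hθ : ∀ γ : ↥Γ, W * (γ.1 : Matrix (Fin 2) (Fin 2) ℤ)
      = ((θ γ).1 : Matrix (Fin 2) (Fin 2) ℤ) * W)
    (φ ψ φ' ψ' : PdSym.VK Γ k)
    (hφ' : ∀ γ : ↥Γ, (φ' : Additive ↥Γ →+ k) (Additive.ofMul γ)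
      = (φ : Additive ↥Γ →+ k) (Additive.ofMul (θ γ)))
    (hψ' : ∀ γ : ↥Γ, (ψ' : Additive ↥Γ →+ k) (Additive.ofMul γ)
      = (ψ : Additive ↥Γ →+ k) (Additive.ofMul (θ γ))) :
    PdSym.pairV hneg φ' ψ' = PdSym.pairV hneg φ ψ := by
  classical
  have h2' : ∀ a : k, a + a = 0 → a = 0 := by
    intro a ha
    rw [← two_mul] at ha
    exact (mul_eq_zero.mp ha).resolve_left h2
  -- the functions
  set fφ : ↥Γ → k := PdSym.fn Γ (φ : Additive ↥Γ →+ k) with hfφ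
  set fψ : ↥Γ → k := PdSym.fn Γ (ψ : Additive ↥Γ →+ k) with hfψ
  have aφ : IsAdd fφ := PdSym.isAdd_fn Γ _
  have aψ : IsAdd fψ := PdSym.isAdd_fn Γ _
  obtain ⟨kφS, kφR, kφP⟩ := PdSym.mem_VK.mp φ.2
  obtain ⟨kψS, kψR, kψP⟩ := PdSym.mem_VK.mp ψ.2
  obtain ⟨kφS', kφR', kφP'⟩ := PdSym.mem_VK.mp φ'.2
  obtain ⟨kψS', kψR', kψP'⟩ := PdSym.mem_VK.mp ψ'.2
  have eφ : PdSym.fn Γ (φ' : Additive ↥Γ →+ k) = fun γ => fφ (θ γ) := funext hφ'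
  have eψ : PdSym.fn Γ (ψ' : Additive ↥Γ →+ k) = fun γ => fψ (θ γ) := funext hψ'
  -- the lift of `(ψ, φ)`
  obtain ⟨u, hu, huS, huR⟩ := PdExist.exists_lift_kills Γ hneg fψ fφ aψ aφ kψS kψR kφS kφR
  have hufin : ∀ γ : ↥Γ, IsOfFinOrder γ → u γ = 0 := eq_zero_of_isOfFinOrder u huS huR
  -- trace conditions
  have tψ := (KillsTrace.kills_iff_trace aψ hneg h2').mp ⟨kψS, kψR, kψP⟩
  have tφ := (KillsTrace.kills_iff_trace aφ hneg h2').mp ⟨kφS, kφR, kφP⟩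
  have hψ1 : fψ ⟨-1, hneg⟩ = 0 := by
    apply tψ.2.2
    show ((-1 : SL(2, ℤ)) : Matrix (Fin 2) (Fin 2) ℤ).trace ^ 2 = 4
    decide
  have hψpar : ∀ P : ↥Γ, CuspAut.IsPosPrim Γ P.1 → fψ P = 0 := by
    intro P hP
    apply tψ.2.2
    rw [hP.1.1]; norm_num
  have hφpar : ∀ P : ↥Γ, CuspAut.IsPosPrim Γ P.1 → fφ P = 0 := by
    intro P hP
    apply tφ.2.2
    rw [hP.1.1]; norm_num
  -- orbit data
  obtain ⟨Rep, hRep⟩ := PdRes.exists_reps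
    (MulAction.toPerm (S * T * S) : Equiv.Perm (SL(2, ℤ) ⧸ Γ))
  obtain ⟨hO1, hO2, hO3, hO4, hO5⟩ := PdOrb.orbit_data Γ hneg Rep hRep
  -- symbols
  obtain ⟨wφ, nφ, sφ⟩ := PdSym.exists_sym_of_mem hneg φ.2
  obtain ⟨wψ, nψ, sψ⟩ := PdSym.exists_sym_of_mem hneg ψ.2
  obtain ⟨wφ', nφ', sφ'⟩ := PdSym.exists_sym_of_mem hneg φ'.2
  obtain ⟨wψ', nψ', sψ'⟩ := PdSym.exists_sym_of_mem hneg ψ'.2
  obtain ⟨⟨m₁, hm₁⟩, ⟨m₂, hm₂⟩⟩ := sφ.exists_primitives aφ kφS kφR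
  obtain ⟨⟨a₁, ha₁⟩, ⟨a₂, ha₂⟩⟩ := sψ.exists_primitives aψ kψS kψR
  obtain ⟨⟨l₁, hl₁⟩, ⟨l₂, hl₂⟩⟩ := sφ'.exists_primitives (PdSym.isAdd_fn Γ _) kφS' kφR'
  obtain ⟨⟨b₁, hb₁⟩, ⟨b₂, hb₂⟩⟩ := sψ'.exists_primitives (PdSym.isAdd_fn Γ _) kψS' kψR'
  -- the pairings as sums
  have P1 : PdSym.pairV hneg φ ψ = ∑ x, wψ x * (m₂ x - m₁ x) := by
    rw [PdSym.pairV_eq hneg φ ψ sφ sψ]
    rw [PdModel.B_eq PdSym.dot_sg PdSym.dot_tg (sψ.mem_W ψ.2) (m₁ := m₁) (m₂ := m₂)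
      (funext fun x => (hm₁ x).symm) (funext fun x => (hm₂ x).symm)]
    rfl
  have P2 : PdSym.pairV hneg φ' ψ' = ∑ x, wψ' x * (l₂ x - l₁ x) := by
    rw [PdSym.pairV_eq hneg φ' ψ' sφ' sψ']
    rw [PdModel.B_eq PdSym.dot_sg PdSym.dot_tg (sψ'.mem_W ψ'.2) (m₁ := l₁) (m₂ := l₂)
      (funext fun x => (hl₁ x).symm) (funext fun x => (hl₂ x).symm)]
    rfl
  rw [P1, P2]
  rw [eφ] at sφ'
  rw [eψ] at sψ'
  exact PdB4.isometry Γ hneg Rep hRep hO1 hO2 hO3 hO4 hO5 W hW θ hθ fψ fφ u aψ aφ hu hψ1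
    hψpar hφpar hufin nψ wψ nφ wφ a₁ a₂ m₁ m₂
    (fun x => (sψ x).1) (fun x => (sψ x).2) (fun x => (sφ x).1) (fun x => (sφ x).2)
    ha₁ ha₂ hm₁ hm₂
    nψ' wψ' nφ' wφ' b₁ b₂ l₁ l₂
    (fun x => (sψ' x).1) (fun x => (sψ' x).2) (fun x => (sφ' x).1) (fun x => (sφ' x).2)
    hb₁ hb₂ hl₁ hl₂

end theta

section gamma0

open CongruenceSubgroup

variable (N q : ℕ) [NeZero N] [Fact q.Prime] (hqN : ¬ q ∣ N) {k : Type*} [Field k]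

omit [NeZero N] in
/-- The Atkin–Lehner operator `w_q` preserves `VK (Γ₀(N q))`. -/
theorem wq_mem_VK (hneg' : (-1 : SL(2, ℤ)) ∈ Gamma0 (N * q)) (h2 : (2 : k) ≠ 0)
    {ψ : Additive ↥(Gamma0 (N * q)) →+ k} (hψ : ψ ∈ PdSym.VK (Gamma0 (N * q)) k) :
    Degen.wq N q hqN k ψ ∈ PdSym.VK (Gamma0 (N * q)) k := by
  have h2' : ∀ a : k, a + a = 0 → a = 0 := by
    intro a ha
    rw [← two_mul] at ha
    exact (mul_eq_zero.mp ha).resolve_left h2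
  have t := (KillsTrace.kills_iff_trace (PdSym.isAdd_fn _ ψ) hneg' h2').mp (PdSym.mem_VK.mp hψ)
  apply PdSym.mem_VK.mpr
  apply (KillsTrace.kills_iff_trace (PdSym.isAdd_fn _ (Degen.wq N q hqN k ψ)) hneg' h2').mpr
  refine ⟨fun γ hγ => ?_, fun γ hγ => ?_, fun γ hγ => ?_⟩
  · exact t.1 (Degen.cW N q hqN γ) (by rw [CuspAutW.trace_cW]; exact hγ)
  · exact t.2.1 (Degen.cW N q hqN γ) (by rw [CuspAutW.trace_cW]; exact hγ)
  · exact t.2.2 (Degen.cW N q hqN γ) (by rw [CuspAutW.trace_cW]; exact hγ)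

/-- **(B4) on `V`**: the Atkin–Lehner operator `w_q` is an isometry of `PdSym.pairV` on
`VK (Γ₀(N q))`. -/
theorem pairV_wq [Fintype (SL(2, ℤ) ⧸ Gamma0 (N * q))]
    (hneg' : (-1 : SL(2, ℤ)) ∈ Gamma0 (N * q)) (h2 : (2 : k) ≠ 0)
    (φ ψ : PdSym.VK (Gamma0 (N * q)) k) :
    PdSym.pairV hneg' ⟨Degen.wq N q hqN k φ, wq_mem_VK N q hqN hneg' h2 φ.2⟩
        ⟨Degen.wq N q hqN k ψ, wq_mem_VK N q hqN hneg' h2 ψ.2⟩
      = PdSym.pairV hneg' φ ψ := by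
  obtain ⟨θ, W, hθc, hW, hθ⟩ := AlInst.exists_aut N q hqN
  exact pairV_theta _ hneg' h2 W hW θ hθ φ ψ _ _ (fun γ => by rw [hθc]; rfl)
    (fun γ => by rw [hθc]; rfl)

end gamma0

end Fermat.Agent.P7.PdWq
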