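import Mathlib
import Fermat.Agent.P7.LRCore
import Fermat.Agent.P7.DegInst
import Fermat.Agent.P7.PdSym
import Fermat.Agent.P7.PdB3Pair
import Fermat.Agent.P7.PdWq
import Fermat.Agent.P7.LatRed
import Fermat.Agent.P7.KillsTrace
import Fermat.Agent.P7.PdInst

/-!
# P7 [PD], contract form (helper80): `LRCore.PairData` and `LRCore.IsAdj` for `DegInst.degData`

`β_M (x, z) := pairV (x mod p) (z mod p)` on `Lat M`, with
* (B0)/(B2) bilinearity and skew-symmetry from `PdSym.pairV`, `PdSym.pairV_skew`;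
* (B1) the radical is `p · Lat M` (`PdSym.pairV_nondeg` + `LatRed.exists_smul_of_pair_eq_zero'`);
* (B3) `res ⊣ tr` (`PdB3Pair.pairV_resA_corA`);
* (B4) `w_q` is an isometry (`PdWq.pairV_wq`).
-/

set_option autoImplicit false

open CongruenceSubgroup
open scoped MatrixGroups

namespace Fermat.Agent.P7.LRPd

open Fermat.Agent.P5.Per

/-- The reduction modulo `p` of an element of the parabolic lattice lies in `V`. -/
theorem cast_mem_VK (p M : ℕ) [Fact p.Prime] (x : Lat M) :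
    castHom M (ZMod p) (x : Additive (Gamma0 M) →+ ℤ) ∈ PdSym.VK (Gamma0 M) (ZMod p) := by
  rw [PdSym.mem_VK]
  obtain ⟨h1, h2, h3, -⟩ := KillsTrace.hom_kills_of_trace
    (castHom M (ZMod p) (x : Additive (Gamma0 M) →+ ℤ))
    (LatRed.castHom_trace_zero _ _) (LatRed.castHom_trace_sq_one _ _)
    (LatRed.castHom_trace_sq_four _ x.2)
  exact ⟨h1, h2, h3⟩

/-- Reduction modulo `p`, as an additive map `Lat M → V`. -/
noncomputable def red (p M : ℕ) [Fact p.Prime] :
    Lat M →+ PdSym.VK (Gamma0 M) (ZMod p) where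
  toFun x := ⟨castHom M (ZMod p) (x : Additive (Gamma0 M) →+ ℤ), cast_mem_VK p M x⟩
  map_zero' := by
    apply Subtype.ext
    refine AddMonoidHom.ext fun γ => ?_
    simp
  map_add' x z := by
    apply Subtype.ext
    refine AddMonoidHom.ext fun γ => ?_
    simp

theorem coe_red (p M : ℕ) [Fact p.Prime] (x : Lat M) :
    ((red p M x : PdSym.VK (Gamma0 M) (ZMod p)) : Additive (Gamma0 M) →+ ZMod p) =
      castHom M (ZMod p) (x : Additive (Gamma0 M) →+ ℤ) := rfl

/-- Membership in `V`, in trace form. -/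
theorem mem_VK_iff_trace (p M : ℕ) [Fact p.Prime] (hp2 : p ≠ 2)
    (χ : Additive (Gamma0 M) →+ ZMod p) :
    χ ∈ PdSym.VK (Gamma0 M) (ZMod p) ↔
      ((∀ γ : Gamma0 M, ((γ : SL(2, ℤ)) : Matrix (Fin 2) (Fin 2) ℤ).trace = 0 →
          χ (Additive.ofMul γ) = 0) ∧
        (∀ γ : Gamma0 M, ((γ : SL(2, ℤ)) : Matrix (Fin 2) (Fin 2) ℤ).trace ^ 2 = 1 →
          χ (Additive.ofMul γ) = 0) ∧
        ∀ γ : Gamma0 M, ((γ : SL(2, ℤ)) : Matrix (Fin 2) (Fin 2) ℤ).trace ^ 2 = 4 →
          χ (Additive.ofMul γ) = 0) := by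
  rw [PdSym.mem_VK]
  constructor
  · rintro ⟨h1, h2, h3⟩
    exact KillsTrace.gamma0_trace_of_kills M p hp2 χ h1 h2 h3
  · rintro ⟨h1, h2, h3⟩
    obtain ⟨k1, k2, k3, -⟩ := KillsTrace.hom_kills_of_trace χ h1 h2 h3
    exact ⟨k1, k2, k3⟩

/-- **(C3) [PD]**: the pairing data on `Lat M`. -/
noncomputable def pairData (p M : ℕ) (hp : p.Prime) (hp2 : p ≠ 2) (hM : 0 < M) :
    LRCore.PairData p M :=
  haveI : Fact p.Prime := ⟨hp⟩
  haveI : NeZero M := ⟨hM.ne'⟩
  letI : Fintype (SL(2, ℤ) ⧸ Gamma0 M) := Fintype.ofFinite _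
  { β := fun x z => PdSym.pairV (KillsTrace.neg_one_mem_Gamma0' M) (red p M x) (red p M z)
    add_left := fun x x' z => by
      rw [map_add, map_add, LinearMap.add_apply]
    add_right := fun x z z' => by
      rw [map_add, map_add]
    nondeg := fun x hx => by
      classical
      refine LatRed.exists_smul_of_pair_eq_zero' hp.ne_zero
        (fun χ => χ ∈ PdSym.VK (Gamma0 M) (ZMod p)) (mem_VK_iff_trace p M hp2)
        (fun φ ψ => if h : φ ∈ PdSym.VK (Gamma0 M) (ZMod p) ∧ ψ ∈ PdSym.VK (Gamma0 M) (ZMod p)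
          then PdSym.pairV (KillsTrace.neg_one_mem_Gamma0' M) ⟨φ, h.1⟩ ⟨ψ, h.2⟩ else 0)
        ?_ x ?_
      · intro φ hφ h
        have h1 := PdSym.pairV_nondeg (KillsTrace.neg_one_mem_Gamma0' M) ⟨φ, hφ⟩ (fun ψ => by
          have h2 := h ψ.1 ψ.2
          rw [dif_pos ⟨hφ, ψ.2⟩] at h2
          exact h2)
        exact congrArg Subtype.val h1
      · intro z
        rw [dif_pos ⟨cast_mem_VK p M x, cast_mem_VK p M z⟩]
        exact hx z
    skew := fun x z => by
      have h := PdSym.pairV_skew (KillsTrace.neg_one_mem_Gamma0' M) (red p M x) (red p M z)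
      exact eq_neg_of_add_eq_zero_right h }

theorem pairData_β (p M : ℕ) [Fact p.Prime] [NeZero M] (hp : p.Prime) (hp2 : p ≠ 2) (hM : 0 < M)
    (x z : Lat M) :
    (pairData p M hp hp2 hM).β x z =
      @PdSym.pairV (Gamma0 M) (ZMod p) _ (Fintype.ofFinite _) (KillsTrace.neg_one_mem_Gamma0' M)
        (red p M x) (red p M z) := rfl

/-- **(C3) [PD]**: `res ⊣ tr` and `w_q` is an isometry, for `DegInst.degData`. -/
theorem isAdj (p N q : ℕ) [NeZero N] [NeZero (N * q)] (hp : p.Prime) (hp2 : p ≠ 2)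
    (hq : q.Prime) (hqN : ¬ q ∣ N) (hN : 0 < N) (hNq : 0 < N * q) :
    LRCore.IsAdj (pairData p N hp hp2 hN) (pairData p (N * q) hp hp2 hNq)
      (DegInst.degData N q hq hqN) := by
  haveI : Fact p.Prime := ⟨hp⟩
  haveI : Fact q.Prime := ⟨hq⟩
  have h2 : (2 : ZMod p) ≠ 0 := by
    intro h
    have h3 : ((2 : ℕ) : ZMod p) = 0 := by exact_mod_cast h
    rw [ZMod.natCast_eq_zero_iff] at h3
    exact hp2 ((Nat.prime_dvd_prime_iff_eq hp Nat.prime_two).1 h3)
  constructor
  · intro x y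
    rw [pairData_β, pairData_β, DegInst.degData_resA, DegInst.degData_corA]
    have e1 : red p (N * q) (DegenLat.resAL N q x) =
        ⟨Degen.resA N q (ZMod p) (red p N x).1, PdB3Pair.resA_mem_VK N q (red p N x).2⟩ :=
      Subtype.ext (DegenLat.castHom_resAL N q (ZMod p) x)
    have e2 : red p N (DegenLat.corAL N q y) =
        ⟨Degen.corA N q (ZMod p) (red p (N * q) y).1,
          PdB3Pair.corA_mem_VK N q (red p (N * q) y).2⟩ :=
      Subtype.ext (DegenLat.castHom_corAL N q (ZMod p) y)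
    rw [e1, e2]
    exact PdB3Pair.pairV_resA_corA N q _ _ (red p N x) (red p (N * q) y)
  · intro y y'
    rw [pairData_β, pairData_β, DegInst.degData_wq]
    have e1 : ∀ y : Lat (N * q), red p (N * q) (DegenLat.wqL N q hqN y) =
        ⟨Degen.wq N q hqN (ZMod p) (red p (N * q) y).1,
          PdWq.wq_mem_VK N q hqN (KillsTrace.neg_one_mem_Gamma0' (N * q)) h2
            (red p (N * q) y).2⟩ :=
      fun y => Subtype.ext (DegenLat.castHom_wqL N q hqN (ZMod p) y)
    rw [e1, e1]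
    exact PdWq.pairV_wq N q hqN _ h2 (red p (N * q) y) (red p (N * q) y')

end Fermat.Agent.P7.LRPd
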