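import Mathlib
import Fermat.Agent.P7.RibetLA

/-!
# Dual Ihara from the pairing contract, in lattice form

`M` is a finitely generated abelian group with a biadditive pairing `β : M → M → ZMod p` which is
left-nondegenerate modulo `p`.  The `ZMod p`-vector space `M / p M`, its dual and the perfectness
argument are built inside the proofs; the statements only mention lattices.
-/

set_option autoImplicit false

namespace Fermat.Agent.P7.RibetDual

section repr

/-- The subgroup `p M`. -/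
def pSub (p : ℕ) (M : Type*) [AddCommGroup M] : AddSubgroup M :=
  (zsmulAddGroupHom (p : ℤ) : M →+ M).range

theorem zsmul_mem_pSub (p : ℕ) {M : Type*} [AddCommGroup M] (m : M) : (p : ℤ) • m ∈ pSub p M :=
  ⟨m, rfl⟩

theorem nsmul_mem_pSub (p : ℕ) {M : Type*} [AddCommGroup M] (m : M) : p • m ∈ pSub p M := by
  have := zsmul_mem_pSub p m
  rwa [natCast_zsmul] at this

theorem exists_of_mem_pSub (p : ℕ) {M : Type*} [AddCommGroup M] {m : M} (h : m ∈ pSub p M) :
    ∃ m', m = (p : ℤ) • m' := by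
  obtain ⟨m', rfl⟩ := h
  exact ⟨m', rfl⟩

/-- `M / p M` as a `ZMod p`-module. -/
noncomputable instance instModuleQuot (p : ℕ) (M : Type*) [AddCommGroup M] :
    Module (ZMod p) (M ⧸ pSub p M) :=
  QuotientAddGroup.zmodModule (nsmul_mem_pSub p)

variable (p : ℕ) [Fact p.Prime] {M : Type*} [AddCommGroup M]

/-- additivity in the second variable: multiples of `p` pair to zero. -/
theorem pair_smul_right (β : M → M → ZMod p) (hβr : ∀ x z z', β x (z + z') = β x z + β x z')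
    (x m : M) : β x ((p : ℤ) • m) = 0 := by
  have h := map_zsmul (AddMonoidHom.mk' (β x) (hβr x)) (p : ℤ) m
  simp only [AddMonoidHom.mk'_apply] at h
  rw [h, zsmul_eq_mul, Int.cast_natCast, ZMod.natCast_self, zero_mul]

/-- additivity in the first variable: multiples of `p` pair to zero. -/
theorem pair_smul_left (β : M → M → ZMod p) (hβl : ∀ x x' z, β (x + x') z = β x z + β x' z)
    (m z : M) : β ((p : ℤ) • m) z = 0 := by
  have h := map_zsmul (AddMonoidHom.mk' (fun x => β x z) (fun x x' => hβl x x' z)) (p : ℤ) m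
  simp only [AddMonoidHom.mk'_apply] at h
  rw [h, zsmul_eq_mul, Int.cast_natCast, ZMod.natCast_self, zero_mul]

/-- The functional `β x` on `M / p M`. -/
noncomputable def phi (β : M → M → ZMod p) (hβr : ∀ x z z', β x (z + z') = β x z + β x z')
    (x : M) : (M ⧸ pSub p M) →ₗ[ZMod p] ZMod p :=
  (QuotientAddGroup.lift (pSub p M) (AddMonoidHom.mk' (β x) (hβr x))
    (by
      rintro _ ⟨m, rfl⟩
      exact pair_smul_right p β hβr x m)).toZModLinearMap p

theorem phi_mk (β : M → M → ZMod p) (hβr : ∀ x z z', β x (z + z') = β x z + β x z') (x m : M) :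
    phi p β hβr x (QuotientAddGroup.mk m) = β x m := rfl

/-- The map `M / p M → (M / p M)^*` induced by `β`. -/
noncomputable def Phi (β : M → M → ZMod p) (hβl : ∀ x x' z, β (x + x') z = β x z + β x' z)
    (hβr : ∀ x z z', β x (z + z') = β x z + β x z') :
    (M ⧸ pSub p M) →ₗ[ZMod p] ((M ⧸ pSub p M) →ₗ[ZMod p] ZMod p) :=
  (QuotientAddGroup.lift (pSub p M)
    (AddMonoidHom.mk' (phi p β hβr) (by
      intro x x'
      apply LinearMap.ext
      intro v
      induction v using QuotientAddGroup.induction_on with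
      | H m => rw [LinearMap.add_apply, phi_mk, phi_mk, phi_mk, hβl]))
    (by
      rintro _ ⟨m, rfl⟩
      rw [AddMonoidHom.mem_ker]
      apply LinearMap.ext
      intro v
      induction v using QuotientAddGroup.induction_on with
      | H m' =>
        change phi p β hβr ((p : ℤ) • m) (QuotientAddGroup.mk m') = 0
        rw [phi_mk]
        exact pair_smul_left p β hβl m m')).toZModLinearMap p

theorem Phi_mk (β : M → M → ZMod p) (hβl : ∀ x x' z, β (x + x') z = β x z + β x' z)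
    (hβr : ∀ x z z', β x (z + z') = β x z + β x z') (x : M) :
    Phi p β hβl hβr (QuotientAddGroup.mk x) = phi p β hβr x := rfl

/-- **Representation of functionals**: if `β` is left-nondegenerate modulo `p` on the finitely
generated group `M` and `H ⊇ p M` is a subgroup not containing `z`, some `x` is orthogonal to `H`
but not to `z`. -/
theorem exists_pairing_ne_zero [Module.Finite ℤ M]
    (β : M → M → ZMod p) (hβl : ∀ x x' z, β (x + x') z = β x z + β x' z)
    (hβr : ∀ x z z', β x (z + z') = β x z + β x z')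
    (hβ : ∀ x, (∀ z, β x z = 0) → ∃ x', x = (p : ℤ) • x')
    (H : AddSubgroup M) (hH : ∀ m : M, (p : ℤ) • m ∈ H) {z : M} (hz : z ∉ H) :
    ∃ x : M, (∀ h ∈ H, β x h = 0) ∧ β x z ≠ 0 := by
  classical
  have hPH : pSub p M ≤ H := by
    rintro _ ⟨m, rfl⟩
    exact hH m
  have : Module.Finite ℤ (M ⧸ pSub p M) :=
    Module.Finite.of_surjective (QuotientAddGroup.mk' (pSub p M)).toIntLinearMap
      (QuotientAddGroup.mk'_surjective (pSub p M))
  have : Module.Finite (ZMod p) (M ⧸ pSub p M) :=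
    Module.Finite.of_restrictScalars_finite ℤ (ZMod p) (M ⧸ pSub p M)
  have hinj : Function.Injective (Phi p β hβl hβr) := by
    rw [injective_iff_map_eq_zero]
    intro v hv
    induction v using QuotientAddGroup.induction_on with
    | H x =>
      rw [Phi_mk] at hv
      obtain ⟨x', rfl⟩ := hβ x (fun m => by
        have := congrArg (fun f : (M ⧸ pSub p M) →ₗ[ZMod p] ZMod p =>
          f (QuotientAddGroup.mk m)) hv
        simpa [phi_mk] using this)
      exact (QuotientAddGroup.eq_zero_iff _).mpr (zsmul_mem_pSub p x')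
  have hsurj : Function.Surjective (Phi p β hβl hβr) :=
    (LinearMap.injective_iff_surjective_of_finrank_eq_finrank
      (Subspace.dual_finrank_eq (K := ZMod p) (V := M ⧸ pSub p M)).symm).mp hinj
  -- the image of `H`
  let Wbar : Submodule (ZMod p) (M ⧸ pSub p M) :=
    AddSubgroup.toZModSubmodule p (H.map (QuotientAddGroup.mk' (pSub p M)))
  have hzW : (QuotientAddGroup.mk z : M ⧸ pSub p M) ∉ Wbar := by
    rintro ⟨h, hh, hhz⟩
    apply hz
    have h1 : -h + z ∈ pSub p M := QuotientAddGroup.eq.mp hhz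
    have h2 : z = h + (-h + z) := by abel
    rw [h2]
    exact H.add_mem hh (hPH h1)
  obtain ⟨f, hf, hf'⟩ := Submodule.exists_dual_map_eq_bot_of_notMem hzW inferInstance
  obtain ⟨v, rfl⟩ := hsurj f
  induction v using QuotientAddGroup.induction_on with
  | H x =>
    rw [Phi_mk] at hf hf'
    refine ⟨x, fun h hh => ?_, fun h0 => hf (by rw [phi_mk]; exact h0)⟩
    have hmem : phi p β hβr x (QuotientAddGroup.mk h) ∈ Wbar.map (phi p β hβr x) :=
      Submodule.mem_map_of_mem ⟨h, hh, rfl⟩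
    rw [hf'] at hmem
    rw [← phi_mk p β hβr]
    exact (Submodule.mem_bot _).mp hmem

/-- (W1) **Dual Ihara, lattice form.**  `β` is a biadditive pairing on the finitely generated
group `M`, left-nondegenerate modulo `p`; `β'` is left-nondegenerate modulo `p` on `L'`; `B` is
adjoint to `A`; `s'` is adjoint to `s` and kills `ker (A mod p)`.  Then
`s M ⊆ range B + p M`. -/
theorem dualIhara_lattice [Module.Finite ℤ M] {L' : Type*} [AddCommGroup L']
    (β : M → M → ZMod p) (hβl : ∀ x x' z, β (x + x') z = β x z + β x' z)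
    (hβr : ∀ x z z', β x (z + z') = β x z + β x z')
    (hβ : ∀ x, (∀ z, β x z = 0) → ∃ x', x = (p : ℤ) • x')
    (β' : L' → L' → ZMod p) (hβ' : ∀ y, (∀ y', β' y y' = 0) → ∃ y₀, y = (p : ℤ) • y₀)
    (A : M → L') (B : L' →+ M) (hadj : ∀ x y, β' (A x) y = β x (B y))
    (s s' : M → M) (hs : ∀ x z, β (s' x) z = β x (s z))
    (hker : ∀ x, (∃ y, A x = (p : ℤ) • y) → ∃ w, s' x = (p : ℤ) • w) (z : M) :
    ∃ y w, s z = B y + (p : ℤ) • w := by
  by_contra hcon
  have hz : s z ∉ B.range ⊔ pSub p M := by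
    intro hmem
    obtain ⟨b, ⟨y, rfl⟩, c, hc, hbc⟩ := AddSubgroup.mem_sup.mp hmem
    obtain ⟨w, rfl⟩ := exists_of_mem_pSub p hc
    exact hcon ⟨y, w, hbc.symm⟩
  obtain ⟨x, hxH, hxz⟩ := exists_pairing_ne_zero p β hβl hβr hβ (B.range ⊔ pSub p M)
    (fun m => AddSubgroup.mem_sup_right (zsmul_mem_pSub p m)) hz
  apply hxz
  obtain ⟨y₀, hy₀⟩ := hβ' (A x) (fun y => by
    rw [hadj]
    exact hxH _ (AddSubgroup.mem_sup_left ⟨y, rfl⟩))
  obtain ⟨w, hw⟩ := hker x ⟨y₀, hy₀⟩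
  rw [← hs, hw]
  exact pair_smul_left p β hβl w z

end repr

section contract

/-! ### (W2) Formal consequences of the pairing contract -/

variable {p : ℕ} {L L' : Type*}

/-- Adjointness of the second pair of degeneracy maps `resB = wq ∘ resA`, `corB = corA ∘ wq`
from (B3) for `(resA, corA)` and (B4) for the involution `wq`. -/
theorem adjoint_resB (β : L → L → ZMod p) (β' : L' → L' → ZMod p)
    (resA : L → L') (corA : L' → L) (wq : L' → L')
    (hB3 : ∀ x y, β' (resA x) y = β x (corA y))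
    (hB4 : ∀ y y', β' (wq y) (wq y') = β' y y') (hwq : ∀ y, wq (wq y) = y) (x : L) (y : L') :
    β' (wq (resA x)) y = β x (corA (wq y)) := by
  rw [← hB3, ← hB4 (resA x) (wq y), hwq]

/-- Self-adjointness of `T = corA ∘ wq ∘ resA` from (B2), (B3), (B4). -/
theorem selfAdjoint_of_contract (β : L → L → ZMod p) (β' : L' → L' → ZMod p)
    (resA : L → L') (corA : L' → L) (wq : L' → L')
    (hB2 : ∀ x z, β z x = -β x z) (hB2' : ∀ y y', β' y' y = -β' y y')
    (hB3 : ∀ x y, β' (resA x) y = β x (corA y))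
    (hB4 : ∀ y y', β' (wq y) (wq y') = β' y y') (hwq : ∀ y, wq (wq y) = y) (x z : L) :
    β (corA (wq (resA x))) z = β x (corA (wq (resA z))) := by
  rw [hB2, ← hB3, hB2', neg_neg, ← hB4 (wq (resA x)) (resA z), hwq, hB3]

end contract

section assembly

/-! ### (W3) Level raising from the contract -/

variable (p : ℕ) [Fact p.Prime] {L L' : Type*} [AddCommGroup L] [AddCommGroup L']

/-- zsmul-linearity in the first variable of a biadditive pairing. -/
theorem pair_zsmul_left (β : L → L → ZMod p) (hβl : ∀ x x' z, β (x + x') z = β x z + β x' z)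
    (e : ℤ) (x z : L) : β (e • x) z = e • β x z :=
  map_zsmul (AddMonoidHom.mk' (fun x => β x z) (fun x x' => hβl x x' z)) e x

/-- zsmul-linearity in the second variable of a biadditive pairing. -/
theorem pair_zsmul_right (β : L → L → ZMod p) (hβr : ∀ x z z', β x (z + z') = β x z + β x z')
    (e : ℤ) (x z : L) : β x (e • z) = e • β x z :=
  map_zsmul (AddMonoidHom.mk' (β x) (hβr x)) e z

theorem pair_zero_right (β : L → L → ZMod p) (hβr : ∀ x z z', β x (z + z') = β x z + β x z')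
    (x : L) : β x 0 = 0 :=
  map_zero (AddMonoidHom.mk' (β x) (hβr x))

theorem pair_sub_left (β : L → L → ZMod p) (hβl : ∀ x x' z, β (x + x') z = β x z + β x' z)
    (x x' z : L) : β (x - x') z = β x z - β x' z :=
  map_sub (AddMonoidHom.mk' (fun x => β x z) (fun x x' => hβl x x' z)) x x'

theorem pair_sub_right (β : L → L → ZMod p) (hβr : ∀ x z z', β x (z + z') = β x z + β x z')
    (x z z' : L) : β x (z - z') = β x z - β x z' :=
  map_sub (AddMonoidHom.mk' (β x) (hβr x)) z z'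

/-- (W3) **Level raising from the contracts.**  `L`, `L'` are the lattices of levels `N`, `N q`;
`t i`, `t' i` the Hecke operators of an index family; `resA, resB, corA, corB` the degeneracy maps
(HK-equivariant, with `cor ∘ res = [[c, tq], [tq, c]]` modulo `p`); `β`, `β'` the pairings
(biadditive, left-nondegenerate modulo `p`, `cor` adjoint to `res`, `t i₁` self-adjoint);
Ihara's lemma at the index `i₁`; a seed eigenvector `v`.  Then there is a new eigenclass
modulo `p` in `ker corA ⊓ ker corB`. -/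
theorem exists_new_of_contract [Module.Finite ℤ L] (htf : ∀ m : L, (p : ℤ) • m = 0 → m = 0)
    {ι : Type*} (t : ι → L →ₗ[ℤ] L) (t' : ι → L' →ₗ[ℤ] L')
    (resA resB : L →ₗ[ℤ] L') (corA corB : L' →ₗ[ℤ] L)
    -- (HK)
    (hresA : ∀ i x, resA (t i x) = t' i (resA x)) (hresB : ∀ i x, resB (t i x) = t' i (resB x))
    (hcorA : ∀ i y, corA (t' i y) = t i (corA y)) (hcorB : ∀ i y, corB (t' i y) = t i (corB y))
    -- (MK) modulo p
    (tq : L →ₗ[ℤ] L) (c : ℤ)
    (hAA : ∀ x, ∃ w, corA (resA x) = c • x + (p : ℤ) • w)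
    (hAB : ∀ x, ∃ w, corA (resB x) = tq x + (p : ℤ) • w)
    (hBA : ∀ x, ∃ w, corB (resA x) = tq x + (p : ℤ) • w)
    (hBB : ∀ x, ∃ w, corB (resB x) = c • x + (p : ℤ) • w)
    -- the pairings
    (β : L → L → ZMod p) (hβl : ∀ x x' z, β (x + x') z = β x z + β x' z)
    (hβr : ∀ x z z', β x (z + z') = β x z + β x z')
    (hβ : ∀ x, (∀ z, β x z = 0) → ∃ x', x = (p : ℤ) • x')
    (β' : L' → L' → ZMod p) (hβ'l : ∀ y y' z, β' (y + y') z = β' y z + β' y' z)
    (hβ' : ∀ y, (∀ y', β' y y' = 0) → ∃ y₀, y = (p : ℤ) • y₀)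
    (hadjA : ∀ x y, β' (resA x) y = β x (corA y))
    (hadjB : ∀ x y, β' (resB x) y = β x (corB y))
    -- the seed
    (a : ι → ℤ) (v : L) (hv0 : ¬ ∃ v', v = (p : ℤ) • v')
    (hv : ∀ i, ∃ w, t i v - a i • v = (p : ℤ) • w)
    (ε : ℤ) (hε : ε * ε = 1) (hvq : ∃ w, tq v - (ε * c) • v = (p : ℤ) • w)
    -- the non-Eisenstein index
    (i₁ : ι) (e₁ : ℤ) (hu : ¬ (p : ℤ) ∣ a i₁ - e₁)
    (hsa : ∀ x z, β (t i₁ x) z = β x (t i₁ z))
    (hIh : ∀ x₁ x₂ : L, (∃ y, resA x₁ + resB x₂ = (p : ℤ) • y) →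
      (∃ w, t i₁ x₁ - e₁ • x₁ = (p : ℤ) • w) ∧ ∃ w, t i₁ x₂ - e₁ • x₂ = (p : ℤ) • w) :
    ∃ y : L', corA y = 0 ∧ corB y = 0 ∧
      (¬ ∃ y₀, corA y₀ = 0 ∧ corB y₀ = 0 ∧ y = (p : ℤ) • y₀) ∧
      ∀ i, ∃ w, corA w = 0 ∧ corB w = 0 ∧ t' i y - a i • y = (p : ℤ) • w := by
  classical
  have hp : p.Prime := Fact.out
  -- the maps on `L × L`
  let A : L × L →ₗ[ℤ] L' := resA.coprod resB
  let B : L' →ₗ[ℤ] L × L := corA.prod corB
  have hA_apply : ∀ x : L × L, A x = resA x.1 + resB x.2 := fun x => rfl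
  have hB_apply : ∀ y : L', B y = (corA y, corB y) := fun y => rfl
  -- the pairing on `L × L`
  let β₂ : L × L → L × L → ZMod p := fun x z => β x.1 z.1 + β x.2 z.2
  have hβ₂l : ∀ x x' z, β₂ (x + x') z = β₂ x z + β₂ x' z := by
    intro x x' z
    change β (x.1 + x'.1) z.1 + β (x.2 + x'.2) z.2 = _
    rw [hβl, hβl]
    change _ = β x.1 z.1 + β x.2 z.2 + (β x'.1 z.1 + β x'.2 z.2)
    ring
  have hβ₂r : ∀ x z z', β₂ x (z + z') = β₂ x z + β₂ x z' := by
    intro x z z'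
    change β x.1 (z.1 + z'.1) + β x.2 (z.2 + z'.2) = _
    rw [hβr, hβr]
    change _ = β x.1 z.1 + β x.2 z.2 + (β x.1 z'.1 + β x.2 z'.2)
    ring
  have hβ₂ : ∀ x, (∀ z, β₂ x z = 0) → ∃ x', x = (p : ℤ) • x' := by
    intro x hx
    obtain ⟨x₁', h₁⟩ := hβ x.1 (fun z => by
      have := hx (z, 0)
      change β x.1 z + β x.2 0 = 0 at this
      rwa [pair_zero_right p β hβr, add_zero] at this)
    obtain ⟨x₂', h₂⟩ := hβ x.2 (fun z => by
      have := hx (0, z)
      change β x.1 0 + β x.2 z = 0 at this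
      rwa [pair_zero_right p β hβr, zero_add] at this)
    exact ⟨(x₁', x₂'), Prod.ext h₁ h₂⟩
  -- the operator `s = t i₁ - e₁` on `L × L`
  let s : L × L → L × L := fun x => (t i₁ x.1 - e₁ • x.1, t i₁ x.2 - e₁ • x.2)
  have hs1 : ∀ x z : L, β (t i₁ x - e₁ • x) z = β x (t i₁ z - e₁ • z) := by
    intro x z
    rw [pair_sub_left p β hβl, pair_sub_right p β hβr, hsa, pair_zsmul_left p β hβl,
      pair_zsmul_right p β hβr]
  have hs : ∀ x z, β₂ (s x) z = β₂ x (s z) := by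
    intro x z
    change β (t i₁ x.1 - e₁ • x.1) z.1 + β (t i₁ x.2 - e₁ • x.2) z.2 =
      β x.1 (t i₁ z.1 - e₁ • z.1) + β x.2 (t i₁ z.2 - e₁ • z.2)
    rw [hs1, hs1]
  have hadj : ∀ x y, β' (A x) y = β₂ x (B y) := by
    intro x y
    rw [hA_apply, hβ'l, hadjA, hadjB]
    rfl
  have hIh' : ∀ x : L × L, (∃ y, A x = (p : ℤ) • y) → ∃ w, s x = (p : ℤ) • w := by
    intro x hx
    obtain ⟨⟨w₁, h₁⟩, ⟨w₂, h₂⟩⟩ := hIh x.1 x.2 hx
    exact ⟨(w₁, w₂), Prod.ext h₁ h₂⟩
  have hDI : ∀ z : L × L, ∃ (y : L') (w : L × L), s z = B y + (p : ℤ) • w :=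
    dualIhara_lattice p β₂ hβ₂l hβ₂r hβ₂ β' hβ' A B.toAddMonoidHom hadj s s hs hIh'
  obtain ⟨y, hy0, hyn, hye⟩ := RibetLA.exists_new_prod p hp htf t t' A B
    (fun i x => by
      rw [hA_apply, hA_apply]
      change resA (t i x.1) + resB (t i x.2) = _
      rw [hresA, hresB, map_add])
    (fun i y => by
      rw [hB_apply, hB_apply, hcorA, hcorB])
    tq c
    (fun x => by
      obtain ⟨w₁, h₁⟩ := hAA x.1
      obtain ⟨w₂, h₂⟩ := hAB x.2
      obtain ⟨w₃, h₃⟩ := hBA x.1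
      obtain ⟨w₄, h₄⟩ := hBB x.2
      refine ⟨(w₁ + w₂, w₃ + w₄), ?_⟩
      rw [hB_apply, hA_apply, map_add, map_add, h₁, h₂, h₃, h₄]
      refine Prod.ext ?_ ?_
      · change c • x.1 + (p : ℤ) • w₁ + (tq x.2 + (p : ℤ) • w₂) =
          c • x.1 + tq x.2 + (p : ℤ) • (w₁ + w₂)
        rw [smul_add]; abel
      · change tq x.1 + (p : ℤ) • w₃ + (c • x.2 + (p : ℤ) • w₄) =
          tq x.1 + c • x.2 + (p : ℤ) • (w₃ + w₄)
        rw [smul_add]; abel)
    a v hv0 hv ε hε hvq i₁ e₁ hu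
    (fun x hx => hIh' x hx)
    (fun z => hDI z)
  refine ⟨y, ?_, ?_, ?_, ?_⟩
  · exact (Prod.mk.inj (hy0 : (corA y, corB y) = (0, 0))).1
  · exact (Prod.mk.inj (hy0 : (corA y, corB y) = (0, 0))).2
  · rintro ⟨y₀, h₁, h₂, h₃⟩
    exact hyn ⟨y₀, by rw [hB_apply, h₁, h₂]; rfl, h₃⟩
  · intro i
    obtain ⟨w, hw0, hw⟩ := hye i
    exact ⟨w, (Prod.mk.inj (hw0 : (corA w, corB w) = (0, 0))).1,
      (Prod.mk.inj (hw0 : (corA w, corB w) = (0, 0))).2, hw⟩

/-- (W3') The same with the second pair of degeneracy maps and the self-adjointness of `t i₁`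
derived from the raw contract: `resB = wq ∘ resA`, `corB = corA ∘ wq` for an isometric involution
`wq` of `L'` (B4), and `t i₁ = corA₁ ∘ w₁ ∘ resA₁` through a third lattice `L''` (level `N l₁`)
with its own pairing `β''` satisfying (B2), (B3), (B4). -/
theorem exists_new_of_contract' [Module.Finite ℤ L] (htf : ∀ m : L, (p : ℤ) • m = 0 → m = 0)
    {ι : Type*} (t : ι → L →ₗ[ℤ] L) (t' : ι → L' →ₗ[ℤ] L')
    (resA resB : L →ₗ[ℤ] L') (corA corB : L' →ₗ[ℤ] L)
    (hresA : ∀ i x, resA (t i x) = t' i (resA x)) (hresB : ∀ i x, resB (t i x) = t' i (resB x))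
    (hcorA : ∀ i y, corA (t' i y) = t i (corA y)) (hcorB : ∀ i y, corB (t' i y) = t i (corB y))
    (tq : L →ₗ[ℤ] L) (c : ℤ)
    (hAA : ∀ x, ∃ w, corA (resA x) = c • x + (p : ℤ) • w)
    (hAB : ∀ x, ∃ w, corA (resB x) = tq x + (p : ℤ) • w)
    (hBA : ∀ x, ∃ w, corB (resA x) = tq x + (p : ℤ) • w)
    (hBB : ∀ x, ∃ w, corB (resB x) = c • x + (p : ℤ) • w)
    -- the pairings at levels `N` and `N q`
    (β : L → L → ZMod p) (hβl : ∀ x x' z, β (x + x') z = β x z + β x' z)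
    (hβr : ∀ x z z', β x (z + z') = β x z + β x z')
    (hβ : ∀ x, (∀ z, β x z = 0) → ∃ x', x = (p : ℤ) • x')
    (hB2 : ∀ x z, β z x = -β x z)
    (β' : L' → L' → ZMod p) (hβ'l : ∀ y y' z, β' (y + y') z = β' y z + β' y' z)
    (hβ' : ∀ y, (∀ y', β' y y' = 0) → ∃ y₀, y = (p : ℤ) • y₀)
    (hB3 : ∀ x y, β' (resA x) y = β x (corA y))
    (wq : L' → L') (hwq : ∀ y, wq (wq y) = y) (hB4 : ∀ y y', β' (wq y) (wq y') = β' y y')
    (hresB_def : ∀ x, resB x = wq (resA x)) (hcorB_def : ∀ y, corB y = corA (wq y))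
    -- the seed
    (a : ι → ℤ) (v : L) (hv0 : ¬ ∃ v', v = (p : ℤ) • v')
    (hv : ∀ i, ∃ w, t i v - a i • v = (p : ℤ) • w)
    (ε : ℤ) (hε : ε * ε = 1) (hvq : ∃ w, tq v - (ε * c) • v = (p : ℤ) • w)
    -- the non-Eisenstein index and the third level
    (i₁ : ι) (e₁ : ℤ) (hu : ¬ (p : ℤ) ∣ a i₁ - e₁)
    {L'' : Type*} (β'' : L'' → L'' → ZMod p) (hB2'' : ∀ y y', β'' y' y = -β'' y y')
    (resA₁ : L → L'') (corA₁ : L'' → L) (w₁ : L'' → L'')
    (hB3₁ : ∀ x y, β'' (resA₁ x) y = β x (corA₁ y))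
    (hw₁ : ∀ y, w₁ (w₁ y) = y) (hB4₁ : ∀ y y', β'' (w₁ y) (w₁ y') = β'' y y')
    (hT : ∀ x, t i₁ x = corA₁ (w₁ (resA₁ x)))
    (hIh : ∀ x₁ x₂ : L, (∃ y, resA x₁ + resB x₂ = (p : ℤ) • y) →
      (∃ w, t i₁ x₁ - e₁ • x₁ = (p : ℤ) • w) ∧ ∃ w, t i₁ x₂ - e₁ • x₂ = (p : ℤ) • w) :
    ∃ y : L', corA y = 0 ∧ corB y = 0 ∧
      (¬ ∃ y₀, corA y₀ = 0 ∧ corB y₀ = 0 ∧ y = (p : ℤ) • y₀) ∧
      ∀ i, ∃ w, corA w = 0 ∧ corB w = 0 ∧ t' i y - a i • y = (p : ℤ) • w :=
  exists_new_of_contract p htf t t' resA resB corA corB hresA hresB hcorA hcorB tq c hAA hAB hBA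
    hBB β hβl hβr hβ β' hβ'l hβ' hB3
    (fun x y => by
      rw [hresB_def, hcorB_def]
      exact adjoint_resB β β' resA corA wq hB3 hB4 hwq x y)
    a v hv0 hv ε hε hvq i₁ e₁ hu
    (fun x z => by
      rw [hT, hT]
      exact selfAdjoint_of_contract β β'' resA₁ corA₁ w₁ hB2 hB2'' hB3₁ hB4₁ hw₁ x z)
    hIh

end assembly

end Fermat.Agent.P7.RibetDual
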