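import Mathlib
import Fermat.Agent.P7.Plan
import Fermat.Agent.P7.RibetDual
import Fermat.Agent.P7.EndgameNew
import Fermat.Agent.P7.IharaDegen
import Fermat.Agent.P7.DegenMackey
import Fermat.Agent.P7.DegenHecke
import Fermat.Agent.P7.DegenLat
import Fermat.Agent.P7.SeedLat

/-!
# P7 [LR]: the level raising statement from the pairing contract alone (helper85)

This file instantiates the abstract linear algebra of `P7/RibetDual`
(`exists_new_of_contract'`) on the integral parabolic lattices `Lat N`, `Lat (N q)`,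
`Lat (N ℓ₁)` with

* the seed of `P7/SeedLat` (`exists_eigen_mod_p`),
* the degeneracy maps of `P7/DegenDefs` on the lattices (`P7/DegenLat`), their Mackey formulas
  (`P7/DegenMackey`) and Hecke equivariance (`P7/DegenHecke`),
* Ihara's lemma in the form of `P7/IharaDegen` (`exists_smul_of_alpha`),
* the exit `P7/EndgameNew` (`exists_eigenform_of_new_lat`),

so that the ONLY remaining input is the pairing contract [PD], (B0)–(B4):

* `exists_eigenform_of_pairings`: the core, with pairings `β`, `β'`, `β''` on the three lattices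
  `Lat N`, `Lat (N q)`, `Lat (N ℓ₁)` as explicit arguments (`ℓ₁` = the non-Eisenstein prime);
* `BetaContract β`: the contract for a family
  `β M p : Hom(Γ₀(M), ℤ) → Hom(Γ₀(M), ℤ) → ZMod p` (raw homomorphisms, all statements for arguments
  in the parabolic lattices, `p` odd);
* `levelRaiseStmt_of_beta : BetaContract β → Plan.LevelRaiseStmt`.
-/

set_option autoImplicit false

namespace Fermat.Agent.P7.LevelRaiseCore

open CongruenceSubgroup ModularCurve.Period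
open Fermat.Agent.P5.Per Fermat.Agent.P7.Degen Fermat.Agent.P7.DegenLat

/-- `((n : ℤ) + 1) • x = (n + 1) • x` (integer against natural scalar). -/
theorem intCast_add_one_smul {A : Type*} [AddCommGroup A] (n : ℕ) (x : A) :
    ((n : ℤ) + 1) • x = (n + 1) • x := by
  have : ((n : ℤ) + 1) = ((n + 1 : ℕ) : ℤ) := by push_cast; rfl
  rw [this, natCast_zsmul]

/-- The lattice `Lat N` has no `p`-torsion. -/
theorem lat_torsionFree (N : ℕ) {p : ℕ} (hp : p ≠ 0) (m : Lat N) (h : (p : ℤ) • m = 0) :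
    m = 0 := by
  apply Subtype.ext
  refine AddMonoidHom.ext fun γ => ?_
  have h1 := congrArg (fun f : Lat N => (f : Additive (Gamma0 N) →+ ℤ) γ) h
  simp only [Submodule.coe_smul, AddMonoidHom.smul_apply, smul_eq_mul, Submodule.coe_zero,
    AddMonoidHom.zero_apply] at h1
  rcases mul_eq_zero.mp h1 with h2 | h2
  · exact absurd h2 (Int.natCast_ne_zero.mpr hp)
  · exact h2

/-! ### The core -/

/-- **[LR], core**: the conclusion of `Plan.LevelRaiseStmt` from pairings `β`, `β'`, `β''` on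
`Lat N`, `Lat (N q)`, `Lat (N ℓ₁)` satisfying the contract (B0)–(B4).  Here `ℓ₁` is the
non-Eisenstein prime; the maps are those of `P7/DegenLat`. -/
theorem exists_eigenform_of_pairings {p N q : ℕ} [NeZero N] [Fact q.Prime] (hp : p.Prime)
    (hp2 : p ≠ 2) (hqN : ¬ q ∣ N)
    (f : CuspForm (Gamma0 N) 2) (𝔪 : Ideal (integralClosure ℤ ℂ))
    (hf : f.IsNormalizedEigenform) (hmax : 𝔪.IsMaximal) (hpm : (p : integralClosure ℤ ℂ) ∈ 𝔪)
    (G : Set ℕ) (c : ℕ → ℤ)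
    (hcong : ∀ ℓ : ℕ, ℓ.Prime → ℓ ∈ G → ¬ ℓ ∣ N → ℓ ≠ p →
      ∃ a : integralClosure ℤ ℂ, (a : ℂ) = ModularFormClass.qCoeff f ℓ ∧
        a - ((c ℓ : ℤ) : integralClosure ℤ ℂ) ∈ 𝔪)
    (hLR : ∃ a : integralClosure ℤ ℂ, (a : ℂ) = ModularFormClass.qCoeff f q ∧
      a ^ 2 - ((q : integralClosure ℤ ℂ) + 1) ^ 2 ∈ 𝔪)
    -- the non-Eisenstein prime
    {l₁ : ℕ} [Fact l₁.Prime] (hl₁G : l₁ ∈ G) (hl₁N : ¬ l₁ ∣ N) (hl₁Nq : ¬ l₁ ∣ N * q)
    (hl₁p : l₁ ≠ p) (hne : ¬ (p : ℤ) ∣ c l₁ - ((l₁ : ℤ) + 1))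
    -- the pairing at level `N`
    (β : Lat N → Lat N → ZMod p) (hβl : ∀ x x' z, β (x + x') z = β x z + β x' z)
    (hβr : ∀ x z z', β x (z + z') = β x z + β x z')
    (hβ : ∀ x, (∀ z, β x z = 0) → ∃ x', x = (p : ℤ) • x')
    (hB2 : ∀ x z, β z x = -β x z)
    -- the pairing at level `N q`
    (β' : Lat (N * q) → Lat (N * q) → ZMod p)
    (hβ'l : ∀ y y' z, β' (y + y') z = β' y z + β' y' z)
    (hβ' : ∀ y, (∀ y', β' y y' = 0) → ∃ y₀, y = (p : ℤ) • y₀)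
    (hB3 : ∀ x y, β' (resAL N q x) y = β x (corAL N q y))
    (hB4 : ∀ y y', β' (wqL N q hqN y) (wqL N q hqN y') = β' y y')
    -- the pairing at level `N ℓ₁`
    (β'' : Lat (N * l₁) → Lat (N * l₁) → ZMod p) (hB2'' : ∀ y y', β'' y' y = -β'' y y')
    (hB3₁ : ∀ x y, β'' (resAL N l₁ x) y = β x (corAL N l₁ y))
    (hB4₁ : ∀ y y', β'' (wqL N l₁ hl₁N y) (wqL N l₁ hl₁N y') = β'' y y') :
    ∃ (g : CuspForm (Gamma0 (N * q)) 2) (𝔪' : Ideal (integralClosure ℤ ℂ)),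
      g.IsNormalizedEigenform ∧ 𝔪'.IsMaximal ∧ (p : integralClosure ℤ ℂ) ∈ 𝔪' ∧
      (∀ ℓ : ℕ, ℓ.Prime → ℓ ∈ G → ¬ ℓ ∣ N * q → ℓ ≠ p →
        ∃ a : integralClosure ℤ ℂ, (a : ℂ) = ModularFormClass.qCoeff g ℓ ∧
          a - ((c ℓ : ℤ) : integralClosure ℤ ℂ) ∈ 𝔪') ∧
      g.IsNewAt q := by
  classical
  have : Fact p.Prime := ⟨hp⟩
  have : Module.Finite ℤ (Lat N) := lat_finite N
  have hq : q.Prime := Fact.out
  have hl₁ : l₁.Prime := Fact.out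
  -- the seed
  obtain ⟨v, ε, hε, hv0, hv, hvq⟩ :=
    Fermat.Agent.P7.SeedLat.exists_eigen_mod_p hp hq hqN f 𝔪 hf hmax hpm G c hcong hLR
  -- the index type
  let ι : Type := {ℓ : ℕ // ℓ.Prime ∧ ℓ ∈ G ∧ ¬ ℓ ∣ N * q ∧ ℓ ≠ p}
  have hιN : ∀ i : ι, ¬ i.1 ∣ N := fun i h => i.2.2.2.1 (Dvd.dvd.mul_right h q)
  let t : ι → Lat N →ₗ[ℤ] Lat N := fun i => tcohL N i.2.1 (hιN i)
  let t' : ι → Lat (N * q) →ₗ[ℤ] Lat (N * q) := fun i => tcohL (N * q) i.2.1 i.2.2.2.1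
  let i₁ : ι := ⟨l₁, hl₁, hl₁G, hl₁Nq, hl₁p⟩
  -- the four degeneracy maps on the lattices
  let rA : Lat N →ₗ[ℤ] Lat (N * q) := resAL N q
  let rB : Lat N →ₗ[ℤ] Lat (N * q) := resBL N q hqN
  let cA : Lat (N * q) →ₗ[ℤ] Lat N := corAL N q
  let cB : Lat (N * q) →ₗ[ℤ] Lat N := corBL N q hqN
  have hcAt : ∀ (i : ι) (y : Lat (N * q)), cA (t' i y) = t i (cA y) := fun i y =>
    Subtype.ext (Fermat.Agent.P7.DegenHecke.tcoh_corA N q hqN i.2.1 (hιN i) i.2.2.2.1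
      (y : Additive (Gamma0 (N * q)) →+ ℤ))
  have hcBt : ∀ (i : ι) (y : Lat (N * q)), cB (t' i y) = t i (cB y) := fun i y =>
    Subtype.ext (Fermat.Agent.P7.DegenHecke.tcoh_corB N q hqN i.2.1 (hιN i) i.2.2.2.1
      (y : Additive (Gamma0 (N * q)) →+ ℤ))
  obtain ⟨y, hyA, hyB, hyn, hye⟩ :=
    Fermat.Agent.P7.RibetDual.exists_new_of_contract' p (lat_torsionFree N hp.ne_zero) t t'
      rA rB cA cB
      (fun i x => Subtype.ext (Fermat.Agent.P7.DegenHecke.tcoh_resA N q i.2.1 (hιN i) i.2.2.2.1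
        (x : Additive (Gamma0 N) →+ ℤ)).symm)
      (fun i x => Subtype.ext (Fermat.Agent.P7.DegenHecke.tcoh_resB N q hqN i.2.1 (hιN i)
        i.2.2.2.1 (x : Additive (Gamma0 N) →+ ℤ)).symm)
      hcAt hcBt
      (tcohL N hq hqN) ((q : ℤ) + 1)
      (fun x => ⟨0, Subtype.ext (by
        show corA N q ℤ (resA N q ℤ x) = ((q : ℤ) + 1) • (x : Additive (Gamma0 N) →+ ℤ) +
          (p : ℤ) • (0 : Additive (Gamma0 N) →+ ℤ)
        rw [corA_resA N q hqN, smul_zero, add_zero, intCast_add_one_smul])⟩)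
      (fun x => ⟨0, Subtype.ext (by
        show corA N q ℤ (resB N q hqN ℤ x) = tcoh N hq hqN ℤ x +
          (p : ℤ) • (0 : Additive (Gamma0 N) →+ ℤ)
        rw [corA_resB N q hqN, smul_zero, add_zero])⟩)
      (fun x => ⟨0, Subtype.ext (by
        show corB N q hqN ℤ (resA N q ℤ x) = tcoh N hq hqN ℤ x +
          (p : ℤ) • (0 : Additive (Gamma0 N) →+ ℤ)
        rw [corB_resA N q hqN, smul_zero, add_zero])⟩)
      (fun x => ⟨0, Subtype.ext (by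
        show corB N q hqN ℤ (resB N q hqN ℤ x) = ((q : ℤ) + 1) • (x : Additive (Gamma0 N) →+ ℤ) +
          (p : ℤ) • (0 : Additive (Gamma0 N) →+ ℤ)
        rw [corB_resB N q hqN, smul_zero, add_zero, intCast_add_one_smul])⟩)
      β hβl hβr hβ hB2 β' hβ'l hβ' hB3
      (fun y => wqL N q hqN y) (wqL_wqL N q hqN) hB4 (fun _ => rfl) (fun _ => rfl)
      (fun i => c i.1) v hv0
      (fun i => hv i.1 i.2.1 (hιN i) i.2.2.1 i.2.2.2.2)
      ε hε hvq i₁ ((l₁ : ℤ) + 1) hne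
      β'' hB2'' (fun x => resAL N l₁ x) (fun y => corAL N l₁ y) (fun y => wqL N l₁ hl₁N y) hB3₁
      (wqL_wqL N l₁ hl₁N) hB4₁
      (fun x => Subtype.ext (by
        show tcoh N hl₁ hl₁N ℤ x = corA N l₁ ℤ (resB N l₁ hl₁N ℤ x)
        rw [corA_resB N l₁ hl₁N]))
      (fun x₁ x₂ hx => by
        obtain ⟨y, hy⟩ := hx
        have h1 : resA N q ℤ (x₁ : Additive (Gamma0 N) →+ ℤ) +
            resB N q hqN ℤ (x₂ : Additive (Gamma0 N) →+ ℤ) =
            (p : ℤ) • (y : Additive (Gamma0 (N * q)) →+ ℤ) := congrArg Subtype.val hy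
        obtain ⟨⟨w₁, hw₁⟩, ⟨w₂, hw₂⟩⟩ :=
          Fermat.Agent.P7.IharaDegen.exists_smul_of_alpha hqN hp2 hl₁ hl₁N x₁ x₂ _ h1
        refine ⟨⟨w₁, ?_⟩, ⟨w₂, ?_⟩⟩
        · rw [intCast_add_one_smul]; exact hw₁
        · rw [intCast_add_one_smul]; exact hw₂)
  -- the exit
  obtain ⟨g, 𝔪', hg, hmax', hpm', hcong', hnew⟩ :=
    Fermat.Agent.P7.EndgameNew.exists_eigenform_of_new_lat hqN p {ℓ | ℓ ∈ G ∧ ℓ ≠ p} c cA cB
      (fun _ => rfl) (fun _ => rfl)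
      (fun ℓ hℓ hℓM hℓI x hxA hxB => by
        have hA := hcAt ⟨ℓ, hℓ, hℓI.1, hℓM, hℓI.2⟩ x
        have hB := hcBt ⟨ℓ, hℓ, hℓI.1, hℓM, hℓI.2⟩ x
        rw [hxA, map_zero] at hA
        rw [hxB, map_zero] at hB
        exact ⟨hA, hB⟩)
      y hyA hyB hyn
      (fun ℓ hℓ hℓM hℓI => hye ⟨ℓ, hℓ, hℓI.1, hℓM, hℓI.2⟩)
  exact ⟨g, 𝔪', hg, hmax', hpm', fun ℓ hℓ hℓG hℓM hℓp => hcong' ℓ hℓ hℓM ⟨hℓG, hℓp⟩, hnew⟩

/-! ### The contract for a family on raw homomorphisms and `Plan.LevelRaiseStmt` -/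

/-- **[PD] contract (B0)–(B4)** for a family of pairings
`β M p : Hom(Γ₀(M), ℤ) → Hom(Γ₀(M), ℤ) → ZMod p` (`p` an odd prime): on the integral parabolic
lattices it is biadditive, nondegenerate modulo `p` and skew-symmetric, the transfer is adjoint to
the restriction and `w_q` is an isometry (`q ∤ N` prime, `q ≠ p`). -/
def BetaContract
    (β : ∀ (M : ℕ) [NeZero M] (p : ℕ) [Fact p.Prime],
      (Additive (Gamma0 M) →+ ℤ) → (Additive (Gamma0 M) →+ ℤ) → ZMod p) : Prop :=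
  (∀ (M : ℕ) [NeZero M] (p : ℕ) [Fact p.Prime], p ≠ 2 →
    (∀ x x' z, x ∈ Lat M → x' ∈ Lat M → z ∈ Lat M →
      β M p (x + x') z = β M p x z + β M p x' z) ∧
    (∀ x z z', x ∈ Lat M → z ∈ Lat M → z' ∈ Lat M →
      β M p x (z + z') = β M p x z + β M p x z') ∧
    (∀ x, x ∈ Lat M → (∀ z ∈ Lat M, β M p x z = 0) → ∃ x' ∈ Lat M, x = (p : ℤ) • x') ∧
    (∀ x z, x ∈ Lat M → z ∈ Lat M → β M p z x = -β M p x z)) ∧
  (∀ (N q : ℕ) [NeZero N] [Fact q.Prime] (hqN : ¬ q ∣ N) (p : ℕ) [Fact p.Prime], p ≠ 2 →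
    q ≠ p →
    (∀ x y, x ∈ Lat N → y ∈ Lat (N * q) →
      β (N * q) p (resA N q ℤ x) y = β N p x (corA N q ℤ y)) ∧
    (∀ y y', y ∈ Lat (N * q) → y' ∈ Lat (N * q) →
      β (N * q) p (wq N q hqN ℤ y) (wq N q hqN ℤ y') = β (N * q) p y y'))

/-- **[LR]** from the [PD] contract: everything else (seed, degeneracy maps, Ihara's lemma, the
linear algebra, the endgame) is plugged in. -/
theorem levelRaiseStmt_of_beta
    (β : ∀ (M : ℕ) [NeZero M] (p : ℕ) [Fact p.Prime],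
      (Additive (Gamma0 M) →+ ℤ) → (Additive (Gamma0 M) →+ ℤ) → ZMod p)
    (hβ : BetaContract β) : Fermat.Agent.P7.Plan.LevelRaiseStmt := by
  intro p N q hp hp2 hN hq hqN hqp f 𝔪 hf hmax hpm G c hcong hLR hne
  obtain ⟨l₁, hl₁, hl₁G, hl₁Nq, hl₁p, hne⟩ := hne
  have : NeZero N := ⟨hN.ne'⟩
  have : Fact q.Prime := ⟨hq⟩
  have : Fact l₁.Prime := ⟨hl₁⟩
  have : Fact p.Prime := ⟨hp⟩
  have hl₁N : ¬ l₁ ∣ N := fun h => hl₁Nq (Dvd.dvd.mul_right h q)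
  obtain ⟨hβ0, hβ34⟩ := hβ
  obtain ⟨hl, hr, hnd, hsk⟩ := hβ0 N p hp2
  obtain ⟨hl', -, hnd', -⟩ := hβ0 (N * q) p hp2
  obtain ⟨-, -, -, hsk''⟩ := hβ0 (N * l₁) p hp2
  obtain ⟨h3q, h4q⟩ := hβ34 N q hqN p hp2 hqp
  obtain ⟨h3l, h4l⟩ := hβ34 N l₁ hl₁N p hp2 hl₁p
  exact exists_eigenform_of_pairings hp hp2 hqN f 𝔪 hf hmax hpm G c hcong hLR hl₁G hl₁N hl₁Nq
    hl₁p hne
    (fun x z : Lat N => β N p x z)
    (fun x x' z => hl x x' z x.2 x'.2 z.2) (fun x z z' => hr x z z' x.2 z.2 z'.2)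
    (fun x hx => by
      obtain ⟨x', hx', h⟩ := hnd x x.2 (fun z hz => hx ⟨z, hz⟩)
      exact ⟨⟨x', hx'⟩, Subtype.ext h⟩)
    (fun x z => hsk x z x.2 z.2)
    (fun y y' : Lat (N * q) => β (N * q) p y y')
    (fun y y' z => hl' y y' z y.2 y'.2 z.2)
    (fun y hy => by
      obtain ⟨y₀, hy₀, h⟩ := hnd' y y.2 (fun z hz => hy ⟨z, hz⟩)
      exact ⟨⟨y₀, hy₀⟩, Subtype.ext h⟩)
    (fun x y => h3q x y x.2 y.2) (fun y y' => h4q y y' y.2 y'.2)
    (fun y y' : Lat (N * l₁) => β (N * l₁) p y y')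
    (fun y y' => hsk'' y y' y.2 y'.2)
    (fun x y => h3l x y x.2 y.2) (fun y y' => h4l y y' y.2 y'.2)

end Fermat.Agent.P7.LevelRaiseCore
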