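/-
P7 [PD-BETA] (helper42): the pairing `beta` on `Hom(Γ₀(M), ℤ)` with values in `ZMod p` and the
contract items (B0), (B1), (B2), (B3) of the Ribet argument on the parabolic lattices
`Per.Lat M`.

`beta M p x y` is `PdSym.pairV` of the reductions `Per.castHom M (ZMod p) x`, `… y` when both lie
in `PdSym.VK (Gamma0 M) (ZMod p)` (this is the case for `x, y ∈ Per.Lat M`), and `0` otherwise.

* `beta_eq`, `castHom_mem_VK`;
* (B0) `beta_add_left`, `beta_add_right`; (B2) `beta_skew`;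
* (B1) `beta_nondeg` (odd `p`);
* (B3) `beta_res_cor`: `resA` and `corA` are adjoint.
-/
import Mathlib
import Fermat.Agent.P5.Per.Action
import Fermat.Agent.P7.PdSym
import Fermat.Agent.P7.PdB3
import Fermat.Agent.P7.PdB3Gamma
import Fermat.Agent.P7.KillsTrace
import Fermat.Agent.P7.LatLift
import Fermat.Agent.P7.DegenDefs
import Fermat.Agent.P7.DegenLat
import Fermat.Agent.P7.LatRed
import Fermat.Agent.P7.PdB3Pair
import Fermat.Agent.P7.LRCore

set_option autoImplicit false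

namespace Fermat.Agent.P7.PdBeta

open scoped MatrixGroups
open CongruenceSubgroup
open ModularGroup (S T)
open Fermat.Agent.P5.Per (Lat castHom)
open Fermat.Agent.P7
open ModularCurve.Period (IsParabolicHom)

/-! ### Reductions of lattice elements lie in `VK` -/

theorem hom_finOrder_eq_zero {Γ : Subgroup SL(2, ℤ)} (x : Additive Γ →+ ℤ) (γ : Γ)
    (h : IsOfFinOrder γ) : x (Additive.ofMul γ) = 0 := by
  obtain ⟨n, hn, h1⟩ := isOfFinOrder_iff_pow_eq_one.mp h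
  have h2 : n • x (Additive.ofMul γ) = 0 := by
    rw [← map_nsmul, ← ofMul_pow, h1, ofMul_one, map_zero]
  exact (smul_eq_zero.mp h2).resolve_left hn.ne'

theorem castHom_mem_VK (M p : ℕ) [Fact p.Prime] {x : Additive (Gamma0 M) →+ ℤ}
    (hx : x ∈ Lat M) : castHom M (ZMod p) x ∈ PdSym.VK (Gamma0 M) (ZMod p) := by
  refine PdSym.mem_VK_of (fun γ hγ => ?_) (Fermat.Agent.P5.Per.castHom_isParabolicHom M (ZMod p) hx)
  show ((x (Additive.ofMul γ) : ℤ) : ZMod p) = 0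
  rw [hom_finOrder_eq_zero x γ hγ, Int.cast_zero]

theorem castHom_add (M : ℕ) (E : Type*) [Ring E] (x y : Additive (Gamma0 M) →+ ℤ) :
    castHom M E (x + y) = castHom M E x + castHom M E y := by
  ext γ
  simp

/-! ### The pairing -/

/-- The `Fintype` structure on the coset space used for the pairing. -/
noncomputable abbrev ftq (M : ℕ) [NeZero M] : Fintype (SL(2, ℤ) ⧸ Gamma0 M) := Fintype.ofFinite _

/-- The pairing of `PdSym` on `V(Γ₀(M))` with coefficients `ZMod p`. -/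
noncomputable def pairG (M : ℕ) [NeZero M] (p : ℕ) [Fact p.Prime] :
    PdSym.VK (Gamma0 M) (ZMod p) →ₗ[ZMod p] PdSym.VK (Gamma0 M) (ZMod p) →ₗ[ZMod p] ZMod p :=
  @PdSym.pairV (Gamma0 M) (ZMod p) _ (ftq M) (KillsTrace.neg_one_mem_Gamma0' M)

open Classical in
/-- The pairing on all homomorphisms `Γ₀(M) → ZMod p`: `PdSym.pairV` on `VK`, zero elsewhere. -/
noncomputable def pairRaw (M : ℕ) [NeZero M] (p : ℕ) [Fact p.Prime]
    (φ ψ : Additive (Gamma0 M) →+ ZMod p) : ZMod p :=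
  if h : φ ∈ PdSym.VK (Gamma0 M) (ZMod p) ∧ ψ ∈ PdSym.VK (Gamma0 M) (ZMod p) then
    pairG M p ⟨φ, h.1⟩ ⟨ψ, h.2⟩
  else 0

theorem pairRaw_eq (M : ℕ) [NeZero M] (p : ℕ) [Fact p.Prime]
    {φ ψ : Additive (Gamma0 M) →+ ZMod p} (hφ : φ ∈ PdSym.VK (Gamma0 M) (ZMod p))
    (hψ : ψ ∈ PdSym.VK (Gamma0 M) (ZMod p)) :
    pairRaw M p φ ψ = pairG M p ⟨φ, hφ⟩ ⟨ψ, hψ⟩ := by
  rw [pairRaw, dif_pos ⟨hφ, hψ⟩]

/-- **The pairing `β_M`** on `Hom(Γ₀(M), ℤ)`, with values in `ZMod p`. -/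
noncomputable def beta (M : ℕ) [NeZero M] (p : ℕ) [Fact p.Prime]
    (x y : Additive (Gamma0 M) →+ ℤ) : ZMod p :=
  pairRaw M p (castHom M (ZMod p) x) (castHom M (ZMod p) y)

theorem beta_eq_of_mem (M : ℕ) [NeZero M] (p : ℕ) [Fact p.Prime]
    {x y : Additive (Gamma0 M) →+ ℤ}
    (hx : castHom M (ZMod p) x ∈ PdSym.VK (Gamma0 M) (ZMod p))
    (hy : castHom M (ZMod p) y ∈ PdSym.VK (Gamma0 M) (ZMod p)) :
    beta M p x y = pairG M p ⟨_, hx⟩ ⟨_, hy⟩ :=
  pairRaw_eq M p hx hy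

theorem beta_eq (M : ℕ) [NeZero M] (p : ℕ) [Fact p.Prime] {x y : Additive (Gamma0 M) →+ ℤ}
    (hx : x ∈ Lat M) (hy : y ∈ Lat M) :
    beta M p x y = pairG M p ⟨_, castHom_mem_VK M p hx⟩ ⟨_, castHom_mem_VK M p hy⟩ :=
  beta_eq_of_mem M p _ _

section B0

variable (M : ℕ) [NeZero M] (p : ℕ) [Fact p.Prime]

/-- (B0) additivity in the first variable. -/
theorem beta_add_left {x x' z : Additive (Gamma0 M) →+ ℤ} (hx : x ∈ Lat M) (hx' : x' ∈ Lat M)
    (hz : z ∈ Lat M) : beta M p (x + x') z = beta M p x z + beta M p x' z := by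
  rw [beta_eq M p (add_mem hx hx') hz, beta_eq M p hx hz, beta_eq M p hx' hz, ← LinearMap.add_apply,
    ← map_add]
  congr 2
  exact Subtype.ext (castHom_add M (ZMod p) x x')

/-- (B0) additivity in the second variable. -/
theorem beta_add_right {x z z' : Additive (Gamma0 M) →+ ℤ} (hx : x ∈ Lat M) (hz : z ∈ Lat M)
    (hz' : z' ∈ Lat M) : beta M p x (z + z') = beta M p x z + beta M p x z' := by
  rw [beta_eq M p hx (add_mem hz hz'), beta_eq M p hx hz, beta_eq M p hx hz', ← map_add]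
  congr 1
  exact Subtype.ext (castHom_add M (ZMod p) z z')

/-- (B2) skew-symmetry. -/
theorem beta_skew {x y : Additive (Gamma0 M) →+ ℤ} (hx : x ∈ Lat M) (hy : y ∈ Lat M) :
    beta M p y x = - beta M p x y := by
  rw [beta_eq M p hy hx, beta_eq M p hx hy]
  exact eq_neg_of_add_eq_zero_left
    (@PdSym.pairV_skew (Gamma0 M) (ZMod p) _ (ftq M) (KillsTrace.neg_one_mem_Gamma0' M) _ _)

end B0

/-! ### (B1): the radical of `β_M` on `Lat M` is `p • Lat M` -/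

section B1

variable (M : ℕ) [NeZero M] (p : ℕ) [Fact p.Prime]

omit [NeZero M] in
/-- `VK` in terms of traces (odd `p`). -/
theorem mem_VK_iff_trace (hp2 : p ≠ 2) (χ : Additive (Gamma0 M) →+ ZMod p) :
    χ ∈ PdSym.VK (Gamma0 M) (ZMod p) ↔
      ((∀ γ : Gamma0 M, ((γ : SL(2, ℤ)) : Matrix (Fin 2) (Fin 2) ℤ).trace = 0 →
          χ (Additive.ofMul γ) = 0) ∧
        (∀ γ : Gamma0 M, ((γ : SL(2, ℤ)) : Matrix (Fin 2) (Fin 2) ℤ).trace ^ 2 = 1 →
          χ (Additive.ofMul γ) = 0) ∧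
        (∀ γ : Gamma0 M, ((γ : SL(2, ℤ)) : Matrix (Fin 2) (Fin 2) ℤ).trace ^ 2 = 4 →
          χ (Additive.ofMul γ) = 0)) :=
  KillsTrace.kills_iff_trace (KillsTrace.isAdd_hom χ) (KillsTrace.neg_one_mem_Gamma0' M)
    (KillsTrace.zmod_add_self_eq_zero p hp2)

/-- Nondegeneracy of `pairRaw` on `VK`. -/
theorem pairRaw_nondeg (φ : Additive (Gamma0 M) →+ ZMod p)
    (hφ : φ ∈ PdSym.VK (Gamma0 M) (ZMod p))
    (h : ∀ ψ, ψ ∈ PdSym.VK (Gamma0 M) (ZMod p) → pairRaw M p φ ψ = 0) : φ = 0 := by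
  have h0 := @PdSym.pairV_nondeg (Gamma0 M) (ZMod p) _ (ftq M) (KillsTrace.neg_one_mem_Gamma0' M)
    ⟨φ, hφ⟩ (fun ψ => by
      have := h ψ.1 ψ.2
      rwa [pairRaw_eq M p hφ ψ.2] at this)
  exact congrArg Subtype.val h0

/-- **(B1)** An element of `Lat M` which is `β`-orthogonal to `Lat M` lies in `p • Lat M`. -/
theorem beta_nondeg (hp2 : p ≠ 2) {x : Additive (Gamma0 M) →+ ℤ} (hx : x ∈ Lat M)
    (h : ∀ z ∈ Lat M, beta M p x z = 0) : ∃ x' ∈ Lat M, x = (p : ℤ) • x' :=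
  LatRed.exists_smul_of_pair_eq_zero (Fact.out : p.Prime).ne_zero
    (fun χ => χ ∈ PdSym.VK (Gamma0 M) (ZMod p)) (mem_VK_iff_trace M p hp2) (pairRaw M p)
    (pairRaw_nondeg M p) hx h

end B1

/-! ### (B3): restriction and transfer are adjoint -/

section B3

variable (N q : ℕ) [NeZero N] [Fact q.Prime] [NeZero (N * q)] (p : ℕ) [Fact p.Prime]

/-- **(B3)** `β_{N q}(resA x, y) = β_N(x, corA y)`. -/
theorem beta_res_cor {x : Additive (Gamma0 N) →+ ℤ} (hx : x ∈ Lat N)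
    {y : Additive (Gamma0 (N * q)) →+ ℤ} (hy : y ∈ Lat (N * q)) :
    beta (N * q) p (Degen.resA N q ℤ x) y = beta N p x (Degen.corA N q ℤ y) := by
  have hφ := castHom_mem_VK N p hx
  have hψ := castHom_mem_VK (N * q) p hy
  have h1 : castHom (N * q) (ZMod p) (Degen.resA N q ℤ x)
      = Degen.resA N q (ZMod p) (castHom N (ZMod p) x) := DegenLat.castHom_resA N q (ZMod p) x
  have h2 : castHom N (ZMod p) (Degen.corA N q ℤ y)
      = Degen.corA N q (ZMod p) (castHom (N * q) (ZMod p) y) :=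
    DegenLat.castHom_corA N q (ZMod p) y
  have hφ' : castHom (N * q) (ZMod p) (Degen.resA N q ℤ x)
      ∈ PdSym.VK (Gamma0 (N * q)) (ZMod p) := by
    rw [h1]; exact PdB3Pair.resA_mem_VK N q hφ
  have hψ' : castHom N (ZMod p) (Degen.corA N q ℤ y) ∈ PdSym.VK (Gamma0 N) (ZMod p) := by
    rw [h2]; exact PdB3Pair.corA_mem_VK N q hψ
  rw [beta_eq_of_mem (N * q) p hφ' hψ, beta_eq_of_mem N p hφ hψ']
  have key := @PdB3Pair.pairV_resA_corA N q (ZMod p) _ _ _ (ftq (N * q)) (ftq N)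
    (KillsTrace.neg_one_mem_Gamma0' N) (KillsTrace.neg_one_mem_Gamma0' (N * q))
    ⟨_, hφ⟩ ⟨_, hψ⟩
  have e1 : (⟨castHom (N * q) (ZMod p) (Degen.resA N q ℤ x), hφ'⟩ :
      PdSym.VK (Gamma0 (N * q)) (ZMod p))
      = ⟨Degen.resA N q (ZMod p) (castHom N (ZMod p) x), PdB3Pair.resA_mem_VK N q hφ⟩ :=
    Subtype.ext h1
  have e2 : (⟨castHom N (ZMod p) (Degen.corA N q ℤ y), hψ'⟩ : PdSym.VK (Gamma0 N) (ZMod p))
      = ⟨Degen.corA N q (ZMod p) (castHom (N * q) (ZMod p) y),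
          PdB3Pair.corA_mem_VK N q hψ⟩ :=
    Subtype.ext h2
  rw [e1, e2]
  exact key

end B3

/-! ### The pairing data of `LRCore` -/

/-- **[PD] (C3), first half**: the pairing data at level `M` for an odd prime `p`
(`LRCore.PairData`): `β = beta M p` on `Lat M`, biadditive, skew, with radical `p • Lat M`. -/
noncomputable def pairData (p M : ℕ) (hp : p.Prime) (hp2 : p ≠ 2) (hM : 0 < M) :
    LRCore.PairData p M :=
  haveI : NeZero M := ⟨hM.ne'⟩
  haveI : Fact p.Prime := ⟨hp⟩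
  { β := fun x z => beta M p x z
    add_left := fun x x' z => beta_add_left M p x.2 x'.2 z.2
    add_right := fun x z z' => beta_add_right M p x.2 z.2 z'.2
    nondeg := fun x h => by
      obtain ⟨x', hx', e⟩ := beta_nondeg M p hp2 x.2 (fun z hz => h ⟨z, hz⟩)
      exact ⟨⟨x', hx'⟩, Subtype.ext e⟩
    skew := fun x z => beta_skew M p x.2 z.2 }

theorem pairData_β (p M : ℕ) (hp : p.Prime) (hp2 : p ≠ 2) (hM : 0 < M) (x z : Lat M) :
    (pairData p M hp hp2 hM).β x z =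
      @beta M ⟨hM.ne'⟩ p ⟨hp⟩ (x : Additive (Gamma0 M) →+ ℤ) (z : Additive (Gamma0 M) →+ ℤ) :=
  rfl

end Fermat.Agent.P7.PdBeta
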