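import Mathlib
import Fermat.Agent.P7.LevelRaiseCore
import Fermat.Agent.P7.PdBeta
import Fermat.Agent.P7.PdWq
import Fermat.Agent.P7.NonEisSpine

/-!
# P7: level raising and S41 from the landed pairing `PdBeta.beta` (helper85)

* `beta_wq` : (B4) for `PdBeta.beta` — the Atkin–Lehner operator `w_q` is an isometry
  (`PdWq.pairV_wq` through `PdBeta.beta_eq`);
* `betaContract` : `PdBeta.beta` satisfies `LevelRaiseCore.BetaContract`;
* `levelRaiseStmt : Plan.LevelRaiseStmt` and `s41Stmt : Plan.S41Stmt` — unconditional.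
-/

set_option autoImplicit false

namespace Fermat.Agent.P7.LevelRaiseBeta

open CongruenceSubgroup
open Fermat.Agent.P5.Per (Lat castHom)
open Fermat.Agent.P7

/-- `2 ≠ 0` in `ZMod p` for an odd prime `p`. -/
theorem two_ne_zero_zmod (p : ℕ) [Fact p.Prime] (hp2 : p ≠ 2) : (2 : ZMod p) ≠ 0 := by
  intro h
  have h1 : ((2 : ℕ) : ZMod p) = 0 := by exact_mod_cast h
  rw [ZMod.natCast_eq_zero_iff] at h1
  exact hp2 ((Nat.prime_dvd_prime_iff_eq Fact.out Nat.prime_two).mp h1)

/-- **(B4)** for `PdBeta.beta`: `w_q` is an isometry on the parabolic lattice of level `N q`. -/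
theorem beta_wq (N q : ℕ) [NeZero N] [Fact q.Prime] (hqN : ¬ q ∣ N) (p : ℕ) [Fact p.Prime]
    (hp2 : p ≠ 2) {y y' : Additive (Gamma0 (N * q)) →+ ℤ} (hy : y ∈ Lat (N * q))
    (hy' : y' ∈ Lat (N * q)) :
    PdBeta.beta (N * q) p (Degen.wq N q hqN ℤ y) (Degen.wq N q hqN ℤ y') =
      PdBeta.beta (N * q) p y y' := by
  have h2 := two_ne_zero_zmod p hp2
  have hw : Degen.wq N q hqN ℤ y ∈ Lat (N * q) := DegenLat.wq_isParabolicHom N q hqN hy
  have hw' : Degen.wq N q hqN ℤ y' ∈ Lat (N * q) := DegenLat.wq_isParabolicHom N q hqN hy'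
  rw [PdBeta.beta_eq (N * q) p hw hw', PdBeta.beta_eq (N * q) p hy hy']
  exact @PdWq.pairV_wq N q _ _ hqN (ZMod p) _ (PdBeta.ftq (N * q))
    (KillsTrace.neg_one_mem_Gamma0' (N * q)) h2
    ⟨_, PdBeta.castHom_mem_VK (N * q) p hy⟩ ⟨_, PdBeta.castHom_mem_VK (N * q) p hy'⟩

/-- The landed pairing `PdBeta.beta` satisfies the contract of `LevelRaiseCore`. -/
theorem betaContract : LevelRaiseCore.BetaContract (fun M _ p _ => PdBeta.beta M p) := by
  refine ⟨fun M _ p _ hp2 => ⟨?_, ?_, ?_, ?_⟩, fun N q _ _ hqN p _ hp2 _ => ⟨?_, ?_⟩⟩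
  · intro x x' z hx hx' hz
    exact PdBeta.beta_add_left M p hx hx' hz
  · intro x z z' hx hz hz'
    exact PdBeta.beta_add_right M p hx hz hz'
  · intro x hx h
    exact PdBeta.beta_nondeg M p hp2 hx h
  · intro x z hx hz
    exact PdBeta.beta_skew M p hx hz
  · intro x y hx hy
    exact PdBeta.beta_res_cor N q p hx hy
  · intro y y' hy hy'
    exact beta_wq N q hqN p hp2 hy hy'

/-- **[LR]**: Ribet's level raising statement of `P7/Plan`. -/
theorem levelRaiseStmt : Plan.LevelRaiseStmt :=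
  LevelRaiseCore.levelRaiseStmt_of_beta _ betaContract

/-- **S41** in the form of `P7/Plan`. -/
theorem s41Stmt : Plan.S41Stmt :=
  NonEisSpine.s41_of_levelRaise levelRaiseStmt

end Fermat.Agent.P7.LevelRaiseBeta
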