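import Mathlib
import Fermat.Agent.P7.LRCore
import Fermat.Agent.P7.DegInst
import Fermat.Agent.P7.DegenLat
import Fermat.Agent.P7.PdSym
import Fermat.Agent.P7.PdB3Pair
import Fermat.Agent.P7.PdWq
import Fermat.Agent.P7.LatLift
import Fermat.Agent.P7.LatRed
import Fermat.Agent.P7.KillsTrace
import Fermat.Agent.P7.PdInst

/-!
# P7 [PD], the packaging (helper30): the pairing data of `LRCore`

`pairData p M` is the `𝔽_p`-valued Poincaré duality pairing on the parabolic lattice `Lat M`
(`PdSym.pairV` of the reductions modulo `p`), with its four properties, and `isAdj` says that the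
restriction is adjoint to the transfer and that `w_q` is an isometry, for the degeneracy data
`DegInst.degData`.  These are the two terms `P`, `hP` of `LRCore.levelRaiseStmt_of_contracts`.
-/

set_option autoImplicit false

open CongruenceSubgroup
open scoped MatrixGroups

namespace Fermat.Agent.P7.PdAsm

open Fermat.Agent.P5.Per ModularGroup

/-- The reduction modulo `p` of an element of the parabolic lattice lies in `VK`. -/
theorem castHom_mem_VK (M : ℕ) (k : Type*) [Field k] {x : Additive (Gamma0 M) →+ ℤ}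
    (hx : x ∈ Fermat.Agent.P5.Per.Lat M) : castHom M k x ∈ PdSym.VK (Gamma0 M) k := by
  obtain ⟨hS, hR, hP, -⟩ := KillsTrace.hom_kills_of_trace (castHom M k x)
    (fun γ h => LatRed.castHom_trace_zero k x γ h)
    (fun γ h => LatRed.castHom_trace_sq_one k x γ h)
    (fun γ h => LatRed.castHom_trace_sq_four k hx γ h)
  exact PdSym.mem_VK.2 ⟨hS, hR, hP⟩

theorem castHom_add (M : ℕ) (k : Type*) [Ring k] (x y : Additive (Gamma0 M) →+ ℤ) :
    castHom M k (x + y) = castHom M k x + castHom M k y := by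
  refine AddMonoidHom.ext fun γ => ?_
  rw [AddMonoidHom.add_apply, castHom_apply, castHom_apply, castHom_apply, AddMonoidHom.add_apply,
    Int.cast_add]

theorem two_ne_zero_zmod (p : ℕ) (hp : p.Prime) (hp2 : p ≠ 2) : (2 : ZMod p) ≠ 0 := by
  intro h
  have h' : ((2 : ℕ) : ZMod p) = 0 := by exact_mod_cast h
  rw [ZMod.natCast_eq_zero_iff] at h'
  exact hp2 ((Nat.prime_dvd_prime_iff_eq hp Nat.prime_two).1 h')

/-- The reduction of a lattice element, as an element of `VK`. -/
noncomputable def red (M p : ℕ) [Fact p.Prime] (x : Fermat.Agent.P5.Per.Lat M) :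
    PdSym.VK (Gamma0 M) (ZMod p) :=
  ⟨castHom M (ZMod p) x, castHom_mem_VK M (ZMod p) x.2⟩

theorem red_add (M p : ℕ) [Fact p.Prime] (x y : Fermat.Agent.P5.Per.Lat M) :
    red M p (x + y) = red M p x + red M p y :=
  Subtype.ext (castHom_add M (ZMod p) x y)

/-- Every element of `VK` is the reduction of a lattice element (`p` odd). -/
theorem exists_red_eq (M p : ℕ) [NeZero M] [Fact p.Prime] (hp2 : p ≠ 2)
    (ψ : PdSym.VK (Gamma0 M) (ZMod p)) : ∃ z : Fermat.Agent.P5.Per.Lat M, red M p z = ψ := by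
  obtain ⟨hS, hR, hP⟩ := PdSym.mem_VK.1 ψ.2
  obtain ⟨h0, h1, h4⟩ := KillsTrace.gamma0_trace_of_kills M p hp2 ψ.1 hS hR hP
  obtain ⟨z, hz, hzψ⟩ := LatLift.exists_lat_castHom_eq M p ψ.1 h0 h1 h4
  exact ⟨⟨z, hz⟩, Subtype.ext hzψ⟩

/-- The pairing on `Lat M`. -/
noncomputable def betaV (M p : ℕ) [NeZero M] [Fact p.Prime]
    (x y : Fermat.Agent.P5.Per.Lat M) : ZMod p :=
  letI : Fintype (SL(2, ℤ) ⧸ Gamma0 M) := Fintype.ofFinite _
  PdSym.pairV (PdInst.neg_one_mem_Gamma0 M) (red M p x) (red M p y)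

theorem betaV_add_left (M p : ℕ) [NeZero M] [Fact p.Prime]
    (x x' z : Fermat.Agent.P5.Per.Lat M) :
    betaV M p (x + x') z = betaV M p x z + betaV M p x' z := by
  unfold betaV
  rw [red_add, map_add, LinearMap.add_apply]

theorem betaV_add_right (M p : ℕ) [NeZero M] [Fact p.Prime]
    (x z z' : Fermat.Agent.P5.Per.Lat M) :
    betaV M p x (z + z') = betaV M p x z + betaV M p x z' := by
  unfold betaV
  rw [red_add, map_add]

theorem betaV_skew (M p : ℕ) [NeZero M] [Fact p.Prime] (x z : Fermat.Agent.P5.Per.Lat M) :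
    betaV M p z x = -betaV M p x z := by
  unfold betaV
  letI : Fintype (SL(2, ℤ) ⧸ Gamma0 M) := Fintype.ofFinite _
  exact eq_neg_of_add_eq_zero_left
    (PdSym.pairV_skew (PdInst.neg_one_mem_Gamma0 M) (red M p z) (red M p x))

theorem betaV_nondeg (M p : ℕ) [NeZero M] [Fact p.Prime] (hp2 : p ≠ 2)
    (x : Fermat.Agent.P5.Per.Lat M) (h : ∀ z, betaV M p x z = 0) :
    ∃ x' : Fermat.Agent.P5.Per.Lat M, x = (p : ℤ) • x' := by
  letI : Fintype (SL(2, ℤ) ⧸ Gamma0 M) := Fintype.ofFinite _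
  have h0 : red M p x = 0 := by
    refine PdSym.pairV_nondeg (PdInst.neg_one_mem_Gamma0 M) (red M p x) fun ψ => ?_
    obtain ⟨z, rfl⟩ := exists_red_eq M p hp2 ψ
    exact h z
  have h1 : castHom M (ZMod p) (x : Additive (Gamma0 M) →+ ℤ) = 0 := congrArg Subtype.val h0
  obtain ⟨φ', hφ', hx⟩ := LatRed.exists_smul_of_castHom_eq_zero
    (Fact.out : p.Prime).ne_zero x.2 h1
  exact ⟨⟨φ', hφ'⟩, Subtype.ext hx⟩

/-- **(B3)** restriction is adjoint to the transfer. -/
theorem betaV_adj (p N q : ℕ) [NeZero N] [NeZero (N * q)] [Fact p.Prime] (hq : q.Prime)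
    (hqN : ¬ q ∣ N) (x : Fermat.Agent.P5.Per.Lat N) (y : Fermat.Agent.P5.Per.Lat (N * q)) :
    betaV (N * q) p ((DegInst.degData N q hq hqN).resA x) y =
      betaV N p x ((DegInst.degData N q hq hqN).corA y) := by
  haveI : Fact q.Prime := ⟨hq⟩
  letI : Fintype (SL(2, ℤ) ⧸ Gamma0 N) := Fintype.ofFinite _
  letI : Fintype (SL(2, ℤ) ⧸ Gamma0 (N * q)) := Fintype.ofFinite _
  have e1 : red (N * q) p ((DegInst.degData N q hq hqN).resA x) =
      ⟨Degen.resA N q (ZMod p) (red N p x), PdB3Pair.resA_mem_VK N q (red N p x).2⟩ :=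
    Subtype.ext (by
      show castHom (N * q) (ZMod p) ((DegInst.degData N q hq hqN).resA x : _) = _
      rw [DegInst.coe_resA, DegenLat.castHom_resA]
      rfl)
  have e2 : red N p ((DegInst.degData N q hq hqN).corA y) =
      ⟨Degen.corA N q (ZMod p) (red (N * q) p y),
        PdB3Pair.corA_mem_VK N q (red (N * q) p y).2⟩ :=
    Subtype.ext (by
      show castHom N (ZMod p) ((DegInst.degData N q hq hqN).corA y : _) = _
      rw [DegInst.coe_corA, DegenLat.castHom_corA]
      rfl)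
  unfold betaV
  rw [e1, e2]
  exact PdB3Pair.pairV_resA_corA N q (PdInst.neg_one_mem_Gamma0 N)
    (PdInst.neg_one_mem_Gamma0 (N * q)) (red N p x) (red (N * q) p y)

/-- **(B4)** `w_q` is an isometry. -/
theorem betaV_isom (p N q : ℕ) [NeZero N] [NeZero (N * q)] [Fact p.Prime] (hp2 : p ≠ 2)
    (hq : q.Prime) (hqN : ¬ q ∣ N) (y y' : Fermat.Agent.P5.Per.Lat (N * q)) :
    betaV (N * q) p ((DegInst.degData N q hq hqN).wq y)
        ((DegInst.degData N q hq hqN).wq y') = betaV (N * q) p y y' := by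
  haveI : Fact q.Prime := ⟨hq⟩
  letI : Fintype (SL(2, ℤ) ⧸ Gamma0 (N * q)) := Fintype.ofFinite _
  have h2 : (2 : ZMod p) ≠ 0 := two_ne_zero_zmod p Fact.out hp2
  have e : ∀ z : Fermat.Agent.P5.Per.Lat (N * q),
      red (N * q) p ((DegInst.degData N q hq hqN).wq z) =
        ⟨Degen.wq N q hqN (ZMod p) (red (N * q) p z),
          PdWq.wq_mem_VK N q hqN (PdInst.neg_one_mem_Gamma0 (N * q)) h2 (red (N * q) p z).2⟩ :=
    fun z => Subtype.ext (by
      show castHom (N * q) (ZMod p) ((DegInst.degData N q hq hqN).wq z : _) = _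
      rw [DegInst.coe_wq, DegenLat.castHom_wq]
      rfl)
  unfold betaV
  rw [e y, e y']
  exact PdWq.pairV_wq N q hqN (PdInst.neg_one_mem_Gamma0 (N * q)) h2
    (red (N * q) p y) (red (N * q) p y')

/-- **[PD]** the pairing data of `LRCore` at level `M` (`p` odd). -/
noncomputable def pairData (p M : ℕ) (hp : p.Prime) (hp2 : p ≠ 2) (hM : 0 < M) :
    LRCore.PairData p M :=
  haveI : NeZero M := ⟨hM.ne'⟩
  haveI : Fact p.Prime := ⟨hp⟩
  { β := betaV M p
    add_left := betaV_add_left M p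
    add_right := betaV_add_right M p
    nondeg := betaV_nondeg M p hp2
    skew := betaV_skew M p }

/-- **[PD]** the pairing data are compatible with the degeneracy data `DegInst.degData`. -/
theorem isAdj (p N q : ℕ) [NeZero N] [NeZero (N * q)] (hp : p.Prime) (hp2 : p ≠ 2)
    (hq : q.Prime) (hqN : ¬ q ∣ N) (hN : 0 < N) (hNq : 0 < N * q) :
    LRCore.IsAdj (pairData p N hp hp2 hN) (pairData p (N * q) hp hp2 hNq)
      (DegInst.degData N q hq hqN) := by
  haveI : Fact p.Prime := ⟨hp⟩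
  exact
    { adj := fun x y => betaV_adj p N q hq hqN x y
      isom := fun y y' => betaV_isom p N q hp2 hq hqN y y' }

end Fermat.Agent.P7.PdAsm
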