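import Mathlib
import Fermat.Agent.P7.PdRes
import Fermat.Agent.P7.PdOrb
import Fermat.Agent.P7.PdSym
import Fermat.Agent.P7.PdExist
import Fermat.Agent.P7.EllConj
import Fermat.Agent.P7.KillsTrace
import Fermat.Agent.P7.AlInst

/-!
P7 [PD-B4], second provider (helper46): the pairing `PdSym.pairV` on `V(Γ)` is invariant under
an automorphism `θ` of `Γ` induced by an integer matrix of positive determinant
(Atkin–Lehner), for a finite index subgroup `Γ ≤ SL(2, ℤ)` containing `-1` and ANY field `k`.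

* `pairV_eq_sum_orbit`: `pairV ψ φ` is the sum of a normalised Heisenberg lift `u` of `(φ, ψ)`
  over the orbit products of the parabolic element `S * T * S` (= `PdRes.bridge` instantiated
  at the cocycles `pkap Γ S`, `pkap Γ (S * T)`).
* `pairV_comp_aut`: the invariance; the lift is `PdExist.exists_lift_kills`, it kills every
  element of finite order, so its transport by `θ` is again a normalised lift, and
  `PdOrb.sum_orbit_comp_aut` compares the two orbit sums.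
-/

set_option autoImplicit false

namespace Fermat.Agent.P7.PdB4Alt

open scoped MatrixGroups
open ModularGroup (S T)
open Fermat.Agent.S21.PermDim Fermat.Agent.P7

/-! ### Generic facts -/

section Generic

variable {G : Type*} [Group G] (Γ : Subgroup G)

theorem toPerm_pow_apply (g : G) (j : ℕ) (x : G ⧸ Γ) :
    ((MulAction.toPerm g : Equiv.Perm (G ⧸ Γ)) ^ j) x = g ^ j • x := by
  have h := PdOrb.toPerm_zpow_apply g (j : ℤ) x
  rwa [zpow_natCast, zpow_natCast] at h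

/-- The orbit products of `PdRes` for the cocycle `pkap Γ g` are the values of `pkap` at the
powers of `g`. -/
theorem iter_pkap [Fintype (G ⧸ Γ)] (g : G) (j : ℕ) (y : G ⧸ Γ) :
    PdRes.iter (MulAction.toPerm g : Equiv.Perm (G ⧸ Γ)) (fun x => pkap Γ g x) j y
      = pkap Γ (g ^ j) y := by
  induction j with
  | zero => rw [pow_zero, Shap.pkap_one]; rfl
  | succ j ih => rw [PdRes.iter_succ, ih, toPerm_pow_apply, Shap.pkap_pow_succ]

variable {Γ} {A : Type*} [AddCommGroup A]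

/-- `Kills` with integer exponents for an element of finite order (no additivity needed). -/
theorem kills_zpow_of_pow_eq_one {f : Γ → A} {t : G} (hk : Shap.Kills f t) {m : ℕ} (hm : 0 < m)
    (ht : t ^ m = 1) (g : G) (j : ℤ) (h : g * t ^ j * g⁻¹ ∈ Γ) : f ⟨g * t ^ j * g⁻¹, h⟩ = 0 := by
  have hm' : (0 : ℤ) < (m : ℤ) := by exact_mod_cast hm
  have h0 := Int.emod_nonneg j hm'.ne'
  have e1 : t ^ j = t ^ (j % (m : ℤ)).toNat := by
    rw [zpow_eq_zpow_emod' j ht, ← zpow_natCast, Int.toNat_of_nonneg h0]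
  have e2 : g * t ^ j * g⁻¹ = (g⁻¹)⁻¹ * t ^ (j % (m : ℤ)).toNat * g⁻¹ := by rw [inv_inv, e1]
  have h' : (g⁻¹)⁻¹ * t ^ (j % (m : ℤ)).toNat * g⁻¹ ∈ Γ := e2 ▸ h
  have e3 : (⟨g * t ^ j * g⁻¹, h⟩ : Γ) = ⟨_, h'⟩ := Subtype.ext e2
  rw [e3]; exact hk _ _ h'

end Generic

/-! ### Heisenberg lifts: inverses, conjugation, central elements -/

section LiftAlg

variable {Γ : Type*} [Group Γ] {k : Type*} [CommRing k] {φ ψ u : Γ → k}

theorem right_inv (h : PdRes.Lift φ ψ u) (a : Γ) : ψ a⁻¹ = -ψ a := by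
  have h1 := h.map_mul_right a a⁻¹
  rw [mul_inv_cancel, h.right_one] at h1
  linear_combination -h1

theorem lift_inv (h : PdRes.Lift φ ψ u) (a : Γ) : u a⁻¹ = -u a - φ a * ψ a := by
  have h1 := h.map_mul a a⁻¹
  rw [mul_inv_cancel, h.map_one, right_inv h] at h1
  linear_combination -h1

/-- A Heisenberg lift is invariant under conjugation at elements killed by `φ` and `ψ`. -/
theorem lift_conj (h : PdRes.Lift φ ψ u) (a q : Γ) (hφq : φ q = 0) (hψq : ψ q = 0) :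
    u (a * q * a⁻¹) = u q := by
  rw [h.map_mul (a * q) a⁻¹, h.map_mul a q, h.map_mul_left a q, lift_inv h a, right_inv h a,
    hφq, hψq]
  ring

theorem lift_mul_left (h : PdRes.Lift φ ψ u) (z q : Γ) (huz : u z = 0) (hφz : φ z = 0) :
    u (z * q) = u q := by
  rw [h.map_mul, huz, hφz]; ring

end LiftAlg

/-! ### Elements of finite order -/

section FinOrder

variable {Γ : Subgroup SL(2, ℤ)} {A : Type*} [AddCommGroup A]

theorem S_pow_four : (S : SL(2, ℤ)) ^ 4 = 1 := by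
  rw [show (4 : ℕ) = 2 * 2 from rfl, pow_mul, Psl2Free.S_sq, neg_one_sq]

theorem R_pow_six : (S * T : SL(2, ℤ)) ^ 6 = 1 := by
  rw [show (6 : ℕ) = 3 * 2 from rfl, pow_mul, Psl2Free.R_cube, neg_one_sq]

/-- A function killing the conjugates of the powers of `S` kills `-1`. -/
theorem kills_neg_one {f : Γ → A} (kS : Shap.Kills f (S : SL(2, ℤ))) (hneg : -1 ∈ Γ) :
    f ⟨-1, hneg⟩ = 0 := by
  have h0 : (1 : SL(2, ℤ))⁻¹ * S ^ 2 * 1 = -1 := by
    rw [inv_one, one_mul, mul_one, Psl2Free.S_sq]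
  have hmem : (1 : SL(2, ℤ))⁻¹ * S ^ 2 * 1 ∈ Γ := by rw [h0]; exact hneg
  have e : (⟨-1, hneg⟩ : Γ) = ⟨(1 : SL(2, ℤ))⁻¹ * S ^ 2 * 1, hmem⟩ := Subtype.ext h0.symm
  rw [e]; exact kS 1 2 hmem

/-- A function (not necessarily additive) killing the conjugates of the powers of `S` and of
`S * T` kills every element of finite order of `Γ`. -/
theorem kills_finOrder {f : Γ → A} (kS : Shap.Kills f (S : SL(2, ℤ)))
    (kR : Shap.Kills f (S * T : SL(2, ℤ))) (γ : Γ) (hγ : IsOfFinOrder γ) : f γ = 0 := by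
  have hγ' : IsOfFinOrder (γ : SL(2, ℤ)) := by
    rw [isOfFinOrder_iff_pow_eq_one] at hγ ⊢
    obtain ⟨n, hn, h1⟩ := hγ
    exact ⟨n, hn, by rw [← Subgroup.coe_pow, h1]; rfl⟩
  rcases EllConj.finOrder_conj (γ : SL(2, ℤ)) hγ' with ⟨g, j, h⟩ | ⟨g, j, h⟩
  · have hmem : g * S ^ j * g⁻¹ ∈ Γ := h ▸ γ.2
    have e : γ = ⟨g * S ^ j * g⁻¹, hmem⟩ := Subtype.ext h
    rw [e]; exact kills_zpow_of_pow_eq_one kS (by norm_num) S_pow_four g j hmem
  · have hmem : g * (S * T) ^ j * g⁻¹ ∈ Γ := h ▸ γ.2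
    have e : γ = ⟨g * (S * T) ^ j * g⁻¹, hmem⟩ := Subtype.ext h
    rw [e]; exact kills_zpow_of_pow_eq_one kR (by norm_num) R_pow_six g j hmem

end FinOrder

/-! ### The pairing as an orbit sum, and its invariance -/

section Main

variable (Γ : Subgroup SL(2, ℤ)) [Fintype (SL(2, ℤ) ⧸ Γ)] (hneg : -1 ∈ Γ) {k : Type*} [Field k]

omit [Fintype (SL(2, ℤ) ⧸ Γ)] in
theorem toPerm_mul_eq :
    (MulAction.toPerm (S * T : SL(2, ℤ)) : Equiv.Perm (SL(2, ℤ) ⧸ Γ))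
      * MulAction.toPerm (S : SL(2, ℤ)) = MulAction.toPerm (S * T * S : SL(2, ℤ)) := by
  ext x
  exact (mul_smul (S * T : SL(2, ℤ)) S x).symm

/-- **The pairing as an orbit sum.** For `φ ψ ∈ V(Γ)`, any lift `u` of `(φ, ψ)` (sign (L)) which
kills the conjugates of the powers of `S` and of `S * T`, and any system `Rep` of representatives
of the cycles of the parabolic element `S * T * S`, `pairV ψ φ` is the sum of `u` over the orbit
products. -/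
theorem pairV_eq_sum_orbit (φ ψ : PdSym.VK Γ k) (u : Γ → k)
    (hu : ∀ a b, u (a * b) = u a + u b
      - PdSym.fn Γ (φ : Additive Γ →+ k) a * PdSym.fn Γ (ψ : Additive Γ →+ k) b)
    (kS : Shap.Kills u (S : SL(2, ℤ))) (kR : Shap.Kills u (S * T : SL(2, ℤ)))
    (Rep : Finset (SL(2, ℤ) ⧸ Γ))
    (hRep : ∀ x, ∃! y, y ∈ Rep ∧
      (MulAction.toPerm (S * T * S : SL(2, ℤ)) : Equiv.Perm (SL(2, ℤ) ⧸ Γ)).SameCycle y x) :
    PdSym.pairV hneg ψ φ = ∑ y ∈ Rep, u (pkap Γ ((S * T * S : SL(2, ℤ)) ^ Function.minimalPeriod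
      (MulAction.toPerm (S * T * S : SL(2, ℤ)) : Equiv.Perm (SL(2, ℤ) ⧸ Γ)) y) y) := by
  classical
  have aφ : Shap.IsAdd (PdSym.fn Γ (φ : Additive Γ →+ k)) := PdSym.isAdd_fn Γ _
  have aψ : Shap.IsAdd (PdSym.fn Γ (ψ : Additive Γ →+ k)) := PdSym.isAdd_fn Γ _
  have hL : PdRes.Lift (PdSym.fn Γ (φ : Additive Γ →+ k)) (PdSym.fn Γ (ψ : Additive Γ →+ k)) u :=
    ⟨aφ, aψ, hu⟩
  obtain ⟨w, n, hsym⟩ := PdSym.exists_sym_of_mem hneg φ.2
  obtain ⟨w', n', hsym'⟩ := PdSym.exists_sym_of_mem hneg ψ.2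
  obtain ⟨⟨a₁, ha₁⟩, ⟨a₂, ha₂⟩⟩ := hsym.exists_primitives aφ φ.2.1 φ.2.2.1
  obtain ⟨⟨m₁, hm₁⟩, ⟨m₂, hm₂⟩⟩ := hsym'.exists_primitives aψ ψ.2.1 ψ.2.2.1
  have hts := toPerm_mul_eq Γ
  have hb := PdRes.bridge hL (MulAction.toPerm (S : SL(2, ℤ)) : Equiv.Perm (SL(2, ℤ) ⧸ Γ))
    (MulAction.toPerm (S * T : SL(2, ℤ)) : Equiv.Perm (SL(2, ℤ) ⧸ Γ))
    (fun x => PdSym.S_S_smul Γ hneg x) (fun x => pkap Γ S x) (fun x => pkap Γ (S * T) x)
    n w n' w' a₁ a₂ m₁ m₂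
    (fun x => by
      have h : w x = PdSym.fn Γ (φ : Additive Γ →+ k) (pkap Γ S x)
          - (n ((S : SL(2, ℤ)) • x) - n x) := (hsym x).1
      show PdSym.fn Γ (φ : Additive Γ →+ k) (pkap Γ S x) = w x + (n ((S : SL(2, ℤ)) • x) - n x)
      rw [h]; ring)
    (fun x => by
      have h : w x = PdSym.fn Γ (φ : Additive Γ →+ k) (pkap Γ (S * T) x)
          - (n ((S * T : SL(2, ℤ)) • x) - n x) := (hsym x).2
      show PdSym.fn Γ (φ : Additive Γ →+ k) (pkap Γ (S * T) x)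
        = w x + (n ((S * T : SL(2, ℤ)) • x) - n x)
      rw [h]; ring)
    (fun x => by
      have h : w' x = PdSym.fn Γ (ψ : Additive Γ →+ k) (pkap Γ S x)
          - (n' ((S : SL(2, ℤ)) • x) - n' x) := (hsym' x).1
      show PdSym.fn Γ (ψ : Additive Γ →+ k) (pkap Γ S x) = w' x + (n' ((S : SL(2, ℤ)) • x) - n' x)
      rw [h]; ring)
    (fun x => by
      have h : w' x = PdSym.fn Γ (ψ : Additive Γ →+ k) (pkap Γ (S * T) x)
          - (n' ((S * T : SL(2, ℤ)) • x) - n' x) := (hsym' x).2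
      show PdSym.fn Γ (ψ : Additive Γ →+ k) (pkap Γ (S * T) x)
        = w' x + (n' ((S * T : SL(2, ℤ)) • x) - n' x)
      rw [h]; ring)
    ha₁ ha₂ hm₁ hm₂
    (fun y => by
      rw [iter_pkap Γ S]
      exact PdExist.kills_pkap_pow kS y _ (by
        rw [PdOrb.minimalPeriod_toPerm]; exact MulAction.pow_period_smul _ y))
    (fun y => by
      rw [iter_pkap Γ (S * T)]
      exact PdExist.kills_pkap_pow kR y _ (by
        rw [PdOrb.minimalPeriod_toPerm]; exact MulAction.pow_period_smul _ y))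
    Rep (by rw [hts]; exact hRep)
  have hc : (fun x => pkap Γ (S * T) ((MulAction.toPerm (S : SL(2, ℤ)) :
      Equiv.Perm (SL(2, ℤ) ⧸ Γ)) x) * pkap Γ S x) = fun x => pkap Γ (S * T * S) x :=
    funext fun x => (pkap_mul Γ (S * T) S x).symm
  rw [hts, hc] at hb
  simp only [iter_pkap] at hb
  rw [hb, PdSym.pairV_eq hneg ψ φ hsym' hsym]
  have hw : w ∈ PdModel.W (PdSym.sg Γ k) (PdSym.tg Γ k) := hsym.mem_W φ.2
  have h₁ : PdSym.sg Γ k m₁ - m₁ = w' := funext fun x => (hm₁ x).symm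
  have h₂ : PdSym.tg Γ k m₂ - m₂ = w' := funext fun x => (hm₂ x).symm
  rw [PdModel.B_eq PdSym.dot_sg PdSym.dot_tg hw h₁ h₂, PdModel.dot_apply]
  rfl

/-- **(B4)** The pairing on `V(Γ)` is invariant under an automorphism of `Γ` induced by an
integer matrix of positive determinant. -/
theorem pairV_comp_aut (W : Matrix (Fin 2) (Fin 2) ℤ) (θ : Γ ≃* Γ) (hW : 0 < W.det)
    (hθ : ∀ γ : Γ, W * (γ.1 : Matrix (Fin 2) (Fin 2) ℤ) = ((θ γ).1 : Matrix (Fin 2) (Fin 2) ℤ) * W)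
    (φ ψ φ' ψ' : PdSym.VK Γ k)
    (hφ' : ∀ γ : Γ, (φ' : Additive Γ →+ k) (Additive.ofMul γ)
      = (φ : Additive Γ →+ k) (Additive.ofMul (θ γ)))
    (hψ' : ∀ γ : Γ, (ψ' : Additive Γ →+ k) (Additive.ofMul γ)
      = (ψ : Additive Γ →+ k) (Additive.ofMul (θ γ))) :
    PdSym.pairV hneg φ' ψ' = PdSym.pairV hneg φ ψ := by
  classical
  have aφ : Shap.IsAdd (PdSym.fn Γ (φ : Additive Γ →+ k)) := PdSym.isAdd_fn Γ _
  have aψ : Shap.IsAdd (PdSym.fn Γ (ψ : Additive Γ →+ k)) := PdSym.isAdd_fn Γ _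
  -- a normalised lift of `(ψ, φ)`
  obtain ⟨u, hu, kS, kR⟩ := PdExist.exists_lift_kills Γ hneg _ _ aψ aφ ψ.2.1 ψ.2.2.1 φ.2.1 φ.2.2.1
  have hL : PdRes.Lift (PdSym.fn Γ (ψ : Additive Γ →+ k)) (PdSym.fn Γ (φ : Additive Γ →+ k)) u :=
    ⟨aψ, aφ, hu⟩
  obtain ⟨Rep, hRep⟩ := PdRes.exists_reps
    (MulAction.toPerm (S * T * S : SL(2, ℤ)) : Equiv.Perm (SL(2, ℤ) ⧸ Γ))
  have e1 := pairV_eq_sum_orbit Γ hneg ψ φ u hu kS kR Rep hRep
  -- its transport by `θ` is a normalised lift of `(ψ', φ')`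
  have hfin : ∀ γ : Γ, IsOfFinOrder γ → u γ = 0 := kills_finOrder kS kR
  have hfin' : ∀ γ : Γ, IsOfFinOrder γ → u (θ γ) = 0 := fun γ hγ =>
    hfin _ ((θ : Γ →* Γ).isOfFinOrder hγ)
  have hu' : ∀ a b : Γ, u (θ (a * b)) = u (θ a) + u (θ b)
      - PdSym.fn Γ (ψ' : Additive Γ →+ k) a * PdSym.fn Γ (φ' : Additive Γ →+ k) b := by
    intro a b
    show u (θ (a * b)) = u (θ a) + u (θ b)
      - (ψ' : Additive Γ →+ k) (Additive.ofMul a) * (φ' : Additive Γ →+ k) (Additive.ofMul b)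
    rw [map_mul, hu, hψ', hφ']
    rfl
  have kS' : Shap.Kills (fun γ : Γ => u (θ γ)) (S : SL(2, ℤ)) :=
    Shap.kills_of_finOrder (m := 4) (by norm_num) S_pow_four hfin'
  have kR' : Shap.Kills (fun γ : Γ => u (θ γ)) (S * T : SL(2, ℤ)) :=
    Shap.kills_of_finOrder (m := 6) (by norm_num) R_pow_six hfin'
  have e2 := pairV_eq_sum_orbit Γ hneg ψ' φ' (fun γ : Γ => u (θ γ)) hu' kS' kR' Rep hRep
  rw [e1, e2]
  -- `u` is a class function on positive primitive parabolic elements, insensitive to `-1`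
  have h0φ : PdSym.fn Γ (φ : Additive Γ →+ k) ⟨-1, hneg⟩ = 0 := kills_neg_one φ.2.1 hneg
  have h0ψ : PdSym.fn Γ (ψ : Additive Γ →+ k) ⟨-1, hneg⟩ = 0 := kills_neg_one ψ.2.1 hneg
  have hpar : ∀ (f : Γ → k), Shap.IsAdd f → f ⟨-1, hneg⟩ = 0 →
      Shap.Kills f (S * T * S : SL(2, ℤ)) → ∀ Q : Γ, CuspAut.IsPosPrim Γ Q.1 → f Q = 0 := by
    intro f af h0 hP Q hQ
    refine KillsTrace.trace_sq_four_of_kills' af hneg h0
      ((KillsTrace.kills_STS_iff af hneg h0).mp hP) Q ?_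
    have htr := hQ.1.1
    rw [htr]; norm_num
  have hconj : ∀ γ Q : Γ, CuspAut.IsPosPrim Γ Q.1 → u (γ * Q * γ⁻¹) = u Q := fun γ Q hQ =>
    lift_conj hL γ Q (hpar _ aψ h0ψ ψ.2.2.2 Q hQ) (hpar _ aφ h0φ φ.2.2.2 Q hQ)
  have hun : ∀ Q : Γ, u (⟨-1, hneg⟩ * Q) = u Q := fun Q =>
    lift_mul_left hL _ Q (kills_neg_one kS hneg) h0ψ
  exact PdOrb.sum_orbit_comp_aut Γ hneg Rep hRep W θ hW hθ u hconj hun

omit [Fintype (SL(2, ℤ) ⧸ Γ)] in
include hneg in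
/-- `V(Γ)` is stable under composition with such an automorphism. -/
theorem comp_aut_mem_VK (W : Matrix (Fin 2) (Fin 2) ℤ) (θ : Γ ≃* Γ) (hW : 0 < W.det)
    (hθ : ∀ γ : Γ, W * (γ.1 : Matrix (Fin 2) (Fin 2) ℤ) = ((θ γ).1 : Matrix (Fin 2) (Fin 2) ℤ) * W)
    (φ : PdSym.VK Γ k) (φ' : Additive Γ →+ k)
    (hφ' : ∀ γ : Γ, φ' (Additive.ofMul γ) = (φ : Additive Γ →+ k) (Additive.ofMul (θ γ))) :
    φ' ∈ PdSym.VK Γ k := by
  have aφ : Shap.IsAdd (PdSym.fn Γ (φ : Additive Γ →+ k)) := PdSym.isAdd_fn Γ _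
  have h0φ : PdSym.fn Γ (φ : Additive Γ →+ k) ⟨-1, hneg⟩ = 0 := kills_neg_one φ.2.1 hneg
  have hfin : ∀ γ : Γ, IsOfFinOrder γ → PdSym.fn Γ φ' γ = 0 := fun γ hγ => by
    show φ' (Additive.ofMul γ) = 0
    rw [hφ']
    exact kills_finOrder φ.2.1 φ.2.2.1 _ ((θ : Γ →* Γ).isOfFinOrder hγ)
  refine ⟨Shap.kills_of_finOrder (m := 4) (by norm_num) S_pow_four hfin,
    Shap.kills_of_finOrder (m := 6) (by norm_num) R_pow_six hfin, ?_⟩
  apply KillsTrace.kills_STS_of_trace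
  intro γ hγ
  show φ' (Additive.ofMul γ) = 0
  rw [hφ']
  refine KillsTrace.trace_sq_four_of_kills' aφ hneg h0φ
    ((KillsTrace.kills_STS_iff aφ hneg h0φ).mp φ.2.2.2) (θ γ) ?_
  obtain ⟨-, -, etr⟩ := CuspAut.aut_entries W θ hθ γ
  have htr : (((θ γ : Γ) : SL(2, ℤ)) : Matrix (Fin 2) (Fin 2) ℤ).trace
      = ((γ : SL(2, ℤ)) : Matrix (Fin 2) (Fin 2) ℤ).trace := by
    rw [Matrix.trace_fin_two, Matrix.trace_fin_two]
    exact mul_left_cancel₀ (ne_of_gt hW) etr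
  rw [htr]; exact hγ

end Main

/-! ### The Atkin–Lehner operator `w_q` on `Γ₀(N q)` -/

section Gamma0

open CongruenceSubgroup

variable (N q : ℕ) [NeZero N] [Fact q.Prime] (hqN : ¬ q ∣ N) {k : Type*} [Field k]

/-- `V(Γ₀(N q))` is stable under `w_q`. -/
theorem wq_mem_VK (hneg : -1 ∈ Gamma0 (N * q)) (φ : PdSym.VK (Gamma0 (N * q)) k) :
    Degen.wq N q hqN k (φ : Additive (Gamma0 (N * q)) →+ k) ∈ PdSym.VK (Gamma0 (N * q)) k := by
  obtain ⟨θ, W, hθeq, hW, hθ⟩ := AlInst.exists_aut N q hqN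
  refine comp_aut_mem_VK _ hneg W θ hW hθ φ _ (fun γ => ?_)
  rw [hθeq]; rfl

/-- **(B4) for `Γ₀(N q)`**: `w_q` is an isometry of the pairing on `V(Γ₀(N q))`. -/
theorem pairV_wq [Fintype (SL(2, ℤ) ⧸ Gamma0 (N * q))] (hneg : -1 ∈ Gamma0 (N * q))
    (φ ψ φ' ψ' : PdSym.VK (Gamma0 (N * q)) k)
    (hφ' : (φ' : Additive (Gamma0 (N * q)) →+ k)
      = Degen.wq N q hqN k (φ : Additive (Gamma0 (N * q)) →+ k))
    (hψ' : (ψ' : Additive (Gamma0 (N * q)) →+ k)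
      = Degen.wq N q hqN k (ψ : Additive (Gamma0 (N * q)) →+ k)) :
    PdSym.pairV hneg φ' ψ' = PdSym.pairV hneg φ ψ := by
  obtain ⟨θ, W, hθeq, hW, hθ⟩ := AlInst.exists_aut N q hqN
  refine pairV_comp_aut _ hneg W θ hW hθ φ ψ φ' ψ' (fun γ => ?_) (fun γ => ?_)
  · rw [hφ', hθeq]; rfl
  · rw [hψ', hθeq]; rfl

/-- **(B4) for `Γ₀(N q)`**, pointwise spelling with the Atkin–Lehner conjugation `Degen.cW`. -/
theorem pairV_cW [Fintype (SL(2, ℤ) ⧸ Gamma0 (N * q))] (hneg : -1 ∈ Gamma0 (N * q))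
    (φ ψ φ' ψ' : PdSym.VK (Gamma0 (N * q)) k)
    (hφ' : ∀ γ : Gamma0 (N * q), (φ' : Additive (Gamma0 (N * q)) →+ k) (Additive.ofMul γ)
      = (φ : Additive (Gamma0 (N * q)) →+ k) (Additive.ofMul (Degen.cW N q hqN γ)))
    (hψ' : ∀ γ : Gamma0 (N * q), (ψ' : Additive (Gamma0 (N * q)) →+ k) (Additive.ofMul γ)
      = (ψ : Additive (Gamma0 (N * q)) →+ k) (Additive.ofMul (Degen.cW N q hqN γ))) :
    PdSym.pairV hneg φ' ψ' = PdSym.pairV hneg φ ψ := by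
  obtain ⟨θ, W, hθeq, hW, hθ⟩ := AlInst.exists_aut N q hqN
  refine pairV_comp_aut _ hneg W θ hW hθ φ ψ φ' ψ' (fun γ => ?_) (fun γ => ?_)
  · rw [hφ', hθeq]
  · rw [hψ', hθeq]

end Gamma0

end Fermat.Agent.P7.PdB4Alt
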