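import Mathlib

/-!
# P7 [PD-DIM]: the dimension of the permutation model is characteristic-free

`X` a finite set, `s t : Equiv.Perm X`, `k` a field, `M = X → k`.
`Wsub k s t = {w | (∃ m₁, w = m₁ ∘ s - m₁) ∧ (∃ m₂, w = m₂ ∘ t - m₂)}`,
`Radsub k s t = {w | ∃ n, n ∘ s = n ∘ t ∧ w = n ∘ s - n}`.

Main results: `finrank_Wsub`, `finrank_Radsub` (dimensions in terms of orbit counts, valid over every
field) and `finrank_quot_eq` (the dimension of `Wsub / Radsub` does not depend on the field).
-/

set_option autoImplicit false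

namespace Fermat.Agent.P7.PdDim

open Module

variable {X : Type*} [Fintype X]

/-- Number of orbits of a subgroup of `Equiv.Perm X` on `X`. -/
noncomputable def orb (H : Subgroup (Equiv.Perm X)) : ℕ :=
  Nat.card (MulAction.orbitRel.Quotient H X)

section ring

variable (k : Type*) [CommRing k]

/-- The operator `m ↦ m ∘ g - m`. -/
noncomputable def Dop (g : Equiv.Perm X) : (X → k) →ₗ[k] (X → k) :=
  LinearMap.funLeft k k g - LinearMap.id

omit [Fintype X] in
lemma Dop_apply (g : Equiv.Perm X) (m : X → k) : Dop k g m = m ∘ g - m := rfl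

/-- The functions invariant under a subgroup of permutations. -/
def Inv (H : Subgroup (Equiv.Perm X)) : Submodule k (X → k) where
  carrier := {m | ∀ h ∈ H, m ∘ h = m}
  add_mem' := by
    intro a b ha hb h hh
    ext x
    have h1 := congrFun (ha h hh) x
    have h2 := congrFun (hb h hh) x
    simp only [Function.comp_apply, Pi.add_apply] at h1 h2 ⊢
    rw [h1, h2]
  zero_mem' := by
    intro h _
    rfl
  smul_mem' := by
    intro c a ha h hh
    ext x
    have h1 := congrFun (ha h hh) x
    simp only [Function.comp_apply, Pi.smul_apply] at h1 ⊢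
    rw [h1]

omit [Fintype X] in
lemma mem_Inv {H : Subgroup (Equiv.Perm X)} {m : X → k} :
    m ∈ Inv k H ↔ ∀ h ∈ H, m ∘ h = m := Iff.rfl

/-- The stabiliser of a function under precomposition by permutations. -/
def stab {α : Type*} (m : X → α) : Subgroup (Equiv.Perm X) where
  carrier := {h | m ∘ h = m}
  mul_mem' := by
    intro a b ha hb
    have ha' : m ∘ a = m := ha
    have hb' : m ∘ b = m := hb
    show m ∘ (a * b : Equiv.Perm X) = m
    funext x
    have h1 := congrFun ha' (b x)
    have h2 := congrFun hb' x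
    simp only [Function.comp_apply, Equiv.Perm.coe_mul] at h1 h2 ⊢
    rw [h1, h2]
  one_mem' := rfl
  inv_mem' := by
    intro a ha
    have ha' : m ∘ a = m := ha
    show m ∘ (a⁻¹ : Equiv.Perm X) = m
    funext x
    have h1 := congrFun ha' (a⁻¹ x)
    simp only [Function.comp_apply, Equiv.Perm.coe_inv, Equiv.apply_symm_apply] at h1 ⊢
    exact h1.symm

omit [Fintype X] in
lemma mem_stab {α : Type*} {m : X → α} {h : Equiv.Perm X} : h ∈ stab m ↔ m ∘ h = m := Iff.rfl

omit [Fintype X] in
lemma mem_Inv_iff_le {H : Subgroup (Equiv.Perm X)} {m : X → k} : m ∈ Inv k H ↔ H ≤ stab m :=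
  Iff.rfl

omit [Fintype X] in
lemma mem_Inv_zpowers {g : Equiv.Perm X} {m : X → k} :
    m ∈ Inv k (Subgroup.zpowers g) ↔ m ∘ g = m := by
  rw [mem_Inv_iff_le, Subgroup.zpowers_le, mem_stab]

omit [Fintype X] in
lemma mem_Inv_closure {s t : Equiv.Perm X} {m : X → k} :
    m ∈ Inv k (Subgroup.closure {s, t}) ↔ m ∘ s = m ∧ m ∘ t = m := by
  rw [mem_Inv_iff_le, Subgroup.closure_le, Set.insert_subset_iff, Set.singleton_subset_iff]
  exact Iff.rfl

omit [Fintype X] in
lemma ker_Dop (g : Equiv.Perm X) : LinearMap.ker (Dop k g) = Inv k (Subgroup.zpowers g) := by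
  ext m
  rw [LinearMap.mem_ker, Dop_apply, sub_eq_zero, mem_Inv_zpowers]

lemma comp_dotProduct (g : Equiv.Perm X) (m ν : X → k) :
    (m ∘ g) ⬝ᵥ ν = m ⬝ᵥ (ν ∘ (g⁻¹ : Equiv.Perm X)) := by
  unfold dotProduct
  rw [← Equiv.sum_comp g (fun y => m y * (ν ∘ (g⁻¹ : Equiv.Perm X)) y)]
  refine Finset.sum_congr rfl fun x _ => ?_
  simp only [Function.comp_apply, Equiv.Perm.coe_inv, Equiv.symm_apply_apply]

omit [Fintype X] [CommRing k] in
lemma comp_inv_eq_iff (g : Equiv.Perm X) (ν : X → k) :
    ν ∘ (g⁻¹ : Equiv.Perm X) = ν ↔ ν ∘ g = ν := by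
  rw [← mem_stab, ← mem_stab, inv_mem_iff]

/-- invariant functions are orthogonal to the range of `Dop`. -/
lemma dotProduct_Dop_of_inv (g : Equiv.Perm X) (ν m : X → k) (hν : ν ∘ g = ν) :
    ν ⬝ᵥ Dop k g m = 0 := by
  rw [Dop_apply, dotProduct_sub, dotProduct_comm ν (m ∘ g), comp_dotProduct,
    (comp_inv_eq_iff k g ν).2 hν, dotProduct_comm, sub_self]

omit [Fintype X] in
/-- `f ∘ g - f` lies in `(s - 1) M + (t - 1) M` for every `g` in the group generated by `s, t`. -/
lemma comp_sub_mem_sup (s t : Equiv.Perm X) {g : Equiv.Perm X}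
    (hg : g ∈ Subgroup.closure {s, t}) (f : X → k) :
    f ∘ g - f ∈ LinearMap.range (Dop k s) ⊔ LinearMap.range (Dop k t) := by
  induction hg using Subgroup.closure_induction generalizing f with
  | mem x hx =>
    rcases hx with rfl | hx
    · exact Submodule.mem_sup_left ⟨f, rfl⟩
    · rw [Set.mem_singleton_iff] at hx
      subst hx
      exact Submodule.mem_sup_right ⟨f, rfl⟩
  | one =>
    have : f ∘ (1 : Equiv.Perm X) - f = 0 := by
      funext z
      simp
    rw [this]
    exact Submodule.zero_mem _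
  | mul x y _ _ hx hy =>
    have : f ∘ (x * y : Equiv.Perm X) - f = ((f ∘ x) ∘ y - f ∘ x) + (f ∘ x - f) := by
      funext z
      simp
    rw [this]
    exact Submodule.add_mem _ (hy (f ∘ x)) (hx f)
  | inv x _ hx =>
    have : f ∘ (x⁻¹ : Equiv.Perm X) - f
        = -((f ∘ (x⁻¹ : Equiv.Perm X)) ∘ x - f ∘ (x⁻¹ : Equiv.Perm X)) := by
      funext z
      simp
    rw [this]
    exact Submodule.neg_mem _ (hx _)

omit [Fintype X] in
/-- differences of point masses in one orbit lie in `(s - 1) M + (t - 1) M`. -/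
lemma single_sub_single_mem_sup [DecidableEq X] (s t : Equiv.Perm X) {g : Equiv.Perm X}
    (hg : g ∈ Subgroup.closure {s, t}) (x : X) (c : k) :
    Pi.single x c - Pi.single (g x) c ∈
      LinearMap.range (Dop k s) ⊔ LinearMap.range (Dop k t) := by
  have h := comp_sub_mem_sup k s t hg (Pi.single (g x) c)
  have e : (Pi.single (g x) c : X → k) ∘ g = Pi.single x c := by
    funext z
    simp only [Function.comp_apply, Pi.single_apply, EmbeddingLike.apply_eq_iff_eq]
  rw [e] at h
  exact h

/-- **[COINV]** `(s - 1) M + (t - 1) M` is exactly the orthogonal of the `⟨s, t⟩`-invariants,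
over every commutative ring. -/
theorem mem_sup_range_iff (s t : Equiv.Perm X) (e : X → k) :
    e ∈ LinearMap.range (Dop k s) ⊔ LinearMap.range (Dop k t) ↔
      ∀ ν : X → k, ν ∘ s = ν → ν ∘ t = ν → ν ⬝ᵥ e = 0 := by
  classical
  constructor
  · intro he ν hs ht
    obtain ⟨a, ⟨m1, rfl⟩, b, ⟨m2, rfl⟩, rfl⟩ := Submodule.mem_sup.1 he
    rw [dotProduct_add, dotProduct_Dop_of_inv k s ν m1 hs, dotProduct_Dop_of_inv k t ν m2 ht,
      add_zero]
  · intro h
    -- orbit representatives
    let H : Subgroup (Equiv.Perm X) := Subgroup.closure {s, t}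
    let rep : X → X := fun x => Quotient.out (Quotient.mk'' x : MulAction.orbitRel.Quotient H X)
    have hrep : ∀ x, ∃ g ∈ H, g (rep x) = x := by
      intro x
      have h1 : (Quotient.mk'' (rep x) : MulAction.orbitRel.Quotient H X) = Quotient.mk'' x :=
        Quotient.out_eq _
      have h2 := Quotient.exact' h1
      obtain ⟨⟨g, hg⟩, hgx⟩ := h2
      refine ⟨g⁻¹, H.inv_mem hg, ?_⟩
      have : g x = rep x := hgx
      rw [← this]
      simp
    have hrep_inv : ∀ g ∈ H, ∀ x, rep (g x) = rep x := by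
      intro g hg x
      have : (Quotient.mk'' (g x) : MulAction.orbitRel.Quotient H X) = Quotient.mk'' x :=
        Quotient.sound' ⟨⟨g, hg⟩, rfl⟩
      simp only [rep, this]
    have hsH : s ∈ H := Subgroup.subset_closure (Set.mem_insert _ _)
    have htH : t ∈ H := Subgroup.subset_closure (Set.mem_insert_of_mem _ rfl)
    -- the second sum vanishes
    have h2 : ∑ x, (Pi.single (rep x) (e x) : X → k) = 0 := by
      funext y
      rw [Finset.sum_apply]
      have hν := h (fun x => if rep x = y then 1 else 0)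
        (by funext x; simp only [Function.comp_apply, hrep_inv s hsH])
        (by funext x; simp only [Function.comp_apply, hrep_inv t htH])
      rw [Pi.zero_apply, ← hν]
      unfold dotProduct
      refine Finset.sum_congr rfl fun x _ => ?_
      rw [Pi.single_apply]
      show (if y = rep x then e x else 0) = (if rep x = y then (1 : k) else 0) * e x
      by_cases hxy : rep x = y
      · rw [if_pos hxy.symm, if_pos hxy, one_mul]
      · rw [if_neg (fun h' => hxy h'.symm), if_neg hxy, zero_mul]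
    have h1 : e = ∑ x, ((Pi.single x (e x) : X → k) - Pi.single (rep x) (e x)) := by
      rw [Finset.sum_sub_distrib, h2, sub_zero, Finset.univ_sum_single]
    rw [h1]
    refine Submodule.sum_mem _ fun x _ => ?_
    obtain ⟨g, hg, hgx⟩ := hrep x
    have := single_sub_single_mem_sup k s t hg (rep x) (e x)
    rw [hgx] at this
    have h3 := Submodule.neg_mem _ this
    rw [neg_sub] at h3
    exact h3

end ring

section field

variable (k : Type*) [Field k]

/-- **(D1)** the invariants of `H` have dimension the number of orbits. -/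
theorem finrank_Inv (H : Subgroup (Equiv.Perm X)) : finrank k (Inv k H) = orb H := by
  classical
  let _ : Fintype (MulAction.orbitRel.Quotient H X) := Fintype.ofFinite _
  -- the map `f ↦ f ∘ mk`
  let Ψ : (MulAction.orbitRel.Quotient H X → k) →ₗ[k] (X → k) :=
    LinearMap.funLeft k k (Quotient.mk'' : X → MulAction.orbitRel.Quotient H X)
  have hinj : Function.Injective Ψ :=
    LinearMap.funLeft_injective_of_surjective k k _ Quotient.mk''_surjective
  have hrange : LinearMap.range Ψ = Inv k H := by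
    ext m
    constructor
    · rintro ⟨f, rfl⟩ h hh
      ext x
      show f (Quotient.mk'' (h x)) = f (Quotient.mk'' x)
      congr 1
      apply Quotient.sound'
      exact ⟨⟨h, hh⟩, rfl⟩
    · intro hm
      refine ⟨Quotient.lift m ?_, ?_⟩
      · rintro x y ⟨⟨h, hh⟩, rfl⟩
        exact congrFun (hm h hh) y
      · ext x
        rfl
  rw [← hrange, LinearMap.finrank_range_of_inj hinj, Module.finrank_fintype_fun_eq_card, orb,
    Nat.card_eq_fintype_card]


/-- alias of `finrank_Inv` under the name announced in the claim row. -/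
theorem finrank_inv (H : Subgroup (Equiv.Perm X)) : finrank k (Inv k H) = orb H :=
  finrank_Inv k H

/-- rank–nullity for `Dop`. -/
theorem finrank_range_Dop (g : Equiv.Perm X) :
    finrank k (LinearMap.range (Dop k g)) + orb (Subgroup.zpowers g) = Fintype.card X := by
  have h := LinearMap.finrank_range_add_finrank_ker (Dop k g)
  rw [ker_Dop, finrank_Inv, Module.finrank_fintype_fun_eq_card] at h
  exact h

/-- the dot product as a bilinear form. -/
noncomputable def dotB : LinearMap.BilinForm k (X → k) := dotProductBilin k k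

lemma dotB_apply (v w : X → k) : dotB k v w = v ⬝ᵥ w := rfl

lemma dotB_ker : LinearMap.ker (dotB k : LinearMap.BilinForm k (X → k)) = ⊥ := by
  rw [LinearMap.ker_eq_bot']
  intro v hv
  apply dotProduct_eq_zero
  intro w
  have := LinearMap.congr_fun hv w
  exact this

lemma mem_orthogonal_range_Dop (g : Equiv.Perm X) (ν : X → k) :
    ν ∈ (dotB k).orthogonal (LinearMap.range (Dop k g)) ↔ ν ∘ g = ν := by
  rw [LinearMap.BilinForm.mem_orthogonal_iff]
  constructor
  · intro h
    rw [← comp_inv_eq_iff, ← sub_eq_zero]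
    apply dotProduct_eq_zero
    intro m
    have h1 := h (Dop k g m) ⟨m, rfl⟩
    rw [dotB_apply, Dop_apply, sub_dotProduct, comp_dotProduct] at h1
    rw [dotProduct_comm, dotProduct_sub]
    exact h1
  · rintro h _ ⟨m, rfl⟩
    rw [dotB_apply, Dop_apply, sub_dotProduct, comp_dotProduct,
      (comp_inv_eq_iff k g ν).2 h, sub_self]

lemma orthogonal_sup_range (s t : Equiv.Perm X) :
    (dotB k).orthogonal (LinearMap.range (Dop k s) ⊔ LinearMap.range (Dop k t)) =
      Inv k (Subgroup.closure {s, t}) := by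
  ext ν
  rw [mem_Inv_closure, ← mem_orthogonal_range_Dop, ← mem_orthogonal_range_Dop]
  constructor
  · intro h
    exact ⟨fun n hn => h n (Submodule.mem_sup_left hn), fun n hn => h n (Submodule.mem_sup_right hn)⟩
  · rintro ⟨h1, h2⟩ n hn
    obtain ⟨a, ha, b, hb, rfl⟩ := Submodule.mem_sup.1 hn
    have e1 := h1 a ha
    have e2 := h2 b hb
    rw [map_add, LinearMap.add_apply, e1, e2, add_zero]

/-- the sum of the two ranges has codimension the number of orbits of `⟨s, t⟩`. -/
theorem finrank_sup_range (s t : Equiv.Perm X) :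
    finrank k ↥(LinearMap.range (Dop k s) ⊔ LinearMap.range (Dop k t)) +
      orb (Subgroup.closure {s, t}) = Fintype.card X := by
  have h := LinearMap.BilinForm.finrank_add_finrank_orthogonal' (B := dotB k)
    (LinearMap.range (Dop k s) ⊔ LinearMap.range (Dop k t))
  rw [dotB_ker, inf_bot_eq, finrank_bot, add_zero, orthogonal_sup_range, finrank_Inv,
    Module.finrank_fintype_fun_eq_card] at h
  exact h

/-- `W = {w | w ∈ (s - 1) M ∩ (t - 1) M}`. -/
noncomputable def Wsub (s t : Equiv.Perm X) : Submodule k (X → k) :=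
  LinearMap.range (Dop k s) ⊓ LinearMap.range (Dop k t)

omit [Fintype X] in
lemma mem_Wsub {s t : Equiv.Perm X} {w : X → k} :
    w ∈ Wsub k s t ↔ (∃ m1 : X → k, w = m1 ∘ s - m1) ∧ (∃ m2 : X → k, w = m2 ∘ t - m2) := by
  unfold Wsub
  rw [Submodule.mem_inf, LinearMap.mem_range, LinearMap.mem_range]
  constructor
  · rintro ⟨⟨m1, h1⟩, ⟨m2, h2⟩⟩
    exact ⟨⟨m1, h1.symm⟩, ⟨m2, h2.symm⟩⟩
  · rintro ⟨⟨m1, h1⟩, ⟨m2, h2⟩⟩
    exact ⟨⟨m1, h1.symm⟩, ⟨m2, h2.symm⟩⟩

/-- **(D2)** the dimension of `W`, over any field. -/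
theorem finrank_Wsub (s t : Equiv.Perm X) :
    finrank k (Wsub k s t) + orb (Subgroup.zpowers s) + orb (Subgroup.zpowers t) =
      Fintype.card X + orb (Subgroup.closure {s, t}) := by
  have h1 := Submodule.finrank_sup_add_finrank_inf_eq (LinearMap.range (Dop k s))
    (LinearMap.range (Dop k t))
  have h2 := finrank_sup_range k s t
  have h3 := finrank_range_Dop k s
  have h4 := finrank_range_Dop k t
  unfold Wsub
  omega

/-- `E = {n | n ∘ s = n ∘ t}`. -/
noncomputable def Esub (s t : Equiv.Perm X) : Submodule k (X → k) :=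
  LinearMap.ker (LinearMap.funLeft k k s - LinearMap.funLeft k k t)

omit [Fintype X] in
lemma mem_Esub {s t : Equiv.Perm X} {n : X → k} : n ∈ Esub k s t ↔ n ∘ s = n ∘ t := by
  unfold Esub
  rw [LinearMap.mem_ker, LinearMap.sub_apply, sub_eq_zero]
  exact Iff.rfl

omit [Fintype X] in
lemma Esub_eq_Inv (s t : Equiv.Perm X) : Esub k s t = Inv k (Subgroup.zpowers (t * s⁻¹)) := by
  ext n
  rw [mem_Esub, mem_Inv_zpowers]
  constructor
  · intro h
    funext x
    have := congrFun h (s⁻¹ x)
    simp only [Function.comp_apply, Equiv.Perm.coe_inv, Equiv.apply_symm_apply, Equiv.Perm.coe_mul] at this ⊢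
    exact this.symm
  · intro h
    funext x
    have := congrFun h (s x)
    simp only [Function.comp_apply, Equiv.Perm.coe_inv, Equiv.symm_apply_apply, Equiv.Perm.coe_mul] at this ⊢
    exact this.symm

/-- `Rad = (s - 1) E`. -/
noncomputable def Radsub (s t : Equiv.Perm X) : Submodule k (X → k) :=
  (Esub k s t).map (Dop k s)

omit [Fintype X] in
lemma mem_Radsub {s t : Equiv.Perm X} {w : X → k} :
    w ∈ Radsub k s t ↔ ∃ n : X → k, n ∘ s = n ∘ t ∧ w = n ∘ s - n := by
  unfold Radsub
  rw [Submodule.mem_map]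
  constructor
  · rintro ⟨n, hn, rfl⟩
    exact ⟨n, (mem_Esub k).1 hn, rfl⟩
  · rintro ⟨n, hn, rfl⟩
    exact ⟨n, (mem_Esub k).2 hn, rfl⟩

omit [Fintype X] in
lemma Radsub_le (s t : Equiv.Perm X) : Radsub k s t ≤ Wsub k s t := by
  intro w hw
  obtain ⟨n, hn, rfl⟩ := (mem_Radsub k).1 hw
  exact (mem_Wsub k).2 ⟨⟨n, rfl⟩, ⟨n, by rw [hn]⟩⟩

/-- **(D3)** the dimension of the radical, over any field. -/
theorem finrank_Radsub (s t : Equiv.Perm X) :
    finrank k (Radsub k s t) + orb (Subgroup.closure {s, t}) =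
      orb (Subgroup.zpowers (t * s⁻¹)) := by
  have hle : Inv k (Subgroup.closure {s, t}) ≤ Esub k s t := by
    intro n hn
    rw [mem_Inv_closure] at hn
    rw [mem_Esub, hn.1, hn.2]
  have h := LinearMap.finrank_range_add_finrank_ker ((Dop k s).domRestrict (Esub k s t))
  have hker : LinearMap.ker ((Dop k s).domRestrict (Esub k s t)) =
      (Inv k (Subgroup.closure {s, t})).comap (Esub k s t).subtype := by
    ext ⟨n, hn⟩
    rw [LinearMap.mem_ker, LinearMap.domRestrict_apply, Submodule.mem_comap, Submodule.subtype_apply,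
      mem_Inv_closure, Dop_apply, sub_eq_zero]
    rw [mem_Esub] at hn
    constructor
    · intro h1
      exact ⟨h1, by rw [← hn, h1]⟩
    · intro h1
      exact h1.1
  have hE : finrank k (Esub k s t) = orb (Subgroup.zpowers (t * s⁻¹)) := by
    rw [Esub_eq_Inv, finrank_Inv]
  rw [LinearMap.range_domRestrict, hker,
    LinearEquiv.finrank_eq (Submodule.comapSubtypeEquivOfLe hle), finrank_Inv, hE] at h
  exact h

end field

/-- **(D4)** additive form: `dim W - dim Rad` does not depend on the field. -/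
theorem finrank_quot_eq (k k' : Type*) [Field k] [Field k'] (s t : Equiv.Perm X) :
    finrank k (Wsub k s t) + finrank k' (Radsub k' s t) =
      finrank k' (Wsub k' s t) + finrank k (Radsub k s t) := by
  have h1 := finrank_Wsub k s t
  have h2 := finrank_Wsub k' s t
  have h3 := finrank_Radsub k s t
  have h4 := finrank_Radsub k' s t
  omega

/-- the dimension of `W / Rad` over a field. -/
theorem finrank_quot_add (k : Type*) [Field k] (s t : Equiv.Perm X) :
    finrank k (↥(Wsub k s t) ⧸ (Radsub k s t).comap (Wsub k s t).subtype) +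
      finrank k (Radsub k s t) = finrank k (Wsub k s t) := by
  have h := Submodule.finrank_quotient_add_finrank ((Radsub k s t).comap (Wsub k s t).subtype)
  rw [LinearEquiv.finrank_eq (Submodule.comapSubtypeEquivOfLe (Radsub_le k s t))] at h
  exact h

/-- **(D4)** quotient form: `dim (W / Rad)` does not depend on the field. -/
theorem finrank_quot_eq' (k k' : Type*) [Field k] [Field k'] (s t : Equiv.Perm X) :
    finrank k (↥(Wsub k s t) ⧸ (Radsub k s t).comap (Wsub k s t).subtype) =
      finrank k' (↥(Wsub k' s t) ⧸ (Radsub k' s t).comap (Wsub k' s t).subtype) := by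
  have h1 := finrank_quot_add k s t
  have h2 := finrank_quot_add k' s t
  have h3 := finrank_quot_eq k k' s t
  omega

/-- the dimension of `W / Rad` in terms of orbit counts. -/
theorem finrank_quot (k : Type*) [Field k] (s t : Equiv.Perm X) :
    finrank k (↥(Wsub k s t) ⧸ (Radsub k s t).comap (Wsub k s t).subtype) +
        orb (Subgroup.zpowers s) + orb (Subgroup.zpowers t) + orb (Subgroup.zpowers (t * s⁻¹)) =
      Fintype.card X + 2 * orb (Subgroup.closure {s, t}) := by
  have h1 := finrank_quot_add k s t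
  have h2 := finrank_Wsub k s t
  have h3 := finrank_Radsub k s t
  omega

/-! ### Integral lifting: `W_ℤ → W_{ℤ/n}` is onto -/

/-- **[LIFT]** (pair form) a pair `(a1, a2)` over `ZMod n` with `(s - 1) a1 = (t - 1) a2` lifts to
a pair over `ℤ` with the same property. -/
theorem exists_int_lift (n : ℕ) [NeZero n] (s t : Equiv.Perm X) (a1 a2 : X → ZMod n)
    (h : a1 ∘ s - a1 = a2 ∘ t - a2) :
    ∃ m1 m2 : X → ℤ, m1 ∘ s - m1 = m2 ∘ t - m2 ∧
      (∀ x, ((m1 x : ℤ) : ZMod n) = a1 x) ∧ (∀ x, ((m2 x : ℤ) : ZMod n) = a2 x) := by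
  have hn : (n : ℤ) ≠ 0 := by exact_mod_cast NeZero.ne n
  -- arbitrary lifts
  choose l1 hl1 using fun x => ZMod.intCast_surjective (a1 x)
  choose l2 hl2 using fun x => ZMod.intCast_surjective (a2 x)
  -- the defect is divisible by `n`
  have hd : ∀ x, (n : ℤ) ∣ (l1 (s x) - l1 x) - (l2 (t x) - l2 x) := by
    intro x
    rw [← ZMod.intCast_zmod_eq_zero_iff_dvd]
    have hx := congrFun h x
    simp only [Pi.sub_apply, Function.comp_apply] at hx
    push_cast
    rw [hl1, hl1, hl2, hl2, hx, sub_self]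
  choose e he using hd
  -- the quotient of the defect lies in `(s - 1) M + (t - 1) M`
  have hmem : e ∈ LinearMap.range (Dop ℤ s) ⊔ LinearMap.range (Dop ℤ t) := by
    rw [mem_sup_range_iff]
    intro ν hs ht
    have h1 : ν ⬝ᵥ (Dop ℤ s l1 - Dop ℤ t l2) = 0 := by
      rw [dotProduct_sub, dotProduct_Dop_of_inv ℤ s ν l1 hs, dotProduct_Dop_of_inv ℤ t ν l2 ht,
        sub_zero]
    have h2 : Dop ℤ s l1 - Dop ℤ t l2 = (n : ℤ) • e := by
      funext x
      simp only [Dop_apply, Pi.sub_apply, Function.comp_apply, Pi.smul_apply, smul_eq_mul]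
      exact he x
    rw [h2, dotProduct_smul, smul_eq_mul] at h1
    exact (mul_eq_zero.1 h1).resolve_left hn
  obtain ⟨_, ⟨a, rfl⟩, _, ⟨b, rfl⟩, hab⟩ := Submodule.mem_sup.1 hmem
  refine ⟨l1 - (n : ℤ) • a, l2 + (n : ℤ) • b, ?_, ?_, ?_⟩
  · funext x
    have h3 := congrFun hab x
    have h4 := he x
    simp only [Dop_apply, Pi.add_apply, Pi.sub_apply, Function.comp_apply] at h3
    simp only [Pi.sub_apply, Pi.add_apply, Function.comp_apply, Pi.smul_apply, smul_eq_mul]
    rw [← h3] at h4
    linarith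
  · intro x
    simp only [Pi.sub_apply, Pi.smul_apply, smul_eq_mul]
    push_cast
    rw [hl1, ZMod.natCast_self, zero_mul, sub_zero]
  · intro x
    simp only [Pi.add_apply, Pi.smul_apply, smul_eq_mul]
    push_cast
    rw [hl2, ZMod.natCast_self, zero_mul, add_zero]

/-- **[LIFT]** (element form) every element of `W` over `ZMod n` is the reduction of an element
of `W` over `ℤ`. -/
theorem exists_int_lift_W (n : ℕ) [NeZero n] (s t : Equiv.Perm X) (w : X → ZMod n)
    (h1 : ∃ a1 : X → ZMod n, w = a1 ∘ s - a1) (h2 : ∃ a2 : X → ZMod n, w = a2 ∘ t - a2) :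
    ∃ v : X → ℤ, (∃ m1 : X → ℤ, v = m1 ∘ s - m1) ∧ (∃ m2 : X → ℤ, v = m2 ∘ t - m2) ∧
      ∀ x, ((v x : ℤ) : ZMod n) = w x := by
  obtain ⟨a1, rfl⟩ := h1
  obtain ⟨a2, h2⟩ := h2
  obtain ⟨m1, m2, hm, hc1, -⟩ := exists_int_lift n s t a1 a2 h2
  refine ⟨m1 ∘ s - m1, ⟨m1, rfl⟩, ⟨m2, hm⟩, ?_⟩
  intro x
  simp only [Pi.sub_apply, Function.comp_apply]
  push_cast
  rw [hc1, hc1]

end Fermat.Agent.P7.PdDim
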