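import Fermat.Agent.P7.PdDim
import Fermat.Agent.P7.PdModel

/-!
# P7 [PD-DIM] in the vocabulary of `PdModel`

`PdModel.W (transl k s) (transl k t)` is `PdDim.Wsub k s t`, its radical is `PdDim.Radsub k s t`;
dimension formulas and the integral lifting statement restated for `PdModel.W`.
-/

set_option autoImplicit false

namespace Fermat.Agent.P7.PdDimModel

open Fermat.Agent.P7 Module

variable {X : Type*} [Fintype X]

section field

variable (k : Type*) [Field k] (s t : Equiv.Perm X)

omit [Fintype X] in
/-- the space `W` of `PdModel` for two permutations is `PdDim.Wsub`. -/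
theorem W_transl : PdModel.W (PdModel.transl k s) (PdModel.transl k t) = PdDim.Wsub k s t := rfl

omit [Fintype X] in
/-- the radical of `PdModel` (`B_rad`, `B_rad_left`, `B_rad_right`) is `PdDim.Radsub`. -/
theorem mem_Radsub_iff {w : X → k} :
    w ∈ PdDim.Radsub k s t ↔
      ∃ n : X → k, PdModel.transl k s n = PdModel.transl k t n ∧ w = PdModel.transl k s n - n :=
  PdDim.mem_Radsub k

/-- dimension of `PdModel.W`, over any field. -/
theorem finrank_W :
    finrank k (PdModel.W (PdModel.transl k s) (PdModel.transl k t)) +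
        PdDim.orb (Subgroup.zpowers s) + PdDim.orb (Subgroup.zpowers t) =
      Fintype.card X + PdDim.orb (Subgroup.closure {s, t}) :=
  PdDim.finrank_Wsub k s t

end field

/-- every element of `PdModel.W` over `ZMod n` is the reduction of an integral function
`v = (s - 1) m1 = (t - 1) m2`. -/
theorem exists_int_lift_W (n : ℕ) [Fact n.Prime] (s t : Equiv.Perm X) (w : X → ZMod n)
    (hw : w ∈ PdModel.W (PdModel.transl (ZMod n) s) (PdModel.transl (ZMod n) t)) :
    ∃ v : X → ℤ, (∃ m1 : X → ℤ, v = m1 ∘ s - m1) ∧ (∃ m2 : X → ℤ, v = m2 ∘ t - m2) ∧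
      ∀ x, ((v x : ℤ) : ZMod n) = w x := by
  have : NeZero n := ⟨(Fact.out : n.Prime).ne_zero⟩
  rw [W_transl, PdDim.mem_Wsub] at hw
  exact PdDim.exists_int_lift_W n s t w hw.1 hw.2

end Fermat.Agent.P7.PdDimModel
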