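/-
P7 [PD-FIN] (helper93): normalised lifts vanish on the elements of finite order.

Let `Γ ≤ SL(2, ℤ)` contain `-1`, and let `u : Γ → k` be a lift of the cup product of two additive
maps `φ, ψ : Γ → k` (sign (L): `u (a * b) = u a + u b - φ a * ψ b`), where `φ`, `ψ` vanish on the
elements of finite order.  If `u` vanishes at the stabiliser generators `pkap Γ (S * T) x` of the
`S * T`-fixed cosets then `u` vanishes on every element of finite order (`2` invertible; this is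
the only place where the prime `3` costs anything: `3 u(ε) = 0` does not give `u(ε) = 0`).

Also: the converse (the normalisation conditions are vanishing conditions at finite order
elements), stability of the normalisation under automorphisms of `Γ`, and the `Shap.Kills` form.
-/
import Mathlib
import Fermat.Agent.P7.Shap
import Fermat.Agent.P7.EllConj
import Fermat.Agent.P7.PdExist

set_option autoImplicit false

namespace Fermat.Agent.P7.PdFin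

open MatrixGroups ModularGroup
open Fermat.Agent.S21.PermDim Fermat.Agent.P7.Shap

/-! ### Formal properties of lifts -/

section Lift

variable {Γ : Type*} [Group Γ] {k : Type*} [CommRing k] {φ ψ u : Γ → k}

theorem add_map_one (hφ : ∀ a b, φ (a * b) = φ a + φ b) : φ 1 = 0 := by
  have h := hφ 1 1
  rw [mul_one] at h
  exact left_eq_add.mp h

theorem add_map_inv (hφ : ∀ a b, φ (a * b) = φ a + φ b) (a : Γ) : φ a⁻¹ = -φ a := by
  have h := hφ a a⁻¹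
  rw [mul_inv_cancel, add_map_one hφ] at h
  exact eq_neg_of_add_eq_zero_right h.symm

theorem lift_one (hφ : ∀ a b, φ (a * b) = φ a + φ b)
    (hu : ∀ a b, u (a * b) = u a + u b - φ a * ψ b) : u 1 = 0 := by
  have h := hu 1 1
  rw [mul_one, add_map_one hφ, zero_mul, sub_zero] at h
  exact left_eq_add.mp h

theorem lift_inv (hφ : ∀ a b, φ (a * b) = φ a + φ b) (hψ : ∀ a b, ψ (a * b) = ψ a + ψ b)
    (hu : ∀ a b, u (a * b) = u a + u b - φ a * ψ b) (a : Γ) :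
    u a⁻¹ = -u a - φ a * ψ a := by
  have h := hu a a⁻¹
  rw [mul_inv_cancel, lift_one hφ hu, add_map_inv hψ] at h
  linear_combination -h

/-- A lift is invariant under conjugation at the elements killed by `φ` and `ψ`. -/
theorem lift_conj (hφ : ∀ a b, φ (a * b) = φ a + φ b) (hψ : ∀ a b, ψ (a * b) = ψ a + ψ b)
    (hu : ∀ a b, u (a * b) = u a + u b - φ a * ψ b) (a γ : Γ) (h1 : φ γ = 0) (h2 : ψ γ = 0) :
    u (a⁻¹ * γ * a) = u γ := by
  have e1 := hu (a⁻¹ * γ) a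
  have e2 := hu a⁻¹ γ
  have e3 := hφ a⁻¹ γ
  have e4 := add_map_inv hφ a
  have e5 := lift_inv hφ hψ hu a
  rw [e1, e2, e3, e4, e5, h1, h2]
  ring

/-- The lift relation is stable under composition with an endomorphism. -/
theorem lift_comp {Γ' : Type*} [Group Γ'] (θ : Γ' →* Γ)
    (hu : ∀ a b, u (a * b) = u a + u b - φ a * ψ b) (a b : Γ') :
    (u ∘ θ) (a * b) = (u ∘ θ) a + (u ∘ θ) b - (φ ∘ θ) a * (ψ ∘ θ) b := by
  simp only [Function.comp_apply, map_mul, hu]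

end Lift

/-! ### Elements of finite order of `Γ ≤ SL(2, ℤ)` -/

section Main

variable (Γ : Subgroup SL(2, ℤ))

theorem neg_one_mul_self (hneg : (-1 : SL(2, ℤ)) ∈ Γ) :
    (⟨-1, hneg⟩ : ↥Γ) * ⟨-1, hneg⟩ = 1 := by
  apply Subtype.ext
  rw [Subgroup.coe_mul, Subgroup.coe_mk, Subgroup.coe_one, neg_mul_neg, one_mul]

theorem isOfFinOrder_neg_one (hneg : (-1 : SL(2, ℤ)) ∈ Γ) : IsOfFinOrder (⟨-1, hneg⟩ : ↥Γ) :=
  isOfFinOrder_iff_pow_eq_one.mpr ⟨2, by norm_num, by rw [pow_two, neg_one_mul_self]⟩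

theorem R_pow_six : ((S * T : SL(2, ℤ))) ^ 6 = 1 := by
  have h : ((S * T : SL(2, ℤ))) ^ 6 = ((S * T) ^ 3) ^ 2 := by rw [← pow_mul]
  rw [h, EllConj.R_pow_three, pow_two, neg_mul_neg, one_mul]

theorem S_pow_four : (S : SL(2, ℤ)) ^ 4 = 1 := by
  have h : (S : SL(2, ℤ)) ^ 4 = (S * S) * (S * S) := by
    rw [← pow_two, ← pow_two, ← pow_mul]
  rw [h, Fermat.Agent.P7.PdExt.S_mul_S, neg_mul_neg, one_mul]

theorem isOfFinOrder_coe_iff (x : ↥Γ) : IsOfFinOrder (x : SL(2, ℤ)) ↔ IsOfFinOrder x :=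
  Submonoid.isOfFinOrder_coe (H := Γ.toSubmonoid) (x := x)

/-- A `Γ`-element conjugate in `SL(2, ℤ)` to an element of finite order has finite order. -/
theorem isOfFinOrder_conj_mk {t : SL(2, ℤ)} (ht : IsOfFinOrder t) (g : SL(2, ℤ))
    (h : g⁻¹ * t * g ∈ Γ) : IsOfFinOrder (⟨g⁻¹ * t * g, h⟩ : ↥Γ) := by
  rw [← isOfFinOrder_coe_iff]
  obtain ⟨n, hn, hpow⟩ := isOfFinOrder_iff_pow_eq_one.mp ht
  refine isOfFinOrder_iff_pow_eq_one.mpr ⟨n, hn, ?_⟩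
  show (g⁻¹ * t * g) ^ n = 1
  have e : g⁻¹ * t * g = g⁻¹ * t * g⁻¹⁻¹ := by rw [inv_inv]
  rw [e, conj_pow, hpow, mul_one, inv_inv, inv_mul_cancel]

theorem isOfFinOrder_S : IsOfFinOrder (S : SL(2, ℤ)) :=
  isOfFinOrder_iff_pow_eq_one.mpr ⟨4, by norm_num, S_pow_four⟩

theorem isOfFinOrder_R : IsOfFinOrder (S * T : SL(2, ℤ)) :=
  isOfFinOrder_iff_pow_eq_one.mpr ⟨6, by norm_num, R_pow_six⟩

/-- The stabiliser generator at a coset fixed by an element of finite order has finite order. -/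
theorem isOfFinOrder_pkap {t : SL(2, ℤ)} (ht : IsOfFinOrder t) (x : SL(2, ℤ) ⧸ Γ)
    (hx : t • x = x) : IsOfFinOrder (pkap Γ t x) := by
  rw [← isOfFinOrder_coe_iff, coe_pkap_of_fixed Γ hx]
  obtain ⟨n, hn, hpow⟩ := isOfFinOrder_iff_pow_eq_one.mp ht
  refine isOfFinOrder_iff_pow_eq_one.mpr ⟨n, hn, ?_⟩
  have e : (psec Γ x)⁻¹ * t * psec Γ x = (psec Γ x)⁻¹ * t * (psec Γ x)⁻¹⁻¹ := by rw [inv_inv]
  rw [e, conj_pow, hpow, mul_one, inv_inv, inv_mul_cancel]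

/-- **[PD-FIN]** A lift normalised at the `S`- and `S * T`-fixed cosets vanishes on all elements
of finite order. -/
theorem lift_eq_zero_of_finOrder (hneg : (-1 : SL(2, ℤ)) ∈ Γ) {k : Type*} [Field k]
    (h2 : (2 : k) ≠ 0) (φ ψ u : ↥Γ → k) (hφ : ∀ a b, φ (a * b) = φ a + φ b)
    (hψ : ∀ a b, ψ (a * b) = ψ a + ψ b) (hu : ∀ a b, u (a * b) = u a + u b - φ a * ψ b)
    (hφfin : ∀ γ : ↥Γ, IsOfFinOrder γ → φ γ = 0) (hψfin : ∀ γ : ↥Γ, IsOfFinOrder γ → ψ γ = 0)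
    (huS : ∀ x : SL(2, ℤ) ⧸ Γ, S • x = x → u (pkap Γ S x) = 0)
    (huR : ∀ x : SL(2, ℤ) ⧸ Γ, (S * T) • x = x → u (pkap Γ (S * T) x) = 0) :
    ∀ γ : ↥Γ, IsOfFinOrder γ → u γ = 0 := by
  intro γ hγ
  have _ := huS
  have hu1 : u 1 = 0 := lift_one hφ hu
  have hmfin := isOfFinOrder_neg_one Γ hneg
  have hum : u ⟨-1, hneg⟩ = 0 := by
    have h := hu ⟨-1, hneg⟩ ⟨-1, hneg⟩
    rw [neg_one_mul_self, hu1, hφfin _ hmfin, zero_mul, sub_zero] at h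
    have h' : (2 : k) * u ⟨-1, hneg⟩ = 0 := by rw [two_mul]; exact h.symm
    exact (mul_eq_zero.mp h').resolve_left h2
  have hγ' : IsOfFinOrder (γ : SL(2, ℤ)) := (isOfFinOrder_coe_iff Γ γ).mpr hγ
  rcases EllConj.finOrder_trace_cases (γ : SL(2, ℤ)) hγ' with h1 | h1 | h1 | h1
  · have e : γ = 1 := Subtype.ext h1
    rw [e, hu1]
  · have e : γ = ⟨-1, hneg⟩ := Subtype.ext h1
    rw [e, hum]
  · have hsq := EllConj.sq_eq_neg_one_of_trace_zero (γ : SL(2, ℤ)) h1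
    have e : γ * γ = ⟨-1, hneg⟩ := Subtype.ext (by rw [Subgroup.coe_mul, ← pow_two, hsq])
    have h := hu γ γ
    rw [e, hum, hφfin γ hγ, zero_mul, sub_zero] at h
    have h' : (2 : k) * u γ = 0 := by rw [two_mul]; exact h.symm
    exact (mul_eq_zero.mp h').resolve_left h2
  · obtain ⟨g, hg⟩ := EllConj.exists_conj_pm (γ : SL(2, ℤ)) h1
    -- the conjugate `g R g⁻¹` lies in `Γ`
    have hmem : g⁻¹⁻¹ * (S * T) * g⁻¹ ∈ Γ := by
      rw [inv_inv]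
      rcases hg with hg | hg | hg | hg
      · rw [← hg]; exact γ.2
      · have e : g * (S * T) * g⁻¹ = (γ : SL(2, ℤ))⁻¹ := by rw [hg]; group
        rw [e]; exact Γ.inv_mem γ.2
      · have e : g * (S * T) * g⁻¹ = -1 * (γ : SL(2, ℤ)) := by rw [hg, neg_one_mul, neg_neg]
        rw [e]; exact Γ.mul_mem hneg γ.2
      · have e : g * (S * T) * g⁻¹ = (-1 * (γ : SL(2, ℤ)))⁻¹ := by
          rw [hg, neg_one_mul, neg_neg]; group
        rw [e]; exact Γ.inv_mem (Γ.mul_mem hneg γ.2)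
    have hρfin : IsOfFinOrder (⟨g⁻¹⁻¹ * (S * T) * g⁻¹, hmem⟩ : ↥Γ) :=
      isOfFinOrder_conj_mk Γ isOfFinOrder_R g⁻¹ hmem
    obtain ⟨a, ha⟩ := exists_conj_pkap Γ (S * T) g⁻¹ hmem
    have hfix := (smul_coe_eq_self_iff Γ (S * T) g⁻¹).mpr hmem
    have h0 := huR _ hfix
    rw [ha, lift_conj hφ hψ hu a _ (hφfin _ hρfin) (hψfin _ hρfin)] at h0
    have hφρ := hφfin _ hρfin
    have hψρ := hψfin _ hρfin
    have hinv := lift_inv hφ hψ hu (⟨g⁻¹⁻¹ * (S * T) * g⁻¹, hmem⟩ : ↥Γ)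
    rw [h0, hφρ, zero_mul, sub_zero, neg_zero] at hinv
    rcases hg with hg | hg | hg | hg
    · have e : γ = ⟨g⁻¹⁻¹ * (S * T) * g⁻¹, hmem⟩ := Subtype.ext (by
        show (γ : SL(2, ℤ)) = g⁻¹⁻¹ * (S * T) * g⁻¹
        rw [hg, inv_inv])
      rw [e, h0]
    · have e : γ = (⟨g⁻¹⁻¹ * (S * T) * g⁻¹, hmem⟩ : ↥Γ)⁻¹ := Subtype.ext (by
        show (γ : SL(2, ℤ)) = (g⁻¹⁻¹ * (S * T) * g⁻¹)⁻¹
        rw [hg]; group)
      rw [e, hinv]
    · have e : γ = ⟨-1, hneg⟩ * (⟨g⁻¹⁻¹ * (S * T) * g⁻¹, hmem⟩ : ↥Γ) := Subtype.ext (by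
        show (γ : SL(2, ℤ)) = -1 * (g⁻¹⁻¹ * (S * T) * g⁻¹)
        rw [hg, inv_inv, neg_one_mul])
      rw [e, hu, hum, h0, hψρ, mul_zero, sub_zero, add_zero]
    · have e : γ = ⟨-1, hneg⟩ * (⟨g⁻¹⁻¹ * (S * T) * g⁻¹, hmem⟩ : ↥Γ)⁻¹ := Subtype.ext (by
        show (γ : SL(2, ℤ)) = -1 * (g⁻¹⁻¹ * (S * T) * g⁻¹)⁻¹
        rw [hg, neg_one_mul]
        congr 1
        group)
      rw [e, hu, hum, hinv, add_map_inv hψ, hψρ, neg_zero, mul_zero, sub_zero, add_zero]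

/-! ### The `Shap.Kills` form (no hypothesis on the characteristic) -/

/-- A function killing the `Γ`-conjugates of the powers of `S` and of `S * T` vanishes on every
element of finite order of `Γ` (any function, any coefficients). -/
theorem eq_zero_of_finOrder_of_kills {A : Type*} [AddCommGroup A] (u : ↥Γ → A)
    (hS : Kills u S) (hR : Kills u (S * T)) : ∀ γ : ↥Γ, IsOfFinOrder γ → u γ = 0 := by
  intro γ hγ
  have hγ' : IsOfFinOrder (γ : SL(2, ℤ)) := (isOfFinOrder_coe_iff Γ γ).mpr hγ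
  have key : ∀ t : SL(2, ℤ), IsOfFinOrder t → Kills u t →
      (∃ (g : SL(2, ℤ)) (j : ℤ), (γ : SL(2, ℤ)) = g * t ^ j * g⁻¹) → u γ = 0 := by
    rintro t ht hk ⟨g, j, hg⟩
    have hz : t ^ j ∈ Subgroup.zpowers t := ⟨j, rfl⟩
    obtain ⟨e, he⟩ := (Submonoid.mem_powers_iff _ _).mp (ht.mem_powers_iff_mem_zpowers.mpr hz)
    have hval : (γ : SL(2, ℤ)) = g⁻¹⁻¹ * t ^ e * g⁻¹ := by rw [hg, he, inv_inv]
    have hmem : g⁻¹⁻¹ * t ^ e * g⁻¹ ∈ Γ := by rw [← hval]; exact γ.2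
    have e' : γ = ⟨g⁻¹⁻¹ * t ^ e * g⁻¹, hmem⟩ := Subtype.ext hval
    rw [e']
    exact hk g⁻¹ e hmem
  rcases EllConj.finOrder_conj (γ : SL(2, ℤ)) hγ' with h | h
  · exact key S isOfFinOrder_S hS h
  · exact key (S * T) isOfFinOrder_R hR h

/-- Conversely a function vanishing on the elements of finite order kills the conjugates of the
powers of any element of finite order. -/
theorem kills_of_vanish_finOrder {A : Type*} [AddCommGroup A] (u : ↥Γ → A)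
    (h : ∀ γ : ↥Γ, IsOfFinOrder γ → u γ = 0) {t : SL(2, ℤ)} (ht : IsOfFinOrder t) :
    Kills u t := fun g _ hmem => h _ (isOfFinOrder_conj_mk Γ ht.pow g hmem)

/-- The normalisation conditions of a lift are vanishing conditions at elements of finite
order. -/
theorem normalised_of_finOrder (hneg : (-1 : SL(2, ℤ)) ∈ Γ) {A : Type*} [Zero A] (u : ↥Γ → A)
    (h : ∀ γ : ↥Γ, IsOfFinOrder γ → u γ = 0) :
    u ⟨-1, hneg⟩ = 0 ∧ (∀ x : SL(2, ℤ) ⧸ Γ, S • x = x → u (pkap Γ S x) = 0) ∧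
      (∀ x : SL(2, ℤ) ⧸ Γ, (S * T) • x = x → u (pkap Γ (S * T) x) = 0) :=
  ⟨h _ (isOfFinOrder_neg_one Γ hneg), fun x hx => h _ (isOfFinOrder_pkap Γ isOfFinOrder_S x hx),
    fun x hx => h _ (isOfFinOrder_pkap Γ isOfFinOrder_R x hx)⟩

/-- Vanishing on the elements of finite order is stable under composition with homomorphisms. -/
theorem comp_eq_zero_of_finOrder {Γ₁ Γ₂ : Type*} [Group Γ₁] [Group Γ₂] {A : Type*} [Zero A]
    (θ : Γ₁ →* Γ₂) (u : Γ₂ → A) (h : ∀ γ : Γ₂, IsOfFinOrder γ → u γ = 0) :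
    ∀ γ : Γ₁, IsOfFinOrder γ → (u ∘ θ) γ = 0 := fun _ hγ => h _ (θ.isOfFinOrder hγ)

/-- **Normalised lifts are stable under homomorphisms** (`Γ'`, `Γ` subgroups of `SL(2, ℤ)`
containing `-1`, `θ : Γ' →* Γ`): if `u` is a normalised lift of `(φ, ψ)` on `Γ` then `u ∘ θ` is a
normalised lift of `(φ ∘ θ, ψ ∘ θ)` on `Γ'`. -/
theorem lift_comp_normalised (hneg : (-1 : SL(2, ℤ)) ∈ Γ) (Γ' : Subgroup SL(2, ℤ))
    (hneg' : (-1 : SL(2, ℤ)) ∈ Γ') {k : Type*} [Field k] (h2 : (2 : k) ≠ 0) (φ ψ u : ↥Γ → k)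
    (hφ : ∀ a b, φ (a * b) = φ a + φ b) (hψ : ∀ a b, ψ (a * b) = ψ a + ψ b)
    (hu : ∀ a b, u (a * b) = u a + u b - φ a * ψ b)
    (hφfin : ∀ γ : ↥Γ, IsOfFinOrder γ → φ γ = 0) (hψfin : ∀ γ : ↥Γ, IsOfFinOrder γ → ψ γ = 0)
    (huS : ∀ x : SL(2, ℤ) ⧸ Γ, S • x = x → u (pkap Γ S x) = 0)
    (huR : ∀ x : SL(2, ℤ) ⧸ Γ, (S * T) • x = x → u (pkap Γ (S * T) x) = 0) (θ : ↥Γ' →* ↥Γ) :
    (∀ a b, (u ∘ θ) (a * b) = (u ∘ θ) a + (u ∘ θ) b - (φ ∘ θ) a * (ψ ∘ θ) b) ∧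
      (u ∘ θ) ⟨-1, hneg'⟩ = 0 ∧
      (∀ x : SL(2, ℤ) ⧸ Γ', S • x = x → (u ∘ θ) (pkap Γ' S x) = 0) ∧
      (∀ x : SL(2, ℤ) ⧸ Γ', (S * T) • x = x → (u ∘ θ) (pkap Γ' (S * T) x) = 0) := by
  have h := lift_eq_zero_of_finOrder Γ hneg h2 φ ψ u hφ hψ hu hφfin hψfin huS huR
  exact ⟨lift_comp θ hu, normalised_of_finOrder Γ' hneg' (u ∘ θ) (comp_eq_zero_of_finOrder θ u h)⟩

/-! ### Existence of lifts vanishing on the elements of finite order -/

/-- **Existence, characteristic free** (from `PdExist.exists_lift_prim`): a lift vanishing on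
every element of finite order, over any commutative ring. -/
theorem exists_lift_finOrder_prim (hneg : (-1 : SL(2, ℤ)) ∈ Γ) {k : Type*} [CommRing k]
    (φ ψ : ↥Γ → k) (hφ : IsAdd φ) (hψ : IsAdd ψ) (m1 m2 m1' m2' : SL(2, ℤ) ⧸ Γ → k)
    (h1 : ∀ x, φ (pkap Γ S x) = m1 (S • x) - m1 x)
    (h2 : ∀ x, φ (pkap Γ (S * T) x) = m2 ((S * T) • x) - m2 x)
    (h1' : ∀ x, ψ (pkap Γ S x) = m1' (S • x) - m1' x)
    (h2' : ∀ x, ψ (pkap Γ (S * T) x) = m2' ((S * T) • x) - m2' x) :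
    ∃ u : ↥Γ → k, (∀ a b, u (a * b) = u a + u b - φ a * ψ b) ∧
      ∀ γ : ↥Γ, IsOfFinOrder γ → u γ = 0 := by
  obtain ⟨u, hu, kS, kR⟩ :=
    Fermat.Agent.P7.PdExist.exists_lift_prim Γ hneg φ ψ hφ hψ m1 m2 m1' m2' h1 h2 h1' h2'
  exact ⟨u, hu, eq_zero_of_finOrder_of_kills Γ u kS kR⟩

/-- **Existence, characteristic free** (from `PdExist.exists_lift_kills`, finite index). -/
theorem exists_lift_finOrder [Finite (SL(2, ℤ) ⧸ Γ)] (hneg : (-1 : SL(2, ℤ)) ∈ Γ) {k : Type*}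
    [CommRing k] (φ ψ : ↥Γ → k) (hφ : IsAdd φ) (hψ : IsAdd ψ) (kφS : Kills φ S)
    (kφR : Kills φ (S * T)) (kψS : Kills ψ S) (kψR : Kills ψ (S * T)) :
    ∃ u : ↥Γ → k, (∀ a b, u (a * b) = u a + u b - φ a * ψ b) ∧
      ∀ γ : ↥Γ, IsOfFinOrder γ → u γ = 0 := by
  obtain ⟨u, hu, kS, kR⟩ :=
    Fermat.Agent.P7.PdExist.exists_lift_kills Γ hneg φ ψ hφ hψ kφS kφR kψS kψR
  exact ⟨u, hu, eq_zero_of_finOrder_of_kills Γ u kS kR⟩

/-- The corollary for the output of `PdExist.exists_lift`: any such normalised lift vanishes on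
the elements of finite order. -/
theorem exists_lift_output_finOrder (hneg : (-1 : SL(2, ℤ)) ∈ Γ) {k : Type*} [Field k]
    (h2 : (2 : k) ≠ 0) (φ ψ u : ↥Γ → k) (hφ : ∀ a b, φ (a * b) = φ a + φ b)
    (hψ : ∀ a b, ψ (a * b) = ψ a + ψ b)
    (hφfin : ∀ γ : ↥Γ, IsOfFinOrder γ → φ γ = 0) (hψfin : ∀ γ : ↥Γ, IsOfFinOrder γ → ψ γ = 0)
    (h : (∀ a b, u (a * b) = u a + u b - φ a * ψ b) ∧ u ⟨-1, hneg⟩ = 0 ∧
      (∀ x : SL(2, ℤ) ⧸ Γ, S • x = x → u (pkap Γ S x) = 0) ∧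
      (∀ x : SL(2, ℤ) ⧸ Γ, (S * T) • x = x → u (pkap Γ (S * T) x) = 0)) :
    ∀ γ : ↥Γ, IsOfFinOrder γ → u γ = 0 :=
  lift_eq_zero_of_finOrder Γ hneg h2 φ ψ u hφ hψ h.1 hφfin hψfin h.2.2.1 h.2.2.2

/-- Additive maps killing the conjugates of powers of `S` and `S * T` vanish on the elements of
finite order (the hypotheses `hφfin`, `hψfin` above in `Shap.Kills` form). -/
theorem add_eq_zero_of_finOrder {A : Type*} [AddCommGroup A] (φ : ↥Γ → A) (kS : Kills φ S)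
    (kR : Kills φ (S * T)) : ∀ γ : ↥Γ, IsOfFinOrder γ → φ γ = 0 :=
  eq_zero_of_finOrder_of_kills Γ φ kS kR

end Main

end Fermat.Agent.P7.PdFin
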