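import Mathlib
import Fermat.Agent.S21.Shapiro
import Fermat.Agent.Lib.ParabolicLift
import Fermat.Agent.P5.Per.Action

/-!
# `L_N / p = V(Γ₀(N))`: integral parabolic lifts at every level (P7, leaf [PD-LIFT])

* `finrank_add_orbits_le_field`: the characteristic-free version of
  `Fermat.Agent.S21.PermDim.finrank_add_orbits_le`.  For a field `k`, a group `G` generated by
  `S`, `T`, a subgroup `Γ` of finite index and a subspace `P` of `Hom(Γ, k)` whose members vanish
  on every conjugate of a power of `S`, `T`, `S * T` lying in `Γ`,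
  `dim P + #(X/⟨S⟩) + #(X/⟨T⟩) + #(X/⟨S*T⟩) ≤ #X + 2`, `X = G ⧸ Γ`.
  (The proof in characteristic zero divides by orbit lengths and uses positivity; here the orbit
  sums of the Shapiro cocycle are shown to make it a coboundary on each cyclic subgroup, and the
  count is done with a nondegenerate pairing.)
* `VK N k`: the homomorphisms `Γ₀(N) → k` killing the elements of trace `0`, `±1`, `±2`
  (elliptic elements, parabolic elements, `-1`); `finrank_VK_le`, `finrank_VK`:
  `dim_k VK N k = 2 g(X₀(N))` for every field `k`.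
* `exists_lat_lift`: every element of `VK N (ZMod p)` is the reduction of an element of the
  parabolic lattice `Per.Lat N` (every level `N`, every prime `p`).
-/

set_option autoImplicit false

namespace Fermat.Agent.P7.PdLift

open MulAction Fermat.Agent.S21.PermDim

/-! ### Linear algebra -/

section LA

variable {k E E' F : Type*} [Field k] [AddCommGroup E] [Module k E] [AddCommGroup E']
  [Module k E'] [AddCommGroup F] [Module k F]

/-- If `v ↦ (A v, a v)` is injective then the kernel of `A` is at most a line. -/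
theorem finrank_le_range_add_one [FiniteDimensional k F] (A : E →ₗ[k] F) (a : E →ₗ[k] k)
    (hA : ∀ v, A v = 0 → a v = 0 → v = 0) :
    FiniteDimensional k E ∧ Module.finrank k E ≤ Module.finrank k (LinearMap.range A) + 1 := by
  have hinj : Function.Injective (A.prod a) := by
    rw [← LinearMap.ker_eq_bot, LinearMap.ker_eq_bot']
    intro v hv
    have h1 : A v = 0 := congrArg Prod.fst hv
    have h2 : a v = 0 := congrArg Prod.snd hv
    exact hA v h1 h2
  have hfin : FiniteDimensional k E := FiniteDimensional.of_injective (A.prod a) hinj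
  refine ⟨hfin, ?_⟩
  have hk : Module.finrank k (LinearMap.ker A) ≤ 1 := by
    have hinj' : Function.Injective (a.domRestrict (LinearMap.ker A)) := by
      rw [← LinearMap.ker_eq_bot, LinearMap.ker_eq_bot']
      rintro ⟨v, hv⟩ h
      have h2 : a v = 0 := h
      exact Subtype.ext (hA v hv h2)
    have := LinearMap.finrank_le_finrank_of_injective hinj'
    rwa [Module.finrank_self] at this
  have := LinearMap.finrank_range_add_finrank_ker A
  omega

/-- Two ranges which are orthogonal for a (left) nondegenerate pairing have dimensions adding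
up to at most the dimension of the space. -/
theorem finrank_range_add_le [FiniteDimensional k F] (A : E →ₗ[k] F) (B : E' →ₗ[k] F)
    (D : F →ₗ[k] F →ₗ[k] k) (hD : ∀ y, (∀ y', D y y' = 0) → y = 0)
    (horth : ∀ v w, D (A v) (B w) = 0) :
    Module.finrank k (LinearMap.range A) + Module.finrank k (LinearMap.range B)
      ≤ Module.finrank k F := by
  have hmem : ∀ y : LinearMap.range A, D (y : F) ∈ (LinearMap.range B).dualAnnihilator := by
    rintro ⟨y, v, rfl⟩
    rw [Submodule.mem_dualAnnihilator]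
    rintro _ ⟨w, rfl⟩
    exact horth v w
  let Dr : LinearMap.range A →ₗ[k] (LinearMap.range B).dualAnnihilator :=
    (D.domRestrict (LinearMap.range A)).codRestrict _ hmem
  have hinj : Function.Injective Dr := by
    refine (injective_iff_map_eq_zero Dr).mpr ?_
    rintro ⟨y, hy⟩ h
    have h1 : D y = 0 := congrArg Subtype.val h
    exact Subtype.ext (hD y (fun y' => by rw [h1]; rfl))
  have h1 := LinearMap.finrank_le_finrank_of_injective hinj
  have h2 := Subspace.finrank_add_finrank_dualAnnihilator_eq (LinearMap.range B)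
  omega

/-- The counting lemma: two linear maps into `F`, each injective up to one linear functional,
with orthogonal ranges. -/
theorem finrank_add_le_of_orth [FiniteDimensional k F] (A : E →ₗ[k] F) (a : E →ₗ[k] k)
    (B : E' →ₗ[k] F) (b : E' →ₗ[k] k)
    (hA : ∀ v, A v = 0 → a v = 0 → v = 0) (hB : ∀ w, B w = 0 → b w = 0 → w = 0)
    (D : F →ₗ[k] F →ₗ[k] k) (hD : ∀ y, (∀ y', D y y' = 0) → y = 0)
    (horth : ∀ v w, D (A v) (B w) = 0) :
    FiniteDimensional k E ∧ FiniteDimensional k E' ∧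
      Module.finrank k E + Module.finrank k E' ≤ Module.finrank k F + 2 := by
  obtain ⟨hE, h1⟩ := finrank_le_range_add_one A a hA
  obtain ⟨hE', h2⟩ := finrank_le_range_add_one B b hB
  have h3 := finrank_range_add_le A B D hD horth
  exact ⟨hE, hE', by omega⟩

/-- The dot product on pairs of functions. -/
noncomputable def dotForm (k : Type*) [Field k] (X : Type*) [Fintype X] :
    ((X → k) × (X → k)) →ₗ[k] ((X → k) × (X → k)) →ₗ[k] k :=
  LinearMap.mk₂ k (fun y y' => ∑ x, y.1 x * y'.1 x + ∑ x, y.2 x * y'.2 x)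
    (fun y₁ y₂ y' => by
      simp only [Prod.fst_add, Prod.snd_add, Pi.add_apply, add_mul, Finset.sum_add_distrib]
      ring)
    (fun c y y' => by
      simp only [Prod.smul_fst, Prod.smul_snd, Pi.smul_apply, smul_eq_mul, mul_assoc,
        ← Finset.mul_sum]
      ring)
    (fun y y₁ y₂ => by
      simp only [Prod.fst_add, Prod.snd_add, Pi.add_apply, mul_add, Finset.sum_add_distrib]
      ring)
    (fun c y y' => by
      simp only [Prod.smul_fst, Prod.smul_snd, Pi.smul_apply, smul_eq_mul, mul_left_comm,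
        ← Finset.mul_sum]
      ring)

theorem dotForm_apply (k : Type*) [Field k] (X : Type*) [Fintype X]
    (y y' : (X → k) × (X → k)) :
    dotForm k X y y' = ∑ x, y.1 x * y'.1 x + ∑ x, y.2 x * y'.2 x := rfl

theorem dotForm_nondeg (k : Type*) [Field k] (X : Type*) [Fintype X]
    (y : (X → k) × (X → k)) (h : ∀ y', dotForm k X y y' = 0) : y = 0 := by
  classical
  refine Prod.ext ?_ ?_
  · funext x
    have h1 := h (Pi.single x 1, 0)
    rw [dotForm_apply] at h1
    simpa [Pi.single_apply] using h1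
  · funext x
    have h1 := h (0, Pi.single x 1)
    rw [dotForm_apply] at h1
    simpa [Pi.single_apply] using h1

/-- A linearly independent family of `s` vectors in a space of dimension at most `s` spans.
(Stated for an `AddCommMonoid` so that it applies to submodules without instance search.) -/
theorem exists_eq_sum_of_card {k V : Type*} [Field k] [AddCommMonoid V] [Module k V]
    [Module.Finite k V] {s : ℕ} (w : Fin s → V) (hli : LinearIndependent k w)
    (hcard : Module.finrank k V ≤ s) (x : V) : ∃ c : Fin s → k, x = ∑ i, c i • w i := by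
  let _ : AddCommGroup V := Module.addCommMonoidToAddCommGroup k
  have h1 : Fintype.card (Fin s) = Module.finrank k V := by
    have h := hli.fintype_card_le_finrank
    rw [Fintype.card_fin] at h ⊢
    omega
  have htop := hli.span_eq_top_of_card_eq_finrank' h1
  have hmem : x ∈ Submodule.span k (Set.range w) := by
    rw [htop]
    trivial
  obtain ⟨c, hc⟩ := (Submodule.mem_span_range_iff_exists_fun k).mp hmem
  exact ⟨c, hc.symm⟩

end LA

/-! ### The Shapiro cocycle over a field -/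

section Cocycle

variable {k : Type*} [Field k] {G : Type*} [Group G] {Γ : Subgroup G}

/-- The twisted Shapiro cocycle with values in the field `k`. -/
noncomputable def qc (φ : Additive Γ →+ k) (m : G ⧸ Γ → k) (g : G) (x : G ⧸ Γ) : k :=
  φ (Additive.ofMul (pkap Γ g x)) + m (g • x) - m x

theorem qc_mul (φ : Additive Γ →+ k) (m : G ⧸ Γ → k) (g h : G) (x : G ⧸ Γ) :
    qc φ m (g * h) x = qc φ m g (h • x) + qc φ m h x := by
  simp only [qc, pkap_mul, ofMul_mul, map_add, mul_smul]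
  ring

theorem qc_one (φ : Additive Γ →+ k) (m : G ⧸ Γ → k) (x : G ⧸ Γ) : qc φ m 1 x = 0 := by
  have h := qc_mul φ m 1 1 x
  rw [mul_one, one_smul] at h
  linear_combination -h

theorem qc_inv (φ : Additive Γ →+ k) (m : G ⧸ Γ → k) (g : G) (x : G ⧸ Γ) :
    qc φ m g⁻¹ x = - qc φ m g (g⁻¹ • x) := by
  have h := qc_mul φ m g g⁻¹ x
  rw [mul_inv_cancel, qc_one] at h
  linear_combination -h

/-- On a finite coset space, an integer power of `g` acts as a natural power. -/
theorem exists_pow_smul_eq [Finite (G ⧸ Γ)] (g : G) (z : ℤ) :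
    ∃ n : ℕ, ∀ y : G ⧸ Γ, g ^ z • y = g ^ n • y := by
  classical
  have hfin : IsOfFinOrder (MulAction.toPermHom G (G ⧸ Γ) g) := isOfFinOrder_of_finite _
  have hpos : 0 < orderOf (MulAction.toPermHom G (G ⧸ Γ) g) := hfin.orderOf_pos
  have h1 : ∀ (j : ℤ) (y : G ⧸ Γ), g ^ j • y = ((MulAction.toPermHom G (G ⧸ Γ) g) ^ j) y := by
    intro j y
    rw [← map_zpow]
    rfl
  have hnn : 0 ≤ z % (orderOf (MulAction.toPermHom G (G ⧸ Γ) g) : ℤ) :=
    Int.emod_nonneg z (by exact_mod_cast hpos.ne')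
  refine ⟨(z % (orderOf (MulAction.toPermHom G (G ⧸ Γ) g) : ℤ)).toNat, fun y => ?_⟩
  rw [h1, ← zpow_natCast g, h1, Int.toNat_of_nonneg hnn, zpow_mod_orderOf]

/-- If the cocycle vanishes at the stabilising powers of `g`, then its value at `g` is a
coboundary for the cyclic group generated by `g`. -/
theorem exists_cobound [Finite (G ⧸ Γ)] (φ : Additive Γ →+ k) (m : G ⧸ Γ → k) (g : G)
    (h0 : ∀ (x : G ⧸ Γ) (n : ℕ), g ^ n • x = x → qc φ m (g ^ n) x = 0) :
    ∃ μ : G ⧸ Γ → k, ∀ x, qc φ m g x = μ (g • x) - μ x := by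
  classical
  have hW : ∀ (a d : ℕ) (y : G ⧸ Γ), g ^ (a + d) • y = g ^ a • y →
      qc φ m (g ^ (a + d)) y = qc φ m (g ^ a) y := by
    intro a d y h
    have h1 : g ^ d • (g ^ a • y) = g ^ a • y := by
      rw [← mul_smul, ← pow_add, add_comm d a]
      exact h
    have h2 := h0 (g ^ a • y) d h1
    rw [add_comm a d, pow_add, qc_mul, h2, zero_add]
  have hW' : ∀ (a b : ℕ) (y : G ⧸ Γ), g ^ a • y = g ^ b • y →
      qc φ m (g ^ a) y = qc φ m (g ^ b) y := by
    intro a b y h
    rcases le_total a b with hab | hab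
    · obtain ⟨d, rfl⟩ := Nat.exists_eq_add_of_le hab
      exact (hW a d y h.symm).symm
    · obtain ⟨d, rfl⟩ := Nat.exists_eq_add_of_le hab
      exact hW b d y h
  have hrep : ∀ x : G ⧸ Γ, ∃ n : ℕ, g ^ n • (Quotient.out (opi Γ g x)) = x := by
    intro x
    have h1 : opi Γ g (Quotient.out (opi Γ g x)) = opi Γ g x := Quotient.out_eq' _
    have h2 : (Quotient.out (opi Γ g x) : G ⧸ Γ) ∈ MulAction.orbit (Subgroup.zpowers g) x :=
      Quotient.eq''.mp h1
    obtain ⟨⟨h, hh⟩, hx⟩ := h2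
    obtain ⟨z, rfl⟩ := Subgroup.mem_zpowers_iff.mp hh
    have hx' : g ^ z • x = Quotient.out (opi Γ g x) := hx
    obtain ⟨n, hn⟩ := exists_pow_smul_eq (Γ := Γ) g (-z)
    refine ⟨n, ?_⟩
    rw [← hn, ← hx', ← mul_smul, ← zpow_add, neg_add_cancel, zpow_zero, one_smul]
  choose nn hnn using hrep
  refine ⟨fun x => qc φ m (g ^ nn x) (Quotient.out (opi Γ g x)), fun x => ?_⟩
  have hr : Quotient.out (opi Γ g (g • x)) = Quotient.out (opi Γ g x) := by rw [opi_smul]
  have e0 := hnn (g • x)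
  rw [hr] at e0
  have e1 : g ^ nn (g • x) • Quotient.out (opi Γ g x)
      = g ^ (nn x + 1) • Quotient.out (opi Γ g x) := by
    rw [e0, pow_succ', mul_smul, hnn x]
  show qc φ m g x = qc φ m (g ^ nn (g • x)) (Quotient.out (opi Γ g (g • x)))
    - qc φ m (g ^ nn x) (Quotient.out (opi Γ g x))
  rw [hr, hW' _ _ _ e1, pow_succ', qc_mul, hnn x]
  ring

/-- Orthogonality of the cocycle value at `g` to the `g`-invariant functions. -/
theorem sum_qc_mul_eq_zero [Fintype (G ⧸ Γ)] (φ : Additive Γ →+ k) (m : G ⧸ Γ → k) (g : G)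
    (h0 : ∀ (x : G ⧸ Γ) (n : ℕ), g ^ n • x = x → qc φ m (g ^ n) x = 0)
    (f : G ⧸ Γ → k) (hf : ∀ x, f (g • x) = f x) :
    ∑ x, qc φ m g x * f x = 0 := by
  obtain ⟨μ, hμ⟩ := exists_cobound φ m g h0
  have h1 : ∑ x, μ (g • x) * f (g • x) = ∑ x, μ x * f x :=
    Equiv.sum_comp (MulAction.toPerm g) (fun x => μ x * f x)
  calc ∑ x, qc φ m g x * f x = ∑ x, (μ (g • x) * f (g • x) - μ x * f x) := by
        refine Finset.sum_congr rfl fun x _ => ?_
        rw [hμ, hf]
        ring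
    _ = 0 := by rw [Finset.sum_sub_distrib, h1, sub_self]

/-- The members of `P` vanish on every conjugate of a power of `g` lying in `Γ`. -/
def Kills (P : Submodule k (Additive Γ →+ k)) (g : G) : Prop :=
  ∀ φ ∈ P, ∀ (u : G) (n : ℕ) (h : u⁻¹ * g ^ n * u ∈ Γ),
    φ (Additive.ofMul (⟨u⁻¹ * g ^ n * u, h⟩ : Γ)) = 0

theorem Kills.qc_eq_zero {P : Submodule k (Additive Γ →+ k)} {g : G} (hK : Kills P g)
    {φ : Additive Γ →+ k} (hφ : φ ∈ P) (m : G ⧸ Γ → k) (x : G ⧸ Γ) (n : ℕ)
    (hx : g ^ n • x = x) : qc φ m (g ^ n) x = 0 := by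
  have hmem : (psec Γ x)⁻¹ * g ^ n * psec Γ x ∈ Γ := by
    have := pkap_mem Γ (g ^ n) x
    rwa [hx] at this
  have hk : pkap Γ (g ^ n) x = ⟨(psec Γ x)⁻¹ * g ^ n * psec Γ x, hmem⟩ := by
    apply Subtype.ext
    simp only [pkap, hx]
  rw [qc, hk, hK φ hφ _ n hmem, hx]
  ring

/-- The map `(φ, m) ↦ (c(S), c(T))`. -/
noncomputable def phiMap (P : Submodule k (Additive Γ →+ k)) (S T : G) :
    (P × (G ⧸ Γ → k)) →ₗ[k] ((G ⧸ Γ → k) × (G ⧸ Γ → k)) where
  toFun v := (fun x => qc (v.1 : Additive Γ →+ k) v.2 S x,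
    fun x => qc (v.1 : Additive Γ →+ k) v.2 T x)
  map_add' v w := by
    refine Prod.ext ?_ ?_
    · funext x
      simp only [qc, Prod.fst_add, Prod.snd_add, Submodule.coe_add, AddMonoidHom.add_apply,
        Pi.add_apply]
      ring
    · funext x
      simp only [qc, Prod.fst_add, Prod.snd_add, Submodule.coe_add, AddMonoidHom.add_apply,
        Pi.add_apply]
      ring
  map_smul' c v := by
    refine Prod.ext ?_ ?_
    · funext x
      simp only [qc, Prod.smul_fst, Prod.smul_snd, Submodule.coe_smul, AddMonoidHom.smul_apply,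
        Pi.smul_apply, smul_eq_mul, RingHom.id_apply]
      ring
    · funext x
      simp only [qc, Prod.smul_fst, Prod.smul_snd, Submodule.coe_smul, AddMonoidHom.smul_apply,
        Pi.smul_apply, smul_eq_mul, RingHom.id_apply]
      ring

/-- The map from the invariant functions. -/
noncomputable def psiMap (k : Type*) [Field k] (Γ : Subgroup G) (S T : G) :
    ((OQ Γ S → k) × (OQ Γ T → k) × (OQ Γ (S * T) → k)) →ₗ[k]
      ((G ⧸ Γ → k) × (G ⧸ Γ → k)) where
  toFun w := (fun x => w.1 (opi Γ S x) + w.2.2 (opi Γ (S * T) (T⁻¹ • x)),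
    fun x => w.2.1 (opi Γ T x) + w.2.2 (opi Γ (S * T) x))
  map_add' v w := by
    refine Prod.ext ?_ ?_
    · funext x
      simp only [Prod.fst_add, Prod.snd_add, Pi.add_apply]
      ring
    · funext x
      simp only [Prod.fst_add, Prod.snd_add, Pi.add_apply]
      ring
  map_smul' c v := by
    refine Prod.ext ?_ ?_
    · funext x
      simp only [Prod.smul_fst, Prod.smul_snd, Pi.smul_apply, smul_eq_mul, RingHom.id_apply]
      ring
    · funext x
      simp only [Prod.smul_fst, Prod.smul_snd, Pi.smul_apply, smul_eq_mul, RingHom.id_apply]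
      ring

/-- A cocycle vanishing at the generators, normalised at the base point, is zero. -/
theorem eq_zero_of_qc_eq_zero (S T : G) (hgen : Subgroup.closure {S, T} = ⊤)
    (φ : Additive Γ →+ k) (m : G ⧸ Γ → k) (hS : ∀ x, qc φ m S x = 0)
    (hT : ∀ x, qc φ m T x = 0) (h3 : m (((1 : G) : G ⧸ Γ)) = 0) : φ = 0 ∧ m = 0 := by
  have hC : ∀ g : G, ∀ x, qc φ m g x = 0 := by
    intro g
    have hg : g ∈ Subgroup.closure {S, T} := by rw [hgen]; trivial
    induction hg using Subgroup.closure_induction with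
    | mem y hy =>
      rcases hy with rfl | hy
      · exact hS
      · rw [Set.mem_singleton_iff] at hy; subst hy; exact hT
    | one => exact qc_one φ m
    | mul y z _ _ hy hz => intro x; rw [qc_mul, hy, hz, add_zero]
    | inv y _ hy => intro x; rw [qc_inv, hy, neg_zero]
  have hφ0 : φ = 0 := by
    refine AddMonoidHom.ext fun a => ?_
    obtain ⟨γ, rfl⟩ : ∃ γ : Γ, Additive.ofMul γ = a := ⟨Additive.toMul a, rfl⟩
    have h := hC (γ : G) (((1 : G) : G ⧸ Γ))
    rw [qc, Fermat.Agent.Lib.ParabolicLift.base_smul,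
      Fermat.Agent.Lib.ParabolicLift.hom_pkap_base] at h
    simpa using h
  have hm0 : m = 0 := by
    funext x
    induction x using QuotientGroup.induction_on with
    | H g =>
      have h := hC g (((1 : G) : G ⧸ Γ))
      rw [qc, hφ0] at h
      simp only [AddMonoidHom.zero_apply, zero_add] at h
      rw [smul_coe_eq, mul_one, h3, sub_zero] at h
      exact h
  exact ⟨hφ0, hm0⟩

/-- Invariant functions whose combination vanishes, normalised at the base point, are zero. -/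
theorem eq_zero_of_psi_eq_zero (S T : G) (hgen : Subgroup.closure {S, T} = ⊤)
    (lam : OQ Γ S → k) (mu : OQ Γ T → k) (nu : OQ Γ (S * T) → k)
    (hz1 : ∀ x, lam (opi Γ S x) + nu (opi Γ (S * T) (T⁻¹ • x)) = 0)
    (hz2 : ∀ x, mu (opi Γ T x) + nu (opi Γ (S * T) x) = 0)
    (h4 : nu (opi Γ (S * T) (((1 : G) : G ⧸ Γ))) = 0) : lam = 0 ∧ mu = 0 ∧ nu = 0 := by
  have hnT : ∀ x, nu (opi Γ (S * T) (T • x)) = nu (opi Γ (S * T) x) := by
    intro x
    have a := hz2 (T • x)
    have b := hz2 x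
    rw [opi_smul] at a
    linear_combination a - b
  have hnR : ∀ x, nu (opi Γ (S * T) ((S * T) • x)) = nu (opi Γ (S * T) x) := by
    intro x; rw [opi_smul]
  have hnS : ∀ x, nu (opi Γ (S * T) (S • x)) = nu (opi Γ (S * T) x) := by
    intro x
    have a := hnR (T⁻¹ • x)
    have b := hnT (T⁻¹ • x)
    rw [mul_smul, smul_inv_smul] at a
    rw [smul_inv_smul] at b
    rw [a, b]
  have hnG : ∀ g : G, ∀ x, nu (opi Γ (S * T) (g • x)) = nu (opi Γ (S * T) x) := by
    intro g
    have hg : g ∈ Subgroup.closure {S, T} := by rw [hgen]; trivial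
    induction hg using Subgroup.closure_induction with
    | mem y hy =>
      rcases hy with rfl | hy
      · exact hnS
      · rw [Set.mem_singleton_iff] at hy; subst hy; exact hnT
    | one => intro x; rw [one_smul]
    | mul y z _ _ hy hz => intro x; rw [mul_smul, hy, hz]
    | inv y _ hy => intro x; rw [← hy (y⁻¹ • x), smul_inv_smul]
  have hnu0 : nu = 0 := by
    funext q
    obtain ⟨x, rfl⟩ := opi_surjective Γ (S * T) q
    induction x using QuotientGroup.induction_on with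
    | H g =>
      have h := hnG g (((1 : G) : G ⧸ Γ))
      rw [smul_coe_eq, mul_one, h4] at h
      simpa using h
  have hmu0 : mu = 0 := by
    funext q
    obtain ⟨x, rfl⟩ := opi_surjective Γ T q
    have h := hz2 x
    rw [hnu0] at h
    simpa using h
  have hlam0 : lam = 0 := by
    funext q
    obtain ⟨x, rfl⟩ := opi_surjective Γ S q
    have h := hz1 x
    rw [hnu0] at h
    simpa using h
  exact ⟨hlam0, hmu0, hnu0⟩

/-- The ranges of `phiMap` and `psiMap` are orthogonal. -/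
theorem dotForm_phiMap_psiMap [Fintype (G ⧸ Γ)] (P : Submodule k (Additive Γ →+ k)) (S T : G)
    (hS : Kills P S) (hT : Kills P T) (hR : Kills P (S * T))
    (v : P × (G ⧸ Γ → k)) (w : (OQ Γ S → k) × (OQ Γ T → k) × (OQ Γ (S * T) → k)) :
    dotForm k (G ⧸ Γ) (phiMap P S T v) (psiMap k Γ S T w) = 0 := by
  obtain ⟨⟨φ, hφ⟩, m⟩ := v
  obtain ⟨lam', mu', nu'⟩ := w
  have e1 := sum_qc_mul_eq_zero φ m S (fun x n hx => hS.qc_eq_zero hφ m x n hx)
    (fun x => lam' (opi Γ S x)) (fun x => by rw [opi_smul])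
  have e2 := sum_qc_mul_eq_zero φ m T (fun x n hx => hT.qc_eq_zero hφ m x n hx)
    (fun x => mu' (opi Γ T x)) (fun x => by rw [opi_smul])
  have e3 := sum_qc_mul_eq_zero φ m (S * T) (fun x n hx => hR.qc_eq_zero hφ m x n hx)
    (fun x => nu' (opi Γ (S * T) x)) (fun x => by rw [opi_smul])
  have e4 : ∑ x, qc φ m S x * nu' (opi Γ (S * T) (T⁻¹ • x))
      = ∑ x, qc φ m S (T • x) * nu' (opi Γ (S * T) x) := by
    rw [← Equiv.sum_comp (MulAction.toPerm T)
      (fun x => qc φ m S x * nu' (opi Γ (S * T) (T⁻¹ • x)))]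
    refine Finset.sum_congr rfl fun x _ => ?_
    simp [MulAction.toPerm_apply]
  have e3' : ∑ x, qc φ m S (T • x) * nu' (opi Γ (S * T) x)
      + ∑ x, qc φ m T x * nu' (opi Γ (S * T) x) = 0 := by
    rw [← Finset.sum_add_distrib, ← e3]
    refine Finset.sum_congr rfl fun x _ => ?_
    rw [qc_mul]; ring
  rw [dotForm_apply]
  show ∑ x, qc φ m S x * (lam' (opi Γ S x) + nu' (opi Γ (S * T) (T⁻¹ • x)))
    + ∑ x, qc φ m T x * (mu' (opi Γ T x) + nu' (opi Γ (S * T) x)) = 0
  simp only [mul_add, Finset.sum_add_distrib]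
  rw [e4]
  linear_combination e1 + e2 + e3'

/-- Evaluation of the second component at the base point. -/
noncomputable def evA (P : Submodule k (Additive Γ →+ k)) : (P × (G ⧸ Γ → k)) →ₗ[k] k :=
  (LinearMap.proj (((1 : G) : G ⧸ Γ))) ∘ₗ (LinearMap.snd k P (G ⧸ Γ → k))

/-- Evaluation of the third component at the orbit of the base point. -/
noncomputable def evB (k : Type*) [Field k] (Γ : Subgroup G) (S T : G) :
    ((OQ Γ S → k) × (OQ Γ T → k) × (OQ Γ (S * T) → k)) →ₗ[k] k :=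
  (LinearMap.proj (opi Γ (S * T) (((1 : G) : G ⧸ Γ)))) ∘ₗ
      (LinearMap.snd k (OQ Γ T → k) (OQ Γ (S * T) → k)) ∘ₗ
      (LinearMap.snd k (OQ Γ S → k) ((OQ Γ T → k) × (OQ Γ (S * T) → k)))

theorem phiMap_inj (P : Submodule k (Additive Γ →+ k)) (S T : G)
    (hgen : Subgroup.closure {S, T} = ⊤) :
    ∀ v, phiMap P S T v = 0 → evA P v = 0 → v = 0 := by
  rintro ⟨⟨φ, hφ⟩, m⟩ hv hav
  have hv1 := congrArg Prod.fst hv
  have hv2 := congrArg Prod.snd hv
  obtain ⟨h1, h2⟩ := eq_zero_of_qc_eq_zero S T hgen φ m (fun x => congrFun hv1 x)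
    (fun x => congrFun hv2 x) hav
  subst h1 h2
  rfl

theorem psiMap_inj (S T : G) (hgen : Subgroup.closure {S, T} = ⊤) :
    ∀ w, psiMap k Γ S T w = 0 → evB k Γ S T w = 0 → w = 0 := by
  rintro ⟨lam, mu, nu⟩ hw hbw
  have hw1 := congrArg Prod.fst hw
  have hw2 := congrArg Prod.snd hw
  obtain ⟨h1, h2, h3⟩ := eq_zero_of_psi_eq_zero S T hgen lam mu nu (fun x => congrFun hw1 x)
    (fun x => congrFun hw2 x) hbw
  subst h1 h2 h3
  rfl

/-- **The characteristic-free dimension bound.** -/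
theorem finrank_add_orbits_le_field [Finite (G ⧸ Γ)] (P : Submodule k (Additive Γ →+ k))
    (S T : G) (hgen : Subgroup.closure {S, T} = ⊤)
    (hS : Kills P S) (hT : Kills P T) (hR : Kills P (S * T)) :
    Module.Finite k P ∧
      Module.finrank k P + Nat.card (OQ Γ S) + Nat.card (OQ Γ T) + Nat.card (OQ Γ (S * T))
        ≤ Nat.card (G ⧸ Γ) + 2 := by
  classical
  have : Fintype (G ⧸ Γ) := Fintype.ofFinite _
  have : Fintype (OQ Γ S) := Fintype.ofFinite _
  have : Fintype (OQ Γ T) := Fintype.ofFinite _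
  have : Fintype (OQ Γ (S * T)) := Fintype.ofFinite _
  have key := finrank_add_le_of_orth (E := P × (G ⧸ Γ → k))
    (E' := (OQ Γ S → k) × (OQ Γ T → k) × (OQ Γ (S * T) → k))
    (F := (G ⧸ Γ → k) × (G ⧸ Γ → k)) (phiMap P S T) (evA P) (psiMap k Γ S T) (evB k Γ S T)
    (phiMap_inj P S T hgen) (psiMap_inj S T hgen)
    (dotForm k (G ⧸ Γ)) (dotForm_nondeg k (G ⧸ Γ))
    (fun v w => dotForm_phiMap_psiMap P S T hS hT hR v w)
  obtain ⟨hE, -, hle⟩ := key
  have hP : Module.Finite k P :=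
    Module.Finite.of_surjective (LinearMap.fst k P (G ⧸ Γ → k)) LinearMap.fst_surjective
  refine ⟨hP, ?_⟩
  have hFree : Module.Free k P := Module.Free.of_divisionRing k P
  have e1 : Module.finrank k (P × (G ⧸ Γ → k)) = Module.finrank k P + Fintype.card (G ⧸ Γ) := by
    rw [Module.finrank_prod, Module.finrank_fintype_fun_eq_card]
  have e2 : Module.finrank k ((OQ Γ S → k) × (OQ Γ T → k) × (OQ Γ (S * T) → k))
      = Fintype.card (OQ Γ S) + (Fintype.card (OQ Γ T) + Fintype.card (OQ Γ (S * T))) := by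
    rw [Module.finrank_prod, Module.finrank_prod, Module.finrank_fintype_fun_eq_card,
      Module.finrank_fintype_fun_eq_card, Module.finrank_fintype_fun_eq_card]
  have e3 : Module.finrank k ((G ⧸ Γ → k) × (G ⧸ Γ → k))
      = Fintype.card (G ⧸ Γ) + Fintype.card (G ⧸ Γ) := by
    rw [Module.finrank_prod, Module.finrank_fintype_fun_eq_card]
  rw [e1, e2, e3] at hle
  simp only [Nat.card_eq_fintype_card]
  omega

end Cocycle

/-! ### The modular group -/

section SL2

open scoped MatrixGroups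
open CongruenceSubgroup ModularGroup ModularCurve ModularCurve.Period
open Fermat.Agent.S21 Fermat.Agent.S21.Shapiro Fermat.Agent.Lib.ParabolicLift

/-- The trace of the square of an element of `SL₂(ℤ)`. -/
theorem trace_pow_two (A : SL(2, ℤ)) :
    ((A ^ 2 : SL(2, ℤ)) : Matrix (Fin 2) (Fin 2) ℤ).trace
      = (A : Matrix (Fin 2) (Fin 2) ℤ).trace ^ 2 - 2 := by
  have hdet : (A : Matrix (Fin 2) (Fin 2) ℤ) 0 0 * A 1 1 - A 0 1 * A 1 0 = 1 := by
    have := A.det_coe
    rw [Matrix.det_fin_two] at this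
    exact this
  rw [Matrix.SpecialLinearGroup.coe_pow, pow_two, Matrix.trace_fin_two, Matrix.trace_fin_two]
  simp only [Matrix.mul_apply, Fin.sum_univ_two]
  linear_combination (-2) * hdet

/-- The trace of the cube of an element of `SL₂(ℤ)`. -/
theorem trace_pow_three (A : SL(2, ℤ)) :
    ((A ^ 3 : SL(2, ℤ)) : Matrix (Fin 2) (Fin 2) ℤ).trace
      = (A : Matrix (Fin 2) (Fin 2) ℤ).trace ^ 3 - 3 * (A : Matrix (Fin 2) (Fin 2) ℤ).trace := by
  have hdet : (A : Matrix (Fin 2) (Fin 2) ℤ) 0 0 * A 1 1 - A 0 1 * A 1 0 = 1 := by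
    have := A.det_coe
    rw [Matrix.det_fin_two] at this
    exact this
  rw [Matrix.SpecialLinearGroup.coe_pow, pow_succ, pow_two, Matrix.trace_fin_two,
    Matrix.trace_fin_two]
  simp only [Matrix.mul_apply, Fin.sum_univ_two]
  linear_combination (-3) * ((A : Matrix (Fin 2) (Fin 2) ℤ) 0 0 + A 1 1) * hdet

theorem trace_S_pow (n : ℕ) :
    ((S ^ n : SL(2, ℤ)) : Matrix (Fin 2) (Fin 2) ℤ).trace = 0 ∨
      ((S ^ n : SL(2, ℤ)) : Matrix (Fin 2) (Fin 2) ℤ).trace ^ 2 = 4 := by
  rw [← pow_mod_orderOf (S : SL(2, ℤ)) n, orderOf_S]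
  have h : n % 4 < 4 := Nat.mod_lt _ (by norm_num)
  interval_cases n % 4
  · right; decide
  · left; decide
  · right; decide
  · left; decide

theorem trace_ST_pow (n : ℕ) :
    (((S * T) ^ n : SL(2, ℤ)) : Matrix (Fin 2) (Fin 2) ℤ).trace ^ 2 = 1 ∨
      (((S * T) ^ n : SL(2, ℤ)) : Matrix (Fin 2) (Fin 2) ℤ).trace ^ 2 = 4 := by
  rw [← pow_mod_orderOf (S * T : SL(2, ℤ)) n, orderOf_ST]
  have h : n % 6 < 6 := Nat.mod_lt _ (by norm_num)
  interval_cases n % 6
  · right; decide
  · left; decide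
  · left; decide
  · right; decide
  · left; decide
  · left; decide


/-- The homomorphisms `Γ₀(N) → k` which kill the elements of trace `0`, `±1`, `±2`
(the elliptic elements, the parabolic elements and `-1`). -/
def VK (N : ℕ) (k : Type*) [Field k] : Submodule k (Additive (Gamma0 N) →+ k) where
  carrier := {χ | ∀ γ : Gamma0 N,
    (((γ : SL(2, ℤ)) : Matrix (Fin 2) (Fin 2) ℤ).trace = 0 ∨
      ((γ : SL(2, ℤ)) : Matrix (Fin 2) (Fin 2) ℤ).trace ^ 2 = 1 ∨
      ((γ : SL(2, ℤ)) : Matrix (Fin 2) (Fin 2) ℤ).trace ^ 2 = 4) → χ (Additive.ofMul γ) = 0}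
  zero_mem' := fun _ _ => rfl
  add_mem' := by
    intro φ ψ hφ hψ γ hγ
    show φ (Additive.ofMul γ) + ψ (Additive.ofMul γ) = 0
    rw [hφ γ hγ, hψ γ hγ, add_zero]
  smul_mem' := by
    intro c φ hφ γ hγ
    show c • φ (Additive.ofMul γ) = 0
    rw [hφ γ hγ, smul_zero]

theorem mem_VK {N : ℕ} {k : Type*} [Field k] {χ : Additive (Gamma0 N) →+ k} :
    χ ∈ VK N k ↔ ∀ γ : Gamma0 N,
      (((γ : SL(2, ℤ)) : Matrix (Fin 2) (Fin 2) ℤ).trace = 0 ∨
        ((γ : SL(2, ℤ)) : Matrix (Fin 2) (Fin 2) ℤ).trace ^ 2 = 1 ∨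
        ((γ : SL(2, ℤ)) : Matrix (Fin 2) (Fin 2) ℤ).trace ^ 2 = 4) →
      χ (Additive.ofMul γ) = 0 := Iff.rfl

theorem mem_VK_of {N : ℕ} {k : Type*} [Field k] {χ : Additive (Gamma0 N) →+ k}
    (h0 : ∀ γ : Gamma0 N, ((γ : SL(2, ℤ)) : Matrix (Fin 2) (Fin 2) ℤ).trace = 0 →
      χ (Additive.ofMul γ) = 0)
    (h1 : ∀ γ : Gamma0 N, ((γ : SL(2, ℤ)) : Matrix (Fin 2) (Fin 2) ℤ).trace ^ 2 = 1 →
      χ (Additive.ofMul γ) = 0)
    (h4 : ∀ γ : Gamma0 N, ((γ : SL(2, ℤ)) : Matrix (Fin 2) (Fin 2) ℤ).trace ^ 2 = 4 →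
      χ (Additive.ofMul γ) = 0) : χ ∈ VK N k := by
  intro γ hγ
  rcases hγ with h | h | h
  · exact h0 γ h
  · exact h1 γ h
  · exact h4 γ h

/-- A parabolic homomorphism kills twice an element of trace `0`. -/
theorem two_nsmul_eq_zero_of_trace {N : ℕ} {A : Type*} [AddCommGroup A]
    (χ : Additive (Gamma0 N) →+ A) (h4 : IsParabolicHom (Gamma0 N) χ) (γ : Gamma0 N)
    (hγ : ((γ : SL(2, ℤ)) : Matrix (Fin 2) (Fin 2) ℤ).trace = 0) :
    2 • χ (Additive.ofMul γ) = 0 := by
  have h := h4 (γ ^ 2) (by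
    show (((γ : SL(2, ℤ)) ^ 2 : SL(2, ℤ)) : Matrix (Fin 2) (Fin 2) ℤ).trace ^ 2 = 4
    rw [trace_pow_two, hγ]
    norm_num)
  rw [ofMul_pow, map_nsmul] at h
  exact h

/-- A parabolic homomorphism kills three times an element of trace `±1`. -/
theorem three_nsmul_eq_zero_of_trace {N : ℕ} {A : Type*} [AddCommGroup A]
    (χ : Additive (Gamma0 N) →+ A) (h4 : IsParabolicHom (Gamma0 N) χ) (γ : Gamma0 N)
    (hγ : ((γ : SL(2, ℤ)) : Matrix (Fin 2) (Fin 2) ℤ).trace ^ 2 = 1) :
    3 • χ (Additive.ofMul γ) = 0 := by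
  have h := h4 (γ ^ 3) (by
    show (((γ : SL(2, ℤ)) ^ 3 : SL(2, ℤ)) : Matrix (Fin 2) (Fin 2) ℤ).trace ^ 2 = 4
    rw [trace_pow_three]
    linear_combination (((γ : SL(2, ℤ)) : Matrix (Fin 2) (Fin 2) ℤ).trace ^ 4
      - 5 * ((γ : SL(2, ℤ)) : Matrix (Fin 2) (Fin 2) ℤ).trace ^ 2 + 4) * hγ)
  rw [ofMul_pow, map_nsmul] at h
  exact h

/-- In characteristic different from `2` the condition at the elements of trace `0` is
automatic. -/
theorem mem_VK_of_two_ne_zero {N : ℕ} {k : Type*} [Field k] (h2 : (2 : k) ≠ 0)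
    {χ : Additive (Gamma0 N) →+ k}
    (h1 : ∀ γ : Gamma0 N, ((γ : SL(2, ℤ)) : Matrix (Fin 2) (Fin 2) ℤ).trace ^ 2 = 1 →
      χ (Additive.ofMul γ) = 0)
    (h4 : ∀ γ : Gamma0 N, ((γ : SL(2, ℤ)) : Matrix (Fin 2) (Fin 2) ℤ).trace ^ 2 = 4 →
      χ (Additive.ofMul γ) = 0) : χ ∈ VK N k := by
  refine mem_VK_of (fun γ hγ => ?_) h1 h4
  have h := two_nsmul_eq_zero_of_trace χ h4 γ hγ
  rw [nsmul_eq_mul] at h
  rcases mul_eq_zero.mp h with h | h
  · exact absurd (by exact_mod_cast h) h2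
  · exact h

/-- In characteristic different from `2` and `3`, `VK` is the space of parabolic
homomorphisms. -/
theorem mem_VK_of_six_ne_zero {N : ℕ} {k : Type*} [Field k] (h2 : (2 : k) ≠ 0)
    (h3 : (3 : k) ≠ 0) {χ : Additive (Gamma0 N) →+ k}
    (h4 : IsParabolicHom (Gamma0 N) χ) : χ ∈ VK N k := by
  refine mem_VK_of_two_ne_zero h2 (fun γ hγ => ?_) h4
  have h := three_nsmul_eq_zero_of_trace χ h4 γ hγ
  rw [nsmul_eq_mul] at h
  rcases mul_eq_zero.mp h with h | h
  · exact absurd (by exact_mod_cast h) h3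
  · exact h

/-- The reduction of an integral parabolic homomorphism lies in `VK`. -/
theorem castHom_mem_VK (N : ℕ) (k : Type*) [Field k] {ψ : Additive (Gamma0 N) →+ ℤ}
    (hψ : ψ ∈ Fermat.Agent.P5.Per.Lat N) : Fermat.Agent.P5.Per.castHom N k ψ ∈ VK N k := by
  have hpar : IsParabolicHom (Gamma0 N) ψ := hψ
  refine mem_VK_of (fun γ hγ => ?_) (fun γ hγ => ?_)
    (Fermat.Agent.P5.Per.castHom_isParabolicHom N k hψ)
  · have h := two_nsmul_eq_zero_of_trace ψ hpar γ hγ
    have h' : ψ (Additive.ofMul γ) = 0 := by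
      rw [nsmul_eq_mul] at h
      rcases mul_eq_zero.mp h with h | h
      · norm_num at h
      · exact h
    show ((ψ (Additive.ofMul γ) : ℤ) : k) = 0
    rw [h', Int.cast_zero]
  · have h := three_nsmul_eq_zero_of_trace ψ hpar γ hγ
    have h' : ψ (Additive.ofMul γ) = 0 := by
      rw [nsmul_eq_mul] at h
      rcases mul_eq_zero.mp h with h | h
      · norm_num at h
      · exact h
    show ((ψ (Additive.ofMul γ) : ℤ) : k) = 0
    rw [h', Int.cast_zero]

theorem kills_VK_S (N : ℕ) (k : Type*) [Field k] : Kills (VK N k) (S : SL(2, ℤ)) := by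
  intro φ hφ u n h
  apply hφ
  show ((u⁻¹ * S ^ n * u : SL(2, ℤ)) : Matrix (Fin 2) (Fin 2) ℤ).trace = 0 ∨
    ((u⁻¹ * S ^ n * u : SL(2, ℤ)) : Matrix (Fin 2) (Fin 2) ℤ).trace ^ 2 = 1 ∨
    ((u⁻¹ * S ^ n * u : SL(2, ℤ)) : Matrix (Fin 2) (Fin 2) ℤ).trace ^ 2 = 4
  rw [trace_conj]
  rcases trace_S_pow n with h | h
  · exact Or.inl h
  · exact Or.inr (Or.inr h)

theorem kills_VK_ST (N : ℕ) (k : Type*) [Field k] : Kills (VK N k) (S * T : SL(2, ℤ)) := by
  intro φ hφ u n h
  apply hφ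
  show ((u⁻¹ * (S * T) ^ n * u : SL(2, ℤ)) : Matrix (Fin 2) (Fin 2) ℤ).trace = 0 ∨
    ((u⁻¹ * (S * T) ^ n * u : SL(2, ℤ)) : Matrix (Fin 2) (Fin 2) ℤ).trace ^ 2 = 1 ∨
    ((u⁻¹ * (S * T) ^ n * u : SL(2, ℤ)) : Matrix (Fin 2) (Fin 2) ℤ).trace ^ 2 = 4
  rw [trace_conj]
  rcases trace_ST_pow n with h | h
  · exact Or.inr (Or.inl h)
  · exact Or.inr (Or.inr h)

theorem kills_VK_T (N : ℕ) (k : Type*) [Field k] : Kills (VK N k) (T : SL(2, ℤ)) := by
  intro φ hφ u n h
  apply hφ
  refine Or.inr (Or.inr ?_)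
  show ((u⁻¹ * T ^ n * u : SL(2, ℤ)) : Matrix (Fin 2) (Fin 2) ℤ).trace ^ 2 = 4
  rw [← zpow_natCast, conj_T_zpow_trace]
  norm_num

/-- `dim_k VK N k ≤ 2 g(X₀(N))` for every field `k`. -/
theorem finrank_VK_le (N : ℕ) [NeZero N] (k : Type*) [Field k] :
    Module.Finite k (VK N k) ∧
      (Module.finrank k (VK N k) : ℚ) ≤ 2 * ModularCurve.genusFormula N := by
  obtain ⟨hfin, hle⟩ := finrank_add_orbits_le_field (VK N k) (S : SL(2, ℤ)) T
    SpecialLinearGroup.SL2Z_generators (kills_VK_S N k) (kills_VK_T N k) (kills_VK_ST N k)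
  refine ⟨hfin, ?_⟩
  have h2 := two_mul_card_orbits (X := SL(2, ℤ) ⧸ Gamma0 N) (S : SL(2, ℤ)) orderOf_S
    (fun x => by rw [show (S : SL(2, ℤ)) ^ 2 = -1 by decide]; exact neg_one_smul_coset N x)
  have h3 := three_mul_card_orbits (X := SL(2, ℤ) ⧸ Gamma0 N) (S * T : SL(2, ℤ)) orderOf_ST
    (fun x => by rw [show (S * T : SL(2, ℤ)) ^ 3 = -1 by decide]; exact neg_one_smul_coset N x)
  rw [Fermat.Agent.Lib.Gamma0Count.card_quotient N,
    Fermat.Agent.Lib.Gamma0Count.card_fixedBy_S N] at h2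
  rw [Fermat.Agent.Lib.Gamma0Count.card_quotient N,
    Fermat.Agent.Lib.Gamma0Count.card_fixedBy_ST N] at h3
  rw [Fermat.Agent.Lib.Gamma0Count.card_quotient N,
    Fermat.Agent.Lib.Gamma0Count.card_orbits_T N] at hle
  have h2' : (2 : ℚ) * (Nat.card (OQ (Gamma0 N) (S : SL(2, ℤ))) : ℚ)
      = ModularCurve.dedekindPsi N + ModularCurve.nuTwo N := by exact_mod_cast h2
  have h3' : (3 : ℚ) * (Nat.card (OQ (Gamma0 N) (S * T : SL(2, ℤ))) : ℚ)
      = ModularCurve.dedekindPsi N + 2 * ModularCurve.nuThree N := by exact_mod_cast h3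
  have hle' : (Module.finrank k (VK N k) : ℚ)
      + (Nat.card (OQ (Gamma0 N) (S : SL(2, ℤ))) : ℚ) + (ModularCurve.cuspCount N : ℚ)
      + (Nat.card (OQ (Gamma0 N) (S * T : SL(2, ℤ))) : ℚ)
        ≤ (ModularCurve.dedekindPsi N : ℚ) + 2 := by
    exact_mod_cast hle
  unfold ModularCurve.genusFormula
  linarith


/-! ### The lattice spans `VK` -/

open Fermat.Agent.P5.Per in
/-- The complex parabolic homomorphisms are spanned by any basis of the lattice. -/
theorem finrank_parabolicHoms_le_card (N : ℕ) [NeZero N] {s : ℕ}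
    (b : Module.Basis (Fin s) ℤ (Lat N)) :
    Module.finrank ℂ (parabolicHoms ℂ (Gamma0 N) ℂ) ≤ s := by
  have hspan : parabolicHoms ℂ (Gamma0 N) ℂ
      ≤ Submodule.span ℂ (Set.range (fun i => toC (b i : Additive (Gamma0 N) →+ ℤ))) := by
    rw [parabolicHoms_eq_span, Submodule.span_le]
    rintro _ ⟨ψ, hψ, rfl⟩
    have h1 : ψ = ∑ i, (b.repr ⟨ψ, hψ⟩ i) • (b i : Additive (Gamma0 N) →+ ℤ) := by
      have h := congrArg Subtype.val (b.sum_repr ⟨ψ, hψ⟩)
      rw [Submodule.coe_sum] at h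
      exact h.symm
    have h2 : toC ψ = ∑ i, ((b.repr ⟨ψ, hψ⟩ i : ℤ) : ℂ) • toC (b i : Additive (Gamma0 N) →+ ℤ) := by
      refine AddMonoidHom.ext fun x => ?_
      conv_lhs => rw [h1]
      simp only [toC_apply, AddMonoidHom.finsetSum_apply, AddMonoidHom.smul_apply, smul_eq_mul]
      push_cast
      rfl
    rw [h2]
    exact Submodule.sum_mem _ fun i _ => Submodule.smul_mem _ _ (Submodule.subset_span ⟨i, rfl⟩)
  have hfin : FiniteDimensional ℂ
      (Submodule.span ℂ (Set.range (fun i => toC (b i : Additive (Gamma0 N) →+ ℤ)))) :=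
    FiniteDimensional.span_of_finite ℂ (Set.finite_range _)
  calc Module.finrank ℂ (parabolicHoms ℂ (Gamma0 N) ℂ)
      ≤ Module.finrank ℂ
          (Submodule.span ℂ (Set.range (fun i => toC (b i : Additive (Gamma0 N) →+ ℤ)))) :=
        Submodule.finrank_mono hspan
    _ ≤ Fintype.card (Fin s) := finrank_range_le_card _
    _ = s := Fintype.card_fin s

/-- The reductions of a family of lattice elements, as elements of `VK`. -/
noncomputable def latFam (N : ℕ) (k : Type*) [Field k] {s : ℕ}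
    (b : Fin s → Fermat.Agent.P5.Per.Lat N) : Fin s → VK N k :=
  fun i => ⟨Fermat.Agent.P5.Per.castHom N k (b i : Additive (Gamma0 N) →+ ℤ),
    castHom_mem_VK N k (b i).2⟩

theorem latFam_coe (N : ℕ) (k : Type*) [Field k] {s : ℕ}
    (b : Fin s → Fermat.Agent.P5.Per.Lat N) (i : Fin s) :
    (latFam N k b i : Additive (Gamma0 N) →+ k)
      = Fermat.Agent.P5.Per.castHom N k (b i : Additive (Gamma0 N) →+ ℤ) := rfl

open Fermat.Agent.P5.Per in
theorem latFam_linearIndependent (N : ℕ) (k : Type*) [Field k] {s : ℕ}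
    (b : Fin s → Lat N) (g : Fin s → Gamma0 N)
    (hbg : ∀ i j, (b i : Additive (Gamma0 N) →+ ℤ) (Additive.ofMul (g j))
      = if i = j then 1 else 0) : LinearIndependent k (latFam N k b) := by
  have hli0 : LinearIndependent k (fun i => castHom N k (b i : Additive (Gamma0 N) →+ ℤ)) :=
    linearIndependent_castHom N k (fun i => (b i : Additive (Gamma0 N) →+ ℤ)) g hbg
  have h : LinearIndependent k ((VK N k).subtype ∘ latFam N k b) := hli0
  exact LinearIndependent.of_comp _ h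

open Fermat.Agent.P5.Per in
/-- The rank of the lattice is `2 g` and bounds the dimension of `VK`. -/
theorem card_basis (N : ℕ) [NeZero N] (k : Type*) [Field k] {s : ℕ}
    (b : Module.Basis (Fin s) ℤ (Lat N)) (g : Fin s → Gamma0 N)
    (hbg : ∀ i j, (b i : Additive (Gamma0 N) →+ ℤ) (Additive.ofMul (g j))
      = if i = j then 1 else 0) :
    (s : ℚ) = 2 * ModularCurve.genusFormula N ∧ Module.finrank k (VK N k) = s := by
  obtain ⟨hfin, hle⟩ := finrank_VK_le N k
  have hli := latFam_linearIndependent N k (fun i => b i) g hbg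
  have h1 : s ≤ Module.finrank k (VK N k) := by
    have h := hli.fintype_card_le_finrank
    rwa [Fintype.card_fin] at h
  have h3 := finrank_parabolicHoms_le_card N b
  have h4 := Fermat.Agent.Lib.ParabolicLift.finrank_parabolicHoms N
  have h5 : (Module.finrank ℂ (parabolicHoms ℂ (Gamma0 N) ℂ) : ℚ) ≤ (s : ℚ) := by
    exact_mod_cast h3
  have h1' : (s : ℚ) ≤ (Module.finrank k (VK N k) : ℚ) := by exact_mod_cast h1
  have hs : (s : ℚ) = 2 * ModularCurve.genusFormula N := by linarith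
  have h2 : Module.finrank k (VK N k) = s := by
    have h : (Module.finrank k (VK N k) : ℚ) = (s : ℚ) := by linarith
    exact_mod_cast h
  exact ⟨hs, h2⟩

open Fermat.Agent.P5.Per in
/-- The reductions of a lattice basis with dual elements span `VK`. -/
theorem exists_eq_sum_latFam (N : ℕ) [NeZero N] (k : Type*) [Field k] {s : ℕ}
    (b : Module.Basis (Fin s) ℤ (Lat N)) (g : Fin s → Gamma0 N)
    (hbg : ∀ i j, (b i : Additive (Gamma0 N) →+ ℤ) (Additive.ofMul (g j))
      = if i = j then 1 else 0) (x : VK N k) :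
    ∃ c : Fin s → k, x = ∑ i, c i • latFam N k (fun i => b i) i := by
  have hfin : Module.Finite k (VK N k) := (finrank_VK_le N k).1
  have hli := latFam_linearIndependent N k (fun i => b i) g hbg
  have h2 := (card_basis N k b g hbg).2
  exact exists_eq_sum_of_card (latFam N k (fun i => b i)) hli (le_of_eq h2) x

open Fermat.Agent.P5.Per in
/-- **The dual basis expansion holds in `VK N k`** for every field `k`: the reductions of a
lattice basis with dual elements form a basis of `VK N k`. -/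
theorem eq_sum_castHom (N : ℕ) [NeZero N] (k : Type*) [Field k] {s : ℕ}
    (b : Module.Basis (Fin s) ℤ (Lat N)) (g : Fin s → Gamma0 N)
    (hbg : ∀ i j, (b i : Additive (Gamma0 N) →+ ℤ) (Additive.ofMul (g j))
      = if i = j then 1 else 0) (χ : Additive (Gamma0 N) →+ k) (hχ : χ ∈ VK N k) :
    χ = ∑ i, χ (Additive.ofMul (g i)) • castHom N k (b i : Additive (Gamma0 N) →+ ℤ) := by
  obtain ⟨c, hc⟩ := exists_eq_sum_latFam N k b g hbg ⟨χ, hχ⟩
  have hc' : χ = ∑ i, c i • castHom N k (b i : Additive (Gamma0 N) →+ ℤ) := by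
    have h := congrArg Subtype.val hc
    rw [Submodule.coe_sum] at h
    exact h
  have hcj : ∀ j, c j = χ (Additive.ofMul (g j)) := by
    intro j
    have h := congrArg (fun f : Additive (Gamma0 N) →+ k => f (Additive.ofMul (g j))) hc'
    simp only [AddMonoidHom.finsetSum_apply, AddMonoidHom.smul_apply, castHom_apply, hbg] at h
    simpa using h.symm
  calc χ = ∑ i, c i • castHom N k (b i : Additive (Gamma0 N) →+ ℤ) := hc'
    _ = ∑ i, χ (Additive.ofMul (g i)) • castHom N k (b i : Additive (Gamma0 N) →+ ℤ) := by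
        simp only [hcj]

/-- `dim_k VK N k = 2 g(X₀(N))` for every field `k`. -/
theorem finrank_VK (N : ℕ) [NeZero N] (k : Type*) [Field k] :
    (Module.finrank k (VK N k) : ℚ) = 2 * ModularCurve.genusFormula N := by
  obtain ⟨s, b, g, hbg⟩ := Fermat.Agent.P5.Per.exists_lat_basis N
  obtain ⟨h1, h2⟩ := card_basis N k b g hbg
  rw [h2, h1]

/-- **`L_N / p = V(Γ₀(N))`.**  Every homomorphism `Γ₀(N) → 𝔽_p` killing the elliptic and
parabolic elements is the reduction of an integral parabolic homomorphism. -/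
theorem exists_lat_lift (N : ℕ) [NeZero N] (p : ℕ) [Fact p.Prime]
    (χ : Additive (Gamma0 N) →+ ZMod p) (hχ : χ ∈ VK N (ZMod p)) :
    ∃ ψ : Additive (Gamma0 N) →+ ℤ, ψ ∈ Fermat.Agent.P5.Per.Lat N ∧
      ∀ x, ((ψ x : ℤ) : ZMod p) = χ x := by
  obtain ⟨s, b, g, hbg⟩ := Fermat.Agent.P5.Per.exists_lat_basis N
  have hχ' := eq_sum_castHom N (ZMod p) b g hbg χ hχ
  choose c hc using fun i => ZMod.intCast_surjective (χ (Additive.ofMul (g i)))
  refine ⟨∑ i, c i • (b i : Additive (Gamma0 N) →+ ℤ),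
    Submodule.sum_mem _ fun i _ => Submodule.smul_mem _ _ (b i).2, fun x => ?_⟩
  conv_rhs => rw [hχ']
  simp only [AddMonoidHom.finsetSum_apply, AddMonoidHom.smul_apply,
    Fermat.Agent.P5.Per.castHom_apply, smul_eq_mul]
  push_cast
  refine Finset.sum_congr rfl fun i _ => ?_
  rw [hc i]

/-- The same in hypothesis form (the shape of `Lib/ParabolicLift.exists_parabolic_lift`, now
at every level). -/
theorem exists_lat_lift_of_trace (N : ℕ) [NeZero N] (p : ℕ) [Fact p.Prime]
    (χ : Additive (Gamma0 N) →+ ZMod p)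
    (h0 : ∀ γ : Gamma0 N, ((γ : SL(2, ℤ)) : Matrix (Fin 2) (Fin 2) ℤ).trace = 0 →
      χ (Additive.ofMul γ) = 0)
    (h1 : ∀ γ : Gamma0 N, ((γ : SL(2, ℤ)) : Matrix (Fin 2) (Fin 2) ℤ).trace ^ 2 = 1 →
      χ (Additive.ofMul γ) = 0)
    (h4 : ∀ γ : Gamma0 N, ((γ : SL(2, ℤ)) : Matrix (Fin 2) (Fin 2) ℤ).trace ^ 2 = 4 →
      χ (Additive.ofMul γ) = 0) :
    ∃ ψ : Additive (Gamma0 N) →+ ℤ, ψ ∈ Fermat.Agent.P5.Per.Lat N ∧
      ∀ x, ((ψ x : ℤ) : ZMod p) = χ x :=
  exists_lat_lift N p χ (mem_VK_of h0 h1 h4)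

/-- For odd `p` the condition at the elements of trace `0` is automatic. -/
theorem exists_lat_lift_of_odd (N : ℕ) [NeZero N] (p : ℕ) [Fact p.Prime] (hp2 : p ≠ 2)
    (χ : Additive (Gamma0 N) →+ ZMod p)
    (h1 : ∀ γ : Gamma0 N, ((γ : SL(2, ℤ)) : Matrix (Fin 2) (Fin 2) ℤ).trace ^ 2 = 1 →
      χ (Additive.ofMul γ) = 0)
    (h4 : ∀ γ : Gamma0 N, ((γ : SL(2, ℤ)) : Matrix (Fin 2) (Fin 2) ℤ).trace ^ 2 = 4 →
      χ (Additive.ofMul γ) = 0) :
    ∃ ψ : Additive (Gamma0 N) →+ ℤ, ψ ∈ Fermat.Agent.P5.Per.Lat N ∧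
      ∀ x, ((ψ x : ℤ) : ZMod p) = χ x := by
  refine exists_lat_lift N p χ (mem_VK_of_two_ne_zero ?_ h1 h4)
  intro h
  have h' : ((2 : ℕ) : ZMod p) = 0 := by exact_mod_cast h
  rw [ZMod.natCast_eq_zero_iff] at h'
  have hp := (Fact.out : p.Prime)
  exact hp2 ((Nat.prime_dvd_prime_iff_eq hp Nat.prime_two).mp h')

/-! ### The reduction map `Lat N → VK N (ZMod p)` -/

/-- Reduction modulo `p` of the parabolic lattice. -/
noncomputable def red (N : ℕ) (p : ℕ) [Fact p.Prime] :
    Fermat.Agent.P5.Per.Lat N →+ VK N (ZMod p) where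
  toFun ψ := ⟨Fermat.Agent.P5.Per.castHom N (ZMod p) (ψ : Additive (Gamma0 N) →+ ℤ),
    castHom_mem_VK N (ZMod p) ψ.2⟩
  map_zero' := by
    apply Subtype.ext
    refine AddMonoidHom.ext fun x => ?_
    simp
  map_add' ψ ψ' := by
    apply Subtype.ext
    refine AddMonoidHom.ext fun x => ?_
    simp

theorem red_apply (N : ℕ) (p : ℕ) [Fact p.Prime] (ψ : Fermat.Agent.P5.Per.Lat N)
    (x : Additive (Gamma0 N)) :
    (red N p ψ : Additive (Gamma0 N) →+ ZMod p) x
      = (((ψ : Additive (Gamma0 N) →+ ℤ) x : ℤ) : ZMod p) := rfl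

/-- The reduction map is onto `VK N (ZMod p)`. -/
theorem red_surjective (N : ℕ) [NeZero N] (p : ℕ) [Fact p.Prime] :
    Function.Surjective (red N p) := by
  rintro ⟨χ, hχ⟩
  obtain ⟨ψ, hψ, h⟩ := exists_lat_lift N p χ hχ
  refine ⟨⟨ψ, hψ⟩, ?_⟩
  apply Subtype.ext
  refine AddMonoidHom.ext fun x => ?_
  exact h x

/-- The kernel of the reduction map is `p • Lat N`. -/
theorem red_eq_zero_iff (N : ℕ) (p : ℕ) [Fact p.Prime] (ψ : Fermat.Agent.P5.Per.Lat N) :
    red N p ψ = 0 ↔ ∃ ψ' : Fermat.Agent.P5.Per.Lat N, ψ = (p : ℤ) • ψ' := by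
  have hp0 : (p : ℤ) ≠ 0 := by exact_mod_cast (Fact.out : p.Prime).ne_zero
  constructor
  · intro h
    have hdvd : ∀ x, (p : ℤ) ∣ (ψ : Additive (Gamma0 N) →+ ℤ) x := by
      intro x
      have h1 := congrArg (fun f : VK N (ZMod p) =>
        (f : Additive (Gamma0 N) →+ ZMod p) x) h
      have h2 : (((ψ : Additive (Gamma0 N) →+ ℤ) x : ℤ) : ZMod p) = 0 := h1
      exact (ZMod.intCast_zmod_eq_zero_iff_dvd _ p).mp h2
    let ψ' : Additive (Gamma0 N) →+ ℤ := AddMonoidHom.mk'
      (fun x => (ψ : Additive (Gamma0 N) →+ ℤ) x / (p : ℤ)) (fun x y => by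
        show (ψ : Additive (Gamma0 N) →+ ℤ) (x + y) / (p : ℤ) = _
        rw [map_add, Int.add_ediv_of_dvd_left (hdvd x)])
    have hψ' : ∀ x, (ψ : Additive (Gamma0 N) →+ ℤ) x = (p : ℤ) * ψ' x := by
      intro x
      exact (Int.mul_ediv_cancel' (hdvd x)).symm
    have hmem : ψ' ∈ Fermat.Agent.P5.Per.Lat N := by
      intro γ hγ
      have h1 := hψ' (Additive.ofMul γ)
      rw [ψ.2 γ hγ] at h1
      rcases mul_eq_zero.mp h1.symm with h2 | h2
      · exact absurd h2 hp0
      · exact h2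
    refine ⟨⟨ψ', hmem⟩, ?_⟩
    apply Subtype.ext
    refine AddMonoidHom.ext fun x => ?_
    rw [hψ' x]
    simp
  · rintro ⟨ψ', rfl⟩
    apply Subtype.ext
    refine AddMonoidHom.ext fun x => ?_
    rw [red_apply]
    simp

end SL2

end Fermat.Agent.P7.PdLift
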