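/-
P7 [PD-LIFT-Z] (helper93): integral lifting of mod `n` parabolic classes.

For `Γ ≤ SL(2, ℤ)` of finite index with `-1 ∈ Γ`, every additive `φ : Γ → ZMod n` killing the
`Γ`-elements conjugate to powers of `S`, `R = S * T` and `P = S * T * S` (elliptic and parabolic
elements) is the reduction mod `n` of an additive `Φ : Γ → ℤ` killing the conjugates of powers
of `P`.  (So `Lat / n → V(Γ)` is onto: no dimension count is needed.)

Proof: lift the primitives of the Shapiro cocycle at `S` and `R` to `ℤ` (the order relations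
hold exactly because `S²`, `R³` act trivially on the coset space), extend to an integral cocycle
by the universal property of `PSL(2, ℤ)` (`PdExt.exists_cocycle_sl2z`), and correct the
parabolic orbit sums using that the augmentation kernel of `ℤ^X` is `(P - 1) + (S - 1)`.
-/
import Mathlib
import Fermat.Agent.P7.Shap
import Fermat.Agent.P7.PdExt

set_option autoImplicit false

namespace Fermat.Agent.P7.PdLiftZ

open Fermat.Agent.S21.PermDim Fermat.Agent.P7.Shap Fermat.Agent.P7.PdExt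
open MatrixGroups ModularGroup

/-! ### Cocycles in the `zc` convention -/

section ZcCocycle

variable {G : Type*} [Group G] {Γ : Subgroup G} {A : Type*} [AddCommGroup A]

/-- Cocycles in the convention of `Shap.zc`. -/
def IsZc (c : G → G ⧸ Γ → A) : Prop := ∀ (g h : G) (x : G ⧸ Γ), c (g * h) x = c g (h • x) + c h x

theorem IsZc.map_one {c : G → G ⧸ Γ → A} (hc : IsZc c) (x : G ⧸ Γ) : c 1 x = 0 := by
  have h := hc 1 1 x
  rw [mul_one, one_smul] at h
  exact left_eq_add.mp h

theorem IsZc.map_inv {c : G → G ⧸ Γ → A} (hc : IsZc c) (g : G) (x : G ⧸ Γ) :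
    c g⁻¹ x = - c g (g⁻¹ • x) := by
  have h := hc g g⁻¹ x
  rw [mul_inv_cancel, hc.map_one] at h
  exact eq_neg_of_add_eq_zero_right h.symm

theorem isZc_zc {φ : Γ → A} (hφ : IsAdd φ) : IsZc (zc Γ φ) := fun g h x => zc_mul hφ g h x

/-- Two cocycles agreeing on a generating set agree. -/
theorem IsZc.ext {c c' : G → G ⧸ Γ → A} (hc : IsZc c) (hc' : IsZc c') (s : Set G)
    (hs : Subgroup.closure s = ⊤) (h : ∀ t ∈ s, ∀ x, c t x = c' t x) (g : G) (x : G ⧸ Γ) :
    c g x = c' g x := by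
  have hg : g ∈ Subgroup.closure s := by rw [hs]; trivial
  revert x
  induction hg using Subgroup.closure_induction with
  | mem y hy => exact h y hy
  | one => intro x; rw [hc.map_one, hc'.map_one]
  | mul y z _ _ hy hz => intro x; rw [hc, hc', hy, hz]
  | inv y _ hy => intro x; rw [hc.map_inv, hc'.map_inv, hy]

/-- The restriction of a cocycle to `Γ` at the base point is additive. -/
theorem IsZc.isAdd {c : G → G ⧸ Γ → A} (hc : IsZc c) : IsAdd (fun γ : Γ => c (γ : G) (x0 Γ)) := by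
  intro a b
  show c ((a * b : Γ) : G) (x0 Γ) = c (a : G) (x0 Γ) + c (b : G) (x0 Γ)
  rw [Subgroup.coe_mul, hc, smul_x0]

theorem psec_smul_x0 (x : G ⧸ Γ) : psec Γ x • x0 Γ = x := by
  rw [smul_coe_eq, mul_one, psec_spec]

/-- The Shapiro cocycle of the base point restriction of `c` is cohomologous to `c`. -/
theorem IsZc.zc_eq {c : G → G ⧸ Γ → A} (hc : IsZc c) (g : G) (x : G ⧸ Γ) :
    zc Γ (fun γ : Γ => c (γ : G) (x0 Γ)) g x
      = c g x + c (psec Γ x) (x0 Γ) - c (psec Γ (g • x)) (x0 Γ) := by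
  show c ((pkap Γ g x : Γ) : G) (x0 Γ) = _
  have hk : ((pkap Γ g x : Γ) : G) = (psec Γ (g • x))⁻¹ * g * psec Γ x := rfl
  rw [hk, hc, hc, psec_smul_x0, hc.map_inv]
  have h1 : (psec Γ (g • x))⁻¹ • g • x = x0 Γ := by
    rw [inv_smul_eq_iff, psec_smul_x0]
  rw [h1]
  abel

end ZcCocycle

/-! ### The augmentation kernel -/

section Aug

variable {G : Type*} [Group G] {X : Type*} [MulAction G X]

/-- The subgroup `(P - 1) + (S - 1)` of `X → ℤ` (pull-back action). -/
def augSub (P S : G) : AddSubgroup (X → ℤ) where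
  carrier := {d | ∃ Y ε : X → ℤ, ∀ x, d x = (Y (P • x) - Y x) + (ε (S • x) - ε x)}
  zero_mem' := ⟨0, 0, fun x => by simp⟩
  add_mem' := by
    rintro d d' ⟨Y, ε, h⟩ ⟨Y', ε', h'⟩
    refine ⟨Y + Y', ε + ε', fun x => ?_⟩
    simp only [Pi.add_apply, h x, h' x]
    ring
  neg_mem' := by
    rintro d ⟨Y, ε, h⟩
    refine ⟨-Y, -ε, fun x => ?_⟩
    simp only [Pi.neg_apply, h x]
    ring

theorem mem_augSub {P S : G} {d : X → ℤ} :
    d ∈ augSub (X := X) P S ↔
      ∃ Y ε : X → ℤ, ∀ x, d x = (Y (P • x) - Y x) + (ε (S • x) - ε x) := Iff.rfl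

theorem translate_sub_mem {P S : G} (hgen : Subgroup.closure ({S, P} : Set G) = ⊤) (g : G)
    (F : X → ℤ) : (fun x => F (g • x) - F x) ∈ augSub (X := X) P S := by
  have hg : g ∈ Subgroup.closure ({S, P} : Set G) := by rw [hgen]; trivial
  revert F
  induction hg using Subgroup.closure_induction with
  | mem y hy =>
    intro F
    rcases hy with rfl | rfl
    · exact ⟨0, F, fun x => by simp⟩
    · exact ⟨F, 0, fun x => by simp⟩
  | one =>
    intro F
    have : (fun x : X => F ((1 : G) • x) - F x) = 0 := by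
      funext x; simp
    rw [this]
    exact zero_mem _
  | mul y z _ _ hy hz =>
    intro F
    have : (fun x : X => F ((y * z) • x) - F x)
        = (fun x => (fun x' => F (y • x')) (z • x) - (fun x' => F (y • x')) x)
          + (fun x => F (y • x) - F x) := by
      funext x
      simp only [Pi.add_apply, mul_smul]
      ring
    rw [this]
    exact add_mem (hz (fun x' => F (y • x'))) (hy F)
  | inv y _ hy =>
    intro F
    have : (fun x : X => F (y⁻¹ • x) - F x)
        = - (fun x => (fun x' => F (y⁻¹ • x')) (y • x) - (fun x' => F (y⁻¹ • x')) x) := by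
      funext x
      simp only [Pi.neg_apply, inv_smul_smul]
      ring
    rw [this]
    exact neg_mem (hy (fun x' => F (y⁻¹ • x')))

/-- For a transitive action generated by `S`, `P`: every function of total sum zero lies in
`(P - 1) + (S - 1)`. -/
theorem mem_augSub_of_sum_eq_zero [Fintype X] [MulAction.IsPretransitive G X] {P S : G}
    (hgen : Subgroup.closure ({S, P} : Set G) = ⊤) (d : X → ℤ) (hd : ∑ x, d x = 0) :
    d ∈ augSub (X := X) P S := by
  classical
  rcases isEmpty_or_nonempty X with hX | ⟨⟨y₀⟩⟩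
  · have : d = 0 := by funext x; exact (hX.false x).elim
    rw [this]; exact zero_mem _
  have hmem : ∀ y : X, (fun x : X => (if x = y then (1 : ℤ) else 0)
      - (if x = y₀ then (1 : ℤ) else 0)) ∈ augSub (X := X) P S := by
    intro y
    obtain ⟨g, hg⟩ := MulAction.exists_smul_eq G y y₀
    have h := translate_sub_mem (X := X) hgen g (fun x : X => if x = y₀ then (1 : ℤ) else 0)
    have e : (fun x : X => (if g • x = y₀ then (1 : ℤ) else 0) - (if x = y₀ then (1 : ℤ) else 0))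
        = (fun x : X => (if x = y then (1 : ℤ) else 0) - (if x = y₀ then (1 : ℤ) else 0)) := by
      funext x
      have : g • x = y₀ ↔ x = y := by
        rw [← hg]
        exact (MulAction.injective g).eq_iff
      simp only [this]
    rw [← e]
    exact h
  have hdecomp : d = ∑ y, d y • (fun x : X => (if x = y then (1 : ℤ) else 0)
      - (if x = y₀ then (1 : ℤ) else 0)) := by
    funext x
    rw [Finset.sum_apply]
    simp only [Pi.smul_apply, smul_eq_mul, mul_sub, Finset.sum_sub_distrib]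
    rw [← Finset.sum_mul, hd, zero_mul, sub_zero]
    simp [mul_ite, Finset.sum_ite_eq]
  rw [hdecomp]
  exact AddSubgroup.sum_mem _ fun y _ => AddSubgroup.zsmul_mem _ (hmem y) _

end Aug

/-! ### The lifting theorem -/

section Main

variable (Γ : Subgroup SL(2, ℤ))

theorem neg_one_smul_coset (hneg : -1 ∈ Γ) (x : SL(2, ℤ) ⧸ Γ) : (-1 : SL(2, ℤ)) • x = x := by
  induction x using QuotientGroup.induction_on with
  | H a =>
    rw [smul_coe_eq, QuotientGroup.eq]
    have h : (-1 * a)⁻¹ * a = -1 := by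
      rw [inv_mul_eq_iff_eq_mul, neg_one_mul, neg_mul, mul_neg, mul_one, neg_neg]
    rw [h]
    exact hneg

theorem closure_S_P : Subgroup.closure ({S, S * T * S} : Set SL(2, ℤ)) = ⊤ := by
  rw [eq_top_iff, ← Fermat.Agent.P7.PdExt.closure_S_ST, Subgroup.closure_le]
  rintro g (rfl | rfl)
  · exact Subgroup.subset_closure (Set.mem_insert _ _)
  · have h1 : (S : SL(2, ℤ)) ∈ Subgroup.closure ({S, S * T * S} : Set SL(2, ℤ)) :=
      Subgroup.subset_closure (Set.mem_insert _ _)
    have h2 : (S * T * S : SL(2, ℤ)) ∈ Subgroup.closure ({S, S * T * S} : Set SL(2, ℤ)) :=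
      Subgroup.subset_closure (Set.mem_insert_of_mem _ rfl)
    have h3 := Subgroup.mul_mem _ h2 (Subgroup.inv_mem _ h1)
    rwa [mul_inv_cancel_right] at h3

/-- **Integral lifting.** -/
theorem exists_int_lift [Finite (SL(2, ℤ) ⧸ Γ)] (hneg : -1 ∈ Γ) (n : ℕ) [NeZero n]
    (φ : ↥Γ → ZMod n) (hφ : IsAdd φ) (hS : Kills φ S) (hR : Kills φ (S * T))
    (hP : Kills φ (S * T * S)) :
    ∃ Φ : ↥Γ → ℤ, IsAdd Φ ∧ Kills Φ (S * T * S) ∧ ∀ γ, ((Φ γ : ℤ) : ZMod n) = φ γ := by
  classical
  have : Fintype (SL(2, ℤ) ⧸ Γ) := Fintype.ofFinite _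
  have hneg' : ∀ x : SL(2, ℤ) ⧸ Γ, (-1 : SL(2, ℤ)) • x = x := neg_one_smul_coset Γ hneg
  obtain ⟨m₁, hm₁⟩ := hS.exists_primitive hφ
  obtain ⟨m₂, hm₂⟩ := hR.exists_primitive hφ
  obtain ⟨n₀, hn₀⟩ := hP.exists_primitive hφ
  -- integral lifts of the primitives
  let M₁ : SL(2, ℤ) ⧸ Γ → ℤ := fun x => (m₁ x).cast
  let M₂ : SL(2, ℤ) ⧸ Γ → ℤ := fun x => (m₂ x).cast
  let N₀ : SL(2, ℤ) ⧸ Γ → ℤ := fun x => (n₀ x).cast
  have hM₁ : ∀ x, ((M₁ x : ℤ) : ZMod n) = m₁ x := fun x => ZMod.intCast_zmod_cast _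
  have hM₂ : ∀ x, ((M₂ x : ℤ) : ZMod n) = m₂ x := fun x => ZMod.intCast_zmod_cast _
  have hN₀ : ∀ x, ((N₀ x : ℤ) : ZMod n) = n₀ x := fun x => ZMod.intCast_zmod_cast _
  -- the uncorrected value at the parabolic element
  let D : SL(2, ℤ) ⧸ Γ → ℤ := fun x =>
    M₂ ((S * T * S) • x) - M₂ (S • x) + M₁ (S • x) - M₁ x
  have hPsmul : ∀ x : SL(2, ℤ) ⧸ Γ, (S * T * S) • x = (S * T) • S • x := fun x => mul_smul _ _ _
  have hD : ∀ x, ((D x : ℤ) : ZMod n) = n₀ ((S * T * S) • x) - n₀ x := by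
    intro x
    have h1 := zc_mul hφ (S * T) S x
    rw [hn₀ x, hm₂, hm₁, ← hPsmul] at h1
    simp only [D, Int.cast_add, Int.cast_sub, hM₁, hM₂]
    rw [h1]
    ring
  have hdvd : ∀ x, (n : ℤ) ∣ D x - (N₀ ((S * T * S) • x) - N₀ x) := by
    intro x
    rw [← ZMod.intCast_zmod_eq_zero_iff_dvd]
    simp only [Int.cast_sub, hD, hN₀, sub_self]
  choose d hd using hdvd
  have hn0 : (n : ℤ) ≠ 0 := by exact_mod_cast NeZero.ne n
  have hsum : ∑ x, d x = 0 := by
    have h1 : (n : ℤ) * ∑ x, d x = 0 := by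
      rw [Finset.mul_sum]
      simp only [← hd, D, Finset.sum_sub_distrib, Finset.sum_add_distrib]
      have e1 := Equiv.sum_comp (MulAction.toPerm (S * T * S : SL(2, ℤ))) M₂
      have e2 := Equiv.sum_comp (MulAction.toPerm (S : SL(2, ℤ))) M₂
      have e3 := Equiv.sum_comp (MulAction.toPerm (S : SL(2, ℤ))) M₁
      have e4 := Equiv.sum_comp (MulAction.toPerm (S * T * S : SL(2, ℤ))) N₀
      simp only [MulAction.toPerm_apply] at e1 e2 e3 e4
      rw [e1, e2, e3, e4]
      ring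
    exact (mul_eq_zero.mp h1).resolve_left hn0
  obtain ⟨Y, ε, hYε⟩ := mem_augSub.mp
    (mem_augSub_of_sum_eq_zero (G := SL(2, ℤ)) (X := SL(2, ℤ) ⧸ Γ) closure_S_P d hsum)
  -- the corrected lift of the second primitive
  let M₂' : SL(2, ℤ) ⧸ Γ → ℤ := fun x => M₂ x + n * ε x
  have hSS : ∀ F : SL(2, ℤ) ⧸ Γ → ℤ, act S (act S F) = F := by
    intro F
    rw [← act_mul]
    exact act_of_smul_eq _ (fun x => by rw [S_mul_S]; exact hneg' x) F
  have hRRR : ∀ F : SL(2, ℤ) ⧸ Γ → ℤ, act (S * T) (act (S * T) (act (S * T) F)) = F := by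
    intro F
    rw [← act_mul, ← act_mul]
    exact act_of_smul_eq _ (fun x => by rw [ST_cube]; exact hneg' x) F
  have ha : (M₁ - act S M₁) + act S (M₁ - act S M₁) = 0 := by
    simp only [act_sub]
    rw [hSS]
    abel
  have hb : (M₂' - act (S * T) M₂') + act (S * T) (M₂' - act (S * T) M₂')
      + act (S * T) (act (S * T) (M₂' - act (S * T) M₂')) = 0 := by
    simp only [act_sub]
    rw [hRRR]
    abel
  obtain ⟨z, hz, hzS, hzR⟩ := exists_cocycle_sl2z (X := SL(2, ℤ) ⧸ Γ) (k := ℤ) hneg'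
    (M₁ - act S M₁) (M₂' - act (S * T) M₂') ha hb
  -- the cocycle in the `zc` convention
  let c : SL(2, ℤ) → SL(2, ℤ) ⧸ Γ → ℤ := fun g x => z g (g • x)
  have hc : IsZc c := by
    intro g h x
    show z (g * h) ((g * h) • x) = z g (g • h • x) + z h (h • x)
    rw [hz g h, Pi.add_apply, act_apply, mul_smul, inv_smul_smul]
  have hcS : ∀ x, c S x = M₁ (S • x) - M₁ x := by
    intro x
    show z S (S • x) = _
    rw [hzS, Pi.sub_apply, act_apply, inv_smul_smul]
  have hcR : ∀ x, c (S * T) x = M₂' ((S * T) • x) - M₂' x := by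
    intro x
    show z (S * T) ((S * T) • x) = _
    rw [hzR, Pi.sub_apply, act_apply, inv_smul_smul]
  -- reduction mod `n`
  have hcbar : IsZc (Γ := Γ) (fun g x => ((c g x : ℤ) : ZMod n)) := by
    intro g h x
    show ((c (g * h) x : ℤ) : ZMod n) = ((c g (h • x) : ℤ) : ZMod n) + ((c h x : ℤ) : ZMod n)
    rw [hc g h x, Int.cast_add]
  have hmod : ∀ g x, ((c g x : ℤ) : ZMod n) = zc Γ φ g x := by
    refine IsZc.ext hcbar (isZc_zc hφ) ({S, S * T} : Set SL(2, ℤ)) closure_S_ST ?_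
    rintro t (rfl | rfl) x
    · show ((c S x : ℤ) : ZMod n) = zc Γ φ S x
      rw [hcS, hm₁, Int.cast_sub, hM₁, hM₁]
    · show ((c (S * T) x : ℤ) : ZMod n) = zc Γ φ (S * T) x
      rw [hcR, hm₂]
      simp only [M₂', Int.cast_sub, Int.cast_add, Int.cast_mul, Int.cast_natCast,
        ZMod.natCast_self, zero_mul, add_zero, hM₂]
  refine ⟨fun γ => c (γ : SL(2, ℤ)) (x0 Γ), hc.isAdd, ?_, fun γ => ?_⟩
  · -- the parabolic orbit sums vanish
    refine kills_of_primitive hc.isAdd
      (fun x => N₀ x + n * (Y x + ε x) - c (psec Γ x) (x0 Γ)) fun x => ?_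
    rw [hc.zc_eq (S * T * S) x]
    have h1 : c (S * T * S) x = c (S * T) (S • x) + c S x := hc (S * T) S x
    rw [h1, hcR, hcS, ← hPsmul]
    have h2 := hd x
    have h3 := hYε x
    simp only [M₂', D] at h2 ⊢
    linear_combination h2 + (n : ℤ) * h3
  · rw [hmod, zc_base hφ]

end Main

end Fermat.Agent.P7.PdLiftZ
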