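import Mathlib
import Fermat.Agent.S21.PermDim
import Fermat.Agent.P7.Shap

/-!
# P7 [PD-RESIDUE]: the residue formula for lifts

`Γ ≤ G` of finite index, `X = G ⧸ Γ` (left cosets, `pkap`/`zc` of `S21.PermDim`/`P7.Shap`),
`φ ψ : Γ → k` additive and `u : Γ → k` a *lift* of the pair: `u (a b) = u a + u b - φ a ψ b`.

* lift calculus (`IsLift.map_one`, `map_inv`, `conj`, `comp`);
* `lift_pkap_pow`, `sum_orbit`: along one element `t` with a `ψ`-primitive `n'`,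
  `Σ_O u(π_O) = Σ_x (u (pkap t x) - zc φ t x * n' x)`;
* `residue_core`, `residue_general`: for two elements `A`, `R` with `A • A • x = x`, the normalised
  symbol `w` of `φ` and `ψ`-primitives `m1`, `m2` along `A`, `R`:
  `Σ_O u(π_O) = Σ_x w x * (m2 x - m1 x)` (orbits of `R * A`);
* `residue_formula`: the `SL(2, ℤ)` form, indexed by a family of double coset representatives
  `Γ \ SL(2, ℤ) / ⟨T⟩`.
-/

set_option autoImplicit false

namespace Fermat.Agent.P7.PdResidue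

open Fermat.Agent.S21.PermDim Fermat.Agent.P7.Shap

universe uG uk

/-! ### Lift calculus -/

section lift

variable {G : Type uG} [Group G] {Γ : Subgroup G} {k : Type uk} [CommRing k]

/-- `u` is a lift for the pair `(φ, ψ)`: `u (a * b) = u a + u b - φ a * ψ b`. -/
def IsLift (φ ψ u : Γ → k) : Prop := ∀ a b : Γ, u (a * b) = u a + u b - φ a * ψ b

variable {φ ψ u : Γ → k}

theorem IsLift.map_one (hu : IsLift φ ψ u) (hφ : IsAdd φ) : u 1 = 0 := by
  have h := hu 1 1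
  rw [mul_one, hφ.map_one, zero_mul, sub_zero] at h
  linear_combination -h

theorem IsLift.map_inv (hu : IsLift φ ψ u) (hφ : IsAdd φ) (hψ : IsAdd ψ) (a : Γ) :
    u a⁻¹ = -u a - φ a * ψ a := by
  have h := hu a a⁻¹
  rw [mul_inv_cancel, hu.map_one hφ, hψ.map_inv] at h
  linear_combination -h

/-- a lift is invariant under conjugation on the elements killed by `φ` and `ψ`. -/
theorem IsLift.conj (hu : IsLift φ ψ u) (hφ : IsAdd φ) (hψ : IsAdd ψ) (γ P : Γ)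
    (hP : φ P = 0) (hP' : ψ P = 0) : u (γ * P * γ⁻¹) = u P := by
  rw [hu (γ * P) γ⁻¹, hu γ P, hu.map_inv hφ hψ, hφ γ P, hψ.map_inv, hP, hP']
  ring

theorem IsLift.conj' (hu : IsLift φ ψ u) (hφ : IsAdd φ) (hψ : IsAdd ψ) (γ P : Γ)
    (hP : φ P = 0) (hP' : ψ P = 0) : u (γ⁻¹ * P * γ) = u P := by
  have h := hu.conj hφ hψ γ⁻¹ P hP hP'
  rwa [inv_inv] at h

/-- lifts pull back along endomorphisms. -/
theorem IsLift.comp (hu : IsLift φ ψ u) (θ : Γ →* Γ) : IsLift (φ ∘ θ) (ψ ∘ θ) (u ∘ θ) := by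
  intro a b
  simp only [Function.comp_apply, map_mul]
  exact hu _ _

/-- the difference of two lifts is additive. -/
theorem IsLift.sub_isAdd {u' : Γ → k} (hu : IsLift φ ψ u) (hu' : IsLift φ ψ u') :
    IsAdd (fun γ => u γ - u' γ) := by
  intro a b
  show u (a * b) - u' (a * b) = (u a - u' a) + (u b - u' b)
  rw [hu a b, hu' a b]
  ring

/-- `-u - φ ψ` is a lift for the swapped pair. -/
theorem IsLift.swap (hu : IsLift φ ψ u) (hφ : IsAdd φ) (hψ : IsAdd ψ) :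
    IsLift ψ φ (fun γ => -u γ - φ γ * ψ γ) := by
  intro a b
  show -u (a * b) - φ (a * b) * ψ (a * b) = (-u a - φ a * ψ a) + (-u b - φ b * ψ b) - ψ a * φ b
  rw [hu a b, hφ a b, hψ a b]
  ring

end lift

/-! ### Telescoping along one element -/

section orbit

variable {G : Type uG} [Group G] {Γ : Subgroup G} {k : Type uk} [CommRing k]
variable {φ ψ u : Γ → k}

/-- a function killing the conjugates of powers of `t` vanishes on closed-orbit values. -/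
theorem kills_pkap_pow' {f : Γ → k} {t : G} (hk : Kills f t)
    (x : G ⧸ Γ) (e : ℕ) (hx : t ^ e • x = x) : f (pkap Γ (t ^ e) x) = 0 := by
  have hx' : t ^ e • ((psec Γ x : G) : G ⧸ Γ) = ((psec Γ x : G) : G ⧸ Γ) := by
    rw [psec_spec]; exact hx
  have h := (smul_coe_eq_self_iff Γ (t ^ e) (psec Γ x)).mp hx'
  have e1 : pkap Γ (t ^ e) x = ⟨(psec Γ x)⁻¹ * t ^ e * psec Γ x, h⟩ :=
    Subtype.ext (coe_pkap_of_fixed Γ hx)
  rw [e1]; exact hk _ e h

/-- telescoping of a primitive along `t`. -/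
theorem zc_pow_of_primitive (hψ : IsAdd ψ) (t : G) (n' : G ⧸ Γ → k)
    (hn : ∀ y, zc Γ ψ t y = n' (t • y) - n' y) (j : ℕ) (x : G ⧸ Γ) :
    zc Γ ψ (t ^ j) x = n' (t ^ j • x) - n' x := by
  induction j with
  | zero => simp [zc_one hψ]
  | succ j ih => rw [pow_succ', zc_mul hψ, ih, hn, mul_smul]; abel

/-- the value of a lift on an iterated product of the cocycle along `t`. -/
theorem lift_pkap_pow (hφ : IsAdd φ) (hψ : IsAdd ψ) (hu : IsLift φ ψ u) (t : G)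
    (n' : G ⧸ Γ → k) (hn : ∀ y, zc Γ ψ t y = n' (t • y) - n' y) (x : G ⧸ Γ) (j : ℕ) :
    u (pkap Γ (t ^ j) x) =
      ∑ i ∈ Finset.range j, (u (pkap Γ t (t ^ i • x)) - zc Γ φ t (t ^ i • x) * n' (t ^ i • x))
        + n' x * zc Γ φ (t ^ j) x := by
  induction j with
  | zero =>
    simp only [pow_zero, pkap_one, Finset.range_zero, Finset.sum_empty, zero_add]
    rw [hu.map_one hφ, zc_one hφ, mul_zero]
  | succ j ih =>
    have h1 : ψ (pkap Γ (t ^ j) x) = n' (t ^ j • x) - n' x := zc_pow_of_primitive hψ t n' hn j x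
    have h2 : zc Γ φ (t ^ (j + 1)) x = zc Γ φ t (t ^ j • x) + zc Γ φ (t ^ j) x := by
      rw [pow_succ', zc_mul hφ]
    rw [pkap_pow_succ, hu _ _, ih, Finset.sum_range_succ, h1, h2]
    simp only [zc]
    ring

/-- **orbit sums**: over an orbit system `(x i, e i)` of `t`, the sum of the values of a lift on
the closed-orbit products is a sum over the whole coset space. -/
theorem sum_orbit [Fintype (G ⧸ Γ)] (hφ : IsAdd φ) (hψ : IsAdd ψ) (hu : IsLift φ ψ u) (t : G)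
    (n' : G ⧸ Γ → k) (hn : ∀ y, zc Γ ψ t y = n' (t • y) - n' y) (kφ : Kills φ t)
    {ι : Type*} [Fintype ι] (x : ι → G ⧸ Γ) (e : ι → ℕ) (hfix : ∀ i, t ^ e i • x i = x i)
    (hbij : Function.Bijective (fun p : (i : ι) × Fin (e i) => t ^ (p.2 : ℕ) • x p.1)) :
    ∑ i, u (pkap Γ (t ^ e i) (x i)) = ∑ y, (u (pkap Γ t y) - zc Γ φ t y * n' y) := by
  have key : ∀ i, u (pkap Γ (t ^ e i) (x i)) =
      ∑ j : Fin (e i), (fun y => u (pkap Γ t y) - zc Γ φ t y * n' y) (t ^ (j : ℕ) • x i) := by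
    intro i
    rw [lift_pkap_pow hφ hψ hu t n' hn (x i) (e i),
      kφ.zc_pow_eq_zero hφ (x i) (e i) (hfix i), mul_zero, add_zero, Finset.sum_range]
  rw [Finset.sum_congr rfl (fun i _ => key i)]
  exact (Fintype.sum_sigma (fun p : (i : ι) × Fin (e i) =>
    (fun y => u (pkap Γ t y) - zc Γ φ t y * n' y) (t ^ (p.2 : ℕ) • x p.1))).symm.trans
    (hbij.sum_comp (fun y => u (pkap Γ t y) - zc Γ φ t y * n' y))

/-- every element has an orbit system on a finite coset space. -/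
theorem exists_orbit_system [Finite (G ⧸ Γ)] (t : G) :
    ∃ (ι : Type uG) (_ : Fintype ι) (x : ι → G ⧸ Γ) (e : ι → ℕ),
      (∀ i, t ^ e i • x i = x i) ∧
      Function.Bijective (fun p : (i : ι) × Fin (e i) => t ^ (p.2 : ℕ) • x p.1) := by
  classical
  let g : Equiv.Perm (G ⧸ Γ) := MulAction.toPerm t
  have hpow : ∀ (i : ℕ) (y : G ⧸ Γ), (g ^ i) y = t ^ i • y := by
    intro i
    induction i with
    | zero => intro y; simp
    | succ i ih => intro y; rw [pow_succ', Equiv.Perm.mul_apply, ih, pow_succ', mul_smul]; rfl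
  have hit : ∀ (i : ℕ) (y : G ⧸ Γ), (⇑g)^[i] y = t ^ i • y := by
    intro i y
    rw [Equiv.Perm.iterate_eq_pow, hpow]
  have hper : ∀ y : G ⧸ Γ, 0 < Function.minimalPeriod (⇑g) y := by
    intro y
    apply Function.minimalPeriod_pos_of_mem_periodicPts
    refine Function.mk_mem_periodicPts (orderOf_pos g) ?_
    show (⇑g)^[orderOf g] y = y
    rw [Equiv.Perm.iterate_eq_pow, pow_orderOf_eq_one]
    rfl
  let ι := Quotient (Equiv.Perm.SameCycle.setoid g)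
  let _ : Fintype ι := Fintype.ofFinite ι
  let x : ι → G ⧸ Γ := fun i => Quotient.out i
  let e : ι → ℕ := fun i => Function.minimalPeriod (⇑g) (x i)
  refine ⟨ι, inferInstance, x, e, ?_, ?_, ?_⟩
  · intro i
    rw [← hit]
    exact Function.iterate_minimalPeriod
  · rintro ⟨i, j⟩ ⟨i', j'⟩ h
    have h' : t ^ (j : ℕ) • x i = t ^ (j' : ℕ) • x i' := h
    rw [← hpow, ← hpow] at h'
    have hsc : g.SameCycle (x i) (x i') := by
      refine ⟨-(j' : ℤ) + (j : ℤ), ?_⟩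
      rw [zpow_add, Equiv.Perm.mul_apply, zpow_natCast, h', zpow_neg, zpow_natCast]
      simp
    have hii : i = i' := by
      have h1 : (Quotient.mk (Equiv.Perm.SameCycle.setoid g) (x i)) =
          Quotient.mk (Equiv.Perm.SameCycle.setoid g) (x i') := Quotient.sound hsc
      have h2 : Quotient.mk (Equiv.Perm.SameCycle.setoid g) (x i) = i := Quotient.out_eq i
      have h3 : Quotient.mk (Equiv.Perm.SameCycle.setoid g) (x i') = i' := Quotient.out_eq i'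
      rw [← h2, ← h3, h1]
    subst hii
    have hjj : (j : ℕ) = (j' : ℕ) := by
      apply Function.iterate_injOn_Iio_minimalPeriod (f := ⇑g) (x := x i)
      · exact j.2
      · exact j'.2
      · show (⇑g)^[(j : ℕ)] (x i) = (⇑g)^[(j' : ℕ)] (x i)
        rw [Equiv.Perm.iterate_eq_pow, Equiv.Perm.iterate_eq_pow]
        exact h'
    have : j = j' := Fin.ext hjj
    rw [this]
  · intro y
    let i : ι := Quotient.mk (Equiv.Perm.SameCycle.setoid g) y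
    have hsc : g.SameCycle (x i) y :=
      Quotient.exact (s := Equiv.Perm.SameCycle.setoid g) (Quotient.out_eq i)
    obtain ⟨m, hm⟩ := hsc.exists_nat_pow_eq
    refine ⟨⟨i, ⟨m % e i, Nat.mod_lt _ (hper (x i))⟩⟩, ?_⟩
    show t ^ (m % e i) • x i = y
    rw [← hit, Function.iterate_mod_minimalPeriod_eq, Equiv.Perm.iterate_eq_pow]
    exact hm

/-- the sum of a lift over the coset space. -/
noncomputable def Usum [Fintype (G ⧸ Γ)] (u : Γ → k) (g : G) : k := ∑ x, u (pkap Γ g x)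

theorem Usum_mul [Fintype (G ⧸ Γ)] (hu : IsLift φ ψ u) (g h : G) :
    Usum u (g * h) = Usum u g + Usum u h - ∑ x, zc Γ φ g (h • x) * zc Γ ψ h x := by
  have e1 : ∑ x, u (pkap Γ g (h • x)) = ∑ x, u (pkap Γ g x) :=
    Equiv.sum_comp (MulAction.toPerm h) (fun x => u (pkap Γ g x))
  unfold Usum
  rw [← e1, ← Finset.sum_add_distrib, ← Finset.sum_sub_distrib]
  refine Finset.sum_congr rfl fun x _ => ?_
  rw [pkap_mul, hu _ _]
  rfl

/-- for an element `t` on whose conjugate powers `u` and `φ` vanish, `U(t) = <zc φ t, m>` for every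
`ψ`-primitive `m` along `t`. -/
theorem Usum_of_kills [Fintype (G ⧸ Γ)] (hφ : IsAdd φ) (hψ : IsAdd ψ) (hu : IsLift φ ψ u) (t : G)
    (m : G ⧸ Γ → k) (hm : ∀ y, zc Γ ψ t y = m (t • y) - m y) (kφ : Kills φ t) (ku : Kills u t) :
    Usum u t = ∑ y, zc Γ φ t y * m y := by
  obtain ⟨ι, _, x, e, hfix, hbij⟩ := exists_orbit_system (Γ := Γ) t
  have h := sum_orbit hφ hψ hu t m hm kφ x e hfix hbij
  have h0 : ∑ i, u (pkap Γ (t ^ e i) (x i)) = 0 :=
    Finset.sum_eq_zero fun i _ => kills_pkap_pow' ku (x i) (e i) (hfix i)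
  rw [h0, Finset.sum_sub_distrib] at h
  unfold Usum
  linear_combination -h

end orbit

/-! ### The residue formula -/

section residue

variable {G : Type uG} [Group G] {Γ : Subgroup G} {k : Type uk} [CommRing k]
variable {φ ψ u : Γ → k}

/-- **Residue formula, orbit-system form.**  `A`, `R` two elements with `A • A • x = x` on the
coset space; `(n, w)` the normalised symbol of `φ` (the cocycle `zc φ - dn` takes the value `w` at
`A` and at `R`); `m1`, `m2`, `n'` primitives of `zc ψ` along `A`, `R`, `R * A`; `u` a lift of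
`(φ, ψ)` vanishing on the conjugates of powers of `A` and `R`.  Then the sum of `u` over the
closed-orbit products of `R * A` is `Σ_x w x * (m2 x - m1 x)`. -/
theorem residue_core [Fintype (G ⧸ Γ)] (A R : G) (hAA : ∀ x : G ⧸ Γ, A • A • x = x)
    (hφ : IsAdd φ) (hψ : IsAdd ψ) (hu : IsLift φ ψ u)
    (kφA : Kills φ A) (kφR : Kills φ R) (kuA : Kills u A) (kuR : Kills u R)
    (n w : G ⧸ Γ → k)
    (hwA : ∀ x, w x = zc Γ φ A x - (n (A • x) - n x))
    (hwR : ∀ x, w x = zc Γ φ R x - (n (R • x) - n x))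
    (m1 m2 n' : G ⧸ Γ → k)
    (h1 : ∀ x, zc Γ ψ A x = m1 (A • x) - m1 x)
    (h2 : ∀ x, zc Γ ψ R x = m2 (R • x) - m2 x)
    (hp : ∀ x, zc Γ ψ (R * A) x = n' ((R * A) • x) - n' x)
    {ι : Type*} [Fintype ι] (x : ι → G ⧸ Γ) (e : ι → ℕ)
    (hfix : ∀ i, (R * A) ^ e i • x i = x i)
    (hbij : Function.Bijective (fun p : (i : ι) × Fin (e i) => (R * A) ^ (p.2 : ℕ) • x p.1)) :
    ∑ i, u (pkap Γ ((R * A) ^ e i) (x i)) = ∑ y, w y * (m2 y - m1 y) := by
  -- `w (A y) + w y = 0`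
  have hwAA : ∀ y, w (A • y) + w y = 0 := by
    intro y
    have hz : zc Γ φ (A ^ 2) y = 0 := kφA.zc_pow_eq_zero hφ y 2 (by rw [pow_two, mul_smul, hAA])
    rw [pow_two, zc_mul hφ] at hz
    rw [hwA (A • y), hwA y, hAA]
    linear_combination hz
  -- the cocycle of `φ` at `R * A` is the coboundary of `n`
  have hPφ : ∀ y, zc Γ φ (R * A) y = n (R • A • y) - n y := by
    intro y
    rw [zc_mul hφ]
    have e1 := hwR (A • y)
    have e2 := hwA y
    linear_combination hwAA y - e1 - e2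
  have kφP : Kills φ (R * A) :=
    kills_of_primitive hφ n (fun y => by rw [hPφ y, mul_smul])
  -- the relation between the primitives of `ψ`
  have hrel : ∀ y, m2 (R • y) - n' (R • y) =
      (m2 y - n' y) - (m1 y - n' y) + (m1 (A • y) - n' (A • y)) := by
    intro y
    have e0 := hp (A • y)
    rw [zc_mul hψ, h2, h1, mul_smul, hAA] at e0
    linear_combination e0
  -- the three sums
  have s1 := sum_orbit hφ hψ hu (R * A) n' hp kφP x e hfix hbij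
  have s2 : Usum u (R * A) = Usum u R + Usum u A - ∑ y, zc Γ φ R (A • y) * zc Γ ψ A y :=
    Usum_mul hu R A
  have s3 : Usum u R = ∑ y, zc Γ φ R y * m2 y := Usum_of_kills hφ hψ hu R m2 h2 kφR kuR
  have s4 : Usum u A = ∑ y, zc Γ φ A y * m1 y := Usum_of_kills hφ hψ hu A m1 h1 kφA kuA
  rw [s1, Finset.sum_sub_distrib]
  have s5 : ∑ y, u (pkap Γ (R * A) y) = Usum u (R * A) := rfl
  rw [s5, s2, s3, s4]
  -- pointwise identity modulo three reindexings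
  let F1 : G ⧸ Γ → k := fun y => zc Γ φ R y * m1 y
  let F2 : G ⧸ Γ → k := fun y => n (R • y) * (m1 (A • y) - n' (A • y))
  let F3 : G ⧸ Γ → k := fun y => n y * (m2 y - n' y)
  have r1 : ∑ y, F1 (A • y) = ∑ y, F1 y := Equiv.sum_comp (MulAction.toPerm A) F1
  have r2 : ∑ y, F2 (A • y) = ∑ y, F2 y := Equiv.sum_comp (MulAction.toPerm A) F2
  have r3 : ∑ y, F3 (R • y) = ∑ y, F3 y := Equiv.sum_comp (MulAction.toPerm R) F3
  have key : ∀ y, zc Γ φ R y * m2 y + zc Γ φ A y * m1 y - zc Γ φ R (A • y) * zc Γ ψ A y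
      - zc Γ φ (R * A) y * n' y - w y * (m2 y - m1 y)
      = -(F1 (A • y) - F1 y) + (F2 (A • y) - F2 y) + (F3 (R • y) - F3 y) := by
    intro y
    have e1 := hwR y
    have e2 := hwA y
    have e3 := hPφ y
    have e4 := hrel y
    have e5 := hwAA y
    have e6 := hwR (A • y)
    show _ = -(zc Γ φ R (A • y) * m1 (A • y) - zc Γ φ R y * m1 y)
      + (n (R • A • y) * (m1 (A • A • y) - n' (A • A • y)) - n (R • y) * (m1 (A • y) - n' (A • y)))
      + (n (R • y) * (m2 (R • y) - n' (R • y)) - n y * (m2 y - n' y))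
    rw [h1 y, e3, hAA]
    linear_combination (-(m2 y - m1 y)) * e1 - (m1 y) * e2 - (m1 y) * e6 + (m1 y) * e5
      - (n (R • y)) * e4
  have hsum : ∑ y, (zc Γ φ R y * m2 y + zc Γ φ A y * m1 y - zc Γ φ R (A • y) * zc Γ ψ A y
      - zc Γ φ (R * A) y * n' y - w y * (m2 y - m1 y)) = 0 := by
    rw [Finset.sum_congr rfl (fun y _ => key y)]
    simp only [Finset.sum_add_distrib, Finset.sum_sub_distrib, Finset.sum_neg_distrib]
    rw [r1, r2, r3]
    ring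
  simp only [Finset.sum_add_distrib, Finset.sum_sub_distrib] at hsum
  linear_combination hsum

/-- a family of double coset representatives `Γ \ G / ⟨t⟩` with widths gives an orbit system of
`t` on `G ⧸ Γ` (base points `(s i)⁻¹ Γ`). -/
theorem orbit_system_of_cosets (t : G) {ι : Type*} (s : ι → G) (e : ι → ℕ) (he : ∀ i, 0 < e i)
    (hmem : ∀ i, s i * t ^ e i * (s i)⁻¹ ∈ Γ)
    (hmin : ∀ i, ∀ j : ℕ, 0 < j → j < e i → s i * t ^ j * (s i)⁻¹ ∉ Γ)
    (hcover : ∀ g : G, ∃ i, ∃ γ ∈ Γ, ∃ j : ℤ, g = γ * s i * t ^ j)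
    (huniq : ∀ i i', ∀ γ ∈ Γ, ∀ j : ℤ, s i = γ * s i' * t ^ j → i = i') :
    (∀ i, t ^ e i • (((s i)⁻¹ : G) : G ⧸ Γ) = (((s i)⁻¹ : G) : G ⧸ Γ)) ∧
    Function.Bijective
      (fun p : (i : ι) × Fin (e i) => t ^ (p.2 : ℕ) • (((s p.1)⁻¹ : G) : G ⧸ Γ)) := by
  have hzmem : ∀ i (q : ℤ), s i * t ^ ((e i : ℤ) * q) * (s i)⁻¹ ∈ Γ := by
    intro i q
    have h := Γ.zpow_mem (hmem i) q
    have e1 : (s i * t ^ e i * (s i)⁻¹) ^ q = s i * t ^ ((e i : ℤ) * q) * (s i)⁻¹ := by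
      rw [conj_zpow, ← zpow_natCast, ← zpow_mul]
    rwa [e1] at h
  refine ⟨fun i => ?_, ?_, ?_⟩
  · rw [smul_coe_eq_self_iff, inv_inv]
    exact hmem i
  · rintro ⟨i, j⟩ ⟨i', j'⟩ h
    have h' : ((t ^ (j : ℕ) * (s i)⁻¹ : G) : G ⧸ Γ) = ((t ^ (j' : ℕ) * (s i')⁻¹ : G) : G ⧸ Γ) := h
    rw [QuotientGroup.eq] at h'
    have hii : i = i' := by
      refine huniq i i' _ h' ((j : ℤ) - (j' : ℤ)) ?_
      rw [zpow_sub, zpow_natCast, zpow_natCast]
      group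
    subst hii
    have hconj : ∀ a b : ℕ, (t ^ a * (s i)⁻¹)⁻¹ * (t ^ b * (s i)⁻¹) ∈ Γ → a < b →
        s i * t ^ (b - a) * (s i)⁻¹ ∈ Γ := by
      intro a b hab hlt
      have : s i * t ^ (b - a) * (s i)⁻¹ = (t ^ a * (s i)⁻¹)⁻¹ * (t ^ b * (s i)⁻¹) := by
        obtain ⟨d, rfl⟩ := Nat.exists_eq_add_of_lt hlt
        have hd : a + d + 1 - a = d + 1 := by omega
        rw [hd, show a + d + 1 = a + (d + 1) by ring, pow_add]
        group
      rw [this]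
      exact hab
    have hjj : (j : ℕ) = (j' : ℕ) := by
      rcases Nat.lt_trichotomy (j : ℕ) (j' : ℕ) with hlt | heq | hgt
      · exact absurd (hconj _ _ h' hlt) (hmin i _ (by omega) (by have := j'.2; omega))
      · exact heq
      · have h'' : (t ^ (j' : ℕ) * (s i)⁻¹)⁻¹ * (t ^ (j : ℕ) * (s i)⁻¹) ∈ Γ := by
          have := Γ.inv_mem h'
          rwa [mul_inv_rev, inv_inv] at this
        exact absurd (hconj _ _ h'' hgt) (hmin i _ (by omega) (by have := j.2; omega))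
    have : j = j' := Fin.ext hjj
    rw [this]
  · intro y
    induction y using QuotientGroup.induction_on with
    | H g =>
      obtain ⟨i, γ, hγ, m, hm⟩ := hcover g⁻¹
      have hei : (0 : ℤ) < (e i : ℤ) := by exact_mod_cast he i
      have hmod0 : 0 ≤ (-m) % (e i : ℤ) := Int.emod_nonneg _ hei.ne'
      have hmodlt : (-m) % (e i : ℤ) < (e i : ℤ) := Int.emod_lt_of_pos _ hei
      obtain ⟨r, hr⟩ : ∃ r : ℕ, r = ((-m) % (e i : ℤ)).toNat := ⟨_, rfl⟩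
      obtain ⟨q, hq0⟩ : ∃ q : ℤ, q = (-m) / (e i : ℤ) := ⟨_, rfl⟩
      have hsplit : -m = (r : ℤ) + (e i : ℤ) * q := by
        rw [hr, hq0, Int.toNat_of_nonneg hmod0]
        exact (Int.emod_add_mul_ediv (-m) (e i)).symm
      have hrlt : r < e i := by omega
      refine ⟨⟨i, ⟨r, hrlt⟩⟩, ?_⟩
      show ((t ^ r * (s i)⁻¹ : G) : G ⧸ Γ) = ((g : G) : G ⧸ Γ)
      rw [QuotientGroup.eq]
      have hg : g = t ^ (r : ℤ) * t ^ ((e i : ℤ) * q) * (s i)⁻¹ * γ⁻¹ := by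
        have : g = (g⁻¹)⁻¹ := (inv_inv g).symm
        rw [this, hm, ← zpow_add, ← hsplit]
        group
      have e2 : (t ^ r * (s i)⁻¹)⁻¹ * g = s i * t ^ ((e i : ℤ) * q) * (s i)⁻¹ * γ⁻¹ := by
        rw [hg, zpow_natCast]
        group
      rw [e2]
      exact Γ.mul_mem (hzmem i q) (Γ.inv_mem hγ)

/-- additive maps: killing `t` implies killing `t⁻¹`. -/
theorem kills_inv_of_isAdd (hφ : IsAdd φ) {t : G} (h : Kills φ t) : Kills φ t⁻¹ := by
  intro b e hb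
  have e1 : (b⁻¹ * t⁻¹ ^ e * b)⁻¹ = b⁻¹ * t ^ e * b := by rw [inv_pow]; group
  have hmem : b⁻¹ * t ^ e * b ∈ Γ := by
    have := Γ.inv_mem hb
    rwa [e1] at this
  have e2 : (⟨b⁻¹ * t⁻¹ ^ e * b, hb⟩ : Γ) = (⟨b⁻¹ * t ^ e * b, hmem⟩ : Γ)⁻¹ := by
    apply Subtype.ext
    rw [Subgroup.coe_inv]
    show b⁻¹ * t⁻¹ ^ e * b = (b⁻¹ * t ^ e * b)⁻¹
    rw [← e1, inv_inv]
  rw [e2, hφ.map_inv, h b e hmem, neg_zero]

/-- lifts: killing `t` implies killing `t⁻¹` (if `φ` kills `t`). -/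
theorem kills_inv_of_lift (hu : IsLift φ ψ u) (hφ : IsAdd φ) (hψ : IsAdd ψ) {t : G}
    (h : Kills u t) (hφt : Kills φ t) : Kills u t⁻¹ := by
  intro b e hb
  have e1 : (b⁻¹ * t⁻¹ ^ e * b)⁻¹ = b⁻¹ * t ^ e * b := by rw [inv_pow]; group
  have hmem : b⁻¹ * t ^ e * b ∈ Γ := by
    have := Γ.inv_mem hb
    rwa [e1] at this
  have e2 : (⟨b⁻¹ * t⁻¹ ^ e * b, hb⟩ : Γ) = (⟨b⁻¹ * t ^ e * b, hmem⟩ : Γ)⁻¹ := by
    apply Subtype.ext
    rw [Subgroup.coe_inv]
    show b⁻¹ * t⁻¹ ^ e * b = (b⁻¹ * t ^ e * b)⁻¹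
    rw [← e1, inv_inv]
  rw [e2, hu.map_inv hφ hψ, h b e hmem, hφt b e hmem]
  ring

/-- killing is invariant under conjugation of the element. -/
theorem kills_conj_of {f : Γ → k} {t : G} (c : G) (h : Kills f t) : Kills f (c * t * c⁻¹) := by
  intro b e hb
  have e1 : b⁻¹ * (c * t * c⁻¹) ^ e * b = (c⁻¹ * b)⁻¹ * t ^ e * (c⁻¹ * b) := by
    rw [conj_pow]; group
  have hmem : (c⁻¹ * b)⁻¹ * t ^ e * (c⁻¹ * b) ∈ Γ := by rwa [e1] at hb
  have e2 : (⟨b⁻¹ * (c * t * c⁻¹) ^ e * b, hb⟩ : Γ) = ⟨(c⁻¹ * b)⁻¹ * t ^ e * (c⁻¹ * b), hmem⟩ :=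
    Subtype.ext e1
  rw [e2]
  exact h _ e hmem

/-- a primitive along `t` is a primitive along `t⁻¹`. -/
theorem primitive_inv (hψ : IsAdd ψ) (t : G) (m : G ⧸ Γ → k)
    (hm : ∀ x, zc Γ ψ t x = m (t • x) - m x) (x : G ⧸ Γ) :
    zc Γ ψ t⁻¹ x = m (t⁻¹ • x) - m x := by
  rw [zc_inv hψ, hm, smul_inv_smul]
  ring

/-- the symbol is anti-invariant under an involution `A`. -/
theorem symbol_add_self (A : G) (hAA : ∀ x : G ⧸ Γ, A • A • x = x) (hφ : IsAdd φ)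
    (kφA : Kills φ A) (n w : G ⧸ Γ → k)
    (hwA : ∀ x, w x = zc Γ φ A x - (n (A • x) - n x)) (y : G ⧸ Γ) : w (A • y) + w y = 0 := by
  have hz : zc Γ φ (A ^ 2) y = 0 := kφA.zc_pow_eq_zero hφ y 2 (by rw [pow_two, mul_smul, hAA])
  rw [pow_two, zc_mul hφ] at hz
  rw [hwA (A • y), hwA y, hAA]
  linear_combination hz

/-- the symbol relation at `A` gives the symbol relation at `A⁻¹`. -/
theorem symbol_inv (A : G) (hAA : ∀ x : G ⧸ Γ, A • A • x = x) (hφ : IsAdd φ)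
    (kφA : Kills φ A) (n w : G ⧸ Γ → k)
    (hwA : ∀ x, w x = zc Γ φ A x - (n (A • x) - n x)) (x : G ⧸ Γ) :
    w x = zc Γ φ A⁻¹ x - (n (A⁻¹ • x) - n x) := by
  have h1 := symbol_add_self A hAA hφ kφA n w hwA (A⁻¹ • x)
  have h2 := hwA (A⁻¹ • x)
  rw [smul_inv_smul] at h1 h2
  rw [zc_inv hφ]
  linear_combination h1 - h2

/-- `φ` kills the product `R * A` as soon as it has a symbol. -/
theorem kills_mul_of_symbol (A R : G) (hAA : ∀ x : G ⧸ Γ, A • A • x = x) (hφ : IsAdd φ)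
    (kφA : Kills φ A) (n w : G ⧸ Γ → k)
    (hwA : ∀ x, w x = zc Γ φ A x - (n (A • x) - n x))
    (hwR : ∀ x, w x = zc Γ φ R x - (n (R • x) - n x)) : Kills φ (R * A) := by
  refine kills_of_primitive hφ n (fun y => ?_)
  rw [zc_mul hφ, mul_smul]
  have e1 := hwR (A • y)
  have e2 := hwA y
  linear_combination symbol_add_self A hAA hφ kφA n w hwA y - e1 - e2

/-- **Residue formula, double-coset form, general group.**  `S`, `R` two elements with
`S • S • x = x`; the parabolic element is `R * S⁻¹`; `(s i, e i)` a family of double coset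
representatives `Γ \ G / ⟨R * S⁻¹⟩` with widths. -/
theorem residue_general [Fintype (G ⧸ Γ)] (S R : G) (hSS : ∀ x : G ⧸ Γ, S • S • x = x)
    (hφ : IsAdd φ) (hψ : IsAdd ψ) (hu : IsLift φ ψ u)
    (kφS : Kills φ S) (kφR : Kills φ R) (kuS : Kills u S) (kuR : Kills u R)
    (n w : G ⧸ Γ → k)
    (hwS : ∀ x, w x = zc Γ φ S x - (n (S • x) - n x))
    (hwR : ∀ x, w x = zc Γ φ R x - (n (R • x) - n x))
    (m1 m2 : G ⧸ Γ → k)
    (h1 : ∀ x, zc Γ ψ S x = m1 (S • x) - m1 x)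
    (h2 : ∀ x, zc Γ ψ R x = m2 (R • x) - m2 x)
    (kψP : Kills ψ (R * S⁻¹))
    {ι : Type*} [Fintype ι] (s : ι → G) (e : ι → ℕ) (he : ∀ i, 0 < e i)
    (hmem : ∀ i, s i * (R * S⁻¹) ^ e i * (s i)⁻¹ ∈ Γ)
    (hmin : ∀ i, ∀ j : ℕ, 0 < j → j < e i → s i * (R * S⁻¹) ^ j * (s i)⁻¹ ∉ Γ)
    (hcover : ∀ g : G, ∃ i, ∃ γ ∈ Γ, ∃ j : ℤ, g = γ * s i * (R * S⁻¹) ^ j)
    (huniq : ∀ i i', ∀ γ ∈ Γ, ∀ j : ℤ, s i = γ * s i' * (R * S⁻¹) ^ j → i = i') :
    ∑ i, u ⟨s i * (R * S⁻¹) ^ e i * (s i)⁻¹, hmem i⟩ = ∑ y, w y * (m2 y - m1 y) := by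
  obtain ⟨n', hn'⟩ := kψP.exists_primitive hψ
  obtain ⟨hfix, hbij⟩ := orbit_system_of_cosets (Γ := Γ) (R * S⁻¹) s e he hmem hmin hcover huniq
  have hAA : ∀ x : G ⧸ Γ, S⁻¹ • S⁻¹ • x = x := by
    intro x
    conv_lhs => rw [← hSS x]
    rw [inv_smul_smul, inv_smul_smul]
  have kφA : Kills φ S⁻¹ := kills_inv_of_isAdd hφ kφS
  have hwA := symbol_inv S hSS hφ kφS n w hwS
  have kφP : Kills φ (R * S⁻¹) := kills_mul_of_symbol S⁻¹ R hAA hφ kφA n w hwA hwR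
  have core := residue_core S⁻¹ R hAA hφ hψ hu kφA kφR (kills_inv_of_lift hu hφ hψ kuS kφS) kuR
    n w hwA hwR m1 m2 n' (primitive_inv hψ S m1 h1) h2 hn'
    (fun i => (((s i)⁻¹ : G) : G ⧸ Γ)) e hfix hbij
  rw [← core]
  refine Finset.sum_congr rfl fun i _ => ?_
  have hmem' : ((s i)⁻¹)⁻¹ * (R * S⁻¹) ^ e i * (s i)⁻¹ ∈ Γ := by rw [inv_inv]; exact hmem i
  obtain ⟨a, ha⟩ := exists_conj_pkap Γ ((R * S⁻¹) ^ e i) (s i)⁻¹ hmem'
  have hQ : (⟨((s i)⁻¹)⁻¹ * (R * S⁻¹) ^ e i * (s i)⁻¹, hmem'⟩ : Γ) =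
      ⟨s i * (R * S⁻¹) ^ e i * (s i)⁻¹, hmem i⟩ := by
    apply Subtype.ext
    show ((s i)⁻¹)⁻¹ * (R * S⁻¹) ^ e i * (s i)⁻¹ = s i * (R * S⁻¹) ^ e i * (s i)⁻¹
    rw [inv_inv]
  have hφQ := kφP (s i)⁻¹ (e i) hmem'
  have hψQ := kψP (s i)⁻¹ (e i) hmem'
  rw [ha, hu.conj' hφ hψ a _ hφQ hψQ, hQ]

/-- killing is stable under multiplying the element by a central element of `Γ` on whose powers
the (additive) map vanishes. -/
theorem kills_mul_central (hφ : IsAdd φ) {t z : G} (hz : z ∈ Γ) (hc : ∀ g : G, z * g = g * z)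
    (hφz : ∀ e : ℕ, φ ⟨z ^ e, Γ.pow_mem hz e⟩ = 0) (h : Kills φ t) : Kills φ (t * z) := by
  intro b e hb
  have hcomm : Commute t z := (hc t).symm
  have hzb : z ^ e * b = b * z ^ e := by
    have : Commute z b := hc b
    exact (this.pow_left e)
  have e1 : b⁻¹ * (t * z) ^ e * b = (b⁻¹ * t ^ e * b) * z ^ e := by
    rw [hcomm.mul_pow, mul_assoc, mul_assoc, hzb]
    group
  have hmem : b⁻¹ * t ^ e * b ∈ Γ := by
    have := Γ.mul_mem hb (Γ.inv_mem (Γ.pow_mem hz e))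
    rwa [e1, mul_inv_cancel_right] at this
  have e2 : (⟨b⁻¹ * (t * z) ^ e * b, hb⟩ : Γ) =
      ⟨b⁻¹ * t ^ e * b, hmem⟩ * ⟨z ^ e, Γ.pow_mem hz e⟩ := Subtype.ext e1
  rw [e2, hφ, h b e hmem, hφz e, add_zero]

end residue

/-! ### The `SL(2, ℤ)` form -/

section SL2

open ModularGroup
open scoped MatrixGroups

variable {Γ : Subgroup SL(2, ℤ)} {k : Type uk} [CommRing k] {φ ψ u : Γ → k}

theorem S_mul_S : (S * S : SL(2, ℤ)) = -1 := by
  apply Subtype.ext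
  rw [Matrix.SpecialLinearGroup.coe_mul, S_mul_S_eq]
  simp

theorem neg_one_smul_coset (hneg : -1 ∈ Γ) (x : SL(2, ℤ) ⧸ Γ) : (-1 : SL(2, ℤ)) • x = x := by
  induction x using QuotientGroup.induction_on with
  | H g =>
    rw [smul_coe_eq, eq_comm, QuotientGroup.eq]
    have : g⁻¹ * (-1 * g) = -1 := by simp
    rw [this]
    exact hneg

theorem S_smul_S_smul (hneg : -1 ∈ Γ) (x : SL(2, ℤ) ⧸ Γ) : S • S • x = x := by
  rw [← mul_smul, S_mul_S, neg_one_smul_coset hneg]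

/-- **Residue formula for `SL(2, ℤ)`.**  `(s i, e i)` is a family of representatives of
`Γ \ SL(2, ℤ) / ⟨T⟩` with widths (the hypotheses of `CuspAut.of_orbits`); `(n, w)` is the
normalised symbol of `φ` for the generators `S`, `S * T`; `m1`, `m2` are primitives of `zc ψ`
along `S`, `S * T`; `u` is a lift of `(φ, ψ)` vanishing on the conjugates of powers of `S` and
`S * T`.  Then `Σ_i u (s i T^(e i) (s i)⁻¹) = Σ_x w x * (m2 x - m1 x)`. -/
theorem residue_formula [Fintype (SL(2, ℤ) ⧸ Γ)] (hneg : -1 ∈ Γ)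
    (hφ : IsAdd φ) (hψ : IsAdd ψ) (hu : IsLift φ ψ u)
    (kφS : Kills φ S) (kφR : Kills φ (S * T)) (kuS : Kills u S) (kuR : Kills u (S * T))
    (n w : SL(2, ℤ) ⧸ Γ → k)
    (hw : ∀ x, w x = zc Γ φ S x - (n (S • x) - n x) ∧
      w x = zc Γ φ (S * T) x - (n ((S * T) • x) - n x))
    (m1 m2 : SL(2, ℤ) ⧸ Γ → k)
    (h1 : ∀ x, zc Γ ψ S x = m1 (S • x) - m1 x)
    (h2 : ∀ x, zc Γ ψ (S * T) x = m2 ((S * T) • x) - m2 x)
    (kψT : Kills ψ T)
    {ι : Type*} [Fintype ι] (s : ι → SL(2, ℤ)) (e : ι → ℕ) (he : ∀ i, 0 < e i)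
    (hmem : ∀ i, s i * T ^ e i * (s i)⁻¹ ∈ Γ)
    (hmin : ∀ i, ∀ j : ℕ, 0 < j → j < e i → s i * T ^ j * (s i)⁻¹ ∉ Γ)
    (hcover : ∀ g : SL(2, ℤ), ∃ i, ∃ γ ∈ Γ, ∃ j : ℤ, g = γ * s i * T ^ j)
    (huniq : ∀ i i', ∀ γ ∈ Γ, ∀ j : ℤ, s i = γ * s i' * T ^ j → i = i') :
    ∑ i, u ⟨s i * T ^ e i * (s i)⁻¹, hmem i⟩ = ∑ x, w x * (m2 x - m1 x) := by
  have kψP : Kills ψ (S * T * S⁻¹) := kills_conj_of S kψT
  have econj : ∀ j : ℕ, (S * T * S⁻¹) ^ j = S * T ^ j * S⁻¹ := fun j => conj_pow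
  have econjz : ∀ j : ℤ, (S * T * S⁻¹) ^ j = S * T ^ j * S⁻¹ := fun j => conj_zpow
  have eel : ∀ (i : ι) (j : ℕ),
      s i * S⁻¹ * (S * T * S⁻¹) ^ j * (s i * S⁻¹)⁻¹ = s i * T ^ j * (s i)⁻¹ := by
    intro i j
    rw [econj]
    group
  have hmem' : ∀ i, s i * S⁻¹ * (S * T * S⁻¹) ^ e i * (s i * S⁻¹)⁻¹ ∈ Γ := fun i => by
    rw [eel]; exact hmem i
  have key := residue_general S (S * T) (S_smul_S_smul hneg) hφ hψ hu kφS kφR kuS kuR n w
    (fun x => (hw x).1) (fun x => (hw x).2) m1 m2 h1 h2 kψP (fun i => s i * S⁻¹) e he hmem'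
    (fun i j hj hlt => by rw [eel]; exact hmin i j hj hlt)
    (fun g => by
      obtain ⟨i, γ, hγ, j, hg⟩ := hcover (g * S)
      refine ⟨i, γ, hγ, j, ?_⟩
      rw [econjz]
      have : g = g * S * S⁻¹ := by group
      rw [this, hg]
      group)
    (fun i i' γ hγ j h => by
      refine huniq i i' γ hγ j ?_
      rw [econjz] at h
      have : s i = s i * S⁻¹ * S := by group
      rw [this, h]
      group)
  rw [← key]
  refine Finset.sum_congr rfl fun i _ => ?_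
  congr 1
  exact Subtype.ext (eel i (e i)).symm

/-- killing the conjugates of powers of `S * T * S` is the same as killing those of `T`, for an
additive map killing the conjugates of powers of `S`. -/
theorem kills_T_of_kills_STS (hneg : -1 ∈ Γ) (hψ : IsAdd ψ) (kψS : Kills ψ S)
    (h : Kills ψ (S * T * S)) : Kills ψ T := by
  have h1 : Kills ψ (S⁻¹ * (S * T * S) * (S⁻¹)⁻¹) := kills_conj_of S⁻¹ h
  have hz : ∀ e : ℕ, ψ ⟨(-1 : SL(2, ℤ)) ^ e, Γ.pow_mem hneg e⟩ = 0 := by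
    intro e
    have hm : (1 : SL(2, ℤ))⁻¹ * S ^ (2 * e) * 1 ∈ Γ := by
      rw [inv_one, one_mul, mul_one, pow_mul, pow_two, S_mul_S]
      exact Γ.pow_mem hneg e
    have := kψS 1 (2 * e) hm
    have e1 : (⟨(-1 : SL(2, ℤ)) ^ e, Γ.pow_mem hneg e⟩ : Γ) = ⟨1⁻¹ * S ^ (2 * e) * 1, hm⟩ := by
      apply Subtype.ext
      show (-1 : SL(2, ℤ)) ^ e = 1⁻¹ * S ^ (2 * e) * 1
      rw [inv_one, one_mul, mul_one, pow_mul, pow_two, S_mul_S]
    rw [e1]
    exact this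
  have h2 := kills_mul_central hψ hneg (fun g => by simp) hz h1
  have e2 : S⁻¹ * (S * T * S) * (S⁻¹)⁻¹ * (-1 : SL(2, ℤ)) = T := by
    rw [inv_inv, ← S_mul_S]
    have hS4 : (S * S) * (S * S) = (1 : SL(2, ℤ)) := by rw [S_mul_S]; simp
    calc S⁻¹ * (S * T * S) * S * (S * S) = T * ((S * S) * (S * S)) := by group
      _ = T := by rw [hS4, mul_one]
  rwa [e2] at h2

/-- `residue_formula` with the parabolic hypothesis on `S * T * S` (the product of the two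
generators `R = S * T` and `S`). -/
theorem residue_formula' [Fintype (SL(2, ℤ) ⧸ Γ)] (hneg : -1 ∈ Γ)
    (hφ : IsAdd φ) (hψ : IsAdd ψ) (hu : IsLift φ ψ u)
    (kφS : Kills φ S) (kφR : Kills φ (S * T)) (kuS : Kills u S) (kuR : Kills u (S * T))
    (n w : SL(2, ℤ) ⧸ Γ → k)
    (hw : ∀ x, w x = zc Γ φ S x - (n (S • x) - n x) ∧
      w x = zc Γ φ (S * T) x - (n ((S * T) • x) - n x))
    (m1 m2 : SL(2, ℤ) ⧸ Γ → k)
    (h1 : ∀ x, zc Γ ψ S x = m1 (S • x) - m1 x)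
    (h2 : ∀ x, zc Γ ψ (S * T) x = m2 ((S * T) • x) - m2 x)
    (kψP : Kills ψ (S * T * S))
    {ι : Type*} [Fintype ι] (s : ι → SL(2, ℤ)) (e : ι → ℕ) (he : ∀ i, 0 < e i)
    (hmem : ∀ i, s i * T ^ e i * (s i)⁻¹ ∈ Γ)
    (hmin : ∀ i, ∀ j : ℕ, 0 < j → j < e i → s i * T ^ j * (s i)⁻¹ ∉ Γ)
    (hcover : ∀ g : SL(2, ℤ), ∃ i, ∃ γ ∈ Γ, ∃ j : ℤ, g = γ * s i * T ^ j)
    (huniq : ∀ i i', ∀ γ ∈ Γ, ∀ j : ℤ, s i = γ * s i' * T ^ j → i = i') :
    ∑ i, u ⟨s i * T ^ e i * (s i)⁻¹, hmem i⟩ = ∑ x, w x * (m2 x - m1 x) :=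
  residue_formula hneg hφ hψ hu kφS kφR kuS kuR n w hw m1 m2 h1 h2
    (kills_T_of_kills_STS hneg hψ (kills_of_primitive hψ m1 h1) kψP) s e he hmem hmin hcover huniq

end SL2

end Fermat.Agent.P7.PdResidue
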