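/-
P7 leaf [PD-WIRE]  (helper17).

Abstract wiring from the Poincaré-duality contract (alternating pairings mod `p` on the lattices,
restriction adjoint to transfer, the Atkin–Lehner operator an isometry) to the two hypotheses of
Ribet's lattice argument:

* `selfAdjoint_of_pd` : `T = cor ∘ w ∘ res` is self-adjoint;
* `dualIhara_general` / `dualIhara_of_pd` : "dual Ihara" (`s M ⊆ B L' + p M`) from "Ihara"
  (`s'` kills the kernel of `A` modulo `p`) and the pairings.

Mathlib + `P7/RibetLA` only.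
-/
import Mathlib
import Fermat.Agent.P7.RibetLA

set_option autoImplicit false

namespace Fermat.Agent.P7.PdWire

section W1

/-- `T = cor ∘ w ∘ res` is self-adjoint for an alternating pairing `β`, if `res` is adjoint to
`cor` and the involution `w` is an isometry of the pairing `β₁` on the upper level. -/
theorem selfAdjoint_of_pd {L L₁ k : Type*} [Neg k]
    (β : L → L → k) (β₁ : L₁ → L₁ → k) (hβ : ∀ x y, β y x = -β x y)
    (hβ₁ : ∀ x y, β₁ y x = -β₁ x y)
    (res : L → L₁) (cor : L₁ → L) (w : L₁ → L₁) (hw2 : ∀ y, w (w y) = y)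
    (hadj : ∀ x y, β₁ (res x) y = β x (cor y)) (hiso : ∀ x y, β₁ (w x) (w y) = β₁ x y) :
    ∀ x z, β (cor (w (res x))) z = β x (cor (w (res z))) := by
  intro x z
  calc β (cor (w (res x))) z = -β z (cor (w (res x))) := hβ _ _
    _ = -β₁ (res z) (w (res x)) := by rw [hadj]
    _ = β₁ (w (res x)) (res z) := (hβ₁ _ _).symm
    _ = β₁ (w (w (res x))) (w (res z)) := (hiso _ _).symm
    _ = β₁ (res x) (w (res z)) := by rw [hw2]
    _ = β x (cor (w (res z))) := hadj _ _

/-- The twisted restriction `w ∘ res` is adjoint to the twisted transfer `cor ∘ w`. -/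
theorem adjoint_twist {L L₁ k : Type*}
    (β : L → L → k) (β₁ : L₁ → L₁ → k)
    (res : L → L₁) (cor : L₁ → L) (w : L₁ → L₁) (hw2 : ∀ y, w (w y) = y)
    (hadj : ∀ x y, β₁ (res x) y = β x (cor y)) (hiso : ∀ x y, β₁ (w x) (w y) = β₁ x y) :
    ∀ x y, β₁ (w (res x)) y = β x (cor (w y)) := by
  intro x y
  calc β₁ (w (res x)) y = β₁ (w (res x)) (w (w y)) := by rw [hw2]
    _ = β₁ (res x) (w y) := hiso _ _
    _ = β x (cor (w y)) := hadj _ _

end W1

section Quot

/-- The subgroup `p M`. -/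
def pSub (M : Type*) [AddCommGroup M] (p : ℕ) : AddSubgroup M :=
  (zsmulAddGroupHom (p : ℤ) : M →+ M).range

lemma mem_pSub {M : Type*} [AddCommGroup M] {p : ℕ} {m : M} :
    m ∈ pSub M p ↔ ∃ w, m = (p : ℤ) • w := by
  constructor
  · rintro ⟨w, rfl⟩
    exact ⟨w, rfl⟩
  · rintro ⟨w, rfl⟩
    exact ⟨w, rfl⟩

lemma nsmul_mem_pSub {M : Type*} [AddCommGroup M] (p : ℕ) (x : M) : p • x ∈ pSub M p :=
  mem_pSub.2 ⟨x, (natCast_zsmul x p).symm⟩

/-- `M / p M` as a `ZMod p`-module. -/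
noncomputable instance instModuleQuot (M : Type*) [AddCommGroup M] (p : ℕ) :
    Module (ZMod p) (M ⧸ pSub M p) :=
  QuotientAddGroup.zmodModule (nsmul_mem_pSub p)

lemma mk_eq_zero_iff {M : Type*} [AddCommGroup M] {p : ℕ} {m : M} :
    (QuotientAddGroup.mk m : M ⧸ pSub M p) = 0 ↔ ∃ w, m = (p : ℤ) • w := by
  rw [QuotientAddGroup.eq_zero_iff, mem_pSub]

/-- The map induced on the quotients modulo `p` by an additive map. -/
noncomputable def redMap {M N : Type*} [AddCommGroup M] [AddCommGroup N] (p : ℕ) (f : M →+ N) :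
    (M ⧸ pSub M p) →ₗ[ZMod p] (N ⧸ pSub N p) :=
  (QuotientAddGroup.map (pSub M p) (pSub N p) f (by
    intro m hm
    obtain ⟨w, rfl⟩ := mem_pSub.1 hm
    exact mem_pSub.2 ⟨f w, map_zsmul f _ _⟩)).toZModLinearMap p

@[simp] lemma redMap_mk {M N : Type*} [AddCommGroup M] [AddCommGroup N] (p : ℕ) (f : M →+ N)
    (m : M) : redMap p f (QuotientAddGroup.mk m) = QuotientAddGroup.mk (f m) := rfl

/-- A biadditive `ZMod p`-valued form descends to `M / p M`. -/
noncomputable def redForm {M : Type*} [AddCommGroup M] (p : ℕ) (β : M → M → ZMod p)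
    (hl : ∀ x x' z, β (x + x') z = β x z + β x' z)
    (hr : ∀ x z z', β x (z + z') = β x z + β x z') :
    (M ⧸ pSub M p) →+ (M ⧸ pSub M p) →+ ZMod p :=
  QuotientAddGroup.lift (pSub M p)
    (AddMonoidHom.mk' (fun x => QuotientAddGroup.lift (pSub M p) (AddMonoidHom.mk' (β x) (hr x))
      (by
        intro m hm
        obtain ⟨w, rfl⟩ := mem_pSub.1 hm
        rw [AddMonoidHom.mem_ker, map_zsmul]
        simp))
      (by
        intro x x'
        ext z
        simp [hl]))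
    (by
      intro m hm
      obtain ⟨w, rfl⟩ := mem_pSub.1 hm
      rw [AddMonoidHom.mem_ker, map_zsmul]
      ext z
      simp)

@[simp] lemma redForm_mk {M : Type*} [AddCommGroup M] (p : ℕ) (β : M → M → ZMod p)
    (hl : ∀ x x' z, β (x + x') z = β x z + β x' z)
    (hr : ∀ x z z', β x (z + z') = β x z + β x z') (x z : M) :
    redForm p β hl hr (QuotientAddGroup.mk x) (QuotientAddGroup.mk z) = β x z := rfl

end Quot

section Main

/-- **Dual Ihara from Ihara and perfect pairings, lattice form.**  `β`, `β'` are biadditive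
`ZMod p`-valued forms on the finitely generated group `M` and on `L'`, left-nondegenerate modulo
`p`; `B` is adjoint to `A` and `S'` is adjoint to `S`.  If `S'` maps the kernel of `A` modulo `p`
into `p M`, then `S M ⊆ B L' + p M`. -/
theorem dualIhara_general {M L' : Type*} [AddCommGroup M] [AddCommGroup L'] [Module.Finite ℤ M]
    (p : ℕ) (hp : p.Prime)
    (β : M → M → ZMod p) (β' : L' → L' → ZMod p)
    (hβl : ∀ x x' z, β (x + x') z = β x z + β x' z)
    (hβr : ∀ x z z', β x (z + z') = β x z + β x z')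
    (hβ'l : ∀ y y' z, β' (y + y') z = β' y z + β' y' z)
    (hβ'r : ∀ y z z', β' y (z + z') = β' y z + β' y z')
    (hβnd : ∀ x, (∀ z, β x z = 0) → ∃ x', x = (p : ℤ) • x')
    (hβ'nd : ∀ y, (∀ y', β' y y' = 0) → ∃ y₀, y = (p : ℤ) • y₀)
    (A : M →+ L') (B : L' →+ M) (hadj : ∀ x y, β' (A x) y = β x (B y))
    (S S' : M →+ M) (hS : ∀ x z, β (S' x) z = β x (S z))
    (hker : ∀ x, (∃ y, A x = (p : ℤ) • y) → ∃ w, S' x = (p : ℤ) • w) :
    ∀ z, ∃ y w, S z = B y + (p : ℤ) • w := by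
  have : Fact p.Prime := ⟨hp⟩
  have : Module.Finite ℤ (M ⧸ pSub M p) :=
    Module.Finite.of_surjective (QuotientAddGroup.mk' (pSub M p)).toIntLinearMap
      (QuotientAddGroup.mk'_surjective _)
  have : Module.Finite (ZMod p) (M ⧸ pSub M p) :=
    Module.Finite.of_restrictScalars_finite ℤ (ZMod p) _
  let βb : (M ⧸ pSub M p) →ₗ[ZMod p] (M ⧸ pSub M p) →ₗ[ZMod p] ZMod p :=
    LinearMap.mk₂ (ZMod p) (fun v w => redForm p β hβl hβr v w)
      (fun v v' w => by simp)
      (fun c v w => ZMod.map_smul ((redForm p β hβl hβr).flip w) c v)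
      (fun v w w' => by simp)
      (fun c v w => ZMod.map_smul (redForm p β hβl hβr v) c w)
  have hβb : ∀ x z : M, βb (QuotientAddGroup.mk x) (QuotientAddGroup.mk z) = β x z :=
    fun x z => rfl
  have key := RibetLA.range_le_range_of_adjoint (redMap p A) (redMap p B) βb
    (fun v w => redForm p β' hβ'l hβ'r v w) ?_ ?_ ?_ (redMap p S) (redMap p S') ?_ ?_
  · intro z
    have hz : redMap p S (QuotientAddGroup.mk z) ∈ LinearMap.range (redMap p B) :=
      key ⟨_, rfl⟩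
    obtain ⟨v', hv'⟩ := hz
    obtain ⟨y, rfl⟩ := QuotientAddGroup.mk_surjective v'
    rw [redMap_mk, redMap_mk] at hv'
    have h0 : (QuotientAddGroup.mk (S z - B y) : M ⧸ pSub M p) = 0 := by
      rw [QuotientAddGroup.mk_sub, hv', sub_self]
    obtain ⟨w, hw⟩ := mk_eq_zero_iff.1 h0
    exact ⟨y, w, by rw [← hw]; abel⟩
  · intro x hx
    obtain ⟨m, rfl⟩ := QuotientAddGroup.mk_surjective x
    apply mk_eq_zero_iff.2
    apply hβnd
    intro z
    have h1 := hx (QuotientAddGroup.mk z)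
    rwa [hβb] at h1
  · intro y hy
    obtain ⟨n, rfl⟩ := QuotientAddGroup.mk_surjective y
    apply mk_eq_zero_iff.2
    apply hβ'nd
    intro z
    have h1 := hy (QuotientAddGroup.mk z)
    rwa [redForm_mk] at h1
  · intro x y
    obtain ⟨m, rfl⟩ := QuotientAddGroup.mk_surjective x
    obtain ⟨n, rfl⟩ := QuotientAddGroup.mk_surjective y
    rw [redMap_mk, redMap_mk, hβb, redForm_mk, hadj]
  · intro x z
    obtain ⟨m, rfl⟩ := QuotientAddGroup.mk_surjective x
    obtain ⟨n, rfl⟩ := QuotientAddGroup.mk_surjective z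
    rw [redMap_mk, redMap_mk, hβb, hβb, hS]
  · intro x hx
    obtain ⟨m, rfl⟩ := QuotientAddGroup.mk_surjective x
    rw [redMap_mk] at hx ⊢
    exact mk_eq_zero_iff.2 (hker m (mk_eq_zero_iff.1 hx))

/-- **[PD-WIRE]** Dual Ihara for the pair of degeneracy maps `α^* = (res, w ∘ res)`,
`α_* = (cor, cor ∘ w)`, from the Poincaré-duality contract: `res` adjoint to `cor`, `w` an
involutive isometry of `β'`, both forms left-nondegenerate modulo `p`, and Ihara for the adjoint
`s'` of `s`. -/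
theorem dualIhara_of_pd {L L' : Type*} [AddCommGroup L] [AddCommGroup L'] [Module.Finite ℤ L]
    (p : ℕ) (hp : p.Prime)
    (β : L → L → ZMod p) (β' : L' → L' → ZMod p)
    (hβl : ∀ x x' z, β (x + x') z = β x z + β x' z)
    (hβr : ∀ x z z', β x (z + z') = β x z + β x z')
    (hβ'l : ∀ y y' z, β' (y + y') z = β' y z + β' y' z)
    (hβ'r : ∀ y z z', β' y (z + z') = β' y z + β' y z')
    (hβnd : ∀ x, (∀ z, β x z = 0) → ∃ x', x = (p : ℤ) • x')
    (hβ'nd : ∀ y, (∀ y', β' y y' = 0) → ∃ y₀, y = (p : ℤ) • y₀)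
    (resA : L →+ L') (corA : L' →+ L) (wq : L' →+ L') (hw2 : ∀ y, wq (wq y) = y)
    (hadj : ∀ x y, β' (resA x) y = β x (corA y)) (hiso : ∀ x y, β' (wq x) (wq y) = β' x y)
    (s s' : L →+ L) (hs : ∀ x z, β (s' x) z = β x (s z))
    (hIh : ∀ x₁ x₂ : L, (∃ y, resA x₁ + wq (resA x₂) = (p : ℤ) • y) →
      (∃ w, s' x₁ = (p : ℤ) • w) ∧ ∃ w, s' x₂ = (p : ℤ) • w) :
    ∀ z₁ z₂ : L, ∃ (y : L') (w₁ w₂ : L),
      s z₁ = corA y + (p : ℤ) • w₁ ∧ s z₂ = corA (wq y) + (p : ℤ) • w₂ := by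
  have hβ0r : ∀ x, β x 0 = 0 := fun x => by
    have h := hβr x 0 0
    rw [add_zero] at h
    exact left_eq_add.mp h
  have hβ0l : ∀ z, β 0 z = 0 := fun z => by
    have h := hβl 0 0 z
    rw [add_zero] at h
    exact left_eq_add.mp h
  have hadj2 := adjoint_twist β β' resA corA wq hw2 hadj hiso
  have key := dualIhara_general (M := L × L) (L' := L') p hp
    (fun x z => β x.1 z.1 + β x.2 z.2) β'
    (fun x x' z => by simp only [Prod.fst_add, Prod.snd_add, hβl]; abel)
    (fun x z z' => by simp only [Prod.fst_add, Prod.snd_add, hβr]; abel)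
    hβ'l hβ'r
    (fun x hx => by
      obtain ⟨a, ha⟩ := hβnd x.1 (fun z => by
        have h := hx (z, 0)
        simpa [hβ0r] using h)
      obtain ⟨b, hb⟩ := hβnd x.2 (fun z => by
        have h := hx (0, z)
        simpa [hβ0r] using h)
      exact ⟨(a, b), Prod.ext (by simpa using ha) (by simpa using hb)⟩)
    hβ'nd
    (resA.coprod (wq.comp resA)) (corA.prod (corA.comp wq))
    (fun x y => by
      simp only [AddMonoidHom.coprod_apply, AddMonoidHom.comp_apply, AddMonoidHom.prod_apply,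
        hβ'l, hadj, hadj2])
    (s.prodMap s) (s'.prodMap s')
    (fun x z => by
      show β (s' x.1) z.1 + β (s' x.2) z.2 = β x.1 (s z.1) + β x.2 (s z.2)
      rw [hs, hs])
    (fun x hx => by
      obtain ⟨y, hy⟩ := hx
      obtain ⟨⟨w₁, hw₁⟩, ⟨w₂, hw₂⟩⟩ := hIh x.1 x.2 ⟨y, by
        simpa only [AddMonoidHom.coprod_apply, AddMonoidHom.comp_apply] using hy⟩
      exact ⟨(w₁, w₂), Prod.ext (by simpa using hw₁) (by simpa using hw₂)⟩)
  intro z₁ z₂
  obtain ⟨y, w, hw⟩ := key (z₁, z₂)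
  refine ⟨y, w.1, w.2, ?_, ?_⟩
  · have h := congrArg Prod.fst hw
    simpa using h
  · have h := congrArg Prod.snd hw
    simpa using h

end Main

section Shape

/-- **[PD-WIRE], in the shape of the hypothesis `hDI` of `RibetLA.exists_new_prod`.**
`A x = res x.1 + w (res x.2)`, `B y = (cor y, cor (w y))`, `t` self-adjoint for `β`, and Ihara in
the shape of `hIh` of `RibetLA.exists_new_prod`. -/
theorem hDI_of_pd {L L' : Type*} [AddCommGroup L] [AddCommGroup L'] [Module.Finite ℤ L]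
    (p : ℕ) (hp : p.Prime)
    (β : L → L → ZMod p) (β' : L' → L' → ZMod p)
    (hβl : ∀ x x' z, β (x + x') z = β x z + β x' z)
    (hβr : ∀ x z z', β x (z + z') = β x z + β x z')
    (hβ'l : ∀ y y' z, β' (y + y') z = β' y z + β' y' z)
    (hβ'r : ∀ y z z', β' y (z + z') = β' y z + β' y z')
    (hβnd : ∀ x, (∀ z, β x z = 0) → ∃ x', x = (p : ℤ) • x')
    (hβ'nd : ∀ y, (∀ y', β' y y' = 0) → ∃ y₀, y = (p : ℤ) • y₀)
    (resA : L →ₗ[ℤ] L') (corA : L' →ₗ[ℤ] L) (wq : L' →ₗ[ℤ] L') (hw2 : ∀ y, wq (wq y) = y)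
    (hadj : ∀ x y, β' (resA x) y = β x (corA y)) (hiso : ∀ x y, β' (wq x) (wq y) = β' x y)
    (A : L × L →ₗ[ℤ] L') (B : L' →ₗ[ℤ] L × L)
    (hA : ∀ x, A x = resA x.1 + wq (resA x.2)) (hB : ∀ y, B y = (corA y, corA (wq y)))
    (t : L →ₗ[ℤ] L) (e : ℤ) (ht : ∀ x z, β (t x) z = β x (t z))
    (hIh : ∀ x : L × L, (∃ y, A x = (p : ℤ) • y) →
      ∃ w : L × L, (t x.1 - e • x.1, t x.2 - e • x.2) = (p : ℤ) • w) :
    ∀ z : L × L, ∃ (y : L') (w : L × L),
      (t z.1 - e • z.1, t z.2 - e • z.2) = B y + (p : ℤ) • w := by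
  -- `β` is `ℤ`-bilinear
  have hsl : ∀ (n : ℤ) x z, β (n • x) z = n • β x z := fun n x z =>
    map_zsmul (AddMonoidHom.mk' (fun x => β x z) (fun a b => hβl a b z)) n x
  have hsr : ∀ (n : ℤ) x z, β x (n • z) = n • β x z := fun n x z =>
    map_zsmul (AddMonoidHom.mk' (β x) (hβr x)) n z
  have hsubl : ∀ x x' z, β (x - x') z = β x z - β x' z := fun x x' z =>
    map_sub (AddMonoidHom.mk' (fun x => β x z) (fun a b => hβl a b z)) x x'
  have hsubr : ∀ x z z', β x (z - z') = β x z - β x z' := fun x z z' =>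
    map_sub (AddMonoidHom.mk' (β x) (hβr x)) z z'
  let s : L →+ L := (t - e • (LinearMap.id : L →ₗ[ℤ] L)).toAddMonoidHom
  have hsapp : ∀ x, s x = t x - e • x := fun x => rfl
  have key := dualIhara_of_pd p hp β β' hβl hβr hβ'l hβ'r hβnd hβ'nd
    resA.toAddMonoidHom corA.toAddMonoidHom wq.toAddMonoidHom hw2 hadj hiso s s
    (fun x z => by rw [hsapp, hsapp, hsubl, hsubr, hsl, hsr, ht])
    (fun x₁ x₂ hx => by
      obtain ⟨y, hy⟩ := hx
      obtain ⟨w, hw⟩ := hIh (x₁, x₂) ⟨y, by rw [hA]; exact hy⟩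
      exact ⟨⟨w.1, by rw [hsapp]; exact congrArg Prod.fst hw⟩,
        ⟨w.2, by rw [hsapp]; exact congrArg Prod.snd hw⟩⟩)
  intro z
  obtain ⟨y, w₁, w₂, h₁, h₂⟩ := key z.1 z.2
  refine ⟨y, (w₁, w₂), ?_⟩
  rw [hB]
  exact Prod.ext h₁ h₂

end Shape

end Fermat.Agent.P7.PdWire
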