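/-
P7 leaf [AL] (the (PD3) wiring): positive primitive parabolic elements of a subgroup of
`SL(2, ℤ)`, their invariance under conjugation by rational matrices of positive determinant,
their conjugacy classes, and the invariance of class sums.  Mathlib only.
-/
import Mathlib

set_option autoImplicit false
set_option linter.dupNamespace false
set_option linter.unusedSimpArgs false

namespace Fermat.Agent.P7.PosPar

open Matrix ModularGroup
open scoped MatrixGroups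

/-! ### rational matrices of integral unimodular matrices -/

/-- The rational matrix of an element of `SL(2, ℤ)`. -/
def toQ (g : SL(2, ℤ)) : Matrix (Fin 2) (Fin 2) ℚ := g.1.map (Int.cast : ℤ → ℚ)

lemma toQ_apply (g : SL(2, ℤ)) (i j : Fin 2) : toQ g i j = ((g.1 i j : ℤ) : ℚ) := rfl

lemma toQ_mul (g h : SL(2, ℤ)) : toQ (g * h) = toQ g * toQ h := by
  ext i j
  simp [toQ, Matrix.mul_apply, Fin.sum_univ_two]

lemma toQ_one : toQ 1 = 1 := by
  ext i j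
  fin_cases i <;> fin_cases j <;> simp [toQ]

lemma toQ_inv_mul (g : SL(2, ℤ)) : toQ g⁻¹ * toQ g = 1 := by
  rw [← toQ_mul, inv_mul_cancel, toQ_one]

lemma toQ_mul_inv (g : SL(2, ℤ)) : toQ g * toQ g⁻¹ = 1 := by
  rw [← toQ_mul, mul_inv_cancel, toQ_one]

lemma det_toQ (g : SL(2, ℤ)) : (toQ g).det = 1 := by
  have h := g.2
  rw [Matrix.det_fin_two] at h
  rw [Matrix.det_fin_two]
  simp only [toQ_apply]
  exact_mod_cast h

lemma toQ_T_zpow (n : ℤ) : toQ (T ^ n) = !![1, (n : ℚ); 0, 1] := by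
  ext i j
  rw [toQ_apply, coe_T_zpow]
  fin_cases i <;> fin_cases j <;> simp

lemma toQ_injective : Function.Injective toQ := by
  intro g h hgh
  ext i j
  have := congrFun (congrFun hgh i) j
  simp only [toQ_apply] at this
  exact_mod_cast this

/-- An element of `SL(2, ℤ)` with first column `(1, 0)` and lower right entry `1` is a power
of `T`. -/
lemma eq_T_zpow (C : SL(2, ℤ)) (h10 : C.1 1 0 = 0) (h00 : C.1 0 0 = 1) (h11 : C.1 1 1 = 1) :
    C = T ^ (C.1 0 1) := by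
  ext i j
  rw [coe_T_zpow]
  fin_cases i <;> fin_cases j <;> simp [h10, h00, h11]

/-! ### positive primitive parabolic elements -/

/-- The positive primitive parabolic elements of `Γ`: the elements `g T^e g⁻¹` of `Γ`
(`g ∈ SL(2, ℤ)`, `e > 0`) such that no smaller positive power `g T^e' g⁻¹` lies in `Γ`. -/
def PosPar (Γ : Subgroup SL(2, ℤ)) : Set SL(2, ℤ) :=
  {π | ∃ (g : SL(2, ℤ)) (e : ℕ), 0 < e ∧ π = g * T ^ e * g⁻¹ ∧ π ∈ Γ ∧
    ∀ e' : ℕ, 0 < e' → e' < e → g * T ^ e' * g⁻¹ ∉ Γ}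

lemma mem_of_mem_posPar {Γ : Subgroup SL(2, ℤ)} {π : SL(2, ℤ)} (h : π ∈ PosPar Γ) : π ∈ Γ := by
  obtain ⟨g, e, -, -, hmem, -⟩ := h
  exact hmem

/-- `PosPar Γ` is stable under conjugation by `Γ`. -/
theorem conj_mem {Γ : Subgroup SL(2, ℤ)} {γ π : SL(2, ℤ)} (hγ : γ ∈ Γ) (hπ : π ∈ PosPar Γ) :
    γ * π * γ⁻¹ ∈ PosPar Γ := by
  obtain ⟨g, e, he, rfl, hmem, hmin⟩ := hπ
  refine ⟨γ * g, e, he, by group, Γ.mul_mem (Γ.mul_mem hγ hmem) (Γ.inv_mem hγ), ?_⟩
  intro e' he' hlt hcon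
  refine hmin e' he' hlt ?_
  have : g * T ^ e' * g⁻¹ = γ⁻¹ * (γ * g * T ^ e' * (γ * g)⁻¹) * γ := by group
  rw [this]
  exact Γ.mul_mem (Γ.mul_mem (Γ.inv_mem hγ) hcon) hγ

/-- The exponents `j` with `g T^j g⁻¹ ∈ Γ` are exactly the multiples of the minimal positive
one. -/
theorem zpow_mem_iff {Γ : Subgroup SL(2, ℤ)} {g : SL(2, ℤ)} {e : ℕ} (he : 0 < e)
    (hmem : g * T ^ e * g⁻¹ ∈ Γ)
    (hmin : ∀ e' : ℕ, 0 < e' → e' < e → g * T ^ e' * g⁻¹ ∉ Γ) (j : ℤ) :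
    g * T ^ j * g⁻¹ ∈ Γ ↔ (e : ℤ) ∣ j := by
  have hpow : ∀ k : ℤ, g * T ^ ((e : ℤ) * k) * g⁻¹ ∈ Γ := by
    intro k
    have : g * T ^ ((e : ℤ) * k) * g⁻¹ = (g * T ^ e * g⁻¹) ^ k := by
      rw [_root_.zpow_mul, zpow_natCast]
      simp [conj_zpow]
    rw [this]
    exact Γ.zpow_mem hmem k
  constructor
  · intro hj
    have he0 : (e : ℤ) ≠ 0 := by exact_mod_cast he.ne'
    have hr0 : 0 ≤ j % (e : ℤ) := Int.emod_nonneg j he0
    have hr1 : j % (e : ℤ) < e := Int.emod_lt_of_pos j (by exact_mod_cast he)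
    have hrmem : g * T ^ (j % (e : ℤ)) * g⁻¹ ∈ Γ := by
      have h1 : j % (e : ℤ) = j - (e : ℤ) * (j / (e : ℤ)) := by
        have := Int.emod_add_mul_ediv j (e : ℤ)
        omega
      have h2 : g * T ^ (j % (e : ℤ)) * g⁻¹
          = (g * T ^ j * g⁻¹) * (g * T ^ ((e : ℤ) * (j / (e : ℤ))) * g⁻¹)⁻¹ := by
        rw [h1, _root_.zpow_sub]
        group
      rw [h2]
      exact Γ.mul_mem hj (Γ.inv_mem (hpow _))
    by_contra hdvd
    have hrpos : 0 < j % (e : ℤ) := by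
      rcases hr0.lt_or_eq with h | h
      · exact h
      · exact absurd (Int.dvd_of_emod_eq_zero h.symm) hdvd
    have hnat : ((j % (e : ℤ)).toNat : ℤ) = j % (e : ℤ) := Int.toNat_of_nonneg hr0
    refine hmin (j % (e : ℤ)).toNat (by omega) (by omega) ?_
    rw [← zpow_natCast, hnat]
    exact hrmem
  · rintro ⟨k, rfl⟩
    exact hpow k

/-! ### conjugation by rational matrices of positive determinant -/

/-- A nonzero rational vector is a rational multiple of a primitive integral vector. -/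
lemma exists_primitive (p q : ℚ) (h : p ≠ 0 ∨ q ≠ 0) :
    ∃ (a c : ℤ) (t : ℚ), IsCoprime a c ∧ p = a * t ∧ q = c * t := by
  set P : ℤ := p.num * q.den with hP
  set Q : ℤ := q.num * p.den with hQ
  have hpd : (p.den : ℚ) ≠ 0 := by exact_mod_cast p.den_nz
  have hqd : (q.den : ℚ) ≠ 0 := by exact_mod_cast q.den_nz
  have hp : p = (P : ℚ) / ((p.den : ℚ) * q.den) := by
    rw [eq_div_iff (mul_ne_zero hpd hqd), hP]
    push_cast
    linear_combination (q.den : ℚ) * Rat.mul_den_eq_num p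
  have hq : q = (Q : ℚ) / ((p.den : ℚ) * q.den) := by
    rw [eq_div_iff (mul_ne_zero hpd hqd), hQ]
    push_cast
    linear_combination (p.den : ℚ) * Rat.mul_den_eq_num q
  have hPQ : 0 < Int.gcd P Q := by
    rw [Int.gcd_pos_iff]
    rcases h with h | h
    · left
      rw [hP]
      exact mul_ne_zero (Rat.num_ne_zero.mpr h) (by exact_mod_cast q.den_nz)
    · right
      rw [hQ]
      exact mul_ne_zero (Rat.num_ne_zero.mpr h) (by exact_mod_cast p.den_nz)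
  obtain ⟨a, c, hac, hPa, hQc⟩ := Int.exists_gcd_one hPQ
  refine ⟨a, c, (Int.gcd P Q : ℚ) / ((p.den : ℚ) * q.den), ?_, ?_, ?_⟩
  · exact Int.isCoprime_iff_gcd_eq_one.mpr hac
  · have : (P : ℚ) = (a : ℚ) * (Int.gcd P Q : ℚ) := by exact_mod_cast hPa
    calc p = (P : ℚ) / ((p.den : ℚ) * q.den) := hp
      _ = (a : ℚ) * ((Int.gcd P Q : ℚ) / ((p.den : ℚ) * q.den)) := by rw [this]; ring
  · have : (Q : ℚ) = (c : ℚ) * (Int.gcd P Q : ℚ) := by exact_mod_cast hQc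
    calc q = (Q : ℚ) / ((p.den : ℚ) * q.den) := hq
      _ = (c : ℚ) * ((Int.gcd P Q : ℚ) / ((p.den : ℚ) * q.den)) := by rw [this]; ring

/-- A primitive integral vector is the first column of an element of `SL(2, ℤ)`. -/
lemma exists_SL2_of_isCoprime {a c : ℤ} (h : IsCoprime a c) :
    ∃ g : SL(2, ℤ), g.1 0 0 = a ∧ g.1 1 0 = c := by
  obtain ⟨u, v, huv⟩ := h
  refine ⟨⟨!![a, -v; c, u], ?_⟩, by simp, by simp⟩
  rw [Matrix.det_fin_two_of]
  linarith

/-- Iwasawa-type decomposition over `ℚ`: a rational matrix with nonzero determinant is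
`g' * B` with `g' ∈ SL(2, ℤ)` and `B` upper triangular. -/
lemma exists_upper (M : Matrix (Fin 2) (Fin 2) ℚ) (hM : M.det ≠ 0) :
    ∃ (g' : SL(2, ℤ)) (B : Matrix (Fin 2) (Fin 2) ℚ), M = toQ g' * B ∧ B 1 0 = 0 ∧
      B 0 0 * B 1 1 = M.det := by
  have hcol : M 0 0 ≠ 0 ∨ M 1 0 ≠ 0 := by
    by_contra hcon
    push Not at hcon
    apply hM
    rw [Matrix.det_fin_two, hcon.1, hcon.2]
    ring
  obtain ⟨a, c, t, hac, h00, h10⟩ := exists_primitive (M 0 0) (M 1 0) hcol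
  obtain ⟨g', hg00, hg10⟩ := exists_SL2_of_isCoprime hac
  have hB : M = toQ g' * (toQ g'⁻¹ * M) := by
    rw [← Matrix.mul_assoc, toQ_mul_inv, Matrix.one_mul]
  have hB10 : (toQ g'⁻¹ * M) 1 0 = 0 := by
    rw [Matrix.mul_apply, Fin.sum_univ_two, toQ_apply, toQ_apply,
      Matrix.SpecialLinearGroup.coe_inv, Matrix.adjugate_fin_two]
    simp only [Matrix.of_apply, Matrix.cons_val_zero, Matrix.cons_val_one, Matrix.head_cons,
      Matrix.head_fin_const]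
    rw [hg10, hg00, h00, h10]
    push_cast
    ring
  refine ⟨g', toQ g'⁻¹ * M, hB, hB10, ?_⟩
  have hdet : (toQ g'⁻¹ * M).det = M.det := by
    rw [Matrix.det_mul, det_toQ, one_mul]
  rw [← hdet, Matrix.det_fin_two (toQ g'⁻¹ * M), hB10]
  ring

/-- The basic computation: an upper triangular invertible `B` intertwining two integral
unimodular matrices. -/
lemma intertwine_entries (B : Matrix (Fin 2) (Fin 2) ℚ) (hB10 : B 1 0 = 0)
    (C D : SL(2, ℤ)) (h : B * toQ D = toQ C * B) :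
    B 1 1 * (D.1 1 0 : ℚ) = (C.1 1 0 : ℚ) * B 0 0 ∧
    B 0 0 * (D.1 0 0 : ℚ) + B 0 1 * (D.1 1 0 : ℚ) = (C.1 0 0 : ℚ) * B 0 0 ∧
    B 1 1 * (D.1 1 1 : ℚ) = (C.1 1 0 : ℚ) * B 0 1 + (C.1 1 1 : ℚ) * B 1 1 ∧
    B 0 0 * (D.1 0 1 : ℚ) + B 0 1 * (D.1 1 1 : ℚ)
      = (C.1 0 0 : ℚ) * B 0 1 + (C.1 0 1 : ℚ) * B 1 1 := by
  have e10 := congrFun (congrFun h 1) 0
  have e00 := congrFun (congrFun h 0) 0
  have e11 := congrFun (congrFun h 1) 1
  have e01 := congrFun (congrFun h 0) 1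
  simp only [Matrix.mul_apply, Fin.sum_univ_two, toQ_apply, hB10, zero_mul, mul_zero, zero_add,
    add_zero] at e10 e00 e11 e01
  exact ⟨e10, e00, e11, e01⟩

/-- Transport of unipotent conjugates along `w * g = g' * B`: from `Γ₁`-side to `Γ₂`-side. -/
lemma transport (w : Matrix (Fin 2) (Fin 2) ℚ) (g g' : SL(2, ℤ))
    (B : Matrix (Fin 2) (Fin 2) ℚ) (hwg : w * toQ g = toQ g' * B) (hB10 : B 1 0 = 0)
    (hB00 : B 0 0 ≠ 0) (hB11 : B 1 1 ≠ 0) (γ γ' : SL(2, ℤ))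
    (hγ : w * toQ γ = toQ γ' * w) :
    (∀ j : ℤ, γ = g * T ^ j * g⁻¹ →
      ∃ j' : ℤ, γ' = g' * T ^ j' * g'⁻¹ ∧ (j' : ℚ) * B 1 1 = j * B 0 0) ∧
    (∀ j' : ℤ, γ' = g' * T ^ j' * g'⁻¹ →
      ∃ j : ℤ, γ = g * T ^ j * g⁻¹ ∧ (j' : ℚ) * B 1 1 = j * B 0 0) := by
  -- `D := g⁻¹ γ g`, `C := g'⁻¹ γ' g'` satisfy `B * D = C * B`
  have hDC : B * toQ (g⁻¹ * γ * g) = toQ (g'⁻¹ * γ' * g') * B := by
    have h1 : toQ g' * (B * toQ (g⁻¹ * γ * g)) = toQ g' * (toQ (g'⁻¹ * γ' * g') * B) := by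
      calc toQ g' * (B * toQ (g⁻¹ * γ * g))
          = (toQ g' * B) * toQ (g⁻¹ * γ * g) := by rw [Matrix.mul_assoc]
        _ = w * (toQ g * toQ (g⁻¹ * γ * g)) := by rw [← hwg, Matrix.mul_assoc]
        _ = w * toQ (γ * g) := by
            rw [← toQ_mul]
            congr 2
            group
        _ = (w * toQ γ) * toQ g := by rw [toQ_mul, Matrix.mul_assoc]
        _ = toQ γ' * (w * toQ g) := by rw [hγ, Matrix.mul_assoc]
        _ = toQ γ' * (toQ g' * B) := by rw [hwg]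
        _ = toQ (γ' * g') * B := by rw [toQ_mul, Matrix.mul_assoc]
        _ = toQ (g' * (g'⁻¹ * γ' * g')) * B := by
            congr 2
            group
        _ = toQ g' * (toQ (g'⁻¹ * γ' * g') * B) := by rw [toQ_mul, Matrix.mul_assoc]
    have h2 := congrArg (fun X => toQ g'⁻¹ * X) h1
    simp only [← Matrix.mul_assoc, toQ_inv_mul, Matrix.one_mul] at h2
    simpa [Matrix.mul_assoc] using h2
  obtain ⟨e10, e00, e11, e01⟩ := intertwine_entries B hB10 _ _ hDC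
  constructor
  · intro j hj
    have hD : g⁻¹ * γ * g = T ^ j := by rw [hj]; group
    rw [hD] at e10 e00 e11 e01
    rw [coe_T_zpow] at e10 e00 e11 e01
    simp only [Matrix.of_apply, Matrix.cons_val_zero, Matrix.cons_val_one, Matrix.head_cons,
      Matrix.head_fin_const, Int.cast_zero, Int.cast_one, mul_zero, mul_one, add_zero]
      at e10 e00 e11 e01
    have c10 : (g'⁻¹ * γ' * g').1 1 0 = 0 := by
      have : (((g'⁻¹ * γ' * g').1 1 0 : ℤ) : ℚ) = 0 := by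
        rcases mul_eq_zero.mp e10.symm with h | h
        · exact h
        · exact absurd h hB00
      exact_mod_cast this
    have c00 : (g'⁻¹ * γ' * g').1 0 0 = 1 := by
      have : (((g'⁻¹ * γ' * g').1 0 0 : ℤ) : ℚ) = 1 := by
        have h1 : ((((g'⁻¹ * γ' * g').1 0 0 : ℤ) : ℚ) - 1) * B 0 0 = 0 := by
          linear_combination -e00
        rcases mul_eq_zero.mp h1 with h | h
        · linarith
        · exact absurd h hB00
      exact_mod_cast this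
    have c11 : (g'⁻¹ * γ' * g').1 1 1 = 1 := by
      have : (((g'⁻¹ * γ' * g').1 1 1 : ℤ) : ℚ) = 1 := by
        rw [c10] at e11
        have h1 : ((((g'⁻¹ * γ' * g').1 1 1 : ℤ) : ℚ) - 1) * B 1 1 = 0 := by
          push_cast at e11
          linear_combination -e11
        rcases mul_eq_zero.mp h1 with h | h
        · linarith
        · exact absurd h hB11
      exact_mod_cast this
    refine ⟨(g'⁻¹ * γ' * g').1 0 1, ?_, ?_⟩
    · have := eq_T_zpow _ c10 c00 c11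
      rw [← this]
      group
    · rw [c00] at e01
      push_cast at e01
      linear_combination -e01
  · intro j' hj'
    have hC : g'⁻¹ * γ' * g' = T ^ j' := by rw [hj']; group
    rw [hC] at e10 e00 e11 e01
    rw [coe_T_zpow] at e10 e00 e11 e01
    simp only [Matrix.of_apply, Matrix.cons_val_zero, Matrix.cons_val_one, Matrix.head_cons,
      Matrix.head_fin_const, Int.cast_zero, Int.cast_one, zero_mul, one_mul, zero_add]
      at e10 e00 e11 e01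
    have d10 : (g⁻¹ * γ * g).1 1 0 = 0 := by
      have : (((g⁻¹ * γ * g).1 1 0 : ℤ) : ℚ) = 0 := by
        rcases mul_eq_zero.mp e10 with h | h
        · exact absurd h hB11
        · exact h
      exact_mod_cast this
    have d00 : (g⁻¹ * γ * g).1 0 0 = 1 := by
      have : (((g⁻¹ * γ * g).1 0 0 : ℤ) : ℚ) = 1 := by
        rw [d10] at e00
        have h1 : B 0 0 * ((((g⁻¹ * γ * g).1 0 0 : ℤ) : ℚ) - 1) = 0 := by
          push_cast at e00
          linear_combination e00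
        rcases mul_eq_zero.mp h1 with h | h
        · exact absurd h hB00
        · linarith
      exact_mod_cast this
    have d11 : (g⁻¹ * γ * g).1 1 1 = 1 := by
      have : (((g⁻¹ * γ * g).1 1 1 : ℤ) : ℚ) = 1 := by
        have h1 : B 1 1 * ((((g⁻¹ * γ * g).1 1 1 : ℤ) : ℚ) - 1) = 0 := by
          linear_combination e11
        rcases mul_eq_zero.mp h1 with h | h
        · exact absurd h hB11
        · linarith
      exact_mod_cast this
    refine ⟨(g⁻¹ * γ * g).1 0 1, ?_, ?_⟩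
    · have := eq_T_zpow _ d10 d00 d11
      rw [← this]
      group
    · rw [d11] at e01
      push_cast at e01
      linear_combination -e01

/-- **(PD3) wiring, matrix step.** Let `Γ₁, Γ₂ ≤ SL(2, ℤ)` and let `θ : Γ₁ → Γ₂` be a
surjection given by conjugation with a rational matrix `w` of positive determinant
(`w γ = θ(γ) w`).  Then `θ` maps positive primitive parabolic elements of `Γ₁` to positive
primitive parabolic elements of `Γ₂`. -/
theorem map_mem (Γ₁ Γ₂ : Subgroup SL(2, ℤ)) (w : Matrix (Fin 2) (Fin 2) ℚ) (hw : 0 < w.det)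
    (θ : ↥Γ₁ → ↥Γ₂)
    (hθ : ∀ γ : ↥Γ₁, w * toQ (γ : SL(2, ℤ)) = toQ ((θ γ : ↥Γ₂) : SL(2, ℤ)) * w)
    (hsurj : Function.Surjective θ) (π : ↥Γ₁) (hπ : (π : SL(2, ℤ)) ∈ PosPar Γ₁) :
    ((θ π : ↥Γ₂) : SL(2, ℤ)) ∈ PosPar Γ₂ := by
  obtain ⟨g, e, he, hπe, -, hmin⟩ := hπ
  have hMdet : (w * toQ g).det = w.det := by rw [Matrix.det_mul, det_toQ, mul_one]
  obtain ⟨g', B, hwg, hB10, hBdet⟩ := exists_upper (w * toQ g) (by rw [hMdet]; exact hw.ne')
  rw [hMdet] at hBdet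
  have hB00 : B 0 0 ≠ 0 := by
    intro h0
    rw [h0, zero_mul] at hBdet
    exact hw.ne hBdet
  have hB11 : B 1 1 ≠ 0 := by
    intro h0
    rw [h0, mul_zero] at hBdet
    exact hw.ne hBdet
  have hpos : 0 < B 0 0 * B 1 1 := by rw [hBdet]; exact hw
  -- the image of `π`
  obtain ⟨j', hj', hrel⟩ := (transport w g g' B hwg hB10 hB00 hB11 _ _ (hθ π)).1 (e : ℤ)
    (by rw [zpow_natCast]; exact hπe)
  have hj'pos : 0 < j' := by
    have h1 : (j' : ℚ) * (B 1 1 * B 1 1) = (e : ℚ) * (B 0 0 * B 1 1) := by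
      push_cast at hrel
      linear_combination B 1 1 * hrel
    have h2 : 0 < (e : ℚ) * (B 0 0 * B 1 1) := mul_pos (by exact_mod_cast he) hpos
    have h3 : 0 < B 1 1 * B 1 1 := mul_self_pos.mpr hB11
    have h4 : 0 < (j' : ℚ) := by
      by_contra hcon
      push Not at hcon
      have := mul_nonpos_of_nonpos_of_nonneg hcon h3.le
      linarith
    exact_mod_cast h4
  have hnat : ((j'.toNat : ℕ) : ℤ) = j' := Int.toNat_of_nonneg hj'pos.le
  refine ⟨g', j'.toNat, by omega, ?_, (θ π).2, ?_⟩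
  · rw [← zpow_natCast, hnat]
    exact hj'
  · intro f hf hlt hcon
    obtain ⟨γ₁, hγ₁⟩ := hsurj ⟨g' * T ^ f * g'⁻¹, hcon⟩
    have hθ₁ := hθ γ₁
    rw [hγ₁] at hθ₁
    obtain ⟨j, hj, hrel'⟩ := (transport w g g' B hwg hB10 hB00 hB11 _ _ hθ₁).2 (f : ℤ)
      (by rw [zpow_natCast])
    -- `j * x = f * z`, `j' * z = e * x`, `x * z > 0`, `0 < f < j'`
    have h3 : 0 < B 0 0 * B 0 0 := mul_self_pos.mpr hB00
    have hjx : (j : ℚ) * (B 0 0 * B 0 0) = (f : ℚ) * (B 0 0 * B 1 1) := by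
      push_cast at hrel'
      linear_combination -(B 0 0) * hrel'
    have hex : (e : ℚ) * (B 0 0 * B 0 0) = (j' : ℚ) * (B 0 0 * B 1 1) := by
      push_cast at hrel
      linear_combination -(B 0 0) * hrel
    have hjpos : 0 < j := by
      have h2 : 0 < (f : ℚ) * (B 0 0 * B 1 1) := mul_pos (by exact_mod_cast hf) hpos
      have h4 : 0 < (j : ℚ) := by
        by_contra hcon'
        push Not at hcon'
        have := mul_nonpos_of_nonpos_of_nonneg hcon' h3.le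
        linarith
      exact_mod_cast h4
    have hjlt : j < e := by
      have hfj' : (f : ℚ) < (j' : ℚ) := by
        have : (f : ℤ) < j' := by omega
        exact_mod_cast this
      have h2 : (f : ℚ) * (B 0 0 * B 1 1) < (j' : ℚ) * (B 0 0 * B 1 1) :=
        mul_lt_mul_of_pos_right hfj' hpos
      have h4 : (j : ℚ) < (e : ℚ) := by
        by_contra hcon'
        push Not at hcon'
        have := mul_le_mul_of_nonneg_right hcon' h3.le
        linarith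
      exact_mod_cast h4
    have hjnat : ((j.toNat : ℕ) : ℤ) = j := Int.toNat_of_nonneg hjpos.le
    refine hmin j.toNat (by omega) (by omega) ?_
    rw [← zpow_natCast, hjnat, ← hj]
    exact γ₁.2

/-- The inverse of a conjugation by `w` is the conjugation by `w⁻¹`. -/
theorem map_mem_iff (Γ₁ Γ₂ : Subgroup SL(2, ℤ)) (w : Matrix (Fin 2) (Fin 2) ℚ) (hw : 0 < w.det)
    (θ : ↥Γ₁ ≃ ↥Γ₂)
    (hθ : ∀ γ : ↥Γ₁, w * toQ (γ : SL(2, ℤ)) = toQ ((θ γ : ↥Γ₂) : SL(2, ℤ)) * w)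
    (π : ↥Γ₁) : ((θ π : ↥Γ₂) : SL(2, ℤ)) ∈ PosPar Γ₂ ↔ (π : SL(2, ℤ)) ∈ PosPar Γ₁ := by
  constructor
  · intro h
    have hdet : w.det * w⁻¹.det = 1 := by
      rw [← Matrix.det_mul, Matrix.mul_nonsing_inv _ (isUnit_iff_ne_zero.mpr hw.ne'),
        Matrix.det_one]
    have hw' : 0 < w⁻¹.det := by
      by_contra hcon
      push Not at hcon
      have := mul_nonpos_of_nonneg_of_nonpos hw.le hcon
      linarith
    have hunit : IsUnit w.det := isUnit_iff_ne_zero.mpr hw.ne'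
    have key := map_mem Γ₂ Γ₁ w⁻¹ hw' θ.symm ?_ θ.symm.surjective (θ π) h
    · simpa using key
    · intro γ
      have h1 := hθ (θ.symm γ)
      rw [Equiv.apply_symm_apply] at h1
      -- `w * X = Y * w` gives `w⁻¹ * Y = X * w⁻¹`
      calc w⁻¹ * toQ (γ : SL(2, ℤ))
          = w⁻¹ * (toQ (γ : SL(2, ℤ)) * w) * w⁻¹ := by
            rw [Matrix.mul_assoc, Matrix.mul_assoc, Matrix.mul_nonsing_inv _ hunit,
              Matrix.mul_one]
        _ = w⁻¹ * (w * toQ ((θ.symm γ : ↥Γ₁) : SL(2, ℤ))) * w⁻¹ := by rw [h1]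
        _ = toQ ((θ.symm γ : ↥Γ₁) : SL(2, ℤ)) * w⁻¹ := by
            rw [← Matrix.mul_assoc, Matrix.nonsing_inv_mul _ hunit, Matrix.one_mul]
  · exact map_mem Γ₁ Γ₂ w hw θ hθ θ.surjective π

/-! ### conjugacy classes -/

/-- Two presentations `g T^e g⁻¹ = g' T^e' g'⁻¹` (`e, e' > 0`) differ by `± T^j`. -/
theorem conj_eq_conj {g g' : SL(2, ℤ)} {e e' : ℕ} (he' : 0 < e')
    (h : g * T ^ e * g⁻¹ = g' * T ^ e' * g'⁻¹) :
    e = e' ∧ ∃ j : ℤ, g' = g * T ^ j ∨ g' = -(g * T ^ j) := by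
  -- `k := g⁻¹ g'` satisfies `k T^e' = T^e k`
  set k : SL(2, ℤ) := g⁻¹ * g' with hk
  have hkT : k * T ^ e' = T ^ e * k := by
    have h1 : g⁻¹ * (g * T ^ e * g⁻¹) * g' = g⁻¹ * (g' * T ^ e' * g'⁻¹) * g' := by rw [h]
    rw [hk]
    have h2 : g⁻¹ * (g * T ^ e * g⁻¹) * g' = T ^ e * (g⁻¹ * g') := by group
    have h3 : g⁻¹ * (g' * T ^ e' * g'⁻¹) * g' = g⁻¹ * g' * T ^ e' := by group
    rw [h2, h3] at h1
    exact h1.symm
  have hm := congrArg (fun x : SL(2, ℤ) => x.1) hkT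
  simp only [Matrix.SpecialLinearGroup.coe_mul] at hm
  rw [← zpow_natCast, ← zpow_natCast, coe_T_zpow, coe_T_zpow] at hm
  have m11 := congrFun (congrFun hm 1) 1
  have m01 := congrFun (congrFun hm 0) 1
  simp only [Matrix.mul_apply, Fin.sum_univ_two, Matrix.of_apply, Matrix.cons_val_zero,
    Matrix.cons_val_one, Matrix.head_cons, Matrix.head_fin_const, mul_one, mul_zero, zero_mul,
    one_mul, add_zero, zero_add] at m11 m01
  have k10 : k.1 1 0 = 0 := by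
    have h1 : k.1 1 0 * (e' : ℤ) = 0 := by linarith
    rcases mul_eq_zero.mp h1 with h2 | h2
    · exact h2
    · exact absurd h2 (by exact_mod_cast he'.ne')
  have hdet := k.2
  rw [Matrix.det_fin_two, k10, mul_zero, sub_zero] at hdet
  rcases Int.eq_one_or_neg_one_of_mul_eq_one' hdet with ⟨h00, h11⟩ | ⟨h00, h11⟩
  · refine ⟨?_, k.1 0 1, Or.inl ?_⟩
    · rw [h00, h11] at m01
      have : (e' : ℤ) = e := by linarith
      exact_mod_cast this.symm
    · have := eq_T_zpow k k10 h00 h11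
      rw [← this, hk]
      group
  · refine ⟨?_, -(k.1 0 1), Or.inr ?_⟩
    · rw [h00, h11] at m01
      have : (e' : ℤ) = e := by linarith
      exact_mod_cast this.symm
    · have hnk : (-k).1 1 0 = 0 := by simp [k10]
      have hnk0 : (-k).1 0 0 = 1 := by simp [h00]
      have hnk1 : (-k).1 1 1 = 1 := by simp [h11]
      have := eq_T_zpow (-k) hnk hnk0 hnk1
      have h01 : (-k).1 0 1 = -(k.1 0 1) := by simp
      rw [h01] at this
      rw [← this, hk]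
      simp

/-- **Conjugacy classes of positive primitive parabolics** (for `-1 ∈ Γ`): `g T^e g⁻¹` and
`g' T^e' g'⁻¹` are `Γ`-conjugate iff `g' ∈ Γ g ⟨T⟩`, i.e. iff the cosets `Γ g`, `Γ g'` lie in
the same `T`-orbit on `Γ \ SL(2, ℤ)`. -/
theorem conj_iff {Γ : Subgroup SL(2, ℤ)} (hneg : (-1 : SL(2, ℤ)) ∈ Γ) {g g' : SL(2, ℤ)}
    {e e' : ℕ} (he : 0 < e) (he' : 0 < e')
    (hmem : g * T ^ e * g⁻¹ ∈ Γ)
    (hmin : ∀ f : ℕ, 0 < f → f < e → g * T ^ f * g⁻¹ ∉ Γ)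
    (hmem' : g' * T ^ e' * g'⁻¹ ∈ Γ)
    (hmin' : ∀ f : ℕ, 0 < f → f < e' → g' * T ^ f * g'⁻¹ ∉ Γ) :
    (∃ γ ∈ Γ, g' * T ^ e' * g'⁻¹ = γ * (g * T ^ e * g⁻¹) * γ⁻¹) ↔
      ∃ γ ∈ Γ, ∃ j : ℤ, g' = γ * g * T ^ j := by
  constructor
  · rintro ⟨γ, hγ, h⟩
    have h' : γ * g * T ^ e * (γ * g)⁻¹ = g' * T ^ e' * g'⁻¹ := by rw [h]; group
    obtain ⟨-, j, hj | hj⟩ := conj_eq_conj he' h'
    · exact ⟨γ, hγ, j, hj⟩
    · refine ⟨-1 * γ, Γ.mul_mem hneg hγ, j, ?_⟩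
      rw [hj]
      simp [mul_assoc]
  · rintro ⟨γ, hγ, j, rfl⟩
    -- the two minimal exponents agree
    have hiff : ∀ f : ℕ, γ * g * T ^ j * T ^ f * (γ * g * T ^ j)⁻¹ ∈ Γ ↔ g * T ^ f * g⁻¹ ∈ Γ := by
      intro f
      have hcomm : T ^ j * T ^ f * (T ^ j)⁻¹ = T ^ f := by
        have hc : Commute (T ^ j) (T ^ f) := ((Commute.refl T).zpow_left j).pow_right f
        rw [hc.eq, mul_assoc, mul_inv_cancel, mul_one]
      have h1 : γ * g * T ^ j * T ^ f * (γ * g * T ^ j)⁻¹ = γ * (g * T ^ f * g⁻¹) * γ⁻¹ := by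
        calc γ * g * T ^ j * T ^ f * (γ * g * T ^ j)⁻¹
            = γ * g * (T ^ j * T ^ f * (T ^ j)⁻¹) * g⁻¹ * γ⁻¹ := by group
          _ = γ * (g * T ^ f * g⁻¹) * γ⁻¹ := by rw [hcomm]; group
      rw [h1]
      constructor
      · intro hm
        have : g * T ^ f * g⁻¹ = γ⁻¹ * (γ * (g * T ^ f * g⁻¹) * γ⁻¹) * γ := by group
        rw [this]
        exact Γ.mul_mem (Γ.mul_mem (Γ.inv_mem hγ) hm) hγ
      · intro hm
        exact Γ.mul_mem (Γ.mul_mem hγ hm) (Γ.inv_mem hγ)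
    have hee : e' = e := by
      rcases lt_trichotomy e' e with hlt | heq | hgt
      · exact absurd ((hiff e').mp hmem') (hmin e' he' hlt)
      · exact heq
      · exact absurd ((hiff e).mpr hmem) (hmin' e he hgt)
    refine ⟨γ, hγ, ?_⟩
    rw [hee]
    have hcomm : T ^ j * T ^ e * (T ^ j)⁻¹ = T ^ e := by
      have hc : Commute (T ^ j) (T ^ e) := ((Commute.refl T).zpow_left j).pow_right e
      rw [hc.eq, mul_assoc, mul_inv_cancel, mul_one]
    calc γ * g * T ^ j * T ^ e * (γ * g * T ^ j)⁻¹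
        = γ * g * (T ^ j * T ^ e * (T ^ j)⁻¹) * g⁻¹ * γ⁻¹ := by group
      _ = γ * (g * T ^ e * g⁻¹) * γ⁻¹ := by rw [hcomm]; group

/-! ### class sums -/

/-- **Invariance of class sums** (two-group form).  If `π₁`, `π₂` are full irredundant
families of representatives of the conjugacy classes of the conjugation-stable sets `P₁ ⊆ Γ₁`,
`P₂ ⊆ Γ₂`, `θ : Γ₁ ≃* Γ₂` maps `P₁` onto `P₂`, and `u` is conjugation-invariant on `P₂`, then
`∑ u (θ (π₁ i)) = ∑ u (π₂ i)`. -/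
theorem sum_map_eq {Γ₁ Γ₂ : Type*} [Group Γ₁] [Group Γ₂] {k : Type*} [AddCommMonoid k]
    {ι₁ ι₂ : Type*} [Fintype ι₁] [Fintype ι₂]
    (P₁ : Set Γ₁) (P₂ : Set Γ₂) (π₁ : ι₁ → Γ₁) (π₂ : ι₂ → Γ₂)
    (hπ₁ : ∀ i, π₁ i ∈ P₁) (hπ₂ : ∀ i, π₂ i ∈ P₂)
    (hex₁ : ∀ x ∈ P₁, ∃ i γ, x = γ * π₁ i * γ⁻¹)
    (huniq₁ : ∀ i i' γ, π₁ i' = γ * π₁ i * γ⁻¹ → i = i')
    (hex₂ : ∀ y ∈ P₂, ∃ i γ, y = γ * π₂ i * γ⁻¹)
    (huniq₂ : ∀ i i' γ, π₂ i' = γ * π₂ i * γ⁻¹ → i = i')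
    (θ : Γ₁ ≃* Γ₂) (hθ : ∀ x ∈ P₁, θ x ∈ P₂) (hθ' : ∀ y ∈ P₂, θ.symm y ∈ P₁)
    (u : Γ₂ → k) (hu : ∀ γ, ∀ y ∈ P₂, u (γ * y * γ⁻¹) = u y) :
    ∑ i, u (θ (π₁ i)) = ∑ i, u (π₂ i) := by
  classical
  have hch : ∀ i : ι₁, ∃ i₂ γ, θ (π₁ i) = γ * π₂ i₂ * γ⁻¹ := fun i =>
    hex₂ _ (hθ _ (hπ₁ i))
  choose f c hf using hch
  have hval : ∀ i, u (θ (π₁ i)) = u (π₂ (f i)) := by
    intro i
    rw [hf i]
    exact hu _ _ (hπ₂ _)
  have hinj : Function.Injective f := by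
    intro i i' hii
    have h1 := hf i
    have h2 := hf i'
    rw [← hii] at h2
    -- `θ (π₁ i') = (c i' * (c i)⁻¹) * θ (π₁ i) * (…)⁻¹`
    have h3 : θ (π₁ i') = (c i' * (c i)⁻¹) * θ (π₁ i) * (c i' * (c i)⁻¹)⁻¹ := by
      rw [h2, h1]
      group
    have h4 : π₁ i' = θ.symm (c i' * (c i)⁻¹) * π₁ i * (θ.symm (c i' * (c i)⁻¹))⁻¹ := by
      apply θ.injective
      rw [h3]
      simp
    exact huniq₁ i i' _ h4
  have hsurj : Function.Surjective f := by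
    intro i₂
    obtain ⟨i, γ, hγ⟩ := hex₁ _ (hθ' _ (hπ₂ i₂))
    refine ⟨i, ?_⟩
    have h1 : π₂ i₂ = θ γ * θ (π₁ i) * (θ γ)⁻¹ := by
      have := congrArg θ hγ
      simpa using this
    rw [hf i] at h1
    have h2 : π₂ i₂ = (θ γ * c i) * π₂ (f i) * (θ γ * c i)⁻¹ := by
      rw [h1]
      group
    exact huniq₂ (f i) i₂ _ h2
  calc ∑ i, u (θ (π₁ i)) = ∑ i, u (π₂ (f i)) := Finset.sum_congr rfl (fun i _ => hval i)
    _ = ∑ i, u (π₂ i) :=
      Function.Bijective.sum_comp ⟨hinj, hsurj⟩ (fun i => u (π₂ i))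

/-- **Invariance of class sums** under an automorphism preserving the class set. -/
theorem sum_comp_eq {Γ : Type*} [Group Γ] {k : Type*} [AddCommMonoid k]
    {ι : Type*} [Fintype ι] (P : Set Γ) (π : ι → Γ) (hπ : ∀ i, π i ∈ P)
    (hex : ∀ x ∈ P, ∃ i γ, x = γ * π i * γ⁻¹)
    (huniq : ∀ i i' γ, π i' = γ * π i * γ⁻¹ → i = i')
    (θ : Γ ≃* Γ) (hθ : ∀ x ∈ P, θ x ∈ P) (hθ' : ∀ y ∈ P, θ.symm y ∈ P)
    (u : Γ → k) (hu : ∀ γ, ∀ y ∈ P, u (γ * y * γ⁻¹) = u y) :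
    ∑ i, u (θ (π i)) = ∑ i, u (π i) :=
  sum_map_eq P P π π hπ hπ hex huniq hex huniq θ hθ hθ' u hu

end Fermat.Agent.P7.PosPar
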